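import Mathlib
import Fermat.Agent.CFT.Global.TensorGalois

set_option autoImplicit false
set_option linter.unusedSectionVars false

/-!
# CFT, S55 global-idelic stream, chunk (GL4): semilocal algebras and the idele group of `L / K`

Model (helper27's plan v0): only the finite places `v` of the base field `K` are used.
`L_v := K_v ⊗[K] L`, `O_{L,v} :=` integral closure of `O_v` in `L_v`,
`J_L := {x : ∀ v, (L_v)ˣ | x v ∈ O_{L,v}ˣ for almost all v}`, `G = Gal(L/K)` acts componentwise.
-/

open NumberField IsDedekindDomain
open scoped TensorProduct Fermat.Agent.CFT.TensorGal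

namespace Fermat.Agent.CFT

section Defs

variable (K L : Type*) [Field K] [NumberField K] [Field L] [NumberField L] [Algebra K L]

/-- the semilocal algebra `L_v = K_v ⊗[K] L`. -/
abbrev semiLocal (v : HeightOneSpectrum (𝓞 K)) : Type _ := (v.adicCompletion K) ⊗[K] L

/-- `O_{L,v}`: the integral closure of `O_v` in `L_v`. -/
noncomputable abbrev semiLocalInt (v : HeightOneSpectrum (𝓞 K)) :
    Subalgebra (v.adicCompletionIntegers K) (semiLocal K L v) :=
  integralClosure (v.adicCompletionIntegers K) (semiLocal K L v)

/-- `O_{L,v}ˣ` as a subgroup of `(L_v)ˣ`. -/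
noncomputable def semiLocalUnits (v : HeightOneSpectrum (𝓞 K)) : Subgroup (semiLocal K L v)ˣ :=
  (semiLocalInt K L v).toSubsemiring.toSubmonoid.units

variable {K L} in
theorem mem_semiLocalUnits_iff {v : HeightOneSpectrum (𝓞 K)} (x : (semiLocal K L v)ˣ) :
    x ∈ semiLocalUnits K L v ↔
      IsIntegral (v.adicCompletionIntegers K) (x : semiLocal K L v) ∧
        IsIntegral (v.adicCompletionIntegers K) ((x⁻¹ : (semiLocal K L v)ˣ) : semiLocal K L v) := by
  rw [semiLocalUnits, Submonoid.mem_units_iff]
  rfl

/-- the idele group `J_L` of `L`, indexed by the finite places of `K`. -/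
noncomputable def ideleGroup : Subgroup (∀ v : HeightOneSpectrum (𝓞 K), (semiLocal K L v)ˣ) where
  carrier := {x | ∀ᶠ v in Filter.cofinite, x v ∈ semiLocalUnits K L v}
  one_mem' := by
    show ∀ᶠ v in Filter.cofinite, (1 : ∀ v, (semiLocal K L v)ˣ) v ∈ semiLocalUnits K L v
    exact Filter.Eventually.of_forall fun v => (semiLocalUnits K L v).one_mem
  mul_mem' := fun {x y} hx hy => by
    show ∀ᶠ v in Filter.cofinite, (x * y) v ∈ semiLocalUnits K L v
    have hx' : ∀ᶠ v in Filter.cofinite, x v ∈ semiLocalUnits K L v := hx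
    have hy' : ∀ᶠ v in Filter.cofinite, y v ∈ semiLocalUnits K L v := hy
    filter_upwards [hx', hy'] with v h1 h2
    exact (semiLocalUnits K L v).mul_mem h1 h2
  inv_mem' := fun {x} hx => by
    show ∀ᶠ v in Filter.cofinite, x⁻¹ v ∈ semiLocalUnits K L v
    have hx' : ∀ᶠ v in Filter.cofinite, x v ∈ semiLocalUnits K L v := hx
    filter_upwards [hx'] with v h1
    exact (semiLocalUnits K L v).inv_mem h1

variable {K L} in
theorem mem_ideleGroup_iff (x : ∀ v : HeightOneSpectrum (𝓞 K), (semiLocal K L v)ˣ) :
    x ∈ ideleGroup K L ↔ ∀ᶠ v in Filter.cofinite, x v ∈ semiLocalUnits K L v := Iff.rfl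

end Defs

section Diag

variable (K L : Type*) [Field K] [NumberField K] [Field L] [NumberField L] [Algebra K L]

/-- the embedding `L → L_v`, `x ↦ 1 ⊗ x`. -/
noncomputable abbrev semiLocalIncl (v : HeightOneSpectrum (𝓞 K)) : L →ₐ[K] semiLocal K L v :=
  Algebra.TensorProduct.includeRight

theorem semiLocalIncl_injective (v : HeightOneSpectrum (𝓞 K)) :
    Function.Injective (semiLocalIncl K L v) :=
  Algebra.TensorProduct.includeRight_injective (algebraMap K (v.adicCompletion K)).injective

variable {K L}

/-- if all the coefficients of the minimal polynomial of `x` are `v`-integral then `1 ⊗ x` is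
integral over `O_v`. -/
theorem isIntegral_semiLocalIncl_of_forall_coeff (v : HeightOneSpectrum (𝓞 K)) (x : L)
    (h : ∀ n, v.valuation K ((minpoly K x).coeff n) ≤ 1) :
    IsIntegral (v.adicCompletionIntegers K) (semiLocalIncl K L v x) := by
  have hx : IsIntegral K x := Algebra.IsIntegral.isIntegral x
  set P := minpoly K x with hP
  have hPm : P.Monic := minpoly.monic hx
  set Pv := P.map (algebraMap K (v.adicCompletion K)) with hPv
  have hlift : Pv ∈ Polynomial.lifts (algebraMap (v.adicCompletionIntegers K)
      (v.adicCompletion K)) := by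
    rw [Polynomial.lifts_iff_coeff_lifts]
    intro n
    rw [hPv, Polynomial.coeff_map]
    have hmem : (algebraMap K (v.adicCompletion K) (P.coeff n)) ∈ v.adicCompletionIntegers K := by
      rw [HeightOneSpectrum.mem_adicCompletionIntegers]
      have := HeightOneSpectrum.valuedAdicCompletion_eq_valuation' v (P.coeff n)
      rw [show (algebraMap K (v.adicCompletion K) (P.coeff n)) =
        ((P.coeff n : K) : v.adicCompletion K) from rfl, this]
      exact h n
    exact ⟨⟨_, hmem⟩, rfl⟩
  obtain ⟨Q, hQmap, -, hQm⟩ := Polynomial.lifts_and_degree_eq_and_monic hlift (hPm.map _)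
  refine ⟨Q, hQm, ?_⟩
  rw [← Polynomial.aeval_def, ← Polynomial.aeval_map_algebraMap (v.adicCompletion K), hQmap, hPv,
    Polynomial.aeval_map_algebraMap, Polynomial.aeval_algHom_apply, hP, minpoly.aeval, map_zero]

/-- `1 ⊗ x` is integral over `O_v` for almost all `v`. -/
theorem eventually_isIntegral_semiLocalIncl (x : L) :
    ∀ᶠ v : HeightOneSpectrum (𝓞 K) in Filter.cofinite,
      IsIntegral (v.adicCompletionIntegers K) (semiLocalIncl K L v x) := by
  have hfin : {v : HeightOneSpectrum (𝓞 K) |
      ∃ n ∈ (minpoly K x).support, 1 < v.valuation K ((minpoly K x).coeff n)}.Finite := by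
    have : {v : HeightOneSpectrum (𝓞 K) |
        ∃ n ∈ (minpoly K x).support, 1 < v.valuation K ((minpoly K x).coeff n)} =
        ⋃ n ∈ (minpoly K x).support, HeightOneSpectrum.Support (𝓞 K) ((minpoly K x).coeff n) := by
      ext v
      simp [HeightOneSpectrum.Support]
    rw [this]
    exact Set.Finite.biUnion (Finset.finite_toSet _) fun n _ =>
      HeightOneSpectrum.Support.finite (𝓞 K) _
  rw [Filter.eventually_cofinite]
  refine hfin.subset fun v hv => ?_
  rw [Set.mem_ofPred_eq] at hv ⊢
  by_contra hcon
  apply hv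
  refine isIntegral_semiLocalIncl_of_forall_coeff v x fun n => ?_
  by_cases hn : n ∈ (minpoly K x).support
  · by_contra hlt
    exact hcon ⟨n, hn, not_le.mp hlt⟩
  · rw [Polynomial.notMem_support_iff.mp hn, map_zero]
    exact zero_le_one

/-- the diagonal embedding `Lˣ → J_L`. -/
noncomputable def diagIdele : Lˣ →* ideleGroup K L where
  toFun x := ⟨fun v => Units.map (semiLocalIncl K L v : L →* semiLocal K L v) x, by
    rw [mem_ideleGroup_iff]
    filter_upwards [eventually_isIntegral_semiLocalIncl (K := K) (x : L),
      eventually_isIntegral_semiLocalIncl (K := K) ((x⁻¹ : Lˣ) : L)] with v h1 h2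
    rw [mem_semiLocalUnits_iff]
    exact ⟨h1, h2⟩⟩
  map_one' := by
    apply Subtype.ext
    funext v
    simp
  map_mul' x y := by
    apply Subtype.ext
    funext v
    simp

theorem diagIdele_apply (x : Lˣ) (v : HeightOneSpectrum (𝓞 K)) :
    ((diagIdele (K := K) x : ideleGroup K L) : ∀ v, (semiLocal K L v)ˣ) v =
      Units.map (semiLocalIncl K L v : L →* semiLocal K L v) x := rfl

end Diag

section Galois

attribute [local instance] Units.mulDistribMulActionRight

variable (K L : Type*) [Field K] [NumberField K] [Field L] [NumberField L] [Algebra K L]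

variable {K L} in
theorem semiLocal_smul_def {v : HeightOneSpectrum (𝓞 K)} (g : Gal(L/K)) (y : semiLocal K L v) :
    g • y = tensorRightHom K (v.adicCompletion K) L Gal(L/K) g y := rfl

variable {K L} in
theorem semiLocal_smul_incl {v : HeightOneSpectrum (𝓞 K)} (g : Gal(L/K)) (x : L) :
    g • semiLocalIncl K L v x = semiLocalIncl K L v (g x) := by
  show g • ((1 : v.adicCompletion K) ⊗ₜ[K] x) = (1 : v.adicCompletion K) ⊗ₜ[K] (g x)
  rw [tensorRight_smul_tmul]
  rfl

variable {K L} in
/-- the Galois action preserves integrality over `O_v`. -/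
theorem isIntegral_semiLocal_smul {v : HeightOneSpectrum (𝓞 K)} (g : Gal(L/K))
    {y : semiLocal K L v} (hy : IsIntegral (v.adicCompletionIntegers K) y) :
    IsIntegral (v.adicCompletionIntegers K) (g • y) :=
  hy.map ((tensorRightHom K (v.adicCompletion K) L Gal(L/K) g).toAlgHom.restrictScalars
    (v.adicCompletionIntegers K))

variable {K L} in
theorem units_smul_val {v : HeightOneSpectrum (𝓞 K)} (g : Gal(L/K)) (u : (semiLocal K L v)ˣ) :
    ((g • u : (semiLocal K L v)ˣ) : semiLocal K L v) = g • (u : semiLocal K L v) := rfl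

variable {K L} in
theorem smul_mem_semiLocalUnits {v : HeightOneSpectrum (𝓞 K)} (g : Gal(L/K))
    {u : (semiLocal K L v)ˣ} (hu : u ∈ semiLocalUnits K L v) : g • u ∈ semiLocalUnits K L v := by
  rw [mem_semiLocalUnits_iff] at hu ⊢
  refine ⟨isIntegral_semiLocal_smul g hu.1, ?_⟩
  have : ((g • u)⁻¹ : (semiLocal K L v)ˣ) = g • u⁻¹ := (smul_inv' g u).symm
  rw [this]
  exact isIntegral_semiLocal_smul g hu.2

variable {K L} in
theorem smul_mem_ideleGroup (g : Gal(L/K)) {x : ∀ v : HeightOneSpectrum (𝓞 K), (semiLocal K L v)ˣ}
    (hx : x ∈ ideleGroup K L) : g • x ∈ ideleGroup K L := by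
  rw [mem_ideleGroup_iff] at hx ⊢
  filter_upwards [hx] with v hv
  exact smul_mem_semiLocalUnits g hv

/-- the Galois action on the idele group `J_L`. -/
@[reducible] noncomputable def ideleGroupAction : MulDistribMulAction Gal(L/K) (ideleGroup K L) where
  smul g x := ⟨g • x.1, smul_mem_ideleGroup g x.2⟩
  one_smul x := Subtype.ext (one_smul _ x.1)
  mul_smul g h x := Subtype.ext (mul_smul g h x.1)
  smul_mul g x y := Subtype.ext (smul_mul' g x.1 y.1)
  smul_one g := Subtype.ext (smul_one g)

end Galois

namespace IdeleAct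
attribute [scoped instance] Units.mulDistribMulActionRight
attribute [scoped instance] Fermat.Agent.CFT.ideleGroupAction
end IdeleAct

section GaloisDiag

open scoped Fermat.Agent.CFT.IdeleAct

variable {K L : Type*} [Field K] [NumberField K] [Field L] [NumberField L] [Algebra K L]

theorem ideleGroup_smul_apply (g : Gal(L/K)) (x : ideleGroup K L) (v : HeightOneSpectrum (𝓞 K)) :
    ((g • x : ideleGroup K L) : ∀ v, (semiLocal K L v)ˣ) v = g • (x : ∀ v, (semiLocal K L v)ˣ) v :=
  rfl

/-- the diagonal embedding is Galois-equivariant. -/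
theorem diagIdele_smul (g : Gal(L/K)) (x : Lˣ) :
    diagIdele (K := K) (Units.map (g : L →* L) x) = g • diagIdele (K := K) x := by
  apply Subtype.ext
  funext v
  apply Units.ext
  rw [diagIdele_apply, ideleGroup_smul_apply, units_smul_val, diagIdele_apply]
  simp only [Units.coe_map, MonoidHom.coe_coe]
  exact (semiLocal_smul_incl g (x : L)).symm

theorem diagIdele_injective : Function.Injective (diagIdele (K := K) (L := L)) := by
  intro x y hxy
  obtain ⟨v⟩ : Nonempty (HeightOneSpectrum (𝓞 K)) := by
    obtain ⟨m, hm⟩ := Ideal.exists_maximal (𝓞 K)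
    exact ⟨⟨m, hm.isPrime,
      Ring.ne_bot_of_isMaximal_of_not_isField hm (RingOfIntegers.not_isField K)⟩⟩
  have h1 := congrArg (fun z : ideleGroup K L => ((z : ∀ v, (semiLocal K L v)ˣ) v :
    semiLocal K L v)) hxy
  simp only [diagIdele_apply, Units.coe_map, MonoidHom.coe_coe] at h1
  exact Units.ext (semiLocalIncl_injective K L v h1)

end GaloisDiag

section QuotientAction

variable {G A : Type*} [Group G] [CommGroup A] [MulDistribMulAction G A]

/-- the action of `G` on the quotient of a `G`-module by a `G`-stable subgroup. -/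
@[reducible] def quotientMulDistribMulAction (N : Subgroup A)
    (hN : ∀ (g : G), ∀ a ∈ N, g • a ∈ N) : MulDistribMulAction G (A ⧸ N) where
  smul g := QuotientGroup.map N N (MulDistribMulAction.toMonoidHom A g) (fun a ha => hN g a ha)
  one_smul x := by
    induction x using QuotientGroup.induction_on with
    | H a =>
      show QuotientGroup.map N N _ _ (a : A ⧸ N) = _
      rw [QuotientGroup.map_mk]
      simp
  mul_smul g h x := by
    induction x using QuotientGroup.induction_on with
    | H a =>
      show QuotientGroup.map N N _ _ (a : A ⧸ N) =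
        QuotientGroup.map N N _ _ (QuotientGroup.map N N _ _ (a : A ⧸ N))
      rw [QuotientGroup.map_mk, QuotientGroup.map_mk, QuotientGroup.map_mk]
      simp [mul_smul]
  smul_mul g x y := map_mul _ x y
  smul_one g := map_one _

theorem quotientMulDistribMulAction_mk (N : Subgroup A)
    (hN : ∀ (g : G), ∀ a ∈ N, g • a ∈ N) (g : G) (a : A) :
    letI := quotientMulDistribMulAction N hN
    g • (a : A ⧸ N) = ((g • a : A) : A ⧸ N) := rfl

end QuotientAction

section IdeleClass

open scoped Fermat.Agent.CFT.IdeleAct

variable (K L : Type*) [Field K] [NumberField K] [Field L] [NumberField L] [Algebra K L]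

/-- the principal ideles. -/
noncomputable def principalIdeles : Subgroup (ideleGroup K L) := (diagIdele (K := K) (L := L)).range

variable {K L} in
theorem smul_mem_principalIdeles (g : Gal(L/K)) (a : ideleGroup K L)
    (ha : a ∈ principalIdeles K L) : g • a ∈ principalIdeles K L := by
  obtain ⟨x, rfl⟩ := ha
  exact ⟨Units.map (g : L →* L) x, diagIdele_smul g x⟩

/-- the idele class group `C_L = J_L / Lˣ`. -/
abbrev ideleClass : Type _ := ideleGroup K L ⧸ principalIdeles K L

/-- the Galois action on the idele class group. -/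
@[reducible] noncomputable def ideleClassAction : MulDistribMulAction Gal(L/K) (ideleClass K L) :=
  quotientMulDistribMulAction (principalIdeles K L) smul_mem_principalIdeles

end IdeleClass

namespace IdeleAct
attribute [scoped instance] Fermat.Agent.CFT.ideleClassAction
end IdeleAct

end Fermat.Agent.CFT
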