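import Mathlib
import Fermat.Agent.CFT.Idele.Defs

set_option autoImplicit false
set_option linter.unusedSectionVars false

/-!
# CFT, S55 global-idelic stream, chunk (GL4), part 2: the ideles of the base field, Galois
invariants of `J_L`, and the idele norm

`J_K := {x : ∀ v, (K_v)ˣ | |x v|_v = 1 for almost all v}` (finite ideles of `K`),
`baseToIdele : J_K →* J_L` induced by `K_v → L_v = K_v ⊗[K] L`; for `L / K` Galois the image is
exactly the group of `Gal(L/K)`-invariants of `J_L`; `ideleNorm : J_L →* J_K` is characterised by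
`baseToIdele (ideleNorm x) = ∏ g, g • x`.
-/

open NumberField IsDedekindDomain
open scoped TensorProduct Fermat.Agent.CFT.TensorGal Fermat.Agent.CFT.IdeleAct

namespace Fermat.Agent.CFT

section BaseDefs

variable (K : Type*) [Field K] [NumberField K]

/-- the local units `O_vˣ` as a subgroup of `(K_v)ˣ`. -/
noncomputable def baseLocalUnits (v : HeightOneSpectrum (𝓞 K)) : Subgroup (v.adicCompletion K)ˣ where
  carrier := {u | Valued.v (u : v.adicCompletion K) = 1}
  one_mem' := by simp
  mul_mem' := fun {a b} ha hb => by
    rw [Set.mem_ofPred_eq] at ha hb ⊢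
    rw [Units.val_mul, map_mul, ha, hb, one_mul]
  inv_mem' := fun {a} ha => by
    rw [Set.mem_ofPred_eq] at ha ⊢
    rw [Units.val_inv_eq_inv_val, map_inv₀, ha, inv_one]

variable {K} in
theorem mem_baseLocalUnits_iff {v : HeightOneSpectrum (𝓞 K)} (u : (v.adicCompletion K)ˣ) :
    u ∈ baseLocalUnits K v ↔ Valued.v (u : v.adicCompletion K) = 1 := Iff.rfl

/-- the (finite) idele group `J_K` of the base field. -/
noncomputable def baseIdeleGroup : Subgroup (∀ v : HeightOneSpectrum (𝓞 K), (v.adicCompletion K)ˣ) where
  carrier := {x | ∀ᶠ v in Filter.cofinite, x v ∈ baseLocalUnits K v}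
  one_mem' := by
    show ∀ᶠ v in Filter.cofinite, (1 : ∀ w : HeightOneSpectrum (𝓞 K), (w.adicCompletion K)ˣ) v ∈ baseLocalUnits K v
    exact Filter.Eventually.of_forall fun v => (baseLocalUnits K v).one_mem
  mul_mem' := fun {x y} hx hy => by
    show ∀ᶠ v in Filter.cofinite, (x * y) v ∈ baseLocalUnits K v
    have hx' : ∀ᶠ v in Filter.cofinite, x v ∈ baseLocalUnits K v := hx
    have hy' : ∀ᶠ v in Filter.cofinite, y v ∈ baseLocalUnits K v := hy
    filter_upwards [hx', hy'] with v h1 h2
    exact (baseLocalUnits K v).mul_mem h1 h2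
  inv_mem' := fun {x} hx => by
    show ∀ᶠ v in Filter.cofinite, x⁻¹ v ∈ baseLocalUnits K v
    have hx' : ∀ᶠ v in Filter.cofinite, x v ∈ baseLocalUnits K v := hx
    filter_upwards [hx'] with v h1
    exact (baseLocalUnits K v).inv_mem h1

variable {K} in
theorem mem_baseIdeleGroup_iff (x : ∀ v : HeightOneSpectrum (𝓞 K), (v.adicCompletion K)ˣ) :
    x ∈ baseIdeleGroup K ↔ ∀ᶠ v in Filter.cofinite, x v ∈ baseLocalUnits K v := Iff.rfl

/-- the diagonal embedding `Kˣ → J_K`. -/
noncomputable def diagBase : Kˣ →* baseIdeleGroup K where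
  toFun x := ⟨fun v => Units.map (algebraMap K (v.adicCompletion K) : K →* v.adicCompletion K) x, by
    rw [mem_baseIdeleGroup_iff]
    have h1 := HeightOneSpectrum.Support.finite (𝓞 K) (x : K)
    have h2 := HeightOneSpectrum.Support.finite (𝓞 K) ((x⁻¹ : Kˣ) : K)
    rw [Filter.eventually_cofinite]
    refine (h1.union h2).subset fun v hv => ?_
    rw [Set.mem_ofPred_eq, mem_baseLocalUnits_iff, Units.coe_map, MonoidHom.coe_coe] at hv
    have hval : Valued.v (algebraMap K (v.adicCompletion K) (x : K)) = v.valuation K (x : K) :=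
      HeightOneSpectrum.valuedAdicCompletion_eq_valuation' v (x : K)
    rw [hval] at hv
    simp only [Set.mem_union, HeightOneSpectrum.Support, Set.mem_ofPred_eq]
    rcases lt_trichotomy (v.valuation K (x : K)) 1 with h | h | h
    · right
      rw [Units.val_inv_eq_inv_val, map_inv₀]
      exact (one_lt_inv₀ (by
        rw [zero_lt_iff]; exact (Valuation.ne_zero_iff _).mpr x.ne_zero)).mpr h
    · exact absurd h hv
    · left; exact h⟩
  map_one' := by
    apply Subtype.ext
    funext v
    simp
  map_mul' x y := by
    apply Subtype.ext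
    funext v
    simp

variable {K} in
theorem diagBase_apply (x : Kˣ) (v : HeightOneSpectrum (𝓞 K)) :
    ((diagBase K x : baseIdeleGroup K) : ∀ v, (v.adicCompletion K)ˣ) v =
      Units.map (algebraMap K (v.adicCompletion K) : K →* v.adicCompletion K) x := rfl

end BaseDefs

section BaseToIdele

variable (K L : Type*) [Field K] [NumberField K] [Field L] [NumberField L] [Algebra K L]

theorem semiLocal_algebraMap_injective (v : HeightOneSpectrum (𝓞 K)) :
    Function.Injective (algebraMap (v.adicCompletion K) (semiLocal K L v)) :=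
  Algebra.TensorProduct.includeLeft_injective (S := v.adicCompletion K)
    (algebraMap K L).injective

variable {K L} in
/-- elements of `O_v` are integral in `L_v`. -/
theorem isIntegral_semiLocal_algebraMap {v : HeightOneSpectrum (𝓞 K)} {a : v.adicCompletion K}
    (ha : Valued.v a ≤ 1) :
    IsIntegral (v.adicCompletionIntegers K) (algebraMap (v.adicCompletion K) (semiLocal K L v) a) := by
  have hmem : a ∈ v.adicCompletionIntegers K :=
    (HeightOneSpectrum.mem_adicCompletionIntegers (𝓞 K) K v).mpr ha
  have : algebraMap (v.adicCompletion K) (semiLocal K L v) a =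
      algebraMap (v.adicCompletionIntegers K) (semiLocal K L v) ⟨a, hmem⟩ := rfl
  rw [this]
  exact isIntegral_algebraMap

variable {K L} in
/-- an element of `K_v` which is integral over `O_v` in `L_v` lies in `O_v`. -/
theorem valued_le_one_of_isIntegral_semiLocal {v : HeightOneSpectrum (𝓞 K)} {a : v.adicCompletion K}
    (ha : IsIntegral (v.adicCompletionIntegers K)
      (algebraMap (v.adicCompletion K) (semiLocal K L v) a)) : Valued.v a ≤ 1 := by
  have h1 : IsIntegral (v.adicCompletionIntegers K) a :=
    (isIntegral_algebraMap_iff (semiLocal_algebraMap_injective K L v)).mp ha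
  obtain ⟨y, hy⟩ := IsIntegrallyClosed.isIntegral_iff.mp h1
  rw [← hy]
  exact (HeightOneSpectrum.mem_adicCompletionIntegers (𝓞 K) K v).mp y.2

variable {K L} in
theorem map_mem_semiLocalUnits_iff {v : HeightOneSpectrum (𝓞 K)} (u : (v.adicCompletion K)ˣ) :
    Units.map (algebraMap (v.adicCompletion K) (semiLocal K L v) : _ →* _) u ∈
      semiLocalUnits K L v ↔ u ∈ baseLocalUnits K v := by
  rw [mem_semiLocalUnits_iff, mem_baseLocalUnits_iff]
  have hinv : ((Units.map (algebraMap (v.adicCompletion K) (semiLocal K L v) : _ →* _) u)⁻¹ :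
      (semiLocal K L v)ˣ) = Units.map (algebraMap (v.adicCompletion K) (semiLocal K L v) : _ →* _)
        u⁻¹ := (map_inv _ u).symm
  rw [hinv]
  simp only [Units.coe_map, MonoidHom.coe_coe]
  constructor
  · rintro ⟨h1, h2⟩
    have h1' := valued_le_one_of_isIntegral_semiLocal h1
    have h2' := valued_le_one_of_isIntegral_semiLocal h2
    rw [Units.val_inv_eq_inv_val, map_inv₀] at h2'
    have hne : Valued.v (u : v.adicCompletion K) ≠ 0 := (Valuation.ne_zero_iff _).mpr u.ne_zero
    refine le_antisymm h1' ?_
    rwa [inv_le_one₀ (zero_lt_iff.mpr hne)] at h2'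
  · intro h
    refine ⟨isIntegral_semiLocal_algebraMap h.le, isIntegral_semiLocal_algebraMap ?_⟩
    rw [Units.val_inv_eq_inv_val, map_inv₀, h, inv_one]

/-- the map `J_K → J_L` induced by `K_v → L_v`. -/
noncomputable def baseToIdele : baseIdeleGroup K →* ideleGroup K L where
  toFun x := ⟨fun v => Units.map
      (algebraMap (v.adicCompletion K) (semiLocal K L v) : _ →* _) (x.1 v), by
    rw [mem_ideleGroup_iff]
    have hx : ∀ᶠ v in Filter.cofinite, x.1 v ∈ baseLocalUnits K v := x.2
    filter_upwards [hx] with v hv
    exact (map_mem_semiLocalUnits_iff _).mpr hv⟩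
  map_one' := by
    apply Subtype.ext
    funext v
    simp
  map_mul' x y := by
    apply Subtype.ext
    funext v
    simp

variable {K L} in
theorem baseToIdele_apply (x : baseIdeleGroup K) (v : HeightOneSpectrum (𝓞 K)) :
    ((baseToIdele K L x : ideleGroup K L) : ∀ v, (semiLocal K L v)ˣ) v =
      Units.map (algebraMap (v.adicCompletion K) (semiLocal K L v) : _ →* _) (x.1 v) := rfl

theorem baseToIdele_injective : Function.Injective (baseToIdele K L) := by
  intro x y hxy
  apply Subtype.ext
  funext v
  have h1 := congrArg (fun z : ideleGroup K L => ((z : ∀ v, (semiLocal K L v)ˣ) v :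
    semiLocal K L v)) hxy
  simp only [baseToIdele_apply, Units.coe_map, MonoidHom.coe_coe] at h1
  exact Units.ext (semiLocal_algebraMap_injective K L v h1)

/-- compatibility of the diagonal embeddings. -/
theorem baseToIdele_diagBase (x : Kˣ) :
    baseToIdele K L (diagBase K x) = diagIdele (K := K) (Units.map (algebraMap K L : K →* L) x) := by
  apply Subtype.ext
  funext v
  apply Units.ext
  rw [baseToIdele_apply, diagBase_apply, diagIdele_apply]
  simp only [Units.coe_map, MonoidHom.coe_coe]
  rw [Algebra.TensorProduct.algebraMap_apply, Algebra.algebraMap_self, RingHom.id_apply]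
  show (algebraMap K (v.adicCompletion K) (x : K)) ⊗ₜ[K] (1 : L) =
    (1 : v.adicCompletion K) ⊗ₜ[K] (algebraMap K L (x : K))
  rw [Algebra.algebraMap_eq_smul_one, Algebra.algebraMap_eq_smul_one, TensorProduct.smul_tmul]

end BaseToIdele

section Invariants

variable (K L : Type*) [Field K] [NumberField K] [Field L] [NumberField L] [Algebra K L]

variable {K L} in
/-- the image of `J_K` is fixed by the Galois group. -/
theorem smul_baseToIdele (g : Gal(L/K)) (x : baseIdeleGroup K) :
    g • baseToIdele K L x = baseToIdele K L x := by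
  apply Subtype.ext
  funext v
  apply Units.ext
  rw [ideleGroup_smul_apply, units_smul_val, baseToIdele_apply]
  simp only [Units.coe_map, MonoidHom.coe_coe]
  rw [semiLocal_smul_def, AlgEquiv.commutes]

variable [IsGalois K L]

variable {K L} in
/-- local form: a Galois-invariant unit of `L_v` comes from `K_v`. -/
theorem exists_units_map_eq_of_smul_eq {v : HeightOneSpectrum (𝓞 K)} (u : (semiLocal K L v)ˣ)
    (hu : ∀ g : Gal(L/K), g • u = u) :
    ∃ a : (v.adicCompletion K)ˣ,
      Units.map (algebraMap (v.adicCompletion K) (semiLocal K L v) : _ →* _) a = u := by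
  have hinv : Algebra.IsInvariant K L Gal(L/K) := IsGaloisGroup.isInvariant (G := Gal(L/K))
  have hfix : ∀ g : Gal(L/K), g • (u : semiLocal K L v) = (u : semiLocal K L v) := fun g => by
    rw [← units_smul_val, hu g]
  obtain ⟨a, ha⟩ := Algebra.IsInvariant.isInvariant (A := v.adicCompletion K)
    (G := Gal(L/K)) (u : semiLocal K L v) hfix
  have ha0 : a ≠ 0 := by
    rintro rfl
    rw [map_zero] at ha
    exact u.ne_zero ha.symm
  refine ⟨Units.mk0 a ha0, Units.ext ?_⟩
  rw [Units.coe_map, MonoidHom.coe_coe, Units.val_mk0, ha]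

/-- **Galois invariants of the idele group**: `(J_L)^G = J_K`. -/
theorem mem_range_baseToIdele_iff (x : ideleGroup K L) :
    x ∈ (baseToIdele K L).range ↔ ∀ g : Gal(L/K), g • x = x := by
  constructor
  · rintro ⟨y, rfl⟩ g
    exact smul_baseToIdele g y
  · intro hx
    have hloc : ∀ v, ∀ g : Gal(L/K), g • (x.1 v) = x.1 v := fun v g => by
      have := congrArg (fun z : ideleGroup K L => (z : ∀ v, (semiLocal K L v)ˣ) v) (hx g)
      simpa only [ideleGroup_smul_apply] using this
    choose a ha using fun v => exists_units_map_eq_of_smul_eq (x.1 v) (hloc v)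
    have hmem : a ∈ baseIdeleGroup K := by
      rw [mem_baseIdeleGroup_iff]
      have hx2 : ∀ᶠ v in Filter.cofinite, x.1 v ∈ semiLocalUnits K L v := x.2
      filter_upwards [hx2] with v hv
      rw [← map_mem_semiLocalUnits_iff (L := L), ha v]
      exact hv
    refine ⟨⟨a, hmem⟩, ?_⟩
    apply Subtype.ext
    funext v
    rw [baseToIdele_apply]
    exact ha v

/-- the product of the Galois conjugates of an idele. -/
noncomputable def ideleNormEnd : ideleGroup K L →* ideleGroup K L where
  toFun x := ∏ g : Gal(L/K), g • x
  map_one' := by simp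
  map_mul' x y := by
    rw [← Finset.prod_mul_distrib]
    exact Finset.prod_congr rfl fun g _ => smul_mul' g x y

variable {K L} in
theorem ideleNormEnd_apply (x : ideleGroup K L) :
    ideleNormEnd K L x = ∏ g : Gal(L/K), g • x := rfl

variable {K L} in
theorem smul_ideleNormEnd (h : Gal(L/K)) (x : ideleGroup K L) :
    h • ideleNormEnd K L x = ideleNormEnd K L x := by
  rw [ideleNormEnd_apply, Finset.smul_prod']
  simp_rw [← mul_smul]
  exact Fintype.prod_equiv (Equiv.mulLeft h) _ _ fun g => rfl

variable {K L} in
theorem ideleNormEnd_mem_range (x : ideleGroup K L) :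
    ideleNormEnd K L x ∈ (baseToIdele K L).range :=
  (mem_range_baseToIdele_iff K L _).mpr fun h => smul_ideleNormEnd h x

/-- **the idele norm** `N : J_L →* J_K`, characterised by
`baseToIdele (ideleNorm x) = ∏ g, g • x`. -/
noncomputable def ideleNorm : ideleGroup K L →* baseIdeleGroup K where
  toFun x := (ideleNormEnd_mem_range x).choose
  map_one' := by
    apply baseToIdele_injective K L
    rw [(ideleNormEnd_mem_range (1 : ideleGroup K L)).choose_spec, map_one, map_one]
  map_mul' x y := by
    apply baseToIdele_injective K L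
    rw [(ideleNormEnd_mem_range (x * y)).choose_spec, map_mul, map_mul,
      (ideleNormEnd_mem_range x).choose_spec, (ideleNormEnd_mem_range y).choose_spec]

variable {K L} in
theorem baseToIdele_ideleNorm (x : ideleGroup K L) :
    baseToIdele K L (ideleNorm K L x) = ∏ g : Gal(L/K), g • x :=
  (ideleNormEnd_mem_range x).choose_spec

variable {K L} in
/-- the idele norm is Galois-invariant. -/
theorem ideleNorm_smul (h : Gal(L/K)) (x : ideleGroup K L) :
    ideleNorm K L (h • x) = ideleNorm K L x := by
  apply baseToIdele_injective K L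
  rw [baseToIdele_ideleNorm, baseToIdele_ideleNorm]
  simp_rw [← mul_smul]
  exact Fintype.prod_equiv (Equiv.mulRight h) _ _ fun g => rfl

variable {K L} in
/-- the idele norm of an idele of the base field is its `[L : K]`-th power. -/
theorem ideleNorm_baseToIdele (y : baseIdeleGroup K) :
    ideleNorm K L (baseToIdele K L y) = y ^ Nat.card Gal(L/K) := by
  apply baseToIdele_injective K L
  rw [baseToIdele_ideleNorm, map_pow]
  simp_rw [smul_baseToIdele]
  rw [Finset.prod_const, Finset.card_univ, Nat.card_eq_fintype_card]

variable {K L} in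
/-- the idele norm of a principal idele is the principal idele of the field norm. -/
theorem ideleNorm_diagIdele (x : Lˣ) :
    ideleNorm K L (diagIdele (K := K) x) =
      diagBase K (Units.map (Algebra.norm K : L →* K) x) := by
  apply baseToIdele_injective K L
  rw [baseToIdele_ideleNorm, baseToIdele_diagBase]
  simp_rw [← diagIdele_smul]
  rw [← map_prod]
  congr 1
  apply Units.ext
  simp only [Units.coe_map, MonoidHom.coe_coe, Units.coe_prod]
  rw [Algebra.norm_eq_prod_automorphisms]

end Invariants

end Fermat.Agent.CFT
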