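import Mathlib
import Fermat.Agent.CFT.Idele.Base

set_option autoImplicit false
set_option linter.unusedSectionVars false

/-!
# CFT, S55 global-idelic stream, chunk (GL13b), part 1: the order of a base idele at a place,
ideles supported at one place, and multiplicative functions of the divisor of an idele

* `baseOrd v x : ℤ` for `x : (K_v)ˣ`: `Valued.v x = exp (- baseOrd v x)`;
* `baseIdeleSingle v : (K_v)ˣ →* J_K` (the idele with one non-trivial component);
* `ideleProd g : J_K →* G` for `g : places → G` (`G` a commutative group):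
  `x ↦ ∏ᶠ v, g v ^ baseOrd v (x v)`.
-/

open NumberField IsDedekindDomain WithZero

namespace Fermat.Agent.CFT

section BaseOrd

variable {K : Type*} [Field K] [NumberField K]

/-- the normalised order of an element of `(K_v)ˣ`. -/
noncomputable def baseOrd (v : HeightOneSpectrum (𝓞 K)) (x : (v.adicCompletion K)ˣ) : ℤ :=
  - log (Valued.v (x : v.adicCompletion K))

theorem valued_ne_zero_of_units (v : HeightOneSpectrum (𝓞 K)) (x : (v.adicCompletion K)ˣ) :
    Valued.v (x : v.adicCompletion K) ≠ 0 :=
  (Valuation.ne_zero_iff _).mpr x.ne_zero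

theorem valued_eq_exp_neg_baseOrd (v : HeightOneSpectrum (𝓞 K)) (x : (v.adicCompletion K)ˣ) :
    Valued.v (x : v.adicCompletion K) = exp (- baseOrd v x) := by
  rw [baseOrd, neg_neg, exp_log (valued_ne_zero_of_units v x)]

theorem baseOrd_eq_iff (v : HeightOneSpectrum (𝓞 K)) (x : (v.adicCompletion K)ˣ) (n : ℤ) :
    baseOrd v x = n ↔ Valued.v (x : v.adicCompletion K) = exp (-n) := by
  rw [valued_eq_exp_neg_baseOrd, exp_inj, neg_inj]

@[simp] theorem baseOrd_one (v : HeightOneSpectrum (𝓞 K)) :
    baseOrd v (1 : (v.adicCompletion K)ˣ) = 0 := by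
  simp [baseOrd]

theorem baseOrd_mul (v : HeightOneSpectrum (𝓞 K)) (x y : (v.adicCompletion K)ˣ) :
    baseOrd v (x * y) = baseOrd v x + baseOrd v y := by
  rw [baseOrd, baseOrd, baseOrd, Units.val_mul, map_mul,
    log_mul (valued_ne_zero_of_units v x) (valued_ne_zero_of_units v y)]
  ring

theorem baseOrd_inv (v : HeightOneSpectrum (𝓞 K)) (x : (v.adicCompletion K)ˣ) :
    baseOrd v x⁻¹ = - baseOrd v x := by
  rw [baseOrd, baseOrd, Units.val_inv_eq_inv_val, map_inv₀, log_inv]

/-- the order as a homomorphism. -/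
noncomputable def baseOrdHom (v : HeightOneSpectrum (𝓞 K)) :
    (v.adicCompletion K)ˣ →* Multiplicative ℤ where
  toFun x := Multiplicative.ofAdd (baseOrd v x)
  map_one' := by simp
  map_mul' x y := by rw [baseOrd_mul, ofAdd_add]

theorem baseOrd_eq_zero_iff (v : HeightOneSpectrum (𝓞 K)) (x : (v.adicCompletion K)ˣ) :
    baseOrd v x = 0 ↔ x ∈ baseLocalUnits K v := by
  rw [baseOrd_eq_iff, neg_zero, exp_zero, mem_baseLocalUnits_iff]

/-- the order of a global element is given by its `v`-adic valuation. -/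
theorem baseOrd_algebraMap (v : HeightOneSpectrum (𝓞 K)) (a : Kˣ) (n : ℤ) :
    baseOrd v (Units.map (algebraMap K (v.adicCompletion K) : K →* v.adicCompletion K) a) = n ↔
      v.valuation K (a : K) = exp (-n) := by
  rw [baseOrd_eq_iff, Units.coe_map, MonoidHom.coe_coe]
  have : Valued.v (algebraMap K (v.adicCompletion K) (a : K)) = v.valuation K (a : K) :=
    HeightOneSpectrum.valuedAdicCompletion_eq_valuation' v (a : K)
  rw [this]

end BaseOrd

section Single

variable (K : Type*) [Field K] [NumberField K]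

open Classical in
/-- the idele with component `u` at `v` and `1` elsewhere. -/
noncomputable def baseIdeleSingle (v : HeightOneSpectrum (𝓞 K)) :
    (v.adicCompletion K)ˣ →* baseIdeleGroup K where
  toFun u := ⟨Pi.mulSingle v u, by
    rw [mem_baseIdeleGroup_iff, Filter.eventually_cofinite]
    refine (Set.finite_singleton v).subset fun w hw => ?_
    rw [Set.mem_ofPred_eq] at hw
    rw [Set.mem_singleton_iff]
    by_contra hne
    apply hw
    rw [Pi.mulSingle_eq_of_ne hne]
    exact (baseLocalUnits K w).one_mem⟩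
  map_one' := by
    apply Subtype.ext
    simp
  map_mul' x y := by
    apply Subtype.ext
    simp [Pi.mulSingle_mul]

variable {K}

theorem baseIdeleSingle_apply_same (v : HeightOneSpectrum (𝓞 K)) (u : (v.adicCompletion K)ˣ) :
    (baseIdeleSingle K v u).1 v = u := by
  classical
  show Pi.mulSingle (M := fun w : HeightOneSpectrum (𝓞 K) => (w.adicCompletion K)ˣ) v u v = u
  exact Pi.mulSingle_eq_same (M := fun w : HeightOneSpectrum (𝓞 K) => (w.adicCompletion K)ˣ) v u

theorem baseIdeleSingle_apply_of_ne {v w : HeightOneSpectrum (𝓞 K)} (h : w ≠ v)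
    (u : (v.adicCompletion K)ˣ) : (baseIdeleSingle K v u).1 w = 1 := by
  classical
  show Pi.mulSingle (M := fun w : HeightOneSpectrum (𝓞 K) => (w.adicCompletion K)ˣ) v u w = 1
  exact Pi.mulSingle_eq_of_ne (M := fun w : HeightOneSpectrum (𝓞 K) => (w.adicCompletion K)ˣ) h u

end Single

section IdeleProd

variable {K : Type*} [Field K] [NumberField K] {G : Type*} [CommGroup G]

theorem finite_setOf_baseOrd_ne_zero (x : baseIdeleGroup K) :
    {v : HeightOneSpectrum (𝓞 K) | baseOrd v (x.1 v) ≠ 0}.Finite := by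
  have hx : ∀ᶠ v in Filter.cofinite, x.1 v ∈ baseLocalUnits K v := x.2
  rw [Filter.eventually_cofinite] at hx
  refine hx.subset fun v hv => ?_
  rw [Set.mem_ofPred_eq] at hv ⊢
  rwa [← baseOrd_eq_zero_iff]

theorem finite_mulSupport_ideleProd (g : HeightOneSpectrum (𝓞 K) → G) (x : baseIdeleGroup K) :
    (Function.mulSupport fun v => g v ^ baseOrd v (x.1 v)).Finite := by
  refine (finite_setOf_baseOrd_ne_zero x).subset fun v hv => ?_
  rw [Function.mem_mulSupport] at hv
  rw [Set.mem_ofPred_eq]
  intro h0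
  apply hv
  rw [h0, zpow_zero]

/-- `x ↦ ∏ᶠ v, g v ^ ord_v (x_v)`. -/
noncomputable def ideleProd (g : HeightOneSpectrum (𝓞 K) → G) : baseIdeleGroup K →* G where
  toFun x := ∏ᶠ v, g v ^ baseOrd v (x.1 v)
  map_one' := by
    have : ∀ v : HeightOneSpectrum (𝓞 K), g v ^ baseOrd v ((1 : baseIdeleGroup K).1 v) = 1 := by
      intro v
      show g v ^ baseOrd v (1 : (v.adicCompletion K)ˣ) = 1
      rw [baseOrd_one, zpow_zero]
    simp_rw [this]
    exact finprod_one
  map_mul' x y := by
    rw [← finprod_mul_distrib (finite_mulSupport_ideleProd g x) (finite_mulSupport_ideleProd g y)]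
    refine finprod_congr fun v => ?_
    show g v ^ baseOrd v (x.1 v * y.1 v) = _
    rw [baseOrd_mul, zpow_add]

theorem ideleProd_apply (g : HeightOneSpectrum (𝓞 K) → G) (x : baseIdeleGroup K) :
    ideleProd g x = ∏ᶠ v, g v ^ baseOrd v (x.1 v) := rfl

theorem ideleProd_baseIdeleSingle (g : HeightOneSpectrum (𝓞 K) → G)
    (v : HeightOneSpectrum (𝓞 K)) (u : (v.adicCompletion K)ˣ) :
    ideleProd g (baseIdeleSingle K v u) = g v ^ baseOrd v u := by
  rw [ideleProd_apply, finprod_eq_single _ v, baseIdeleSingle_apply_same]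
  intro w hw
  rw [baseIdeleSingle_apply_of_ne hw, baseOrd_one, zpow_zero]

/-- if `g v ^ ord_v (x_v) = 1` for all `v` then `ideleProd g x = 1`. -/
theorem ideleProd_eq_one_of_forall (g : HeightOneSpectrum (𝓞 K) → G) (x : baseIdeleGroup K)
    (h : ∀ v, g v ^ baseOrd v (x.1 v) = 1) : ideleProd g x = 1 := by
  rw [ideleProd_apply]
  simp_rw [h]
  exact finprod_one

end IdeleProd

end Fermat.Agent.CFT
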