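import Mathlib
import Fermat.Agent.CFT.Idele.Base

set_option autoImplicit false
set_option linter.unusedSectionVars false

/-!
# CFT, S55 global-idelic stream, chunk (GL4), part 3: idele class groups

`C_K := J_K / Kˣ`, the maps `C_K → C_L` (injective) and `N : C_L → C_K`, the Galois invariants
`(C_L)^G = C_K` (Hilbert 90), and the subgroups `J_{L,S}` of `S`-ideles.
-/

open NumberField IsDedekindDomain
open scoped TensorProduct Fermat.Agent.CFT.TensorGal Fermat.Agent.CFT.IdeleAct

namespace Fermat.Agent.CFT

section LocalNorm

variable {K L : Type*} [Field K] [NumberField K] [Field L] [NumberField L] [Algebra K L]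
  [IsGalois K L]

/-- local form of the characterisation of the idele norm. -/
theorem ideleNorm_apply (x : ideleGroup K L) (v : HeightOneSpectrum (𝓞 K)) :
    algebraMap (v.adicCompletion K) (semiLocal K L v)
        (((ideleNorm K L x : baseIdeleGroup K) : ∀ v, (v.adicCompletion K)ˣ) v :
          v.adicCompletion K) =
      ∏ g : Gal(L/K), g • ((x : ∀ v, (semiLocal K L v)ˣ) v : semiLocal K L v) := by
  have h := congrArg (fun z : ideleGroup K L => ((z : ∀ v, (semiLocal K L v)ˣ) v :
    semiLocal K L v)) (baseToIdele_ideleNorm x)
  simp only [baseToIdele_apply, Units.coe_map, MonoidHom.coe_coe] at h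
  rw [h]
  have h2 : ((∏ g : Gal(L/K), g • x : ideleGroup K L) : ∀ v, (semiLocal K L v)ˣ) =
      ∏ g : Gal(L/K), ((g • x : ideleGroup K L) : ∀ v, (semiLocal K L v)ˣ) :=
    map_prod (ideleGroup K L).subtype _ _
  rw [h2, Finset.prod_apply, Units.coe_prod]
  rfl

end LocalNorm

theorem idele_div_aux {A : Type*} [CommGroup A] (a d x : A) : a / (d * (a / x)) = x / d := by
  rw [div_eq_iff_eq_mul, div_mul_eq_mul_div, mul_div_assoc', eq_div_iff_mul_eq']
  rw [mul_div_cancel, mul_comm]

section BaseClass

variable (K L : Type*) [Field K] [NumberField K] [Field L] [NumberField L] [Algebra K L]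

/-- the principal ideles of the base field. -/
noncomputable def basePrincipalIdeles : Subgroup (baseIdeleGroup K) := (diagBase K).range

/-- the idele class group `C_K = J_K / Kˣ` of the base field. -/
abbrev baseIdeleClass : Type _ := baseIdeleGroup K ⧸ basePrincipalIdeles K

theorem basePrincipalIdeles_le_comap :
    basePrincipalIdeles K ≤ (principalIdeles K L).comap (baseToIdele K L) := by
  rintro _ ⟨x, rfl⟩
  exact ⟨Units.map (algebraMap K L : K →* L) x, (baseToIdele_diagBase K L x).symm⟩

/-- the map `C_K → C_L`. -/
noncomputable def baseToClass : baseIdeleClass K →* ideleClass K L :=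
  QuotientGroup.map (basePrincipalIdeles K) (principalIdeles K L) (baseToIdele K L)
    (basePrincipalIdeles_le_comap K L)

variable {K L} in
theorem baseToClass_mk (y : baseIdeleGroup K) :
    baseToClass K L (y : baseIdeleClass K) = ((baseToIdele K L y : ideleGroup K L) : ideleClass K L) :=
  rfl

variable [IsGalois K L]

theorem principalIdeles_le_comap_ideleNorm :
    principalIdeles K L ≤ (basePrincipalIdeles K).comap (ideleNorm K L) := by
  rintro _ ⟨x, rfl⟩
  exact ⟨Units.map (Algebra.norm K : L →* K) x, (ideleNorm_diagIdele x).symm⟩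

/-- the norm `N : C_L → C_K`. -/
noncomputable def classNorm : ideleClass K L →* baseIdeleClass K :=
  QuotientGroup.map (principalIdeles K L) (basePrincipalIdeles K) (ideleNorm K L)
    (principalIdeles_le_comap_ideleNorm K L)

variable {K L} in
theorem classNorm_mk (x : ideleGroup K L) :
    classNorm K L (x : ideleClass K L) = ((ideleNorm K L x : baseIdeleGroup K) : baseIdeleClass K) :=
  rfl

variable {K L} in
/-- `J_K ∩ Lˣ = Kˣ` inside `J_L`. -/
theorem mem_basePrincipalIdeles_of_baseToIdele_mem {y : baseIdeleGroup K}
    (hy : baseToIdele K L y ∈ principalIdeles K L) : y ∈ basePrincipalIdeles K := by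
  obtain ⟨x, hx⟩ := hy
  -- `x` is Galois-invariant
  have hfix : ∀ g : Gal(L/K), g (x : L) = (x : L) := by
    intro g
    have h1 : diagIdele (K := K) (Units.map (g : L →* L) x) = diagIdele (K := K) x := by
      rw [diagIdele_smul, hx, smul_baseToIdele]
    have h2 := diagIdele_injective h1
    exact congrArg (fun u : Lˣ => (u : L)) h2
  have hmem : (x : L) ∈ (⊥ : IntermediateField K L) := by
    rw [← IsGalois.fixedField_top (F := K) (E := L)]
    intro g
    exact hfix g.1
  obtain ⟨k, hk⟩ := IntermediateField.mem_bot.mp hmem
  have hk0 : k ≠ 0 := by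
    rintro rfl
    rw [map_zero] at hk
    exact x.ne_zero hk.symm
  refine ⟨Units.mk0 k hk0, ?_⟩
  apply baseToIdele_injective K L
  rw [baseToIdele_diagBase, ← hx]
  congr 1
  exact Units.ext hk

theorem baseToClass_injective : Function.Injective (baseToClass K L) := by
  rw [injective_iff_map_eq_one]
  intro c hc
  induction c using QuotientGroup.induction_on with
  | H y =>
    rw [baseToClass_mk, QuotientGroup.eq_one_iff] at hc
    exact (QuotientGroup.eq_one_iff y).mpr (mem_basePrincipalIdeles_of_baseToIdele_mem hc)

variable {K L} in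
theorem smul_baseToClass (g : Gal(L/K)) (c : baseIdeleClass K) :
    g • baseToClass K L c = baseToClass K L c := by
  induction c using QuotientGroup.induction_on with
  | H y =>
    rw [baseToClass_mk]
    show ((g • baseToIdele K L y : ideleGroup K L) : ideleClass K L) = _
    rw [smul_baseToIdele]

/-- **Galois invariants of the idele class group** (Hilbert 90): `(C_L)^G = C_K`. -/
theorem mem_range_baseToClass_iff (c : ideleClass K L) :
    c ∈ (baseToClass K L).range ↔ ∀ g : Gal(L/K), g • c = c := by
  constructor
  · rintro ⟨y, rfl⟩ g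
    exact smul_baseToClass g y
  · intro hc
    induction c using QuotientGroup.induction_on with
    | H x =>
      -- `g • x = x * diag (f g)`
      have hex : ∀ g : Gal(L/K), ∃ u : Lˣ, diagIdele (K := K) u = (g • x) / x := by
        intro g
        have h1 : ((g • x : ideleGroup K L) : ideleClass K L) = (x : ideleClass K L) := hc g
        have h2 := QuotientGroup.eq.mp h1.symm
        obtain ⟨u, hu⟩ := h2
        exact ⟨u, by rw [hu, div_eq_inv_mul]⟩
      choose f hf using hex
      have hcoc : groupCohomology.IsMulCocycle₁ f := by
        intro g h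
        apply diagIdele_injective (K := K)
        rw [map_mul, hf, hf]
        have h3 : (g • f h : Lˣ) = Units.map (g : L →* L) (f h) := rfl
        rw [h3, diagIdele_smul, hf, mul_smul, smul_div']
        rw [div_mul_div_cancel]
      obtain ⟨b, hb⟩ := groupCohomology.isMulCoboundary₁_of_isMulCocycle₁_of_aut_to_units f hcoc
      -- `x / diag b` is invariant
      have hinv : ∀ g : Gal(L/K), g • (x / diagIdele (K := K) b) = x / diagIdele (K := K) b := by
        intro g
        have h4 : (g • b : Lˣ) = Units.map (g : L →* L) b := rfl
        have h5 : diagIdele (K := K) (Units.map (g : L →* L) b) =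
            diagIdele (K := K) b * ((g • x) / x) := by
          rw [← hf g, ← map_mul, ← hb g, ← h4]
          congr 1
          rw [mul_div_cancel]
        rw [smul_div', ← diagIdele_smul, h5]
        exact idele_div_aux _ _ _
      obtain ⟨y, hy⟩ := (mem_range_baseToIdele_iff K L _).mpr hinv
      refine ⟨(y : baseIdeleClass K), ?_⟩
      rw [baseToClass_mk, hy]
      refine QuotientGroup.eq.mpr ⟨b, ?_⟩
      rw [inv_div, div_mul_cancel]

end BaseClass

end Fermat.Agent.CFT
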