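/-
CFT, S55 pool, GLOBAL-IDELIC layer (GL5, general non-Galois form) (helper4): integrality in the semilocal algebra
`K_v ⊗[K] L`.

`K`, `L` number fields, `L/K` an extension, `v` a finite place of `K`,
`K_v = v.adicCompletion K`, `O_v = v.adicCompletionIntegers K`.  For `x : L`:

* `idIntG_tmul_mem_iff` : `1 ⊗ x` is integral over `O_v` in `K_v ⊗[K] L`
    iff `w(x) ≤ 1` for all primes `w` of `L` above `v`;
* `idIntG_isUnit_iff`   : `1 ⊗ x` is a unit of the integral closure iff `w(x) = 1` for all `w ∣ v`;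
* `idIntG_finite_setOf_not_isUnit` : this fails for finitely many `v` only (`x ≠ 0`).

The proof is purely algebraic (no completion of `L`): `minpoly K_v (1 ⊗ x)` is the image of
`minpoly K x` (flatness), Gauss' lemma over the integrally closed `O_v`, going-up for the
denominator ideal.
-/
import Mathlib

set_option autoImplicit false
set_option linter.unusedSectionVars false

namespace Fermat.Agent.CFT

open scoped TensorProduct Polynomial
open NumberField IsDedekindDomain IsDedekindDomain.HeightOneSpectrum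

section Abstract

variable {K F L : Type*} [Field K] [Field F] [Field L] [Algebra K F] [Algebra K L]

/-- `aeval (1 ⊗ x)` of a polynomial over `K`. -/
theorem idIntG_aeval_one_tmul (x : L) (f : K[X]) :
    Polynomial.aeval ((1 : F) ⊗ₜ[K] x) f = (1 : F) ⊗ₜ[K] (Polynomial.aeval x f) := by
  have h := Polynomial.aeval_algHom_apply
    (Algebra.TensorProduct.includeRight : L →ₐ[K] F ⊗[K] L) x f
  simpa using h

/-- A polynomial over `F` killing `1 ⊗ x` is divisible by the image of `minpoly K x`. -/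
theorem idIntG_map_minpoly_dvd (x : L) (hx : IsIntegral K x) (g : F[X])
    (hg : Polynomial.aeval ((1 : F) ⊗ₜ[K] x) g = 0) :
    (minpoly K x).map (algebraMap K F) ∣ g := by
  classical
  set f := minpoly K x with hf
  set f' := f.map (algebraMap K F) with hf'
  have hmonic : f'.Monic := (minpoly.monic hx).map _
  have hf'0 : Polynomial.aeval ((1 : F) ⊗ₜ[K] x) f' = 0 := by
    rw [hf', Polynomial.aeval_map_algebraMap, idIntG_aeval_one_tmul, hf, minpoly.aeval,
      TensorProduct.tmul_zero]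
  rw [← Polynomial.modByMonic_eq_zero_iff_dvd hmonic]
  set r := g %ₘ f' with hr
  have hr0 : Polynomial.aeval ((1 : F) ⊗ₜ[K] x) r = 0 := by
    have h1 : g = r + f' * (g /ₘ f') := (Polynomial.modByMonic_add_div g f').symm
    have h2 := congrArg (Polynomial.aeval ((1 : F) ⊗ₜ[K] x)) h1
    rw [map_add, map_mul, hf'0, zero_mul, add_zero, hg] at h2
    exact h2.symm
  have hdeg : r.natDegree < f.natDegree ∨ r = 0 := by
    by_cases h0 : r = 0
    · exact Or.inr h0
    · left
      have := Polynomial.natDegree_modByMonic_lt g hmonic (by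
        intro h1
        have : f.natDegree = 0 := by
          have h2 := congrArg Polynomial.natDegree h1
          rw [Polynomial.natDegree_one, hf', (minpoly.monic hx).natDegree_map] at h2
          exact h2
        exact (minpoly.natDegree_pos hx).ne' this)
      rwa [hf', (minpoly.monic hx).natDegree_map] at this
  rcases hdeg with hdeg | h0
  swap
  · exact h0
  have hli : LinearIndependent F
      (fun i : Fin f.natDegree => (1 : F) ⊗ₜ[K] (x ^ (i : ℕ))) :=
    Module.Flat.linearIndependent_one_tmul (linearIndependent_pow x)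
  rw [Fintype.linearIndependent_iff] at hli
  have hsum : ∑ i : Fin f.natDegree, r.coeff (i : ℕ) • ((1 : F) ⊗ₜ[K] (x ^ (i : ℕ))) = 0 := by
    rw [← hr0, Polynomial.aeval_eq_sum_range' hdeg, Finset.sum_range]
    refine Finset.sum_congr rfl fun i _ => ?_
    rw [Algebra.TensorProduct.tmul_pow, one_pow]
  have hc := hli _ hsum
  ext i
  rw [Polynomial.coeff_zero]
  by_cases hi : i < f.natDegree
  · exact hc ⟨i, hi⟩
  · exact Polynomial.coeff_eq_zero_of_natDegree_lt (lt_of_lt_of_le hdeg (not_lt.mp hi))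

/-- If `1 ⊗ x` is integral over a valuation subring `O` of `F`, the coefficients of
`minpoly K x` lie in `O`. -/
theorem idIntG_coeff_mem_of_isIntegral (O : ValuationSubring F) (x : L) (hx : IsIntegral K x)
    (h : IsIntegral O ((1 : F) ⊗ₜ[K] x)) (i : ℕ) :
    algebraMap K F ((minpoly K x).coeff i) ∈ O := by
  obtain ⟨g, hgm, hg⟩ := h
  have hg' : Polynomial.aeval ((1 : F) ⊗ₜ[K] x) (g.map (algebraMap O F)) = 0 := by
    rw [Polynomial.aeval_map_algebraMap]
    exact hg
  have hdvd := idIntG_map_minpoly_dvd x hx _ hg'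
  obtain ⟨g', hg'⟩ := IsIntegrallyClosed.eq_map_mul_C_of_dvd F hgm hdvd
  have hlead : ((minpoly K x).map (algebraMap K F)).leadingCoeff = 1 :=
    ((minpoly.monic hx).map _)
  rw [hlead, map_one, mul_one] at hg'
  have hc := congrArg (fun q => Polynomial.coeff q i) hg'
  simp only [Polynomial.coeff_map] at hc
  rw [← hc]
  exact (g'.coeff i).2

end Abstract

section NumberField

variable (K L : Type*) [Field K] [NumberField K] [Field L] [NumberField L] [Algebra K L]
  (v : HeightOneSpectrum (𝓞 K))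

/-- the valuation of `K_v` on the image of `K` -/
theorem idIntG_valued_algebraMap (a : K) :
    Valued.v (algebraMap K (v.adicCompletion K) a) = v.valuation K a := by
  rw [algebraMap_adicCompletion]
  exact valuedAdicCompletion_eq_valuation' v a

theorem idIntG_algebraMap_mem_integers_iff (a : K) :
    algebraMap K (v.adicCompletion K) a ∈ v.adicCompletionIntegers K ↔ v.valuation K a ≤ 1 := by
  rw [mem_adicCompletionIntegers, idIntG_valued_algebraMap]

variable {K L v}

/-- if `v(a) ≤ 1` then `w(a) ≤ 1` for every `w` above `v` -/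
theorem idIntG_valuation_algebraMap_le_one {w : HeightOneSpectrum (𝓞 L)}
    (hw : w.under (𝓞 K) = v) {a : K} (ha : v.valuation K a ≤ 1) :
    w.valuation L (algebraMap K L a) ≤ 1 := by
  have : w.asIdeal.LiesOver v.asIdeal := ⟨by rw [← hw]; rfl⟩
  rw [← valuation_liesOver L v w a]
  exact pow_le_one' ha _

/-- `⇒`: integrality of `1 ⊗ x` over `O_v` bounds the valuations above `v`. -/
theorem idIntG_valuation_le_one_of_isIntegral {x : L}
    (h : IsIntegral (v.adicCompletionIntegers K) ((1 : v.adicCompletion K) ⊗ₜ[K] x))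
    {w : HeightOneSpectrum (𝓞 L)} (hw : w.under (𝓞 K) = v) : w.valuation L x ≤ 1 := by
  have hx : IsIntegral K x := Algebra.IsIntegral.isIntegral x
  have hc : ∀ i, v.valuation K ((minpoly K x).coeff i) ≤ 1 := fun i =>
    (idIntG_algebraMap_mem_integers_iff K v _).mp
      (idIntG_coeff_mem_of_isIntegral (v.adicCompletionIntegers K) x hx h i)
  set Ow := (w.valuation L).valuationSubring with hOw
  have hint : IsIntegral Ow x := by
    have hlift : (minpoly K x).map (algebraMap K L) ∈ Polynomial.lifts (algebraMap Ow L) := by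
      rw [Polynomial.lifts_iff_coeff_lifts]
      intro n
      rw [Polynomial.coeff_map]
      exact ⟨⟨_, idIntG_valuation_algebraMap_le_one hw (hc n)⟩, rfl⟩
    obtain ⟨q, hq, -, hqm⟩ :=
      Polynomial.lifts_and_natDegree_eq_and_monic hlift ((minpoly.monic hx).map _)
    refine ⟨q, hqm, ?_⟩
    rw [← Polynomial.eval_map, hq, Polynomial.eval_map, ← Polynomial.aeval_def, minpoly.aeval]
  obtain ⟨y, hy⟩ := IsIntegrallyClosed.isIntegral_iff.mp hint
  rw [← hy]
  exact y.2

/-- The denominator ideal `{b : 𝓞 L | b x ∈ 𝓞 L}` of `x : L`. -/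
def idIntGDenom (x : L) : Ideal (𝓞 L) where
  carrier := {b | ∃ c : 𝓞 L, algebraMap (𝓞 L) L c = algebraMap (𝓞 L) L b * x}
  add_mem' := by
    rintro a b ⟨c, hc⟩ ⟨d, hd⟩
    exact ⟨c + d, by rw [map_add, map_add, add_mul, hc, hd]⟩
  zero_mem' := ⟨0, by rw [map_zero, zero_mul]⟩
  smul_mem' := by
    rintro r b ⟨c, hc⟩
    exact ⟨r * c, by rw [smul_eq_mul, map_mul, map_mul, hc, mul_assoc]⟩

theorem mem_idIntGDenom {x : L} {b : 𝓞 L} :
    b ∈ idIntGDenom x ↔ ∃ c : 𝓞 L, algebraMap (𝓞 L) L c = algebraMap (𝓞 L) L b * x := Iff.rfl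

/-- `⇐`, algebraic core: if `w(x) ≤ 1` for all `w ∣ v`, some `s ∈ 𝓞 K ∖ v` multiplies `x` into
`𝓞 L`. -/
theorem idIntG_exists_smul_mem {x : L}
    (h : ∀ w : HeightOneSpectrum (𝓞 L), w.under (𝓞 K) = v → w.valuation L x ≤ 1) :
    ∃ s : 𝓞 K, s ∉ v.asIdeal ∧
      ∃ b : 𝓞 L, algebraMap (𝓞 L) L b = algebraMap K L (algebraMap (𝓞 K) K s) * x := by
  by_contra hcon
  push Not at hcon
  have hle : Ideal.comap (algebraMap (𝓞 K) (𝓞 L)) (idIntGDenom x) ≤ v.asIdeal := by
    intro s hs
    by_contra hsv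
    obtain ⟨c, hc⟩ := mem_idIntGDenom.mp (Ideal.mem_comap.mp hs)
    refine hcon s hsv c ?_
    rw [hc, ← IsScalarTower.algebraMap_apply, ← IsScalarTower.algebraMap_apply]
  obtain ⟨Q, hQJ, hQ, hQv⟩ := Ideal.exists_ideal_over_prime_of_isIntegral v.asIdeal _ hle
  have hQ0 : Q ≠ ⊥ := by
    rintro rfl
    apply v.ne_bot
    rw [← hQv]
    exact Ideal.comap_bot_of_injective _ (RingOfIntegers.algebraMap.injective K L)
  let w : HeightOneSpectrum (𝓞 L) := ⟨Q, hQ, hQ0⟩
  have hw : w.under (𝓞 K) = v := HeightOneSpectrum.ext hQv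
  obtain ⟨n, d, hnd⟩ := exists_primeCompl_mul_eq_of_integer w x (h w hw)
  have hd : (d : 𝓞 L) ∈ idIntGDenom x := ⟨n, by rw [← hnd, mul_comm]⟩
  exact d.2 (hQJ hd)

/-- `⇐`: if `w(x) ≤ 1` for all `w ∣ v` then `1 ⊗ x` is integral over `O_v`. -/
theorem idIntG_isIntegral_of_valuation_le_one {x : L}
    (h : ∀ w : HeightOneSpectrum (𝓞 L), w.under (𝓞 K) = v → w.valuation L x ≤ 1) :
    IsIntegral (v.adicCompletionIntegers K) ((1 : v.adicCompletion K) ⊗ₜ[K] x) := by
  obtain ⟨s, hsv, b, hb⟩ := idIntG_exists_smul_mem h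
  set s' : K := algebraMap (𝓞 K) K s with hs'
  have hs1 : v.valuation K s' = 1 := (valuation_eq_one_iff_notMem (K := K) v).mpr hsv
  have hs0 : s' ≠ 0 := by
    intro h0
    rw [h0, map_zero] at hs1
    exact zero_ne_one hs1
  have hsK : algebraMap K (v.adicCompletion K) s' ≠ 0 := by
    rwa [Ne, map_eq_zero]
  have hinv : (algebraMap K (v.adicCompletion K) s')⁻¹ ∈ v.adicCompletionIntegers K := by
    rw [mem_adicCompletionIntegers, map_inv₀, idIntG_valued_algebraMap, hs1, inv_one]
  -- `1 ⊗ b` is integral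
  have hb1 : IsIntegral (v.adicCompletionIntegers K)
      ((1 : v.adicCompletion K) ⊗ₜ[K] (algebraMap (𝓞 L) L b)) := by
    have h1 : IsIntegral ℤ (algebraMap (𝓞 L) L b) := b.2
    have h2 : IsIntegral ℤ ((1 : v.adicCompletion K) ⊗ₜ[K] (algebraMap (𝓞 L) L b)) :=
      h1.map ((Algebra.TensorProduct.includeRight :
        L →ₐ[K] (v.adicCompletion K) ⊗[K] L).restrictScalars ℤ)
    exact h2.tower_top
  have hmem := Subalgebra.smul_mem (integralClosure (v.adicCompletionIntegers K)
    ((v.adicCompletion K) ⊗[K] L)) hb1 ⟨_, hinv⟩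
  have heq : (⟨_, hinv⟩ : v.adicCompletionIntegers K) •
      ((1 : v.adicCompletion K) ⊗ₜ[K] (algebraMap (𝓞 L) L b)) =
      (1 : v.adicCompletion K) ⊗ₜ[K] x := by
    rw [TensorProduct.smul_tmul', hb, ← Algebra.smul_def s' x, ← TensorProduct.smul_tmul]
    congr 1
    change s' • ((algebraMap K (v.adicCompletion K) s')⁻¹ * 1) = 1
    rw [mul_one, Algebra.smul_def, mul_inv_cancel₀ hsK]
  rw [heq] at hmem
  exact hmem

variable (K L v)

/-- **(GL5)(a)** `1 ⊗ x` is integral over `O_v` in `K_v ⊗[K] L` iff `w(x) ≤ 1` for all primes `w`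
of `L` above `v`. -/
theorem idIntG_tmul_mem_iff (x : L) :
    (1 : v.adicCompletion K) ⊗ₜ[K] x ∈
        integralClosure (v.adicCompletionIntegers K) ((v.adicCompletion K) ⊗[K] L) ↔
      ∀ w : HeightOneSpectrum (𝓞 L), w.under (𝓞 K) = v → w.valuation L x ≤ 1 :=
  ⟨fun h _ hw => idIntG_valuation_le_one_of_isIntegral h hw,
    fun h => idIntG_isIntegral_of_valuation_le_one h⟩

/-- **(GL5)(b)** `1 ⊗ x` and `1 ⊗ x⁻¹` are both integral over `O_v` iff `w(x) = 1` for all primes
`w` of `L` above `v`. -/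
theorem idIntG_tmul_mem_and_inv_mem_iff {x : L} (hx : x ≠ 0) :
    ((1 : v.adicCompletion K) ⊗ₜ[K] x ∈
        integralClosure (v.adicCompletionIntegers K) ((v.adicCompletion K) ⊗[K] L) ∧
      (1 : v.adicCompletion K) ⊗ₜ[K] x⁻¹ ∈
        integralClosure (v.adicCompletionIntegers K) ((v.adicCompletion K) ⊗[K] L)) ↔
      ∀ w : HeightOneSpectrum (𝓞 L), w.under (𝓞 K) = v → w.valuation L x = 1 := by
  rw [idIntG_tmul_mem_iff, idIntG_tmul_mem_iff]
  constructor
  · rintro ⟨h1, h2⟩ w hw
    refine le_antisymm (h1 w hw) ?_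
    have h3 := h2 w hw
    rw [map_inv₀] at h3
    have h0 : w.valuation L x ≠ 0 := (Valuation.ne_zero_iff _).mpr hx
    exact (inv_le_one₀ (zero_lt_iff.mpr h0)).mp h3
  · intro h
    refine ⟨fun w hw => (h w hw).le, fun w hw => ?_⟩
    rw [map_inv₀, h w hw, inv_one]

/-- Unit form of (GL5)(b): a unit `u` of `K_v ⊗[K] L` of the shape `1 ⊗ x` is a unit of the
integral closure of `O_v` iff `w(x) = 1` for all `w ∣ v`. -/
theorem idIntG_units_mem_iff (u : ((v.adicCompletion K) ⊗[K] L)ˣ) (x : L)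
    (hu : (u : (v.adicCompletion K) ⊗[K] L) = (1 : v.adicCompletion K) ⊗ₜ[K] x) :
    u ∈ (integralClosure (v.adicCompletionIntegers K)
        ((v.adicCompletion K) ⊗[K] L)).toSubmonoid.units ↔
      ∀ w : HeightOneSpectrum (𝓞 L), w.under (𝓞 K) = v → w.valuation L x = 1 := by
  have hx : x ≠ 0 := by
    rintro rfl
    rw [TensorProduct.tmul_zero] at hu
    exact u.ne_zero hu
  have hinv : ((u⁻¹ : ((v.adicCompletion K) ⊗[K] L)ˣ) : (v.adicCompletion K) ⊗[K] L) =
      (1 : v.adicCompletion K) ⊗ₜ[K] x⁻¹ := by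
    rw [Units.inv_eq_of_mul_eq_one_right]
    rw [hu, Algebra.TensorProduct.tmul_mul_tmul, mul_one, mul_inv_cancel₀ hx]
    rfl
  rw [Submonoid.mem_units_iff, ← idIntG_tmul_mem_and_inv_mem_iff K L v hx, hu, hinv]
  rfl

/-- Range form of (GL5)(b). -/
theorem idIntG_units_mem_range_iff (u : ((v.adicCompletion K) ⊗[K] L)ˣ) (x : L)
    (hu : (u : (v.adicCompletion K) ⊗[K] L) = (1 : v.adicCompletion K) ⊗ₜ[K] x) :
    u ∈ (Units.map ((integralClosure (v.adicCompletionIntegers K)
        ((v.adicCompletion K) ⊗[K] L)).val : ↥(integralClosure (v.adicCompletionIntegers K)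
        ((v.adicCompletion K) ⊗[K] L)) →* (v.adicCompletion K) ⊗[K] L)).range ↔
      ∀ w : HeightOneSpectrum (𝓞 L), w.under (𝓞 K) = v → w.valuation L x = 1 := by
  rw [← idIntG_units_mem_iff K L v u x hu, Submonoid.mem_units_iff]
  have hmem : ∀ c : ↥(integralClosure (v.adicCompletionIntegers K)
      ((v.adicCompletion K) ⊗[K] L)), (c : (v.adicCompletion K) ⊗[K] L) ∈
      (integralClosure (v.adicCompletionIntegers K)
        ((v.adicCompletion K) ⊗[K] L)).toSubmonoid := fun c => c.2
  constructor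
  · rintro ⟨c, rfl⟩
    refine ⟨hmem c, ?_⟩
    rw [← map_inv]
    exact hmem _
  · rintro ⟨h1, h2⟩
    refine ⟨⟨⟨_, h1⟩, ⟨_, h2⟩, ?_, ?_⟩, ?_⟩
    · exact Subtype.ext u.mul_inv
    · exact Subtype.ext u.inv_mul
    · exact Units.ext rfl

variable {K L} in
/-- the set of primes where a nonzero `x : L` is not a unit is finite -/
theorem idIntG_finite_setOf_valuation_ne_one {x : L} (hx : x ≠ 0) :
    {w : HeightOneSpectrum (𝓞 L) | w.valuation L x ≠ 1}.Finite := by
  refine ((HeightOneSpectrum.Support.finite (𝓞 L) x).union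
    (HeightOneSpectrum.Support.finite (𝓞 L) x⁻¹)).subset ?_
  intro w hw
  rcases lt_or_gt_of_ne hw with h | h
  · right
    change 1 < w.valuation L x⁻¹
    rw [map_inv₀]
    exact (one_lt_inv₀ (zero_lt_iff.mpr ((Valuation.ne_zero_iff _).mpr hx))).mpr h
  · left
    exact h

variable {K L} in
/-- **(GL5)(c)** for `x ≠ 0`, the set of places `v` of `K` such that `w(x) ≠ 1` for some `w ∣ v` is
finite; equivalently `1 ⊗ x` is a unit of the integral closure of `O_v` for almost all `v`. -/
theorem idIntG_finite_setOf_not_forall_valuation_eq_one {x : L} (hx : x ≠ 0) :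
    {v : HeightOneSpectrum (𝓞 K) |
      ¬ ∀ w : HeightOneSpectrum (𝓞 L), w.under (𝓞 K) = v → w.valuation L x = 1}.Finite := by
  refine ((idIntG_finite_setOf_valuation_ne_one hx).image
    (fun w : HeightOneSpectrum (𝓞 L) => w.under (𝓞 K))).subset ?_
  intro v hv
  simp only [Set.mem_ofPred_eq, not_forall] at hv
  obtain ⟨w, hw, hne⟩ := hv
  exact ⟨w, hne, hw⟩

variable {K L} in
/-- (GL5)(c), tensor form: for almost all `v`, both `1 ⊗ x` and `1 ⊗ x⁻¹` are integral over
`O_v`. -/
theorem idIntG_finite_setOf_not_mem {x : L} (hx : x ≠ 0) :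
    {v : HeightOneSpectrum (𝓞 K) |
      ¬ ((1 : v.adicCompletion K) ⊗ₜ[K] x ∈
          integralClosure (v.adicCompletionIntegers K) ((v.adicCompletion K) ⊗[K] L) ∧
        (1 : v.adicCompletion K) ⊗ₜ[K] x⁻¹ ∈
          integralClosure (v.adicCompletionIntegers K) ((v.adicCompletion K) ⊗[K] L))}.Finite := by
  refine (idIntG_finite_setOf_not_forall_valuation_eq_one (K := K) hx).subset ?_
  intro v hv
  simp only [Set.mem_ofPred_eq] at hv ⊢
  rwa [idIntG_tmul_mem_and_inv_mem_iff K L v hx] at hv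

/-- **(GL5)(d)** neutral form of `Lˣ ∩ J_{L,S} = U_{S_L}`: `1 ⊗ x` is a unit of the integral closure
of `O_v` for every `v ∉ S` iff `x` is a unit at every prime `w` of `L` not above `S`. -/
theorem idIntG_forall_notMem_iff (S : Set (HeightOneSpectrum (𝓞 K))) {x : L} (hx : x ≠ 0) :
    (∀ v : HeightOneSpectrum (𝓞 K), v ∉ S →
      ((1 : v.adicCompletion K) ⊗ₜ[K] x ∈
          integralClosure (v.adicCompletionIntegers K) ((v.adicCompletion K) ⊗[K] L) ∧
        (1 : v.adicCompletion K) ⊗ₜ[K] x⁻¹ ∈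
          integralClosure (v.adicCompletionIntegers K) ((v.adicCompletion K) ⊗[K] L))) ↔
      ∀ w : HeightOneSpectrum (𝓞 L), w.under (𝓞 K) ∉ S → w.valuation L x = 1 := by
  constructor
  · intro h w hw
    exact (idIntG_tmul_mem_and_inv_mem_iff K L _ hx).mp (h _ hw) w rfl
  · intro h v hv
    rw [idIntG_tmul_mem_and_inv_mem_iff K L v hx]
    rintro w rfl
    exact h w hv

end NumberField

end Fermat.Agent.CFT
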