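/-
CFT, S55 pool, GLOBAL-IDELIC layer (GL5)(d) (helper4): `S`-ideles and `S`-units.

In the vocabulary of `Idele/Defs.lean` (helper23):

* `diagIdele_mem_semiLocalUnits_iff` : the component at `v` of the principal idele of `x : Lˣ`
  is a unit of `O_{L,v}` iff `w(x) = 1` for all primes `w` of `L` above `v` (no Galois hypothesis);
* `ideleGroupS K L S` : the subgroup `J_{L,S}` of ideles which are units outside `S`
  (`S` a set of primes of `K`), stable under `Gal(L/K)`;
* `diagIdele_mem_ideleGroupS_iff`, `comap_diagIdele_ideleGroupS` :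
  `Lˣ ∩ J_{L,S} = U_T` (the `T`-units of `L`, `T` the set of primes of `L` above `S`);
  `comap_diagIdele_ideleGroupS_primesAbove` for `T = primesAbove K L S`, `L/K` Galois.
-/
import Mathlib
import Fermat.Agent.CFT.Idele.Defs
import Fermat.Agent.CFT.Idele.IntegralGen
import Fermat.Agent.CFT.Global.SUnitsHerbrand

set_option autoImplicit false
set_option linter.unusedSectionVars false

namespace Fermat.Agent.CFT

open scoped TensorProduct
open NumberField IsDedekindDomain IsDedekindDomain.HeightOneSpectrum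

section Basic

variable {K L : Type*} [Field K] [NumberField K] [Field L] [NumberField L] [Algebra K L]

/-- the component at `v` of a principal idele is a local unit iff `w(x) = 1` for all `w ∣ v`. -/
theorem diagIdele_mem_semiLocalUnits_iff (x : Lˣ) (v : HeightOneSpectrum (𝓞 K)) :
    ((diagIdele (K := K) x : ideleGroup K L) : ∀ v, (semiLocal K L v)ˣ) v ∈ semiLocalUnits K L v ↔
      ∀ w : HeightOneSpectrum (𝓞 L), w.under (𝓞 K) = v → w.valuation L (x : L) = 1 := by
  rw [diagIdele_apply, mem_semiLocalUnits_iff,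
    ← idIntG_tmul_mem_and_inv_mem_iff K L v x.ne_zero]
  have h1 : ((Units.map (semiLocalIncl K L v : L →* semiLocal K L v) x :
      (semiLocal K L v)ˣ) : semiLocal K L v) = (1 : v.adicCompletion K) ⊗ₜ[K] (x : L) := rfl
  have h2 : (((Units.map (semiLocalIncl K L v : L →* semiLocal K L v) x)⁻¹ :
      (semiLocal K L v)ˣ) : semiLocal K L v) = (1 : v.adicCompletion K) ⊗ₜ[K] (x : L)⁻¹ := by
    rw [← map_inv]
    change (1 : v.adicCompletion K) ⊗ₜ[K] ((x⁻¹ : Lˣ) : L) = _
    rw [Units.val_inv_eq_inv_val]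
  rw [h1, h2]
  rfl

variable (K L)

/-- `J_{L,S}`: the ideles of `L` which are local units at all places `v ∉ S` of `K`. -/
noncomputable def ideleGroupS (S : Set (HeightOneSpectrum (𝓞 K))) : Subgroup (ideleGroup K L) where
  carrier := {x | ∀ v : HeightOneSpectrum (𝓞 K), v ∉ S →
    (x : ∀ v, (semiLocal K L v)ˣ) v ∈ semiLocalUnits K L v}
  one_mem' := fun v _ => (semiLocalUnits K L v).one_mem
  mul_mem' := fun {_ _} hx hy v hv => (semiLocalUnits K L v).mul_mem (hx v hv) (hy v hv)
  inv_mem' := fun {_} hx v hv => (semiLocalUnits K L v).inv_mem (hx v hv)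

variable {K L}

theorem mem_ideleGroupS_iff {S : Set (HeightOneSpectrum (𝓞 K))} (x : ideleGroup K L) :
    x ∈ ideleGroupS K L S ↔ ∀ v : HeightOneSpectrum (𝓞 K), v ∉ S →
      (x : ∀ v, (semiLocal K L v)ˣ) v ∈ semiLocalUnits K L v := Iff.rfl

theorem ideleGroupS_mono {S S' : Set (HeightOneSpectrum (𝓞 K))} (h : S ⊆ S') :
    ideleGroupS K L S ≤ ideleGroupS K L S' := fun _ hx v hv => hx v fun hvS => hv (h hvS)

/-- every idele lies in some `J_{L,S}`, `S` finite. -/
theorem exists_finset_mem_ideleGroupS (x : ideleGroup K L) :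
    ∃ S : Finset (HeightOneSpectrum (𝓞 K)),
      x ∈ ideleGroupS K L (S : Set (HeightOneSpectrum (𝓞 K))) := by
  have hx : ∀ᶠ v in Filter.cofinite,
      (x : ∀ v, (semiLocal K L v)ˣ) v ∈ semiLocalUnits K L v := x.2
  rw [Filter.eventually_cofinite] at hx
  refine ⟨hx.toFinset, fun v hv => ?_⟩
  by_contra hcon
  exact hv (by simpa using hcon)

/-- `Lˣ ∩ J_{L,S}`, valuation form. -/
theorem diagIdele_mem_ideleGroupS_iff (S : Set (HeightOneSpectrum (𝓞 K))) (x : Lˣ) :
    diagIdele (K := K) x ∈ ideleGroupS K L S ↔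
      ∀ w : HeightOneSpectrum (𝓞 L), w.under (𝓞 K) ∉ S → w.valuation L (x : L) = 1 := by
  rw [mem_ideleGroupS_iff]
  constructor
  · intro h w hw
    exact (diagIdele_mem_semiLocalUnits_iff x _).mp (h _ hw) w rfl
  · intro h v hv
    rw [diagIdele_mem_semiLocalUnits_iff]
    rintro w rfl
    exact h w hv

/-- **(GL5)(d)** `Lˣ ∩ J_{L,S} = U_T` where `T` is the set of primes of `L` above `S`. -/
theorem comap_diagIdele_ideleGroupS (S : Set (HeightOneSpectrum (𝓞 K)))
    (T : Set (HeightOneSpectrum (𝓞 L))) (hT : ∀ w, w ∈ T ↔ w.under (𝓞 K) ∈ S) :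
    (ideleGroupS K L S).comap (diagIdele (K := K) (L := L)) = T.unit L := by
  ext x
  rw [Subgroup.mem_comap, diagIdele_mem_ideleGroupS_iff]
  constructor
  · intro h w hw
    exact h w fun hS => hw ((hT w).mpr hS)
  · intro h w hw
    exact h w fun hwT => hw ((hT w).mp hwT)

end Basic

section Galois

open scoped Fermat.Agent.CFT.TensorGal Fermat.Agent.CFT.IdeleAct

variable {K L : Type*} [Field K] [NumberField K] [Field L] [NumberField L] [Algebra K L]

/-- `J_{L,S}` is stable under the Galois group. -/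
theorem smul_mem_ideleGroupS {S : Set (HeightOneSpectrum (𝓞 K))} (g : Gal(L/K))
    {x : ideleGroup K L} (hx : x ∈ ideleGroupS K L S) : g • x ∈ ideleGroupS K L S := by
  intro v hv
  rw [ideleGroup_smul_apply]
  exact smul_mem_semiLocalUnits g (hx v hv)

variable [IsGalois K L]

/-- **(GL5)(d)**, Galois form: `Lˣ ∩ J_{L,S} = U_{S_L}`, `S_L = primesAbove K L S`. -/
theorem comap_diagIdele_ideleGroupS_primesAbove (S : Finset (HeightOneSpectrum (𝓞 K))) :
    (ideleGroupS K L (S : Set (HeightOneSpectrum (𝓞 K)))).comap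
      (diagIdele (K := K) (L := L)) = sUnit L (primesAbove K L S) := by
  refine comap_diagIdele_ideleGroupS _ _ fun w => ?_
  rw [Finset.mem_coe, mem_primesAbove, Finset.mem_coe]

end Galois

end Fermat.Agent.CFT
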