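/-
CFT, S55 pool, GLOBAL-IDELIC layer (helper4): RELATIVE idele groups.

Three number fields `K ⊆ M ⊆ L`; `K` is the tensor base of the model (`semiLocal K · v = K_v ⊗[K] ·`),
`M` the Galois base.  The ideles of `M` and of `L` are both taken in the `K`-model
(`ideleGroup K M`, `ideleGroup K L`), so that for a Galois extension `L/K` with group `G` the
cohomology of EVERY subgroup `Gal(L/M) ≤ G` acting on the single module `ideleGroup K L`
(resp. `ideleClass K L`) can be computed without comparing models.

* `relSemiLocalMap K M L v : K_v ⊗ M →ₐ[K_v] K_v ⊗ L` (injective, integrality-reflecting);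
* `relIdele K M L : ideleGroup K M →* ideleGroup K L` (injective, compatible with `diagIdele`);
* `mem_range_relIdele_iff` : for `L/M` Galois, `x ∈ J_L` comes from `J_M` iff it is fixed by every
  `g ∈ Gal(L/K)` which fixes `M` pointwise;
* `relIdeleNorm K M L : ideleGroup K L →* ideleGroup K M`, `relIdele (relIdeleNorm x) = ∏_{h ∈ Gal(L/M)} h • x`.
-/
import Mathlib
import Fermat.Agent.CFT.Idele.ClassGroup
import Fermat.Agent.CFT.Idele.IntegralSUnits

set_option autoImplicit false
set_option linter.unusedSectionVars false

namespace Fermat.Agent.CFT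

open scoped TensorProduct Fermat.Agent.CFT.TensorGal Fermat.Agent.CFT.IdeleAct
open NumberField IsDedekindDomain

section Abstract

variable {K F M L H : Type*} [Field K] [Field F] [Field M] [Field L] [Algebra K F]
  [Algebra K M] [Algebra M L] [Algebra K L] [IsScalarTower K M L]
  [Group H] [MulSemiringAction H L] [SMulCommClass H K L]

/-- base change of the inclusion `M → L`. -/
noncomputable def relTensorMap : F ⊗[K] M →ₐ[F] F ⊗[K] L :=
  Algebra.TensorProduct.map (AlgHom.id F F) (IsScalarTower.toAlgHom K M L)

@[simp] theorem relTensorMap_tmul (c : F) (m : M) :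
    relTensorMap (K := K) (L := L) (c ⊗ₜ[K] m) = c ⊗ₜ[K] (algebraMap M L m) := by
  simp [relTensorMap]

theorem relTensorMap_injective :
    Function.Injective (relTensorMap (K := K) (F := F) (M := M) (L := L)) := by
  have h : Function.Injective
      (LinearMap.lTensor F (IsScalarTower.toAlgHom K M L).toLinearMap) :=
    Module.Flat.lTensor_preserves_injective_linearMap _ (algebraMap M L).injective
  intro x y hxy
  apply h
  have hx : ∀ z : F ⊗[K] M, LinearMap.lTensor F (IsScalarTower.toAlgHom K M L).toLinearMap z =
      relTensorMap (K := K) (L := L) z := by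
    intro z
    induction z using TensorProduct.induction_on with
    | zero => simp
    | tmul c m => simp
    | add a b ha hb => rw [map_add, map_add, ha, hb]
  rw [hx, hx, hxy]

/-- an element of `F ⊗ L` fixed by a group `H` with `L^H = M` comes from `F ⊗ M`. -/
theorem relId_exists_of_smul_eq [Algebra.IsInvariant M L H] (x : F ⊗[K] L)
    (hx : ∀ h : H, h • x = x) :
    ∃ y : F ⊗[K] M, relTensorMap (K := K) (L := L) y = x := by
  classical
  let b := Module.Basis.ofVectorSpace K F
  set c := tensorCoord (L := L) b x with hc
  have hfix : ∀ i, ∀ h : H, h • c i = c i := fun i h => by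
    rw [hc, ← tensorCoord_smul, hx h]
  choose k hk using fun i => Algebra.IsInvariant.isInvariant (A := M) (c i) (hfix i)
  refine ⟨∑ i ∈ c.support, b i ⊗ₜ[K] k i, ?_⟩
  have hx' : x = (tensorCoord b).symm c := by rw [hc, LinearEquiv.symm_apply_apply]
  have hsum : c = ∑ i ∈ c.support, Finsupp.single i (c i) := (Finsupp.sum_single c).symm
  rw [hx', map_sum]
  conv_rhs => rw [hsum, map_sum]
  refine Finset.sum_congr rfl fun i _ => ?_
  rw [tensorCoord_symm_single, relTensorMap_tmul, hk i]

end Abstract

section NumberField

variable (K M L : Type*) [Field K] [NumberField K] [Field M] [NumberField M]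
  [Field L] [NumberField L] [Algebra K M] [Algebra M L] [Algebra K L] [IsScalarTower K M L]

/-- `K_v ⊗ M → K_v ⊗ L`. -/
noncomputable abbrev relSemiLocalMap (v : HeightOneSpectrum (𝓞 K)) :
    semiLocal K M v →ₐ[v.adicCompletion K] semiLocal K L v :=
  relTensorMap

theorem relSemiLocalMap_injective (v : HeightOneSpectrum (𝓞 K)) :
    Function.Injective (relSemiLocalMap K M L v) :=
  relTensorMap_injective

variable {K M L} in
theorem relSemiLocalMap_incl (v : HeightOneSpectrum (𝓞 K)) (x : M) :
    relSemiLocalMap K M L v (semiLocalIncl K M v x) = semiLocalIncl K L v (algebraMap M L x) := by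
  show relTensorMap ((1 : v.adicCompletion K) ⊗ₜ[K] x) = (1 : v.adicCompletion K) ⊗ₜ[K] _
  rw [relTensorMap_tmul]

variable {K M L} in
/-- integrality over `O_v` is reflected by `K_v ⊗ M → K_v ⊗ L`. -/
theorem isIntegral_relSemiLocalMap_iff {v : HeightOneSpectrum (𝓞 K)} (y : semiLocal K M v) :
    IsIntegral (v.adicCompletionIntegers K) (relSemiLocalMap K M L v y) ↔
      IsIntegral (v.adicCompletionIntegers K) y :=
  isIntegral_algHom_iff ((relSemiLocalMap K M L v).restrictScalars (v.adicCompletionIntegers K))
    (relSemiLocalMap_injective K M L v)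

variable {K M L} in
theorem relMap_mem_semiLocalUnits_iff {v : HeightOneSpectrum (𝓞 K)} (u : (semiLocal K M v)ˣ) :
    Units.map (relSemiLocalMap K M L v : semiLocal K M v →* semiLocal K L v) u ∈
      semiLocalUnits K L v ↔ u ∈ semiLocalUnits K M v := by
  rw [mem_semiLocalUnits_iff, mem_semiLocalUnits_iff, ← map_inv]
  simp only [Units.coe_map, MonoidHom.coe_coe]
  rw [isIntegral_relSemiLocalMap_iff, isIntegral_relSemiLocalMap_iff]

/-- the map `J_M → J_L` (both in the `K`-model). -/
noncomputable def relIdele : ideleGroup K M →* ideleGroup K L where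
  toFun x := ⟨fun v => Units.map
      (relSemiLocalMap K M L v : semiLocal K M v →* semiLocal K L v) (x.1 v), by
    rw [mem_ideleGroup_iff]
    have hx : ∀ᶠ v in Filter.cofinite, x.1 v ∈ semiLocalUnits K M v := x.2
    filter_upwards [hx] with v hv
    exact (relMap_mem_semiLocalUnits_iff _).mpr hv⟩
  map_one' := by
    apply Subtype.ext
    funext v
    simp
  map_mul' x y := by
    apply Subtype.ext
    funext v
    simp

variable {K M L} in
theorem relIdele_apply (x : ideleGroup K M) (v : HeightOneSpectrum (𝓞 K)) :
    ((relIdele K M L x : ideleGroup K L) : ∀ v, (semiLocal K L v)ˣ) v =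
      Units.map (relSemiLocalMap K M L v : semiLocal K M v →* semiLocal K L v) (x.1 v) := rfl

theorem relIdele_injective : Function.Injective (relIdele K M L) := by
  intro x y hxy
  apply Subtype.ext
  funext v
  have h1 := congrArg (fun z : ideleGroup K L => ((z : ∀ v, (semiLocal K L v)ˣ) v :
    semiLocal K L v)) hxy
  simp only [relIdele_apply, Units.coe_map, MonoidHom.coe_coe] at h1
  exact Units.ext (relSemiLocalMap_injective K M L v h1)

/-- compatibility of the diagonal embeddings. -/
theorem relIdele_diagIdele (x : Mˣ) :
    relIdele K M L (diagIdele (K := K) x) =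
      diagIdele (K := K) (Units.map (algebraMap M L : M →* L) x) := by
  apply Subtype.ext
  funext v
  apply Units.ext
  rw [relIdele_apply, diagIdele_apply, diagIdele_apply]
  simp only [Units.coe_map, MonoidHom.coe_coe]
  exact relSemiLocalMap_incl v (x : M)

/-- `J_{M,S}` is the preimage of `J_{L,S}`. -/
theorem relIdele_mem_forall_iff (S : Set (HeightOneSpectrum (𝓞 K))) (x : ideleGroup K M) :
    (∀ v, v ∉ S → ((relIdele K M L x : ideleGroup K L) : ∀ v, (semiLocal K L v)ˣ) v ∈
        semiLocalUnits K L v) ↔
      ∀ v, v ∉ S → (x : ∀ v, (semiLocal K M v)ˣ) v ∈ semiLocalUnits K M v := by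
  constructor
  · intro h v hv
    exact (relMap_mem_semiLocalUnits_iff _).mp (h v hv)
  · intro h v hv
    exact (relMap_mem_semiLocalUnits_iff _).mpr (h v hv)

end NumberField

section Fixing

variable (K M L : Type*) [Field K] [Field M] [Field L]
  [Algebra K M] [Algebra M L] [Algebra K L] [IsScalarTower K M L]

/-- the subgroup of `Gal(L/K)` of the automorphisms fixing `M` pointwise (`= Gal(L/M)`). -/
def relFixing : Subgroup Gal(L/K) where
  carrier := {g | ∀ m : M, g (algebraMap M L m) = algebraMap M L m}
  one_mem' := fun _ => rfl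
  mul_mem' := fun {g h} hg hh m => by
    rw [AlgEquiv.mul_apply, hh m, hg m]
  inv_mem' := fun {g} hg m => by
    have h1 : g⁻¹ (g (algebraMap M L m)) = algebraMap M L m := by
      rw [← AlgEquiv.mul_apply, inv_mul_cancel, AlgEquiv.one_apply]
    rw [hg m] at h1
    exact h1

variable {K M L} in
theorem mem_relFixing_iff (g : Gal(L/K)) :
    g ∈ relFixing K M L ↔ ∀ m : M, g (algebraMap M L m) = algebraMap M L m := Iff.rfl

/-- `Gal(L/M) → Gal(L/K)`. -/
def relGalHom : Gal(L/M) →* Gal(L/K) where
  toFun h := h.restrictScalars K
  map_one' := rfl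
  map_mul' _ _ := rfl

variable {K M L} in
@[simp] theorem relGalHom_apply (h : Gal(L/M)) (x : L) : relGalHom K M L h x = h x := rfl

theorem relGalHom_injective : Function.Injective (relGalHom K M L) := by
  intro h h' hh
  ext x
  have := congrArg (fun g : Gal(L/K) => g x) hh
  simpa using this

theorem relGalHom_mem_relFixing (h : Gal(L/M)) : relGalHom K M L h ∈ relFixing K M L :=
  fun m => h.commutes m

variable {K M L} in
theorem exists_relGalHom_eq {g : Gal(L/K)} (hg : g ∈ relFixing K M L) :
    ∃ h : Gal(L/M), relGalHom K M L h = g :=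
  ⟨{ g with commutes' := hg }, by ext x; rfl⟩

theorem range_relGalHom : (relGalHom K M L).range = relFixing K M L := by
  ext g
  constructor
  · rintro ⟨h, rfl⟩
    exact relGalHom_mem_relFixing K M L h
  · intro hg
    exact exists_relGalHom_eq hg

/-- `Gal(L/M)` commutes with `K`-scalars on `L`. -/
instance relId_smulCommClass : SMulCommClass Gal(L/M) K L where
  smul_comm h k x := by
    change h (k • x) = k • h x
    rw [← IsScalarTower.algebraMap_smul M k x, map_smul, IsScalarTower.algebraMap_smul]

end Fixing

section Invariants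

variable (K M L : Type*) [Field K] [NumberField K] [Field M] [NumberField M]
  [Field L] [NumberField L] [Algebra K M] [Algebra M L] [Algebra K L] [IsScalarTower K M L]

variable {K M L} in
/-- the two actions of `h : Gal(L/M)` on `K_v ⊗ L` (directly, or as an element of `Gal(L/K)`)
agree. -/
theorem relGalHom_smul_semiLocal {v : HeightOneSpectrum (𝓞 K)} (h : Gal(L/M))
    (y : semiLocal K L v) : (relGalHom K M L h) • y = h • y := by
  induction y using TensorProduct.induction_on with
  | zero => rw [smul_zero, smul_zero]
  | tmul c l =>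
    rw [tensorRight_smul_tmul, tensorRight_smul_tmul]
    rfl
  | add a b ha hb => rw [smul_add, smul_add, ha, hb]

variable {K M L} in
theorem smul_relSemiLocalMap {v : HeightOneSpectrum (𝓞 K)} {g : Gal(L/K)}
    (hg : g ∈ relFixing K M L) (y : semiLocal K M v) :
    g • relSemiLocalMap K M L v y = relSemiLocalMap K M L v y := by
  induction y using TensorProduct.induction_on with
  | zero => rw [map_zero, smul_zero]
  | tmul c m =>
    show g • relTensorMap (c ⊗ₜ[K] m) = relTensorMap (c ⊗ₜ[K] m)
    rw [relTensorMap_tmul, tensorRight_smul_tmul]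
    congr 1
    exact hg m
  | add a b ha hb => rw [map_add, smul_add, ha, hb]

variable {K M L} in
/-- the image of `J_M` is fixed by `Gal(L/M)`. -/
theorem smul_relIdele {g : Gal(L/K)} (hg : g ∈ relFixing K M L) (x : ideleGroup K M) :
    g • relIdele K M L x = relIdele K M L x := by
  apply Subtype.ext
  funext v
  apply Units.ext
  rw [ideleGroup_smul_apply, units_smul_val, relIdele_apply]
  simp only [Units.coe_map, MonoidHom.coe_coe]
  exact smul_relSemiLocalMap hg _

variable [IsGalois M L]

variable {K M L} in
/-- local form: a unit of `K_v ⊗ L` fixed by `Gal(L/M)` comes from `K_v ⊗ M`. -/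
theorem exists_units_relMap_eq_of_smul_eq {v : HeightOneSpectrum (𝓞 K)} (u : (semiLocal K L v)ˣ)
    (hu : ∀ g ∈ relFixing K M L, g • u = u) :
    ∃ a : (semiLocal K M v)ˣ,
      Units.map (relSemiLocalMap K M L v : semiLocal K M v →* semiLocal K L v) a = u := by
  have hinv : Algebra.IsInvariant M L Gal(L/M) := IsGaloisGroup.isInvariant (G := Gal(L/M))
  have hfix : ∀ (w : (semiLocal K L v)ˣ), (∀ g ∈ relFixing K M L, g • w = w) →
      ∀ h : Gal(L/M), h • (w : semiLocal K L v) = (w : semiLocal K L v) := fun w hw h => by
    rw [← relGalHom_smul_semiLocal, ← units_smul_val, hw _ (relGalHom_mem_relFixing K M L h)]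
  obtain ⟨a, ha⟩ := relId_exists_of_smul_eq (M := M) (u : semiLocal K L v) (hfix u hu)
  have hu' : ∀ g ∈ relFixing K M L, g • u⁻¹ = u⁻¹ := fun g hg => by
    rw [smul_inv', hu g hg]
  obtain ⟨b, hb⟩ := relId_exists_of_smul_eq (M := M) ((u⁻¹ : (semiLocal K L v)ˣ) :
    semiLocal K L v) (hfix u⁻¹ hu')
  have hab : a * b = 1 := by
    apply relSemiLocalMap_injective K M L v
    show relTensorMap (a * b) = relTensorMap 1
    rw [map_mul, ha, hb, map_one, Units.mul_inv]
  have hba : b * a = 1 := by rw [mul_comm, hab]
  exact ⟨⟨a, b, hab, hba⟩, Units.ext ha⟩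

/-- **relative Galois invariants of the idele group**: `(J_L)^{Gal(L/M)} = J_M` in the `K`-model. -/
theorem mem_range_relIdele_iff (x : ideleGroup K L) :
    x ∈ (relIdele K M L).range ↔ ∀ g ∈ relFixing K M L, g • x = x := by
  constructor
  · rintro ⟨y, rfl⟩ g hg
    exact smul_relIdele hg y
  · intro hx
    have hloc : ∀ v, ∀ g ∈ relFixing K M L, g • (x.1 v) = x.1 v := fun v g hg => by
      have := congrArg (fun z : ideleGroup K L => (z : ∀ v, (semiLocal K L v)ˣ) v) (hx g hg)
      simpa only [ideleGroup_smul_apply] using this
    choose a ha using fun v => exists_units_relMap_eq_of_smul_eq (M := M) (x.1 v) (hloc v)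
    have hmem : a ∈ ideleGroup K M := by
      rw [mem_ideleGroup_iff]
      have hx2 : ∀ᶠ v in Filter.cofinite, x.1 v ∈ semiLocalUnits K L v := x.2
      filter_upwards [hx2] with v hv
      rw [← relMap_mem_semiLocalUnits_iff (L := L), ha v]
      exact hv
    refine ⟨⟨a, hmem⟩, ?_⟩
    apply Subtype.ext
    funext v
    rw [relIdele_apply]
    exact ha v

/-- the product of the `Gal(L/M)`-conjugates of an idele of `L`. -/
noncomputable def relIdeleNormEnd : ideleGroup K L →* ideleGroup K L where
  toFun x := ∏ h : Gal(L/M), (relGalHom K M L h) • x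
  map_one' := by simp
  map_mul' x y := by
    rw [← Finset.prod_mul_distrib]
    exact Finset.prod_congr rfl fun g _ => smul_mul' _ x y

variable {K M L} in
theorem relIdeleNormEnd_apply (x : ideleGroup K L) :
    relIdeleNormEnd K M L x = ∏ h : Gal(L/M), (relGalHom K M L h) • x := rfl

variable {K M L} in
theorem smul_relIdeleNormEnd {g : Gal(L/K)} (hg : g ∈ relFixing K M L) (x : ideleGroup K L) :
    g • relIdeleNormEnd K M L x = relIdeleNormEnd K M L x := by
  obtain ⟨h0, rfl⟩ := exists_relGalHom_eq hg
  rw [relIdeleNormEnd_apply, Finset.smul_prod']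
  simp_rw [← mul_smul, ← map_mul]
  exact Fintype.prod_equiv (Equiv.mulLeft h0) _ _ fun g => rfl

variable {K M L} in
theorem relIdeleNormEnd_mem_range (x : ideleGroup K L) :
    relIdeleNormEnd K M L x ∈ (relIdele K M L).range :=
  (mem_range_relIdele_iff K M L _).mpr fun _ hg => smul_relIdeleNormEnd hg x

/-- **the relative idele norm** `N_{L/M} : J_L →* J_M` (both in the `K`-model), characterised by
`relIdele (relIdeleNorm x) = ∏_{h ∈ Gal(L/M)} h • x`. -/
noncomputable def relIdeleNorm : ideleGroup K L →* ideleGroup K M where
  toFun x := (relIdeleNormEnd_mem_range (M := M) x).choose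
  map_one' := by
    apply relIdele_injective K M L
    rw [(relIdeleNormEnd_mem_range (M := M) (1 : ideleGroup K L)).choose_spec, map_one, map_one]
  map_mul' x y := by
    apply relIdele_injective K M L
    rw [(relIdeleNormEnd_mem_range (M := M) (x * y)).choose_spec, map_mul, map_mul,
      (relIdeleNormEnd_mem_range (M := M) x).choose_spec,
      (relIdeleNormEnd_mem_range (M := M) y).choose_spec]

variable {K M L} in
theorem relIdele_relIdeleNorm (x : ideleGroup K L) :
    relIdele K M L (relIdeleNorm K M L x) = ∏ h : Gal(L/M), (relGalHom K M L h) • x :=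
  (relIdeleNormEnd_mem_range (M := M) x).choose_spec

variable {K M L} in
/-- the relative norm is `Gal(L/M)`-invariant. -/
theorem relIdeleNorm_smul {g : Gal(L/K)} (hg : g ∈ relFixing K M L) (x : ideleGroup K L) :
    relIdeleNorm K M L (g • x) = relIdeleNorm K M L x := by
  obtain ⟨h0, rfl⟩ := exists_relGalHom_eq hg
  apply relIdele_injective K M L
  rw [relIdele_relIdeleNorm, relIdele_relIdeleNorm]
  simp_rw [← mul_smul, ← map_mul]
  exact Fintype.prod_equiv (Equiv.mulRight h0) _ _ fun g => rfl

variable {K M L} in
/-- the relative norm of an idele of `M` is its `[L : M]`-th power. -/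
theorem relIdeleNorm_relIdele (y : ideleGroup K M) :
    relIdeleNorm K M L (relIdele K M L y) = y ^ Nat.card Gal(L/M) := by
  apply relIdele_injective K M L
  rw [relIdele_relIdeleNorm, map_pow]
  have : ∀ h : Gal(L/M), (relGalHom K M L h) • relIdele K M L y = relIdele K M L y :=
    fun h => smul_relIdele (relGalHom_mem_relFixing K M L h) y
  simp_rw [this]
  rw [Finset.prod_const, Finset.card_univ, Nat.card_eq_fintype_card]

variable {K M L} in
/-- the relative norm of a principal idele is the principal idele of the field norm. -/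
theorem relIdeleNorm_diagIdele (x : Lˣ) :
    relIdeleNorm K M L (diagIdele (K := K) x) =
      diagIdele (K := K) (Units.map (Algebra.norm M : L →* M) x) := by
  apply relIdele_injective K M L
  rw [relIdele_relIdeleNorm, relIdele_diagIdele]
  simp_rw [← diagIdele_smul]
  rw [← map_prod]
  congr 1
  apply Units.ext
  simp only [Units.coe_map, MonoidHom.coe_coe, Units.coe_prod]
  rw [Algebra.norm_eq_prod_automorphisms]
  rfl

end Invariants

section RelClass

variable (K M L : Type*) [Field K] [NumberField K] [Field M] [NumberField M]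
  [Field L] [NumberField L] [Algebra K M] [Algebra M L] [Algebra K L] [IsScalarTower K M L]

theorem principalIdeles_le_comap_relIdele :
    principalIdeles K M ≤ (principalIdeles K L).comap (relIdele K M L) := by
  rintro _ ⟨x, rfl⟩
  exact ⟨Units.map (algebraMap M L : M →* L) x, (relIdele_diagIdele K M L x).symm⟩

/-- the map `C_M → C_L` (both in the `K`-model). -/
noncomputable def relClass : ideleClass K M →* ideleClass K L :=
  QuotientGroup.map (principalIdeles K M) (principalIdeles K L) (relIdele K M L)
    (principalIdeles_le_comap_relIdele K M L)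

variable {K M L} in
theorem relClass_mk (y : ideleGroup K M) :
    relClass K M L (y : ideleClass K M) =
      ((relIdele K M L y : ideleGroup K L) : ideleClass K L) := rfl

variable {K M L} in
theorem smul_relClass {g : Gal(L/K)} (hg : g ∈ relFixing K M L) (c : ideleClass K M) :
    g • relClass K M L c = relClass K M L c := by
  induction c using QuotientGroup.induction_on with
  | H y =>
    rw [relClass_mk]
    show ((g • relIdele K M L y : ideleGroup K L) : ideleClass K L) = _
    rw [smul_relIdele hg]

variable [IsGalois M L]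

theorem principalIdeles_le_comap_relIdeleNorm :
    principalIdeles K L ≤ (principalIdeles K M).comap (relIdeleNorm K M L) := by
  rintro _ ⟨x, rfl⟩
  exact ⟨Units.map (Algebra.norm M : L →* M) x, (relIdeleNorm_diagIdele x).symm⟩

/-- the relative norm `N_{L/M} : C_L → C_M`. -/
noncomputable def relClassNorm : ideleClass K L →* ideleClass K M :=
  QuotientGroup.map (principalIdeles K L) (principalIdeles K M) (relIdeleNorm K M L)
    (principalIdeles_le_comap_relIdeleNorm K M L)

variable {K M L} in
theorem relClassNorm_mk (x : ideleGroup K L) :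
    relClassNorm K M L (x : ideleClass K L) =
      ((relIdeleNorm K M L x : ideleGroup K M) : ideleClass K M) := rfl

variable {K M L} in
/-- `J_M ∩ Lˣ = Mˣ` inside `J_L`. -/
theorem mem_principalIdeles_of_relIdele_mem {y : ideleGroup K M}
    (hy : relIdele K M L y ∈ principalIdeles K L) : y ∈ principalIdeles K M := by
  obtain ⟨x, hx⟩ := hy
  have hfix : ∀ h : Gal(L/M), h (x : L) = (x : L) := by
    intro h
    have h1 : diagIdele (K := K) (Units.map ((relGalHom K M L h : Gal(L/K)) : L →* L) x) =
        diagIdele (K := K) x := by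
      rw [diagIdele_smul, hx, smul_relIdele (relGalHom_mem_relFixing K M L h)]
    have h2 := diagIdele_injective h1
    exact congrArg (fun u : Lˣ => (u : L)) h2
  have hmem : (x : L) ∈ (⊥ : IntermediateField M L) := by
    rw [← IsGalois.fixedField_top (F := M) (E := L)]
    intro g
    exact hfix g.1
  obtain ⟨k, hk⟩ := IntermediateField.mem_bot.mp hmem
  have hk0 : k ≠ 0 := by
    rintro rfl
    rw [map_zero] at hk
    exact x.ne_zero hk.symm
  refine ⟨Units.mk0 k hk0, ?_⟩
  apply relIdele_injective K M L
  rw [relIdele_diagIdele, ← hx]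
  congr 1
  exact Units.ext hk

theorem relClass_injective : Function.Injective (relClass K M L) := by
  rw [injective_iff_map_eq_one]
  intro c hc
  induction c using QuotientGroup.induction_on with
  | H y =>
    rw [relClass_mk, QuotientGroup.eq_one_iff] at hc
    exact (QuotientGroup.eq_one_iff y).mpr (mem_principalIdeles_of_relIdele_mem hc)

/-- **relative Galois invariants of the idele class group** (Hilbert 90):
`(C_L)^{Gal(L/M)} = C_M` in the `K`-model. -/
theorem mem_range_relClass_iff (c : ideleClass K L) :
    c ∈ (relClass K M L).range ↔ ∀ g ∈ relFixing K M L, g • c = c := by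
  constructor
  · rintro ⟨y, rfl⟩ g hg
    exact smul_relClass hg y
  · intro hc
    induction c using QuotientGroup.induction_on with
    | H x =>
      have hex : ∀ h : Gal(L/M), ∃ u : Lˣ,
          diagIdele (K := K) u = ((relGalHom K M L h) • x) / x := by
        intro h
        have h1 : (((relGalHom K M L h) • x : ideleGroup K L) : ideleClass K L) =
            (x : ideleClass K L) := hc _ (relGalHom_mem_relFixing K M L h)
        have h2 := QuotientGroup.eq.mp h1.symm
        obtain ⟨u, hu⟩ := h2
        exact ⟨u, by rw [hu, div_eq_inv_mul]⟩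
      choose f hf using hex
      have hcoc : groupCohomology.IsMulCocycle₁ f := by
        intro g h
        apply diagIdele_injective (K := K)
        rw [map_mul, hf, hf]
        have h3 : (g • f h : Lˣ) =
            Units.map ((relGalHom K M L g : Gal(L/K)) : L →* L) (f h) := rfl
        rw [h3, diagIdele_smul, hf, map_mul, mul_smul, smul_div']
        rw [div_mul_div_cancel]
      obtain ⟨b, hb⟩ := groupCohomology.isMulCoboundary₁_of_isMulCocycle₁_of_aut_to_units f hcoc
      have hinv : ∀ g ∈ relFixing K M L,
          g • (x / diagIdele (K := K) b) = x / diagIdele (K := K) b := by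
        intro g hg
        obtain ⟨h0, rfl⟩ := exists_relGalHom_eq hg
        have h4 : (h0 • b : Lˣ) = Units.map ((relGalHom K M L h0 : Gal(L/K)) : L →* L) b := rfl
        have h5 : diagIdele (K := K) (Units.map ((relGalHom K M L h0 : Gal(L/K)) : L →* L) b) =
            diagIdele (K := K) b * (((relGalHom K M L h0) • x) / x) := by
          rw [← hf h0, ← map_mul, ← hb h0, ← h4]
          congr 1
          rw [mul_div_cancel]
        rw [smul_div', ← diagIdele_smul, h5]
        exact idele_div_aux _ _ _
      obtain ⟨y, hy⟩ := (mem_range_relIdele_iff K M L _).mpr hinv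
      refine ⟨(y : ideleClass K M), ?_⟩
      rw [relClass_mk, hy]
      refine QuotientGroup.eq.mpr ⟨b, ?_⟩
      rw [inv_div, div_mul_cancel]

end RelClass

section RelS

variable {K M L : Type*} [Field K] [NumberField K] [Field M] [NumberField M]
  [Field L] [NumberField L] [Algebra K M] [Algebra M L] [Algebra K L] [IsScalarTower K M L]

/-- `J_{M,S}` is the preimage of `J_{L,S}` (`S` a set of primes of the tensor base `K`). -/
theorem relIdele_mem_ideleGroupS_iff (S : Set (HeightOneSpectrum (𝓞 K))) (x : ideleGroup K M) :
    relIdele K M L x ∈ ideleGroupS K L S ↔ x ∈ ideleGroupS K M S :=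
  relIdele_mem_forall_iff K M L S x

variable [IsGalois M L]

/-- the relative norm maps `J_{L,S}` into `J_{M,S}`. -/
theorem relIdeleNorm_mem_ideleGroupS {S : Set (HeightOneSpectrum (𝓞 K))} {x : ideleGroup K L}
    (hx : x ∈ ideleGroupS K L S) : relIdeleNorm K M L x ∈ ideleGroupS K M S := by
  rw [← relIdele_mem_ideleGroupS_iff (L := L), relIdele_relIdeleNorm]
  exact Subgroup.prod_mem _ fun h _ => smul_mem_ideleGroupS _ hx

end RelS

end Fermat.Agent.CFT
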