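import Mathlib
import Fermat.Agent.CFT.Idele.Relative

set_option autoImplicit false
set_option linter.unusedSectionVars false

/-!
# CFT, S55 pool, GLOBAL-IDELIC layer: towers in the relative idele framework

`K ≤ M ≤ M' ≤ L` number fields, `K` the tensor base (helper4's `Idele/Relative.lean`).

* `relTw_relIdele_comp`, `relTw_relClass_comp` : `J_M → J_{M'} → J_L` is `J_M → J_L`.
* `relTw_relIdele_smul` : equivariance of `J_{M'} → J_L` for compatible pairs of automorphisms.
* `relTw_relIdeleNorm_comp`, `relTw_relClassNorm_comp` : **transitivity of the relative norms**.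
* `relTw_relClassNorm_relClass` : `N_{L/M}` of a class of `M` is its `[L : M]`-th power;
  `relTw_relClass_relClassNorm` : `C_M → C_L` after `N_{L/M}` is the product of the conjugates.
* `relTw_relClassNorm_relClass_tower` : `N_{L/K'} (x) = (N_{M/K'} x) ^ [L : M]` for `x ∈ C_M`.
* `relTw_relClassNorm_square` : `N_{M/K'} ∘ N_{L/M} = N_{M'/K'} ∘ N_{L/M'}`.
-/

namespace Fermat.Agent.CFT

open scoped TensorProduct Fermat.Agent.CFT.TensorGal Fermat.Agent.CFT.IdeleAct
open NumberField IsDedekindDomain

section Abstract

variable {K F M M' L : Type*} [Field K] [Field F] [Field M] [Field M'] [Field L] [Algebra K F]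
  [Algebra K M] [Algebra K M'] [Algebra K L] [Algebra M M'] [Algebra M L] [Algebra M' L]
  [IsScalarTower K M M'] [IsScalarTower K M L] [IsScalarTower K M' L] [IsScalarTower M M' L]

theorem relTw_relTensorMap_comp (z : F ⊗[K] M) :
    relTensorMap (K := K) (F := F) (M := M') (L := L)
        (relTensorMap (K := K) (F := F) (M := M) (L := M') z) =
      relTensorMap (K := K) (F := F) (M := M) (L := L) z := by
  induction z using TensorProduct.induction_on with
  | zero => simp
  | tmul c m =>
    rw [relTensorMap_tmul, relTensorMap_tmul, relTensorMap_tmul,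
      ← IsScalarTower.algebraMap_apply M M' L]
  | add a b ha hb => rw [map_add, map_add, map_add, ha, hb]

end Abstract

section Tower

variable (K M M' L : Type*) [Field K] [NumberField K] [Field M] [NumberField M]
  [Field M'] [NumberField M'] [Field L] [NumberField L]
  [Algebra K M] [Algebra K M'] [Algebra K L] [Algebra M M'] [Algebra M L] [Algebra M' L]
  [IsScalarTower K M M'] [IsScalarTower K M L] [IsScalarTower K M' L] [IsScalarTower M M' L]

/-- `J_M → J_{M'} → J_L` is `J_M → J_L`. -/
theorem relTw_relIdele_comp (x : ideleGroup K M) :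
    relIdele K M' L (relIdele K M M' x) = relIdele K M L x := by
  apply Subtype.ext
  funext v
  apply Units.ext
  rw [relIdele_apply, relIdele_apply, relIdele_apply]
  simp only [Units.coe_map, MonoidHom.coe_coe]
  exact relTw_relTensorMap_comp _

/-- `C_M → C_{M'} → C_L` is `C_M → C_L`. -/
theorem relTw_relClass_comp (c : ideleClass K M) :
    relClass K M' L (relClass K M M' c) = relClass K M L c := by
  induction c using QuotientGroup.induction_on with
  | H y =>
    rw [relClass_mk, relClass_mk, relClass_mk, relTw_relIdele_comp]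

end Tower

section Equivariance

variable (K M' L : Type*) [Field K] [NumberField K]
  [Field M'] [NumberField M'] [Field L] [NumberField L]
  [Algebra K M'] [Algebra K L] [Algebra M' L] [IsScalarTower K M' L]

variable {K M' L} in
/-- semilocal equivariance for a compatible pair of automorphisms. -/
theorem relTw_relSemiLocalMap_smul {v : HeightOneSpectrum (𝓞 K)} {g : Gal(L/K)} {g' : Gal(M'/K)}
    (hg : ∀ m : M', g (algebraMap M' L m) = algebraMap M' L (g' m)) (z : semiLocal K M' v) :
    relSemiLocalMap K M' L v (g' • z) = g • relSemiLocalMap K M' L v z := by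
  induction z using TensorProduct.induction_on with
  | zero => rw [smul_zero, map_zero, smul_zero]
  | tmul c m =>
    rw [tensorRight_smul_tmul]
    show relTensorMap (c ⊗ₜ[K] (g' • m)) = g • relTensorMap (c ⊗ₜ[K] m)
    rw [relTensorMap_tmul, relTensorMap_tmul, tensorRight_smul_tmul]
    congr 1
    exact (hg m).symm
  | add a b ha hb => rw [smul_add, map_add, map_add, smul_add, ha, hb]

variable {K M' L} in
/-- equivariance of `J_{M'} → J_L` for a compatible pair of automorphisms. -/
theorem relTw_relIdele_smul {g : Gal(L/K)} {g' : Gal(M'/K)}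
    (hg : ∀ m : M', g (algebraMap M' L m) = algebraMap M' L (g' m)) (y : ideleGroup K M') :
    relIdele K M' L (g' • y) = g • relIdele K M' L y := by
  apply Subtype.ext
  funext v
  apply Units.ext
  rw [ideleGroup_smul_apply, units_smul_val, relIdele_apply, relIdele_apply]
  simp only [Units.coe_map, MonoidHom.coe_coe]
  rw [ideleGroup_smul_apply, units_smul_val]
  exact relTw_relSemiLocalMap_smul hg _

end Equivariance

section GroupSection

/-- a product over a group extension, decomposed along a set-theoretic section. -/
theorem relTw_prod_section {G N Q A : Type*} [Group G] [Fintype G] [Group N] [Fintype N]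
    [Group Q] [Fintype Q] [CommMonoid A]
    (ι : N →* G) (π : G →* Q) (hι : Function.Injective ι) (hex : ∀ g, π g = 1 ↔ g ∈ ι.range)
    (s : Q → G) (hs : ∀ q, π (s q) = q) (f : G → A) :
    ∏ g, f g = ∏ q, ∏ n, f (s q * ι n) := by
  have hπι : ∀ n, π (ι n) = 1 := fun n => (hex _).mpr ⟨n, rfl⟩
  have hbij : Function.Bijective (fun x : Q × N => s x.1 * ι x.2) := by
    constructor
    · rintro ⟨q₁, n₁⟩ ⟨q₂, n₂⟩ h
      have h0 : s q₁ * ι n₁ = s q₂ * ι n₂ := h
      have h1 := congrArg π h0
      rw [map_mul, map_mul, hs, hs, hπι, hπι, mul_one, mul_one] at h1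
      subst h1
      have h2 : ι n₁ = ι n₂ := mul_left_cancel h0
      rw [hι h2]
    · intro g
      have h1 : π ((s (π g))⁻¹ * g) = 1 := by
        rw [map_mul, map_inv, hs, inv_mul_cancel]
      obtain ⟨n, hn⟩ := (hex _).mp h1
      refine ⟨(π g, n), ?_⟩
      show s (π g) * ι n = g
      rw [hn, mul_inv_cancel_left]
  rw [← Fintype.prod_prod_type' (fun q n => f (s q * ι n))]
  exact (Fintype.prod_bijective _ hbij _ _ (fun x => rfl)).symm

end GroupSection

section NormTower

variable (K M M' L : Type*) [Field K] [NumberField K] [Field M] [NumberField M]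
  [Field M'] [NumberField M'] [Field L] [NumberField L]
  [Algebra K M] [Algebra K M'] [Algebra K L] [Algebra M M'] [Algebra M L] [Algebra M' L]
  [IsScalarTower K M M'] [IsScalarTower K M L] [IsScalarTower K M' L] [IsScalarTower M M' L]
  [IsGalois M M'] [IsGalois M' L] [IsGalois M L]

variable {M M' L} in
theorem relTw_restrictNormalHom_eq_one_iff (g : Gal(L/M)) :
    AlgEquiv.restrictNormalHom M' g = 1 ↔ g ∈ (relGalHom M M' L).range := by
  rw [range_relGalHom, mem_relFixing_iff]
  constructor
  · intro h m
    have := AlgEquiv.restrictNormal_commutes g M' m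
    rw [← this]
    show algebraMap M' L (AlgEquiv.restrictNormalHom M' g m) = _
    rw [h, AlgEquiv.one_apply]
  · intro h
    ext m
    apply (algebraMap M' L).injective
    show algebraMap M' L (g.restrictNormal M' m) = _
    rw [AlgEquiv.restrictNormal_commutes, h m, AlgEquiv.one_apply]

/-- **transitivity of the relative idele norms**: `N_{M'/M} ∘ N_{L/M'} = N_{L/M}`. -/
theorem relTw_relIdeleNorm_comp (x : ideleGroup K L) :
    relIdeleNorm K M M' (relIdeleNorm K M' L x) = relIdeleNorm K M L x := by
  classical
  apply relIdele_injective K M L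
  rw [← relTw_relIdele_comp K M M' L, relIdele_relIdeleNorm, map_prod, relIdele_relIdeleNorm]
  choose s hs using AlgEquiv.restrictNormalHom_surjective (F := M) (K₁ := M') (E := L)
  have hcompat : ∀ (h' : Gal(M'/M)) (m : M'),
      relGalHom K M L (s h') (algebraMap M' L m) = algebraMap M' L (relGalHom K M M' h' m) := by
    intro h' m
    rw [relGalHom_apply, relGalHom_apply]
    have := AlgEquiv.restrictNormal_commutes (s h') M' m
    rw [← this]
    show algebraMap M' L (AlgEquiv.restrictNormalHom M' (s h') m) = _
    rw [hs h']
  have h1 : ∀ h' : Gal(M'/M), relIdele K M' L ((relGalHom K M M' h') • relIdeleNorm K M' L x) =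
      ∏ h'' : Gal(L/M'), (relGalHom K M L (s h' * relGalHom M M' L h'')) • x := by
    intro h'
    rw [relTw_relIdele_smul (hcompat h'), relIdele_relIdeleNorm, Finset.smul_prod']
    refine Finset.prod_congr rfl fun h'' _ => ?_
    rw [← mul_smul, map_mul]
    rfl
  simp_rw [h1]
  exact (relTw_prod_section (relGalHom M M' L) (AlgEquiv.restrictNormalHom M')
    (relGalHom_injective M M' L) relTw_restrictNormalHom_eq_one_iff s hs
    (fun h => (relGalHom K M L h) • x)).symm

/-- **transitivity of the relative class norms**: `N_{M'/M} ∘ N_{L/M'} = N_{L/M}` on `C_L`. -/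
theorem relTw_relClassNorm_comp (c : ideleClass K L) :
    relClassNorm K M M' (relClassNorm K M' L c) = relClassNorm K M L c := by
  induction c using QuotientGroup.induction_on with
  | H x =>
    rw [relClassNorm_mk, relClassNorm_mk, relClassNorm_mk, relTw_relIdeleNorm_comp]

end NormTower

section ClassNorm

variable (K M L : Type*) [Field K] [NumberField K] [Field M] [NumberField M]
  [Field L] [NumberField L] [Algebra K M] [Algebra M L] [Algebra K L] [IsScalarTower K M L]
  [IsGalois M L]

/-- the relative norm of a class of `M` is its `[L : M]`-th power. -/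
theorem relTw_relClassNorm_relClass (c : ideleClass K M) :
    relClassNorm K M L (relClass K M L c) = c ^ Nat.card Gal(L/M) := by
  induction c using QuotientGroup.induction_on with
  | H y =>
    rw [relClass_mk, relClassNorm_mk, relIdeleNorm_relIdele]
    rfl

/-- `C_M → C_L` after the relative norm is the product of the `Gal(L/M)`-conjugates. -/
theorem relTw_relClass_relClassNorm (c : ideleClass K L) :
    relClass K M L (relClassNorm K M L c) = ∏ h : Gal(L/M), (relGalHom K M L h) • c := by
  induction c using QuotientGroup.induction_on with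
  | H x =>
    rw [relClassNorm_mk, relClass_mk, relIdele_relIdeleNorm]
    exact map_prod (QuotientGroup.mk' (principalIdeles K L)) _ _

end ClassNorm

section FourFields

variable (K K' M L : Type*) [Field K] [NumberField K] [Field K'] [NumberField K']
  [Field M] [NumberField M] [Field L] [NumberField L]
  [Algebra K K'] [Algebra K M] [Algebra K L] [Algebra K' M] [Algebra K' L] [Algebra M L]
  [IsScalarTower K K' M] [IsScalarTower K K' L] [IsScalarTower K M L] [IsScalarTower K' M L]
  [IsGalois K' M] [IsGalois M L] [IsGalois K' L]

/-- **translation**: for `x ∈ C_M`, `N_{L/K'} x = (N_{M/K'} x) ^ [L : M]`. -/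
theorem relTw_relClassNorm_relClass_tower (c : ideleClass K M) :
    relClassNorm K K' L (relClass K M L c) = (relClassNorm K K' M c) ^ Nat.card Gal(L/M) := by
  rw [← relTw_relClassNorm_comp K K' M L, relTw_relClassNorm_relClass, map_pow]

/-- norm groups decrease in towers: `N_{L/K'} C_L ≤ N_{M/K'} C_M`. -/
theorem relTw_range_relClassNorm_le :
    (relClassNorm K K' L).range ≤ (relClassNorm K K' M).range := by
  rintro _ ⟨c, rfl⟩
  exact ⟨relClassNorm K M L c, relTw_relClassNorm_comp K K' M L c⟩

/-- `N_{L/K'} C_L` is the image of `N_{L/M} C_L` under `N_{M/K'}`. -/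
theorem relTw_range_relClassNorm_eq_map :
    (relClassNorm K K' L).range = (relClassNorm K M L).range.map (relClassNorm K K' M) := by
  ext y
  constructor
  · rintro ⟨c, rfl⟩
    exact ⟨relClassNorm K M L c, ⟨c, rfl⟩, relTw_relClassNorm_comp K K' M L c⟩
  · rintro ⟨_, ⟨c, rfl⟩, rfl⟩
    exact ⟨c, (relTw_relClassNorm_comp K K' M L c).symm⟩

/-- **devissage of the norm index**: `[C_{K'} : N_{L/K'} C_L]` divides
`[C_{K'} : N_{M/K'} C_M] * [C_M : N_{L/M} C_L]`. -/
theorem relTw_index_range_relClassNorm_dvd :
    (relClassNorm K K' L).range.index ∣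
      (relClassNorm K K' M).range.index * (relClassNorm K M L).range.index := by
  rw [relTw_range_relClassNorm_eq_map K K' M L, Subgroup.index_map, mul_comm]
  exact mul_dvd_mul_left _ (Subgroup.index_dvd_of_le le_sup_left)

end FourFields

section Square

variable (K K' M M' L : Type*) [Field K] [NumberField K] [Field K'] [NumberField K']
  [Field M] [NumberField M] [Field M'] [NumberField M'] [Field L] [NumberField L]
  [Algebra K K'] [Algebra K M] [Algebra K M'] [Algebra K L] [Algebra K' M] [Algebra K' M']
  [Algebra K' L] [Algebra M L] [Algebra M' L]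
  [IsScalarTower K K' M] [IsScalarTower K K' M'] [IsScalarTower K K' L] [IsScalarTower K M L]
  [IsScalarTower K M' L] [IsScalarTower K' M L] [IsScalarTower K' M' L]
  [IsGalois K' M] [IsGalois K' M'] [IsGalois M L] [IsGalois M' L] [IsGalois K' L]

/-- **the norm square of a compositum** `L = M M'`: `N_{M/K'} ∘ N_{L/M} = N_{M'/K'} ∘ N_{L/M'}`. -/
theorem relTw_relClassNorm_square (c : ideleClass K L) :
    relClassNorm K K' M (relClassNorm K M L c) = relClassNorm K K' M' (relClassNorm K M' L c) := by
  rw [relTw_relClassNorm_comp K K' M L, relTw_relClassNorm_comp K K' M' L]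

end Square

end Fermat.Agent.CFT
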