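import Mathlib
import Fermat.Agent.CFT.Idele.RelativeTower

set_option autoImplicit false
set_option linter.unusedSectionVars false

/-!
# CFT, S55 pool, GLOBAL-IDELIC layer: the absolute idele norm in a tower

`K ≤ M ≤ L` number fields, `M/K` and `L/K` Galois:
`idNT_ideleNorm_relIdele : N_{L/K} (y) = N_{M/K} (y) ^ [L : M]` for an idele `y` of `M`.
-/

namespace Fermat.Agent.CFT

open scoped TensorProduct Fermat.Agent.CFT.TensorGal Fermat.Agent.CFT.IdeleAct
open NumberField IsDedekindDomain

/-- a product over the source of a surjective homomorphism of finite groups. -/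
theorem prod_comp_of_surjective {G G' A : Type*} [Group G] [Group G'] [Fintype G] [Fintype G']
    [CommMonoid A] (φ : G →* G') (hφ : Function.Surjective φ) (f : G' → A) :
    ∏ g, f (φ g) = (∏ g', f g') ^ (Fintype.card G / Fintype.card G') := by
  classical
  rw [Finset.prod_comp, Finset.image_univ_of_surjective hφ, ← Finset.prod_pow]
  refine Finset.prod_congr rfl fun b _ => ?_
  congr 1
  have hconst : ∀ b' : G', (Finset.univ.filter fun a => φ a = b').card =
      (Finset.univ.filter fun a => φ a = b).card := fun b' => by
    have h := MonoidHom.card_fiber_eq_of_mem_range φ (hφ b') (hφ b)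
    simpa using h
  have hsum : Fintype.card G =
      ∑ b' : G', (Finset.univ.filter fun a => φ a = b').card := by
    rw [← Finset.card_univ (α := G)]
    exact Finset.card_eq_sum_card_fiberwise fun a _ => Finset.mem_univ (φ a)
  simp_rw [hconst] at hsum
  rw [Finset.sum_const, Finset.card_univ, smul_eq_mul] at hsum
  rw [hsum, Nat.mul_div_cancel_left _ Fintype.card_pos]

section Tower

variable (K M L : Type*) [Field K] [NumberField K] [Field M] [NumberField M]
  [Field L] [NumberField L] [Algebra K M] [Algebra M L] [Algebra K L] [IsScalarTower K M L]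

/-- `J_K → J_M → J_L` is `J_K → J_L`. -/
theorem idNT_relIdele_baseToIdele (x : baseIdeleGroup K) :
    relIdele K M L (baseToIdele K M x) = baseToIdele K L x := by
  apply Subtype.ext
  funext v
  apply Units.ext
  rw [relIdele_apply, baseToIdele_apply, baseToIdele_apply]
  simp only [Units.coe_map, MonoidHom.coe_coe]
  exact (relSemiLocalMap K M L v).commutes _

variable [IsGalois K M] [IsGalois K L]

/-- **the absolute norm in a tower**: `N_{L/K} y = (N_{M/K} y) ^ [L : M]` for `y ∈ J_M`. -/
theorem idNT_ideleNorm_relIdele (y : ideleGroup K M) :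
    ideleNorm K L (relIdele K M L y) = ideleNorm K M y ^ (Module.finrank M L) := by
  classical
  apply baseToIdele_injective K L
  rw [baseToIdele_ideleNorm, map_pow, ← idNT_relIdele_baseToIdele K M L, baseToIdele_ideleNorm,
    map_prod]
  have hres : ∀ g : Gal(L/K), g • relIdele K M L y =
      relIdele K M L ((AlgEquiv.restrictNormalHom M g) • y) := fun g =>
    (relTw_relIdele_smul (fun m => (AlgEquiv.restrictNormal_commutes g M m).symm) y).symm
  simp_rw [hres]
  rw [prod_comp_of_surjective (AlgEquiv.restrictNormalHom M)
    (AlgEquiv.restrictNormalHom_surjective L) fun g' : Gal(M/K) => relIdele K M L (g' • y)]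
  congr 1
  rw [← Nat.card_eq_fintype_card, ← Nat.card_eq_fintype_card, IsGalois.card_aut_eq_finrank,
    IsGalois.card_aut_eq_finrank, ← Module.finrank_mul_finrank K M L,
    Nat.mul_div_cancel_left _ Module.finrank_pos]

end Tower

end Fermat.Agent.CFT
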