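import Mathlib
import Fermat.Agent.CFT.Local.LocalField
import Fermat.Agent.CFT.Local.OrdBasic

set_option autoImplicit false

/-!
# CFT, S55 global-idelic pool, chunk (GL3): the completions `K_v` of a number field are local
fields

For a number field `K` and a finite place `v`, the ring `v.adicCompletionIntegers K` is a complete
discrete valuation ring with finite residue field and fraction field `v.adicCompletion K`, so
`IsLocalFieldNA (v.adicCompletion K)` (helper8's field-only vocabulary).

* `adicLF_exists_sub_mem` : every element of `O_v` is congruent to an element of the base Dedekind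
  ring modulo the maximal ideal (density);
* `adicLF_finite_residueField` : the residue field of `O_v` is finite when `R ⧸ v` is;
* `adicLF_isAdicComplete` : `O_v` is adically complete (number field case);
* `isLocalFieldNA_adicCompletion`.
-/

namespace Fermat.Agent.CFT

open IsDedekindDomain HeightOneSpectrum IsLocalRing NumberField
open scoped Valued WithZero

section Dedekind

variable {R : Type*} [CommRing R] [IsDedekindDomain R] (K : Type*) [Field K] [Algebra R K]
  [IsFractionRing R K] (v : HeightOneSpectrum R)

/-- membership in the maximal ideal of the completed integers. -/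
theorem adicLF_mem_maximalIdeal_iff (x : v.adicCompletionIntegers K) :
    x ∈ maximalIdeal (v.adicCompletionIntegers K) ↔
      Valued.v (x : v.adicCompletion K) < 1 :=
  Valuation.mem_maximalIdeal_iff _ _

/-- the open unit ball of `K_v` is open. -/
theorem adicLF_isOpen_ball :
    IsOpen {y : v.adicCompletion K | Valued.v y < (1 : ℤᵐ⁰)} := by
  have h := Valued.isOpen_ball (v.adicCompletion K) (1 : MonoidWithZeroHom.ValueGroup₀
    (.ofClass (Valued.v : Valuation (v.adicCompletion K) ℤᵐ⁰)))
  simpa only [Valuation.restrict_lt_one_iff] using h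

/-- the valuation of `K_v` restricted to `K`. -/
theorem adicLF_valued_algebraMap (k : K) :
    Valued.v (algebraMap K (v.adicCompletion K) k) = v.valuation K k :=
  valuedAdicCompletion_eq_valuation' v k

/-- the structure map `R → O_v`, in `K_v`. -/
theorem adicLF_coe_algebraMap (r : R) :
    ((algebraMap R (v.adicCompletionIntegers K) r : v.adicCompletionIntegers K) :
      v.adicCompletion K) = algebraMap K (v.adicCompletion K) (algebraMap R K r) :=
  algebraMap_adicCompletionIntegers_apply R K v r

/-- every element of `O_v` is congruent modulo the maximal ideal to an element of `R`. -/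
theorem adicLF_exists_sub_mem (x : v.adicCompletionIntegers K) :
    ∃ a : R, algebraMap R (v.adicCompletionIntegers K) a - x ∈
      maximalIdeal (v.adicCompletionIntegers K) := by
  -- approximate `x` by an element `k` of `K`
  have hopen : IsOpen {y : v.adicCompletion K | Valued.v (y - (x : v.adicCompletion K)) < 1} :=
    (adicLF_isOpen_ball K v).preimage (continuous_id.sub continuous_const)
  obtain ⟨k, hk⟩ := (denseRange_algebraMap K v).exists_mem_open hopen
    ⟨(x : v.adicCompletion K), by simp⟩
  have hk' : Valued.v ((algebraMap K (v.adicCompletion K) k) - (x : v.adicCompletion K)) < 1 := hk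
  -- `k` is `v`-integral
  have hk1 : v.valuation K k ≤ 1 := by
    have h1 : Valued.v (algebraMap K (v.adicCompletion K) k) ≤ 1 := by
      have : algebraMap K (v.adicCompletion K) k =
          (algebraMap K (v.adicCompletion K) k - (x : v.adicCompletion K)) + x := by ring
      rw [this]
      exact (Valuation.map_add _ _ _).trans
        (max_le hk'.le ((mem_adicCompletionIntegers R K v).mp x.2))
    rwa [adicLF_valued_algebraMap] at h1
  obtain ⟨a, ha⟩ := exists_valuation_sub_lt_of_integer v hk1 1
  refine ⟨a, ?_⟩
  rw [adicLF_mem_maximalIdeal_iff]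
  have h2 : Valued.v (algebraMap K (v.adicCompletion K) (algebraMap R K a - k)) < 1 := by
    rw [adicLF_valued_algebraMap]
    simpa using ha
  have h3 : ((algebraMap R (v.adicCompletionIntegers K) a - x : v.adicCompletionIntegers K) :
      v.adicCompletion K) = algebraMap K (v.adicCompletion K) (algebraMap R K a - k) +
        (algebraMap K (v.adicCompletion K) k - (x : v.adicCompletion K)) := by
    rw [map_sub, AddSubgroupClass.coe_sub, adicLF_coe_algebraMap]
    ring
  rw [h3]
  exact (Valuation.map_add _ _ _).trans_lt (max_lt h2 hk')

/-- the residue field of `O_v` is a quotient of `R ⧸ v`. -/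
theorem adicLF_finite_residueField [Finite (R ⧸ v.asIdeal)] :
    Finite (ResidueField (v.adicCompletionIntegers K)) := by
  let f : R →+* ResidueField (v.adicCompletionIntegers K) :=
    (residue (v.adicCompletionIntegers K)).comp (algebraMap R (v.adicCompletionIntegers K))
  have hker : ∀ r ∈ v.asIdeal, f r = 0 := by
    intro r hr
    show residue (v.adicCompletionIntegers K) (algebraMap R (v.adicCompletionIntegers K) r) = 0
    rw [residue_eq_zero_iff, adicLF_mem_maximalIdeal_iff, adicLF_coe_algebraMap,
      adicLF_valued_algebraMap]
    exact (valuation_lt_one_iff_mem v r).mpr hr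
  have hsurj : Function.Surjective (Ideal.Quotient.lift v.asIdeal f hker) := by
    intro y
    obtain ⟨x, rfl⟩ := residue_surjective y
    obtain ⟨a, ha⟩ := adicLF_exists_sub_mem K v x
    refine ⟨Ideal.Quotient.mk _ a, ?_⟩
    rw [Ideal.Quotient.lift_mk]
    show residue (v.adicCompletionIntegers K) (algebraMap R (v.adicCompletionIntegers K) a) = _
    rw [← sub_eq_zero, ← map_sub, residue_eq_zero_iff]
    exact ha
  exact Finite.of_surjective _ hsurj

/-- an irreducible element of `O_v` has valuation `exp (-1)`. -/
theorem adicLF_valued_irreducible {ϖ : v.adicCompletionIntegers K} (hϖ : Irreducible ϖ) :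
    Valued.v (ϖ : v.adicCompletion K) = WithZero.exp (-1 : ℤ) := by
  -- an element `π` of valuation `exp (-1)`
  obtain ⟨π, hπ⟩ := valuedAdicCompletion_surjective K v (WithZero.exp (-1 : ℤ))
  have hπA : π ∈ v.adicCompletionIntegers K := by
    rw [mem_adicCompletionIntegers, hπ, ← WithZero.exp_zero, WithZero.exp_le_exp]
    omega
  have hπ0 : (⟨π, hπA⟩ : v.adicCompletionIntegers K) ≠ 0 := by
    intro h
    have h1 : π = 0 := congrArg Subtype.val h
    rw [h1, map_zero] at hπ
    exact WithZero.exp_ne_zero hπ.symm
  obtain ⟨n, u, hu⟩ := IsDiscreteValuationRing.eq_unit_mul_pow_irreducible hπ0 hϖ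
  have hu1 : Valued.v ((u : v.adicCompletionIntegers K) : v.adicCompletion K) = 1 :=
    adicCompletionIntegers.isUnit_iff_valued_eq_one.mp u.isUnit
  have hϖ1 : Valued.v (ϖ : v.adicCompletion K) < 1 :=
    (adicLF_mem_maximalIdeal_iff K v ϖ).mp
      ((IsLocalRing.mem_maximalIdeal ϖ).mpr hϖ.not_isUnit)
  have hϖ0 : Valued.v (ϖ : v.adicCompletion K) ≠ 0 := by
    rw [ne_eq, map_eq_zero]
    exact fun h => hϖ.ne_zero (Subtype.ext h)
  have hval : Valued.v π = Valued.v (ϖ : v.adicCompletion K) ^ n := by
    have h1 : π = ((u : v.adicCompletionIntegers K) : v.adicCompletion K) *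
        (ϖ : v.adicCompletion K) ^ n := by
      have := congrArg (Subtype.val) hu
      simpa using this
    rw [h1, map_mul, hu1, one_mul, map_pow]
  -- write the valuation of `ϖ` as `exp (-m)`
  obtain ⟨m, hm⟩ : ∃ m : ℤ, Valued.v (ϖ : v.adicCompletion K) = WithZero.exp m :=
    ⟨WithZero.log _, (WithZero.exp_log hϖ0).symm⟩
  rw [hm, ← WithZero.exp_zero, WithZero.exp_lt_exp] at hϖ1
  rw [hπ, hm, ← WithZero.exp_nsmul, WithZero.exp_inj] at hval
  rw [hm, WithZero.exp_inj]
  have h2 : (n : ℤ) * m = -1 := by simpa using hval.symm
  rcases Int.mul_eq_neg_one_iff_eq_one_or_neg_one.mp h2 with ⟨-, h3⟩ | ⟨-, h3⟩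
  · exact h3
  · omega

/-- the valuation of `K_v` in terms of helper8's `ord`. -/
theorem adicLF_valued_eq_exp_neg_ord (x : (v.adicCompletion K)ˣ) :
    Valued.v (x : v.adicCompletion K) =
      WithZero.exp (- ord (v.adicCompletionIntegers K) (v.adicCompletion K) x) := by
  obtain ⟨ϖ, hϖ⟩ := IsDiscreteValuationRing.exists_irreducible (v.adicCompletionIntegers K)
  have h0 : algebraMap (v.adicCompletionIntegers K) (v.adicCompletion K) ϖ ≠ 0 :=
    algebraMap_ne_zero_of_ne_zero _ _ hϖ.ne_zero
  have h1 := ord_irreducible (v.adicCompletionIntegers K) (v.adicCompletion K) hϖ h0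
  obtain ⟨u, hu⟩ := exists_eq_zpow_mul_unit (v.adicCompletionIntegers K) (v.adicCompletion K) h1 x
  have hu1 : Valued.v ((u : v.adicCompletionIntegers K) : v.adicCompletion K) = 1 :=
    adicCompletionIntegers.isUnit_iff_valued_eq_one.mp u.isUnit
  have hx : (x : v.adicCompletion K) = (ϖ : v.adicCompletion K) ^
      (ord (v.adicCompletionIntegers K) (v.adicCompletion K) x) *
        ((u : v.adicCompletionIntegers K) : v.adicCompletion K) := by
    have := congrArg (fun y : (v.adicCompletion K)ˣ => (y : v.adicCompletion K)) hu
    simpa using this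
  rw [hx, map_mul, hu1, mul_one, map_zpow₀, adicLF_valued_irreducible K v hϖ, ← WithZero.exp_zsmul]
  simp

/-- `ord` on `K_v` restricted to `K` is the `v`-adic order. -/
theorem adicLF_valuation_eq_exp_neg_ord (k : Kˣ) :
    v.valuation K (k : K) = WithZero.exp (- ord (v.adicCompletionIntegers K) (v.adicCompletion K)
      (Units.map (algebraMap K (v.adicCompletion K) : K →* v.adicCompletion K) k)) := by
  rw [← adicLF_valued_eq_exp_neg_ord, Units.coe_map, MonoidHom.coe_coe, adicLF_valued_algebraMap]

end Dedekind

section NumberField

variable (K : Type*) [Field K] [NumberField K] (v : HeightOneSpectrum (𝓞 K))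

/-- the residue field of `O_v` is finite. -/
theorem adicLF_finite_residueField_nf : Finite (ResidueField (v.adicCompletionIntegers K)) :=
  haveI : Finite (𝓞 K ⧸ v.asIdeal) := Ideal.finiteQuotientOfFreeOfNeBot _ v.ne_bot
  adicLF_finite_residueField K v

/-- `O_v` is complete (as a uniform space). -/
theorem adicLF_completeSpace : CompleteSpace (v.adicCompletionIntegers K) := by
  have := Valued.isClosed_valuationSubring (v.adicCompletion K)
  exact IsClosed.completeSpace_coe
    (s := ((Valued.v : Valuation (v.adicCompletion K) ℤᵐ⁰).valuationSubring :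
      Set (v.adicCompletion K)))

/-- `O_v` is compact. -/
theorem adicLF_compactSpace : CompactSpace (v.adicCompletionIntegers K) :=
  (Valued.integer.compactSpace_iff_completeSpace_and_isDiscreteValuationRing_and_finite_residueField
    (K := v.adicCompletion K)).mpr
    ⟨adicLF_completeSpace K v,
      inferInstanceAs (IsDiscreteValuationRing (v.adicCompletionIntegers K)),
      adicLF_finite_residueField_nf K v⟩

open scoped Pointwise in
/-- `O_v` is adically complete. -/
theorem adicLF_isAdicComplete :
    IsAdicComplete (maximalIdeal (v.adicCompletionIntegers K)) (v.adicCompletionIntegers K) := by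
  have := adicLF_compactSpace K v
  refine { toIsHausdorff := inferInstance, prec' := fun f hf => ?_ }
  let 𝔪 := maximalIdeal (v.adicCompletionIntegers K)
  let S : ℕ → Set (v.adicCompletionIntegers K) := fun n =>
    f n +ᵥ ((𝔪 ^ n : Ideal (v.adicCompletionIntegers K)) : Set (v.adicCompletionIntegers K))
  have hS : ∀ n, S (n + 1) ⊆ S n := by
    intro n
    apply (Set.vadd_set_subset_vadd_set_iff.mpr (Ideal.pow_le_pow_right n.le_succ)).trans
    simpa [S] using (hf n.le_succ).symm
  have h : ∀ n, IsClosed (S n) := fun n => (IsNoetherianRing.isClosed_ideal (𝔪 ^ n)).vadd (f n)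
  obtain ⟨L, hL⟩ := (h 0).isCompact.nonempty_iInter_of_sequence_nonempty_isCompact_isClosed S hS
    (by simp [S]) h
  refine ⟨L, fun n => ?_⟩
  obtain ⟨y, hy, rfl⟩ := Set.mem_iInter.mp hL n
  simpa [SModEq.sub_mem] using hy

end NumberField

section Main

/-- **(GL3)** the completion of a number field at a finite place is a local field. -/
theorem isLocalFieldNA_adicCompletion (K : Type) [Field K] [NumberField K]
    (v : HeightOneSpectrum (𝓞 K)) : IsLocalFieldNA (v.adicCompletion K) :=
  ⟨v.adicCompletionIntegers K, inferInstance, inferInstance, inferInstance, inferInstance,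
    inferInstance, adicLF_isAdicComplete K v, adicLF_finite_residueField_nf K v⟩

/-- `K_v` has characteristic zero. -/
theorem adicLF_charZero (K : Type*) [Field K] [NumberField K] (v : HeightOneSpectrum (𝓞 K)) :
    CharZero (v.adicCompletion K) :=
  charZero_of_injective_algebraMap (algebraMap K (v.adicCompletion K)).injective

/-- every finite extension field of `K_v` is a local field. -/
theorem isLocalFieldNA_of_finite_adicCompletion (K : Type) [Field K] [NumberField K]
    (v : HeightOneSpectrum (𝓞 K)) (E : Type) [Field E] [Algebra (v.adicCompletion K) E]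
    [FiniteDimensional (v.adicCompletion K) E] : IsLocalFieldNA E := by
  have := adicLF_charZero K v
  exact (isLocalFieldNA_adicCompletion K v).of_finite

end Main

end Fermat.Agent.CFT
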