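import Mathlib
import Fermat.Agent.CFT.Global.PrimeDivisor
import Fermat.Agent.CFT.Global.WeakApprox

set_option autoImplicit false
set_option linter.unusedSectionVars false

/-!
# S55 pool, GLOBAL-IDELIC chunk (GL5): integrality of `1 ⊗ x` in `K_v ⊗[K] L` (helper20)

`L / K` a Galois extension of number fields, `v` a prime of `K`, `K_v = v.adicCompletion K`,
`O_v = v.adicCompletionIntegers K`, `L_v = K_v ⊗[K] L`, `O_{L,v} = integralClosure O_v L_v`
(raw types, definitionally the `semiLocal` / `semiLocalInt` of `Idele/Defs.lean`).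

* `tmul_mem_integralClosure_iff` : for `x : L`,
  `1 ⊗ x ∈ O_{L,v} ↔ ∀ w | v, w(x) ≤ 1`;
* `exists_unit_integralClosure_eq_tmul_iff` : for `x : Lˣ`,
  `1 ⊗ x` is (the image of) a unit of `O_{L,v}` iff `∀ w | v, w(x) = 1`;
* `finite_setOf_not_forall_valuation_eq_one` : for `x : Lˣ` this holds for almost all `v`.

The bridge is the polynomial `∏_σ (X - σ x) ∈ K[X]`: all three conditions are equivalent to its
coefficients being `v`-integral.
-/

namespace Fermat.Agent.CFT

open IsDedekindDomain IsDedekindDomain.HeightOneSpectrum NumberField TensorProduct Polynomial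

attribute [local instance] heightOneSpectrumMulAction

section Basic

variable (K L : Type*) [Field K] [NumberField K] [Field L] [NumberField L] [Algebra K L]

/-- the valuation of `K_v` on elements of `K`. -/
theorem idInt_valued_algebraMap (v : HeightOneSpectrum (𝓞 K)) (a : K) :
    Valued.v (algebraMap K (v.adicCompletion K) a) = v.valuation K a :=
  valuedAdicCompletion_eq_valuation' v a

/-- for `a ∈ K` and `w | v`: `w(a) ≤ 1 ↔ v(a) ≤ 1`. -/
theorem idInt_valuation_algebraMap_le_one_iff (w : HeightOneSpectrum (𝓞 L)) (a : K) :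
    w.valuation L (algebraMap K L a) ≤ 1 ↔ (primeBelow K L w).valuation K a ≤ 1 := by
  have hlies : w.asIdeal.LiesOver (primeBelow K L w).asIdeal := ⟨rfl⟩
  have h1 := HeightOneSpectrum.valuation_liesOver L (primeBelow K L w) w a
  have he : (primeBelow K L w).asIdeal.ramificationIdx' w.asIdeal ≠ 0 :=
    Ideal.IsDedekindDomain.ramificationIdx'_ne_zero_of_liesOver _ (primeBelow K L w).ne_bot
  rw [← h1]
  exact pow_le_one_iff he

end Basic

section Galois

variable (K L : Type*) [Field K] [NumberField K] [Field L] [NumberField L] [Algebra K L]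
  [IsGalois K L] (v : HeightOneSpectrum (𝓞 K))

/-- the polynomial `∏_σ (X - σ x)`, with coefficients in `K`. -/
theorem idInt_exists_charpoly (x : L) :
    ∃ P0 : K[X], P0.Monic ∧
      P0.map (algebraMap K L) = ∏ σ : Gal(L/K), (X - C (σ x)) := by
  classical
  obtain ⟨P0, h1, -, h2⟩ := Polynomial.lifts_and_natDegree_eq_and_monic
    (Algebra.IsInvariant.charpoly_mem_lifts K L Gal(L/K) x)
    (MulSemiringAction.monic_charpoly Gal(L/K) x)
  exact ⟨P0, h2, h1⟩

variable {K L}

/-- a product `∏ (X - C (c σ))` with all `c σ` in a subring has coefficients in the subring. -/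
theorem idInt_coeff_prod_mem {R ι : Type*} [CommRing R] [Fintype ι] (S : Subring R) (c : ι → R)
    (hc : ∀ i, c i ∈ S) (n : ℕ) : (∏ i : ι, (X - C (c i))).coeff n ∈ S := by
  have h : (∏ i : ι, (X - C (c i))) =
      (∏ i : ι, (X - C (⟨c i, hc i⟩ : S))).map S.subtype := by
    rw [Polynomial.map_prod]
    refine Finset.prod_congr rfl fun i _ => ?_
    rw [Polynomial.map_sub, Polynomial.map_X, Polynomial.map_C]
    rfl
  rw [h, Polynomial.coeff_map]
  exact Subtype.property _

/-- **(A)** if `w(x) ≤ 1` for all `w | v` then the coefficients of `∏_σ (X - σ x)` are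
`v`-integral. -/
theorem idInt_coeff_of_valuation_le (x : L) (P0 : K[X])
    (hP0 : P0.map (algebraMap K L) = ∏ σ : Gal(L/K), (X - C (σ x)))
    (h : ∀ w : HeightOneSpectrum (𝓞 L), primeBelow K L w = v → w.valuation L x ≤ 1) (n : ℕ) :
    v.valuation K (P0.coeff n) ≤ 1 := by
  obtain ⟨w0, hw0⟩ := primeBelow_surjective K L v
  have hσ : ∀ σ : Gal(L/K), σ x ∈ (w0.valuation L).integer := by
    intro σ
    rw [Valuation.mem_integer_iff]
    have h1 := hos_smul_valuation K L σ⁻¹ w0 (σ x)
    have h2 : σ⁻¹ (σ x) = x := by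
      rw [← AlgEquiv.mul_apply, inv_mul_cancel, AlgEquiv.one_apply]
    rw [h2] at h1
    rw [← h1]
    apply h
    rw [primeBelow_smul, hw0]
  have h3 := idInt_coeff_prod_mem (w0.valuation L).integer (fun σ : Gal(L/K) => σ x) hσ n
  rw [← hP0, Polynomial.coeff_map, Valuation.mem_integer_iff,
    idInt_valuation_algebraMap_le_one_iff, hw0] at h3
  exact h3

/-- **(D)** if the coefficients of `∏_σ (X - σ x)` are `v`-integral then `w(x) ≤ 1` for all
`w | v`. -/
theorem idInt_valuation_le_of_coeff (x : L) (P0 : K[X]) (hmon : P0.Monic)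
    (hP0 : P0.map (algebraMap K L) = ∏ σ : Gal(L/K), (X - C (σ x)))
    (h : ∀ n, v.valuation K (P0.coeff n) ≤ 1)
    (w : HeightOneSpectrum (𝓞 L)) (hw : primeBelow K L w = v) : w.valuation L x ≤ 1 := by
  classical
  set 𝒪 := (w.valuation L).integer
  have hlift : P0.map (algebraMap K L) ∈ Polynomial.lifts 𝒪.subtype := by
    rw [Polynomial.lifts_iff_coeff_lifts]
    intro n
    rw [Polynomial.coeff_map]
    refine ⟨⟨algebraMap K L (P0.coeff n), ?_⟩, rfl⟩
    rw [Valuation.mem_integer_iff, idInt_valuation_algebraMap_le_one_iff, hw]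
    exact h n
  obtain ⟨Q, hQ1, -, hQ2⟩ := Polynomial.lifts_and_natDegree_eq_and_monic hlift
    (hmon.map (algebraMap K L))
  have hint : IsIntegral 𝒪 x := by
    refine ⟨Q, hQ2, ?_⟩
    have : Polynomial.eval₂ (algebraMap 𝒪 L) x Q = Polynomial.eval x (Q.map 𝒪.subtype) := by
      rw [Polynomial.eval_map]
      rfl
    rw [this, hQ1, hP0, Polynomial.eval_prod]
    apply Finset.prod_eq_zero (Finset.mem_univ (1 : Gal(L/K)))
    rw [Polynomial.eval_sub, Polynomial.eval_X, Polynomial.eval_C, AlgEquiv.one_apply, sub_self]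
  exact (Valuation.integer.integers (w.valuation L)).mem_of_integral hint

/-- `P0(1 ⊗ x) = 0` in `K_v ⊗ L`. -/
theorem idInt_aeval_tmul (x : L) (P0 : K[X])
    (hP0 : P0.map (algebraMap K L) = ∏ σ : Gal(L/K), (X - C (σ x))) :
    Polynomial.aeval ((1 : v.adicCompletion K) ⊗ₜ[K] x) P0 = 0 := by
  classical
  have h1 : ((1 : v.adicCompletion K) ⊗ₜ[K] x) =
      (Algebra.TensorProduct.includeRight : L →ₐ[K] (v.adicCompletion K) ⊗[K] L) x := rfl
  rw [h1, Polynomial.aeval_algHom_apply]
  have h2 : Polynomial.aeval x P0 = 0 := by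
    rw [Polynomial.aeval_def, ← Polynomial.eval_map, hP0, Polynomial.eval_prod]
    apply Finset.prod_eq_zero (Finset.mem_univ (1 : Gal(L/K)))
    rw [Polynomial.eval_sub, Polynomial.eval_X, Polynomial.eval_C, AlgEquiv.one_apply, sub_self]
  rw [h2, map_zero]

/-- **(B)** if the coefficients of `∏_σ (X - σ x)` are `v`-integral then `1 ⊗ x` is integral over
`O_v`. -/
theorem idInt_isIntegral_of_coeff (x : L) (P0 : K[X]) (hmon : P0.Monic)
    (hP0 : P0.map (algebraMap K L) = ∏ σ : Gal(L/K), (X - C (σ x)))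
    (h : ∀ n, v.valuation K (P0.coeff n) ≤ 1) :
    IsIntegral (v.adicCompletionIntegers K) ((1 : v.adicCompletion K) ⊗ₜ[K] x) := by
  have hlift : P0.map (algebraMap K (v.adicCompletion K)) ∈
      Polynomial.lifts (algebraMap (v.adicCompletionIntegers K) (v.adicCompletion K)) := by
    rw [Polynomial.lifts_iff_coeff_lifts]
    intro n
    rw [Polynomial.coeff_map]
    refine ⟨⟨algebraMap K (v.adicCompletion K) (P0.coeff n), ?_⟩, rfl⟩
    rw [mem_adicCompletionIntegers, idInt_valued_algebraMap]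
    exact h n
  obtain ⟨Q, hQ1, -, hQ2⟩ := Polynomial.lifts_and_natDegree_eq_and_monic hlift
    (hmon.map (algebraMap K (v.adicCompletion K)))
  refine ⟨Q, hQ2, ?_⟩
  have e1 : algebraMap (v.adicCompletionIntegers K) ((v.adicCompletion K) ⊗[K] L) =
      (algebraMap (v.adicCompletion K) ((v.adicCompletion K) ⊗[K] L)).comp
        (algebraMap (v.adicCompletionIntegers K) (v.adicCompletion K)) :=
    IsScalarTower.algebraMap_eq _ _ _
  have e2 : algebraMap K ((v.adicCompletion K) ⊗[K] L) =
      (algebraMap (v.adicCompletion K) ((v.adicCompletion K) ⊗[K] L)).comp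
        (algebraMap K (v.adicCompletion K)) :=
    IsScalarTower.algebraMap_eq _ _ _
  rw [e1, ← Polynomial.eval₂_map, hQ1, Polynomial.eval₂_map, ← e2]
  exact idInt_aeval_tmul v x P0 hP0

/-- **(C)** if `1 ⊗ x` is integral over `O_v` then the coefficients of `∏_σ (X - σ x)` are
`v`-integral. -/
theorem idInt_coeff_of_isIntegral (x : L) (P0 : K[X])
    (hP0 : P0.map (algebraMap K L) = ∏ σ : Gal(L/K), (X - C (σ x)))
    (h : IsIntegral (v.adicCompletionIntegers K) ((1 : v.adicCompletion K) ⊗ₜ[K] x)) (n : ℕ) :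
    v.valuation K (P0.coeff n) ≤ 1 := by
  classical
  -- the conjugates `1 ⊗ σ x` are integral
  have hσ : ∀ σ : Gal(L/K), ((1 : v.adicCompletion K) ⊗ₜ[K] (σ x)) ∈
      (integralClosure (v.adicCompletionIntegers K)
        ((v.adicCompletion K) ⊗[K] L)).toSubring := by
    intro σ
    let τ : (v.adicCompletion K) ⊗[K] L →ₐ[v.adicCompletion K] (v.adicCompletion K) ⊗[K] L :=
      Algebra.TensorProduct.map (AlgHom.id (v.adicCompletion K) (v.adicCompletion K))
        (σ : L →ₐ[K] L)
    have h1 : τ ((1 : v.adicCompletion K) ⊗ₜ[K] x) = (1 : v.adicCompletion K) ⊗ₜ[K] (σ x) := by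
      simp [τ]
    rw [← h1]
    exact h.map (τ.restrictScalars (v.adicCompletionIntegers K))
  have h2 := idInt_coeff_prod_mem _ (fun σ : Gal(L/K) => (1 : v.adicCompletion K) ⊗ₜ[K] (σ x)) hσ n
  -- identify the polynomial
  have h3 : (∏ σ : Gal(L/K), (X - C ((1 : v.adicCompletion K) ⊗ₜ[K] (σ x)))) =
      P0.map (algebraMap K ((v.adicCompletion K) ⊗[K] L)) := by
    have e : algebraMap K ((v.adicCompletion K) ⊗[K] L) =
        ((Algebra.TensorProduct.includeRight :
          L →ₐ[K] (v.adicCompletion K) ⊗[K] L) : L →+* _).comp (algebraMap K L) := by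
      ext a
      simp [Algebra.algebraMap_eq_smul_one]
    rw [e, ← Polynomial.map_map, hP0, Polynomial.map_prod]
    refine Finset.prod_congr rfl fun σ _ => ?_
    rw [Polynomial.map_sub, Polynomial.map_X, Polynomial.map_C]
    rfl
  rw [h3, Polynomial.coeff_map] at h2
  have h4 : IsIntegral (v.adicCompletionIntegers K)
      (algebraMap (v.adicCompletion K) ((v.adicCompletion K) ⊗[K] L)
        (algebraMap K (v.adicCompletion K) (P0.coeff n))) := by
    rw [← IsScalarTower.algebraMap_apply]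
    exact h2
  have hinj : Function.Injective
      (algebraMap (v.adicCompletion K) ((v.adicCompletion K) ⊗[K] L)) :=
    Algebra.TensorProduct.includeLeft_injective (S := v.adicCompletion K)
      (FaithfulSMul.algebraMap_injective K L)
  rw [isIntegral_algebraMap_iff hinj] at h4
  have h5 := (Valuation.valuationSubring.integers
    (Valued.v : Valuation (v.adicCompletion K) _)).mem_of_integral h4
  rw [Valuation.mem_integer_iff, idInt_valued_algebraMap] at h5
  exact h5

variable (K L)

/-- **(GL5)(a)** for `x : L`: `1 ⊗ x ∈ O_{L,v} ↔ ∀ w | v, w(x) ≤ 1`. -/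
theorem tmul_mem_integralClosure_iff (x : L) :
    ((1 : v.adicCompletion K) ⊗ₜ[K] x) ∈
        integralClosure (v.adicCompletionIntegers K) ((v.adicCompletion K) ⊗[K] L) ↔
      ∀ w : HeightOneSpectrum (𝓞 L), primeBelow K L w = v → w.valuation L x ≤ 1 := by
  obtain ⟨P0, hmon, hP0⟩ := idInt_exists_charpoly K L x
  constructor
  · intro h w hw
    exact idInt_valuation_le_of_coeff v x P0 hmon hP0
      (idInt_coeff_of_isIntegral v x P0 hP0 h) w hw
  · intro h
    exact idInt_isIntegral_of_coeff v x P0 hmon hP0 (idInt_coeff_of_valuation_le v x P0 hP0 h)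

/-- **(GL5)(b)** for `x : Lˣ`: `1 ⊗ x` is a unit of `O_{L,v}` iff `w(x) = 1` for all `w | v`. -/
theorem exists_unit_integralClosure_eq_tmul_iff (x : Lˣ) :
    (∃ u : (integralClosure (v.adicCompletionIntegers K) ((v.adicCompletion K) ⊗[K] L))ˣ,
        ((u : integralClosure (v.adicCompletionIntegers K) ((v.adicCompletion K) ⊗[K] L)) :
          (v.adicCompletion K) ⊗[K] L) = (1 : v.adicCompletion K) ⊗ₜ[K] (x : L)) ↔
      ∀ w : HeightOneSpectrum (𝓞 L), primeBelow K L w = v → w.valuation L (x : L) = 1 := by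
  have hmul : ((1 : v.adicCompletion K) ⊗ₜ[K] (x : L)) *
      ((1 : v.adicCompletion K) ⊗ₜ[K] ((x⁻¹ : Lˣ) : L)) = 1 := by
    rw [Algebra.TensorProduct.tmul_mul_tmul, one_mul, Units.mul_inv]
    rfl
  have hinvle : ∀ w : HeightOneSpectrum (𝓞 L),
      w.valuation L ((x⁻¹ : Lˣ) : L) ≤ 1 ↔ 1 ≤ w.valuation L (x : L) := by
    intro w
    have h0 : w.valuation L (x : L) ≠ 0 := (Valuation.ne_zero_iff _).mpr x.ne_zero
    rw [Units.val_inv_eq_inv_val, map_inv₀, inv_le_one₀ (zero_lt_iff.mpr h0)]
  constructor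
  · rintro ⟨u, hu⟩ w hw
    have h1 : ((1 : v.adicCompletion K) ⊗ₜ[K] (x : L)) ∈
        integralClosure (v.adicCompletionIntegers K) ((v.adicCompletion K) ⊗[K] L) := by
      rw [← hu]; exact Subtype.property _
    have h2 : ((1 : v.adicCompletion K) ⊗ₜ[K] ((x⁻¹ : Lˣ) : L)) ∈
        integralClosure (v.adicCompletionIntegers K) ((v.adicCompletion K) ⊗[K] L) := by
      have h3 : (((u⁻¹ : (integralClosure (v.adicCompletionIntegers K)
          ((v.adicCompletion K) ⊗[K] L))ˣ) : integralClosure (v.adicCompletionIntegers K)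
          ((v.adicCompletion K) ⊗[K] L)) : (v.adicCompletion K) ⊗[K] L) =
          (1 : v.adicCompletion K) ⊗ₜ[K] ((x⁻¹ : Lˣ) : L) := by
        have h4 : (((u⁻¹ : (integralClosure (v.adicCompletionIntegers K)
            ((v.adicCompletion K) ⊗[K] L))ˣ) : integralClosure (v.adicCompletionIntegers K)
            ((v.adicCompletion K) ⊗[K] L)) : (v.adicCompletion K) ⊗[K] L) *
            ((1 : v.adicCompletion K) ⊗ₜ[K] (x : L)) = 1 := by
          rw [← hu, ← Subalgebra.coe_mul, Units.inv_mul, Subalgebra.coe_one]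
        exact left_inv_eq_right_inv h4 hmul
      rw [← h3]; exact Subtype.property _
    exact le_antisymm ((tmul_mem_integralClosure_iff K L v _).mp h1 w hw)
      ((hinvle w).mp ((tmul_mem_integralClosure_iff K L v _).mp h2 w hw))
  · intro h
    have h1 := (tmul_mem_integralClosure_iff K L v (x : L)).mpr fun w hw => (h w hw).le
    have h2 := (tmul_mem_integralClosure_iff K L v ((x⁻¹ : Lˣ) : L)).mpr fun w hw =>
      (hinvle w).mpr (h w hw).ge
    refine ⟨⟨⟨_, h1⟩, ⟨_, h2⟩, ?_, ?_⟩, rfl⟩
    · apply Subtype.ext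
      exact hmul
    · apply Subtype.ext
      rw [Subalgebra.coe_mul, mul_comm]
      exact hmul

omit [IsGalois K L] in
/-- **(GL5)(c)** for `x : Lˣ`, `w(x) = 1` for all `w | v` holds for almost all `v`. -/
theorem finite_setOf_not_forall_valuation_eq_one (x : Lˣ) :
    {v : HeightOneSpectrum (𝓞 K) | ¬ ∀ w : HeightOneSpectrum (𝓞 L), primeBelow K L w = v →
      w.valuation L (x : L) = 1}.Finite := by
  have hfin : {w : HeightOneSpectrum (𝓞 L) | w.valuation L (x : L) ≠ 1}.Finite :=
    finite_setOf_valuation_ne_one L x.ne_zero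
  refine (hfin.image (primeBelow K L)).subset ?_
  intro v hv
  rw [Set.mem_ofPred_eq, not_forall] at hv
  obtain ⟨w, hv⟩ := hv
  rw [Classical.not_imp] at hv
  obtain ⟨hw, hne⟩ := hv
  exact ⟨w, hne, hw⟩

end Galois

end Fermat.Agent.CFT
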