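import Mathlib
import Fermat.Agent.CFT.Global.NormClassesDiv
import Fermat.Agent.CFT.Idele.Defs
import Fermat.Agent.CFT.Idele.Integral
import Fermat.Agent.CFT.Idele.AdicLocalField
import Fermat.Agent.CFT.Idele.IntegralSUnits

set_option autoImplicit false

/-!
# S55, GLOBAL-IDELIC (GL6): `J_L = Lˣ · J_{L,S}` for `S` large

* `idCN_exists_divFun_eq` : finiteness of the class group of `L`: there is a finite set `S0` of
  primes of `K` such that every divisor of `L` is principal off the primes above `S0`.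
* `idCN_exists_incl_mul_unit` : local density, `(L_v)ˣ = Lˣ · O_{L,v}ˣ`.
* `exists_finset_forall_mul_diagIdele_inv_mem` : `J_L = Lˣ · J_{L,S}` for `S ⊇ S0`
  (`ideleGroupS` is helper4's `J_{L,S}` of `Idele/IntegralSUnits.lean`).
-/

open NumberField IsDedekindDomain HeightOneSpectrum
open scoped TensorProduct

namespace Fermat.Agent.CFT

section ClassGroup

variable (K L : Type*) [Field K] [NumberField K] [Field L] [NumberField L] [Algebra K L]

/-- **(GL6)(a)**: every divisor of `L` is principal off the primes above a fixed finite set `S0`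
of primes of `K` (finiteness of the class group). -/
theorem idCN_exists_divFun_eq :
    ∃ S0 : Finset (HeightOneSpectrum (𝓞 K)), ∀ D : HeightOneSpectrum (𝓞 L) →₀ ℤ,
      ∃ y : Lˣ, ∀ w : HeightOneSpectrum (𝓞 L), primeBelow K L w ∉ S0 →
        divFun (𝓞 L) L y w = D w := by
  classical
  obtain ⟨T, hT⟩ := exists_finset_forall_exists_divClass_eq (R := 𝓞 L)
  refine ⟨T.image (primeBelow K L), fun D => ?_⟩
  obtain ⟨D', hD'supp, hD'⟩ := hT (divClass D)
  have h1 : divClass (D - D') = 1 := by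
    rw [divClass_sub, hD', div_self']
  obtain ⟨y, hy⟩ := (divClass_eq_one_iff (𝓞 L) L (D - D')).mp h1
  refine ⟨Additive.toMul y, fun w hw => ?_⟩
  have hw' : w ∉ T := fun h => hw (Finset.mem_image_of_mem _ h)
  have h2 : D' w = 0 := by
    by_contra hne
    exact hw' (hD'supp (Finsupp.mem_support_iff.mpr hne))
  have h3 := DFunLike.congr_fun hy w
  rw [divHom_apply, Finsupp.sub_apply, h2, sub_zero] at h3
  exact h3

end ClassGroup

section LocalDensity

variable {K L : Type*} [Field K] [NumberField K] [Field L] [NumberField L] [Algebra K L]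
variable (v : HeightOneSpectrum (𝓞 K))

/-- the image in `O_v` of a `v`-integral element of `K`. -/
noncomputable def idCN_toInt (ϖ : K) (hϖ : v.valuation K ϖ ≤ 1) : v.adicCompletionIntegers K :=
  ⟨algebraMap K (v.adicCompletion K) ϖ, by
    rw [mem_adicCompletionIntegers, adicLF_valued_algebraMap]; exact hϖ⟩

/-- **(b3)**: `1 + ϖ b` is a unit of `O_{L,v}` for `b ∈ O_{L,v}` and `v(ϖ) < 1`
(`O_{L,v}` is integral over the local ring `O_v`). -/
theorem idCN_one_add_smul_mem_units (ϖ : K) (hϖ : v.valuation K ϖ < 1)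
    (b : semiLocal K L v) (hb : IsIntegral (v.adicCompletionIntegers K) b) :
    ∃ u ∈ semiLocalUnits K L v, (u : semiLocal K L v) = 1 + ϖ • b := by
  set O := semiLocalInt K L v with hO
  set ϖ₀ : v.adicCompletionIntegers K := idCN_toInt v ϖ hϖ.le with hϖ₀
  have hϖ₀m : ϖ₀ ∈ IsLocalRing.maximalIdeal (v.adicCompletionIntegers K) := by
    rw [adicLF_mem_maximalIdeal_iff]
    show Valued.v (algebraMap K (v.adicCompletion K) ϖ) < 1
    rw [adicLF_valued_algebraMap]; exact hϖ
  have hjac : algebraMap (v.adicCompletionIntegers K) O ϖ₀ ∈ Ideal.jacobson (⊥ : Ideal O) := by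
    rw [Ideal.jacobson, Ideal.mem_sInf]
    rintro 𝔐 ⟨-, h𝔐⟩
    have hmax := Ideal.isMaximal_comap_of_isIntegral_of_isMaximal
      (R := v.adicCompletionIntegers K) 𝔐
    have := IsLocalRing.eq_maximalIdeal hmax
    have h1 : ϖ₀ ∈ 𝔐.comap (algebraMap (v.adicCompletionIntegers K) O) := by
      rw [this]; exact hϖ₀m
    exact h1
  have hunit := (Ideal.mem_jacobson_bot.mp hjac) ⟨b, hb⟩
  obtain ⟨u, hu⟩ := hunit
  -- transport the unit of `O` to a unit of `L_v`
  refine ⟨Units.map O.val.toMonoidHom u, ?_, ?_⟩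
  · rw [mem_semiLocalUnits_iff]
    refine ⟨(u : O).2, ?_⟩
    have : ((Units.map O.val.toMonoidHom u)⁻¹ : (semiLocal K L v)ˣ) =
        Units.map O.val.toMonoidHom u⁻¹ := by rw [map_inv]
    rw [this]
    exact ((u⁻¹ : Oˣ) : O).2
  · show ((u : O) : semiLocal K L v) = 1 + ϖ • b
    rw [hu]
    show ((algebraMap (v.adicCompletionIntegers K) O ϖ₀ : O) : semiLocal K L v) * b + 1 = _
    have h2 : ((algebraMap (v.adicCompletionIntegers K) O ϖ₀ : O) : semiLocal K L v) =
        algebraMap K (semiLocal K L v) ϖ := by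
      show algebraMap (v.adicCompletionIntegers K) (semiLocal K L v) ϖ₀ = _
      rw [IsScalarTower.algebraMap_apply (v.adicCompletionIntegers K) (v.adicCompletion K)
        (semiLocal K L v), IsScalarTower.algebraMap_apply K (v.adicCompletion K)
        (semiLocal K L v)]
      rfl
    rw [h2, Algebra.smul_def, add_comm]

/-- **(b1)**: approximation of an element of `K_v` by an element of `K` modulo `ϖ ^ N O_v`. -/
theorem idCN_exists_approx (c : v.adicCompletion K) (ϖ : K) (hϖ0 : ϖ ≠ 0) (N : ℕ) :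
    ∃ (k : K) (d : v.adicCompletion K), Valued.v d ≤ 1 ∧
      c = algebraMap K (v.adicCompletion K) k + algebraMap K (v.adicCompletion K) ϖ ^ N * d := by
  have hϖ' : algebraMap K (v.adicCompletion K) ϖ ^ N ≠ 0 :=
    pow_ne_zero _ ((map_ne_zero _).mpr hϖ0)
  set c' := c / algebraMap K (v.adicCompletion K) ϖ ^ N with hc'
  have hopen : IsOpen {y : v.adicCompletion K | Valued.v (y - c') < 1} :=
    (adicLF_isOpen_ball K v).preimage (continuous_id.sub continuous_const)
  obtain ⟨k', hk'⟩ := (denseRange_algebraMap K v).exists_mem_open hopen ⟨c', by simp⟩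
  have hk'' : Valued.v (algebraMap K (v.adicCompletion K) k' - c') < 1 := hk'
  refine ⟨ϖ ^ N * k', c' - algebraMap K (v.adicCompletion K) k', ?_, ?_⟩
  · rw [← Valuation.map_neg, neg_sub]
    exact hk''.le
  · rw [map_mul, map_pow, ← mul_add, add_sub_cancel, hc', mul_div_cancel₀ _ hϖ']

/-- `1 ⊗ l'` is integral over `O_v` for `l'` integral over `𝓞 K`. -/
theorem idCN_isIntegral_incl_of_isIntegral (l' : L) (hl' : IsIntegral (𝓞 K) l') :
    IsIntegral (v.adicCompletionIntegers K) (semiLocalIncl K L v l') := by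
  refine isIntegral_semiLocalIncl_of_forall_coeff v l' fun n => ?_
  rw [minpoly.isIntegrallyClosed_eq_field_fractions' K hl', Polynomial.coeff_map]
  exact v.valuation_le_one _

omit [NumberField L] in
/-- every pure tensor is `c' ⊗ l'` with `l'` integral over `𝓞 K`. -/
theorem idCN_exists_tmul_eq [FiniteDimensional K L] (c : v.adicCompletion K) (l : L) :
    ∃ (c' : v.adicCompletion K) (l' : L), IsIntegral (𝓞 K) l' ∧
      c ⊗ₜ[K] l = c' ⊗ₜ[K] l' := by
  have halg : IsAlgebraic (𝓞 K) l :=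
    (IsFractionRing.isAlgebraic_iff (𝓞 K) K L).mpr (Algebra.IsAlgebraic.isAlgebraic l)
  obtain ⟨d, hd0, hint⟩ := halg.exists_integral_multiple
  have hd0' : (algebraMap (𝓞 K) K d) ≠ 0 := by
    rwa [Ne, map_eq_zero_iff _ (IsFractionRing.injective (𝓞 K) K)]
  refine ⟨(algebraMap (𝓞 K) K d)⁻¹ • c, d • l, hint, ?_⟩
  rw [TensorProduct.smul_tmul, ← algebraMap_smul K d l, smul_smul, inv_mul_cancel₀ hd0', one_smul]

omit [NumberField L] in
/-- `O_{L,v}` is stable under multiplication by `O_v`. -/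
theorem idCN_isIntegral_smul (z : v.adicCompletion K) (hz : Valued.v z ≤ 1)
    (b : semiLocal K L v) (hb : IsIntegral (v.adicCompletionIntegers K) b) :
    IsIntegral (v.adicCompletionIntegers K) (z • b) := by
  have h : z • b = (⟨z, hz⟩ : v.adicCompletionIntegers K) • b := rfl
  rw [h]
  exact hb.smul _

omit [NumberField L] in
/-- `O_{L,v}` is stable under multiplication by `v`-integral elements of `K`. -/
theorem idCN_isIntegral_smul' (ϖ : K) (hϖ : v.valuation K ϖ ≤ 1)
    (b : semiLocal K L v) (hb : IsIntegral (v.adicCompletionIntegers K) b) :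
    IsIntegral (v.adicCompletionIntegers K) (ϖ • b) := by
  rw [← algebraMap_smul (v.adicCompletion K) ϖ b]
  exact idCN_isIntegral_smul v _ (by rw [adicLF_valued_algebraMap]; exact hϖ) b hb

/-- multiplying by a high power of a uniformizer makes an element of `K_v` integral. -/
theorem idCN_exists_pow_mul_le_one (π : K) (hπ : v.valuation K π = WithZero.exp (-1 : ℤ))
    (c : v.adicCompletion K) :
    ∃ M : ℕ, Valued.v (algebraMap K (v.adicCompletion K) π ^ M * c) ≤ 1 := by
  by_cases hc : c = 0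
  · exact ⟨0, by simp [hc]⟩
  have hvc : Valued.v c ≠ 0 := (Valuation.ne_zero_iff _).mpr hc
  refine ⟨(WithZero.log (Valued.v c)).toNat, ?_⟩
  rw [map_mul, map_pow, adicLF_valued_algebraMap, hπ, ← WithZero.exp_nsmul,
    ← WithZero.exp_log hvc, ← WithZero.exp_add, ← WithZero.exp_zero, WithZero.exp_le_exp]
  simp only [WithZero.log_exp, nsmul_eq_mul, mul_neg, mul_one]
  omega

/-- **(b2)**: every element of `L_v` becomes integral after multiplication by a power of a
uniformizer of `v`. -/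
theorem idCN_exists_pow_smul_isIntegral (π : K) (hπ : v.valuation K π = WithZero.exp (-1 : ℤ))
    (a : semiLocal K L v) :
    ∃ M : ℕ, IsIntegral (v.adicCompletionIntegers K) ((π ^ M) • a) := by
  haveI : FiniteDimensional K L := Module.Finite.of_restrictScalars_finite ℚ K L
  have hπ1 : ∀ j : ℕ, v.valuation K (π ^ j) ≤ 1 := by
    intro j
    rw [map_pow, hπ]
    exact pow_le_one' (by rw [← WithZero.exp_zero, WithZero.exp_le_exp]; norm_num) j
  induction a using TensorProduct.induction_on with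
  | zero => exact ⟨0, by rw [smul_zero]; exact isIntegral_zero⟩
  | tmul c l =>
    obtain ⟨c', l', hl', heq⟩ := idCN_exists_tmul_eq v c l
    obtain ⟨M, hM⟩ := idCN_exists_pow_mul_le_one v π hπ c'
    refine ⟨M, ?_⟩
    have h1 : (π ^ M) • (c ⊗ₜ[K] l : semiLocal K L v) =
        (algebraMap K (v.adicCompletion K) π ^ M * c') • semiLocalIncl K L v l' := by
      rw [heq, TensorProduct.smul_tmul', Algebra.smul_def, map_pow]
      show _ = (algebraMap K (v.adicCompletion K) π ^ M * c') • ((1 : v.adicCompletion K) ⊗ₜ[K] l')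
      rw [TensorProduct.smul_tmul', smul_eq_mul, mul_one]
    rw [h1]
    exact idCN_isIntegral_smul v _ hM _ (idCN_isIntegral_incl_of_isIntegral v l' hl')
  | add a₁ a₂ h₁ h₂ =>
    obtain ⟨M₁, hM₁⟩ := h₁
    obtain ⟨M₂, hM₂⟩ := h₂
    refine ⟨M₁ + M₂, ?_⟩
    have h1 : (π ^ (M₁ + M₂)) • (a₁ + a₂) =
        (π ^ M₂) • ((π ^ M₁) • a₁) + (π ^ M₁) • ((π ^ M₂) • a₂) := by
      rw [smul_add, smul_smul, smul_smul, pow_add, mul_comm (π ^ M₁) (π ^ M₂)]
    rw [h1]
    exact (idCN_isIntegral_smul' v _ (hπ1 M₂) _ hM₁).add (idCN_isIntegral_smul' v _ (hπ1 M₁) _ hM₂)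

/-- **(b4')**: every element of `L_v` is congruent to an element of `L` modulo `ϖ ^ N O_{L,v}`. -/
theorem idCN_exists_incl_add_smul (ϖ : K) (hϖ0 : ϖ ≠ 0) (N : ℕ) (a : semiLocal K L v) :
    ∃ (y : L) (b : semiLocal K L v), IsIntegral (v.adicCompletionIntegers K) b ∧
      a = semiLocalIncl K L v y + (ϖ ^ N) • b := by
  haveI : FiniteDimensional K L := Module.Finite.of_restrictScalars_finite ℚ K L
  induction a using TensorProduct.induction_on with
  | zero => exact ⟨0, 0, isIntegral_zero, by rw [map_zero, smul_zero, add_zero]⟩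
  | tmul c l =>
    obtain ⟨c', l', hl', heq⟩ := idCN_exists_tmul_eq v c l
    obtain ⟨k, d, hd, hc'⟩ := idCN_exists_approx v c' ϖ hϖ0 N
    refine ⟨k • l', d • semiLocalIncl K L v l',
      idCN_isIntegral_smul v d hd _ (idCN_isIntegral_incl_of_isIntegral v l' hl'), ?_⟩
    rw [heq, hc', TensorProduct.add_tmul]
    congr 1
    · show algebraMap K (v.adicCompletion K) k ⊗ₜ[K] l' = (1 : v.adicCompletion K) ⊗ₜ[K] (k • l')
      rw [← TensorProduct.smul_tmul, Algebra.smul_def, mul_one]
    · show (algebraMap K (v.adicCompletion K) ϖ ^ N * d) ⊗ₜ[K] l' =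
        (ϖ ^ N) • (d • ((1 : v.adicCompletion K) ⊗ₜ[K] l'))
      rw [TensorProduct.smul_tmul', TensorProduct.smul_tmul', smul_eq_mul, mul_one,
        Algebra.smul_def, map_pow]
  | add a₁ a₂ h₁ h₂ =>
    obtain ⟨y₁, b₁, hb₁, e₁⟩ := h₁
    obtain ⟨y₂, b₂, hb₂, e₂⟩ := h₂
    refine ⟨y₁ + y₂, b₁ + b₂, hb₁.add hb₂, ?_⟩
    rw [e₁, e₂, map_add, smul_add]
    abel

/-- **(GL6)(b), local density**: `(L_v)ˣ = Lˣ · O_{L,v}ˣ`. -/
theorem idCN_exists_incl_mul_unit (a : (semiLocal K L v)ˣ) :
    ∃ (y : Lˣ) (u : (semiLocal K L v)ˣ), u ∈ semiLocalUnits K L v ∧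
      a = Units.map (semiLocalIncl K L v : L →* semiLocal K L v) y * u := by
  haveI : Nontrivial (semiLocal K L v) := (semiLocalIncl_injective K L v).nontrivial
  obtain ⟨π, hπ⟩ := v.valuation_exists_uniformizer K
  have hπ0 : π ≠ 0 := by
    intro h
    rw [h, map_zero] at hπ
    exact WithZero.exp_ne_zero hπ.symm
  have hπlt : v.valuation K π < 1 := by
    rw [hπ, ← WithZero.exp_zero, WithZero.exp_lt_exp]; norm_num
  obtain ⟨M, hM⟩ := idCN_exists_pow_smul_isIntegral v π hπ
    ((a⁻¹ : (semiLocal K L v)ˣ) : semiLocal K L v)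
  set b' := (π ^ M) • ((a⁻¹ : (semiLocal K L v)ˣ) : semiLocal K L v) with hb'
  obtain ⟨y, b, hb, hab⟩ := idCN_exists_incl_add_smul v π hπ0 (M + 1) (a : semiLocal K L v)
  obtain ⟨u₀, hu₀mem, hu₀⟩ := idCN_one_add_smul_mem_units v π hπlt (-(b' * b)) (hM.mul hb).neg
  have hab' : (a : semiLocal K L v) * b' = (π ^ M) • (1 : semiLocal K L v) := by
    rw [hb', mul_smul_comm, Units.mul_inv]
  have key : semiLocalIncl K L v y = (a : semiLocal K L v) * (u₀ : semiLocal K L v) := by
    have h1 : semiLocalIncl K L v y = (a : semiLocal K L v) - (π ^ (M + 1)) • b := by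
      rw [eq_sub_iff_add_eq]; exact hab.symm
    rw [h1, hu₀, mul_add, mul_one, mul_smul_comm, mul_neg, ← mul_assoc, hab', smul_mul_assoc,
      one_mul, smul_neg, smul_smul, ← pow_succ', sub_eq_add_neg]
  have hy0 : y ≠ 0 := by
    rintro rfl
    rw [map_zero] at key
    exact (a * u₀).ne_zero key.symm
  refine ⟨Units.mk0 y hy0, u₀⁻¹, (semiLocalUnits K L v).inv_mem hu₀mem, ?_⟩
  apply Units.ext
  show (a : semiLocal K L v) = semiLocalIncl K L v y * ((u₀⁻¹ : (semiLocal K L v)ˣ) : semiLocal K L v)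
  rw [key, mul_assoc, Units.mul_inv, mul_one]

end LocalDensity

section Global

variable (K L : Type*) [Field K] [NumberField K] [Field L] [NumberField L] [Algebra K L]

variable [IsGalois K L]

variable {K L} in
/-- the unit criterion of (GL5) in the vocabulary of `Idele/Defs.lean`. -/
theorem idCN_incl_mem_semiLocalUnits_iff (v : HeightOneSpectrum (𝓞 K)) (x : Lˣ) :
    Units.map (semiLocalIncl K L v : L →* semiLocal K L v) x ∈ semiLocalUnits K L v ↔
      ∀ w : HeightOneSpectrum (𝓞 L), primeBelow K L w = v → w.valuation L (x : L) = 1 := by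
  rw [mem_semiLocalUnits_iff, ← map_inv]
  have e1 : ((Units.map (semiLocalIncl K L v : L →* semiLocal K L v) x : (semiLocal K L v)ˣ) :
      semiLocal K L v) = (1 : v.adicCompletion K) ⊗ₜ[K] (x : L) := rfl
  have e2 : ((Units.map (semiLocalIncl K L v : L →* semiLocal K L v) x⁻¹ : (semiLocal K L v)ˣ) :
      semiLocal K L v) = (1 : v.adicCompletion K) ⊗ₜ[K] ((x : L)⁻¹) := by
    show (1 : v.adicCompletion K) ⊗ₜ[K] ((x⁻¹ : Lˣ) : L) = _
    rw [Units.val_inv_eq_inv_val]
  rw [e1, e2]
  have i1 := tmul_mem_integralClosure_iff K L v (x : L)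
  have i2 := tmul_mem_integralClosure_iff K L v ((x : L)⁻¹)
  rw [mem_integralClosure_iff] at i1 i2
  rw [i1, i2]
  constructor
  · rintro ⟨h1, h2⟩ w hw
    have h3 := h2 w hw
    rw [map_inv₀] at h3
    have hne : w.valuation L (x : L) ≠ 0 := (Valuation.ne_zero_iff _).mpr x.ne_zero
    have h4 : 1 ≤ w.valuation L (x : L) := by
      have h5 := mul_le_mul_left h3 (w.valuation L (x : L))
      rwa [inv_mul_cancel₀ hne, one_mul] at h5
    exact le_antisymm (h1 w hw) h4
  · intro h
    refine ⟨fun w hw => (h w hw).le, fun w hw => ?_⟩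
    rw [map_inv₀, h w hw, inv_one]

/-- **(GL6)**: `J_L = Lˣ · J_{L,S}` for every `S` containing a fixed finite set `S0` of primes of
`K` (finiteness of the class group of `L` + local density). -/
theorem exists_finset_forall_mul_diagIdele_inv_mem :
    ∃ S0 : Finset (HeightOneSpectrum (𝓞 K)), ∀ S : Set (HeightOneSpectrum (𝓞 K)),
      (S0 : Set (HeightOneSpectrum (𝓞 K))) ⊆ S → ∀ a : ideleGroup K L,
        ∃ y : Lˣ, a * (diagIdele (K := K) y)⁻¹ ∈ ideleGroupS K L S := by
  classical
  obtain ⟨S0, hS0⟩ := idCN_exists_divFun_eq K L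
  refine ⟨S0, fun S hS a => ?_⟩
  -- the finitely many bad places of `a`
  have hTfin : {v : HeightOneSpectrum (𝓞 K) |
      ¬ (a : ∀ v, (semiLocal K L v)ˣ) v ∈ semiLocalUnits K L v}.Finite :=
    Filter.eventually_cofinite.mp ((mem_ideleGroup_iff _).mp a.2)
  set T := hTfin.toFinset with hT
  -- local decompositions
  choose yv uv huv hyuv using fun v => idCN_exists_incl_mul_unit v ((a : ∀ v, (semiLocal K L v)ˣ) v)
  -- the divisor to be made principal
  have hDfin : (Function.support fun w : HeightOneSpectrum (𝓞 L) =>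
      if primeBelow K L w ∈ T then divFun (𝓞 L) L (yv (primeBelow K L w)) w else 0).Finite := by
    refine (Set.Finite.biUnion T.finite_toSet
      (fun v _ => finite_divFun_support (𝓞 L) L (yv v))).subset ?_
    intro w hw
    rw [Function.mem_support] at hw
    by_cases hwT : primeBelow K L w ∈ T
    · rw [if_pos hwT] at hw
      exact Set.mem_biUnion (Finset.mem_coe.mpr hwT) hw
    · rw [if_neg hwT] at hw
      exact absurd rfl hw
  set D : HeightOneSpectrum (𝓞 L) →₀ ℤ := Finsupp.ofSupportFinite _ hDfin with hD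
  obtain ⟨y, hy⟩ := hS0 D
  refine ⟨y, fun v hv => ?_⟩
  have hvS0 : v ∉ S0 := fun h => hv (hS (Finset.mem_coe.mpr h))
  show (a : ∀ v, (semiLocal K L v)ˣ) v *
    (Units.map (semiLocalIncl K L v : L →* semiLocal K L v) y)⁻¹ ∈ semiLocalUnits K L v
  by_cases hvT : v ∈ T
  · -- `a v = (1 ⊗ y_v) u_v` and `y_v / y` is a unit above `v`
    rw [hyuv v, mul_comm _ (uv v), mul_assoc, ← map_inv, ← map_mul]
    refine (semiLocalUnits K L v).mul_mem (huv v) ?_
    rw [idCN_incl_mem_semiLocalUnits_iff]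
    intro w hw
    have h1 := hy w (by rw [hw]; exact hvS0)
    rw [hD, Finsupp.ofSupportFinite_coe, if_pos (by rw [hw]; exact hvT), hw] at h1
    rw [Units.val_mul, map_mul, valuation_eq_exp_divFun (𝓞 L) L (yv v) w,
      valuation_eq_exp_divFun (𝓞 L) L y⁻¹ w, divFun_inv, h1, ← WithZero.exp_add, add_neg_cancel,
      WithZero.exp_zero]
  · -- `a v` and `1 ⊗ y` are both units
    have hav : (a : ∀ v, (semiLocal K L v)ˣ) v ∈ semiLocalUnits K L v := by
      by_contra hcon
      exact hvT (hTfin.mem_toFinset.mpr hcon)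
    refine (semiLocalUnits K L v).mul_mem hav ((semiLocalUnits K L v).inv_mem ?_)
    rw [idCN_incl_mem_semiLocalUnits_iff]
    intro w hw
    have h1 := hy w (by rw [hw]; exact hvS0)
    rw [hD, Finsupp.ofSupportFinite_coe, if_neg (by rw [hw]; exact hvT)] at h1
    rw [valuation_eq_exp_divFun (𝓞 L) L y w, h1, WithZero.exp_zero]

/-- **(GL6)**, lattice form: `Lˣ · J_{L,S} = J_L`. -/
theorem exists_finset_forall_principalIdeles_sup_ideleGroupS_eq_top :
    ∃ S0 : Finset (HeightOneSpectrum (𝓞 K)), ∀ S : Set (HeightOneSpectrum (𝓞 K)),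
      (S0 : Set (HeightOneSpectrum (𝓞 K))) ⊆ S →
        principalIdeles K L ⊔ ideleGroupS K L S = ⊤ := by
  obtain ⟨S0, hS0⟩ := exists_finset_forall_mul_diagIdele_inv_mem K L
  refine ⟨S0, fun S hS => ?_⟩
  rw [eq_top_iff]
  intro a _
  obtain ⟨y, hy⟩ := hS0 S hS a
  have h1 : a = diagIdele (K := K) y * (a * (diagIdele (K := K) y)⁻¹) := by
    rw [mul_comm a, mul_inv_cancel_left]
  rw [h1]
  exact Subgroup.mul_mem_sup ⟨y, rfl⟩ hy

end Global

end Fermat.Agent.CFT
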