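import Mathlib
import Fermat.Agent.CFT.Idele.BaseOrd
import Fermat.Agent.CFT.Idele.AdicLocalField
import Fermat.Agent.CFT.Global.WeakApprox

set_option autoImplicit false
set_option linter.unusedSectionVars false

/-!
# CFT, S55 global-idelic stream, chunk (GL13b), part 2: ideles congruent to `1` modulo `m`,
`J_K = Kˣ · J_K^{(m)}`, and extension of homomorphisms from `J_K^{(m)}` to `J_K`
-/

open NumberField IsDedekindDomain WithZero

namespace Fermat.Agent.CFT

section Abstract

/-- extension of a homomorphism from `C` to `J = P · C`, trivial on `P`. -/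
theorem exists_monoidHom_extend_of_forall_exists_mul_mem {J G : Type*} [CommGroup J]
    [CommGroup G] (P C : Subgroup J) (h : ∀ x : J, ∃ a ∈ P, x * a ∈ C) (ψ₀ : J →* G)
    (h0 : ∀ a ∈ P, a ∈ C → ψ₀ a = 1) :
    ∃ ψ : J →* G, (∀ a ∈ P, ψ a = 1) ∧ ∀ c ∈ C, ψ c = ψ₀ c := by
  choose a haP haC using h
  have key : ∀ x b, b ∈ P → x * b ∈ C → ψ₀ (x * b) = ψ₀ (x * a x) := by
    intro x b hb hxb
    have h1 : b * (a x)⁻¹ ∈ P := P.mul_mem hb (P.inv_mem (haP x))
    have h2 : b * (a x)⁻¹ ∈ C := by
      have : b * (a x)⁻¹ = (x * b) * (x * a x)⁻¹ := by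
        rw [mul_inv, mul_mul_mul_comm, mul_inv_cancel, one_mul]
      rw [this]
      exact C.mul_mem hxb (C.inv_mem (haC x))
    have h3 := h0 _ h1 h2
    have h4 : x * b = (x * a x) * (b * (a x)⁻¹) := by
      rw [mul_mul_mul_comm, mul_inv_cancel, mul_one]
    rw [h4, map_mul, h3, mul_one]
  refine ⟨{ toFun := fun x => ψ₀ (x * a x), map_one' := ?_, map_mul' := ?_ }, ?_, ?_⟩
  · rw [← key 1 1 P.one_mem (by rw [mul_one]; exact C.one_mem), mul_one, map_one]
  · intro x y
    rw [← key (x * y) (a x * a y) (P.mul_mem (haP x) (haP y))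
      (by rw [mul_mul_mul_comm]; exact C.mul_mem (haC x) (haC y)), mul_mul_mul_comm, map_mul]
  · intro b hb
    show ψ₀ (b * a b) = 1
    rw [← key b b⁻¹ (P.inv_mem hb) (by rw [mul_inv_cancel]; exact C.one_mem), mul_inv_cancel,
      map_one]
  · intro c hc
    show ψ₀ (c * a c) = ψ₀ c
    rw [← key c 1 P.one_mem (by rw [mul_one]; exact hc), mul_one]

end Abstract

section Congr

variable {K : Type*} [Field K] [NumberField K]

/-- an element of `K_v` congruent to `1` modulo something of valuation `< 1` is a unit. -/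
theorem valued_eq_one_of_sub_one_lt {v : HeightOneSpectrum (𝓞 K)} {z : v.adicCompletion K}
    (hz : Valued.v (z - 1) < 1) : Valued.v z = 1 := by
  have h1 : z = (z - 1) + 1 := by ring
  rw [h1, Valuation.map_add_eq_of_lt_right]
  · exact map_one _
  · rwa [map_one]

theorem valued_natCast_lt_one_iff (v : HeightOneSpectrum (𝓞 K)) (m : 𝓞 K) :
    Valued.v (algebraMap K (v.adicCompletion K) (m : K)) < 1 ↔ m ∈ v.asIdeal := by
  rw [adicLF_valued_algebraMap]
  exact HeightOneSpectrum.valuation_lt_one_iff_mem v m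

/-- the ideles congruent to `1` modulo `m` at all places dividing `m`. -/
noncomputable def congrIdeles (m : 𝓞 K) : Subgroup (baseIdeleGroup K) where
  carrier := {x | ∀ v : HeightOneSpectrum (𝓞 K), m ∈ v.asIdeal →
    Valued.v ((x.1 v : v.adicCompletion K) - 1) ≤
      Valued.v (algebraMap K (v.adicCompletion K) (m : K))}
  one_mem' := by
    intro v _
    show Valued.v (((1 : (v.adicCompletion K)ˣ) : v.adicCompletion K) - 1) ≤ _
    rw [Units.val_one, sub_self, map_zero]
    exact zero_le
  mul_mem' := by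
    intro x y hx hy v hv
    have hm := (valued_natCast_lt_one_iff v m).mpr hv
    have hx1 := hx v hv
    have hy1 := hy v hv
    have hyu : Valued.v (y.1 v : v.adicCompletion K) = 1 :=
      valued_eq_one_of_sub_one_lt (hy1.trans_lt hm)
    show Valued.v (((x.1 v * y.1 v : (v.adicCompletion K)ˣ) : v.adicCompletion K) - 1) ≤ _
    have h1 : ((x.1 v * y.1 v : (v.adicCompletion K)ˣ) : v.adicCompletion K) - 1 =
        ((x.1 v : v.adicCompletion K) - 1) * (y.1 v : v.adicCompletion K) +
          ((y.1 v : v.adicCompletion K) - 1) := by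
      rw [Units.val_mul]; ring
    rw [h1]
    refine (Valuation.map_add _ _ _).trans (max_le ?_ hy1)
    rw [map_mul, hyu, mul_one]
    exact hx1
  inv_mem' := by
    intro x hx v hv
    have hm := (valued_natCast_lt_one_iff v m).mpr hv
    have hx1 := hx v hv
    have hxu : Valued.v (x.1 v : v.adicCompletion K) = 1 :=
      valued_eq_one_of_sub_one_lt (hx1.trans_lt hm)
    show Valued.v ((((x.1 v)⁻¹ : (v.adicCompletion K)ˣ) : v.adicCompletion K) - 1) ≤ _
    have h1 : (((x.1 v)⁻¹ : (v.adicCompletion K)ˣ) : v.adicCompletion K) - 1 =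
        -(((x.1 v : v.adicCompletion K) - 1) *
          (((x.1 v)⁻¹ : (v.adicCompletion K)ˣ) : v.adicCompletion K)) := by
      rw [sub_mul, Units.mul_inv]; ring
    rw [h1, Valuation.map_neg, map_mul, Units.val_inv_eq_inv_val, map_inv₀, hxu, inv_one, mul_one]
    exact hx1

theorem mem_congrIdeles_iff (m : 𝓞 K) (x : baseIdeleGroup K) :
    x ∈ congrIdeles m ↔ ∀ v : HeightOneSpectrum (𝓞 K), m ∈ v.asIdeal →
      Valued.v ((x.1 v : v.adicCompletion K) - 1) ≤
        Valued.v (algebraMap K (v.adicCompletion K) (m : K)) := Iff.rfl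

/-- an idele congruent to `1` modulo `m` is a unit at the places dividing `m`. -/
theorem baseOrd_eq_zero_of_mem_congrIdeles {m : 𝓞 K} {x : baseIdeleGroup K}
    (hx : x ∈ congrIdeles m) {v : HeightOneSpectrum (𝓞 K)} (hv : m ∈ v.asIdeal) :
    baseOrd v (x.1 v) = 0 := by
  rw [baseOrd_eq_zero_iff, mem_baseLocalUnits_iff]
  exact valued_eq_one_of_sub_one_lt ((hx v hv).trans_lt ((valued_natCast_lt_one_iff v m).mpr hv))

theorem baseIdeleSingle_mem_congrIdeles {m : 𝓞 K} {v : HeightOneSpectrum (𝓞 K)}
    (hv : m ∉ v.asIdeal) (u : (v.adicCompletion K)ˣ) : baseIdeleSingle K v u ∈ congrIdeles m := by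
  intro w hw
  have hne : w ≠ v := by
    rintro rfl
    exact hv hw
  rw [baseIdeleSingle_apply_of_ne hne, Units.val_one, sub_self, map_zero]
  exact zero_le

/-- local density: every element of `(K_v)ˣ` is, up to a factor congruent to `1` modulo `m`,
the inverse of an element of `Kˣ`. -/
theorem exists_units_valued_mul_sub_one_le (m : 𝓞 K) (hm : m ≠ 0) (v : HeightOneSpectrum (𝓞 K))
    (u : (v.adicCompletion K)ˣ) :
    ∃ y : Kˣ, Valued.v (algebraMap K (v.adicCompletion K) (y : K) * (u : v.adicCompletion K) - 1) ≤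
      Valued.v (algebraMap K (v.adicCompletion K) (m : K)) := by
  set c : v.adicCompletion K := ((u⁻¹ : (v.adicCompletion K)ˣ) : v.adicCompletion K) with hc
  have hc0 : c ≠ 0 := (u⁻¹).ne_zero
  have hmK : (m : K) ≠ 0 := by
    rw [Ne, ← map_zero (algebraMap (𝓞 K) K)]
    exact fun h => hm (RingOfIntegers.coe_injective h)
  set t : v.adicCompletion K := algebraMap K (v.adicCompletion K) (m : K) * c with ht
  have ht0 : t ≠ 0 := mul_ne_zero ((map_ne_zero _).mpr hmK) hc0
  have hopen : IsOpen {y : v.adicCompletion K | Valued.v ((y - c) / t) < 1} :=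
    (adicLF_isOpen_ball K v).preimage ((continuous_id.sub continuous_const).div_const t)
  obtain ⟨k, hk⟩ := (HeightOneSpectrum.denseRange_algebraMap K v).exists_mem_open hopen
    ⟨c, by simp⟩
  have hk' : Valued.v (algebraMap K (v.adicCompletion K) k - c) < Valued.v t := by
    have : Valued.v ((algebraMap K (v.adicCompletion K) k - c) / t) < 1 := hk
    rwa [map_div₀, div_lt_one₀ (zero_lt_iff.mpr ((Valuation.ne_zero_iff _).mpr ht0))] at this
  have hm1 : Valued.v (algebraMap K (v.adicCompletion K) (m : K)) ≤ 1 := by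
    rw [adicLF_valued_algebraMap]
    exact HeightOneSpectrum.valuation_le_one v m
  have hcne : Valued.v c ≠ 0 := (Valuation.ne_zero_iff _).mpr hc0
  have htc : Valued.v t ≤ Valued.v c := by
    rw [ht, map_mul]
    exact mul_le_of_le_one_left (zero_le) hm1
  have hk0 : k ≠ 0 := by
    rintro rfl
    rw [map_zero, zero_sub, Valuation.map_neg] at hk'
    exact absurd (hk'.trans_le htc) (lt_irrefl _)
  refine ⟨Units.mk0 k hk0, ?_⟩
  rw [Units.val_mk0]
  have h1 : algebraMap K (v.adicCompletion K) k * (u : v.adicCompletion K) - 1 =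
      (algebraMap K (v.adicCompletion K) k - c) * (u : v.adicCompletion K) := by
    rw [sub_mul, hc, Units.inv_mul]
  have hcu : Valued.v c * Valued.v (u : v.adicCompletion K) = 1 := by
    rw [← map_mul, hc, Units.inv_mul, map_one]
  rw [h1, map_mul]
  calc Valued.v (algebraMap K (v.adicCompletion K) k - c) * Valued.v (u : v.adicCompletion K)
      ≤ Valued.v t * Valued.v (u : v.adicCompletion K) := mul_le_mul' hk'.le le_rfl
    _ = Valued.v (algebraMap K (v.adicCompletion K) (m : K)) := by
        rw [ht, map_mul, mul_assoc, hcu, mul_one]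

/-- `J_K = Kˣ · J_K^{(m)}`. -/
theorem exists_mul_diagBase_mem_congrIdeles (m : 𝓞 K) (hm : m ≠ 0) (x : baseIdeleGroup K) :
    ∃ a : Kˣ, x * diagBase K a ∈ congrIdeles m := by
  classical
  have hfin : {v : HeightOneSpectrum (𝓞 K) | v.intValuation m < 1}.Finite :=
    finite_setOf_intValuation_lt_one hm
  set S : Finset (HeightOneSpectrum (𝓞 K)) := hfin.toFinset with hS
  have hSmem : ∀ v : HeightOneSpectrum (𝓞 K), m ∈ v.asIdeal → v ∈ S := by
    intro v hv
    rw [hS, Set.Finite.mem_toFinset, Set.mem_ofPred_eq]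
    exact (HeightOneSpectrum.intValuation_lt_one_iff_mem v m).mpr hv
  choose y hy using fun v => exists_units_valued_mul_sub_one_le m hm v (x.1 v)
  have hmK : (m : K) ≠ 0 := by
    rw [Ne, ← map_zero (algebraMap (𝓞 K) K)]
    exact fun h => hm (RingOfIntegers.coe_injective h)
  obtain ⟨a, ha, -⟩ := exists_forall_valuation_sub_le K S (fun v => ((y v : Kˣ) : K))
    (fun v => -(log (v.valuation K (m : K)) + log (v.valuation K ((y v : Kˣ) : K))))
  have hval : ∀ v : HeightOneSpectrum (𝓞 K), exp (-(-(log (v.valuation K (m : K)) +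
      log (v.valuation K ((y v : Kˣ) : K))))) =
      v.valuation K (m : K) * v.valuation K ((y v : Kˣ) : K) := by
    intro v
    rw [neg_neg, exp_add, exp_log ((Valuation.ne_zero_iff _).mpr hmK),
      exp_log ((Valuation.ne_zero_iff _).mpr (y v).ne_zero)]
  -- the key estimate at the places dividing `m`
  have hkey : ∀ v : HeightOneSpectrum (𝓞 K), m ∈ v.asIdeal →
      Valued.v (algebraMap K (v.adicCompletion K) a * (x.1 v : v.adicCompletion K) - 1) ≤
        Valued.v (algebraMap K (v.adicCompletion K) (m : K)) := by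
    intro v hv
    have hmlt := (valued_natCast_lt_one_iff v m).mpr hv
    have h1 := ha v (hSmem v hv)
    rw [hval v] at h1
    have hyu : Valued.v (algebraMap K (v.adicCompletion K) ((y v : Kˣ) : K) *
        (x.1 v : v.adicCompletion K)) = 1 :=
      valued_eq_one_of_sub_one_lt ((hy v).trans_lt hmlt)
    have h2 : algebraMap K (v.adicCompletion K) a * (x.1 v : v.adicCompletion K) - 1 =
        algebraMap K (v.adicCompletion K) (a - ((y v : Kˣ) : K)) * (x.1 v : v.adicCompletion K) +
          (algebraMap K (v.adicCompletion K) ((y v : Kˣ) : K) * (x.1 v : v.adicCompletion K) - 1) := by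
      rw [map_sub]; ring
    rw [h2]
    refine (Valuation.map_add _ _ _).trans (max_le ?_ (hy v))
    rw [map_mul, adicLF_valued_algebraMap]
    calc v.valuation K (a - ((y v : Kˣ) : K)) * Valued.v (x.1 v : v.adicCompletion K)
        ≤ (v.valuation K (m : K) * v.valuation K ((y v : Kˣ) : K)) *
          Valued.v (x.1 v : v.adicCompletion K) := mul_le_mul' h1 le_rfl
      _ = Valued.v (algebraMap K (v.adicCompletion K) (m : K)) := by
          rw [map_mul, adicLF_valued_algebraMap] at hyu
          rw [mul_assoc, hyu, mul_one, adicLF_valued_algebraMap]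
  by_cases hSne : S.Nonempty
  · obtain ⟨v0, hv0⟩ := hSne
    have hv0m : m ∈ v0.asIdeal := by
      rw [hS, Set.Finite.mem_toFinset, Set.mem_ofPred_eq] at hv0
      exact (HeightOneSpectrum.intValuation_lt_one_iff_mem v0 m).mp hv0
    have ha0 : a ≠ 0 := by
      rintro rfl
      have := hkey v0 hv0m
      rw [map_zero, zero_mul, zero_sub, Valuation.map_neg, map_one] at this
      exact absurd ((valued_natCast_lt_one_iff v0 m).mpr hv0m) (not_lt.mpr this)
    refine ⟨Units.mk0 a ha0, fun v hv => ?_⟩
    show Valued.v (((x.1 v * (diagBase K (Units.mk0 a ha0)).1 v : (v.adicCompletion K)ˣ) :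
      v.adicCompletion K) - 1) ≤ _
    rw [diagBase_apply, Units.val_mul, Units.coe_map, MonoidHom.coe_coe, Units.val_mk0, mul_comm]
    exact hkey v hv
  · refine ⟨1, fun v hv => ?_⟩
    exact absurd ⟨v, hSmem v hv⟩ hSne

end Congr

end Fermat.Agent.CFT
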