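import Mathlib
import Fermat.Agent.CFT.Idele.IdeleCongr
import Fermat.Agent.CFT.Global.ArtinFunctorial

set_option autoImplicit false
set_option linter.unusedSectionVars false

/-!
# CFT, S55 global-idelic stream, chunk (GL13b), part 3: the idelic Artin map of an abelian
extension with an admissible modulus

`L / K` abelian, `m : 𝓞 K` nonzero.  `artinAway K L m : J_K →* Gal(L/K)` is
`x ↦ ∏_{v ∤ m} Frob_v ^ ord_v (x_v)`.  `m` is an *Artin modulus* (`IsArtinModulus`) if this map
kills the principal ideles congruent to `1` modulo `m`; then there is a unique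
`ideleArtin : J_K →* Gal(L/K)` which is trivial on `Kˣ` and agrees with `artinAway` on the ideles
congruent to `1` modulo `m`; in particular it is `u ↦ Frob_v ^ ord_v u` on `(K_v)ˣ`, `v ∤ m`.
`IsIntegralArtinModulus` (the ideal-theoretic reciprocity law `(b) ↦ 1` for `b ≡ 1 mod m`)
implies `IsArtinModulus`.
-/

open NumberField IsDedekindDomain WithZero
open scoped Pointwise IsMulCommutative

namespace Fermat.Agent.CFT

section Count

variable (K L : Type*) [Field K] [NumberField K] [Field L] [NumberField L] [Algebra K L]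
  [IsGalois K L] [IsMulCommutative Gal(L/K)]

/-- the Artin symbol of an ideal as a product over the height one spectrum. -/
theorem artinIdeal_eq_finprod_count {I : Ideal (𝓞 K)} (hI : I ≠ ⊥) :
    artinIdeal K L I = ∏ᶠ v : HeightOneSpectrum (𝓞 K),
      frobOf K L v.asIdeal ^ ((Associates.mk v.asIdeal).count (Associates.mk I).factors) := by
  have hfin : (Function.mulSupport fun v : HeightOneSpectrum (𝓞 K) => v.maxPowDividing I).Finite :=
    Ideal.hasFiniteMulSupport hI
  have hfac := Ideal.finprod_heightOneSpectrum_factorization hI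
  rw [finprod_eq_prod_of_mulSupport_subset (s := hfin.toFinset) _
    (by rw [Set.Finite.coe_toFinset])] at hfac
  have hsub : (Function.mulSupport fun v : HeightOneSpectrum (𝓞 K) =>
      frobOf K L v.asIdeal ^ ((Associates.mk v.asIdeal).count (Associates.mk I).factors)) ⊆
      ↑hfin.toFinset := by
    intro v hv
    rw [Function.mem_mulSupport] at hv
    rw [Set.Finite.coe_toFinset, Function.mem_mulSupport]
    intro h1
    rw [Ideal.one_eq_top] at h1
    apply hv
    have h0 : (Associates.mk v.asIdeal).count (Associates.mk I).factors = 0 := by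
      by_contra hne
      rw [HeightOneSpectrum.maxPowDividing] at h1
      have hle : v.asIdeal ^ (Associates.mk v.asIdeal).count (Associates.mk I).factors ≤ v.asIdeal :=
        Ideal.pow_le_self hne
      rw [h1] at hle
      exact v.isPrime.ne_top (top_le_iff.mp hle)
    rw [h0, pow_zero]
  rw [finprod_eq_prod_of_mulSupport_subset _ hsub]
  conv_lhs => rw [← hfac]
  rw [artinIdeal_prod K L _ _ fun v _ => ?_]
  · refine Finset.prod_congr rfl fun v _ => ?_
    rw [HeightOneSpectrum.maxPowDividing, artinIdeal_pow K L v.ne_bot, artinIdeal_of_isMaximal]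
  · rw [HeightOneSpectrum.maxPowDividing]
    exact pow_ne_zero _ v.ne_bot

end Count

section Def

variable (K L : Type*) [Field K] [NumberField K] [Field L] [NumberField L] [Algebra K L]
  [IsGalois K L] [IsMulCommutative Gal(L/K)]

open Classical in
/-- the Frobenius at `v`, or `1` if `v` divides `m`. -/
noncomputable def frobAway (m : 𝓞 K) (v : HeightOneSpectrum (𝓞 K)) : Gal(L/K) :=
  if m ∈ v.asIdeal then 1 else frobOf K L v.asIdeal

theorem frobAway_of_mem {m : 𝓞 K} {v : HeightOneSpectrum (𝓞 K)} (h : m ∈ v.asIdeal) :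
    frobAway K L m v = 1 := by
  rw [frobAway, if_pos h]

theorem frobAway_of_not_mem {m : 𝓞 K} {v : HeightOneSpectrum (𝓞 K)} (h : m ∉ v.asIdeal) :
    frobAway K L m v = frobOf K L v.asIdeal := by
  rw [frobAway, if_neg h]

/-- `x ↦ ∏_{v ∤ m} Frob_v ^ ord_v (x_v)`. -/
noncomputable def artinAway (m : 𝓞 K) : baseIdeleGroup K →* Gal(L/K) :=
  ideleProd (frobAway K L m)

theorem artinAway_apply (m : 𝓞 K) (x : baseIdeleGroup K) :
    artinAway K L m x = ∏ᶠ v, frobAway K L m v ^ baseOrd v (x.1 v) := rfl

theorem artinAway_baseIdeleSingle {m : 𝓞 K} {v : HeightOneSpectrum (𝓞 K)} (hv : m ∉ v.asIdeal)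
    (u : (v.adicCompletion K)ˣ) :
    artinAway K L m (baseIdeleSingle K v u) = frobOf K L v.asIdeal ^ baseOrd v u := by
  rw [artinAway, ideleProd_baseIdeleSingle, frobAway_of_not_mem K L hv]

/-- on principal ideles of integers prime to `m`, `artinAway` is the ideal-theoretic Artin
symbol. -/
theorem artinAway_diagBase_of_integral (m b : 𝓞 K) (hb0 : (b : K) ≠ 0)
    (hb : ∀ v : HeightOneSpectrum (𝓞 K), m ∈ v.asIdeal → b ∉ v.asIdeal) :
    artinAway K L m (diagBase K (Units.mk0 (b : K) hb0)) = artinIdeal K L (Ideal.span {b}) := by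
  have hb0' : b ≠ 0 := by
    rintro rfl
    exact hb0 (map_zero _)
  have hI : Ideal.span {b} ≠ (⊥ : Ideal (𝓞 K)) := by
    rwa [Ne, Ideal.span_singleton_eq_bot]
  rw [artinAway_apply, artinIdeal_eq_finprod_count K L hI]
  refine finprod_congr fun v => ?_
  have hord : baseOrd v ((diagBase K (Units.mk0 (b : K) hb0)).1 v) =
      ((Associates.mk v.asIdeal).count (Associates.mk (Ideal.span {b})).factors : ℤ) := by
    rw [diagBase_apply, baseOrd_algebraMap, Units.val_mk0,
      HeightOneSpectrum.valuation_of_algebraMap, HeightOneSpectrum.intValuation_if_neg v hb0']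
  rw [hord, zpow_natCast]
  by_cases hv : m ∈ v.asIdeal
  · rw [frobAway_of_mem K L hv, one_pow]
    have h1 : v.intValuation b = 1 := by
      refine le_antisymm (v.intValuation_le_one b) (not_lt.mp fun hlt => hb v hv ?_)
      exact (HeightOneSpectrum.intValuation_lt_one_iff_mem v b).mp hlt
    rw [HeightOneSpectrum.intValuation_if_neg v hb0', ← exp_zero, exp_inj, neg_eq_zero] at h1
    have h2 : (Associates.mk v.asIdeal).count (Associates.mk (Ideal.span {b})).factors = 0 := by
      exact_mod_cast h1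
    rw [h2, pow_zero]
  · rw [frobAway_of_not_mem K L hv]

/-- `m` is an Artin modulus for `L / K`: the principal ideles congruent to `1` modulo `m` are
killed by `artinAway`. -/
def IsArtinModulus (m : 𝓞 K) : Prop :=
  ∀ a : Kˣ, diagBase K a ∈ congrIdeles m → artinAway K L m (diagBase K a) = 1

/-- the ideal-theoretic reciprocity law with modulus `m`. -/
def IsIntegralArtinModulus (m : 𝓞 K) : Prop :=
  ∀ b : 𝓞 K, b - 1 ∈ Ideal.span {m} → artinIdeal K L (Ideal.span {b}) = 1

variable {K L}

theorem exists_ideleArtin {m : 𝓞 K} (hm0 : m ≠ 0) (hm : IsArtinModulus K L m) :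
    ∃ ψ : baseIdeleGroup K →* Gal(L/K), (∀ a : Kˣ, ψ (diagBase K a) = 1) ∧
      ∀ x ∈ congrIdeles m, ψ x = artinAway K L m x := by
  obtain ⟨ψ, h1, h2⟩ := exists_monoidHom_extend_of_forall_exists_mul_mem
    (diagBase K).range (congrIdeles m)
    (fun x => by
      obtain ⟨a, ha⟩ := exists_mul_diagBase_mem_congrIdeles m hm0 x
      exact ⟨diagBase K a, ⟨a, rfl⟩, ha⟩)
    (artinAway K L m)
    (by
      rintro _ ⟨a, rfl⟩ ha
      exact hm a ha)
  exact ⟨ψ, fun a => h1 _ ⟨a, rfl⟩, h2⟩

/-- **the idelic Artin map** of `L / K` attached to an Artin modulus `m`. -/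
noncomputable def ideleArtin {m : 𝓞 K} (hm0 : m ≠ 0) (hm : IsArtinModulus K L m) :
    baseIdeleGroup K →* Gal(L/K) :=
  (exists_ideleArtin hm0 hm).choose

/-- (P1) **reciprocity**: the idelic Artin map is trivial on principal ideles. -/
theorem ideleArtin_diagBase {m : 𝓞 K} (hm0 : m ≠ 0) (hm : IsArtinModulus K L m) (a : Kˣ) :
    ideleArtin hm0 hm (diagBase K a) = 1 :=
  (exists_ideleArtin hm0 hm).choose_spec.1 a

/-- (P2') on ideles congruent to `1` modulo `m` the idelic Artin map is the product of the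
Frobenius elements. -/
theorem ideleArtin_of_mem_congrIdeles {m : 𝓞 K} (hm0 : m ≠ 0) (hm : IsArtinModulus K L m)
    {x : baseIdeleGroup K} (hx : x ∈ congrIdeles m) :
    ideleArtin hm0 hm x = artinAway K L m x :=
  (exists_ideleArtin hm0 hm).choose_spec.2 x hx

/-- (P2) the local component at a place `v ∤ m` is `u ↦ Frob_v ^ ord_v u`. -/
theorem ideleArtin_baseIdeleSingle {m : 𝓞 K} (hm0 : m ≠ 0) (hm : IsArtinModulus K L m)
    {v : HeightOneSpectrum (𝓞 K)} (hv : m ∉ v.asIdeal) (u : (v.adicCompletion K)ˣ) :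
    ideleArtin hm0 hm (baseIdeleSingle K v u) = frobOf K L v.asIdeal ^ baseOrd v u := by
  rw [ideleArtin_of_mem_congrIdeles hm0 hm (baseIdeleSingle_mem_congrIdeles hv u),
    artinAway_baseIdeleSingle K L hv]

/-- the value of the idelic Artin map through any approximation. -/
theorem ideleArtin_eq_of_mul_mem {m : 𝓞 K} (hm0 : m ≠ 0) (hm : IsArtinModulus K L m)
    (x : baseIdeleGroup K) (a : Kˣ) (ha : x * diagBase K a ∈ congrIdeles m) :
    ideleArtin hm0 hm x = artinAway K L m (x * diagBase K a) := by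
  rw [← ideleArtin_of_mem_congrIdeles hm0 hm ha, map_mul, ideleArtin_diagBase, mul_one]

/-- uniqueness of the idelic Artin map. -/
theorem ideleArtin_unique {m : 𝓞 K} (hm0 : m ≠ 0) (hm : IsArtinModulus K L m)
    (ψ : baseIdeleGroup K →* Gal(L/K)) (h1 : ∀ a : Kˣ, ψ (diagBase K a) = 1)
    (h2 : ∀ x ∈ congrIdeles m, ψ x = artinAway K L m x) : ψ = ideleArtin hm0 hm := by
  ext x
  obtain ⟨a, ha⟩ := exists_mul_diagBase_mem_congrIdeles m hm0 x
  rw [ideleArtin_eq_of_mul_mem hm0 hm x a ha, ← h2 _ ha, map_mul, h1, mul_one]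

end Def

end Fermat.Agent.CFT
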