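import Mathlib
import Fermat.Agent.CFT.Idele.IdeleArtin

set_option autoImplicit false
set_option linter.unusedSectionVars false

/-!
# CFT, S55 global-idelic stream, chunk (GL13b), part 4: from the ideal-theoretic reciprocity law
to the idelic one

`IsIntegralArtinModulus K L m → IsArtinModulus K L m` (if some prime divides `m`): an element of
`Kˣ` congruent to `1` modulo `m` is a quotient of integers congruent to `1` modulo `m`.
-/
open NumberField IsDedekindDomain WithZero
open scoped Pointwise IsMulCommutative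

namespace Fermat.Agent.CFT

section Fraction

variable {K : Type*} [Field K] [NumberField K]

/-- divisibility by `m` can be tested at the primes dividing `m`. -/
theorem mem_span_singleton_of_forall_valuation_le {m x : 𝓞 K} (hm : m ≠ 0)
    (h : ∀ v : HeightOneSpectrum (𝓞 K), m ∈ v.asIdeal →
      v.valuation K (x : K) ≤ v.valuation K (m : K)) : x ∈ Ideal.span {m} := by
  have hmK : (m : K) ≠ 0 := by
    rw [Ne, ← map_zero (algebraMap (𝓞 K) K)]
    exact fun h => hm (RingOfIntegers.coe_injective h)
  have hint : ∀ v : HeightOneSpectrum (𝓞 K), v.valuation K ((x : K) / (m : K)) ≤ 1 := by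
    intro v
    rw [map_div₀, div_le_one₀ (zero_lt_iff.mpr ((Valuation.ne_zero_iff _).mpr hmK))]
    by_cases hv : m ∈ v.asIdeal
    · exact h v hv
    · have h1 : v.valuation K (m : K) = 1 := by
        refine le_antisymm (v.valuation_le_one m) (not_lt.mp fun hlt => hv ?_)
        exact (HeightOneSpectrum.valuation_lt_one_iff_mem v m).mp hlt
      rw [h1]
      exact v.valuation_le_one x
  obtain ⟨r, hr⟩ := HeightOneSpectrum.mem_integers_of_valuation_le_one (R := 𝓞 K) K _ hint
  rw [Ideal.mem_span_singleton]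
  refine ⟨r, ?_⟩
  apply RingOfIntegers.coe_injective
  show (x : K) = algebraMap (𝓞 K) K (m * r)
  rw [map_mul, hr]
  show (x : K) = (m : K) * ((x : K) / (m : K))
  rw [mul_div_cancel₀ _ hmK]

/-- the valuation form of membership in `congrIdeles` for principal ideles. -/
theorem diagBase_mem_congrIdeles_iff (m : 𝓞 K) (a : Kˣ) :
    diagBase K a ∈ congrIdeles m ↔ ∀ v : HeightOneSpectrum (𝓞 K), m ∈ v.asIdeal →
      v.valuation K ((a : K) - 1) ≤ v.valuation K (m : K) := by
  rw [mem_congrIdeles_iff]
  refine forall_congr' fun v => imp_congr_right fun _ => ?_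
  rw [diagBase_apply, Units.coe_map, MonoidHom.coe_coe, adicLF_valued_algebraMap,
    ← (algebraMap K (v.adicCompletion K)).map_one, ← map_sub, adicLF_valued_algebraMap]

/-- an element of `Kˣ` congruent to `1` modulo `m` is a quotient `b / c` of integers congruent
to `1` modulo `m`. -/
theorem exists_integral_fraction_of_mem_congrIdeles {m : 𝓞 K} (hm : m ≠ 0) (a : Kˣ)
    (ha : diagBase K a ∈ congrIdeles m)
    (hv0 : ∃ v : HeightOneSpectrum (𝓞 K), m ∈ v.asIdeal) :
    ∃ b c : 𝓞 K, (c : K) ≠ 0 ∧ (b : K) = (c : K) * (a : K) ∧ c - 1 ∈ Ideal.span {m} ∧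
      b - 1 ∈ Ideal.span {m} := by
  classical
  rw [diagBase_mem_congrIdeles_iff] at ha
  have hmK : (m : K) ≠ 0 := by
    rw [Ne, ← map_zero (algebraMap (𝓞 K) K)]
    exact fun h => hm (RingOfIntegers.coe_injective h)
  -- `a` is a unit at the primes dividing `m`
  have haunit : ∀ v : HeightOneSpectrum (𝓞 K), m ∈ v.asIdeal → v.valuation K (a : K) = 1 := by
    intro v hv
    have hlt : v.valuation K ((a : K) - 1) < 1 :=
      (ha v hv).trans_lt ((HeightOneSpectrum.valuation_lt_one_iff_mem v m).mpr hv)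
    have h1 : (a : K) = ((a : K) - 1) + 1 := by ring
    rw [h1, Valuation.map_add_eq_of_lt_right]
    · exact map_one _
    · rwa [map_one]
  have hfin1 : {v : HeightOneSpectrum (𝓞 K) | v.intValuation m < 1}.Finite :=
    finite_setOf_intValuation_lt_one hm
  have hfin2 : {v : HeightOneSpectrum (𝓞 K) | v.valuation K (a : K) ≠ 1}.Finite :=
    finite_setOf_valuation_ne_one K a.ne_zero
  set S : Finset (HeightOneSpectrum (𝓞 K)) := hfin1.toFinset ∪ hfin2.toFinset with hS
  set t : HeightOneSpectrum (𝓞 K) → 𝓞 K := fun v => if m ∈ v.asIdeal then 1 else 0 with ht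
  set n : HeightOneSpectrum (𝓞 K) → ℕ := fun v =>
    Int.toNat (-log (v.valuation K (m : K))) + Int.toNat (log (v.valuation K (a : K))) with hn
  obtain ⟨c, hc⟩ := exists_forall_intValuation_sub_le S t n
  -- the two bounds satisfied by the precision
  have hn1 : ∀ v : HeightOneSpectrum (𝓞 K), exp (-(n v : ℤ)) ≤ v.valuation K (m : K) := by
    intro v
    conv_rhs => rw [← exp_log ((Valuation.ne_zero_iff (v.valuation K)).mpr hmK)]
    rw [exp_le_exp, hn]
    simp only
    push_cast
    omega
  have hn2 : ∀ v : HeightOneSpectrum (𝓞 K), exp (-(n v : ℤ)) * v.valuation K (a : K) ≤ 1 := by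
    intro v
    conv_lhs => rw [← exp_log ((Valuation.ne_zero_iff (v.valuation K)).mpr a.ne_zero)]
    rw [← exp_add, ← exp_zero, exp_le_exp, hn]
    simp only
    push_cast
    omega
  have hSm : ∀ v : HeightOneSpectrum (𝓞 K), m ∈ v.asIdeal → v ∈ S := by
    intro v hv
    rw [hS, Finset.mem_union, Set.Finite.mem_toFinset, Set.mem_ofPred_eq]
    exact Or.inl ((HeightOneSpectrum.intValuation_lt_one_iff_mem v m).mpr hv)
  -- `c ≡ 1 mod m`
  have hc1 : ∀ v : HeightOneSpectrum (𝓞 K), m ∈ v.asIdeal →
      v.valuation K ((c - 1 : 𝓞 K) : K) ≤ v.valuation K (m : K) := by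
    intro v hv
    have := hc v (hSm v hv)
    rw [ht] at this
    simp only [if_pos hv] at this
    rw [HeightOneSpectrum.valuation_of_algebraMap]
    exact this.trans (hn1 v)
  have hcm : c - 1 ∈ Ideal.span {m} := mem_span_singleton_of_forall_valuation_le hm hc1
  -- `c ≠ 0`
  obtain ⟨v0, hv0⟩ := hv0
  have hc0 : c ≠ 0 := by
    rintro rfl
    have h1 : (0 - 1 : 𝓞 K) ∈ v0.asIdeal :=
      (Ideal.span_singleton_le_iff_mem (I := v0.asIdeal)).mpr hv0 hcm
    rw [zero_sub, neg_mem_iff] at h1
    exact v0.isPrime.ne_top ((Ideal.eq_top_iff_one _).mpr h1)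
  have hcK : (c : K) ≠ 0 := by
    rw [Ne, ← map_zero (algebraMap (𝓞 K) K)]
    exact fun h => hc0 (RingOfIntegers.coe_injective h)
  -- `c a` is integral
  have hint : ∀ v : HeightOneSpectrum (𝓞 K), v.valuation K ((c : K) * (a : K)) ≤ 1 := by
    intro v
    rw [map_mul]
    by_cases hva : v.valuation K (a : K) ≤ 1
    · exact mul_le_one' (v.valuation_le_one c) hva
    · have hvS : v ∈ S := by
        rw [hS, Finset.mem_union, Set.Finite.mem_toFinset, Set.Finite.mem_toFinset,
          Set.mem_ofPred_eq, Set.mem_ofPred_eq]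
        right
        intro h1
        exact hva h1.le
      have hvm : m ∉ v.asIdeal := fun hv => hva (haunit v hv).le
      have := hc v hvS
      rw [ht] at this
      simp only [if_neg hvm, sub_zero] at this
      rw [HeightOneSpectrum.valuation_of_algebraMap]
      exact (mul_le_mul' this le_rfl).trans (hn2 v)
  obtain ⟨b, hb⟩ := HeightOneSpectrum.mem_integers_of_valuation_le_one (R := 𝓞 K) K _ hint
  have hb' : (b : K) = (c : K) * (a : K) := hb
  refine ⟨b, c, hcK, hb', hcm, mem_span_singleton_of_forall_valuation_le hm fun v hv => ?_⟩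
  have h1 : ((b - 1 : 𝓞 K) : K) = (c : K) * ((a : K) - 1) + ((c - 1 : 𝓞 K) : K) := by
    have e1 : ((b - 1 : 𝓞 K) : K) = (b : K) - 1 := by push_cast; ring
    have e2 : ((c - 1 : 𝓞 K) : K) = (c : K) - 1 := by push_cast; ring
    rw [e1, e2, hb']
    ring
  rw [h1]
  refine (Valuation.map_add _ _ _).trans (max_le ?_ (hc1 v hv))
  rw [map_mul]
  exact (mul_le_mul' (v.valuation_le_one c) (ha v hv)).trans (by rw [one_mul])

end Fraction

section Recip

variable {K L : Type*} [Field K] [NumberField K] [Field L] [NumberField L] [Algebra K L]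
  [IsGalois K L] [IsMulCommutative Gal(L/K)]

/-- an integer congruent to `1` modulo `m` is prime to `m`. -/
theorem not_mem_of_sub_one_mem_span {m b : 𝓞 K} (hb : b - 1 ∈ Ideal.span {m})
    (v : HeightOneSpectrum (𝓞 K)) (hv : m ∈ v.asIdeal) : b ∉ v.asIdeal := by
  intro hbv
  have h1 : b - 1 ∈ v.asIdeal := (Ideal.span_singleton_le_iff_mem (I := v.asIdeal)).mpr hv hb
  have h2 : (1 : 𝓞 K) ∈ v.asIdeal := by
    have := v.asIdeal.sub_mem hbv h1
    rwa [sub_sub_cancel] at this
  exact v.isPrime.ne_top ((Ideal.eq_top_iff_one _).mpr h2)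

/-- the ideal-theoretic reciprocity law implies the idelic one. -/
theorem IsIntegralArtinModulus.isArtinModulus {m : 𝓞 K} (hm : m ≠ 0)
    (hv0 : ∃ v : HeightOneSpectrum (𝓞 K), m ∈ v.asIdeal) (h : IsIntegralArtinModulus K L m) :
    IsArtinModulus K L m := by
  intro a ha
  obtain ⟨b, c, hc0, hbc, hc, hb⟩ := exists_integral_fraction_of_mem_congrIdeles hm a ha hv0
  have hb0 : (b : K) ≠ 0 := by
    rw [hbc]
    exact mul_ne_zero hc0 a.ne_zero
  have hdiag : diagBase K a = diagBase K (Units.mk0 (b : K) hb0) *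
      (diagBase K (Units.mk0 (c : K) hc0))⁻¹ := by
    rw [← map_inv, ← map_mul]
    congr 1
    apply Units.ext
    rw [Units.val_mul, Units.val_mk0, Units.val_inv_eq_inv_val, Units.val_mk0, hbc]
    field_simp
  rw [hdiag, map_mul, map_inv,
    artinAway_diagBase_of_integral K L m b hb0 (not_mem_of_sub_one_mem_span hb),
    artinAway_diagBase_of_integral K L m c hc0 (not_mem_of_sub_one_mem_span hc), h b hb, h c hc,
    inv_one, mul_one]

end Recip

end Fermat.Agent.CFT
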