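import Mathlib
import Fermat.Agent.CFT.Idele.IdeleArtinRecip
import Fermat.Agent.CFT.Idele.ClassNumber
import Fermat.Agent.CFT.Idele.ClassGroup

set_option autoImplicit false
set_option linter.unusedSectionVars false

/-!
# S55, GLOBAL-IDELIC: orders and congruences of idele norms

`K` a number field, `L/K` a finite Galois extension, `v` a finite prime of `K`.

* `count_relNorm_mem`, `baseOrd_norm_mem`, `baseOrd_ideleNorm_mem` : the order at `v` of a norm
  (of an ideal, of an element of `Lˣ`, of an idele of `L`) lies in every subgroup of `ℤ` which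
  contains the residue degrees of the primes of `L` above `v`;
* `inertiaDegIn_dvd_baseOrd_ideleNorm` : it is a multiple of the residue degree `f_v`;
* `frobOf_zpow_baseOrd_ideleNorm` : at an unramified `v` it is killed by the Frobenius;
* `IsOneModLocal m v u` : `u ≡ 1 mod m O_{L,v}`; `valued_ideleNorm_sub_one_le` : then
  `N(u) ≡ 1 mod m`;
* `exists_diagIdele_mul_isOneModLocal` : weak approximation, every idele of `L` can be moved by
  a principal idele to one which is `≡ 1 mod m` at all places dividing `m`.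
-/

open NumberField IsDedekindDomain WithZero
open scoped Pointwise IsMulCommutative TensorProduct Fermat.Agent.CFT.TensorGal
  Fermat.Agent.CFT.IdeleAct

namespace Fermat.Agent.CFT

/-- the exponents killing an element of a group, as a subgroup of `ℤ`. -/
def zpowKer {G : Type*} [Group G] (g : G) : AddSubgroup ℤ where
  carrier := {n | g ^ n = 1}
  zero_mem' := zpow_zero g
  add_mem' := by
    intro a b ha hb
    simp only [Set.mem_ofPred_eq] at *
    rw [zpow_add, ha, hb, one_mul]
  neg_mem' := by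
    intro a ha
    simp only [Set.mem_ofPred_eq] at *
    rw [zpow_neg, ha, inv_one]

theorem mem_zpowKer {G : Type*} [Group G] (g : G) (n : ℤ) : n ∈ zpowKer g ↔ g ^ n = 1 := Iff.rfl

section RelNormCount

variable (K L : Type*) [Field K] [NumberField K] [Field L] [NumberField L] [Algebra K L]

/-- the exponent of `v` in a relative norm from `L` lies in every subgroup of `ℤ` containing the
residue degrees of the primes of `L` above `v`. -/
theorem count_relNorm_mem (v : HeightOneSpectrum (𝓞 K)) (H : AddSubgroup ℤ)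
    (hf : ∀ Q : Ideal (𝓞 L), Q.IsPrime → Q.LiesOver v.asIdeal → (Q.inertiaDeg (𝓞 K) : ℤ) ∈ H)
    (J : Ideal (𝓞 L)) (hJ : J ≠ ⊥) :
    (((Associates.mk v.asIdeal).count
      (Associates.mk (Ideal.relNorm (𝓞 K) J)).factors : ℕ) : ℤ) ∈ H := by
  suffices h : J ≠ ⊥ ∧ (((Associates.mk v.asIdeal).count
      (Associates.mk (Ideal.relNorm (𝓞 K) J)).factors : ℕ) : ℤ) ∈ H from h.2
  rw [← Ideal.prod_normalizedFactors_eq_self hJ]
  refine Multiset.prod_induction
    (fun I : Ideal (𝓞 L) => I ≠ ⊥ ∧ (((Associates.mk v.asIdeal).count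
      (Associates.mk (Ideal.relNorm (𝓞 K) I)).factors : ℕ) : ℤ) ∈ H) _ ?_ ?_ ?_
  · rintro I I' ⟨hI, hI1⟩ ⟨hI', hI'1⟩
    refine ⟨mul_ne_zero hI hI', ?_⟩
    have h1 : Ideal.relNorm (𝓞 K) I ≠ 0 := by rwa [Ne, Ideal.zero_eq_bot, Ideal.relNorm_eq_bot_iff]
    have h2 : Ideal.relNorm (𝓞 K) I' ≠ 0 := by rwa [Ne, Ideal.zero_eq_bot, Ideal.relNorm_eq_bot_iff]
    rw [map_mul, ← Associates.mk_mul_mk, Associates.count_mul (Associates.mk_ne_zero.mpr h1)
      (Associates.mk_ne_zero.mpr h2) v.associates_irreducible, Nat.cast_add]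
    exact H.add_mem hI1 hI'1
  · refine ⟨one_ne_zero, ?_⟩
    rw [map_one, Associates.mk_one, Associates.factors_one, Associates.count_zero
      v.associates_irreducible, Nat.cast_zero]
    exact H.zero_mem
  · intro Q hQ
    have hQ0 : Q ≠ ⊥ := UniqueFactorizationMonoid.ne_zero_of_mem_normalizedFactors hQ
    have hQp : Q.IsPrime := ((Ideal.mem_normalizedFactors_iff hJ).mp hQ).1
    have hQm : Q.IsMaximal := Ring.DimensionLEOne.maximalOfPrime hQ0 hQp
    refine ⟨hQ0, ?_⟩
    set 𝔮 : Ideal (𝓞 K) := Q.under (𝓞 K) with h𝔮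
    have h𝔮m : 𝔮.IsMaximal := Ideal.IsMaximal.under (𝓞 K) Q
    have hlo : Q.LiesOver 𝔮 := Ideal.over_under Q
    have h0 : 𝔮 ≠ ⊥ := Ring.ne_bot_of_isMaximal_of_not_isField h𝔮m (RingOfIntegers.not_isField K)
    rw [Ideal.relNorm_eq_pow_of_isMaximal Q 𝔮, Associates.mk_pow,
      Associates.count_pow (Associates.mk_ne_zero.mpr h0) v.associates_irreducible]
    by_cases hv : 𝔮 = v.asIdeal
    · have hlo' : Q.LiesOver v.asIdeal := hv ▸ hlo
      rw [hv, Associates.count_self v.associates_irreducible, mul_one]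
      exact hf Q hQp hlo'
    · set w : HeightOneSpectrum (𝓞 K) := ⟨𝔮, h𝔮m.isPrime, h0⟩ with hw
      have hne : Associates.mk v.asIdeal ≠ Associates.mk w.asIdeal := by
        intro h
        rw [Associates.mk_eq_mk_iff_associated, associated_iff_eq] at h
        exact hv h.symm
      have : (Associates.mk v.asIdeal).count (Associates.mk 𝔮).factors = 0 :=
        Associates.count_eq_zero_of_ne v.associates_irreducible w.associates_irreducible hne
      rw [this, mul_zero, Nat.cast_zero]
      exact H.zero_mem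

end RelNormCount

section GlobalNorm

variable {K L : Type*} [Field K] [NumberField K] [Field L] [NumberField L] [Algebra K L]

/-- the order at `v` of a nonzero integer of `K` is the exponent of `v` in its principal ideal. -/
theorem baseOrd_diagBase_integral (b : 𝓞 K) (hb0 : (b : K) ≠ 0) (v : HeightOneSpectrum (𝓞 K)) :
    baseOrd v ((diagBase K (Units.mk0 (b : K) hb0)).1 v) =
      ((Associates.mk v.asIdeal).count (Associates.mk (Ideal.span {b})).factors : ℤ) := by
  have hb0' : b ≠ 0 := by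
    rintro rfl
    exact hb0 (map_zero _)
  rw [diagBase_apply, baseOrd_algebraMap, Units.val_mk0,
    HeightOneSpectrum.valuation_of_algebraMap, HeightOneSpectrum.intValuation_if_neg v hb0']

/-- the norm of a nonzero integer of `L`. -/
theorem baseOrd_norm_integral_mem (v : HeightOneSpectrum (𝓞 K)) (H : AddSubgroup ℤ)
    (hf : ∀ Q : Ideal (𝓞 L), Q.IsPrime → Q.LiesOver v.asIdeal → (Q.inertiaDeg (𝓞 K) : ℤ) ∈ H)
    (β : Lˣ) (b : 𝓞 L) (hb : (b : L) = (β : L)) :
    baseOrd v ((diagBase K (Units.map (Algebra.norm K : L →* K) β)).1 v) ∈ H := by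
  have hb0 : b ≠ 0 := by
    rintro rfl
    exact β.ne_zero (hb ▸ (map_zero _))
  have hnorm : ((Algebra.intNorm (𝓞 K) (𝓞 L) b : 𝓞 K) : K) = Algebra.norm K (β : L) := by
    rw [← hb]
    exact Algebra.algebraMap_intNorm (A := 𝓞 K) (B := 𝓞 L) (K := K) (L := L) b
  have hn0 : ((Algebra.intNorm (𝓞 K) (𝓞 L) b : 𝓞 K) : K) ≠ 0 := by
    rw [hnorm, Ne, Algebra.norm_eq_zero_iff]
    exact β.ne_zero
  have heq : Units.map (Algebra.norm K : L →* K) β =
      Units.mk0 ((Algebra.intNorm (𝓞 K) (𝓞 L) b : 𝓞 K) : K) hn0 := by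
    apply Units.ext
    rw [Units.coe_map, Units.val_mk0, hnorm]
  rw [heq, baseOrd_diagBase_integral, ← Ideal.relNorm_singleton]
  refine count_relNorm_mem K L v H hf _ ?_
  rwa [Ne, Ideal.span_singleton_eq_bot]

/-- **global norms**: the order at `v` of a norm from `Lˣ`. -/
theorem baseOrd_norm_mem (v : HeightOneSpectrum (𝓞 K)) (H : AddSubgroup ℤ)
    (hf : ∀ Q : Ideal (𝓞 L), Q.IsPrime → Q.LiesOver v.asIdeal → (Q.inertiaDeg (𝓞 K) : ℤ) ∈ H)
    (β : Lˣ) :
    baseOrd v ((diagBase K (Units.map (Algebra.norm K : L →* K) β)).1 v) ∈ H := by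
  obtain ⟨b₁, b₂, hb₂, hb⟩ := IsFractionRing.div_surjective (A := 𝓞 L) (β : L)
  have hb₂0 : (b₂ : L) ≠ 0 := by
    have := nonZeroDivisors.ne_zero hb₂
    rw [Ne, ← map_zero (algebraMap (𝓞 L) L)]
    exact fun h => this (RingOfIntegers.coe_injective h)
  have hb₁0 : (b₁ : L) ≠ 0 := by
    intro h0
    have : (β : L) = 0 := by
      rw [← hb]
      show (b₁ : L) / (b₂ : L) = 0
      rw [h0, zero_div]
    exact β.ne_zero this
  set β₁ : Lˣ := Units.mk0 (b₁ : L) hb₁0 with hβ₁
  set β₂ : Lˣ := Units.mk0 (b₂ : L) hb₂0 with hβ₂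
  have hmul : β = β₁ * β₂⁻¹ := by
    rw [eq_mul_inv_iff_mul_eq]
    apply Units.ext
    rw [Units.val_mul, hβ₁, hβ₂, Units.val_mk0, Units.val_mk0, ← hb]
    show (b₁ : L) / (b₂ : L) * (b₂ : L) = (b₁ : L)
    rw [div_mul_cancel₀ _ hb₂0]
  have h1 := baseOrd_norm_integral_mem v H hf β₁ b₁ rfl
  have h2 := baseOrd_norm_integral_mem v H hf β₂ b₂ rfl
  have h3 : (diagBase K (Units.map (Algebra.norm K : L →* K) β)).1 v =
      (diagBase K (Units.map (Algebra.norm K : L →* K) β₁)).1 v *
        ((diagBase K (Units.map (Algebra.norm K : L →* K) β₂)).1 v)⁻¹ := by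
    rw [hmul, map_mul, map_mul, map_inv, map_inv]
    rfl
  rw [h3, baseOrd_mul, baseOrd_inv]
  exact H.add_mem h1 (H.neg_mem h2)

end GlobalNorm

section LocalNormOrd

variable {K L : Type*} [Field K] [NumberField K] [Field L] [NumberField L] [Algebra K L]
  [IsGalois K L]

/-- the norm of an idele which is a local unit at `v` is a local unit at `v`. -/
theorem ideleNorm_mem_baseLocalUnits (z : ideleGroup K L) (v : HeightOneSpectrum (𝓞 K))
    (hz : z.1 v ∈ semiLocalUnits K L v) : (ideleNorm K L z).1 v ∈ baseLocalUnits K v := by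
  rw [← map_mem_semiLocalUnits_iff (L := L)]
  have h1 : Units.map (algebraMap (v.adicCompletion K) (semiLocal K L v) : _ →* _)
      ((ideleNorm K L z).1 v) = ∏ g : Gal(L/K), g • (z.1 v) := by
    apply Units.ext
    rw [Units.coe_map, MonoidHom.coe_coe, Units.coe_prod]
    exact ideleNorm_apply z v
  rw [h1]
  exact Subgroup.prod_mem _ fun g _ => smul_mem_semiLocalUnits g hz

/-- **local norms**: the order at `v` of the norm of an idele of `L` lies in every subgroup of
`ℤ` containing the residue degrees above `v`. -/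
theorem baseOrd_ideleNorm_mem (v : HeightOneSpectrum (𝓞 K)) (H : AddSubgroup ℤ)
    (hf : ∀ Q : Ideal (𝓞 L), Q.IsPrime → Q.LiesOver v.asIdeal → (Q.inertiaDeg (𝓞 K) : ℤ) ∈ H)
    (z : ideleGroup K L) : baseOrd v ((ideleNorm K L z).1 v) ∈ H := by
  obtain ⟨y, u₀, hu₀, hzu⟩ := idCN_exists_incl_mul_unit v (z.1 v)
  set z' : ideleGroup K L := z * (diagIdele (K := K) y)⁻¹ with hz'
  have hz : z = z' * diagIdele (K := K) y := by rw [hz', inv_mul_cancel_right]
  have hz'v : z'.1 v = u₀ := by
    show z.1 v * ((diagIdele (K := K) y).1 v)⁻¹ = u₀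
    rw [hzu, diagIdele_apply, mul_comm, ← mul_assoc, inv_mul_cancel, one_mul]
  have h1 : (ideleNorm K L z).1 v = (ideleNorm K L z').1 v *
      (diagBase K (Units.map (Algebra.norm K : L →* K) y)).1 v := by
    conv_lhs => rw [hz, map_mul, ideleNorm_diagIdele]
    rfl
  have h2 : baseOrd v ((ideleNorm K L z').1 v) = 0 := by
    rw [baseOrd_eq_zero_iff]
    exact ideleNorm_mem_baseLocalUnits z' v (hz'v ▸ hu₀)
  rw [h1, baseOrd_mul, h2, zero_add]
  exact baseOrd_norm_mem v H hf y

/-- the order at `v` of the norm of an idele of `L` is a multiple of the residue degree at `v`. -/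
theorem inertiaDegIn_dvd_baseOrd_ideleNorm (v : HeightOneSpectrum (𝓞 K)) (z : ideleGroup K L) :
    ((v.asIdeal.inertiaDegIn (𝓞 L) : ℕ) : ℤ) ∣ baseOrd v ((ideleNorm K L z).1 v) := by
  rw [← Int.mem_zmultiples_iff]
  refine baseOrd_ideleNorm_mem v _ (fun Q hQ hlo => ?_) z
  rw [Int.mem_zmultiples_iff, Ideal.inertiaDegIn_eq_inertiaDeg v.asIdeal Q Gal(L/K)]

/-- **local norms at an unramified place**: the order at `v` of the norm of an idele of `L` is
killed by the Frobenius at `v`. -/
theorem frobOf_zpow_baseOrd_ideleNorm [IsMulCommutative Gal(L/K)] (v : HeightOneSpectrum (𝓞 K))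
    (hur : IsUnramifiedAtPrime K L v.asIdeal) (z : ideleGroup K L) :
    frobOf K L v.asIdeal ^ baseOrd v ((ideleNorm K L z).1 v) = 1 := by
  rw [← mem_zpowKer]
  refine baseOrd_ideleNorm_mem v _ (fun Q hQ hlo => ?_) z
  rw [mem_zpowKer, zpow_natCast]
  exact frobOf_pow_inertiaDeg K L v.asIdeal Q (hur Q hQ hlo)

end LocalNormOrd

section OneMod

/-- `∏ (1 + c x_i) = 1 + c S` with `S` integral if `c` and the `x_i` are. -/
theorem exists_prod_one_add_mul_eq {A R : Type*} [CommRing A] [CommRing R] [Algebra A R] (c : R)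
    (hc : IsIntegral A c) {ι : Type*} (s : Finset ι) (x : ι → R)
    (hx : ∀ i ∈ s, IsIntegral A (x i)) :
    ∃ S : R, IsIntegral A S ∧ ∏ i ∈ s, (1 + c * x i) = 1 + c * S := by
  classical
  induction s using Finset.induction_on with
  | empty => exact ⟨0, isIntegral_zero, by simp⟩
  | insert a s ha ih =>
    obtain ⟨S', hS', hprod⟩ := ih fun i hi => hx i (Finset.mem_insert_of_mem hi)
    have hxa := hx a (Finset.mem_insert_self a s)
    refine ⟨x a + S' + c * x a * S', (hxa.add hS').add ((hc.mul hxa).mul hS'), ?_⟩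
    rw [Finset.prod_insert ha, hprod]
    ring

variable {K L : Type*} [Field K] [NumberField K] [Field L] [NumberField L] [Algebra K L]
  [IsGalois K L]

/-- a unit of `L_v` congruent to `1` modulo `m O_{L,v}`. -/
def IsOneModLocal (m : 𝓞 K) (v : HeightOneSpectrum (𝓞 K)) (u : (semiLocal K L v)ˣ) : Prop :=
  ∃ t : semiLocal K L v, IsIntegral (v.adicCompletionIntegers K) t ∧
    (u : semiLocal K L v) = 1 + algebraMap (v.adicCompletion K) (semiLocal K L v)
      (algebraMap K (v.adicCompletion K) (m : K)) * t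

/-- the norm of a local unit congruent to `1` modulo `m` is congruent to `1` modulo `m`. -/
theorem valued_ideleNorm_sub_one_le {m : 𝓞 K} (hm : m ≠ 0) (v : HeightOneSpectrum (𝓞 K))
    (z : ideleGroup K L) (hz : IsOneModLocal m v (z.1 v)) :
    Valued.v ((((ideleNorm K L z).1 v : (v.adicCompletion K)ˣ) : v.adicCompletion K) - 1) ≤
      Valued.v (algebraMap K (v.adicCompletion K) (m : K)) := by
  obtain ⟨t, ht, hzt⟩ := hz
  set mv : v.adicCompletion K := algebraMap K (v.adicCompletion K) (m : K) with hmv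
  have hmK : (m : K) ≠ 0 := by
    rw [Ne, ← map_zero (algebraMap (𝓞 K) K)]
    exact fun h => hm (RingOfIntegers.coe_injective h)
  have hmv0 : mv ≠ 0 := (map_ne_zero _).mpr hmK
  have hmv1 : Valued.v mv ≤ 1 := by
    rw [hmv, adicLF_valued_algebraMap]
    exact HeightOneSpectrum.valuation_le_one v m
  set c : semiLocal K L v := algebraMap (v.adicCompletion K) (semiLocal K L v) mv with hc
  have hcint : IsIntegral (v.adicCompletionIntegers K) c := isIntegral_semiLocal_algebraMap hmv1
  have hg : ∀ g : Gal(L/K), g • (z.1 v : semiLocal K L v) = 1 + c * (g • t) := by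
    intro g
    rw [hzt, smul_add, smul_one, smul_mul', hc, semiLocal_smul_def g (algebraMap _ _ mv),
      AlgEquiv.commutes]
  obtain ⟨S, hS, hprod⟩ := exists_prod_one_add_mul_eq (A := v.adicCompletionIntegers K) c hcint
    (Finset.univ : Finset Gal(L/K)) (fun g => g • t) fun g _ => isIntegral_semiLocal_smul g ht
  have hN := ideleNorm_apply z v
  simp_rw [hg] at hN
  rw [hprod] at hN
  -- `S` comes from `K_v`
  set N : v.adicCompletion K :=
    (((ideleNorm K L z).1 v : (v.adicCompletion K)ˣ) : v.adicCompletion K) with hNdef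
  have hS' : S = algebraMap (v.adicCompletion K) (semiLocal K L v) (mv⁻¹ * (N - 1)) := by
    rw [map_mul, map_sub, map_one, hN, add_sub_cancel_left, ← mul_assoc, ← map_mul,
      inv_mul_cancel₀ hmv0, map_one, one_mul]
  rw [hS'] at hS
  have h1 := valued_le_one_of_isIntegral_semiLocal hS
  rw [map_mul, map_inv₀, inv_mul_le_iff₀ (zero_lt_iff.mpr ((Valuation.ne_zero_iff _).mpr hmv0)),
    mul_one] at h1
  exact h1

theorem smul_eq_algebraMap_mul (v : HeightOneSpectrum (𝓞 K)) (k : K) (x : semiLocal K L v) :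
    k • x = algebraMap (v.adicCompletion K) (semiLocal K L v)
      (algebraMap K (v.adicCompletion K) k) * x := by
  rw [← algebraMap_smul (v.adicCompletion K) k x, Algebra.smul_def]

/-- from an approximation of `u⁻¹` to `β u ≡ 1 mod m`. -/
theorem isOneModLocal_of_approx {m : 𝓞 K} (hm : m ≠ 0) (v : HeightOneSpectrum (𝓞 K))
    (u : (semiLocal K L v)ˣ) (π : K) (M k : ℕ)
    (hM : IsIntegral (v.adicCompletionIntegers K) ((π ^ M) • (u : semiLocal K L v)))
    (hk : v.valuation K (π ^ k / (m : K)) ≤ 1) (β : L) (d : semiLocal K L v)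
    (hd : IsIntegral (v.adicCompletionIntegers K) d)
    (h : ((u⁻¹ : (semiLocal K L v)ˣ) : semiLocal K L v) =
      semiLocalIncl K L v β + (π ^ (M + k)) • d) :
    ∃ t : semiLocal K L v, IsIntegral (v.adicCompletionIntegers K) t ∧
      semiLocalIncl K L v β * (u : semiLocal K L v) =
        1 + algebraMap (v.adicCompletion K) (semiLocal K L v)
          (algebraMap K (v.adicCompletion K) (m : K)) * t := by
  have hmK : (m : K) ≠ 0 := by
    rw [Ne, ← map_zero (algebraMap (𝓞 K) K)]
    exact fun h => hm (RingOfIntegers.coe_injective h)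
  refine ⟨-((π ^ k / (m : K)) • (d * ((π ^ M) • (u : semiLocal K L v)))),
    (idCN_isIntegral_smul' v _ hk _ (hd.mul hM)).neg, ?_⟩
  have h1 : semiLocalIncl K L v β = ((u⁻¹ : (semiLocal K L v)ˣ) : semiLocal K L v) -
      (π ^ (M + k)) • d := by rw [h]; ring
  rw [h1, sub_mul, Units.inv_mul, ← smul_eq_algebraMap_mul, smul_neg, smul_smul,
    mul_div_cancel₀ _ hmK, pow_add, mul_smul_comm, smul_mul_assoc, smul_smul, mul_comm (π ^ k)]
  ring

end OneMod

section Approx

variable {K L : Type*} [Field K] [NumberField K] [Field L] [NumberField L] [Algebra K L]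
  [IsGalois K L]

/-- a power of a uniformizer is divisible by `m`. -/
theorem exists_pow_div_valuation_le_one (v : HeightOneSpectrum (𝓞 K)) {m : 𝓞 K} (hm : m ≠ 0)
    (π : K) (hπ : v.valuation K π = WithZero.exp (-1 : ℤ)) :
    ∃ k : ℕ, v.valuation K (π ^ k / (m : K)) ≤ 1 := by
  have hmK : (m : K) ≠ 0 := by
    rw [Ne, ← map_zero (algebraMap (𝓞 K) K)]
    exact fun h => hm (RingOfIntegers.coe_injective h)
  have hvm : v.valuation K (m : K) ≠ 0 := (Valuation.ne_zero_iff _).mpr hmK
  obtain ⟨n, hn⟩ : ∃ n : ℤ, v.valuation K (m : K) = WithZero.exp n :=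
    ⟨WithZero.log _, (WithZero.exp_log hvm).symm⟩
  refine ⟨(-n).toNat, ?_⟩
  rw [map_div₀, map_pow, hπ, hn, ← WithZero.exp_nsmul, ← WithZero.exp_sub, ← WithZero.exp_zero,
    WithZero.exp_le_exp]
  simp only [nsmul_eq_mul, mul_neg, mul_one]
  omega

/-- `1 + m t` is not zero for `t` integral, at a place dividing `m`. -/
theorem one_add_algebraMap_mul_ne_zero {m : 𝓞 K} (hm : m ≠ 0) (v : HeightOneSpectrum (𝓞 K))
    (hmv : m ∈ v.asIdeal) (t : semiLocal K L v)
    (ht : IsIntegral (v.adicCompletionIntegers K) t) :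
    (1 : semiLocal K L v) + algebraMap (v.adicCompletion K) (semiLocal K L v)
      (algebraMap K (v.adicCompletion K) (m : K)) * t ≠ 0 := by
  intro h0
  set mv : v.adicCompletion K := algebraMap K (v.adicCompletion K) (m : K) with hmv'
  have hmK : (m : K) ≠ 0 := by
    rw [Ne, ← map_zero (algebraMap (𝓞 K) K)]
    exact fun h => hm (RingOfIntegers.coe_injective h)
  have hmv0 : mv ≠ 0 := (map_ne_zero _).mpr hmK
  have h1 : -t = algebraMap (v.adicCompletion K) (semiLocal K L v) mv⁻¹ := by
    have h2 : algebraMap (v.adicCompletion K) (semiLocal K L v) mv * (-t) = 1 := by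
      rw [mul_neg, neg_eq_iff_eq_neg, ← add_eq_zero_iff_eq_neg, add_comm]
      exact h0
    calc -t = algebraMap (v.adicCompletion K) (semiLocal K L v) (mv⁻¹ * mv) * (-t) := by
          rw [inv_mul_cancel₀ hmv0, map_one, one_mul]
      _ = algebraMap (v.adicCompletion K) (semiLocal K L v) mv⁻¹ *
            (algebraMap (v.adicCompletion K) (semiLocal K L v) mv * (-t)) := by
          rw [map_mul, mul_assoc]
      _ = _ := by rw [h2, mul_one]
  have h3 : IsIntegral (v.adicCompletionIntegers K)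
      (algebraMap (v.adicCompletion K) (semiLocal K L v) mv⁻¹) := h1 ▸ ht.neg
  have h4 := valued_le_one_of_isIntegral_semiLocal h3
  rw [map_inv₀, inv_le_one₀ (zero_lt_iff.mpr ((Valuation.ne_zero_iff _).mpr hmv0))] at h4
  exact absurd ((valued_natCast_lt_one_iff v m).mpr hmv) (not_lt.mpr h4)

/-- **weak approximation**: every idele of `L` can be moved by a principal idele to an idele
congruent to `1` modulo `m` at all places dividing `m`. -/
theorem exists_diagIdele_mul_isOneModLocal {m : 𝓞 K} (hm : m ≠ 0) (y : ideleGroup K L) :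
    ∃ b : Lˣ, ∀ v : HeightOneSpectrum (𝓞 K), m ∈ v.asIdeal →
      IsOneModLocal m v ((diagIdele (K := K) b * y).1 v) := by
  classical
  by_cases hS : ∃ v : HeightOneSpectrum (𝓞 K), m ∈ v.asIdeal
  swap
  · exact ⟨1, fun v hv => (hS ⟨v, hv⟩).elim⟩
  -- local data
  have hloc : ∀ v : HeightOneSpectrum (𝓞 K), ∃ (π : K) (N : ℕ) (β : L), π ≠ 0 ∧
      ∀ b : L, (∀ w : HeightOneSpectrum (𝓞 L), primeBelow K L w = v →
          w.valuation L (b - β) ≤ w.valuation L (algebraMap K L π) ^ N) →
        ∃ t : semiLocal K L v, IsIntegral (v.adicCompletionIntegers K) t ∧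
          semiLocalIncl K L v b * (y.1 v : semiLocal K L v) =
            1 + algebraMap (v.adicCompletion K) (semiLocal K L v)
              (algebraMap K (v.adicCompletion K) (m : K)) * t := by
    intro v
    obtain ⟨π, hπ⟩ := v.valuation_exists_uniformizer K
    have hπ0 : π ≠ 0 := by
      intro h
      rw [h, map_zero] at hπ
      exact WithZero.exp_ne_zero hπ.symm
    obtain ⟨M, hM⟩ := idCN_exists_pow_smul_isIntegral v π hπ (y.1 v : semiLocal K L v)
    obtain ⟨k, hk⟩ := exists_pow_div_valuation_le_one v hm π hπ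
    obtain ⟨β, d, hd, hβ⟩ := idCN_exists_incl_add_smul v π hπ0 (M + k)
      (((y.1 v)⁻¹ : (semiLocal K L v)ˣ) : semiLocal K L v)
    refine ⟨π, M + k, β, hπ0, fun b hb => ?_⟩
    have hπL : algebraMap K L π ^ (M + k) ≠ 0 := pow_ne_zero _ ((map_ne_zero _).mpr hπ0)
    set x : L := (b - β) / algebraMap K L π ^ (M + k) with hx
    have hxint : IsIntegral (v.adicCompletionIntegers K) (semiLocalIncl K L v x) := by
      refine (tmul_mem_integralClosure_iff K L v x).mpr fun w hw => ?_
      have hwπ : w.valuation L (algebraMap K L π ^ (M + k)) ≠ 0 :=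
        (Valuation.ne_zero_iff _).mpr hπL
      rw [hx, map_div₀, div_le_iff₀ (zero_lt_iff.mpr hwπ), one_mul, map_pow]
      exact hb w hw
    have hinc : semiLocalIncl K L v (b - β) = (π ^ (M + k)) • semiLocalIncl K L v x := by
      rw [← map_smul, hx, Algebra.smul_def, map_pow, mul_div_cancel₀ _ hπL]
    refine isOneModLocal_of_approx hm v (y.1 v) π M k hM hk b (d - semiLocalIncl K L v x)
      (hd.sub hxint) ?_
    rw [hβ, smul_sub, ← hinc, map_sub]
    ring
  choose π N β hπ0 hmain using hloc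
  -- the primes of `L` dividing `m`
  have hmL : algebraMap (𝓞 K) (𝓞 L) m ≠ 0 := by
    rwa [Ne, map_eq_zero_iff _ (RingOfIntegers.algebraMap.injective K L)]
  set S' : Finset (HeightOneSpectrum (𝓞 L)) :=
    (finite_setOf_intValuation_lt_one hmL).toFinset with hS'
  have hmemS' : ∀ w : HeightOneSpectrum (𝓞 L), m ∈ (primeBelow K L w).asIdeal → w ∈ S' := by
    intro w hw
    rw [hS', Set.Finite.mem_toFinset, Set.mem_ofPred_eq, HeightOneSpectrum.intValuation_lt_one_iff_mem]
    exact hw
  -- exponents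
  have hexp : ∀ w : HeightOneSpectrum (𝓞 L), ∃ n : ℤ, WithZero.exp (-n) =
      w.valuation L (algebraMap K L (π (primeBelow K L w))) ^ N (primeBelow K L w) := by
    intro w
    have h0 : w.valuation L (algebraMap K L (π (primeBelow K L w))) ≠ 0 :=
      (Valuation.ne_zero_iff _).mpr ((map_ne_zero _).mpr (hπ0 _))
    refine ⟨-(N (primeBelow K L w) • WithZero.log
      (w.valuation L (algebraMap K L (π (primeBelow K L w))))), ?_⟩
    rw [neg_neg, WithZero.exp_nsmul, WithZero.exp_log h0]
  choose n hn using hexp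
  obtain ⟨b, hb, -⟩ := exists_forall_valuation_sub_le L S'
    (fun w => β (primeBelow K L w)) n
  -- the approximation property
  have hbv : ∀ v : HeightOneSpectrum (𝓞 K), m ∈ v.asIdeal →
      ∃ t : semiLocal K L v, IsIntegral (v.adicCompletionIntegers K) t ∧
        semiLocalIncl K L v b * (y.1 v : semiLocal K L v) =
          1 + algebraMap (v.adicCompletion K) (semiLocal K L v)
            (algebraMap K (v.adicCompletion K) (m : K)) * t := by
    intro v hv
    refine hmain v b fun w hw => ?_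
    have h1 := hb w (hmemS' w (hw ▸ hv))
    rw [hn w, hw] at h1
    exact h1
  have hb0 : b ≠ 0 := by
    rintro rfl
    obtain ⟨v₀, hv₀⟩ := hS
    obtain ⟨t, ht, he⟩ := hbv v₀ hv₀
    rw [map_zero, zero_mul] at he
    exact one_add_algebraMap_mul_ne_zero hm v₀ hv₀ t ht he.symm
  refine ⟨Units.mk0 b hb0, fun v hv => ?_⟩
  obtain ⟨t, ht, he⟩ := hbv v hv
  exact ⟨t, ht, he⟩

end Approx
end Fermat.Agent.CFT
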