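import Mathlib
import Fermat.Agent.CFT.Idele.Base

set_option autoImplicit false

/-!
# The explicit idelic Artin map of `ℚ(ζ_{P^r}) / ℚ` (finite ideles)

`v₀ : HeightOneSpectrum (𝓞 ℚ)` is the wild place, `P := natGenerator v₀` the prime below it.
`pcycArtin v₀ r : baseIdeleGroup ℚ →* (ZMod (P ^ r))ˣ` sends an idele `y` to
`(unit part of y_{v₀} mod P^r)⁻¹ * ∏_{v ≠ v₀} ℓ_v ^ ord_v (y_v)`.

Main results: `pcycArtin_diagBase_natCast` / `pcycArtin_diagBase_of_pos` (positive rationals are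
in the kernel: **reciprocity**), the local evaluation lemmas `pcycTame_of_mem_baseLocalUnits`,
`pcycTame_algebraMap_natCast`, `pcycWild_of_valued_sub_one_le`, `pcycWild_algebraMap_natCast`.
-/

open NumberField IsDedekindDomain Rat.HeightOneSpectrum
open scoped WithZero

namespace Fermat.Agent.CFT

local instance pcycFactPrime (p : Nat.Primes) : Fact p.1.Prime := ⟨p.2⟩

/-! ### Valuations of natural numbers at the places of `ℚ` -/

theorem pcyc_asIdeal_eq_span (v : HeightOneSpectrum (𝓞 ℚ)) :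
    v.asIdeal = Ideal.span {((natGenerator v : ℕ) : 𝓞 ℚ)} := by
  have h := span_natGenerator v
  have h2 : v.asIdeal = (v.asIdeal.map (Rat.IsIntegralClosure.intEquiv (𝓞 ℚ))).map
      (Rat.IsIntegralClosure.intEquiv (𝓞 ℚ)).symm := by
    rw [Ideal.map_symm,
      Ideal.comap_map_of_bijective _ (Rat.IsIntegralClosure.intEquiv (𝓞 ℚ)).bijective]
  rw [h2, ← h, Ideal.map_span, Set.image_singleton]
  congr 2
  simp

theorem pcyc_valuation_natGenerator (v : HeightOneSpectrum (𝓞 ℚ)) :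
    v.valuation ℚ ((natGenerator v : ℕ) : ℚ) = WithZero.exp (-1 : ℤ) := by
  have h1 : ((natGenerator v : ℕ) : ℚ) = algebraMap (𝓞 ℚ) ℚ ((natGenerator v : ℕ) : 𝓞 ℚ) := by
    simp
  rw [h1, HeightOneSpectrum.valuation_of_algebraMap]
  apply HeightOneSpectrum.intValuation_singleton
  · exact_mod_cast (prime_natGenerator v).ne_zero
  · exact pcyc_asIdeal_eq_span v

theorem pcyc_valuation_natCast_eq_one (v : HeightOneSpectrum (𝓞 ℚ)) (n : ℕ)
    (hn : ¬ natGenerator v ∣ n) : v.valuation ℚ (n : ℚ) = 1 := by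
  have h1 : (n : ℚ) = algebraMap (𝓞 ℚ) ℚ (n : 𝓞 ℚ) := by simp
  rw [h1]
  apply le_antisymm (HeightOneSpectrum.valuation_le_one v _)
  rw [← not_lt, HeightOneSpectrum.valuation_lt_one_iff_mem]
  intro hmem
  apply hn
  rw [natGenerator_dvd_iff]
  have := Ideal.mem_map_of_mem (Rat.IsIntegralClosure.intEquiv (𝓞 ℚ)) hmem
  simpa using this

theorem pcyc_valued_algebraMap (v : HeightOneSpectrum (𝓞 ℚ)) (b : ℚ) :
    Valued.v (algebraMap ℚ (v.adicCompletion ℚ) b) = v.valuation ℚ b :=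
  HeightOneSpectrum.valuedAdicCompletion_eq_valuation' v b

/-! ### The order homomorphism -/

/-- `y ↦ Valued.v y`, as a homomorphism to `Multiplicative ℤ` (`= - ord_v`). -/
noncomputable def pcycVal (v : HeightOneSpectrum (𝓞 ℚ)) :
    (v.adicCompletion ℚ)ˣ →* Multiplicative ℤ :=
  WithZero.unitsWithZeroEquiv.toMonoidHom.comp
    (Units.map ((Valued.v : Valuation (v.adicCompletion ℚ) ℤᵐ⁰) : v.adicCompletion ℚ →* ℤᵐ⁰))

theorem pcycVal_coe (v : HeightOneSpectrum (𝓞 ℚ)) (y : (v.adicCompletion ℚ)ˣ) :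
    ((pcycVal v y : Multiplicative ℤ) : ℤᵐ⁰) = Valued.v (y : v.adicCompletion ℚ) := by
  unfold pcycVal
  rw [MonoidHom.comp_apply]
  erw [WithZero.coe_unitsWithZeroEquiv_eq_units_val]
  rfl

theorem pcycVal_eq_iff (v : HeightOneSpectrum (𝓞 ℚ)) (y : (v.adicCompletion ℚ)ˣ) (n : ℤ) :
    pcycVal v y = Multiplicative.ofAdd n ↔
      Valued.v (y : v.adicCompletion ℚ) = WithZero.exp n := by
  rw [← pcycVal_coe]
  constructor
  · intro h
    rw [h]
    rfl
  · intro h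
    exact WithZero.coe_injective h

theorem pcycVal_eq_one_iff (v : HeightOneSpectrum (𝓞 ℚ)) (y : (v.adicCompletion ℚ)ˣ) :
    pcycVal v y = 1 ↔ y ∈ baseLocalUnits ℚ v := by
  rw [mem_baseLocalUnits_iff, ← pcycVal_coe]
  constructor
  · intro h
    rw [h]
    rfl
  · intro h
    exact WithZero.coe_injective h

/-- the image of a nonzero natural number in `(ℚ_v)ˣ`. -/
noncomputable def pcycNat (v : HeightOneSpectrum (𝓞 ℚ)) (n : ℕ) (hn : n ≠ 0) :
    (v.adicCompletion ℚ)ˣ :=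
  Units.map (algebraMap ℚ (v.adicCompletion ℚ) : ℚ →* v.adicCompletion ℚ)
    (Units.mk0 (n : ℚ) (Nat.cast_ne_zero.mpr hn))

theorem pcycNat_coe (v : HeightOneSpectrum (𝓞 ℚ)) (n : ℕ) (hn : n ≠ 0) :
    ((pcycNat v n hn : (v.adicCompletion ℚ)ˣ) : v.adicCompletion ℚ) = (n : v.adicCompletion ℚ) := by
  simp [pcycNat]

theorem pcycNat_mul (v : HeightOneSpectrum (𝓞 ℚ)) (m n : ℕ) (hm : m ≠ 0) (hn : n ≠ 0) :
    pcycNat v (m * n) (Nat.mul_ne_zero hm hn) = pcycNat v m hm * pcycNat v n hn := by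
  apply Units.ext
  simp [pcycNat_coe]

/-- the uniformiser `ℓ_v` of `ℚ_v`. -/
noncomputable def pcycPi (v : HeightOneSpectrum (𝓞 ℚ)) : (v.adicCompletion ℚ)ˣ :=
  pcycNat v (natGenerator v) (prime_natGenerator v).ne_zero

theorem pcycVal_pcycNat_of_not_dvd (v : HeightOneSpectrum (𝓞 ℚ)) (n : ℕ) (hn : n ≠ 0)
    (h : ¬ natGenerator v ∣ n) : pcycVal v (pcycNat v n hn) = 1 := by
  rw [pcycVal_eq_one_iff, mem_baseLocalUnits_iff]
  change Valued.v (algebraMap ℚ (v.adicCompletion ℚ) (n : ℚ)) = 1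
  rw [pcyc_valued_algebraMap, pcyc_valuation_natCast_eq_one v n h]

theorem pcycVal_pcycPi (v : HeightOneSpectrum (𝓞 ℚ)) :
    pcycVal v (pcycPi v) = Multiplicative.ofAdd (-1 : ℤ) := by
  rw [pcycVal_eq_iff]
  change Valued.v (algebraMap ℚ (v.adicCompletion ℚ) ((natGenerator v : ℕ) : ℚ)) = _
  rw [pcyc_valued_algebraMap, pcyc_valuation_natGenerator]

/-! ### The unit part and the wild character -/

/-- `y ↦ y * ℓ_v ^ (- ord y)`: the unit part. -/
noncomputable def pcycUnitPart (v : HeightOneSpectrum (𝓞 ℚ)) :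
    (v.adicCompletion ℚ)ˣ →* (v.adicCompletion ℚ)ˣ :=
  MonoidHom.id _ * ((zpowersHom _ (pcycPi v)).comp (pcycVal v))

theorem pcycUnitPart_apply (v : HeightOneSpectrum (𝓞 ℚ)) (y : (v.adicCompletion ℚ)ˣ) :
    pcycUnitPart v y = y * pcycPi v ^ (Multiplicative.toAdd (pcycVal v y)) := rfl

theorem pcycVal_pcycUnitPart (v : HeightOneSpectrum (𝓞 ℚ)) (y : (v.adicCompletion ℚ)ˣ) :
    pcycVal v (pcycUnitPart v y) = 1 := by
  rw [pcycUnitPart_apply, map_mul, map_zpow, pcycVal_pcycPi]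
  apply Multiplicative.toAdd.injective
  simp

theorem pcycUnitPart_of_mem (v : HeightOneSpectrum (𝓞 ℚ)) (y : (v.adicCompletion ℚ)ˣ)
    (hy : y ∈ baseLocalUnits ℚ v) : pcycUnitPart v y = y := by
  rw [pcycUnitPart_apply, (pcycVal_eq_one_iff v y).mpr hy]
  simp

theorem pcycUnitPart_pcycPi (v : HeightOneSpectrum (𝓞 ℚ)) : pcycUnitPart v (pcycPi v) = 1 := by
  rw [pcycUnitPart_apply, pcycVal_pcycPi]
  simp

theorem pcycUnitPart_mem_integers (v : HeightOneSpectrum (𝓞 ℚ)) (y : (v.adicCompletion ℚ)ˣ) :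
    ((pcycUnitPart v y : (v.adicCompletion ℚ)ˣ) : v.adicCompletion ℚ) ∈
      v.adicCompletionIntegers ℚ := by
  rw [HeightOneSpectrum.mem_adicCompletionIntegers]
  have := (pcycVal_eq_one_iff v _).mp (pcycVal_pcycUnitPart v y)
  rw [mem_baseLocalUnits_iff] at this
  exact this.le

/-- reduction `O_v → ℤ / ℓ_v ^ r`. -/
noncomputable def pcycRed (v : HeightOneSpectrum (𝓞 ℚ)) (r : ℕ) :
    v.adicCompletionIntegers ℚ →+* ZMod (natGenerator v ^ r) :=
  (PadicInt.toZModPow (p := ((primesEquiv v : Nat.Primes) : ℕ)) r).comp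
    ((adicCompletionIntegers.padicIntEquiv v).toAlgEquiv : _ →+* _)

/-- `y ↦ (unit part of y) mod ℓ_v ^ r`, as a monoid homomorphism into `ZMod (ℓ_v ^ r)`. -/
noncomputable def pcycWildRaw (v : HeightOneSpectrum (𝓞 ℚ)) (r : ℕ) :
    (v.adicCompletion ℚ)ˣ →* ZMod (natGenerator v ^ r) where
  toFun y := pcycRed v r ⟨_, pcycUnitPart_mem_integers v y⟩
  map_one' := by
    have : (⟨_, pcycUnitPart_mem_integers v 1⟩ : v.adicCompletionIntegers ℚ) = 1 := by
      apply Subtype.ext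
      simp
    rw [this, map_one]
  map_mul' a b := by
    have : (⟨_, pcycUnitPart_mem_integers v (a * b)⟩ : v.adicCompletionIntegers ℚ) =
        ⟨_, pcycUnitPart_mem_integers v a⟩ * ⟨_, pcycUnitPart_mem_integers v b⟩ := by
      apply Subtype.ext
      simp
    rw [this, map_mul]

/-- the wild character `(ℚ_v)ˣ →* (ZMod (ℓ_v ^ r))ˣ`. -/
noncomputable def pcycWild (v : HeightOneSpectrum (𝓞 ℚ)) (r : ℕ) :
    (v.adicCompletion ℚ)ˣ →* (ZMod (natGenerator v ^ r))ˣ :=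
  (pcycWildRaw v r).toHomUnits

theorem pcycWild_coe (v : HeightOneSpectrum (𝓞 ℚ)) (r : ℕ) (y : (v.adicCompletion ℚ)ˣ) :
    ((pcycWild v r y : (ZMod (natGenerator v ^ r))ˣ) : ZMod (natGenerator v ^ r)) =
      pcycRed v r ⟨_, pcycUnitPart_mem_integers v y⟩ := rfl

theorem pcycWild_pcycPi (v : HeightOneSpectrum (𝓞 ℚ)) (r : ℕ) : pcycWild v r (pcycPi v) = 1 := by
  apply Units.ext
  rw [pcycWild_coe]
  have : (⟨_, pcycUnitPart_mem_integers v (pcycPi v)⟩ : v.adicCompletionIntegers ℚ) = 1 := by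
    apply Subtype.ext
    show ((pcycUnitPart v (pcycPi v) : (v.adicCompletion ℚ)ˣ) : v.adicCompletion ℚ) = 1
    rw [pcycUnitPart_pcycPi]
    rfl
  rw [this, map_one]
  rfl

theorem pcycWild_pcycNat_of_not_dvd (v : HeightOneSpectrum (𝓞 ℚ)) (r : ℕ) (n : ℕ) (hn : n ≠ 0)
    (h : ¬ natGenerator v ∣ n) :
    ((pcycWild v r (pcycNat v n hn) : (ZMod (natGenerator v ^ r))ˣ) : ZMod (natGenerator v ^ r)) =
      (n : ZMod (natGenerator v ^ r)) := by
  rw [pcycWild_coe]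
  have hmem : pcycNat v n hn ∈ baseLocalUnits ℚ v :=
    (pcycVal_eq_one_iff v _).mp (pcycVal_pcycNat_of_not_dvd v n hn h)
  have : (⟨_, pcycUnitPart_mem_integers v (pcycNat v n hn)⟩ : v.adicCompletionIntegers ℚ) =
      (n : v.adicCompletionIntegers ℚ) := by
    apply Subtype.ext
    show ((pcycUnitPart v (pcycNat v n hn) : (v.adicCompletion ℚ)ˣ) : v.adicCompletion ℚ) = _
    rw [pcycUnitPart_of_mem v _ hmem, pcycNat_coe]
    simp
  rw [this, map_natCast]

/-- elements `≡ 1 mod ℓ_v ^ r` are killed by the wild character. -/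
theorem pcycWild_of_valued_sub_one_le (v : HeightOneSpectrum (𝓞 ℚ)) (r : ℕ)
    (y : (v.adicCompletion ℚ)ˣ)
    (hy : Valued.v ((y : v.adicCompletion ℚ) - 1) ≤ WithZero.exp (-(r : ℤ))) :
    pcycWild v r y = 1 := by
  rcases Nat.eq_zero_or_pos r with hr | hr
  · subst hr
    have : Subsingleton (ZMod (natGenerator v ^ 0)) := by
      rw [pow_zero]; infer_instance
    exact Subsingleton.elim _ _
  set π : v.adicCompletion ℚ := ((natGenerator v : ℕ) : v.adicCompletion ℚ) with hπ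
  have hπv : Valued.v π = WithZero.exp (-1 : ℤ) := by
    have := (pcycVal_eq_iff v (pcycPi v) (-1)).mp (pcycVal_pcycPi v)
    rwa [pcycPi, pcycNat_coe] at this
  have hπ0 : π ≠ 0 := by
    intro h0
    rw [h0, map_zero] at hπv
    exact WithZero.exp_ne_zero.symm hπv
  set z : v.adicCompletion ℚ := ((y : v.adicCompletion ℚ) - 1) / π ^ r with hz
  have hzv : Valued.v z ≤ 1 := by
    rw [hz, map_div₀, map_pow, hπv, ← WithZero.exp_nsmul]
    rw [div_le_iff₀ WithZero.exp_pos, one_mul]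
    simpa using hy
  have hy1 : (y : v.adicCompletion ℚ) = 1 + π ^ r * z := by
    rw [hz]
    field_simp
    ring
  have hlt : Valued.v ((y : v.adicCompletion ℚ) - 1) < 1 := by
    refine lt_of_le_of_lt hy ?_
    rw [← WithZero.exp_zero, WithZero.exp_lt_exp]
    omega
  have hymem : y ∈ baseLocalUnits ℚ v := by
    rw [mem_baseLocalUnits_iff]
    have h2 : (y : v.adicCompletion ℚ) = 1 + ((y : v.adicCompletion ℚ) - 1) := by ring
    rw [h2]
    exact Valuation.map_one_add_of_lt _ hlt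
  apply Units.ext
  rw [pcycWild_coe]
  have hzmem : z ∈ v.adicCompletionIntegers ℚ :=
    (HeightOneSpectrum.mem_adicCompletionIntegers (𝓞 ℚ) ℚ v).mpr hzv
  have : (⟨_, pcycUnitPart_mem_integers v y⟩ : v.adicCompletionIntegers ℚ) =
      1 + ((natGenerator v : ℕ) : v.adicCompletionIntegers ℚ) ^ r * ⟨z, hzmem⟩ := by
    apply Subtype.ext
    show ((pcycUnitPart v y : (v.adicCompletion ℚ)ˣ) : v.adicCompletion ℚ) = _
    rw [pcycUnitPart_of_mem v _ hymem, hy1]
    simp [hπ]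
  rw [this, map_add, map_one, map_mul, map_pow, map_natCast]
  have h0 : ((natGenerator v : ℕ) : ZMod (natGenerator v ^ r)) ^ r = 0 := by
    rw [← Nat.cast_pow]
    exact ZMod.natCast_self _
  rw [h0, zero_mul, add_zero]
  rfl

/-! ### The tame characters -/

section Tame

variable (v₀ : HeightOneSpectrum (𝓞 ℚ)) (r : ℕ)

theorem pcyc_natGenerator_injective {v w : HeightOneSpectrum (𝓞 ℚ)}
    (h : natGenerator v = natGenerator w) : v = w :=
  (primesEquiv (R := 𝓞 ℚ)).injective (Subtype.ext h)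

theorem pcyc_not_dvd_of_ne {v w : HeightOneSpectrum (𝓞 ℚ)} (h : v ≠ w) :
    ¬ natGenerator v ∣ natGenerator w := by
  intro hd
  exact h (pcyc_natGenerator_injective
    ((Nat.prime_dvd_prime_iff_eq (prime_natGenerator v) (prime_natGenerator w)).mp hd))

theorem pcyc_coprime (v : HeightOneSpectrum (𝓞 ℚ)) (h : v ≠ v₀) :
    Nat.Coprime (natGenerator v) (natGenerator v₀ ^ r) :=
  Nat.Coprime.pow_right r ((Nat.coprime_primes (prime_natGenerator v) (prime_natGenerator v₀)).mpr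
    fun h' => h (pcyc_natGenerator_injective h'))

open Classical in
/-- the class of `ℓ_v` modulo `ℓ_{v₀} ^ r` (`1` at `v = v₀`). -/
noncomputable def pcycTameUnit (v : HeightOneSpectrum (𝓞 ℚ)) : (ZMod (natGenerator v₀ ^ r))ˣ :=
  if h : v = v₀ then 1 else ZMod.unitOfCoprime (natGenerator v) (pcyc_coprime v₀ r v h)

theorem pcycTameUnit_self : pcycTameUnit v₀ r v₀ = 1 := by
  simp [pcycTameUnit]

theorem pcycTameUnit_coe (v : HeightOneSpectrum (𝓞 ℚ)) (h : v ≠ v₀) :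
    ((pcycTameUnit v₀ r v : (ZMod (natGenerator v₀ ^ r))ˣ) : ZMod (natGenerator v₀ ^ r)) =
      (natGenerator v : ZMod (natGenerator v₀ ^ r)) := by
  simp [pcycTameUnit, h]

/-- the tame character at `v`: `y ↦ ℓ_v ^ ord_v y` modulo `ℓ_{v₀} ^ r`. -/
noncomputable def pcycTame (v : HeightOneSpectrum (𝓞 ℚ)) :
    (v.adicCompletion ℚ)ˣ →* (ZMod (natGenerator v₀ ^ r))ˣ :=
  (zpowersHom _ (pcycTameUnit v₀ r v)⁻¹).comp (pcycVal v)

theorem pcycTame_apply (v : HeightOneSpectrum (𝓞 ℚ)) (y : (v.adicCompletion ℚ)ˣ) :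
    pcycTame v₀ r v y = (pcycTameUnit v₀ r v)⁻¹ ^ (Multiplicative.toAdd (pcycVal v y)) := rfl

theorem pcycTame_of_mem_baseLocalUnits (v : HeightOneSpectrum (𝓞 ℚ)) (y : (v.adicCompletion ℚ)ˣ)
    (hy : y ∈ baseLocalUnits ℚ v) : pcycTame v₀ r v y = 1 := by
  rw [pcycTame_apply, (pcycVal_eq_one_iff v y).mpr hy]
  simp

theorem pcycTame_self (y : (v₀.adicCompletion ℚ)ˣ) : pcycTame v₀ r v₀ y = 1 := by
  rw [pcycTame_apply, pcycTameUnit_self]
  simp

theorem pcycTame_pcycPi (v : HeightOneSpectrum (𝓞 ℚ)) :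
    pcycTame v₀ r v (pcycPi v) = pcycTameUnit v₀ r v := by
  rw [pcycTame_apply, pcycVal_pcycPi]
  simp

theorem pcycTame_of_valued_eq (v : HeightOneSpectrum (𝓞 ℚ)) (y : (v.adicCompletion ℚ)ˣ) (n : ℤ)
    (hy : Valued.v (y : v.adicCompletion ℚ) = WithZero.exp (-n)) :
    pcycTame v₀ r v y = pcycTameUnit v₀ r v ^ n := by
  rw [pcycTame_apply, (pcycVal_eq_iff v y (-n)).mpr hy]
  simp

theorem pcycTame_pcycNat_of_not_dvd (v : HeightOneSpectrum (𝓞 ℚ)) (n : ℕ) (hn : n ≠ 0)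
    (h : ¬ natGenerator v ∣ n) : pcycTame v₀ r v (pcycNat v n hn) = 1 :=
  pcycTame_of_mem_baseLocalUnits v₀ r v _
    ((pcycVal_eq_one_iff v _).mp (pcycVal_pcycNat_of_not_dvd v n hn h))

end Tame

/-! ### The global map -/

section Global

variable (v₀ : HeightOneSpectrum (𝓞 ℚ)) (r : ℕ)

theorem pcyc_hasFiniteMulSupport (y : baseIdeleGroup ℚ) :
    Function.HasFiniteMulSupport (fun v => pcycTame v₀ r v (y.1 v)) := by
  have hy := y.2
  rw [mem_baseIdeleGroup_iff, Filter.eventually_cofinite] at hy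
  refine hy.subset fun v hv => ?_
  rw [Function.mem_mulSupport] at hv
  intro hmem
  exact hv (pcycTame_of_mem_baseLocalUnits v₀ r v _ hmem)

/-- **The idelic Artin map of `ℚ(ζ_{P^r})/ℚ`** (finite ideles). -/
noncomputable def pcycArtin : baseIdeleGroup ℚ →* (ZMod (natGenerator v₀ ^ r))ˣ where
  toFun y := (pcycWild v₀ r (y.1 v₀))⁻¹ * ∏ᶠ v, pcycTame v₀ r v (y.1 v)
  map_one' := by
    have h1 : ∀ v, pcycTame v₀ r v ((1 : baseIdeleGroup ℚ).1 v) = 1 := fun v => map_one _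
    have h2 : pcycWild v₀ r ((1 : baseIdeleGroup ℚ).1 v₀) = 1 := map_one _
    simp only [h1, h2, finprod_one, inv_one, mul_one]
  map_mul' a b := by
    have h1 : ∀ v, pcycTame v₀ r v ((a * b).1 v) =
        pcycTame v₀ r v (a.1 v) * pcycTame v₀ r v (b.1 v) := fun v => map_mul _ _ _
    have h2 : pcycWild v₀ r ((a * b).1 v₀) = pcycWild v₀ r (a.1 v₀) * pcycWild v₀ r (b.1 v₀) :=
      map_mul _ _ _
    simp only [h1, h2]
    rw [finprod_mul_distrib (pcyc_hasFiniteMulSupport v₀ r a) (pcyc_hasFiniteMulSupport v₀ r b),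
      mul_inv]
    exact mul_mul_mul_comm _ _ _ _

theorem pcycArtin_apply (y : baseIdeleGroup ℚ) :
    pcycArtin v₀ r y = (pcycWild v₀ r (y.1 v₀))⁻¹ * ∏ᶠ v, pcycTame v₀ r v (y.1 v) := rfl

/-- The value of the Artin map when all local components are known to be trivial. -/
theorem pcycArtin_eq_one_of_forall (y : baseIdeleGroup ℚ) (hw : pcycWild v₀ r (y.1 v₀) = 1)
    (ht : ∀ v, v ≠ v₀ → pcycTame v₀ r v (y.1 v) = 1) : pcycArtin v₀ r y = 1 := by
  rw [pcycArtin_apply, hw, inv_one, one_mul]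
  apply finprod_eq_one_of_forall_eq_one
  intro v
  by_cases h : v = v₀
  · subst h
    exact pcycTame_self _ r _
  · exact ht v h

theorem pcyc_diagBase_natCast_apply (n : ℕ) (hn : n ≠ 0) (v : HeightOneSpectrum (𝓞 ℚ)) :
    (diagBase ℚ (Units.mk0 (n : ℚ) (Nat.cast_ne_zero.mpr hn))).1 v = pcycNat v n hn := rfl

/-- the place of `ℚ` over the prime `ℓ`. -/
noncomputable def pcycPlace (ℓ : ℕ) (hℓ : ℓ.Prime) : HeightOneSpectrum (𝓞 ℚ) :=
  (primesEquiv (R := 𝓞 ℚ)).symm ⟨ℓ, hℓ⟩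

theorem natGenerator_pcycPlace (ℓ : ℕ) (hℓ : ℓ.Prime) : natGenerator (pcycPlace ℓ hℓ) = ℓ := by
  have := (primesEquiv (R := 𝓞 ℚ)).apply_symm_apply ⟨ℓ, hℓ⟩
  exact congrArg Subtype.val this

theorem pcycArtin_diagBase_prime (ℓ : ℕ) (hℓ : ℓ.Prime) :
    pcycArtin v₀ r (diagBase ℚ (Units.mk0 (ℓ : ℚ) (Nat.cast_ne_zero.mpr hℓ.ne_zero))) = 1 := by
  rw [pcycArtin_apply]
  change (pcycWild v₀ r (pcycNat v₀ ℓ hℓ.ne_zero))⁻¹ *
    ∏ᶠ v, pcycTame v₀ r v (pcycNat v ℓ hℓ.ne_zero) = 1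
  set w := pcycPlace ℓ hℓ with hw
  have hgw : natGenerator w = ℓ := natGenerator_pcycPlace ℓ hℓ
  have hsingle : ∏ᶠ v, pcycTame v₀ r v (pcycNat v ℓ hℓ.ne_zero) =
      pcycTame v₀ r w (pcycNat w ℓ hℓ.ne_zero) := by
    apply finprod_eq_single
    intro v hv
    apply pcycTame_pcycNat_of_not_dvd
    intro hd
    apply hv
    apply pcyc_natGenerator_injective
    rw [hgw]
    exact (Nat.prime_dvd_prime_iff_eq (prime_natGenerator v) hℓ).mp hd
  have hpi : pcycNat w ℓ hℓ.ne_zero = pcycPi w := by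
    apply Units.ext
    rw [pcycPi, pcycNat_coe, pcycNat_coe, hgw]
  rw [hsingle, hpi, pcycTame_pcycPi]
  by_cases h : w = v₀
  · have h1 : pcycNat v₀ ℓ hℓ.ne_zero = pcycPi v₀ := by
      apply Units.ext
      rw [pcycPi, pcycNat_coe, pcycNat_coe, ← h, hgw]
    rw [h1, pcycWild_pcycPi, h, pcycTameUnit_self]
    simp
  · have h1 : pcycWild v₀ r (pcycNat v₀ ℓ hℓ.ne_zero) = pcycTameUnit v₀ r w := by
      apply Units.ext
      rw [pcycTameUnit_coe v₀ r w h, hgw]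
      apply pcycWild_pcycNat_of_not_dvd
      intro hd
      apply h
      apply pcyc_natGenerator_injective
      rw [hgw]
      exact ((Nat.prime_dvd_prime_iff_eq (prime_natGenerator v₀) hℓ).mp hd).symm
    rw [h1]
    simp

/-- **Reciprocity for natural numbers.** -/
theorem pcycArtin_diagBase_natCast (n : ℕ) (hn : n ≠ 0) :
    pcycArtin v₀ r (diagBase ℚ (Units.mk0 (n : ℚ) (Nat.cast_ne_zero.mpr hn))) = 1 := by
  induction n using Nat.recOnMul with
  | zero => exact absurd rfl hn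
  | one =>
    have : Units.mk0 ((1 : ℕ) : ℚ) (Nat.cast_ne_zero.mpr hn) = 1 := by
      apply Units.ext; simp
    rw [this, map_one, map_one]
  | prime ℓ hℓ => exact pcycArtin_diagBase_prime v₀ r ℓ hℓ
  | mul a b ha hb =>
    have ha0 : a ≠ 0 := fun h => hn (by rw [h, zero_mul])
    have hb0 : b ≠ 0 := fun h => hn (by rw [h, mul_zero])
    have : Units.mk0 ((a * b : ℕ) : ℚ) (Nat.cast_ne_zero.mpr hn) =
        Units.mk0 (a : ℚ) (Nat.cast_ne_zero.mpr ha0) * Units.mk0 (b : ℚ) (Nat.cast_ne_zero.mpr hb0) := by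
      apply Units.ext; simp
    rw [this, map_mul, map_mul, ha ha0, hb hb0, one_mul]

/-- **Reciprocity**: positive rationals are in the kernel of the Artin map. -/
theorem pcycArtin_diagBase_of_pos (b : ℚˣ) (hb : 0 < (b : ℚ)) :
    pcycArtin v₀ r (diagBase ℚ b) = 1 := by
  have hnum : 0 < (b : ℚ).num := Rat.num_pos.mpr hb
  have hn0 : (b : ℚ).num.natAbs ≠ 0 := Int.natAbs_ne_zero.mpr hnum.ne'
  have hd0 : (b : ℚ).den ≠ 0 := (b : ℚ).den_nz
  have hb' : b = Units.mk0 (((b : ℚ).num.natAbs : ℕ) : ℚ) (Nat.cast_ne_zero.mpr hn0) *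
      (Units.mk0 (((b : ℚ).den : ℕ) : ℚ) (Nat.cast_ne_zero.mpr hd0))⁻¹ := by
    apply Units.ext
    rw [Units.val_mul, Units.val_inv_eq_inv_val, Units.val_mk0, Units.val_mk0]
    have h1 : (((b : ℚ).num.natAbs : ℕ) : ℚ) = ((b : ℚ).num : ℚ) := by
      rw [← Int.cast_natCast, Int.natAbs_of_nonneg hnum.le]
    rw [h1, ← div_eq_mul_inv, Rat.num_div_den]
  rw [hb', map_mul, map_mul, map_inv, map_inv, pcycArtin_diagBase_natCast v₀ r _ hn0,
    pcycArtin_diagBase_natCast v₀ r _ hd0]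
  simp

/-- every rational has square in the kernel (the archimedean component is missing). -/
theorem pcycArtin_diagBase_sq (b : ℚˣ) : pcycArtin v₀ r (diagBase ℚ b) ^ 2 = 1 := by
  rw [← map_pow, ← map_pow]
  apply pcycArtin_diagBase_of_pos
  rw [Units.val_pow_eq_pow_val]
  exact (sq_pos_of_ne_zero b.ne_zero : 0 < (b : ℚ) ^ 2)

end Global

end Fermat.Agent.CFT
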