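import Mathlib
import Fermat.Agent.CFT.Idele.PCycloArtin
import Fermat.Agent.CFT.Idele.IdeleNormOrd
import Fermat.Agent.CFT.Global.CycloFrob

set_option autoImplicit false
set_option linter.unusedSectionVars false

/-!
# S55, (GL14)(b)(C): the explicit Artin map of `ℚ(ζ_{P^r})/ℚ` kills the norms

`pcycArtin_ideleNorm_eq_one` : for a number field `E`, Galois over `ℚ`, containing a primitive
`P ^ r`-th root of unity, `pcycArtin v₀ r ∘ ideleNorm ℚ E = 1`.
-/

open NumberField IsDedekindDomain Rat.HeightOneSpectrum WithZero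
open scoped Pointwise TensorProduct Fermat.Agent.CFT.TensorGal Fermat.Agent.CFT.IdeleAct

namespace Fermat.Agent.CFT

/-- a number field containing a primitive `n`-th root of unity with `2 < n` is totally complex. -/
theorem isTotallyComplex_of_isPrimitiveRoot {E : Type*} [Field E] [NumberField E] {n : ℕ}
    (hn : 2 < n) {ζ : E} (hζ : IsPrimitiveRoot ζ n) : IsTotallyComplex E := by
  refine ⟨fun w => ?_⟩
  by_contra hw
  rw [InfinitePlace.not_isComplex_iff_isReal] at hw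
  obtain ⟨φ, hφ, -⟩ := hw
  set ρ : E →+* ℝ := hφ.embedding with hρ
  have h1 : ρ ζ ^ n = 1 := by rw [← map_pow, hζ.pow_eq_one, map_one]
  have h2 : |ρ ζ| = 1 := by
    have h3 : |ρ ζ| ^ n = 1 := by rw [← abs_pow, h1, abs_one]
    exact (pow_eq_one_iff_of_nonneg (abs_nonneg _) (by omega)).mp h3
  have h4 : ρ (ζ ^ 2) = ρ 1 := by rw [map_pow, map_one, ← sq_abs, h2, one_pow]
  have h5 : ζ ^ 2 = 1 := ρ.injective h4
  have h6 := Nat.le_of_dvd (by norm_num) (hζ.dvd_of_pow_eq_one 2 h5)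
  omega

/-- the absolute norm of a place of `ℚ`. -/
theorem pcyc_absNorm_asIdeal (v : HeightOneSpectrum (𝓞 ℚ)) :
    Ideal.absNorm v.asIdeal = natGenerator v := by
  rw [pcyc_asIdeal_eq_span, Ideal.absNorm_span_singleton]
  have h' : Algebra.norm ℤ ((natGenerator v : ℕ) : 𝓞 ℚ) = ((natGenerator v : ℕ) : ℤ) := by
    rw [Algebra.norm_natCast, RingOfIntegers.rank, Module.finrank_self, pow_one]
  rw [h', Int.natAbs_natCast]

variable (v₀ : HeightOneSpectrum (𝓞 ℚ)) (r : ℕ)

/-- the only place of `ℚ` dividing `P ^ r` (`r ≠ 0`) is `v₀`. -/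
theorem pcyc_natCast_pow_mem_iff (hr : r ≠ 0) (v : HeightOneSpectrum (𝓞 ℚ)) :
    ((natGenerator v₀ ^ r : ℕ) : 𝓞 ℚ) ∈ v.asIdeal ↔ v = v₀ := by
  constructor
  · intro h
    by_contra hne
    have hnd : ¬ natGenerator v ∣ natGenerator v₀ ^ r := by
      intro hd
      have := Nat.Coprime.eq_one_of_dvd (pcyc_coprime v₀ r v hne) hd
      exact (prime_natGenerator v).ne_one this
    have h1 := pcyc_valuation_natCast_eq_one v _ hnd
    have h2 : ((natGenerator v₀ ^ r : ℕ) : ℚ) =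
        algebraMap (𝓞 ℚ) ℚ ((natGenerator v₀ ^ r : ℕ) : 𝓞 ℚ) := by simp
    rw [h2] at h1
    exact absurd ((HeightOneSpectrum.valuation_lt_one_iff_mem v _).mpr h) (by rw [h1]; exact lt_irrefl _)
  · rintro rfl
    rw [pcyc_asIdeal_eq_span, Ideal.mem_span_singleton]
    obtain ⟨k, rfl⟩ := Nat.exists_eq_succ_of_ne_zero hr
    exact ⟨((natGenerator v ^ k : ℕ) : 𝓞 ℚ), by push_cast; rw [Nat.succ_eq_add_one, pow_succ']⟩

/-- the residue degrees above `v ≠ v₀` kill the class of `ℓ_v` modulo `P ^ r`, in a field with the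
`P ^ r`-th roots of unity. -/
theorem pcycTameUnit_pow_inertiaDegIn {E : Type*} [Field E] [NumberField E] [IsGalois ℚ E] (ζ : E)
    (hζ : IsPrimitiveRoot ζ (natGenerator v₀ ^ r)) (v : HeightOneSpectrum (𝓞 ℚ)) (hv : v ≠ v₀) :
    pcycTameUnit v₀ r v ^ (v.asIdeal.inertiaDegIn (𝓞 E)) = 1 := by
  have : NeZero (natGenerator v₀ ^ r) := ⟨(pow_pos (prime_natGenerator v₀).pos r).ne'⟩
  obtain ⟨⟨Q, hQp, hQlo⟩⟩ := (inferInstance : Nonempty (Ideal.primesOver v.asIdeal (𝓞 E)))
  have := hQp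
  have := hQlo
  have : v.asIdeal.IsMaximal := v.isMaximal
  have : Q.IsMaximal := Ideal.IsMaximal.of_liesOver_isMaximal Q v.asIdeal
  have hf := Ideal.inertiaDegIn_eq_inertiaDeg v.asIdeal Q Gal(E/ℚ)
  have hcard : Ideal.absNorm Q = natGenerator v ^ v.asIdeal.inertiaDegIn (𝓞 E) := by
    have h1 := Ideal.cardQuot_pow_inertiaDeg v.asIdeal Q
    rw [← Ideal.absNorm_apply, ← Ideal.absNorm_apply, pcyc_absNorm_asIdeal, ← hf] at h1
    exact h1.symm
  have hcop : (Ideal.absNorm Q).Coprime (natGenerator v₀ ^ r) := by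
    rw [hcard]
    exact Nat.Coprime.pow_left _ (pcyc_coprime v₀ r v hv)
  have hmod := absNorm_modEq_one_of_isPrimitiveRoot hζ.toInteger_isPrimitiveRoot Q hcop
  rw [hcard] at hmod
  apply Units.ext
  rw [Units.val_pow_eq_pow_val, pcycTameUnit_coe v₀ r v hv, Units.val_one]
  have h2 := (ZMod.natCast_eq_natCast_iff _ _ _).mpr hmod
  push_cast at h2
  exact h2

/-- **(GL14)(b)(C)**: the explicit idelic Artin map of `ℚ(ζ_{P^r})/ℚ` kills the norms of the ideles
of every Galois number field containing the `P ^ r`-th roots of unity. -/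
theorem pcycArtin_ideleNorm_eq_one (E : Type*) [Field E] [NumberField E] [IsGalois ℚ E] (ζ : E)
    (hζ : IsPrimitiveRoot ζ (natGenerator v₀ ^ r)) (y : ideleGroup ℚ E) :
    pcycArtin v₀ r (ideleNorm ℚ E y) = 1 := by
  have hPp : (natGenerator v₀).Prime := prime_natGenerator v₀
  rcases le_or_gt (natGenerator v₀ ^ r) 2 with hle | hgt
  · -- trivial target group
    have hsub : Subsingleton (ZMod (natGenerator v₀ ^ r))ˣ := by
      have h1 : 0 < natGenerator v₀ ^ r := pow_pos hPp.pos r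
      obtain h | h : natGenerator v₀ ^ r = 1 ∨ natGenerator v₀ ^ r = 2 := by omega
      · rw [h]; infer_instance
      · rw [h]; infer_instance
    exact Subsingleton.elim _ _
  have hr : r ≠ 0 := by
    rintro rfl
    simp at hgt
  have : IsTotallyComplex E := isTotallyComplex_of_isPrimitiveRoot hgt hζ
  set m : 𝓞 ℚ := ((natGenerator v₀ ^ r : ℕ) : 𝓞 ℚ) with hm
  have hm0 : m ≠ 0 := by
    rw [hm]
    exact_mod_cast (pow_pos hPp.pos r).ne'
  obtain ⟨b, hb⟩ := exists_diagIdele_mul_isOneModLocal hm0 y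
  set z : ideleGroup ℚ E := diagIdele (K := ℚ) b * y with hz
  have hN : ideleNorm ℚ E z =
      diagBase ℚ (Units.map (Algebra.norm ℚ : E →* ℚ) b) * ideleNorm ℚ E y := by
    rw [hz, map_mul, ideleNorm_diagIdele]
  have h1 : pcycArtin v₀ r (diagBase ℚ (Units.map (Algebra.norm ℚ : E →* ℚ) b)) = 1 := by
    apply pcycArtin_diagBase_of_pos
    rw [Units.coe_map]
    exact norm_rat_pos_of_isTotallyComplex b.ne_zero
  have h2 : pcycArtin v₀ r (ideleNorm ℚ E y) = pcycArtin v₀ r (ideleNorm ℚ E z) := by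
    rw [hN, map_mul, h1, one_mul]
  rw [h2]
  refine pcycArtin_eq_one_of_forall v₀ r _ ?_ ?_
  · -- the wild component
    refine pcycWild_of_valued_sub_one_le v₀ r _ ?_
    refine (valued_ideleNorm_sub_one_le hm0 v₀ z
      (hb v₀ ((pcyc_natCast_pow_mem_iff v₀ r hr v₀).mpr rfl))).trans_eq ?_
    have h3 : ((m : 𝓞 ℚ) : ℚ) = ((natGenerator v₀ : ℕ) : ℚ) ^ r := by
      rw [hm]
      push_cast
      rfl
    rw [pcyc_valued_algebraMap, h3, map_pow, pcyc_valuation_natGenerator, ← WithZero.exp_nsmul]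
    simp
  · -- the tame components
    intro v hv
    rw [pcycTame_of_valued_eq v₀ r v _ _ (valued_eq_exp_neg_baseOrd v _)]
    obtain ⟨k, hk⟩ := inertiaDegIn_dvd_baseOrd_ideleNorm v z
    rw [hk, zpow_mul, zpow_natCast, pcycTameUnit_pow_inertiaDegIn v₀ r ζ hζ v hv, one_zpow]

end Fermat.Agent.CFT
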