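import Mathlib
import Fermat.Agent.CFT.Idele.PCycloNormKill
import Fermat.Agent.CFT.Idele.IdeleNormTower
import Fermat.Agent.CFT.Idele.BaseOrd

set_option autoImplicit false
set_option linter.unusedSectionVars false

/-!
# S55, (GL14)/(K5)(ii) = (W): the idele `(1 + P at P, 1 elsewhere)` is not a norm

`L ≤ E` number fields, Galois over `ℚ`, `ζ_{P^r} ∈ E`.

* `pcycArtin_ideleNorm_pow_finrank` : `pcycArtin v₀ r (N_{L/ℚ} y) ^ [E : L] = 1`;
* `pcycArtin_pow_eq_one_of_mem_sup` : `pcycArtin v₀ r x ^ (2 [E : L]) = 1` for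
  `x ∈ ℚˣ · N_{L/ℚ} J_L`;
* `pcycArtin_baseIdeleSingle_self` : the value on an idele concentrated at `v₀`;
* `pcycW` : for `P` odd, `r = 2`, `[E : L]` prime to `P`: the idele `1 + P` at `v₀` is not in
  `ℚˣ · N_{L/ℚ} J_L`.
-/

open NumberField IsDedekindDomain Rat.HeightOneSpectrum WithZero
open scoped Pointwise TensorProduct Fermat.Agent.CFT.TensorGal Fermat.Agent.CFT.IdeleAct

namespace Fermat.Agent.CFT

variable (v₀ : HeightOneSpectrum (𝓞 ℚ)) (r : ℕ)

section Tower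

variable (L E : Type*) [Field L] [NumberField L] [Field E] [NumberField E] [Algebra L E]
  [IsScalarTower ℚ L E] [IsGalois ℚ L] [IsGalois ℚ E]

/-- the Artin map of `ℚ(ζ_{P^r})` on the norms of a subfield `L` of a field `E ∋ ζ_{P^r}`. -/
theorem pcycArtin_ideleNorm_pow_finrank (ζ : E) (hζ : IsPrimitiveRoot ζ (natGenerator v₀ ^ r))
    (y : ideleGroup ℚ L) :
    pcycArtin v₀ r (ideleNorm ℚ L y) ^ Module.finrank L E = 1 := by
  rw [← map_pow, ← idNT_ideleNorm_relIdele ℚ L E y]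
  exact pcycArtin_ideleNorm_eq_one v₀ r E ζ hζ _

/-- the Artin map of `ℚ(ζ_{P^r})` on `ℚˣ · N_{L/ℚ} J_L`. -/
theorem pcycArtin_pow_eq_one_of_mem_sup (ζ : E) (hζ : IsPrimitiveRoot ζ (natGenerator v₀ ^ r))
    {x : baseIdeleGroup ℚ} (hx : x ∈ (diagBase ℚ).range ⊔ (ideleNorm ℚ L).range) :
    pcycArtin v₀ r x ^ (2 * Module.finrank L E) = 1 := by
  set ψ : baseIdeleGroup ℚ →* (ZMod (natGenerator v₀ ^ r))ˣ :=
    (powMonoidHom (2 * Module.finrank L E)).comp (pcycArtin v₀ r) with hψ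
  have hle : (diagBase ℚ).range ⊔ (ideleNorm ℚ L).range ≤ ψ.ker := by
    refine sup_le ?_ ?_
    · rintro _ ⟨b, rfl⟩
      rw [MonoidHom.mem_ker, hψ, MonoidHom.comp_apply, powMonoidHom_apply, pow_mul,
        pcycArtin_diagBase_sq, one_pow]
    · rintro _ ⟨y, rfl⟩
      rw [MonoidHom.mem_ker, hψ, MonoidHom.comp_apply, powMonoidHom_apply, mul_comm, pow_mul,
        pcycArtin_ideleNorm_pow_finrank v₀ r L E ζ hζ y, one_pow]
  exact hle hx

end Tower

/-- the value of the Artin map on an idele concentrated at the wild place. -/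
theorem pcycArtin_baseIdeleSingle_self (u : (v₀.adicCompletion ℚ)ˣ) :
    pcycArtin v₀ r (baseIdeleSingle ℚ v₀ u) = (pcycWild v₀ r u)⁻¹ := by
  rw [pcycArtin_apply, baseIdeleSingle_apply_same, finprod_eq_one_of_forall_eq_one, mul_one]
  intro v
  by_cases hv : v = v₀
  · subst hv
    exact pcycTame_self _ r _
  · rw [baseIdeleSingle_apply_of_ne hv, map_one]

/-- `(1 + P) ^ k = 1 + k P` modulo `P ^ 2`. -/
theorem one_add_pow_zmod_sq (P k : ℕ) :
    ((1 : ZMod (P ^ 2)) + (P : ZMod (P ^ 2))) ^ k = 1 + (k : ZMod (P ^ 2)) * (P : ZMod (P ^ 2)) := by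
  have hP2 : (P : ZMod (P ^ 2)) * (P : ZMod (P ^ 2)) = 0 := by
    rw [← Nat.cast_mul, ← sq, ZMod.natCast_self]
  induction k with
  | zero => simp
  | succ k ih =>
    rw [pow_succ ((1 : ZMod (P ^ 2)) + (P : ZMod (P ^ 2))) k, ih]
    push_cast
    linear_combination (k : ZMod (P ^ 2)) * hP2

/-- `(1 + P) ^ k ≡ 1 mod P ^ 2` forces `P ∣ k`. -/
theorem dvd_of_one_add_pow_zmod_sq_eq_one {P k : ℕ} (hP : 0 < P)
    (h : ((1 : ZMod (P ^ 2)) + (P : ZMod (P ^ 2))) ^ k = 1) : P ∣ k := by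
  rw [one_add_pow_zmod_sq, add_eq_left, ← Nat.cast_mul, ZMod.natCast_eq_zero_iff, sq] at h
  exact Nat.dvd_of_mul_dvd_mul_right hP h

section W

variable (L E : Type*) [Field L] [NumberField L] [Field E] [NumberField E] [Algebra L E]
  [IsScalarTower ℚ L E] [IsGalois ℚ L] [IsGalois ℚ E]

/-- **(W)**: for `P` odd and `L` a subfield of index prime to `P` of a field containing the
`P ^ 2`-th roots of unity (e.g. the subfield of degree `P` of `ℚ(ζ_{P²})`), the idele which is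
`1 + P` at `P` and `1` elsewhere is not in `ℚˣ · N_{L/ℚ} J_L`. -/
theorem pcycW (hodd : natGenerator v₀ ≠ 2) (ζ : E) (hζ : IsPrimitiveRoot ζ (natGenerator v₀ ^ 2))
    (hcop : (Module.finrank L E).Coprime (natGenerator v₀)) :
    baseIdeleSingle ℚ v₀ (pcycNat v₀ (1 + natGenerator v₀) (by omega)) ∉
      (diagBase ℚ).range ⊔ (ideleNorm ℚ L).range := by
  intro hx
  have hPp : (natGenerator v₀).Prime := prime_natGenerator v₀
  have h1 := pcycArtin_pow_eq_one_of_mem_sup v₀ 2 L E ζ hζ hx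
  rw [pcycArtin_baseIdeleSingle_self, inv_pow, inv_eq_one] at h1
  have hnd : ¬ natGenerator v₀ ∣ 1 + natGenerator v₀ := by
    intro hd
    have := (Nat.dvd_add_left (dvd_refl _)).mp hd
    exact hPp.one_lt.ne' (Nat.dvd_one.mp this)
  have h2 := congrArg (fun u : (ZMod (natGenerator v₀ ^ 2))ˣ => (u : ZMod (natGenerator v₀ ^ 2))) h1
  simp only [Units.val_pow_eq_pow_val, Units.val_one] at h2
  rw [pcycWild_pcycNat_of_not_dvd v₀ 2 _ _ hnd] at h2
  push_cast at h2
  have h3 := dvd_of_one_add_pow_zmod_sq_eq_one hPp.pos h2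
  have h4 : (natGenerator v₀).Coprime (2 * Module.finrank L E) :=
    Nat.Coprime.mul_right ((Nat.coprime_primes hPp Nat.prime_two).mpr hodd) hcop.symm
  exact hPp.one_lt.ne' (Nat.Coprime.eq_one_of_dvd h4 h3)

end W

end Fermat.Agent.CFT
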