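import Mathlib
import Fermat.Agent.CFT.Idele.PCycloW

set_option autoImplicit false
set_option linter.unusedSectionVars false

/-!
# S55, (C-W): the subfield of degree `p` of `ℚ(ζ_{p²})`

`E` a `p ^ 2`-th cyclotomic extension of `ℚ`, `p` odd.

* `cycDegP p E hp2 : IntermediateField ℚ E` : the fixed field of the subgroup of order `p - 1` of
  the cyclic group `Gal(E/ℚ)`; `finrank_cycDegP : [L₁ : ℚ] = p`, `finrank_cycDegP_top :
  [E : L₁] = p - 1`, `isGalois_cycDegP`, `isCyclic_gal_cycDegP`;
* `pcycW_of_finrank` : **(W)** for ANY subfield `L` of `E`, Galois of degree `p` over `ℚ`: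
  the idele `(1 + p at p, 1 elsewhere)` is not in `ℚˣ · N_{L/ℚ} J_L`.
-/

open NumberField IsDedekindDomain Rat.HeightOneSpectrum IntermediateField

namespace Fermat.Agent.CFT

variable (p : ℕ) [hp : Fact p.Prime]

instance neZero_prime_sq : NeZero (p ^ 2) := ⟨pow_ne_zero 2 hp.out.ne_zero⟩

section Generic

variable (E : Type*) [Field E] [NumberField E] [IsCyclotomicExtension {p ^ 2} ℚ E]

include p in
theorem isGalois_of_isCyclotomicExtension_sq : IsGalois ℚ E :=
  IsCyclotomicExtension.isGalois {p ^ 2} ℚ E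

/-- `Gal(ℚ(ζ_{p²})/ℚ)` is cyclic (`p` odd). -/
theorem cycDegP_isCyclic_gal (hp2 : p ≠ 2) : IsCyclic Gal(E/ℚ) := by
  have h := IsCyclotomicExtension.autEquivPow E
    (Polynomial.cyclotomic.irreducible_rat (n := p ^ 2) (pow_pos hp.out.pos 2))
  have := ZMod.isCyclic_units_of_prime_pow p hp.out hp2 2
  exact isCyclic_of_surjective h.symm h.symm.surjective

/-- `[ℚ(ζ_{p²}) : ℚ] = p (p - 1)`. -/
theorem cycDegP_finrank : Module.finrank ℚ E = p * (p - 1) := by
  rw [IsCyclotomicExtension.finrank E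
    (Polynomial.cyclotomic.irreducible_rat (n := p ^ 2) (pow_pos hp.out.pos 2)),
    Nat.totient_prime_pow hp.out (by norm_num : 0 < 2)]
  norm_num

theorem cycDegP_card_gal : Nat.card Gal(E/ℚ) = p * (p - 1) := by
  have := isGalois_of_isCyclotomicExtension_sq p E
  rw [IsGalois.card_aut_eq_finrank, cycDegP_finrank p E]

/-- the subgroup of order `p - 1` of `Gal(ℚ(ζ_{p²})/ℚ)`. -/
noncomputable def cycDegPSub (hp2 : p ≠ 2) : Subgroup Gal(E/ℚ) :=
  Subgroup.zpowers ((cycDegP_isCyclic_gal p E hp2).exists_generator.choose ^ p)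

theorem card_cycDegPSub (hp2 : p ≠ 2) : Nat.card (cycDegPSub p E hp2) = p - 1 := by
  have := cycDegP_isCyclic_gal p E hp2
  set σ := (cycDegP_isCyclic_gal p E hp2).exists_generator.choose with hσ
  have hgen : ∀ x, x ∈ Subgroup.zpowers σ :=
    (cycDegP_isCyclic_gal p E hp2).exists_generator.choose_spec
  have hord : orderOf σ = p * (p - 1) := by
    rw [orderOf_eq_card_of_forall_mem_zpowers hgen, cycDegP_card_gal p E]
  rw [cycDegPSub, Nat.card_zpowers, orderOf_pow, hord, Nat.gcd_mul_right_left]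
  exact Nat.mul_div_cancel_left _ hp.out.pos

instance normal_cycDegPSub (hp2 : p ≠ 2) : (cycDegPSub p E hp2).Normal := by
  have := cycDegP_isCyclic_gal p E hp2
  let _ : CommGroup Gal(E/ℚ) := IsCyclic.commGroup
  exact Subgroup.normal_of_comm _

/-- **the subfield of degree `p` of `ℚ(ζ_{p²})`**. -/
noncomputable def cycDegP (hp2 : p ≠ 2) : IntermediateField ℚ E :=
  IntermediateField.fixedField (cycDegPSub p E hp2)

theorem finrank_cycDegP_top (hp2 : p ≠ 2) : Module.finrank (cycDegP p E hp2) E = p - 1 := by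
  rw [cycDegP, IntermediateField.finrank_fixedField_eq_card, card_cycDegPSub p E hp2]

theorem finrank_cycDegP (hp2 : p ≠ 2) : Module.finrank ℚ (cycDegP p E hp2) = p := by
  have h1 := Module.finrank_mul_finrank ℚ (cycDegP p E hp2) E
  rw [finrank_cycDegP_top p E hp2, cycDegP_finrank p E] at h1
  have hp1 : 0 < p - 1 := Nat.sub_pos_of_lt hp.out.one_lt
  exact Nat.eq_of_mul_eq_mul_right hp1 h1

instance isGalois_cycDegP (hp2 : p ≠ 2) : IsGalois ℚ (cycDegP p E hp2) := by
  have := isGalois_of_isCyclotomicExtension_sq p E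
  exact IsGalois.of_fixedField_normal_subgroup (cycDegPSub p E hp2)

theorem isCyclic_gal_cycDegP (hp2 : p ≠ 2) : IsCyclic Gal((cycDegP p E hp2)/ℚ) := by
  have := isGalois_of_isCyclotomicExtension_sq p E
  have := cycDegP_isCyclic_gal p E hp2
  exact isCyclic_of_surjective (AlgEquiv.restrictNormalHom (cycDegP p E hp2))
    (AlgEquiv.restrictNormalHom_surjective E)

theorem card_gal_cycDegP (hp2 : p ≠ 2) : Nat.card Gal((cycDegP p E hp2)/ℚ) = p := by
  rw [IsGalois.card_aut_eq_finrank, finrank_cycDegP p E hp2]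

end Generic

section W

open scoped TensorProduct Fermat.Agent.CFT.TensorGal Fermat.Agent.CFT.IdeleAct

variable (L E : Type*) [Field L] [NumberField L] [Field E] [NumberField E] [Algebra L E]
  [IsScalarTower ℚ L E] [IsGalois ℚ L] [IsCyclotomicExtension {p ^ 2} ℚ E]

/-- a subfield of degree `p` of `ℚ(ζ_{p²})` has index `p - 1`. -/
theorem finrank_top_of_finrank_eq_prime (hdeg : Module.finrank ℚ L = p) :
    Module.finrank L E = p - 1 := by
  have h1 := Module.finrank_mul_finrank ℚ L E
  rw [hdeg, cycDegP_finrank p E] at h1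
  exact Nat.eq_of_mul_eq_mul_left hp.out.pos h1

include E in
/-- **(W)** for any subfield `L`, Galois of degree `p` over `ℚ`, of a `p²`-th cyclotomic
extension `E` of `ℚ` (`p` odd): the idele `(1 + p at p, 1 elsewhere)` of `ℚ` is not in
`ℚˣ · N_{L/ℚ} J_L`. -/
theorem pcycW_of_finrank (hp2 : p ≠ 2) (hdeg : Module.finrank ℚ L = p) :
    baseIdeleSingle ℚ (pcycPlace p hp.out)
        (pcycNat (pcycPlace p hp.out) (1 + p) (by omega)) ∉
      (diagBase ℚ).range ⊔ (ideleNorm ℚ L).range := by
  have := isGalois_of_isCyclotomicExtension_sq p E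
  have hgen : natGenerator (pcycPlace p hp.out) = p := natGenerator_pcycPlace p hp.out
  have hζ : IsPrimitiveRoot (IsCyclotomicExtension.zeta (p ^ 2) ℚ E)
      (natGenerator (pcycPlace p hp.out) ^ 2) := by
    rw [hgen]
    exact IsCyclotomicExtension.zeta_spec (p ^ 2) ℚ E
  have hcop : (Module.finrank L E).Coprime (natGenerator (pcycPlace p hp.out)) := by
    rw [hgen, finrank_top_of_finrank_eq_prime p L E hdeg]
    have h1 : 0 < p - 1 := Nat.sub_pos_of_lt hp.out.one_lt
    exact Nat.Coprime.symm ((Nat.Prime.coprime_iff_not_dvd hp.out).mpr fun hd => by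
      have := Nat.le_of_dvd h1 hd
      omega)
  have hW := pcycW (pcycPlace p hp.out) L E (by rw [hgen]; exact hp2) _ hζ hcop
  convert hW using 4
  rw [hgen]

end W

end Fermat.Agent.CFT
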