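/-
CFT, S55 pool, GLOBAL-IDELIC layer (GL6), Galois-free form (helper4).

`J_L = Lˣ · J_{L,S}` for every `S` containing a fixed finite set `S0` of primes of the tensor base
`K`, for an ARBITRARY finite extension `L / K` of number fields (no `IsGalois K L`): the proof of
helper21's `exists_finset_forall_mul_diagIdele_inv_mem` (`Idele/ClassNumber.lean`) with the
Galois-free unit criterion `diagIdele_mem_semiLocalUnits_iff` of `Idele/IntegralSUnits.lean`.
Needed in the devissage, where the lower field `M = L^H` is not Galois over the tensor base.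
-/
import Mathlib
import Fermat.Agent.CFT.Idele.ClassNumber

set_option autoImplicit false

open NumberField IsDedekindDomain HeightOneSpectrum
open scoped TensorProduct

namespace Fermat.Agent.CFT

section Global

variable (K L : Type*) [Field K] [NumberField K] [Field L] [NumberField L] [Algebra K L]

variable {K L} in
/-- the unit criterion of (GL5) in the vocabulary of `Idele/Defs.lean`, no Galois hypothesis. -/
theorem idCNG_incl_mem_semiLocalUnits_iff (v : HeightOneSpectrum (𝓞 K)) (x : Lˣ) :
    Units.map (semiLocalIncl K L v : L →* semiLocal K L v) x ∈ semiLocalUnits K L v ↔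
      ∀ w : HeightOneSpectrum (𝓞 L), primeBelow K L w = v → w.valuation L (x : L) = 1 := by
  have h := diagIdele_mem_semiLocalUnits_iff (K := K) (L := L) x v
  rw [diagIdele_apply] at h
  exact h

/-- **(GL6)**, Galois-free: `J_L = Lˣ · J_{L,S}` for every `S` containing a fixed finite set `S0`
of primes of `K` (finiteness of the class group of `L` + local density). -/
theorem exists_finset_forall_mul_diagIdele_inv_mem_gen :
    ∃ S0 : Finset (HeightOneSpectrum (𝓞 K)), ∀ S : Set (HeightOneSpectrum (𝓞 K)),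
      (S0 : Set (HeightOneSpectrum (𝓞 K))) ⊆ S → ∀ a : ideleGroup K L,
        ∃ y : Lˣ, a * (diagIdele (K := K) y)⁻¹ ∈ ideleGroupS K L S := by
  classical
  obtain ⟨S0, hS0⟩ := idCN_exists_divFun_eq K L
  refine ⟨S0, fun S hS a => ?_⟩
  -- the finitely many bad places of `a`
  have hTfin : {v : HeightOneSpectrum (𝓞 K) |
      ¬ (a : ∀ v, (semiLocal K L v)ˣ) v ∈ semiLocalUnits K L v}.Finite :=
    Filter.eventually_cofinite.mp ((mem_ideleGroup_iff _).mp a.2)
  set T := hTfin.toFinset with hT
  -- local decompositions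
  choose yv uv huv hyuv using fun v => idCN_exists_incl_mul_unit v ((a : ∀ v, (semiLocal K L v)ˣ) v)
  -- the divisor to be made principal
  have hDfin : (Function.support fun w : HeightOneSpectrum (𝓞 L) =>
      if primeBelow K L w ∈ T then divFun (𝓞 L) L (yv (primeBelow K L w)) w else 0).Finite := by
    refine (Set.Finite.biUnion T.finite_toSet
      (fun v _ => finite_divFun_support (𝓞 L) L (yv v))).subset ?_
    intro w hw
    rw [Function.mem_support] at hw
    by_cases hwT : primeBelow K L w ∈ T
    · rw [if_pos hwT] at hw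
      exact Set.mem_biUnion (Finset.mem_coe.mpr hwT) hw
    · rw [if_neg hwT] at hw
      exact absurd rfl hw
  set D : HeightOneSpectrum (𝓞 L) →₀ ℤ := Finsupp.ofSupportFinite _ hDfin with hD
  obtain ⟨y, hy⟩ := hS0 D
  refine ⟨y, fun v hv => ?_⟩
  have hvS0 : v ∉ S0 := fun h => hv (hS (Finset.mem_coe.mpr h))
  show (a : ∀ v, (semiLocal K L v)ˣ) v *
    (Units.map (semiLocalIncl K L v : L →* semiLocal K L v) y)⁻¹ ∈ semiLocalUnits K L v
  by_cases hvT : v ∈ T
  · -- `a v = (1 ⊗ y_v) u_v` and `y_v / y` is a unit above `v`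
    rw [hyuv v, mul_comm _ (uv v), mul_assoc, ← map_inv, ← map_mul]
    refine (semiLocalUnits K L v).mul_mem (huv v) ?_
    rw [idCNG_incl_mem_semiLocalUnits_iff]
    intro w hw
    have h1 := hy w (by rw [hw]; exact hvS0)
    rw [hD, Finsupp.ofSupportFinite_coe, if_pos (by rw [hw]; exact hvT), hw] at h1
    rw [Units.val_mul, map_mul, valuation_eq_exp_divFun (𝓞 L) L (yv v) w,
      valuation_eq_exp_divFun (𝓞 L) L y⁻¹ w, divFun_inv, h1, ← WithZero.exp_add, add_neg_cancel,
      WithZero.exp_zero]
  · -- `a v` and `1 ⊗ y` are both units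
    have hav : (a : ∀ v, (semiLocal K L v)ˣ) v ∈ semiLocalUnits K L v := by
      by_contra hcon
      exact hvT (hTfin.mem_toFinset.mpr hcon)
    refine (semiLocalUnits K L v).mul_mem hav ((semiLocalUnits K L v).inv_mem ?_)
    rw [idCNG_incl_mem_semiLocalUnits_iff]
    intro w hw
    have h1 := hy w (by rw [hw]; exact hvS0)
    rw [hD, Finsupp.ofSupportFinite_coe, if_neg (by rw [hw]; exact hvT)] at h1
    rw [valuation_eq_exp_divFun (𝓞 L) L y w, h1, WithZero.exp_zero]

/-- **(GL6)**, Galois-free, lattice form: `Lˣ · J_{L,S} = J_L`. -/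
theorem exists_finset_forall_principalIdeles_sup_ideleGroupS_eq_top_gen :
    ∃ S0 : Finset (HeightOneSpectrum (𝓞 K)), ∀ S : Set (HeightOneSpectrum (𝓞 K)),
      (S0 : Set (HeightOneSpectrum (𝓞 K))) ⊆ S →
        principalIdeles K L ⊔ ideleGroupS K L S = ⊤ := by
  obtain ⟨S0, hS0⟩ := exists_finset_forall_mul_diagIdele_inv_mem_gen K L
  refine ⟨S0, fun S hS => ?_⟩
  rw [eq_top_iff]
  intro a _
  obtain ⟨y, hy⟩ := hS0 S hS a
  have h1 : a = diagIdele (K := K) y * (a * (diagIdele (K := K) y)⁻¹) := by
    rw [mul_comm a, mul_inv_cancel_left]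
  rw [h1]
  exact Subgroup.mul_mem_sup ⟨y, rfl⟩ hy

end Global

end Fermat.Agent.CFT
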