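import Mathlib
import Fermat.Agent.CFT.Idele.ClassGroup

set_option autoImplicit false
set_option linter.unusedSectionVars false

/-!
# CFT, S55 global-idelic stream, (GL4) part 4: the idele groups as modules over a generic group

For a group `G` acting on `L` by `K`-algebra automorphisms (`MulSemiringAction G L`,
`SMulCommClass G K L`) the Galois actions of `Idele/Defs.lean` are pulled back along
`MulSemiringAction.toAlgAut G K L : G →* Gal(L/K)`.  Subgroups of `Gal(L/K)` act by Mathlib's
subgroup instances.
-/

open NumberField IsDedekindDomain
open scoped TensorProduct Fermat.Agent.CFT.TensorGal Fermat.Agent.CFT.IdeleAct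

namespace Fermat.Agent.CFT

section Gen

variable (K L G : Type*) [Field K] [NumberField K] [Field L] [NumberField L] [Algebra K L]
  [Group G] [MulSemiringAction G L] [SMulCommClass G K L]

/-- the action of a generic group on `J_L`. -/
@[reducible] noncomputable def ideleGroupActionOf : MulDistribMulAction G (ideleGroup K L) :=
  MulDistribMulAction.compHom (ideleGroup K L) (MulSemiringAction.toAlgAut G K L)

/-- the action of a generic group on `C_L`. -/
@[reducible] noncomputable def ideleClassActionOf : MulDistribMulAction G (ideleClass K L) :=
  MulDistribMulAction.compHom (ideleClass K L) (MulSemiringAction.toAlgAut G K L)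

variable {K L G}

theorem ideleGroupActionOf_smul (g : G) (x : ideleGroup K L) :
    letI := ideleGroupActionOf K L G
    g • x = (MulSemiringAction.toAlgAut G K L g) • x := rfl

theorem ideleClassActionOf_smul (g : G) (c : ideleClass K L) :
    letI := ideleClassActionOf K L G
    g • c = (MulSemiringAction.toAlgAut G K L g) • c := rfl

/-- componentwise description: `g` acts on `L_v` through helper27's `tensorRightHom` for `G`. -/
theorem ideleGroupActionOf_apply (g : G) (x : ideleGroup K L) (v : HeightOneSpectrum (𝓞 K)) :
    letI := ideleGroupActionOf K L G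
    (((g • x : ideleGroup K L) : ∀ v, (semiLocal K L v)ˣ) v : semiLocal K L v) =
      tensorRightHom K (v.adicCompletion K) L G g
        ((x : ∀ v, (semiLocal K L v)ˣ) v : semiLocal K L v) := by
  letI := ideleGroupActionOf K L G
  show ((MulSemiringAction.toAlgAut G K L g) • ((x : ∀ v, (semiLocal K L v)ˣ) v) :
    (semiLocal K L v)ˣ).val = _
  rw [units_smul_val, semiLocal_smul_def]
  rfl

/-- for a finite Galois group `G` of `L / K` (in the sense of `IsGaloisGroup`), the invariants of
`J_L` are `J_K`. -/
theorem mem_range_baseToIdele_iff_of_isGaloisGroup [Finite G] [IsGaloisGroup G K L]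
    (x : ideleGroup K L) :
    letI := ideleGroupActionOf K L G
    x ∈ (baseToIdele K L).range ↔ ∀ g : G, g • x = x := by
  letI := ideleGroupActionOf K L G
  haveI : IsGalois K L := IsGaloisGroup.isGalois G K L
  rw [mem_range_baseToIdele_iff]
  constructor
  · intro h g
    exact h _
  · intro h φ
    obtain ⟨g, rfl⟩ := (IsGaloisGroup.mulEquivAlgEquiv G K L).surjective φ
    exact h g

/-- for a finite Galois group `G` of `L / K`, the invariants of `C_L` are `C_K`. -/
theorem mem_range_baseToClass_iff_of_isGaloisGroup [Finite G] [IsGaloisGroup G K L]
    (c : ideleClass K L) :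
    letI := ideleClassActionOf K L G
    haveI : IsGalois K L := IsGaloisGroup.isGalois G K L
    c ∈ (baseToClass K L).range ↔ ∀ g : G, g • c = c := by
  letI := ideleClassActionOf K L G
  haveI : IsGalois K L := IsGaloisGroup.isGalois G K L
  rw [mem_range_baseToClass_iff]
  constructor
  · intro h g
    exact h _
  · intro h φ
    obtain ⟨g, rfl⟩ := (IsGaloisGroup.mulEquivAlgEquiv G K L).surjective φ
    exact h g

end Gen

section Subgroups

variable {K L : Type*} [Field K] [NumberField K] [Field L] [NumberField L] [Algebra K L]

/-- subgroups of the Galois group act on `J_L` and `C_L` by restriction. -/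
noncomputable example (H : Subgroup Gal(L/K)) : MulDistribMulAction H (ideleGroup K L) :=
  inferInstance

noncomputable example (H : Subgroup Gal(L/K)) : MulDistribMulAction H (ideleClass K L) :=
  inferInstance

theorem subgroup_smul_ideleGroup (H : Subgroup Gal(L/K)) (h : H) (x : ideleGroup K L) :
    h • x = (h : Gal(L/K)) • x := rfl

theorem subgroup_smul_ideleClass (H : Subgroup Gal(L/K)) (h : H) (c : ideleClass K L) :
    h • c = (h : Gal(L/K)) • c := rfl

end Subgroups

end Fermat.Agent.CFT
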