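import Mathlib
import Fermat.Agent.CFT.Coh.CyclicHerbrand

set_option autoImplicit false
set_option linter.unusedSectionVars false

/-!
# S55 global-idelic stream, chunk (GL10), abstract half: the first inequality for `C = J / Lˣ`

Model-agnostic: `G` a finite group, `σ : G`; five `G`-modules
`US → Lx`, `JS → J`, `Lx → J → C` (think: `S`-units, `Lˣ`, `S`-ideles, ideles, idele classes)
with `0 → Lx → J → C → 0` exact, `JS ⊆ J` and `US = Lx ∩ JS`, `J = Lx + JS`.

* `idele1_herbrand_class` : `h(JS) = h(US) * h(C)` and `h(C)` is defined;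
* `idele1_herbrand_class_eq` : `h(C) = n` if `h(JS) = P`, `h(US) * n = P`;
* `idele1_le_tateH0Card` : then `n ≤ |Ĥ⁰(C)|` (first inequality);
* `idele1_tateH0Card_class` : with Hilbert 90 for `Lx`,
  `|Ĥ⁰(C)| = [J^σ : (Lx ∩ J^σ) + N J]`.
-/

namespace Fermat.Agent.CFT

open AddSubgroup

section Abs

variable {G : Type*} [Group G] [Fintype G] {σ : G}
variable {Lx J C JS US : Type*} [AddCommGroup Lx] [AddCommGroup J] [AddCommGroup C]
  [AddCommGroup JS] [AddCommGroup US]
  [DistribMulAction G Lx] [DistribMulAction G J] [DistribMulAction G C]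
  [DistribMulAction G JS] [DistribMulAction G US]
variable (ι : Lx →+ J) (hι : Function.Injective ι) (hιG : ∀ (τ : G) (x : Lx), ι (τ • x) = τ • ι x)
  (π : J →+ C) (hπ : Function.Surjective π) (hπG : ∀ (τ : G) (x : J), π (τ • x) = τ • π x)
  (hex : ι.range = π.ker)

section Herbrand

variable (jS : JS →+ J) (hjS : Function.Injective jS)
  (hjSG : ∀ (τ : G) (x : JS), jS (τ • x) = τ • jS x)
  (uS : US →+ Lx) (huS : Function.Injective uS)
  (huSG : ∀ (τ : G) (x : US), uS (τ • x) = τ • uS x)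
  (hUS : uS.range = jS.range.comap ι) (hgen : ι.range ⊔ jS.range = ⊤)

include hι hιG hπ hπG hex hjS hjSG huS huSG hUS hgen

/-- `h(JS) = h(US) * h(C)` for `C = J / Lx = JS / US`. -/
theorem idele1_herbrand_class (hJ : HerbrandDefinedCyclic G JS σ)
    (hU : HerbrandDefinedCyclic G US σ) :
    HerbrandDefinedCyclic G C σ ∧ herbrand G JS σ = herbrand G US σ * herbrand G C σ := by
  classical
  -- the map `US → JS`
  have hex1 : ∀ u : US, ∃ s : JS, jS s = ι (uS u) := by
    intro u
    have : uS u ∈ jS.range.comap ι := hUS ▸ ⟨u, rfl⟩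
    exact this
  choose k hk using hex1
  have hk_add : ∀ u v, k (u + v) = k u + k v := by
    intro u v
    apply hjS
    rw [map_add, hk, hk, hk, map_add, map_add]
  let kHom : US →+ JS := AddMonoidHom.mk' k hk_add
  have hkHom : ∀ u, jS (kHom u) = ι (uS u) := hk
  have hkinj : Function.Injective kHom := by
    intro u v huv
    apply huS
    apply hι
    rw [← hkHom, ← hkHom, huv]
  have hkG : ∀ (τ : G) (u : US), kHom (τ • u) = τ • kHom u := by
    intro τ u
    apply hjS
    rw [hkHom, hjSG, hkHom, huSG, hιG]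
  -- the map `JS → C`
  let q : JS →+ C := π.comp jS
  have hqG : ∀ (τ : G) (x : JS), q (τ • x) = τ • q x := by
    intro τ x
    show π (jS (τ • x)) = τ • π (jS x)
    rw [hjSG, hπG]
  have hqsurj : Function.Surjective q := by
    intro c
    obtain ⟨j, rfl⟩ := hπ c
    have hj : j ∈ ι.range ⊔ jS.range := hgen ▸ AddSubgroup.mem_top j
    obtain ⟨a, ⟨x, rfl⟩, b, ⟨s, rfl⟩, rfl⟩ := AddSubgroup.mem_sup.mp hj
    refine ⟨s, ?_⟩
    show π (jS s) = π (ι x + jS s)
    have : π (ι x) = 0 := by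
      have : ι x ∈ π.ker := hex ▸ ⟨x, rfl⟩
      exact this
    rw [map_add, this, zero_add]
  have hexq : kHom.range = q.ker := by
    ext s
    constructor
    · rintro ⟨u, rfl⟩
      show π (jS (kHom u)) = 0
      rw [hkHom]
      have : ι (uS u) ∈ π.ker := hex ▸ ⟨uS u, rfl⟩
      exact this
    · intro hs
      have h1 : jS s ∈ ι.range := hex ▸ (show jS s ∈ π.ker from hs)
      obtain ⟨x, hx⟩ := h1
      have h2 : x ∈ uS.range := by
        rw [hUS]
        show ι x ∈ jS.range
        exact ⟨s, hx.symm⟩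
      obtain ⟨u, rfl⟩ := h2
      refine ⟨u, ?_⟩
      apply hjS
      rw [hkHom, hx]
  exact herbrand_mul_of_mid_left kHom q hkinj hqsurj hexq hkG hqG σ hJ hU

/-- `h(C) = n` from `h(JS) = P` and `h(US) * n = P`. -/
theorem idele1_herbrand_class_eq (hJ : HerbrandDefinedCyclic G JS σ)
    (hU : HerbrandDefinedCyclic G US σ) {P n : ℚ} (hP : herbrand G JS σ = P)
    (hn : herbrand G US σ * n = P) :
    HerbrandDefinedCyclic G C σ ∧ herbrand G C σ = n := by
  obtain ⟨hC, h⟩ := idele1_herbrand_class ι hι hιG π hπ hπG hex jS hjS hjSG uS huS huSG hUS hgen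
    hJ hU
  refine ⟨hC, ?_⟩
  have hU0 : herbrand G US σ ≠ 0 := (herbrand_pos_of_defined hU).ne'
  apply mul_left_cancel₀ hU0
  rw [← h, hP, hn]

/-- the first inequality: `n ≤ |Ĥ⁰(C)|` (and `|Ĥ⁰(C)| = n * |Ĥ¹(C)|`). -/
theorem idele1_le_tateH0Card (hJ : HerbrandDefinedCyclic G JS σ)
    (hU : HerbrandDefinedCyclic G US σ) {P : ℚ} {n : ℕ} (hP : herbrand G JS σ = P)
    (hn : herbrand G US σ * n = P) :
    tateH0Card G C σ = n * tateH1Card G C σ ∧ n ≤ tateH0Card G C σ ∧ tateH0Card G C σ ≠ 0 := by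
  obtain ⟨hC, h⟩ := idele1_herbrand_class_eq ι hι hιG π hπ hπG hex jS hjS hjSG uS huS huSG hUS
    hgen hJ hU hP hn
  have h1 : tateH1Card G C σ ≠ 0 := hC.2
  have h0 : tateH0Card G C σ ≠ 0 := hC.1
  have hmul : tateH0Card G C σ = n * tateH1Card G C σ := by
    rw [herbrand_eq, div_eq_iff (by exact_mod_cast h1)] at h
    exact_mod_cast h
  refine ⟨hmul, ?_, h0⟩
  rw [hmul]
  exact Nat.le_mul_of_pos_right n (Nat.pos_of_ne_zero h1)

end Herbrand

section Index

include hι hιG hπ hπG hex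

/-- With Hilbert 90 for `Lx`: `|Ĥ⁰(C)| = [J^σ : (Lx ∩ J^σ) + N J]`. -/
theorem idele1_tateH0Card_class
    (hH90 : (normHom G Lx).ker ≤ (subOneHom Lx σ).range) :
    tateH0Card G C σ =
      ((ι.range ⊓ (subOneHom J σ).ker) ⊔ (normHom G J).range).relIndex (subOneHom J σ).ker := by
  unfold tateH0Card hIndex
  -- images under `π`
  have hkerC : (subOneHom C σ).ker = (subOneHom J σ).ker.map π := by
    apply le_antisymm
    · intro c hc
      obtain ⟨j, rfl⟩ := hπ c
      have h1 : subOneHom J σ j ∈ π.ker := by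
        show π (subOneHom J σ j) = 0
        rw [hom_subOneHom π hπG]
        exact hc
      rw [← hex] at h1
      obtain ⟨x, hx⟩ := h1
      have h2 : x ∈ (normHom G Lx).ker := by
        apply hι
        rw [hom_normHom ι hιG, hx, normHom_subOneHom, map_zero]
      obtain ⟨y, rfl⟩ := hH90 h2
      refine ⟨j - ι y, ?_, ?_⟩
      · show subOneHom J σ (j - ι y) = 0
        rw [map_sub, ← hx, hom_subOneHom ι hιG, sub_self]
      · have : π (ι y) = 0 := by
          have : ι y ∈ π.ker := hex ▸ ⟨y, rfl⟩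
          exact this
        rw [map_sub, this, sub_zero]
    · rintro _ ⟨j, hj, rfl⟩
      show subOneHom C σ (π j) = 0
      rw [← hom_subOneHom π hπG, show subOneHom J σ j = 0 from hj, map_zero]
  have hranC : (normHom G C).range = (normHom G J).range.map π := by
    ext c
    constructor
    · rintro ⟨d, rfl⟩
      obtain ⟨j, rfl⟩ := hπ d
      exact ⟨normHom G J j, ⟨j, rfl⟩, hom_normHom π hπG j⟩
    · rintro ⟨_, ⟨j, rfl⟩, rfl⟩
      exact ⟨π j, (hom_normHom π hπG j).symm⟩
  set X₀ := (ι.range ⊓ (subOneHom J σ).ker) ⊔ (normHom G J).range with hX₀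
  have hle : X₀ ≤ (subOneHom J σ).ker := by
    refine sup_le inf_le_right ?_
    rintro _ ⟨j, rfl⟩
    exact subOneHom_normHom σ j
  have hmap : X₀.map π = (normHom G J).range.map π := by
    rw [hX₀, AddSubgroup.map_sup]
    have : (ι.range ⊓ (subOneHom J σ).ker).map π = ⊥ := by
      rw [eq_bot_iff]
      rintro _ ⟨j, ⟨hj, -⟩, rfl⟩
      rw [hex] at hj
      exact hj
    rw [this, bot_sup_eq]
  rw [relIndex_eq_map_mul_ker π hle, hmap, hkerC, hranC]
  have h1 : X₀.relIndex ((subOneHom J σ).ker ⊓ π.ker) = 1 := by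
    rw [AddSubgroup.relIndex_eq_one]
    intro j hj
    rw [hX₀]
    refine AddSubgroup.mem_sup_left ⟨?_, hj.1⟩
    rw [hex]
    exact hj.2
  rw [h1, mul_one]

end Index

end Abs

end Fermat.Agent.CFT
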