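import Mathlib
import Fermat.Agent.CFT.Coh.CyclicHerbrand

set_option autoImplicit false

/-!
# CFT, S55 pool, (GL9): Tate cardinalities of (infinite) products

For a family `A v` of abelian groups with endomorphisms `f v`, `g v`, the quotient
`ker f / (im g ∩ ker f)` of the product is the product of the quotients.  Hence
`hIndex`, `tateH0Card`, `tateH1Card`, `herbrand` of a product `∀ v, A v` of modules over a finite
cyclic group are the products over a finite set `S` of the local quantities, as soon as the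
factors outside `S` have trivial Tate groups.  Also the form for "box" subgroups
`{x | ∀ v, x v ∈ B v}` of a product.
-/

namespace Fermat.Agent.CFT

section Card

/-- The cardinality of a product all of whose factors outside a finite set `S` are singletons. -/
theorem tateProd_natCard_pi {ι : Type*} (X : ι → Type*) (S : Finset ι)
    (h : ∀ v, v ∉ S → Nat.card (X v) = 1) :
    Nat.card (∀ v, X v) = ∏ v ∈ S, Nat.card (X v) := by
  classical
  have e := Equiv.piEquivPiSubtypeProd (fun v => v ∈ S) X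
  rw [Nat.card_congr e, Nat.card_prod, Nat.card_pi]
  have h2 : Nat.card (∀ i : {x // ¬ (x ∈ S)}, X i) = 1 := by
    have hu : ∀ i : {x // ¬ (x ∈ S)}, Nat.card (X i) = 1 := fun i => h i i.2
    rw [Nat.card_eq_one_iff_unique]
    have hs : ∀ i : {x // ¬ (x ∈ S)}, Subsingleton (X i) :=
      fun i => (Nat.card_eq_one_iff_unique.mp (hu i)).1
    have hn : ∀ i : {x // ¬ (x ∈ S)}, Nonempty (X i) :=
      fun i => (Nat.card_eq_one_iff_unique.mp (hu i)).2
    exact ⟨inferInstance, inferInstance⟩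
  rw [h2, mul_one]
  exact Finset.prod_coe_sort S (fun v => Nat.card (X v))

end Card

section Pi

variable {ι : Type*} {A : ι → Type*} [∀ v, AddCommGroup (A v)]

/-- The componentwise endomorphism of a product. -/
def piEndo (f : ∀ v, A v →+ A v) : (∀ v, A v) →+ (∀ v, A v) :=
  AddMonoidHom.pi fun v => (f v).comp (Pi.evalAddMonoidHom A v)

@[simp] theorem piEndo_apply (f : ∀ v, A v →+ A v) (x : ∀ v, A v) (v : ι) :
    piEndo f x v = f v (x v) := rfl

theorem mem_ker_piEndo {f : ∀ v, A v →+ A v} {x : ∀ v, A v} :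
    x ∈ (piEndo f).ker ↔ ∀ v, x v ∈ (f v).ker := by
  simp only [AddMonoidHom.mem_ker]
  exact funext_iff

theorem mem_range_piEndo {g : ∀ v, A v →+ A v} {x : ∀ v, A v} :
    x ∈ (piEndo g).range ↔ ∀ v, x v ∈ (g v).range := by
  constructor
  · rintro ⟨y, rfl⟩ v
    exact ⟨y v, rfl⟩
  · intro h
    choose y hy using h
    exact ⟨y, funext hy⟩

/-- `ker f → ∏ ker f_v / im g_v`. -/
def tateProd_toPi (f g : ∀ v, A v →+ A v) :
    ↥(piEndo f).ker →+ ∀ v, kerModIm (f v) (g v) :=
  AddMonoidHom.pi fun v =>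
    (QuotientAddGroup.mk' ((g v).range.addSubgroupOf (f v).ker)).comp
      (((Pi.evalAddMonoidHom A v).comp (piEndo f).ker.subtype).codRestrict (f v).ker
        fun x => mem_ker_piEndo.mp x.2 v)

theorem tateProd_toPi_apply (f g : ∀ v, A v →+ A v) (x : ↥(piEndo f).ker) (v : ι) :
    tateProd_toPi f g x v =
      QuotientAddGroup.mk (⟨(x : ∀ v, A v) v, mem_ker_piEndo.mp x.2 v⟩ : ↥(f v).ker) := rfl

theorem tateProd_toPi_surjective (f g : ∀ v, A v →+ A v) :
    Function.Surjective (tateProd_toPi f g) := by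
  intro y
  have h : ∀ v, ∃ a : ↥(f v).ker, (QuotientAddGroup.mk a : kerModIm (f v) (g v)) = y v :=
    fun v => QuotientAddGroup.mk_surjective (y v)
  choose a ha using h
  refine ⟨⟨fun v => (a v : A v), mem_ker_piEndo.mpr fun v => (a v).2⟩, ?_⟩
  funext v
  rw [tateProd_toPi_apply]
  exact ha v

theorem tateProd_ker_toPi (f g : ∀ v, A v →+ A v) :
    (tateProd_toPi f g).ker = (piEndo g).range.addSubgroupOf (piEndo f).ker := by
  ext x
  rw [AddMonoidHom.mem_ker, AddSubgroup.mem_addSubgroupOf, mem_range_piEndo]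
  constructor
  · intro h v
    have hv := congrFun h v
    rw [tateProd_toPi_apply, Pi.zero_apply, QuotientAddGroup.eq_zero_iff,
      AddSubgroup.mem_addSubgroupOf] at hv
    exact hv
  · intro h
    funext v
    rw [tateProd_toPi_apply, Pi.zero_apply, QuotientAddGroup.eq_zero_iff,
      AddSubgroup.mem_addSubgroupOf]
    exact h v

/-- `ker f / im g` of a product is the product of the `ker f_v / im g_v`. -/
noncomputable def tateProd_kerModImEquiv (f g : ∀ v, A v →+ A v) :
    kerModIm (piEndo f) (piEndo g) ≃+ ∀ v, kerModIm (f v) (g v) :=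
  (QuotientAddGroup.quotientAddEquivOfEq (tateProd_ker_toPi f g).symm).trans
    (QuotientAddGroup.quotientKerEquivOfSurjective (tateProd_toPi f g)
      (tateProd_toPi_surjective f g))

/-- **`hIndex` of a product.** -/
theorem hIndex_piEndo (f g : ∀ v, A v →+ A v) (S : Finset ι)
    (h : ∀ v, v ∉ S → hIndex (f v) (g v) = 1) :
    hIndex (piEndo f) (piEndo g) = ∏ v ∈ S, hIndex (f v) (g v) := by
  rw [← natCard_kerModIm, Nat.card_congr (tateProd_kerModImEquiv f g).toEquiv,
    tateProd_natCard_pi _ S (fun v hv => by rw [natCard_kerModIm]; exact h v hv)]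
  rfl

/-- `hIndex` of a finite product. -/
theorem hIndex_piEndo_fintype [Fintype ι] (f g : ∀ v, A v →+ A v) :
    hIndex (piEndo f) (piEndo g) = ∏ v, hIndex (f v) (g v) :=
  hIndex_piEndo f g Finset.univ (fun v hv => absurd (Finset.mem_univ v) hv)

end Pi

section Cyclic

variable {G : Type*} [Group G] [Fintype G] {ι : Type*} (A : ι → Type*) [∀ v, AddCommGroup (A v)]
  [∀ v, DistribMulAction G (A v)]

theorem subOneHom_pi (σ : G) :
    subOneHom (∀ v, A v) σ = piEndo fun v => subOneHom (A v) σ := by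
  ext x v
  simp

theorem normHom_pi : normHom G (∀ v, A v) = piEndo fun v => normHom G (A v) := by
  ext x v
  simp [Finset.sum_apply]

/-- `|Ĥ⁰|` of a product of `G`-modules whose factors outside `S` have trivial `Ĥ⁰`. -/
theorem tateH0Card_pi (σ : G) (S : Finset ι) (h : ∀ v, v ∉ S → tateH0Card G (A v) σ = 1) :
    tateH0Card G (∀ v, A v) σ = ∏ v ∈ S, tateH0Card G (A v) σ := by
  unfold tateH0Card at h ⊢
  rw [subOneHom_pi, normHom_pi]
  exact hIndex_piEndo _ _ S h

/-- `|Ĥ¹|` of a product of `G`-modules whose factors outside `S` have trivial `Ĥ¹`. -/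
theorem tateH1Card_pi (σ : G) (S : Finset ι) (h : ∀ v, v ∉ S → tateH1Card G (A v) σ = 1) :
    tateH1Card G (∀ v, A v) σ = ∏ v ∈ S, tateH1Card G (A v) σ := by
  unfold tateH1Card at h ⊢
  rw [subOneHom_pi, normHom_pi]
  exact hIndex_piEndo _ _ S h

theorem tateH0Card_pi_fintype [Fintype ι] (σ : G) :
    tateH0Card G (∀ v, A v) σ = ∏ v, tateH0Card G (A v) σ :=
  tateH0Card_pi A σ Finset.univ (fun v hv => absurd (Finset.mem_univ v) hv)

theorem tateH1Card_pi_fintype [Fintype ι] (σ : G) :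
    tateH1Card G (∀ v, A v) σ = ∏ v, tateH1Card G (A v) σ :=
  tateH1Card_pi A σ Finset.univ (fun v hv => absurd (Finset.mem_univ v) hv)

/-- The Herbrand quotient of a product is defined as soon as the factors in `S` have defined
Herbrand quotients and the factors outside `S` have trivial Tate groups. -/
theorem herbrandDefinedCyclic_pi (σ : G) (S : Finset ι)
    (h0 : ∀ v, v ∉ S → tateH0Card G (A v) σ = 1) (h1 : ∀ v, v ∉ S → tateH1Card G (A v) σ = 1)
    (hS : ∀ v ∈ S, HerbrandDefinedCyclic G (A v) σ) :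
    HerbrandDefinedCyclic G (∀ v, A v) σ := by
  have e0 := tateH0Card_pi A σ S h0
  have e1 := tateH1Card_pi A σ S h1
  unfold tateH0Card at e0
  unfold tateH1Card at e1
  refine ⟨?_, ?_⟩
  · rw [e0]
    exact Finset.prod_ne_zero_iff.mpr fun v hv => (hS v hv).1
  · rw [e1]
    exact Finset.prod_ne_zero_iff.mpr fun v hv => (hS v hv).2

/-- **Herbrand quotient of a product.** -/
theorem herbrand_pi (σ : G) (S : Finset ι)
    (h0 : ∀ v, v ∉ S → tateH0Card G (A v) σ = 1) (h1 : ∀ v, v ∉ S → tateH1Card G (A v) σ = 1) :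
    herbrand G (∀ v, A v) σ = ∏ v ∈ S, herbrand G (A v) σ := by
  simp only [herbrand_eq]
  rw [tateH0Card_pi A σ S h0, tateH1Card_pi A σ S h1, Finset.prod_div_distrib]
  push_cast
  rfl

end Cyclic

section Box

variable {G : Type*} [Group G] [Fintype G] {ι : Type*} {A : ι → Type*} [∀ v, AddCommGroup (A v)]
  [∀ v, DistribMulAction G (A v)] (B : ∀ v, AddSubgroup (A v))

/-- The "box" subgroup `{x | ∀ v, x v ∈ B v}` of a product. -/
def boxSubgroup : AddSubgroup (∀ v, A v) := AddSubgroup.pi Set.univ B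

theorem mem_boxSubgroup {x : ∀ v, A v} : x ∈ boxSubgroup B ↔ ∀ v, x v ∈ B v := by
  simp [boxSubgroup, AddSubgroup.mem_pi]

omit [Fintype G] in
theorem smul_mem_boxSubgroup (hB : ∀ v (g : G), ∀ a ∈ B v, g • a ∈ B v) (g : G)
    (x : ∀ v, A v) (hx : x ∈ boxSubgroup B) : g • x ∈ boxSubgroup B := by
  rw [mem_boxSubgroup] at hx ⊢
  intro v
  rw [Pi.smul_apply]
  exact hB v g _ (hx v)

/-- The box subgroup is the product of its sides. -/
def boxEquiv : ↥(boxSubgroup B) ≃+ ∀ v, ↥(B v) where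
  toFun x v := ⟨(x : ∀ v, A v) v, (mem_boxSubgroup B).mp x.2 v⟩
  invFun y := ⟨fun v => (y v : A v), (mem_boxSubgroup B).mpr fun v => (y v).2⟩
  left_inv _ := rfl
  right_inv _ := rfl
  map_add' _ _ := rfl

@[simp] theorem coe_boxEquiv_apply (x : ↥(boxSubgroup B)) (v : ι) :
    ((boxEquiv B x v : ↥(B v)) : A v) = (x : ∀ v, A v) v := rfl

variable [DistribMulAction G ↥(boxSubgroup B)] [∀ v, DistribMulAction G ↥(B v)]

omit [Fintype G] in
/-- Equivariance of `boxEquiv`, for any actions on the box and on its sides which are restrictions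
of the ambient actions (e.g. `stableSubgroupAction`). -/
theorem boxEquiv_smul
    (hbox : ∀ (g : G) (x : ↥(boxSubgroup B)), ((g • x : ↥(boxSubgroup B)) : ∀ v, A v) = g • (x : ∀ v, A v))
    (hside : ∀ v (g : G) (b : ↥(B v)), ((g • b : ↥(B v)) : A v) = g • (b : A v))
    (g : G) (x : ↥(boxSubgroup B)) : boxEquiv B (g • x) = g • boxEquiv B x := by
  funext v
  apply Subtype.ext
  rw [coe_boxEquiv_apply, hbox, Pi.smul_apply, Pi.smul_apply, hside, coe_boxEquiv_apply]

/-- `|Ĥ⁰|` of a box subgroup. -/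
theorem tateH0Card_boxSubgroup
    (hbox : ∀ (g : G) (x : ↥(boxSubgroup B)), ((g • x : ↥(boxSubgroup B)) : ∀ v, A v) = g • (x : ∀ v, A v))
    (hside : ∀ v (g : G) (b : ↥(B v)), ((g • b : ↥(B v)) : A v) = g • (b : A v))
    (σ : G) (S : Finset ι) (h : ∀ v, v ∉ S → tateH0Card G ↥(B v) σ = 1) :
    tateH0Card G ↥(boxSubgroup B) σ = ∏ v ∈ S, tateH0Card G ↥(B v) σ := by
  rw [tateH0Card_congr (boxEquiv B) (boxEquiv_smul B hbox hside) σ]
  exact tateH0Card_pi (fun v => ↥(B v)) σ S h

/-- `|Ĥ¹|` of a box subgroup. -/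
theorem tateH1Card_boxSubgroup
    (hbox : ∀ (g : G) (x : ↥(boxSubgroup B)), ((g • x : ↥(boxSubgroup B)) : ∀ v, A v) = g • (x : ∀ v, A v))
    (hside : ∀ v (g : G) (b : ↥(B v)), ((g • b : ↥(B v)) : A v) = g • (b : A v))
    (σ : G) (S : Finset ι) (h : ∀ v, v ∉ S → tateH1Card G ↥(B v) σ = 1) :
    tateH1Card G ↥(boxSubgroup B) σ = ∏ v ∈ S, tateH1Card G ↥(B v) σ := by
  rw [tateH1Card_congr (boxEquiv B) (boxEquiv_smul B hbox hside) σ]
  exact tateH1Card_pi (fun v => ↥(B v)) σ S h

/-- Herbrand quotient of a box subgroup. -/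
theorem herbrand_boxSubgroup
    (hbox : ∀ (g : G) (x : ↥(boxSubgroup B)), ((g • x : ↥(boxSubgroup B)) : ∀ v, A v) = g • (x : ∀ v, A v))
    (hside : ∀ v (g : G) (b : ↥(B v)), ((g • b : ↥(B v)) : A v) = g • (b : A v))
    (σ : G) (S : Finset ι) (h0 : ∀ v, v ∉ S → tateH0Card G ↥(B v) σ = 1)
    (h1 : ∀ v, v ∉ S → tateH1Card G ↥(B v) σ = 1) :
    herbrand G ↥(boxSubgroup B) σ = ∏ v ∈ S, herbrand G ↥(B v) σ := by
  rw [herbrand_congr (boxEquiv B) (boxEquiv_smul B hbox hside) σ]
  exact herbrand_pi (fun v => ↥(B v)) σ S h0 h1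

theorem herbrandDefinedCyclic_boxSubgroup
    (hbox : ∀ (g : G) (x : ↥(boxSubgroup B)), ((g • x : ↥(boxSubgroup B)) : ∀ v, A v) = g • (x : ∀ v, A v))
    (hside : ∀ v (g : G) (b : ↥(B v)), ((g • b : ↥(B v)) : A v) = g • (b : A v))
    (σ : G) (S : Finset ι) (h0 : ∀ v, v ∉ S → tateH0Card G ↥(B v) σ = 1)
    (h1 : ∀ v, v ∉ S → tateH1Card G ↥(B v) σ = 1)
    (hS : ∀ v ∈ S, HerbrandDefinedCyclic G ↥(B v) σ) :
    HerbrandDefinedCyclic G ↥(boxSubgroup B) σ := by
  rw [herbrandDefinedCyclic_congr (boxEquiv B) (boxEquiv_smul B hbox hside) σ]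
  exact herbrandDefinedCyclic_pi (fun v => ↥(B v)) σ S h0 h1 hS

end Box

end Fermat.Agent.CFT
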