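import Mathlib
import Fermat.Agent.CFT.Idele.TateProd

set_option autoImplicit false

/-!
# CFT, S55 pool, (GL9) part (d): box subgroups with full sides on a finite set

`J_{L,T} = {x | ∀ v ∉ T, x v ∈ B v}` has `|Ĥ^i| = ∏_{v ∈ T} |Ĥ^i (A v)|` as soon as the `B v`,
`v ∉ T`, have trivial Tate groups.
-/

namespace Fermat.Agent.CFT

section Top

variable {G : Type*} [Group G] [Fintype G] {A : Type*} [AddCommGroup A] [DistribMulAction G A]
  (H : AddSubgroup A) [DistribMulAction G ↥H]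

/-- A subgroup equal to `⊤` is the whole group. -/
noncomputable def tateProd_equivOfEqTop (hH : H = ⊤) : ↥H ≃+ A :=
  AddEquiv.ofBijective H.subtype
    ⟨H.subtype_injective, fun a => ⟨⟨a, hH ▸ AddSubgroup.mem_top a⟩, rfl⟩⟩

theorem tateH0Card_of_eq_top (hH : H = ⊤)
    (hside : ∀ (g : G) (b : ↥H), ((g • b : ↥H) : A) = g • (b : A)) (σ : G) :
    tateH0Card G ↥H σ = tateH0Card G A σ :=
  tateH0Card_congr (tateProd_equivOfEqTop H hH) (fun g b => hside g b) σ

theorem tateH1Card_of_eq_top (hH : H = ⊤)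
    (hside : ∀ (g : G) (b : ↥H), ((g • b : ↥H) : A) = g • (b : A)) (σ : G) :
    tateH1Card G ↥H σ = tateH1Card G A σ :=
  tateH1Card_congr (tateProd_equivOfEqTop H hH) (fun g b => hside g b) σ

theorem herbrand_of_eq_top (hH : H = ⊤)
    (hside : ∀ (g : G) (b : ↥H), ((g • b : ↥H) : A) = g • (b : A)) (σ : G) :
    herbrand G ↥H σ = herbrand G A σ :=
  herbrand_congr (tateProd_equivOfEqTop H hH) (fun g b => hside g b) σ

theorem herbrandDefinedCyclic_of_eq_top (hH : H = ⊤)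
    (hside : ∀ (g : G) (b : ↥H), ((g • b : ↥H) : A) = g • (b : A)) (σ : G) :
    HerbrandDefinedCyclic G ↥H σ ↔ HerbrandDefinedCyclic G A σ :=
  herbrandDefinedCyclic_congr (tateProd_equivOfEqTop H hH) (fun g b => hside g b) σ

end Top

section BoxTop

variable {G : Type*} [Group G] [Fintype G] {ι : Type*} {A : ι → Type*} [∀ v, AddCommGroup (A v)]
  [∀ v, DistribMulAction G (A v)] (B : ∀ v, AddSubgroup (A v))
  [DistribMulAction G ↥(boxSubgroup B)] [∀ v, DistribMulAction G ↥(B v)]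

/-- `|Ĥ⁰|` of `J_T = ∏_{v ∈ T} A_v × ∏_{v ∉ T} B_v`. -/
theorem tateH0Card_boxSubgroup_of_top (T : Finset ι) (hT : ∀ v ∈ T, B v = ⊤)
    (hbox : ∀ (g : G) (x : ↥(boxSubgroup B)),
      ((g • x : ↥(boxSubgroup B)) : ∀ v, A v) = g • (x : ∀ v, A v))
    (hside : ∀ v (g : G) (b : ↥(B v)), ((g • b : ↥(B v)) : A v) = g • (b : A v))
    (σ : G) (h : ∀ v, v ∉ T → tateH0Card G ↥(B v) σ = 1) :
    tateH0Card G ↥(boxSubgroup B) σ = ∏ v ∈ T, tateH0Card G (A v) σ := by
  rw [tateH0Card_boxSubgroup B hbox hside σ T h]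
  exact Finset.prod_congr rfl fun v hv => tateH0Card_of_eq_top (B v) (hT v hv) (hside v) σ

/-- `|Ĥ¹|` of `J_T = ∏_{v ∈ T} A_v × ∏_{v ∉ T} B_v`. -/
theorem tateH1Card_boxSubgroup_of_top (T : Finset ι) (hT : ∀ v ∈ T, B v = ⊤)
    (hbox : ∀ (g : G) (x : ↥(boxSubgroup B)),
      ((g • x : ↥(boxSubgroup B)) : ∀ v, A v) = g • (x : ∀ v, A v))
    (hside : ∀ v (g : G) (b : ↥(B v)), ((g • b : ↥(B v)) : A v) = g • (b : A v))
    (σ : G) (h : ∀ v, v ∉ T → tateH1Card G ↥(B v) σ = 1) :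
    tateH1Card G ↥(boxSubgroup B) σ = ∏ v ∈ T, tateH1Card G (A v) σ := by
  rw [tateH1Card_boxSubgroup B hbox hside σ T h]
  exact Finset.prod_congr rfl fun v hv => tateH1Card_of_eq_top (B v) (hT v hv) (hside v) σ

/-- Herbrand quotient of `J_T`. -/
theorem herbrand_boxSubgroup_of_top (T : Finset ι) (hT : ∀ v ∈ T, B v = ⊤)
    (hbox : ∀ (g : G) (x : ↥(boxSubgroup B)),
      ((g • x : ↥(boxSubgroup B)) : ∀ v, A v) = g • (x : ∀ v, A v))
    (hside : ∀ v (g : G) (b : ↥(B v)), ((g • b : ↥(B v)) : A v) = g • (b : A v))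
    (σ : G) (h0 : ∀ v, v ∉ T → tateH0Card G ↥(B v) σ = 1)
    (h1 : ∀ v, v ∉ T → tateH1Card G ↥(B v) σ = 1) :
    herbrand G ↥(boxSubgroup B) σ = ∏ v ∈ T, herbrand G (A v) σ := by
  rw [herbrand_boxSubgroup B hbox hside σ T h0 h1]
  exact Finset.prod_congr rfl fun v hv => herbrand_of_eq_top (B v) (hT v hv) (hside v) σ

theorem herbrandDefinedCyclic_boxSubgroup_of_top (T : Finset ι) (hT : ∀ v ∈ T, B v = ⊤)
    (hbox : ∀ (g : G) (x : ↥(boxSubgroup B)),
      ((g • x : ↥(boxSubgroup B)) : ∀ v, A v) = g • (x : ∀ v, A v))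
    (hside : ∀ v (g : G) (b : ↥(B v)), ((g • b : ↥(B v)) : A v) = g • (b : A v))
    (σ : G) (h0 : ∀ v, v ∉ T → tateH0Card G ↥(B v) σ = 1)
    (h1 : ∀ v, v ∉ T → tateH1Card G ↥(B v) σ = 1)
    (hS : ∀ v ∈ T, HerbrandDefinedCyclic G (A v) σ) :
    HerbrandDefinedCyclic G ↥(boxSubgroup B) σ :=
  herbrandDefinedCyclic_boxSubgroup B hbox hside σ T h0 h1 fun v hv =>
    (herbrandDefinedCyclic_of_eq_top (B v) (hT v hv) (hside v) σ).mpr (hS v hv)

end BoxTop

section Outside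

variable {ι : Type*} {A : ι → Type*} [∀ v, AddCommGroup (A v)]

open Classical in
/-- The sides of `J_T`: everything at `v ∈ T`, `B v` at `v ∉ T`. -/
noncomputable def outsideSides (T : Finset ι) (B : ∀ v, AddSubgroup (A v)) (v : ι) :
    AddSubgroup (A v) := if v ∈ T then ⊤ else B v

theorem outsideSides_of_mem {T : Finset ι} (B : ∀ v, AddSubgroup (A v)) {v : ι} (hv : v ∈ T) :
    outsideSides T B v = ⊤ := by
  unfold outsideSides; rw [if_pos hv]

theorem outsideSides_of_not_mem {T : Finset ι} (B : ∀ v, AddSubgroup (A v)) {v : ι} (hv : v ∉ T) :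
    outsideSides T B v = B v := by
  unfold outsideSides; rw [if_neg hv]

theorem mem_boxSubgroup_outsideSides {T : Finset ι} {B : ∀ v, AddSubgroup (A v)} {x : ∀ v, A v} :
    x ∈ boxSubgroup (outsideSides T B) ↔ ∀ v, v ∉ T → x v ∈ B v := by
  rw [mem_boxSubgroup]
  constructor
  · intro h v hv
    have := h v
    rwa [outsideSides_of_not_mem B hv] at this
  · intro h v
    by_cases hv : v ∈ T
    · rw [outsideSides_of_mem B hv]; exact AddSubgroup.mem_top _
    · rw [outsideSides_of_not_mem B hv]; exact h v hv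

end Outside

end Fermat.Agent.CFT
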