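/-
CFT, S55 pool, GLOBAL-IDELIC layer (GL10), concrete half (helper23): the first inequality
`h(G, C_L) = [L : K]` for the idele class group of `Idele/Defs.lean`.

`L/K` a cyclic extension of number fields with group `G = Gal(L/K) = ⟨σ⟩`, `S` a finite set of
primes of `K`.  We instantiate the abstract statement `Idele/FirstIneqAbs.lean` (helper11) with

* `Lx = Additive Lˣ`, `J = Additive (ideleGroup K L)`, `C = Additive (ideleClass K L)`,
* `JS = (ideleGroupS K L S).toAddSubgroup` (helper4's `S`-ideles),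
* `US = Additive (sUnit L (primesAbove K L S))` (helper27's `S`-units),

and compute `h(JS)` through helper19's box subgroups (`Idele/TateProdTop.lean`) and `h(US)`
through `herbrand_sUnit_primesAbove` (helper27).  The three inputs which are proved elsewhere are
explicit hypotheses:

* (GL6) `principalIdeles K L ⊔ ideleGroupS K L S = ⊤`;
* (GL7) the local unit groups `semiLocalUnits K L v`, `v ∉ S`, have trivial Tate groups;
* (GL8) `h(G, (L_v)ˣ) = n_v` for `v ∈ S`, where `n_v` is the order of the decomposition group of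
  any prime `w ∣ v` of `L`.
-/
import Mathlib
import Fermat.Agent.CFT.Idele.ClassGroup
import Fermat.Agent.CFT.Idele.IntegralSUnits
import Fermat.Agent.CFT.Idele.FirstIneqAbs
import Fermat.Agent.CFT.Idele.TateProdTop

set_option autoImplicit false
set_option linter.unusedSectionVars false
set_option linter.style.haveILetI false

open NumberField IsDedekindDomain IsDedekindDomain.HeightOneSpectrum
open scoped TensorProduct Fermat.Agent.CFT.TensorGal Fermat.Agent.CFT.IdeleAct

namespace Fermat.Agent.CFT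

attribute [local instance] additiveDistribMulAction heightOneSpectrumMulAction

section Transport

variable {G : Type*} [Group G] [Fintype G] {A : Type*} [AddCommGroup A] [DistribMulAction G A]

/-- Tate cardinalities only depend on the underlying set of a stable subgroup. -/
theorem idFI_tateH0Card_of_eq {H H' : AddSubgroup A} (h : H = H')
    (hH : ∀ (g : G), ∀ a ∈ H, g • a ∈ H) (hH' : ∀ (g : G), ∀ a ∈ H', g • a ∈ H') (σ : G) :
    (letI := stableSubgroupAction H hH; tateH0Card G ↥H σ) =
      (letI := stableSubgroupAction H' hH'; tateH0Card G ↥H' σ) := by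
  subst h
  rfl

theorem idFI_tateH1Card_of_eq {H H' : AddSubgroup A} (h : H = H')
    (hH : ∀ (g : G), ∀ a ∈ H, g • a ∈ H) (hH' : ∀ (g : G), ∀ a ∈ H', g • a ∈ H') (σ : G) :
    (letI := stableSubgroupAction H hH; tateH1Card G ↥H σ) =
      (letI := stableSubgroupAction H' hH'; tateH1Card G ↥H' σ) := by
  subst h
  rfl

end Transport

section Bridge

variable {K L : Type*} [Field K] [NumberField K] [Field L] [NumberField L] [Algebra K L]

/-- The local unit groups as additive subgroups of `Additive (L_v)ˣ`. -/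
noncomputable abbrev idFI_unitsSide (v : HeightOneSpectrum (𝓞 K)) :
    AddSubgroup (Additive (semiLocal K L v)ˣ) :=
  (semiLocalUnits K L v).toAddSubgroup

theorem idFI_smul_mem_unitsSide (v : HeightOneSpectrum (𝓞 K)) (g : Gal(L/K))
    (a : Additive (semiLocal K L v)ˣ) (ha : a ∈ idFI_unitsSide (K := K) (L := L) v) :
    g • a ∈ idFI_unitsSide (K := K) (L := L) v :=
  smul_mem_semiLocalUnits g ha


variable (K L) in
/-- `J_{L,S}` as an additive subgroup of `Additive J_L`. -/
noncomputable abbrev idFI_JS (S : Finset (HeightOneSpectrum (𝓞 K))) :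
    AddSubgroup (Additive (ideleGroup K L)) :=
  (ideleGroupS K L (S : Set (HeightOneSpectrum (𝓞 K)))).toAddSubgroup

theorem idFI_smul_mem_JS (S : Finset (HeightOneSpectrum (𝓞 K))) (g : Gal(L/K))
    (a : Additive (ideleGroup K L)) (ha : a ∈ idFI_JS K L S) : g • a ∈ idFI_JS K L S :=
  smul_mem_ideleGroupS g ha

variable (K L) in
/-- The box `∏_{v ∈ S} (L_v)ˣ × ∏_{v ∉ S} O_{L,v}ˣ`. -/
noncomputable abbrev idFI_box (S : Finset (HeightOneSpectrum (𝓞 K))) :
    AddSubgroup (∀ v : HeightOneSpectrum (𝓞 K), Additive (semiLocal K L v)ˣ) :=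
  boxSubgroup (outsideSides S fun v => idFI_unitsSide (K := K) (L := L) v)

theorem idFI_smul_mem_outsideSides (S : Finset (HeightOneSpectrum (𝓞 K)))
    (v : HeightOneSpectrum (𝓞 K)) (g : Gal(L/K)) (a : Additive (semiLocal K L v)ˣ)
    (ha : a ∈ outsideSides S (fun v => idFI_unitsSide (K := K) (L := L) v) v) :
    g • a ∈ outsideSides S (fun v => idFI_unitsSide (K := K) (L := L) v) v := by
  by_cases hv : v ∈ S
  · rw [outsideSides_of_mem _ hv]
    exact AddSubgroup.mem_top _
  · rw [outsideSides_of_not_mem _ hv] at ha ⊢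
    exact idFI_smul_mem_unitsSide v g a ha

theorem idFI_smul_mem_box (S : Finset (HeightOneSpectrum (𝓞 K))) (g : Gal(L/K))
    (x : ∀ v : HeightOneSpectrum (𝓞 K), Additive (semiLocal K L v)ˣ) (hx : x ∈ idFI_box K L S) :
    g • x ∈ idFI_box K L S :=
  smul_mem_boxSubgroup _ (idFI_smul_mem_outsideSides S) g x hx

/-- an element of the box is an idele -/
theorem idFI_mem_ideleGroup_of_mem_box (S : Finset (HeightOneSpectrum (𝓞 K)))
    (x : ∀ v : HeightOneSpectrum (𝓞 K), Additive (semiLocal K L v)ˣ) (hx : x ∈ idFI_box K L S) :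
    (fun v => Additive.toMul (x v)) ∈ ideleGroup K L := by
  rw [mem_ideleGroup_iff]
  rw [mem_boxSubgroup_outsideSides] at hx
  rw [Filter.eventually_cofinite]
  refine S.finite_toSet.subset fun v hv => ?_
  by_contra hvS
  exact hv (hx v hvS)

/-- `J_{L,S}` is the box. -/
noncomputable def idFI_JSEquivBox (S : Finset (HeightOneSpectrum (𝓞 K))) :
    ↥(idFI_JS K L S) ≃+ ↥(idFI_box K L S) where
  toFun x := ⟨fun v => Additive.ofMul ((Additive.toMul (x : Additive (ideleGroup K L)) :
      ideleGroup K L) : ∀ v, (semiLocal K L v)ˣ) v,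
    mem_boxSubgroup_outsideSides.mpr fun v hv => x.2 v hv⟩
  invFun y := ⟨Additive.ofMul ⟨fun v => Additive.toMul ((y : ∀ v, Additive (semiLocal K L v)ˣ) v),
      idFI_mem_ideleGroup_of_mem_box S _ y.2⟩,
    fun v hv => mem_boxSubgroup_outsideSides.mp y.2 v hv⟩
  left_inv _ := rfl
  right_inv _ := rfl
  map_add' _ _ := rfl


theorem idFI_JSEquivBox_smul (S : Finset (HeightOneSpectrum (𝓞 K))) (g : Gal(L/K))
    (x : ↥(idFI_JS K L S)) :
    letI := stableSubgroupAction (idFI_JS K L S) (idFI_smul_mem_JS S)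
    letI := stableSubgroupAction (idFI_box K L S) (idFI_smul_mem_box S)
    idFI_JSEquivBox S (g • x) = g • idFI_JSEquivBox S x := by
  rfl

variable [Fintype Gal(L/K)]

/-- **Herbrand quotient of the `S`-ideles**: `h(J_{L,S}) = ∏_{v ∈ S} h((L_v)ˣ)`, as soon as the
local unit groups outside `S` have trivial Tate groups. -/
theorem idFI_herbrand_JS (S : Finset (HeightOneSpectrum (𝓞 K))) (σ : Gal(L/K))
    (hunr : ∀ v : HeightOneSpectrum (𝓞 K), v ∉ S →
      letI := stableSubgroupAction (idFI_unitsSide (K := K) (L := L) v) (idFI_smul_mem_unitsSide v)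
      tateH0Card Gal(L/K) ↥(idFI_unitsSide (K := K) (L := L) v) σ = 1 ∧
        tateH1Card Gal(L/K) ↥(idFI_unitsSide (K := K) (L := L) v) σ = 1)
    (hloc : ∀ v ∈ S, HerbrandDefinedCyclic Gal(L/K) (Additive (semiLocal K L v)ˣ) σ) :
    letI := stableSubgroupAction (idFI_JS K L S) (idFI_smul_mem_JS S)
    HerbrandDefinedCyclic Gal(L/K) ↥(idFI_JS K L S) σ ∧
      herbrand Gal(L/K) ↥(idFI_JS K L S) σ =
        ∏ v ∈ S, herbrand Gal(L/K) (Additive (semiLocal K L v)ˣ) σ := by
  letI iJS := stableSubgroupAction (idFI_JS K L S) (idFI_smul_mem_JS S)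
  letI ibox : DistribMulAction Gal(L/K)
      ↥(boxSubgroup (outsideSides S fun v => idFI_unitsSide (K := K) (L := L) v)) :=
    stableSubgroupAction (idFI_box K L S) (idFI_smul_mem_box S)
  letI iside : ∀ v, DistribMulAction Gal(L/K)
      ↥(outsideSides S (fun v => idFI_unitsSide (K := K) (L := L) v) v) := fun v =>
    stableSubgroupAction _ (idFI_smul_mem_outsideSides S v)
  have h0 : ∀ v, v ∉ S → tateH0Card Gal(L/K)
      ↥(outsideSides S (fun v => idFI_unitsSide (K := K) (L := L) v) v) σ = 1 := by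
    intro v hv
    rw [← (hunr v hv).1]
    exact idFI_tateH0Card_of_eq
      (outsideSides_of_not_mem (fun v => idFI_unitsSide (K := K) (L := L) v) hv) _ _ σ
  have h1 : ∀ v, v ∉ S → tateH1Card Gal(L/K)
      ↥(outsideSides S (fun v => idFI_unitsSide (K := K) (L := L) v) v) σ = 1 := by
    intro v hv
    rw [← (hunr v hv).2]
    exact idFI_tateH1Card_of_eq
      (outsideSides_of_not_mem (fun v => idFI_unitsSide (K := K) (L := L) v) hv) _ _ σ
  have hT : ∀ v ∈ S, outsideSides S (fun v => idFI_unitsSide (K := K) (L := L) v) v = ⊤ :=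
    fun v hv => outsideSides_of_mem (fun v => idFI_unitsSide (K := K) (L := L) v) hv
  have hbox : ∀ (g : Gal(L/K))
      (x : ↥(boxSubgroup (outsideSides S fun v => idFI_unitsSide (K := K) (L := L) v))),
      ((g • x : ↥(boxSubgroup (outsideSides S fun v => idFI_unitsSide (K := K) (L := L) v))) :
        ∀ v, Additive (semiLocal K L v)ˣ) = g • (x : ∀ v, Additive (semiLocal K L v)ˣ) :=
    fun _ _ => rfl
  have hside : ∀ v (g : Gal(L/K))
      (b : ↥(outsideSides S (fun v => idFI_unitsSide (K := K) (L := L) v) v)),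
      ((g • b : ↥(outsideSides S (fun v => idFI_unitsSide (K := K) (L := L) v) v)) :
        Additive (semiLocal K L v)ˣ) = g • (b : Additive (semiLocal K L v)ˣ) :=
    fun _ _ _ => rfl
  have hd := herbrandDefinedCyclic_boxSubgroup_of_top (G := Gal(L/K))
    (A := fun v : HeightOneSpectrum (𝓞 K) => Additive (semiLocal K L v)ˣ)
    (outsideSides S fun v => idFI_unitsSide (K := K) (L := L) v) S hT hbox hside σ h0 h1 hloc
  have hv := herbrand_boxSubgroup_of_top (G := Gal(L/K))
    (A := fun v : HeightOneSpectrum (𝓞 K) => Additive (semiLocal K L v)ˣ)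
    (outsideSides S fun v => idFI_unitsSide (K := K) (L := L) v) S hT hbox hside σ h0 h1
  have he : ∀ (g : Gal(L/K)) (x : ↥(idFI_JS K L S)),
      idFI_JSEquivBox S (g • x) = g • idFI_JSEquivBox S x :=
    fun g x => idFI_JSEquivBox_smul S g x
  exact ⟨(herbrandDefinedCyclic_congr (idFI_JSEquivBox (K := K) (L := L) S) he σ).mpr hd,
    (herbrand_congr (idFI_JSEquivBox (K := K) (L := L) S) he σ).trans hv⟩

end Bridge

section Main

open MulAction

variable {K L : Type*} [Field K] [NumberField K] [Field L] [NumberField L] [Algebra K L]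
  [IsGalois K L] [Fintype Gal(L/K)]

/-- **The Herbrand quotient of the idele class group** of a cyclic extension `L/K` of number
fields unramified at the infinite places (e.g. of odd degree): `h(G, C_L) = [L : K]`.
Inputs: (GL6) `J_L = Lˣ J_{L,S}`, (GL7) the unit groups outside `S` have trivial Tate groups,
(GL8) `h((L_v)ˣ) = n_v` for `v ∈ S`, with `n_v` the order of the decomposition groups over `v`. -/
theorem idFI_herbrand_ideleClass [IsUnramifiedAtInfinitePlaces K L]
    (S : Finset (HeightOneSpectrum (𝓞 K))) {σ : Gal(L/K)}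
    (hσ : ∀ τ, τ ∈ Subgroup.zpowers σ)
    (hgen : principalIdeles K L ⊔ ideleGroupS K L (S : Set (HeightOneSpectrum (𝓞 K))) = ⊤)
    (hunr : ∀ v : HeightOneSpectrum (𝓞 K), v ∉ S →
      letI := stableSubgroupAction (idFI_unitsSide (K := K) (L := L) v) (idFI_smul_mem_unitsSide v)
      tateH0Card Gal(L/K) ↥(idFI_unitsSide (K := K) (L := L) v) σ = 1 ∧
        tateH1Card Gal(L/K) ↥(idFI_unitsSide (K := K) (L := L) v) σ = 1)
    (n : HeightOneSpectrum (𝓞 K) → ℕ)
    (hloc : ∀ v ∈ S, HerbrandDefinedCyclic Gal(L/K) (Additive (semiLocal K L v)ˣ) σ ∧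
      herbrand Gal(L/K) (Additive (semiLocal K L v)ˣ) σ = n v)
    (hn : ∀ w : HeightOneSpectrum (𝓞 L), primeBelow K L w ∈ S →
      Nat.card (stabilizer Gal(L/K) w) = n (primeBelow K L w)) :
    HerbrandDefinedCyclic Gal(L/K) (Additive (ideleClass K L)) σ ∧
      herbrand Gal(L/K) (Additive (ideleClass K L)) σ = Fintype.card Gal(L/K) := by
  classical
  letI iUS := sUnitMulDistribMulAction K L (primesAbove K L S) (smul_mem_primesAbove K L S)
  letI iJS := stableSubgroupAction (idFI_JS K L S) (idFI_smul_mem_JS S)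
  letI : Fintype (orbitRel.Quotient Gal(L/K) (InfinitePlace L)) := Fintype.ofFinite _
  -- the `S`-units
  obtain ⟨hUdef, hUval⟩ := herbrand_sUnit_primesAbove K L S hσ n hn
  have hinf : (∏ o : orbitRel.Quotient Gal(L/K) (InfinitePlace L),
      (Nat.card (stabilizer Gal(L/K) o.out) : ℚ)) = 1 := by
    refine Finset.prod_eq_one fun o _ => ?_
    rw [(NumberField.InfinitePlace.isUnramified K o.out).stabilizer_eq_bot, Subgroup.card_bot,
      Nat.cast_one]
  rw [hinf] at hUval
  -- the `S`-ideles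
  obtain ⟨hJdef, hJval⟩ := idFI_herbrand_JS S σ hunr (fun v hv => (hloc v hv).1)
  have hJval' : herbrand Gal(L/K) ↥(idFI_JS K L S) σ = ∏ v ∈ S, (n v : ℚ) := by
    rw [hJval]
    exact Finset.prod_congr rfl fun v hv => (hloc v hv).2
  -- the maps
  let ι : Additive Lˣ →+ Additive (ideleGroup K L) :=
    MonoidHom.toAdditive (diagIdele (K := K) (L := L))
  have hι : Function.Injective ι := diagIdele_injective
  have hιG : ∀ (τ : Gal(L/K)) (x : Additive Lˣ), ι (τ • x) = τ • ι x :=
    fun τ x => diagIdele_smul τ (Additive.toMul x)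
  let π : Additive (ideleGroup K L) →+ Additive (ideleClass K L) :=
    MonoidHom.toAdditive (QuotientGroup.mk' (principalIdeles K L))
  have hπ : Function.Surjective π := QuotientGroup.mk'_surjective (principalIdeles K L)
  have hπG : ∀ (τ : Gal(L/K)) (x : Additive (ideleGroup K L)), π (τ • x) = τ • π x :=
    fun τ x => rfl
  have hex : ι.range = π.ker := by
    ext x
    rw [AddMonoidHom.mem_ker]
    change Additive.toMul x ∈ (diagIdele (K := K) (L := L)).range ↔
      (QuotientGroup.mk' (principalIdeles K L)) (Additive.toMul x) = 1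
    rw [← MonoidHom.mem_ker, QuotientGroup.ker_mk']
    rfl
  let jS : ↥(idFI_JS K L S) →+ Additive (ideleGroup K L) := (idFI_JS K L S).subtype
  have hjS : Function.Injective jS := Subtype.val_injective
  have hjSG : ∀ (τ : Gal(L/K)) (x : ↥(idFI_JS K L S)), jS (τ • x) = τ • jS x := fun _ _ => rfl
  let uS : Additive (sUnit L (primesAbove K L S)) →+ Additive Lˣ :=
    MonoidHom.toAdditive (sUnit L (primesAbove K L S)).subtype
  have huS : Function.Injective uS := Subtype.val_injective
  have huSG : ∀ (τ : Gal(L/K)) (x : Additive (sUnit L (primesAbove K L S))),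
      uS (τ • x) = τ • uS x := fun _ _ => rfl
  have hUS : uS.range = jS.range.comap ι := by
    ext x
    rw [AddSubgroup.mem_comap, AddSubgroup.range_subtype]
    change Additive.toMul x ∈ (sUnit L (primesAbove K L S)).subtype.range ↔
      diagIdele (K := K) (Additive.toMul x) ∈
        ideleGroupS K L (S : Set (HeightOneSpectrum (𝓞 K)))
    rw [Subgroup.range_subtype, ← comap_diagIdele_ideleGroupS_primesAbove, Subgroup.mem_comap]
  have hgen' : ι.range ⊔ jS.range = ⊤ := by
    rw [AddSubgroup.range_subtype, eq_top_iff]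
    intro x _
    have hx : Additive.toMul x ∈
        principalIdeles K L ⊔ ideleGroupS K L (S : Set (HeightOneSpectrum (𝓞 K))) :=
      hgen ▸ Subgroup.mem_top _
    obtain ⟨a, ha, b, hb, hab⟩ := Subgroup.mem_sup.mp hx
    obtain ⟨y, rfl⟩ := ha
    refine AddSubgroup.mem_sup.mpr ⟨ι (Additive.ofMul y), ⟨_, rfl⟩, Additive.ofMul b, hb, ?_⟩
    exact congrArg Additive.ofMul hab
  have hcard : (Fintype.card Gal(L/K) : ℚ) ≠ 0 := by
    exact_mod_cast Fintype.card_ne_zero
  exact idele1_herbrand_class_eq ι hι hιG π hπ hπG hex jS hjS hjSG uS huS huSG hUS hgen'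
    hJdef hUdef hJval' (by rw [hUval, mul_assoc, one_div, inv_mul_cancel₀ hcard, mul_one])

/-- **The first inequality** `[L : K] ≤ |Ĥ⁰(G, C_L)|`, more precisely
`|Ĥ⁰(G, C_L)| = [L : K] * |Ĥ¹(G, C_L)|` with both sides finite and nonzero. -/
theorem idFI_first_inequality [IsUnramifiedAtInfinitePlaces K L]
    (S : Finset (HeightOneSpectrum (𝓞 K))) {σ : Gal(L/K)}
    (hσ : ∀ τ, τ ∈ Subgroup.zpowers σ)
    (hgen : principalIdeles K L ⊔ ideleGroupS K L (S : Set (HeightOneSpectrum (𝓞 K))) = ⊤)
    (hunr : ∀ v : HeightOneSpectrum (𝓞 K), v ∉ S →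
      letI := stableSubgroupAction (idFI_unitsSide (K := K) (L := L) v) (idFI_smul_mem_unitsSide v)
      tateH0Card Gal(L/K) ↥(idFI_unitsSide (K := K) (L := L) v) σ = 1 ∧
        tateH1Card Gal(L/K) ↥(idFI_unitsSide (K := K) (L := L) v) σ = 1)
    (n : HeightOneSpectrum (𝓞 K) → ℕ)
    (hloc : ∀ v ∈ S, HerbrandDefinedCyclic Gal(L/K) (Additive (semiLocal K L v)ˣ) σ ∧
      herbrand Gal(L/K) (Additive (semiLocal K L v)ˣ) σ = n v)
    (hn : ∀ w : HeightOneSpectrum (𝓞 L), primeBelow K L w ∈ S →
      Nat.card (stabilizer Gal(L/K) w) = n (primeBelow K L w)) :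
    tateH0Card Gal(L/K) (Additive (ideleClass K L)) σ =
        Fintype.card Gal(L/K) * tateH1Card Gal(L/K) (Additive (ideleClass K L)) σ ∧
      Fintype.card Gal(L/K) ≤ tateH0Card Gal(L/K) (Additive (ideleClass K L)) σ ∧
      tateH0Card Gal(L/K) (Additive (ideleClass K L)) σ ≠ 0 ∧
      tateH1Card Gal(L/K) (Additive (ideleClass K L)) σ ≠ 0 := by
  obtain ⟨hC, h⟩ := idFI_herbrand_ideleClass S hσ hgen hunr n hloc hn
  have h1 : tateH1Card Gal(L/K) (Additive (ideleClass K L)) σ ≠ 0 := hC.2
  have h0 : tateH0Card Gal(L/K) (Additive (ideleClass K L)) σ ≠ 0 := hC.1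
  have hmul : tateH0Card Gal(L/K) (Additive (ideleClass K L)) σ =
      Fintype.card Gal(L/K) * tateH1Card Gal(L/K) (Additive (ideleClass K L)) σ := by
    rw [herbrand_eq, div_eq_iff (by exact_mod_cast h1)] at h
    exact_mod_cast h
  refine ⟨hmul, ?_, h0, h1⟩
  rw [hmul]
  exact Nat.le_mul_of_pos_right _ (Nat.pos_of_ne_zero h1)

/-- `h(G, C_L) = [L : K]` for a cyclic extension of odd degree. -/
theorem idFI_herbrand_ideleClass_of_odd (hodd : Odd (Module.finrank K L))
    (S : Finset (HeightOneSpectrum (𝓞 K))) {σ : Gal(L/K)}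
    (hσ : ∀ τ, τ ∈ Subgroup.zpowers σ)
    (hgen : principalIdeles K L ⊔ ideleGroupS K L (S : Set (HeightOneSpectrum (𝓞 K))) = ⊤)
    (hunr : ∀ v : HeightOneSpectrum (𝓞 K), v ∉ S →
      letI := stableSubgroupAction (idFI_unitsSide (K := K) (L := L) v) (idFI_smul_mem_unitsSide v)
      tateH0Card Gal(L/K) ↥(idFI_unitsSide (K := K) (L := L) v) σ = 1 ∧
        tateH1Card Gal(L/K) ↥(idFI_unitsSide (K := K) (L := L) v) σ = 1)
    (n : HeightOneSpectrum (𝓞 K) → ℕ)
    (hloc : ∀ v ∈ S, HerbrandDefinedCyclic Gal(L/K) (Additive (semiLocal K L v)ˣ) σ ∧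
      herbrand Gal(L/K) (Additive (semiLocal K L v)ˣ) σ = n v)
    (hn : ∀ w : HeightOneSpectrum (𝓞 L), primeBelow K L w ∈ S →
      Nat.card (stabilizer Gal(L/K) w) = n (primeBelow K L w)) :
    HerbrandDefinedCyclic Gal(L/K) (Additive (ideleClass K L)) σ ∧
      herbrand Gal(L/K) (Additive (ideleClass K L)) σ = Module.finrank K L := by
  have := IsUnramifiedAtInfinitePlaces_of_odd_finrank hodd
  have hcard : Fintype.card Gal(L/K) = Module.finrank K L := by
    rw [← Nat.card_eq_fintype_card]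
    exact IsGalois.card_aut_eq_finrank K L
  rw [← hcard]
  exact idFI_herbrand_ideleClass S hσ hgen hunr n hloc hn

/-- The first inequality for a cyclic extension of odd degree. -/
theorem idFI_first_inequality_of_odd (hodd : Odd (Module.finrank K L))
    (S : Finset (HeightOneSpectrum (𝓞 K))) {σ : Gal(L/K)}
    (hσ : ∀ τ, τ ∈ Subgroup.zpowers σ)
    (hgen : principalIdeles K L ⊔ ideleGroupS K L (S : Set (HeightOneSpectrum (𝓞 K))) = ⊤)
    (hunr : ∀ v : HeightOneSpectrum (𝓞 K), v ∉ S →
      letI := stableSubgroupAction (idFI_unitsSide (K := K) (L := L) v) (idFI_smul_mem_unitsSide v)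
      tateH0Card Gal(L/K) ↥(idFI_unitsSide (K := K) (L := L) v) σ = 1 ∧
        tateH1Card Gal(L/K) ↥(idFI_unitsSide (K := K) (L := L) v) σ = 1)
    (n : HeightOneSpectrum (𝓞 K) → ℕ)
    (hloc : ∀ v ∈ S, HerbrandDefinedCyclic Gal(L/K) (Additive (semiLocal K L v)ˣ) σ ∧
      herbrand Gal(L/K) (Additive (semiLocal K L v)ˣ) σ = n v)
    (hn : ∀ w : HeightOneSpectrum (𝓞 L), primeBelow K L w ∈ S →
      Nat.card (stabilizer Gal(L/K) w) = n (primeBelow K L w)) :
    tateH0Card Gal(L/K) (Additive (ideleClass K L)) σ =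
        Module.finrank K L * tateH1Card Gal(L/K) (Additive (ideleClass K L)) σ ∧
      Module.finrank K L ≤ tateH0Card Gal(L/K) (Additive (ideleClass K L)) σ ∧
      tateH0Card Gal(L/K) (Additive (ideleClass K L)) σ ≠ 0 ∧
      tateH1Card Gal(L/K) (Additive (ideleClass K L)) σ ≠ 0 := by
  have := IsUnramifiedAtInfinitePlaces_of_odd_finrank hodd
  have hcard : Fintype.card Gal(L/K) = Module.finrank K L := by
    rw [← Nat.card_eq_fintype_card]
    exact IsGalois.card_aut_eq_finrank K L
  rw [← hcard]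
  exact idFI_first_inequality S hσ hgen hunr n hloc hn

end Main

end Fermat.Agent.CFT
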