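/-
CFT, S55 pool, GLOBAL-IDELIC layer (GL10), RELATIVE / generic-group form (helper23).

`K` the fixed tensor base, `L/K` a finite extension of number fields (NOT necessarily Galois), `G` a
finite group acting on `L` by `K`-algebra automorphisms (`MulSemiringAction G L`,
`SMulCommClass G K L`), e.g. `G = Gal(L/M)` for `K ≤ M ≤ L` or a subgroup of `Gal(L/K)`.
`G` acts on `semiLocal K L v = K_v ⊗[K] L` by helper27's `tensorRightAction`, on `J_L` and `C_L`
(tensor base `K`) by `ideleGroupActionOf K L G`, `ideleClassActionOf K L G` (`Idele/ActionGen.lean`).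

`idFG_herbrand_ideleClass`: the assembly `h(G, C_L) = h(G, J_{L,S}) / h(G, U_T)` with
`h(G, J_{L,S}) = ∏_{v ∈ S} h(G, (L_v)ˣ)`; all local / `S`-unit inputs are explicit hypotheses.
`idFG_herbrand_ideleClass_gal`: the instance `G = Gal(L/M)`, `K ≤ M ≤ L`, with helper27's
`herbrand_sUnit` for `L/M`.
-/
import Mathlib
import Fermat.Agent.CFT.Idele.FirstIneq
import Fermat.Agent.CFT.Idele.ActionGen

set_option autoImplicit false
set_option linter.unusedSectionVars false
set_option linter.style.haveILetI false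

open NumberField IsDedekindDomain IsDedekindDomain.HeightOneSpectrum
open scoped TensorProduct Fermat.Agent.CFT.TensorGal

namespace Fermat.Agent.CFT

attribute [local instance] additiveDistribMulAction Units.mulDistribMulActionRight

section Gen

variable {K L G : Type*} [Field K] [NumberField K] [Field L] [NumberField L] [Algebra K L]
  [Group G] [MulSemiringAction G L] [SMulCommClass G K L]

attribute [local instance] ideleGroupActionOf ideleClassActionOf

/-- the action of a generic group on `(L_v)ˣ` is the action of its image in `Gal(L/K)`. -/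
theorem idFG_units_smul_eq {v : HeightOneSpectrum (𝓞 K)} (g : G) (u : (semiLocal K L v)ˣ) :
    g • u = (MulSemiringAction.toAlgAut G K L g) • u := by
  apply Units.ext
  rfl

theorem idFG_ideleGroup_smul_apply (g : G) (x : ideleGroup K L) (v : HeightOneSpectrum (𝓞 K)) :
    ((g • x : ideleGroup K L) : ∀ v, (semiLocal K L v)ˣ) v =
      g • ((x : ∀ v, (semiLocal K L v)ˣ) v) := by
  rw [idFG_units_smul_eq]
  rfl

theorem idFG_smul_mem_unitsSide (v : HeightOneSpectrum (𝓞 K)) (g : G)
    (a : Additive (semiLocal K L v)ˣ) (ha : a ∈ idFI_unitsSide (K := K) (L := L) v) :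
    g • a ∈ idFI_unitsSide (K := K) (L := L) v := by
  change g • Additive.toMul a ∈ semiLocalUnits K L v
  rw [idFG_units_smul_eq]
  exact smul_mem_semiLocalUnits _ ha

theorem idFG_smul_mem_JS (S : Finset (HeightOneSpectrum (𝓞 K))) (g : G)
    (a : Additive (ideleGroup K L)) (ha : a ∈ idFI_JS K L S) : g • a ∈ idFI_JS K L S :=
  smul_mem_ideleGroupS (MulSemiringAction.toAlgAut G K L g) ha

theorem idFG_smul_mem_outsideSides (S : Finset (HeightOneSpectrum (𝓞 K)))
    (v : HeightOneSpectrum (𝓞 K)) (g : G) (a : Additive (semiLocal K L v)ˣ)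
    (ha : a ∈ outsideSides S (fun v => idFI_unitsSide (K := K) (L := L) v) v) :
    g • a ∈ outsideSides S (fun v => idFI_unitsSide (K := K) (L := L) v) v := by
  by_cases hv : v ∈ S
  · rw [outsideSides_of_mem _ hv]
    exact AddSubgroup.mem_top _
  · rw [outsideSides_of_not_mem _ hv] at ha ⊢
    exact idFG_smul_mem_unitsSide v g a ha

theorem idFG_smul_mem_box (S : Finset (HeightOneSpectrum (𝓞 K))) (g : G)
    (x : ∀ v : HeightOneSpectrum (𝓞 K), Additive (semiLocal K L v)ˣ) (hx : x ∈ idFI_box K L S) :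
    g • x ∈ idFI_box K L S :=
  smul_mem_boxSubgroup _ (idFG_smul_mem_outsideSides S) g x hx

theorem idFG_JSEquivBox_smul (S : Finset (HeightOneSpectrum (𝓞 K))) (g : G)
    (x : ↥(idFI_JS K L S)) :
    letI := stableSubgroupAction (idFI_JS K L S) (idFG_smul_mem_JS (G := G) S)
    letI := stableSubgroupAction (idFI_box K L S) (idFG_smul_mem_box (G := G) S)
    idFI_JSEquivBox S (g • x) = g • idFI_JSEquivBox S x := by
  apply Subtype.ext
  funext v
  exact congrArg Additive.ofMul (idFG_ideleGroup_smul_apply g (Additive.toMul x.1) v)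


variable [Fintype G]

/-- **Herbrand quotient of the `S`-ideles**, generic group: `h(J_{L,S}) = ∏_{v ∈ S} h((L_v)ˣ)`. -/
theorem idFG_herbrand_JS (S : Finset (HeightOneSpectrum (𝓞 K))) (σ : G)
    (hunr : ∀ v : HeightOneSpectrum (𝓞 K), v ∉ S →
      letI := stableSubgroupAction (idFI_unitsSide (K := K) (L := L) v)
        (idFG_smul_mem_unitsSide (G := G) v)
      tateH0Card G ↥(idFI_unitsSide (K := K) (L := L) v) σ = 1 ∧
        tateH1Card G ↥(idFI_unitsSide (K := K) (L := L) v) σ = 1)
    (hloc : ∀ v ∈ S, HerbrandDefinedCyclic G (Additive (semiLocal K L v)ˣ) σ) :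
    letI := stableSubgroupAction (idFI_JS K L S) (idFG_smul_mem_JS (G := G) S)
    HerbrandDefinedCyclic G ↥(idFI_JS K L S) σ ∧
      herbrand G ↥(idFI_JS K L S) σ =
        ∏ v ∈ S, herbrand G (Additive (semiLocal K L v)ˣ) σ := by
  letI iJS := stableSubgroupAction (idFI_JS K L S) (idFG_smul_mem_JS (G := G) S)
  letI ibox : DistribMulAction G
      ↥(boxSubgroup (outsideSides S fun v => idFI_unitsSide (K := K) (L := L) v)) :=
    stableSubgroupAction (idFI_box K L S) (idFG_smul_mem_box (G := G) S)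
  letI iside : ∀ v, DistribMulAction G
      ↥(outsideSides S (fun v => idFI_unitsSide (K := K) (L := L) v) v) := fun v =>
    stableSubgroupAction _ (idFG_smul_mem_outsideSides (G := G) S v)
  have h0 : ∀ v, v ∉ S → tateH0Card G
      ↥(outsideSides S (fun v => idFI_unitsSide (K := K) (L := L) v) v) σ = 1 := by
    intro v hv
    rw [← (hunr v hv).1]
    exact idFI_tateH0Card_of_eq
      (outsideSides_of_not_mem (fun v => idFI_unitsSide (K := K) (L := L) v) hv) _ _ σ
  have h1 : ∀ v, v ∉ S → tateH1Card G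
      ↥(outsideSides S (fun v => idFI_unitsSide (K := K) (L := L) v) v) σ = 1 := by
    intro v hv
    rw [← (hunr v hv).2]
    exact idFI_tateH1Card_of_eq
      (outsideSides_of_not_mem (fun v => idFI_unitsSide (K := K) (L := L) v) hv) _ _ σ
  have hT : ∀ v ∈ S, outsideSides S (fun v => idFI_unitsSide (K := K) (L := L) v) v = ⊤ :=
    fun v hv => outsideSides_of_mem (fun v => idFI_unitsSide (K := K) (L := L) v) hv
  have hbox : ∀ (g : G)
      (x : ↥(boxSubgroup (outsideSides S fun v => idFI_unitsSide (K := K) (L := L) v))),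
      ((g • x : ↥(boxSubgroup (outsideSides S fun v => idFI_unitsSide (K := K) (L := L) v))) :
        ∀ v, Additive (semiLocal K L v)ˣ) = g • (x : ∀ v, Additive (semiLocal K L v)ˣ) :=
    fun _ _ => rfl
  have hside : ∀ v (g : G)
      (b : ↥(outsideSides S (fun v => idFI_unitsSide (K := K) (L := L) v) v)),
      ((g • b : ↥(outsideSides S (fun v => idFI_unitsSide (K := K) (L := L) v) v)) :
        Additive (semiLocal K L v)ˣ) = g • (b : Additive (semiLocal K L v)ˣ) :=
    fun _ _ _ => rfl
  have hd := herbrandDefinedCyclic_boxSubgroup_of_top (G := G)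
    (A := fun v : HeightOneSpectrum (𝓞 K) => Additive (semiLocal K L v)ˣ)
    (outsideSides S fun v => idFI_unitsSide (K := K) (L := L) v) S hT hbox hside σ h0 h1 hloc
  have hv := herbrand_boxSubgroup_of_top (G := G)
    (A := fun v : HeightOneSpectrum (𝓞 K) => Additive (semiLocal K L v)ˣ)
    (outsideSides S fun v => idFI_unitsSide (K := K) (L := L) v) S hT hbox hside σ h0 h1
  have he : ∀ (g : G) (x : ↥(idFI_JS K L S)),
      idFI_JSEquivBox S (g • x) = g • idFI_JSEquivBox S x :=
    fun g x => idFG_JSEquivBox_smul S g x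
  exact ⟨(herbrandDefinedCyclic_congr (idFI_JSEquivBox (K := K) (L := L) S) he σ).mpr hd,
    (herbrand_congr (idFI_JSEquivBox (K := K) (L := L) S) he σ).trans hv⟩

/-- **Assembly of the first inequality, generic group.**  `S` a finite set of primes of `K`, `T`
the (finite) set of primes of `L` above `S`, `G` acting on the `T`-units compatibly.
If `J_L = Lˣ J_{L,S}`, the unit groups off `S` have trivial Tate groups, the local Herbrand
quotients on `S` are defined and `h(U_T) * n = ∏_{v ∈ S} h((L_v)ˣ)`, then `h(G, C_L) = n`. -/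
theorem idFG_herbrand_ideleClass (S : Finset (HeightOneSpectrum (𝓞 K)))
    (T : Finset (HeightOneSpectrum (𝓞 L)))
    (hT : ∀ w : HeightOneSpectrum (𝓞 L), w ∈ T ↔ w.under (𝓞 K) ∈ S) (σ : G)
    (hgen : principalIdeles K L ⊔ ideleGroupS K L (S : Set (HeightOneSpectrum (𝓞 K))) = ⊤)
    (hunr : ∀ v : HeightOneSpectrum (𝓞 K), v ∉ S →
      letI := stableSubgroupAction (idFI_unitsSide (K := K) (L := L) v)
        (idFG_smul_mem_unitsSide (G := G) v)
      tateH0Card G ↥(idFI_unitsSide (K := K) (L := L) v) σ = 1 ∧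
        tateH1Card G ↥(idFI_unitsSide (K := K) (L := L) v) σ = 1)
    (hloc : ∀ v ∈ S, HerbrandDefinedCyclic G (Additive (semiLocal K L v)ˣ) σ)
    [MulDistribMulAction G (sUnit L T)]
    (hTact : ∀ (g : G) (u : sUnit L T), ((g • u : sUnit L T) : Lˣ) = g • (u : Lˣ))
    (hU : HerbrandDefinedCyclic G (Additive (sUnit L T)) σ) {n : ℚ}
    (hn : herbrand G (Additive (sUnit L T)) σ * n =
      ∏ v ∈ S, herbrand G (Additive (semiLocal K L v)ˣ) σ) :
    HerbrandDefinedCyclic G (Additive (ideleClass K L)) σ ∧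
      herbrand G (Additive (ideleClass K L)) σ = n := by
  classical
  letI iJS := stableSubgroupAction (idFI_JS K L S) (idFG_smul_mem_JS (G := G) S)
  obtain ⟨hJdef, hJval⟩ := idFG_herbrand_JS S σ hunr hloc
  -- the maps
  let ι : Additive Lˣ →+ Additive (ideleGroup K L) :=
    MonoidHom.toAdditive (diagIdele (K := K) (L := L))
  have hι : Function.Injective ι := diagIdele_injective
  have hιG : ∀ (τ : G) (x : Additive Lˣ), ι (τ • x) = τ • ι x :=
    fun τ x => diagIdele_smul (MulSemiringAction.toAlgAut G K L τ) (Additive.toMul x)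
  let π : Additive (ideleGroup K L) →+ Additive (ideleClass K L) :=
    MonoidHom.toAdditive (QuotientGroup.mk' (principalIdeles K L))
  have hπ : Function.Surjective π := QuotientGroup.mk'_surjective (principalIdeles K L)
  have hπG : ∀ (τ : G) (x : Additive (ideleGroup K L)), π (τ • x) = τ • π x :=
    fun τ x => rfl
  have hex : ι.range = π.ker := by
    ext x
    rw [AddMonoidHom.mem_ker]
    change Additive.toMul x ∈ (diagIdele (K := K) (L := L)).range ↔
      (QuotientGroup.mk' (principalIdeles K L)) (Additive.toMul x) = 1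
    rw [← MonoidHom.mem_ker, QuotientGroup.ker_mk']
    rfl
  let jS : ↥(idFI_JS K L S) →+ Additive (ideleGroup K L) := (idFI_JS K L S).subtype
  have hjS : Function.Injective jS := Subtype.val_injective
  have hjSG : ∀ (τ : G) (x : ↥(idFI_JS K L S)), jS (τ • x) = τ • jS x := fun _ _ => rfl
  let uS : Additive (sUnit L T) →+ Additive Lˣ := MonoidHom.toAdditive (sUnit L T).subtype
  have huS : Function.Injective uS := Subtype.val_injective
  have huSG : ∀ (τ : G) (x : Additive (sUnit L T)), uS (τ • x) = τ • uS x :=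
    fun τ x => congrArg Additive.ofMul (hTact τ (Additive.toMul x))
  have hUS : uS.range = jS.range.comap ι := by
    ext x
    rw [AddSubgroup.mem_comap, AddSubgroup.range_subtype]
    change Additive.toMul x ∈ (sUnit L T).subtype.range ↔
      diagIdele (K := K) (Additive.toMul x) ∈
        ideleGroupS K L (S : Set (HeightOneSpectrum (𝓞 K)))
    rw [Subgroup.range_subtype, ← Subgroup.mem_comap,
      comap_diagIdele_ideleGroupS (S : Set (HeightOneSpectrum (𝓞 K)))
        (T : Set (HeightOneSpectrum (𝓞 L))) (fun w => by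
          rw [Finset.mem_coe, Finset.mem_coe]; exact hT w)]
  have hgen' : ι.range ⊔ jS.range = ⊤ := by
    rw [AddSubgroup.range_subtype, eq_top_iff]
    intro x _
    have hx : Additive.toMul x ∈
        principalIdeles K L ⊔ ideleGroupS K L (S : Set (HeightOneSpectrum (𝓞 K))) :=
      hgen ▸ Subgroup.mem_top _
    obtain ⟨a, ha, b, hb, hab⟩ := Subgroup.mem_sup.mp hx
    obtain ⟨y, rfl⟩ := ha
    refine AddSubgroup.mem_sup.mpr ⟨ι (Additive.ofMul y), ⟨_, rfl⟩, Additive.ofMul b, hb, ?_⟩
    exact congrArg Additive.ofMul hab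
  exact idele1_herbrand_class_eq ι hι hιG π hπ hπG hex jS hjS hjSG uS huS huSG hUS hgen'
    hJdef hU hJval hn

end Gen

section Rel

open MulAction

attribute [local instance] heightOneSpectrumMulAction ideleGroupActionOf ideleClassActionOf

variable {K M L : Type*} [Field K] [NumberField K] [Field M] [NumberField M]
  [Field L] [NumberField L] [Algebra K M] [Algebra M L] [Algebra K L] [IsScalarTower K M L]
  [IsGalois M L] [Fintype Gal(L/M)]

/-- the primes of `L` above a set of primes of `K` are stable under `Gal(L/M)`, `K ≤ M ≤ L`. -/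
theorem idFG_smul_mem_of_under (S : Finset (HeightOneSpectrum (𝓞 K)))
    (T : Finset (HeightOneSpectrum (𝓞 L)))
    (hT : ∀ w : HeightOneSpectrum (𝓞 L), w ∈ T ↔ w.under (𝓞 K) ∈ S)
    (g : Gal(L/M)) (w : HeightOneSpectrum (𝓞 L)) (hw : w ∈ T) : g • w ∈ T := by
  rw [hT] at hw ⊢
  have h : (g • w).under (𝓞 K) = w.under (𝓞 K) := by
    ext1
    simp only [under_asIdeal]
    ext x
    simp only [Ideal.under, Ideal.mem_comap, hos_smul_asIdeal]
    rw [Ideal.mem_pointwise_smul_iff_inv_smul_mem]
    have : g⁻¹ • algebraMap (𝓞 K) (𝓞 L) x = algebraMap (𝓞 K) (𝓞 L) x := by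
      apply Subtype.ext
      show g⁻¹ (algebraMap K L (x : K)) = algebraMap K L (x : K)
      rw [IsScalarTower.algebraMap_apply K M L]
      exact (g⁻¹).commutes _
    rw [this]
  rwa [h]

/-- **The Herbrand quotient of the idele class group, relative form**: `K ≤ M ≤ L` number
fields, `K` the tensor base, `L/M` cyclic with group `Gal(L/M) = ⟨σ⟩`, unramified at the infinite
places (e.g. of odd degree).  Then `h(Gal(L/M), C_L) = [L : M]`, where `C_L = ideleClass K L`.
Inputs: (GL6) `hgen`, (GL7-rel) `hunr`, (GL8-rel) `hloc`, and the matching `hmatch` of the local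
Herbrand quotients with the orders of the decomposition groups in `Gal(L/M)` of the primes of `L`
above `S` (one representative `o.out` per `Gal(L/M)`-orbit). -/
theorem idFG_herbrand_ideleClass_gal [IsUnramifiedAtInfinitePlaces M L]
    (S : Finset (HeightOneSpectrum (𝓞 K))) (T : Finset (HeightOneSpectrum (𝓞 L)))
    (hT : ∀ w : HeightOneSpectrum (𝓞 L), w ∈ T ↔ w.under (𝓞 K) ∈ S) {σ : Gal(L/M)}
    (hσ : ∀ τ, τ ∈ Subgroup.zpowers σ)
    (hgen : principalIdeles K L ⊔ ideleGroupS K L (S : Set (HeightOneSpectrum (𝓞 K))) = ⊤)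
    (hunr : ∀ v : HeightOneSpectrum (𝓞 K), v ∉ S →
      letI := stableSubgroupAction (idFI_unitsSide (K := K) (L := L) v)
        (idFG_smul_mem_unitsSide (G := Gal(L/M)) v)
      tateH0Card Gal(L/M) ↥(idFI_unitsSide (K := K) (L := L) v) σ = 1 ∧
        tateH1Card Gal(L/M) ↥(idFI_unitsSide (K := K) (L := L) v) σ = 1)
    (hloc : ∀ v ∈ S, HerbrandDefinedCyclic Gal(L/M) (Additive (semiLocal K L v)ˣ) σ)
    (hmatch :
      letI := finsetPrimesMulAction M L T (idFG_smul_mem_of_under S T hT)
      ∀ [Fintype (orbitRel.Quotient Gal(L/M) T)],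
      ∏ v ∈ S, herbrand Gal(L/M) (Additive (semiLocal K L v)ˣ) σ =
        ∏ o : orbitRel.Quotient Gal(L/M) T, (Nat.card (stabilizer Gal(L/M) o.out) : ℚ)) :
    HerbrandDefinedCyclic Gal(L/M) (Additive (ideleClass K L)) σ ∧
      herbrand Gal(L/M) (Additive (ideleClass K L)) σ = Fintype.card Gal(L/M) := by
  classical
  letI iUS := sUnitMulDistribMulAction M L T (idFG_smul_mem_of_under S T hT)
  letI iT := finsetPrimesMulAction M L T (idFG_smul_mem_of_under S T hT)
  letI : Fintype (orbitRel.Quotient Gal(L/M) (InfinitePlace L)) := Fintype.ofFinite _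
  letI : Fintype (orbitRel.Quotient Gal(L/M) T) := Fintype.ofFinite _
  obtain ⟨hUdef, hUval⟩ := herbrand_sUnit M L T (idFG_smul_mem_of_under S T hT) hσ
  have hinf : (∏ o : orbitRel.Quotient Gal(L/M) (InfinitePlace L),
      (Nat.card (stabilizer Gal(L/M) o.out) : ℚ)) = 1 := by
    refine Finset.prod_eq_one fun o _ => ?_
    rw [(NumberField.InfinitePlace.isUnramified M o.out).stabilizer_eq_bot, Subgroup.card_bot,
      Nat.cast_one]
  rw [hinf] at hUval
  have hcard : (Fintype.card Gal(L/M) : ℚ) ≠ 0 := by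
    exact_mod_cast Fintype.card_ne_zero
  refine idFG_herbrand_ideleClass S T hT σ hgen hunr hloc (fun _ _ => rfl) hUdef ?_
  rw [hUval, hmatch, mul_assoc, one_div, inv_mul_cancel₀ hcard, mul_one]

/-- from `h = n` to the first inequality `n ≤ |Ĥ⁰|`, `|Ĥ⁰| = n * |Ĥ¹|` (generic module). -/
theorem idFG_first_inequality_of_herbrand {G A : Type*} [Group G] [Fintype G] [AddCommGroup A]
    [DistribMulAction G A] {σ : G} {n : ℕ} (hC : HerbrandDefinedCyclic G A σ)
    (h : herbrand G A σ = n) :
    tateH0Card G A σ = n * tateH1Card G A σ ∧ n ≤ tateH0Card G A σ ∧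
      tateH0Card G A σ ≠ 0 ∧ tateH1Card G A σ ≠ 0 := by
  have h1 : tateH1Card G A σ ≠ 0 := hC.2
  have h0 : tateH0Card G A σ ≠ 0 := hC.1
  have hmul : tateH0Card G A σ = n * tateH1Card G A σ := by
    rw [herbrand_eq, div_eq_iff (by exact_mod_cast h1)] at h
    exact_mod_cast h
  refine ⟨hmul, ?_, h0, h1⟩
  rw [hmul]
  exact Nat.le_mul_of_pos_right _ (Nat.pos_of_ne_zero h1)

/-- **The first inequality, relative form**: `[L : M] ≤ |Ĥ⁰(Gal(L/M), C_L)|`. -/
theorem idFG_first_inequality_gal [IsUnramifiedAtInfinitePlaces M L]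
    (S : Finset (HeightOneSpectrum (𝓞 K))) (T : Finset (HeightOneSpectrum (𝓞 L)))
    (hT : ∀ w : HeightOneSpectrum (𝓞 L), w ∈ T ↔ w.under (𝓞 K) ∈ S) {σ : Gal(L/M)}
    (hσ : ∀ τ, τ ∈ Subgroup.zpowers σ)
    (hgen : principalIdeles K L ⊔ ideleGroupS K L (S : Set (HeightOneSpectrum (𝓞 K))) = ⊤)
    (hunr : ∀ v : HeightOneSpectrum (𝓞 K), v ∉ S →
      letI := stableSubgroupAction (idFI_unitsSide (K := K) (L := L) v)
        (idFG_smul_mem_unitsSide (G := Gal(L/M)) v)
      tateH0Card Gal(L/M) ↥(idFI_unitsSide (K := K) (L := L) v) σ = 1 ∧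
        tateH1Card Gal(L/M) ↥(idFI_unitsSide (K := K) (L := L) v) σ = 1)
    (hloc : ∀ v ∈ S, HerbrandDefinedCyclic Gal(L/M) (Additive (semiLocal K L v)ˣ) σ)
    (hmatch :
      letI := finsetPrimesMulAction M L T (idFG_smul_mem_of_under S T hT)
      ∀ [Fintype (orbitRel.Quotient Gal(L/M) T)],
      ∏ v ∈ S, herbrand Gal(L/M) (Additive (semiLocal K L v)ˣ) σ =
        ∏ o : orbitRel.Quotient Gal(L/M) T, (Nat.card (stabilizer Gal(L/M) o.out) : ℚ)) :
    tateH0Card Gal(L/M) (Additive (ideleClass K L)) σ =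
        Fintype.card Gal(L/M) * tateH1Card Gal(L/M) (Additive (ideleClass K L)) σ ∧
      Fintype.card Gal(L/M) ≤ tateH0Card Gal(L/M) (Additive (ideleClass K L)) σ ∧
      tateH0Card Gal(L/M) (Additive (ideleClass K L)) σ ≠ 0 ∧
      tateH1Card Gal(L/M) (Additive (ideleClass K L)) σ ≠ 0 := by
  obtain ⟨hC, h⟩ := idFG_herbrand_ideleClass_gal S T hT hσ hgen hunr hloc hmatch
  exact idFG_first_inequality_of_herbrand hC h

/-- a cyclic extension of odd degree is unramified at the infinite places: relative first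
inequality for odd `[L : M]`. -/
theorem idFG_first_inequality_gal_of_odd (hodd : Odd (Module.finrank M L))
    (S : Finset (HeightOneSpectrum (𝓞 K))) (T : Finset (HeightOneSpectrum (𝓞 L)))
    (hT : ∀ w : HeightOneSpectrum (𝓞 L), w ∈ T ↔ w.under (𝓞 K) ∈ S) {σ : Gal(L/M)}
    (hσ : ∀ τ, τ ∈ Subgroup.zpowers σ)
    (hgen : principalIdeles K L ⊔ ideleGroupS K L (S : Set (HeightOneSpectrum (𝓞 K))) = ⊤)
    (hunr : ∀ v : HeightOneSpectrum (𝓞 K), v ∉ S →
      letI := stableSubgroupAction (idFI_unitsSide (K := K) (L := L) v)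
        (idFG_smul_mem_unitsSide (G := Gal(L/M)) v)
      tateH0Card Gal(L/M) ↥(idFI_unitsSide (K := K) (L := L) v) σ = 1 ∧
        tateH1Card Gal(L/M) ↥(idFI_unitsSide (K := K) (L := L) v) σ = 1)
    (hloc : ∀ v ∈ S, HerbrandDefinedCyclic Gal(L/M) (Additive (semiLocal K L v)ˣ) σ)
    (hmatch :
      letI := finsetPrimesMulAction M L T (idFG_smul_mem_of_under S T hT)
      ∀ [Fintype (orbitRel.Quotient Gal(L/M) T)],
      ∏ v ∈ S, herbrand Gal(L/M) (Additive (semiLocal K L v)ˣ) σ =
        ∏ o : orbitRel.Quotient Gal(L/M) T, (Nat.card (stabilizer Gal(L/M) o.out) : ℚ)) :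
    HerbrandDefinedCyclic Gal(L/M) (Additive (ideleClass K L)) σ ∧
      herbrand Gal(L/M) (Additive (ideleClass K L)) σ = Module.finrank M L ∧
      tateH0Card Gal(L/M) (Additive (ideleClass K L)) σ =
        Module.finrank M L * tateH1Card Gal(L/M) (Additive (ideleClass K L)) σ ∧
      Module.finrank M L ≤ tateH0Card Gal(L/M) (Additive (ideleClass K L)) σ := by
  have := IsUnramifiedAtInfinitePlaces_of_odd_finrank hodd
  have hcard : Fintype.card Gal(L/M) = Module.finrank M L := by
    rw [← Nat.card_eq_fintype_card]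
    exact IsGalois.card_aut_eq_finrank M L
  obtain ⟨hC, h⟩ := idFG_herbrand_ideleClass_gal S T hT hσ hgen hunr hloc hmatch
  obtain ⟨h1, h2, -, -⟩ := idFG_first_inequality_of_herbrand hC h
  rw [hcard] at h h1 h2
  exact ⟨hC, h, h1, h2⟩

end Rel

end Fermat.Agent.CFT
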