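/-
CFT, S55 pool, GLOBAL layer (GL2) (helper27): semilocal Galois algebras.

`F` a field, `R` a reduced Artinian `F`-algebra (a finite product of fields) with an action of a
finite group `G` whose invariants are `F` (e.g. `R = K_v ⊗[K] L` for a Galois extension `L/K`
with group `G`, see `Global/TensorGalois.lean`).  Then

* `G` permutes the maximal ideals of `R` transitively (`maxSpec_exists_smul_eq`);
* for a maximal ideal `m`, the stabiliser `D = Stab_G(m)` acts on the field `R ⧸ m` by
  `F`-automorphisms (`quotStabHom`, `quotStabAction`);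
* `finrank F (R ⧸ m) * #MaxSpec R = finrank F R` (`finrank_quot_mul_card_maxSpec`), and
  `#MaxSpec R * |D| = |G|`.
-/
import Mathlib
import Fermat.Agent.CFT.Global.TensorGalois

set_option autoImplicit false
set_option linter.unusedSectionVars false
set_option linter.style.haveILetI false

namespace Fermat.Agent.CFT

open scoped Pointwise

section MaxSpec

variable (F R G : Type*) [Field F] [CommRing R] [Algebra F R] [IsArtinianRing R]
  [Group G] [MulSemiringAction G R]

/-- The action of a group of ring automorphisms of an Artinian ring on its maximal ideals. -/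
@[reducible] def maxSpecMulAction : MulAction G (MaximalSpectrum R) where
  smul g m :=
    { asIdeal := g • m.asIdeal
      isMaximal := by
        have : m.asIdeal.IsPrime := m.isMaximal.isPrime
        have : (g • m.asIdeal).IsPrime := Ideal.IsPrime.smul g
        exact IsArtinianRing.isMaximal_of_isPrime _ }
  one_smul m := MaximalSpectrum.ext (one_smul G m.asIdeal)
  mul_smul g h m := MaximalSpectrum.ext (mul_smul g h m.asIdeal)

attribute [local instance] maxSpecMulAction

omit [IsArtinianRing R] [Group G] [MulSemiringAction G R] in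
theorem under_eq_bot_of_isMaximal (m : Ideal R) [m.IsMaximal] : Ideal.under F m = ⊥ := by
  have : (Ideal.under F m).IsPrime := Ideal.IsPrime.under F m
  exact Ideal.eq_bot_of_prime _

variable [Finite G] [SMulCommClass G F R] [Algebra.IsInvariant F R G]

include F in
/-- `G` is transitive on the maximal ideals of a Galois algebra over a field. -/
theorem maxSpec_exists_smul_eq (m m' : MaximalSpectrum R) : ∃ g : G, m' = g • m := by
  have : m.asIdeal.IsPrime := m.isMaximal.isPrime
  have : m'.asIdeal.IsPrime := m'.isMaximal.isPrime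
  have hm := under_eq_bot_of_isMaximal F R m.asIdeal
  have hm' := under_eq_bot_of_isMaximal F R m'.asIdeal
  obtain ⟨g, hg⟩ := Algebra.IsInvariant.exists_smul_of_under_eq F R G m.asIdeal m'.asIdeal
    (hm.trans hm'.symm)
  exact ⟨g, MaximalSpectrum.ext hg⟩

include F in
theorem maxSpec_isPretransitive :
    MulAction.IsPretransitive G (MaximalSpectrum R) where
  exists_smul_eq m m' := by
    obtain ⟨g, hg⟩ := maxSpec_exists_smul_eq F R G m m'
    exact ⟨g, hg.symm⟩

end MaxSpec

section Quot

variable (F R G : Type*) [Field F] [CommRing R] [Algebra F R]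
  [Group G] [MulSemiringAction G R] [SMulCommClass G F R]

/-- The `F`-algebra isomorphism `R ⧸ m ≃ R ⧸ g • m` induced by `g`. -/
noncomputable def quotSmulEquiv (g : G) (m : Ideal R) : (R ⧸ m) ≃ₐ[F] (R ⧸ (g • m)) :=
  Ideal.quotientEquivAlg m (g • m) (MulSemiringAction.toAlgEquiv F R g) rfl

@[simp] theorem quotSmulEquiv_mk (g : G) (m : Ideal R) (x : R) :
    quotSmulEquiv F R G g m (Ideal.Quotient.mk m x) = Ideal.Quotient.mk (g • m) (g • x) := rfl

/-- The stabiliser of `m` acts on `R ⧸ m` by `F`-algebra automorphisms. -/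
noncomputable def quotStabHom (m : Ideal R) :
    MulAction.stabilizer G m →* ((R ⧸ m) ≃ₐ[F] (R ⧸ m)) where
  toFun g := Ideal.quotientEquivAlg m m (MulSemiringAction.toAlgEquiv F R (g : G)) (by
    have := g.2
    rw [MulAction.mem_stabilizer_iff] at this
    exact this.symm)
  map_one' := by
    ext x
    obtain ⟨x, rfl⟩ := Ideal.Quotient.mk_surjective x
    exact congrArg (Ideal.Quotient.mk m) (one_smul G x)
  map_mul' g h := by
    ext x
    obtain ⟨x, rfl⟩ := Ideal.Quotient.mk_surjective x
    exact congrArg (Ideal.Quotient.mk m) (mul_smul (g : G) (h : G) x)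

@[simp] theorem quotStabHom_mk (m : Ideal R) (g : MulAction.stabilizer G m) (x : R) :
    quotStabHom F R G m g (Ideal.Quotient.mk m x) = Ideal.Quotient.mk m ((g : G) • x) := rfl

/-- The action of the stabiliser of `m` on the residue ring `R ⧸ m`. -/
@[reducible] noncomputable def quotStabAction (m : Ideal R) :
    MulSemiringAction (MulAction.stabilizer G m) (R ⧸ m) :=
  MulSemiringAction.compHom (R ⧸ m) (quotStabHom F R G m)

end Quot

section Count

variable (F R G : Type*) [Field F] [CommRing R] [Algebra F R] [IsArtinianRing R] [IsReduced R]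
  [Module.Finite F R] [Group G] [Finite G] [MulSemiringAction G R] [SMulCommClass G F R]
  [Algebra.IsInvariant F R G]

attribute [local instance] maxSpecMulAction

include G in
/-- All residue fields of a Galois algebra have the same degree. -/
theorem finrank_quot_eq (m m' : MaximalSpectrum R) :
    Module.finrank F (R ⧸ m.asIdeal) = Module.finrank F (R ⧸ m'.asIdeal) := by
  obtain ⟨g, rfl⟩ := maxSpec_exists_smul_eq F R G m m'
  exact (quotSmulEquiv F R G g m.asIdeal).toLinearEquiv.finrank_eq

include G in
/-- `[R ⧸ m : F] * #MaxSpec R = [R : F]`. -/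
theorem finrank_quot_mul_card_maxSpec (m : MaximalSpectrum R) :
    Module.finrank F (R ⧸ m.asIdeal) * Nat.card (MaximalSpectrum R) = Module.finrank F R := by
  classical
  have := Fintype.ofFinite (MaximalSpectrum R)
  have e : R ≃ₗ[F] ((I : MaximalSpectrum R) → R ⧸ I.asIdeal) :=
    ((IsArtinianRing.equivPi R).restrictScalars F).toLinearEquiv
  rw [e.finrank_eq, Module.finrank_pi_fintype,
    Finset.sum_congr rfl fun m' _ => finrank_quot_eq F R G m' m, Finset.sum_const,
    Finset.card_univ, smul_eq_mul, Nat.card_eq_fintype_card, mul_comm]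

include F in
/-- `#MaxSpec R * |Stab m| = |G|`. -/
theorem card_maxSpec_mul_card_stabilizer (m : MaximalSpectrum R) :
    Nat.card (MaximalSpectrum R) * Nat.card (MulAction.stabilizer G m) = Nat.card G := by
  have := maxSpec_isPretransitive F R G
  rw [← MulAction.index_stabilizer_of_transitive G m, mul_comm, Subgroup.card_mul_index]

end Count

section Tensor

open scoped TensorProduct Fermat.Agent.CFT.TensorGal

variable (K F L G : Type*) [Field K] [Field F] [Field L] [Algebra K F] [Algebra K L]
  [FiniteDimensional K L] [Algebra.IsSeparable K L]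
  [Group G] [Finite G] [MulSemiringAction G L] [SMulCommClass G K L] [IsGaloisGroup G K L]

attribute [local instance] maxSpecMulAction Ideal.Quotient.field

/-- `[F ⊗ L : F] = |G|`. -/
theorem finrank_tensor_eq_card : Module.finrank F (F ⊗[K] L) = Nat.card G := by
  rw [Module.finrank_baseChange, IsGaloisGroup.card_eq_finrank G K L]

omit [FiniteDimensional K L] [Algebra.IsSeparable K L] [Finite G] [IsGaloisGroup G K L] in
theorem stabilizer_maxSpec_eq [FiniteDimensional K L] (m : MaximalSpectrum (F ⊗[K] L)) :
    MulAction.stabilizer G m = MulAction.stabilizer G m.asIdeal := by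
  ext g
  rw [MulAction.mem_stabilizer_iff, MulAction.mem_stabilizer_iff]
  exact ⟨fun h => congrArg MaximalSpectrum.asIdeal h, fun h => MaximalSpectrum.ext h⟩

/-- The degree of a residue field of `F ⊗[K] L` is the order of the decomposition group. -/
theorem finrank_tensor_quot (m : Ideal (F ⊗[K] L)) [hm : m.IsMaximal] :
    Module.finrank F ((F ⊗[K] L) ⧸ m) = Nat.card (MulAction.stabilizer G m) := by
  have h1 := finrank_quot_mul_card_maxSpec F (F ⊗[K] L) G ⟨m, hm⟩
  have h2 := card_maxSpec_mul_card_stabilizer F (F ⊗[K] L) G ⟨m, hm⟩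
  rw [stabilizer_maxSpec_eq K F L G ⟨m, hm⟩] at h2
  rw [finrank_tensor_eq_card K F L G] at h1
  have h3 : 0 < Nat.card (MaximalSpectrum (F ⊗[K] L)) :=
    Nat.card_pos_iff.mpr ⟨⟨⟨m, hm⟩⟩, inferInstance⟩
  have h4 : Nat.card (MaximalSpectrum (F ⊗[K] L)) * Module.finrank F ((F ⊗[K] L) ⧸ m) =
      Nat.card (MaximalSpectrum (F ⊗[K] L)) * Nat.card (MulAction.stabilizer G m) := by
    rw [h2, mul_comm]
    exact h1
  exact Nat.eq_of_mul_eq_mul_left h3 h4

omit [FiniteDimensional K L] [Algebra.IsSeparable K L] in
/-- `L` embeds into every residue field of `F ⊗[K] L`. -/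
theorem tensor_quot_mk_includeRight_injective (m : Ideal (F ⊗[K] L)) [m.IsMaximal] :
    Function.Injective fun l : L => Ideal.Quotient.mk m ((1 : F) ⊗ₜ[K] l) := by
  let φ : L →+* (F ⊗[K] L) ⧸ m :=
    (Ideal.Quotient.mk m).comp (Algebra.TensorProduct.includeRight : L →ₐ[K] F ⊗[K] L).toRingHom
  exact φ.injective

omit [FiniteDimensional K L] [Algebra.IsSeparable K L] [Finite G] in
/-- The decomposition group acts faithfully on the residue field. -/
theorem quotStabHom_tensor_injective (m : Ideal (F ⊗[K] L)) [m.IsMaximal] :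
    Function.Injective (quotStabHom F (F ⊗[K] L) G m) := by
  rw [injective_iff_map_eq_one]
  intro d hd
  have := IsGaloisGroup.faithful (G := G) (A := K) (B := L)
  apply Subtype.ext
  refine FaithfulSMul.eq_of_smul_eq_smul (α := L) fun l => ?_
  rw [Subgroup.coe_one, one_smul]
  apply tensor_quot_mk_includeRight_injective K F L m
  have h := DFunLike.congr_fun hd (Ideal.Quotient.mk m ((1 : F) ⊗ₜ[K] l))
  rw [quotStabHom_mk, tensorRight_smul_tmul] at h
  exact h

include G in
/-- The residue fields of `F ⊗[K] L` are Galois over `F`. -/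
theorem isGalois_tensor_quot (m : Ideal (F ⊗[K] L)) [m.IsMaximal] :
    IsGalois F ((F ⊗[K] L) ⧸ m) := by
  have hfin : FiniteDimensional F ((F ⊗[K] L) ⧸ m) :=
    Module.Finite.of_surjective (Ideal.Quotient.mkₐ F m).toLinearMap
      (Ideal.Quotient.mkₐ_surjective F m)
  apply IsGalois.of_card_aut_eq_finrank
  apply le_antisymm
  · rw [Nat.card_eq_fintype_card]
    exact AlgEquiv.card_le
  · rw [finrank_tensor_quot K F L G m]
    exact Nat.card_le_card_of_injective _ (quotStabHom_tensor_injective K F L G m)

theorem quotStabHom_tensor_bijective (m : Ideal (F ⊗[K] L)) [m.IsMaximal] :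
    Function.Bijective (quotStabHom F (F ⊗[K] L) G m) := by
  have hfin : FiniteDimensional F ((F ⊗[K] L) ⧸ m) :=
    Module.Finite.of_surjective (Ideal.Quotient.mkₐ F m).toLinearMap
      (Ideal.Quotient.mkₐ_surjective F m)
  have := isGalois_tensor_quot K F L G m
  rw [Nat.bijective_iff_injective_and_card]
  refine ⟨quotStabHom_tensor_injective K F L G m, ?_⟩
  rw [IsGalois.card_aut_eq_finrank, finrank_tensor_quot K F L G m]

/-- The decomposition group is the Galois group of the residue field. -/
noncomputable def quotStabEquiv (m : Ideal (F ⊗[K] L)) [m.IsMaximal] :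
    MulAction.stabilizer G m ≃* (((F ⊗[K] L) ⧸ m) ≃ₐ[F] ((F ⊗[K] L) ⧸ m)) :=
  MulEquiv.ofBijective (quotStabHom F (F ⊗[K] L) G m) (quotStabHom_tensor_bijective K F L G m)

theorem isGaloisGroup_tensor_quot (m : Ideal (F ⊗[K] L)) [m.IsMaximal] :
    letI := quotStabAction F (F ⊗[K] L) G m
    IsGaloisGroup (MulAction.stabilizer G m) F ((F ⊗[K] L) ⧸ m) := by
  letI := quotStabAction F (F ⊗[K] L) G m
  have := isGalois_tensor_quot K F L G m
  exact IsGaloisGroup.of_mulEquiv_algEquiv (quotStabEquiv K F L G m) fun g x => rfl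

end Tensor

end Fermat.Agent.CFT
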