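import Mathlib
import Fermat.Agent.CFT.Idele.SemiLocal
import Fermat.Agent.CFT.Idele.AdicLocalField
import Fermat.Agent.CFT.Global.PrimeDivisor
import Fermat.Agent.CFT.Idele.Defs

/-!
# (GL8') maximal ideals of `K_v ⊗[K] L` and the primes of `L` above `v`

(helper25, S55 global-idelic pool, chunk (GL8') of helper27's arbitration msg 940)

The bridge between the tensor model of the semilocal algebra `L_v = K_v ⊗[K] L` and the
ideal-theoretic side: a maximal ideal `m` of `K_v ⊗[K] L` cuts out a prime `w(m)` of `𝓞 L` above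
`v` (the centre on `𝓞 L` of the valuation ring of the local field `E_m = (K_v ⊗ L) / m`); this is a
Galois-equivariant bijection, so the decomposition groups agree.
-/

set_option autoImplicit false
set_option linter.unusedSectionVars false

namespace Fermat.Agent.CFT

open IsDedekindDomain IsDedekindDomain.HeightOneSpectrum IsLocalRing
open scoped WithZero

section LocalSub

variable {E : Type*} [Field E] {S : Type*} [SetLike S E] [SubringClass S E] (B : S) [IsLocalRing B]

/-- membership in the maximal ideal of a local subring of a field, intrinsically. -/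
theorem locDeg_mem_maximalIdeal_iff {e : E} (h : e ∈ B) :
    (⟨e, h⟩ : B) ∈ maximalIdeal B ↔ e = 0 ∨ e⁻¹ ∉ B := by
  rw [mem_maximalIdeal, mem_nonunits_iff]
  constructor
  · intro hnu
    by_contra hcon
    rw [not_or, not_not] at hcon
    apply hnu
    refine IsUnit.of_mul_eq_one (⟨e⁻¹, hcon.2⟩ : B) ?_
    apply Subtype.ext
    show e * e⁻¹ = 1
    exact mul_inv_cancel₀ hcon.1
  · rintro (rfl | hinv) hu
    · have h0 : (⟨0, h⟩ : B) = 0 := rfl
      rw [h0] at hu
      exact not_isUnit_zero hu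
    · obtain ⟨u, hu⟩ := hu
      apply hinv
      have h1 : e * (((u⁻¹ : Bˣ) : B) : E) = 1 := by
        have h2 : ((u : B) * ((u⁻¹ : Bˣ) : B) : B) = 1 := Units.mul_inv u
        have h3 := congrArg (fun b : B => (b : E)) h2
        rw [hu] at h3
        exact h3
      rw [← eq_inv_of_mul_eq_one_right h1]
      exact SetLike.coe_mem _

end LocalSub

section Abstract

/-! ### a local subring of a field containing the image of a Dedekind domain -/

variable {O L E : Type*} [CommRing O] [IsDedekindDomain O] [Field L] [Algebra O L]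
  [IsFractionRing O L] [Field E] {S : Type*} [SetLike S E] [SubringClass S E]
  (ι : L →+* E) (B : S) [IsLocalRing B] (hOB : ∀ x : O, ι (algebraMap O L x) ∈ B)

/-- the ring hom `O → B`. -/
def locDeg_toSub : O →+* B := (ι.comp (algebraMap O L)).codRestrict B hOB

omit [IsDedekindDomain O] [IsFractionRing O L] [IsLocalRing B] in
@[simp] theorem locDeg_coe_toSub (x : O) :
    ((locDeg_toSub ι B hOB x : B) : E) = ι (algebraMap O L x) := rfl

/-- the centre of `B` on `O`. -/
def locDeg_center : Ideal O := (maximalIdeal B).comap (locDeg_toSub ι B hOB)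

omit [IsDedekindDomain O] [IsFractionRing O L] in
theorem locDeg_mem_center_iff (x : O) :
    x ∈ locDeg_center ι B hOB ↔ locDeg_toSub ι B hOB x ∈ maximalIdeal B := Iff.rfl

omit [IsDedekindDomain O] [IsFractionRing O L] in
instance locDeg_center_isPrime : (locDeg_center ι B hOB).IsPrime :=
  Ideal.comap_isPrime _ _

variable (w : HeightOneSpectrum O) (hw : w.asIdeal = locDeg_center ι B hOB)

include hw

/-- elements of `O` outside `w` become units of `B`. -/
theorem locDeg_isUnit_of_not_mem {d : O} (hd : d ∉ w.asIdeal) :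
    IsUnit (locDeg_toSub ι B hOB d) := by
  rw [hw, locDeg_mem_center_iff, mem_maximalIdeal, mem_nonunits_iff, not_not] at hd
  exact hd

/-- `w`-integral elements of `L` go to `B`. -/
theorem locDeg_mem_of_valuation_le_one {x : L} (hx : w.valuation L x ≤ 1) : ι x ∈ B := by
  obtain ⟨n, d, hnd⟩ := w.exists_primeCompl_mul_eq_of_integer x hx
  obtain ⟨u, hu⟩ := locDeg_isUnit_of_not_mem ι B hOB w hw d.2
  have h1 : ι x * ((u : B) : E) = ι (algebraMap O L n) := by
    rw [hu, locDeg_coe_toSub, ← map_mul, hnd]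
  have h2 : ι x = ((locDeg_toSub ι B hOB n * ((u⁻¹ : Bˣ) : B) : B) : E) := by
    have h3 : (((u : B) * ((u⁻¹ : Bˣ) : B) : B) : E) = 1 := by
      rw [Units.mul_inv]; rfl
    have h4 : (((u : B) * ((u⁻¹ : Bˣ) : B) : B) : E) = ((u : B) : E) * (((u⁻¹ : Bˣ) : B) : E) := rfl
    have h5 : ((locDeg_toSub ι B hOB n * ((u⁻¹ : Bˣ) : B) : B) : E) =
        ι (algebraMap O L n) * (((u⁻¹ : Bˣ) : B) : E) := rfl
    rw [h5, ← h1, mul_assoc, ← h4, h3, mul_one]
  rw [h2]
  exact SetLike.coe_mem _

/-- elements of `L` of `w`-valuation `< 1` go to the maximal ideal of `B`. -/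
theorem locDeg_mem_maximalIdeal_of_valuation_lt_one {x : L} (hx : w.valuation L x < 1) :
    ∃ h : ι x ∈ B, (⟨ι x, h⟩ : B) ∈ maximalIdeal B := by
  obtain ⟨n, d, hnd⟩ := w.exists_primeCompl_mul_eq_of_integer x hx.le
  obtain ⟨u, hu⟩ := locDeg_isUnit_of_not_mem ι B hOB w hw d.2
  have hn : n ∈ w.asIdeal := by
    rw [← intValuation_lt_one_iff_mem]
    have h1 : w.valuation L (algebraMap O L n) = w.intValuation n := valuation_of_algebraMap w n
    have hd1 : w.valuation L (algebraMap O L d) = 1 := by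
      have h2 : w.valuation L (algebraMap O L d) = w.intValuation d := valuation_of_algebraMap w _
      rw [h2, intValuation_eq_one_iff]
      exact d.2
    rw [← h1, ← hnd, map_mul, hd1, mul_one]
    exact hx
  rw [hw, locDeg_mem_center_iff] at hn
  have hxB := locDeg_mem_of_valuation_le_one ι B hOB w hw hx.le
  refine ⟨hxB, ?_⟩
  have h1 : (⟨ι x, hxB⟩ : B) * (u : B) = locDeg_toSub ι B hOB n := by
    apply Subtype.ext
    show ι x * ((u : B) : E) = ι (algebraMap O L n)
    rw [hu, locDeg_coe_toSub, ← map_mul, hnd]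
  have h2 : (⟨ι x, hxB⟩ : B) = locDeg_toSub ι B hOB n * ((u⁻¹ : Bˣ) : B) := by
    rw [← h1, mul_assoc, Units.mul_inv, mul_one]
  rw [h2]
  exact Ideal.mul_mem_right _ _ hn

/-- the converse: elements of `L` going to the maximal ideal of `B` have `w`-valuation `< 1`. -/
theorem locDeg_valuation_lt_one_of_mem_maximalIdeal {x : L} (h : ι x ∈ B)
    (hm : (⟨ι x, h⟩ : B) ∈ maximalIdeal B) : w.valuation L x < 1 := by
  by_contra hlt
  rw [not_lt] at hlt
  have hx0 : x ≠ 0 := by
    rintro rfl
    rw [map_zero] at hlt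
    exact absurd hlt (by simp)
  have hinv : w.valuation L x⁻¹ ≤ 1 := by
    rw [map_inv₀]
    exact inv_le_one_of_one_le₀ hlt
  have hB := locDeg_mem_of_valuation_le_one ι B hOB w hw hinv
  have h1 : (⟨ι x, h⟩ : B) * ⟨ι x⁻¹, hB⟩ = 1 := by
    apply Subtype.ext
    show ι x * ι x⁻¹ = 1
    rw [← map_mul, mul_inv_cancel₀ hx0, map_one]
  have h2 : (1 : B) ∈ maximalIdeal B := by
    rw [← h1]
    exact Ideal.mul_mem_right _ _ hm
  exact (Ideal.ne_top_iff_one _).mp (IsLocalRing.maximalIdeal.isMaximal B).ne_top h2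

/-- elements of `L` going to `B` are `w`-integral. -/
theorem locDeg_valuation_le_one_of_mem {x : L} (h : ι x ∈ B) : w.valuation L x ≤ 1 := by
  by_contra hlt
  rw [not_le] at hlt
  have hx0 : x ≠ 0 := by
    rintro rfl
    rw [map_zero] at hlt
    exact absurd hlt (by simp)
  have hinv : w.valuation L x⁻¹ < 1 := by
    rw [map_inv₀]
    exact inv_lt_one_of_one_lt₀ hlt
  obtain ⟨hB, hm⟩ := locDeg_mem_maximalIdeal_of_valuation_lt_one ι B hOB w hw hinv
  have h1 : (⟨ι x⁻¹, hB⟩ : B) * ⟨ι x, h⟩ = 1 := by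
    apply Subtype.ext
    show ι x⁻¹ * ι x = 1
    rw [← map_mul, inv_mul_cancel₀ hx0, map_one]
  have h2 : (1 : B) ∈ maximalIdeal B := by
    rw [← h1]
    exact Ideal.mul_mem_right _ _ hm
  exact (Ideal.ne_top_iff_one _).mp (IsLocalRing.maximalIdeal.isMaximal B).ne_top h2


end Abstract

section Tensor

/-! ### the prime of `𝓞 L` cut out by a maximal ideal of `K_v ⊗[K] L` -/

open NumberField
open scoped TensorProduct Pointwise

attribute [local instance] Ideal.Quotient.field

variable (K L : Type) [Field K] [NumberField K] [Field L] [NumberField L] [Algebra K L]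
  (v : HeightOneSpectrum (𝓞 K))

/-- `L → E_m = (K_v ⊗[K] L) / m`. -/
noncomputable def locDeg_emb (m : Ideal ((v.adicCompletion K) ⊗[K] L)) :
    L →+* ((v.adicCompletion K) ⊗[K] L) ⧸ m :=
  (Ideal.Quotient.mk m).comp
    (Algebra.TensorProduct.includeRight : L →ₐ[K] (v.adicCompletion K) ⊗[K] L).toRingHom

theorem locDeg_emb_apply (m : Ideal ((v.adicCompletion K) ⊗[K] L)) (x : L) :
    locDeg_emb K L v m x = Ideal.Quotient.mk m ((1 : v.adicCompletion K) ⊗ₜ[K] x) := rfl

/-- the image of `k ∈ K` in `E_m` through `L` is its image through `K_v`. -/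
theorem locDeg_emb_algebraMap (m : Ideal ((v.adicCompletion K) ⊗[K] L)) (k : K) :
    locDeg_emb K L v m (algebraMap K L k) =
      algebraMap (v.adicCompletion K) (((v.adicCompletion K) ⊗[K] L) ⧸ m)
        (algebraMap K (v.adicCompletion K) k) := by
  rw [locDeg_emb_apply, Algebra.algebraMap_eq_smul_one, ← TensorProduct.smul_tmul,
    ← Algebra.algebraMap_eq_smul_one]
  rfl

variable (m : Ideal ((v.adicCompletion K) ⊗[K] L)) [hm : m.IsMaximal]

/-- the valuation ring `B_m` of `E_m`. -/
noncomputable abbrev locDeg_B :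
    Subalgebra (v.adicCompletionIntegers K) (((v.adicCompletion K) ⊗[K] L) ⧸ m) :=
  integralClosure (v.adicCompletionIntegers K) (((v.adicCompletion K) ⊗[K] L) ⧸ m)

instance locDeg_isSeparable :
    Algebra.IsSeparable (v.adicCompletion K) (((v.adicCompletion K) ⊗[K] L) ⧸ m) := by
  have := adicLF_charZero K v
  exact Algebra.IsAlgebraic.isSeparable_of_perfectField

/-- `B_m` is a local ring (Hensel). -/
instance locDeg_isLocalRing_B : IsLocalRing (locDeg_B K L v m) := by
  have := adicLF_isAdicComplete K v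
  exact intClosure_isLocalRing (v.adicCompletionIntegers K) (v.adicCompletion K)
    (((v.adicCompletion K) ⊗[K] L) ⧸ m) (locDeg_B K L v m)

/-- `𝓞 L` goes to `B_m`. -/
theorem locDeg_emb_mem_B (x : 𝓞 L) :
    locDeg_emb K L v m (algebraMap (𝓞 L) L x) ∈ locDeg_B K L v m := by
  have h1 : IsIntegral ℤ (algebraMap (𝓞 L) L x) := RingOfIntegers.isIntegral_coe x
  exact IsIntegral.map_of_comp_eq (Int.castRingHom (v.adicCompletionIntegers K))
    (locDeg_emb K L v m) (RingHom.ext_int _ _) h1

/-- the centre of `B_m` on `𝓞 L`, as an ideal. -/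
noncomputable def locDeg_ideal : Ideal (𝓞 L) :=
  locDeg_center (locDeg_emb K L v m) (locDeg_B K L v m) (locDeg_emb_mem_B K L v m)

instance locDeg_ideal_isPrime : (locDeg_ideal K L v m).IsPrime :=
  locDeg_center_isPrime _ _ _

/-- the image in `E_m` of an element of `O_v ⊆ K_v`. -/
theorem locDeg_mem_maximalIdeal_of_mem (a : v.adicCompletionIntegers K)
    (ha : a ∈ maximalIdeal (v.adicCompletionIntegers K)) :
    algebraMap (v.adicCompletionIntegers K) (locDeg_B K L v m) a ∈
      maximalIdeal (locDeg_B K L v m) := by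
  have := adicLF_isAdicComplete K v
  have hloc := intClosure_isLocalHom (v.adicCompletionIntegers K) (v.adicCompletion K)
    (((v.adicCompletion K) ⊗[K] L) ⧸ m) (locDeg_B K L v m)
  rw [mem_maximalIdeal, mem_nonunits_iff] at ha ⊢
  intro hu
  exact ha (hloc.map_nonunit a hu)

/-- `v 𝓞 L ⊆ w(m)`. -/
theorem locDeg_algebraMap_mem_ideal {a : 𝓞 K} (ha : a ∈ v.asIdeal) :
    algebraMap (𝓞 K) (𝓞 L) a ∈ locDeg_ideal K L v m := by
  have hA : ((algebraMap (𝓞 K) K a : K) : v.adicCompletion K) ∈ v.adicCompletionIntegers K :=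
    coe_algebraMap_mem (𝓞 K) K v a
  have hmem : (⟨_, hA⟩ : v.adicCompletionIntegers K) ∈
      maximalIdeal (v.adicCompletionIntegers K) := by
    rw [adicLF_mem_maximalIdeal_iff]
    show Valued.v ((algebraMap (𝓞 K) K a : K) : v.adicCompletion K) < 1
    rw [adicCompletion.valued_coe, valuation_of_algebraMap, intValuation_lt_one_iff_mem]
    exact ha
  have h1 := locDeg_mem_maximalIdeal_of_mem K L v m _ hmem
  rw [locDeg_ideal, locDeg_mem_center_iff]
  convert h1 using 1
  apply Subtype.ext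
  show locDeg_emb K L v m (algebraMap (𝓞 L) L (algebraMap (𝓞 K) (𝓞 L) a)) = _
  rw [← IsScalarTower.algebraMap_apply, IsScalarTower.algebraMap_apply (𝓞 K) K L,
    locDeg_emb_algebraMap]
  rfl

theorem locDeg_ideal_ne_bot : locDeg_ideal K L v m ≠ ⊥ := by
  obtain ⟨a, ha, ha0⟩ := Submodule.exists_mem_ne_zero_of_ne_bot v.ne_bot
  intro h
  have h1 := locDeg_algebraMap_mem_ideal K L v m ha
  rw [h, Ideal.mem_bot] at h1
  exact ha0 (RingOfIntegers.algebraMap.injective K L (by rw [h1, map_zero]))

/-- **the prime of `𝓞 L` cut out by the maximal ideal `m` of `K_v ⊗[K] L`.** -/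
noncomputable def primeOfMax : HeightOneSpectrum (𝓞 L) :=
  ⟨locDeg_ideal K L v m, locDeg_ideal_isPrime K L v m, locDeg_ideal_ne_bot K L v m⟩

theorem primeOfMax_asIdeal : (primeOfMax K L v m).asIdeal = locDeg_ideal K L v m := rfl

/-- `w(m)` lies above `v`. -/
theorem primeBelow_primeOfMax : primeBelow K L (primeOfMax K L v m) = v := by
  apply HeightOneSpectrum.ext
  symm
  apply v.isMaximal.eq_of_le (primeBelow K L (primeOfMax K L v m)).isPrime.ne_top
  intro a ha
  exact locDeg_algebraMap_mem_ideal K L v m ha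

/-! ### the valuation dictionary -/

/-- `t ∈ E_m` lies in the maximal ideal of the valuation ring `B_m`. -/
def locDeg_small (t : ((v.adicCompletion K) ⊗[K] L) ⧸ m) : Prop :=
  ∃ h : t ∈ locDeg_B K L v m, (⟨t, h⟩ : locDeg_B K L v m) ∈ maximalIdeal (locDeg_B K L v m)

theorem locDeg_small_zero : locDeg_small K L v m 0 :=
  ⟨Subalgebra.zero_mem _, Ideal.zero_mem _⟩

theorem locDeg_small_add {t t' : ((v.adicCompletion K) ⊗[K] L) ⧸ m}
    (ht : locDeg_small K L v m t) (ht' : locDeg_small K L v m t') :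
    locDeg_small K L v m (t + t') := by
  obtain ⟨h, hm'⟩ := ht
  obtain ⟨h', hm''⟩ := ht'
  exact ⟨Subalgebra.add_mem _ h h', Ideal.add_mem _ hm' hm''⟩

theorem locDeg_small_neg {t : ((v.adicCompletion K) ⊗[K] L) ⧸ m}
    (ht : locDeg_small K L v m t) : locDeg_small K L v m (-t) := by
  obtain ⟨h, hm'⟩ := ht
  exact ⟨Subalgebra.neg_mem _ h, Ideal.neg_mem_iff _ |>.mpr hm'⟩

theorem locDeg_small_mul {t b : ((v.adicCompletion K) ⊗[K] L) ⧸ m}
    (ht : locDeg_small K L v m t) (hb : b ∈ locDeg_B K L v m) :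
    locDeg_small K L v m (t * b) := by
  obtain ⟨h, hm'⟩ := ht
  exact ⟨Subalgebra.mul_mem _ h hb, Ideal.mul_mem_right (⟨b, hb⟩ : locDeg_B K L v m) _ hm'⟩

/-- the image of an element of `𝔪_v ⊆ K_v` is small. -/
theorem locDeg_small_algebraMap {c : v.adicCompletion K} (hc : Valued.v c < 1) :
    locDeg_small K L v m
      (algebraMap (v.adicCompletion K) (((v.adicCompletion K) ⊗[K] L) ⧸ m) c) := by
  have hA : c ∈ v.adicCompletionIntegers K := hc.le
  have hmem : (⟨c, hA⟩ : v.adicCompletionIntegers K) ∈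
      maximalIdeal (v.adicCompletionIntegers K) := by
    rw [adicLF_mem_maximalIdeal_iff]
    exact hc
  have h1 := locDeg_mem_maximalIdeal_of_mem K L v m _ hmem
  exact ⟨(algebraMap (v.adicCompletionIntegers K) (locDeg_B K L v m) ⟨c, hA⟩).2, h1⟩

theorem primeOfMax_valuation_lt_one_iff (x : L) :
    (primeOfMax K L v m).valuation L x < 1 ↔ locDeg_small K L v m (locDeg_emb K L v m x) :=
  ⟨fun h => locDeg_mem_maximalIdeal_of_valuation_lt_one _ _ _ _ (primeOfMax_asIdeal K L v m) h,
    fun ⟨h, hm'⟩ => locDeg_valuation_lt_one_of_mem_maximalIdeal _ _ _ _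
      (primeOfMax_asIdeal K L v m) h hm'⟩

theorem primeOfMax_valuation_le_one_iff (x : L) :
    (primeOfMax K L v m).valuation L x ≤ 1 ↔ locDeg_emb K L v m x ∈ locDeg_B K L v m :=
  ⟨fun h => locDeg_mem_of_valuation_le_one _ _ _ _ (primeOfMax_asIdeal K L v m) h,
    fun h => locDeg_valuation_le_one_of_mem _ _ _ _ (primeOfMax_asIdeal K L v m) h⟩

theorem locDeg_mem_ideal_iff (x : 𝓞 L) :
    x ∈ locDeg_ideal K L v m ↔
      locDeg_small K L v m (locDeg_emb K L v m (algebraMap (𝓞 L) L x)) :=
  ⟨fun h => ⟨locDeg_emb_mem_B K L v m x, h⟩, fun ⟨_, hm'⟩ => hm'⟩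

end Tensor

section Approx

/-! ### approximation of elements of `K_v ⊗[K] L` by elements of `L` -/

open NumberField
open scoped TensorProduct Pointwise

attribute [local instance] Ideal.Quotient.field

variable (K L : Type) [Field K] [NumberField K] [Field L] [NumberField L] [Algebra K L]
  (v : HeightOneSpectrum (𝓞 K))

/-- `K` is dense in `K_v` (radius one). -/
theorem locDeg_exists_valued_sub_lt_one (c : v.adicCompletion K) :
    ∃ a : K, Valued.v (algebraMap K (v.adicCompletion K) a - c) < 1 := by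
  have hopen : IsOpen {z : v.adicCompletion K | Valued.v (z - c) < (1 : ℤᵐ⁰)} :=
    (adicLF_isOpen_ball K v).preimage (continuous_id.sub continuous_const)
  obtain ⟨a, ha⟩ := (HeightOneSpectrum.denseRange_algebraMap K v).exists_mem_open hopen
    ⟨c, by simp⟩
  exact ⟨a, ha⟩

/-- `t ∈ K_v ⊗[K] L` is small at every maximal ideal. -/
def locDeg_smallAll (t : (v.adicCompletion K) ⊗[K] L) : Prop :=
  ∀ (m : Ideal ((v.adicCompletion K) ⊗[K] L)) [m.IsMaximal],
    locDeg_small K L v m (Ideal.Quotient.mk m t)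

theorem locDeg_smallAll_tmul {c : v.adicCompletion K} (hc : Valued.v c < 1) (l : 𝓞 L) :
    locDeg_smallAll K L v (c ⊗ₜ[K] (algebraMap (𝓞 L) L l)) := by
  intro m _
  have h1 : Ideal.Quotient.mk m (c ⊗ₜ[K] (algebraMap (𝓞 L) L l)) =
      algebraMap (v.adicCompletion K) (((v.adicCompletion K) ⊗[K] L) ⧸ m) c *
        locDeg_emb K L v m (algebraMap (𝓞 L) L l) := by
    rw [locDeg_emb_apply, ← Ideal.Quotient.mk_algebraMap, ← map_mul,
      Algebra.TensorProduct.algebraMap_apply, Algebra.TensorProduct.tmul_mul_tmul, mul_one,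
      one_mul]
    rfl
  rw [h1]
  exact locDeg_small_mul K L v m (locDeg_small_algebraMap K L v m hc) (locDeg_emb_mem_B K L v m l)

/-- every element of `K_v ⊗[K] L` is, modulo elements small at every maximal ideal, of the form
`1 ⊗ y` with `y ∈ L`. -/
theorem locDeg_exists_approx (z : (v.adicCompletion K) ⊗[K] L) :
    ∃ y : L, locDeg_smallAll K L v ((1 : v.adicCompletion K) ⊗ₜ[K] y - z) := by
  induction z using TensorProduct.induction_on with
  | zero =>
    refine ⟨0, fun m _ => ?_⟩
    rw [TensorProduct.tmul_zero, sub_zero, map_zero]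
    exact locDeg_small_zero K L v m
  | tmul c l =>
    -- clear the denominator of `l`
    have hl : IsAlgebraic ℤ l :=
      (IsFractionRing.isAlgebraic_iff ℤ ℚ L).mpr (Algebra.IsAlgebraic.isAlgebraic l)
    obtain ⟨d, hd0, hd⟩ := hl.exists_integral_multiple
    have hdK : (algebraMap K (v.adicCompletion K) (d : K)) ≠ 0 := by
      rw [ne_eq, map_eq_zero]
      exact_mod_cast hd0
    set l₀ : 𝓞 L := ⟨d • l, hd⟩ with hl₀
    set c' : v.adicCompletion K := c * (algebraMap K (v.adicCompletion K) (d : K))⁻¹ with hc'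
    have hcl : c ⊗ₜ[K] l = c' ⊗ₜ[K] (algebraMap (𝓞 L) L l₀) := by
      have h1 : algebraMap (𝓞 L) L l₀ = (d : K) • l := by
        show d • l = (d : K) • l
        rw [Int.cast_smul_eq_zsmul]
      rw [h1, TensorProduct.tmul_smul, TensorProduct.smul_tmul', Algebra.smul_def, hc',
        mul_comm c, ← mul_assoc, mul_inv_cancel₀ hdK, one_mul]
    obtain ⟨a, ha⟩ := locDeg_exists_valued_sub_lt_one K v c'
    refine ⟨a • algebraMap (𝓞 L) L l₀, ?_⟩
    have h2 : (1 : v.adicCompletion K) ⊗ₜ[K] (a • algebraMap (𝓞 L) L l₀) - c ⊗ₜ[K] l =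
        (algebraMap K (v.adicCompletion K) a - c') ⊗ₜ[K] (algebraMap (𝓞 L) L l₀) := by
      rw [hcl, TensorProduct.tmul_smul, TensorProduct.smul_tmul', TensorProduct.sub_tmul,
        Algebra.smul_def, mul_one]
    rw [h2]
    exact locDeg_smallAll_tmul K L v ha l₀
  | add z z' hz hz' =>
    obtain ⟨y, hy⟩ := hz
    obtain ⟨y', hy'⟩ := hz'
    refine ⟨y + y', fun m _ => ?_⟩
    have h1 : (1 : v.adicCompletion K) ⊗ₜ[K] (y + y') - (z + z') =
        ((1 : v.adicCompletion K) ⊗ₜ[K] y - z) + ((1 : v.adicCompletion K) ⊗ₜ[K] y' - z') := by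
      rw [TensorProduct.tmul_add]
      ring
    rw [h1, map_add]
    exact locDeg_small_add K L v m (hy m) (hy' m)

/-- **`m ↦ w(m)` is injective.** -/
theorem primeOfMax_injective (m m' : Ideal ((v.adicCompletion K) ⊗[K] L)) [hm : m.IsMaximal]
    [hm' : m'.IsMaximal] (h : primeOfMax K L v m = primeOfMax K L v m') : m = m' := by
  by_contra hne
  have hsup : m ⊔ m' = ⊤ := Ideal.IsMaximal.coprime_of_ne hm hm' hne
  obtain ⟨a, ha, b, hb, hab⟩ := Submodule.mem_sup.mp ((Ideal.eq_top_iff_one _).mp hsup)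
  obtain ⟨y, hy⟩ := locDeg_exists_approx K L v b
  have h1 : locDeg_small K L v m' (locDeg_emb K L v m' y) := by
    have h0 := hy m'
    rw [map_sub, Ideal.Quotient.eq_zero_iff_mem.mpr hb, sub_zero] at h0
    exact h0
  have h2 : locDeg_small K L v m (locDeg_emb K L v m (y - 1)) := by
    have h0 := hy m
    have hb1 : Ideal.Quotient.mk m b = 1 := by
      have hb' : b = 1 - a := by rw [← hab]; ring
      rw [hb', map_sub, map_one, Ideal.Quotient.eq_zero_iff_mem.mpr ha, sub_zero]
    rw [map_sub, hb1] at h0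
    rw [map_sub, map_one]
    exact h0
  rw [← primeOfMax_valuation_lt_one_iff] at h1 h2
  rw [← h] at h1
  have h3 : (primeOfMax K L v m).valuation L 1 < 1 := by
    have e : (1 : L) = y - (y - 1) := by ring
    rw [e]
    exact (Valuation.map_sub _ _ _).trans_lt (max_lt h1 h2)
  rw [map_one] at h3
  exact lt_irrefl _ h3

end Approx

section Galois

/-! ### Galois equivariance and the decomposition groups -/

open NumberField
open scoped TensorProduct Pointwise Fermat.Agent.CFT.TensorGal

attribute [local instance] Ideal.Quotient.field heightOneSpectrumMulAction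

variable (K L : Type) [Field K] [NumberField K] [Field L] [NumberField L] [Algebra K L]
  (v : HeightOneSpectrum (𝓞 K))

/-- smallness, intrinsically. -/
theorem locDeg_small_iff (m : Ideal ((v.adicCompletion K) ⊗[K] L)) [m.IsMaximal]
    (t : ((v.adicCompletion K) ⊗[K] L) ⧸ m) :
    locDeg_small K L v m t ↔
      IsIntegral (v.adicCompletionIntegers K) t ∧
        (t = 0 ∨ ¬ IsIntegral (v.adicCompletionIntegers K) t⁻¹) := by
  constructor
  · rintro ⟨h, hm'⟩
    exact ⟨h, (locDeg_mem_maximalIdeal_iff (locDeg_B K L v m) h).mp hm'⟩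
  · rintro ⟨h, h'⟩
    exact ⟨h, (locDeg_mem_maximalIdeal_iff (locDeg_B K L v m) h).mpr h'⟩

/-- smallness is transported by `O_v`-algebra isomorphisms of the residue fields. -/
theorem locDeg_small_algEquiv (m m' : Ideal ((v.adicCompletion K) ⊗[K] L)) [m.IsMaximal]
    [m'.IsMaximal]
    (φ : (((v.adicCompletion K) ⊗[K] L) ⧸ m) ≃ₐ[v.adicCompletionIntegers K]
      (((v.adicCompletion K) ⊗[K] L) ⧸ m'))
    (t : ((v.adicCompletion K) ⊗[K] L) ⧸ m) :
    locDeg_small K L v m' (φ t) ↔ locDeg_small K L v m t := by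
  rw [locDeg_small_iff, locDeg_small_iff, isIntegral_algEquiv, ← map_inv₀, isIntegral_algEquiv,
    EmbeddingLike.map_eq_zero_iff]

instance locDeg_smul_isMaximal (g : Gal(L/K)) (m : Ideal ((v.adicCompletion K) ⊗[K] L))
    [hm : m.IsMaximal] : (g • m).IsMaximal := by
  have : m.IsPrime := hm.isPrime
  have : (g • m).IsPrime := Ideal.IsPrime.smul g
  exact IsArtinianRing.isMaximal_of_isPrime _

/-- **`m ↦ w(m)` is Galois-equivariant.** -/
theorem primeOfMax_smul (g : Gal(L/K)) (m : Ideal ((v.adicCompletion K) ⊗[K] L)) [m.IsMaximal] :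
    primeOfMax K L v (g • m) = g • primeOfMax K L v m := by
  apply HeightOneSpectrum.ext
  ext x
  rw [hos_smul_asIdeal, Ideal.mem_pointwise_smul_iff_inv_smul_mem, primeOfMax_asIdeal,
    primeOfMax_asIdeal]
  rw [locDeg_mem_ideal_iff, locDeg_mem_ideal_iff]
  let φ := (quotSmulEquiv (v.adicCompletion K) ((v.adicCompletion K) ⊗[K] L) Gal(L/K) g
    m).restrictScalars (v.adicCompletionIntegers K)
  rw [← locDeg_small_algEquiv K L v m (g • m) φ]
  have h1 : φ (locDeg_emb K L v m (algebraMap (𝓞 L) L (g⁻¹ • x))) =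
      locDeg_emb K L v (g • m) (algebraMap (𝓞 L) L x) := by
    show quotSmulEquiv (v.adicCompletion K) ((v.adicCompletion K) ⊗[K] L) Gal(L/K) g m
      (Ideal.Quotient.mk m ((1 : v.adicCompletion K) ⊗ₜ[K] (algebraMap (𝓞 L) L (g⁻¹ • x)))) = _
    rw [quotSmulEquiv_mk, tensorRight_smul_tmul, locDeg_emb_apply]
    congr 2
    show g (g⁻¹ (algebraMap (𝓞 L) L x)) = _
    exact g.apply_symm_apply _
  rw [h1]

theorem primeOfMax_congr {m m' : Ideal ((v.adicCompletion K) ⊗[K] L)} [m.IsMaximal]
    [m'.IsMaximal] (h : m = m') : primeOfMax K L v m = primeOfMax K L v m' := by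
  subst h
  rfl

/-- **the decomposition group of `m` in `K_v ⊗[K] L` is the decomposition group of `w(m)`.** -/
theorem stabilizer_primeOfMax (m : Ideal ((v.adicCompletion K) ⊗[K] L)) [m.IsMaximal] :
    MulAction.stabilizer Gal(L/K) (primeOfMax K L v m) = MulAction.stabilizer Gal(L/K) m := by
  ext g
  rw [MulAction.mem_stabilizer_iff, MulAction.mem_stabilizer_iff]
  constructor
  · intro h
    exact primeOfMax_injective K L v (g • m) m (by rw [primeOfMax_smul, h])
  · intro h
    rw [← primeOfMax_smul]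
    exact primeOfMax_congr K L v h

variable [IsGalois K L]

/-- every prime of `𝓞 L` above `v` is `w(m)` for a maximal ideal `m` of `K_v ⊗[K] L`. -/
theorem exists_primeOfMax_eq (w : HeightOneSpectrum (𝓞 L)) (hw : primeBelow K L w = v) :
    ∃ (m : Ideal ((v.adicCompletion K) ⊗[K] L)) (_ : m.IsMaximal), primeOfMax K L v m = w := by
  obtain ⟨m₀, hm₀⟩ := Ideal.exists_maximal ((v.adicCompletion K) ⊗[K] L)
  obtain ⟨g, hg⟩ := exists_smul_eq_of_primeBelow_eq K L
    ((primeBelow_primeOfMax K L v m₀).trans hw.symm)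
  exact ⟨g • m₀, inferInstance, by rw [primeOfMax_smul, hg]⟩

/-- **the decomposition groups on both sides have the same order**: for every maximal ideal `m`
of `K_v ⊗[K] L` and every prime `w` of `𝓞 L` above `v`. -/
theorem card_stabilizer_max_eq (m : Ideal ((v.adicCompletion K) ⊗[K] L)) [m.IsMaximal]
    (w : HeightOneSpectrum (𝓞 L)) (hw : primeBelow K L w = v) :
    Nat.card (MulAction.stabilizer Gal(L/K) m) = Nat.card (MulAction.stabilizer Gal(L/K) w) := by
  obtain ⟨g, hg⟩ := exists_smul_eq_of_primeBelow_eq K L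
    ((primeBelow_primeOfMax K L v m).trans hw.symm)
  rw [← stabilizer_primeOfMax]
  exact Nat.card_congr (MulAction.stabilizerEquivStabilizer hg).toEquiv

attribute [local instance] maxSpecMulAction in
/-- the same for `MaximalSpectrum (K_v ⊗[K] L)` with the action `maxSpecMulAction` of
`Idele/SemiLocal.lean`. -/
theorem card_stabilizer_maxSpec_eq (m : MaximalSpectrum ((v.adicCompletion K) ⊗[K] L))
    (w : HeightOneSpectrum (𝓞 L)) (hw : primeBelow K L w = v) :
    Nat.card (MulAction.stabilizer Gal(L/K) m) = Nat.card (MulAction.stabilizer Gal(L/K) w) := by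
  have := m.isMaximal
  rw [stabilizer_maxSpec_eq K (v.adicCompletion K) L Gal(L/K) m]
  exact card_stabilizer_max_eq K L v m.asIdeal w hw

end Galois

end Fermat.Agent.CFT
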