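import Mathlib
import Fermat.Agent.CFT.Idele.LocalDegree
import Fermat.Agent.CFT.Idele.IntegralGen

/-!
# (GL8') Galois-free surjectivity of `m ↦ w(m)`

(helper25, S55 global-idelic pool; asked for by helper23: in the devissage the top field of a cyclic
layer is not Galois over the tensor base `K`.)

For an arbitrary finite extension `L / K` of number fields and a prime `v` of `K`, every prime `w`
of `𝓞 L` above `v` is `primeOfMax K L v m` for a maximal ideal `m` of `K_v ⊗[K] L`
(`ldSurj_exists_primeOfMax_eq`).  Proof: otherwise choose `y ∈ w` outside all `w(m)`; then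
`1 ⊗ y⁻¹` is integral over `O_v` in every residue field of `K_v ⊗[K] L`, hence in `K_v ⊗[K] L`
(integrality is componentwise in a reduced Artinian ring), hence `w(y⁻¹) ≤ 1` by
`idIntG_tmul_mem_iff`: contradiction.
-/

set_option autoImplicit false
set_option linter.unusedSectionVars false
set_option linter.style.haveILetI false

namespace Fermat.Agent.CFT

open IsDedekindDomain IsDedekindDomain.HeightOneSpectrum

section Componentwise

/-- an element of a finite product of algebras with integral components is integral. -/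
theorem ldSurj_isIntegral_pi {A : Type*} [CommRing A] {ι : Type*} [Finite ι] {B : ι → Type*}
    [∀ i, CommRing (B i)] [∀ i, Algebra A (B i)] (f : ∀ i, B i)
    (h : ∀ i, IsIntegral A (f i)) : IsIntegral A f := by
  classical
  have := Fintype.ofFinite ι
  have hsingle : ∀ i, IsIntegral A (Pi.single i (f i) : ∀ i, B i) := by
    intro i
    obtain ⟨p, hp, hpe⟩ := h i
    refine ⟨Polynomial.X * p, Polynomial.monic_X.mul hp, ?_⟩
    rw [Polynomial.eval₂_mul, Polynomial.eval₂_X]
    funext j
    rw [Pi.mul_apply, Pi.zero_apply]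
    by_cases hj : j = i
    · subst hj
      have h1 : (Polynomial.eval₂ (algebraMap A (∀ i, B i)) (Pi.single j (f j)) p) j =
          Polynomial.eval₂ (algebraMap A (B j)) (f j) p := by
        have := Polynomial.hom_eval₂ p (algebraMap A (∀ i, B i)) (Pi.evalRingHom B j)
          (Pi.single j (f j))
        rw [Pi.evalRingHom_apply, Pi.evalRingHom_apply, Pi.single_eq_same] at this
        exact this
      rw [h1, hpe, mul_zero]
    · rw [Pi.single_eq_of_ne hj, zero_mul]
  have hsum : f = ∑ i, (Pi.single i (f i) : ∀ i, B i) := (Finset.univ_sum_single f).symm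
  rw [hsum]
  exact IsIntegral.sum _ fun i _ => hsingle i

/-- integrality in a reduced Artinian ring is detected in the residue fields. -/
theorem ldSurj_isIntegral_of_forall_quotient {A R : Type*} [CommRing A] [CommRing R] [Algebra A R]
    [IsArtinianRing R] [IsReduced R] (z : R)
    (h : ∀ m : MaximalSpectrum R, IsIntegral A (Ideal.Quotient.mk m.asIdeal z)) :
    IsIntegral A z := by
  let e : R ≃ₐ[A] (∀ I : MaximalSpectrum R, R ⧸ I.asIdeal) :=
    (IsArtinianRing.equivPi R).restrictScalars A
  rw [← isIntegral_algEquiv e]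
  apply ldSurj_isIntegral_pi
  intro m
  exact h m

end Componentwise

section Surj

open NumberField
open scoped TensorProduct

attribute [local instance] Ideal.Quotient.field

variable (K L : Type) [Field K] [NumberField K] [Field L] [NumberField L] [Algebra K L]
  (v : HeightOneSpectrum (𝓞 K))

/-- **Galois-free surjectivity**: every prime of `𝓞 L` above `v` is `w(m)` for a maximal ideal `m`
of `K_v ⊗[K] L`. -/
theorem ldSurj_exists_primeOfMax_eq (w : HeightOneSpectrum (𝓞 L))
    (hw : primeBelow K L w = v) :
    ∃ (m : Ideal ((v.adicCompletion K) ⊗[K] L)) (_ : m.IsMaximal), primeOfMax K L v m = w := by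
  classical
  by_contra hcon
  push Not at hcon
  let R := (v.adicCompletion K) ⊗[K] L
  have hfin : Finite (MaximalSpectrum R) := inferInstance
  have := Fintype.ofFinite (MaximalSpectrum R)
  let f : MaximalSpectrum R → Ideal (𝓞 L) := fun m =>
    haveI := m.isMaximal
    (primeOfMax K L v m.asIdeal).asIdeal
  -- choose `y ∈ w` outside all `w(m)`
  have hy : ∃ y : 𝓞 L, y ∈ w.asIdeal ∧ ∀ m : MaximalSpectrum R, y ∉ f m := by
    by_contra hno
    push Not at hno
    obtain ⟨m₀⟩ : Nonempty (MaximalSpectrum R) := by
      obtain ⟨I, hI⟩ := Ideal.exists_maximal R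
      exact ⟨⟨I, hI⟩⟩
    have hsub : ((w.asIdeal : Ideal (𝓞 L)) : Set (𝓞 L)) ⊆
        ⋃ i ∈ ((Finset.univ : Finset (MaximalSpectrum R)) : Set (MaximalSpectrum R)), f i := by
      intro y hy
      obtain ⟨m, hm⟩ := hno y hy
      exact Set.mem_biUnion (Finset.mem_coe.mpr (Finset.mem_univ m)) hm
    rw [Ideal.subset_union_prime m₀ m₀ (fun m _ _ _ => by
      haveI := m.isMaximal
      exact (primeOfMax K L v m.asIdeal).isPrime)] at hsub
    obtain ⟨m, -, hle⟩ := hsub
    haveI := m.isMaximal
    have heq : w.asIdeal = (primeOfMax K L v m.asIdeal).asIdeal :=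
      w.isMaximal.eq_of_le (primeOfMax K L v m.asIdeal).isPrime.ne_top hle
    exact hcon m.asIdeal m.isMaximal (HeightOneSpectrum.ext heq.symm)
  obtain ⟨y, hyw, hym⟩ := hy
  let x : L := (algebraMap (𝓞 L) L y)⁻¹
  -- `1 ⊗ x` is integral in every residue field
  have hint : ∀ m : MaximalSpectrum R, IsIntegral (v.adicCompletionIntegers K)
      (Ideal.Quotient.mk m.asIdeal ((1 : v.adicCompletion K) ⊗ₜ[K] x)) := by
    intro m
    haveI := m.isMaximal
    have h1 : (primeOfMax K L v m.asIdeal).valuation L x ≤ 1 := by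
      have h2 : (primeOfMax K L v m.asIdeal).valuation L (algebraMap (𝓞 L) L y) = 1 := by
        refine le_antisymm (valuation_le_one _ y) (not_lt.mp fun hlt => hym m ?_)
        exact (valuation_lt_one_iff_mem _ y).mp hlt
      rw [map_inv₀, h2, inv_one]
    exact (primeOfMax_valuation_le_one_iff K L v m.asIdeal x).mp h1
  have hR : IsIntegral (v.adicCompletionIntegers K) ((1 : v.adicCompletion K) ⊗ₜ[K] x) :=
    ldSurj_isIntegral_of_forall_quotient _ hint
  have hle : w.valuation L x ≤ 1 := (idIntG_tmul_mem_iff K L v x).mp hR w hw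
  have hlt : w.valuation L (algebraMap (𝓞 L) L y) < 1 := (valuation_lt_one_iff_mem _ y).mpr hyw
  have hy0 : algebraMap (𝓞 L) L y ≠ 0 := by
    intro h0
    obtain ⟨m₀⟩ : Nonempty (MaximalSpectrum R) := by
      obtain ⟨I, hI⟩ := Ideal.exists_maximal R
      exact ⟨⟨I, hI⟩⟩
    apply hym m₀
    have : y = 0 := (FaithfulSMul.algebraMap_injective (𝓞 L) L) (by rw [h0, map_zero])
    rw [this]
    exact Ideal.zero_mem _
  have hv0 : w.valuation L (algebraMap (𝓞 L) L y) ≠ 0 := (Valuation.ne_zero_iff _).mpr hy0
  rw [map_inv₀] at hle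
  have := (inv_le_one₀ (zero_lt_iff.mpr hv0)).mp hle
  exact absurd hlt (not_lt.mpr this)

end Surj

end Fermat.Agent.CFT
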