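import Mathlib
import Fermat.Agent.CFT.Idele.LocalDegree
import Fermat.Agent.CFT.Idele.LocalDegreeSurj
import Fermat.Agent.CFT.Global.PermLattice
import Fermat.Agent.CFT.Global.SUnitsHerbrand

/-!
# (GL8'-rel) the dictionary `MaxSpec (K_v ⊗[K] L) ≅ {w | v}` for a generic group `H`

(helper25, S55 global-idelic pool; relative form asked for by helper4's architecture fix and used by
helper11's (GL8-rel))

`K ⊆ L` a finite extension of number fields (NOT necessarily Galois), `H` a group acting on `L` by `K`-algebra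
automorphisms (`MulSemiringAction H L`, `SMulCommClass H K L`), e.g. `H = Gal(L/M)` for an
intermediate field `M`, or a subgroup of `Gal(L/K)`.  `H` acts on `K_v ⊗[K] L` through the right
factor, on its maximal spectrum, and on the primes of `𝓞 L`.  The bijection
`m ↦ w(m) = primeOfMax K L v m` of `Idele/LocalDegree.lean` is `H`-equivariant, hence
* `ldRel_stabilizer_primeOfMax` : the stabilizers in `H` of `m` and of `w(m)` coincide;
* `ldRel_maxSpecEquiv` : the equivariant bijection `MaxSpec (K_v ⊗ L) ≃ {w // w | v}` (no Galois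
  hypothesis on `L / K`: surjectivity is `Idele/LocalDegreeSurj.lean`);
* `ldRel_prod_card_stabilizer` : for a finite set `S` of primes of `K` and the set `T` of the primes
  of `L` above `S`: `∏_{o ∈ H \ T} |Stab_H(o)| = ∏_{v ∈ S} ∏_{o ∈ H \ MaxSpec (K_v ⊗ L)} |Stab_H(o)|`.
  The left side is the finite-prime factor in the Herbrand quotient of the `T`-units of `L / L^H`
  (`herbrand_sUnit`), the right side the product of the local Herbrand quotients of the
  `(K_v ⊗ L)ˣ`.
-/

set_option autoImplicit false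
set_option linter.unusedSectionVars false
set_option linter.style.haveILetI false

namespace Fermat.Agent.CFT

open IsDedekindDomain IsDedekindDomain.HeightOneSpectrum MulAction

section AbstractOrbits

variable {H : Type*} [Group H]

/-- The cardinality of the stabilizer is constant on orbits. -/
theorem ldRel_card_stabilizer_out {X : Type*} [MulAction H X] (x : X) :
    Nat.card (stabilizer H (Quotient.out (Quotient.mk (orbitRel H X) x))) =
      Nat.card (stabilizer H x) := by
  have h : orbitRel H X (Quotient.out (Quotient.mk (orbitRel H X) x)) x :=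
    Quotient.exact (Quotient.out_eq _)
  obtain ⟨g, hg⟩ := h
  -- `hg : g • x = out`
  exact Nat.card_congr (stabilizerEquivStabilizer hg.symm).toEquiv.symm

/-- **Orbit products over a disjoint union of `H`-sets.** If the `H`-set `Z` is the disjoint union
of the `H`-sets `X i` (`i` in a finite index type), the product of the orders of the stabilizers
over the orbits of `Z` is the product over `i` of the same products for `X i`. -/
theorem ldRel_prod_orbit_sigma {I : Type*} [Fintype I] {X : I → Type*} [∀ i, MulAction H (X i)]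
    {Z : Type*} [MulAction H Z] (e : (Σ i, X i) ≃ Z)
    (he : ∀ (h : H) (i : I) (x : X i), e ⟨i, h • x⟩ = h • e ⟨i, x⟩)
    [Fintype (orbitRel.Quotient H Z)] [∀ i, Fintype (orbitRel.Quotient H (X i))] :
    ∏ o : orbitRel.Quotient H Z, (Nat.card (stabilizer H o.out) : ℚ) =
      ∏ i, ∏ o : orbitRel.Quotient H (X i), (Nat.card (stabilizer H o.out) : ℚ) := by
  classical
  let q : Z → Σ i, orbitRel.Quotient H (X i) := fun z =>
    ⟨(e.symm z).1, Quotient.mk (orbitRel H (X (e.symm z).1)) (e.symm z).2⟩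
  have hq_e : ∀ (i : I) (x : X i), q (e ⟨i, x⟩) = ⟨i, Quotient.mk (orbitRel H (X i)) x⟩ := by
    intro i x
    show (⟨(e.symm (e ⟨i, x⟩)).1, Quotient.mk (orbitRel H (X (e.symm (e ⟨i, x⟩)).1))
      (e.symm (e ⟨i, x⟩)).2⟩ : Σ i, orbitRel.Quotient H (X i)) = _
    rw [Equiv.symm_apply_apply]
  have hq : ∀ z z', q z = q z' ↔ orbitRel H Z z z' := by
    intro z z'
    obtain ⟨⟨i, x⟩, rfl⟩ := e.surjective z
    obtain ⟨⟨i', x'⟩, rfl⟩ := e.surjective z'
    rw [hq_e, hq_e]
    constructor
    · intro h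
      obtain ⟨rfl, h2⟩ := Sigma.mk.inj_iff.mp h
      have h3 := Quotient.exact (eq_of_heq h2)
      obtain ⟨g, hg⟩ := h3
      have hg' : g • x' = x := hg
      refine ⟨g, ?_⟩
      show g • e ⟨i, x'⟩ = e ⟨i, x⟩
      rw [← he, hg']
    · rintro ⟨g, hg⟩
      have hg' : g • e ⟨i', x'⟩ = e ⟨i, x⟩ := hg
      rw [← he] at hg'
      have h1 := e.injective hg'
      obtain ⟨rfl, h2⟩ := Sigma.mk.inj_iff.mp h1
      have h3 : g • x' = x := eq_of_heq h2
      rw [Sigma.mk.inj_iff]
      refine ⟨rfl, heq_of_eq ?_⟩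
      exact Quotient.sound ⟨g, h3⟩
  have hsurj : Function.Surjective q := by
    rintro ⟨i, o⟩
    induction o using Quotient.inductionOn with
    | _ x => exact ⟨e ⟨i, x⟩, hq_e i x⟩
  have hstab : ∀ (i : I) (x : X i), stabilizer H (e ⟨i, x⟩) = stabilizer H x := by
    intro i x
    ext g
    rw [mem_stabilizer_iff, mem_stabilizer_iff, ← he]
    constructor
    · intro h
      have h1 := e.injective h
      obtain ⟨-, h2⟩ := Sigma.mk.inj_iff.mp h1
      exact eq_of_heq h2
    · intro h
      rw [h]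
  have hn : ∀ z, Nat.card (stabilizer H z) = Nat.card (stabilizer H (q z).2.out) := by
    intro z
    obtain ⟨⟨i, x⟩, rfl⟩ := e.surjective z
    rw [hq_e, hstab]
    exact (ldRel_card_stabilizer_out x).symm
  rw [prod_card_stabilizer_eq_prod q hq hsurj
    (fun y : Σ i, orbitRel.Quotient H (X i) => Nat.card (stabilizer H y.2.out)) hn,
    Fintype.prod_sigma]

end AbstractOrbits

section Rel

/-! ### the generic group `H` -/

open NumberField
open scoped TensorProduct Pointwise Fermat.Agent.CFT.TensorGal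

attribute [local instance] Ideal.Quotient.field heightOneSpectrumMulAction maxSpecMulAction

variable (K L : Type) [Field K] [NumberField K] [Field L] [NumberField L] [Algebra K L]
  (H : Type) [Group H] [MulSemiringAction H L] [SMulCommClass H K L]
  (v : HeightOneSpectrum (𝓞 K))

/-- the action of `H` on `K_v ⊗[K] L` factors through `Gal(L/K)`. -/
theorem ldRel_smul_eq (h : H) (x : (v.adicCompletion K) ⊗[K] L) :
    h • x = (MulSemiringAction.toAlgAut H K L h) • x := by
  induction x using TensorProduct.induction_on with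
  | zero => rw [smul_zero, smul_zero]
  | tmul f l =>
    rw [tensorRight_smul_tmul, tensorRight_smul_tmul]
    rfl
  | add x y hx hy => rw [smul_add, smul_add, hx, hy]

/-- the action of `H` on the ideals of `K_v ⊗[K] L` factors through `Gal(L/K)`. -/
theorem ldRel_smul_ideal_eq (h : H) (m : Ideal ((v.adicCompletion K) ⊗[K] L)) :
    h • m = (MulSemiringAction.toAlgAut H K L h) • m := by
  ext x
  rw [Ideal.mem_pointwise_smul_iff_inv_smul_mem, Ideal.mem_pointwise_smul_iff_inv_smul_mem,
    ldRel_smul_eq, map_inv]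

/-- the action of `H` on the primes of `𝓞 L` factors through `Gal(L/K)`. -/
theorem ldRel_smul_prime_eq (h : H) (w : HeightOneSpectrum (𝓞 L)) :
    h • w = (MulSemiringAction.toAlgAut H K L h) • w := by
  apply HeightOneSpectrum.ext
  rw [hos_smul_asIdeal, hos_smul_asIdeal]
  ext x
  rw [Ideal.mem_pointwise_smul_iff_inv_smul_mem, Ideal.mem_pointwise_smul_iff_inv_smul_mem,
    ← map_inv]
  rfl

/-- `H` preserves the prime below. -/
theorem ldRel_primeBelow_smul (h : H) (w : HeightOneSpectrum (𝓞 L)) :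
    primeBelow K L (h • w) = primeBelow K L w := by
  rw [ldRel_smul_prime_eq K L H h w, primeBelow_smul]

instance ldRel_smul_isMaximal (h : H) (m : Ideal ((v.adicCompletion K) ⊗[K] L))
    [hm : m.IsMaximal] : (h • m).IsMaximal := by
  have : m.IsPrime := hm.isPrime
  have : (h • m).IsPrime := Ideal.IsPrime.smul h
  exact IsArtinianRing.isMaximal_of_isPrime _

/-- **`m ↦ w(m)` is `H`-equivariant.** -/
theorem ldRel_primeOfMax_smul (h : H) (m : Ideal ((v.adicCompletion K) ⊗[K] L)) [m.IsMaximal] :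
    primeOfMax K L v (h • m) = h • primeOfMax K L v m := by
  rw [ldRel_smul_prime_eq K L H h, ← primeOfMax_smul]
  exact primeOfMax_congr K L v (ldRel_smul_ideal_eq K L H v h m)

/-- **the stabilizer in `H` of `m` is the stabilizer of `w(m)`.** -/
theorem ldRel_stabilizer_primeOfMax (m : Ideal ((v.adicCompletion K) ⊗[K] L)) [m.IsMaximal] :
    stabilizer H (primeOfMax K L v m) = stabilizer H m := by
  ext h
  rw [mem_stabilizer_iff, mem_stabilizer_iff]
  constructor
  · intro hh
    exact primeOfMax_injective K L v (h • m) m (by rw [ldRel_primeOfMax_smul, hh])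
  · intro hh
    rw [← ldRel_primeOfMax_smul]
    exact primeOfMax_congr K L v hh

/-- `w(m)` for `m` in the maximal spectrum. -/
noncomputable def ldRel_primeOfMaxSpec (m : MaximalSpectrum ((v.adicCompletion K) ⊗[K] L)) :
    HeightOneSpectrum (𝓞 L) :=
  haveI := m.isMaximal
  primeOfMax K L v m.asIdeal

theorem ldRel_primeBelow_primeOfMaxSpec (m : MaximalSpectrum ((v.adicCompletion K) ⊗[K] L)) :
    primeBelow K L (ldRel_primeOfMaxSpec K L v m) = v := by
  haveI := m.isMaximal
  exact primeBelow_primeOfMax K L v m.asIdeal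

theorem ldRel_primeOfMaxSpec_injective :
    Function.Injective (ldRel_primeOfMaxSpec K L v) := by
  intro m m' h
  haveI := m.isMaximal
  haveI := m'.isMaximal
  exact MaximalSpectrum.ext (primeOfMax_injective K L v m.asIdeal m'.asIdeal h)

theorem ldRel_primeOfMaxSpec_smul (h : H) (m : MaximalSpectrum ((v.adicCompletion K) ⊗[K] L)) :
    ldRel_primeOfMaxSpec K L v (h • m) = h • ldRel_primeOfMaxSpec K L v m := by
  haveI := m.isMaximal
  exact ldRel_primeOfMax_smul K L H v h m.asIdeal

/-- the stabilizers in `H` of `m : MaximalSpectrum (K_v ⊗[K] L)` and of the prime `w(m)` of `𝓞 L`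
coincide. -/
theorem ldRel_stabilizer_primeOfMaxSpec (m : MaximalSpectrum ((v.adicCompletion K) ⊗[K] L)) :
    stabilizer H (ldRel_primeOfMaxSpec K L v m) = stabilizer H m := by
  ext h
  rw [mem_stabilizer_iff, mem_stabilizer_iff, ← ldRel_primeOfMaxSpec_smul]
  exact (ldRel_primeOfMaxSpec_injective K L v).eq_iff

/-- Galois-free (`Idele/LocalDegreeSurj.lean`). -/
theorem ldRel_exists_primeOfMaxSpec_eq (w : HeightOneSpectrum (𝓞 L))
    (hw : primeBelow K L w = v) : ∃ m, ldRel_primeOfMaxSpec K L v m = w := by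
  obtain ⟨m, hm, h⟩ := ldSurj_exists_primeOfMax_eq K L v w hw
  exact ⟨⟨m, hm⟩, h⟩

/-- **The dictionary**: the maximal ideals of `K_v ⊗[K] L` are the primes of `𝓞 L` above `v`. -/
noncomputable def ldRel_maxSpecEquiv :
    MaximalSpectrum ((v.adicCompletion K) ⊗[K] L) ≃
      {w : HeightOneSpectrum (𝓞 L) // primeBelow K L w = v} :=
  Equiv.ofBijective
    (fun m => ⟨ldRel_primeOfMaxSpec K L v m, ldRel_primeBelow_primeOfMaxSpec K L v m⟩)
    ⟨fun m m' h => ldRel_primeOfMaxSpec_injective K L v (congrArg Subtype.val h),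
      fun w => by
        obtain ⟨m, hm⟩ := ldRel_exists_primeOfMaxSpec_eq K L v w.1 w.2
        exact ⟨m, Subtype.ext hm⟩⟩

@[simp] theorem ldRel_maxSpecEquiv_apply (m : MaximalSpectrum ((v.adicCompletion K) ⊗[K] L)) :
    (ldRel_maxSpecEquiv K L v m : HeightOneSpectrum (𝓞 L)) = ldRel_primeOfMaxSpec K L v m := rfl

/-- the dictionary is `H`-equivariant. -/
theorem ldRel_maxSpecEquiv_smul (h : H) (m : MaximalSpectrum ((v.adicCompletion K) ⊗[K] L)) :
    (ldRel_maxSpecEquiv K L v (h • m) : HeightOneSpectrum (𝓞 L)) =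
      h • (ldRel_maxSpecEquiv K L v m : HeightOneSpectrum (𝓞 L)) :=
  ldRel_primeOfMaxSpec_smul K L H v h m

end Rel

section Product

/-! ### the product formula over the orbits -/

open NumberField
open scoped TensorProduct Pointwise Fermat.Agent.CFT.TensorGal

attribute [local instance] Ideal.Quotient.field heightOneSpectrumMulAction maxSpecMulAction

variable (K L : Type) [Field K] [NumberField K] [Field L] [NumberField L] [Algebra K L]
  (H : Type) [Group H] [MulSemiringAction H L] [SMulCommClass H K L]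

/-- The action of `H` on an `H`-stable finite set of primes of `𝓞 L`. -/
@[reducible] def ldRel_finsetMulAction (T : Finset (HeightOneSpectrum (𝓞 L)))
    (hT : ∀ (h : H), ∀ w ∈ T, h • w ∈ T) : MulAction H T where
  smul h w := ⟨h • (w : HeightOneSpectrum (𝓞 L)), hT h w w.2⟩
  one_smul w := Subtype.ext (one_smul _ (w : HeightOneSpectrum (𝓞 L)))
  mul_smul g h w := Subtype.ext (mul_smul g h (w : HeightOneSpectrum (𝓞 L)))

variable (S : Finset (HeightOneSpectrum (𝓞 K)))
  (T : Finset (HeightOneSpectrum (𝓞 L))) (hTS : ∀ w, w ∈ T ↔ primeBelow K L w ∈ S)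

/-- the primes of `L` above `S` are the disjoint union over `v ∈ S` of the maximal spectra of the
`K_v ⊗[K] L`. -/
noncomputable def ldRel_sigmaEquiv :
    (Σ v : S, MaximalSpectrum (((v : HeightOneSpectrum (𝓞 K)).adicCompletion K) ⊗[K] L)) ≃ T :=
  Equiv.ofBijective
    (fun x => ⟨ldRel_primeOfMaxSpec K L x.1 x.2, (hTS _).mpr (by
      rw [ldRel_primeBelow_primeOfMaxSpec]
      exact x.1.2)⟩)
    ⟨by
      rintro ⟨v, m⟩ ⟨v', m'⟩ h
      have h1 : ldRel_primeOfMaxSpec K L v m = ldRel_primeOfMaxSpec K L v' m' :=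
        congrArg Subtype.val h
      have h2 : (v : HeightOneSpectrum (𝓞 K)) = v' := by
        rw [← ldRel_primeBelow_primeOfMaxSpec K L v m, h1, ldRel_primeBelow_primeOfMaxSpec]
      obtain rfl : v = v' := Subtype.ext h2
      rw [ldRel_primeOfMaxSpec_injective K L v h1],
    by
      rintro ⟨w, hw⟩
      have hv : primeBelow K L w ∈ S := (hTS w).mp hw
      obtain ⟨m, hm⟩ := ldRel_exists_primeOfMaxSpec_eq K L (primeBelow K L w) w rfl
      exact ⟨⟨⟨primeBelow K L w, hv⟩, m⟩, Subtype.ext hm⟩⟩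

theorem ldRel_sigmaEquiv_apply
    (x : Σ v : S, MaximalSpectrum (((v : HeightOneSpectrum (𝓞 K)).adicCompletion K) ⊗[K] L)) :
    (ldRel_sigmaEquiv K L S T hTS x : HeightOneSpectrum (𝓞 L)) =
      ldRel_primeOfMaxSpec K L x.1 x.2 := rfl

include hTS in
/-- **The product formula**: `∏_{o ∈ H \ T} |Stab_H(o)| = ∏_{v ∈ S} ∏_{o ∈ H \ MaxSpec (K_v ⊗ L)}
|Stab_H(o)|` for the set `T` of the primes of `L` above the finite set `S` of primes of `K`. -/
theorem ldRel_prod_card_stabilizer (hT : ∀ (h : H), ∀ w ∈ T, h • w ∈ T)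
    [∀ v : HeightOneSpectrum (𝓞 K),
      Fintype (orbitRel.Quotient H (MaximalSpectrum ((v.adicCompletion K) ⊗[K] L)))] :
    letI := ldRel_finsetMulAction L H T hT
    ∀ [Fintype (orbitRel.Quotient H T)],
    ∏ o : orbitRel.Quotient H T, (Nat.card (stabilizer H o.out) : ℚ) =
      ∏ v ∈ S, ∏ o : orbitRel.Quotient H (MaximalSpectrum ((v.adicCompletion K) ⊗[K] L)),
        (Nat.card (stabilizer H o.out) : ℚ) := by
  letI := ldRel_finsetMulAction L H T hT
  intro _
  rw [ldRel_prod_orbit_sigma (H := H) (ldRel_sigmaEquiv K L S T hTS) (fun h v m => by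
    apply Subtype.ext
    exact ldRel_primeOfMaxSpec_smul K L H v h m)]
  exact Finset.prod_coe_sort S fun v =>
    ∏ o : orbitRel.Quotient H (MaximalSpectrum ((v.adicCompletion K) ⊗[K] L)),
      (Nat.card (stabilizer H o.out) : ℚ)

end Product

section Tower

/-! ### the case `H = Gal(L/M)` for an intermediate field `M`, in the vocabulary of
`Global/SUnitsHerbrand.lean` -/

open NumberField
open scoped TensorProduct Pointwise Fermat.Agent.CFT.TensorGal

attribute [local instance] Ideal.Quotient.field heightOneSpectrumMulAction maxSpecMulAction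

variable (K M L : Type) [Field K] [NumberField K] [Field M] [NumberField M] [Field L]
  [NumberField L] [Algebra K M] [Algebra M L] [Algebra K L] [IsScalarTower K M L]

/-- the primes of `L` above a set `S` of primes of `K` are stable under `Gal(L/M)`. -/
theorem ldRel_smul_mem_primesAbove [IsGalois K L] (S : Finset (HeightOneSpectrum (𝓞 K)))
    (g : L ≃ₐ[M] L)
    (w : HeightOneSpectrum (𝓞 L)) (hw : w ∈ primesAbove K L S) : g • w ∈ primesAbove K L S := by
  rw [mem_primesAbove] at hw ⊢
  rwa [ldRel_primeBelow_smul K L (L ≃ₐ[M] L) g w]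

/-- **The product formula for `Gal(L/M)`**, `K ⊆ M ⊆ L`, with the action
`finsetPrimesMulAction M L T hT` of `Global/SUnitsHerbrand.lean` on the left: the left side is the
finite-prime factor of `herbrand_sUnit M L T hT`. -/
theorem ldRel_prod_card_stabilizer_tower (S : Finset (HeightOneSpectrum (𝓞 K)))
    (T : Finset (HeightOneSpectrum (𝓞 L))) (hTS : ∀ w, w ∈ T ↔ primeBelow K L w ∈ S)
    (hT : ∀ (g : L ≃ₐ[M] L), ∀ w ∈ T, g • w ∈ T)
    [∀ v : HeightOneSpectrum (𝓞 K),
      Fintype (orbitRel.Quotient (L ≃ₐ[M] L) (MaximalSpectrum ((v.adicCompletion K) ⊗[K] L)))] :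
    letI := finsetPrimesMulAction M L T hT
    ∀ [Fintype (orbitRel.Quotient (L ≃ₐ[M] L) T)],
    ∏ o : orbitRel.Quotient (L ≃ₐ[M] L) T, (Nat.card (stabilizer (L ≃ₐ[M] L) o.out) : ℚ) =
      ∏ v ∈ S, ∏ o : orbitRel.Quotient (L ≃ₐ[M] L)
          (MaximalSpectrum ((v.adicCompletion K) ⊗[K] L)),
        (Nat.card (stabilizer (L ≃ₐ[M] L) o.out) : ℚ) :=
  ldRel_prod_card_stabilizer K L (L ≃ₐ[M] L) S T hTS hT

/-- the same for `T = primesAbove K L S`. -/
theorem ldRel_prod_card_stabilizer_primesAbove [IsGalois K L]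
    (S : Finset (HeightOneSpectrum (𝓞 K)))
    [∀ v : HeightOneSpectrum (𝓞 K),
      Fintype (orbitRel.Quotient (L ≃ₐ[M] L) (MaximalSpectrum ((v.adicCompletion K) ⊗[K] L)))] :
    letI := finsetPrimesMulAction M L (primesAbove K L S) (ldRel_smul_mem_primesAbove K M L S)
    ∀ [Fintype (orbitRel.Quotient (L ≃ₐ[M] L) (primesAbove K L S))],
    ∏ o : orbitRel.Quotient (L ≃ₐ[M] L) (primesAbove K L S),
        (Nat.card (stabilizer (L ≃ₐ[M] L) o.out) : ℚ) =
      ∏ v ∈ S, ∏ o : orbitRel.Quotient (L ≃ₐ[M] L)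
          (MaximalSpectrum ((v.adicCompletion K) ⊗[K] L)),
        (Nat.card (stabilizer (L ≃ₐ[M] L) o.out) : ℚ) :=
  ldRel_prod_card_stabilizer_tower K M L S (primesAbove K L S) (fun _ => mem_primesAbove)
    (ldRel_smul_mem_primesAbove K M L S)

end Tower

section SUnits

/-! ### the Herbrand quotient of the `S`-units of `L / M`, `S` a set of primes of `K ⊆ M` -/

open NumberField
open scoped TensorProduct Pointwise Fermat.Agent.CFT.TensorGal

attribute [local instance] additiveDistribMulAction Units.mulDistribMulActionRight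
  Ideal.Quotient.field heightOneSpectrumMulAction maxSpecMulAction

variable (K M L : Type) [Field K] [NumberField K] [Field M] [NumberField M] [Field L]
  [NumberField L] [Algebra K M] [Algebra M L] [Algebra K L] [IsScalarTower K M L]

/-- **Relative form of (GL1)**: `K ⊆ M ⊆ L`, `L/K` Galois, `L/M` cyclic with group `H = ⟨σ⟩`, `S` a
finite set of primes of `K`.  The Herbrand quotient of the `S`-units of `L` as an `H`-module is
`(∏_{v ∈ S} ∏_{o ∈ H \ MaxSpec (K_v ⊗ L)} |Stab_H(o)|) * (∏_{o ∈ H \ {w | ∞}} |Stab_H(o)|) / |H|`: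
the first factor is the product of the local Herbrand quotients `h(H, (K_v ⊗[K] L)ˣ)`. -/
theorem ldRel_herbrand_sUnit [IsGalois K L] [IsGalois M L] [Fintype (L ≃ₐ[M] L)]
    [Fintype (MulAction.orbitRel.Quotient (L ≃ₐ[M] L) (InfinitePlace L))]
    (S : Finset (HeightOneSpectrum (𝓞 K))) {σ : L ≃ₐ[M] L}
    (hσ : ∀ τ, τ ∈ Subgroup.zpowers σ)
    [∀ v : HeightOneSpectrum (𝓞 K),
      Fintype (orbitRel.Quotient (L ≃ₐ[M] L) (MaximalSpectrum ((v.adicCompletion K) ⊗[K] L)))] :
    letI := sUnitMulDistribMulAction M L (primesAbove K L S) (ldRel_smul_mem_primesAbove K M L S)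
    HerbrandDefinedCyclic (L ≃ₐ[M] L) (Additive (sUnit L (primesAbove K L S))) σ ∧
      herbrand (L ≃ₐ[M] L) (Additive (sUnit L (primesAbove K L S))) σ =
        (∏ v ∈ S, ∏ o : orbitRel.Quotient (L ≃ₐ[M] L)
            (MaximalSpectrum ((v.adicCompletion K) ⊗[K] L)),
          (Nat.card (stabilizer (L ≃ₐ[M] L) o.out) : ℚ)) *
        ((∏ o : MulAction.orbitRel.Quotient (L ≃ₐ[M] L) (InfinitePlace L),
          (Nat.card (MulAction.stabilizer (L ≃ₐ[M] L) o.out) : ℚ)) /
          Fintype.card (L ≃ₐ[M] L)) := by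
  classical
  letI := sUnitMulDistribMulAction M L (primesAbove K L S) (ldRel_smul_mem_primesAbove K M L S)
  letI := finsetPrimesMulAction M L (primesAbove K L S) (ldRel_smul_mem_primesAbove K M L S)
  letI : Fintype (orbitRel.Quotient (L ≃ₐ[M] L) (primesAbove K L S)) := Fintype.ofFinite _
  obtain ⟨hdef, hval⟩ :=
    herbrand_sUnit M L (primesAbove K L S) (ldRel_smul_mem_primesAbove K M L S) hσ
  refine ⟨hdef, ?_⟩
  rw [hval, ldRel_prod_card_stabilizer_primesAbove K M L S]

/-- **The matching hypothesis `hmatch` of helper23's `idFG_herbrand_ideleClass_gal`**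
(`Idele/FirstIneqGen.lean`), from the local Herbrand quotients in orbit form (helper11's
(GL8-rel)).  No Galois hypothesis on `L / K`. -/
theorem ldRel_hmatch [Fintype (L ≃ₐ[M] L)] (S : Finset (HeightOneSpectrum (𝓞 K)))
    (T : Finset (HeightOneSpectrum (𝓞 L))) (hTS : ∀ w, w ∈ T ↔ primeBelow K L w ∈ S)
    (hT : ∀ (g : L ≃ₐ[M] L), ∀ w ∈ T, g • w ∈ T) (σ : L ≃ₐ[M] L)
    [∀ v : HeightOneSpectrum (𝓞 K),
      Fintype (orbitRel.Quotient (L ≃ₐ[M] L) (MaximalSpectrum ((v.adicCompletion K) ⊗[K] L)))]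
    (hloc : ∀ v ∈ S, herbrand (L ≃ₐ[M] L) (Additive ((v.adicCompletion K) ⊗[K] L)ˣ) σ =
      ∏ o : orbitRel.Quotient (L ≃ₐ[M] L) (MaximalSpectrum ((v.adicCompletion K) ⊗[K] L)),
        (Nat.card (stabilizer (L ≃ₐ[M] L) o.out) : ℚ)) :
    letI := finsetPrimesMulAction M L T hT
    ∀ [Fintype (orbitRel.Quotient (L ≃ₐ[M] L) T)],
    ∏ v ∈ S, herbrand (L ≃ₐ[M] L) (Additive ((v.adicCompletion K) ⊗[K] L)ˣ) σ =
      ∏ o : orbitRel.Quotient (L ≃ₐ[M] L) T, (Nat.card (stabilizer (L ≃ₐ[M] L) o.out) : ℚ) := by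
  letI := finsetPrimesMulAction M L T hT
  intro _
  rw [ldRel_prod_card_stabilizer_tower K M L S T hTS hT]
  exact Finset.prod_congr rfl hloc

end SUnits

end Fermat.Agent.CFT
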