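/-
CFT, S55 pool, GLOBAL-IDELIC layer, (GL10)/(GL11) glue (helper23): the norm-index form of `Ĥ⁰`.

`K ≤ M ≤ L` number fields, `K` the tensor base, `L/M` Galois with cyclic group `Gal(L/M) = ⟨σ⟩`
acting on `C_L = ideleClass K L` (`ideleClassActionOf`, `Idele/ActionGen.lean`).  Then

  `|Ĥ⁰(Gal(L/M), C_L)| = [C_M : N_{L/M} C_L]`

with `C_M = ideleClass K M` and `N_{L/M} = relClassNorm K M L` of helper4's `Idele/Relative.lean`
(`idNI_tateH0Card_eq_index`), because `(C_L)^{Gal(L/M)} = C_M` and `N_G = relClass ∘ relClassNorm`.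
So the first inequality (`Idele/FirstIneqGen.lean`) reads `[L : M] ≤ [C_M : N C_L]`, and together
with the second inequality `[C_M : N C_L] ≤ [L : M]` one gets `|Ĥ⁰| = [L : M]`, `|Ĥ¹| = 1`
(`idNI_tateCard_of_index_le`).
-/
import Mathlib
import Fermat.Agent.CFT.Idele.Relative
import Fermat.Agent.CFT.Idele.ActionGen
import Fermat.Agent.CFT.Idele.FirstIneqGen
import Fermat.Agent.CFT.Coh.CyclicHerbrand
import Fermat.Agent.CFT.Local.UnitsCoh

set_option autoImplicit false
set_option linter.unusedSectionVars false
set_option linter.style.haveILetI false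

open NumberField IsDedekindDomain IsDedekindDomain.HeightOneSpectrum
open scoped TensorProduct Fermat.Agent.CFT.TensorGal Fermat.Agent.CFT.IdeleAct

namespace Fermat.Agent.CFT

attribute [local instance] additiveDistribMulAction ideleGroupActionOf ideleClassActionOf

section NormIndex

variable {K M L : Type*} [Field K] [NumberField K] [Field M] [NumberField M]
  [Field L] [NumberField L] [Algebra K M] [Algebra M L] [Algebra K L] [IsScalarTower K M L]

/-- the action of `Gal(L/M)` on `C_L` is the action of its image in `Gal(L/K)`. -/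
theorem idNI_smul_class (h : Gal(L/M)) (c : ideleClass K L) :
    h • c = (relGalHom K M L h) • c := rfl

theorem idNI_smul_idele (h : Gal(L/M)) (x : ideleGroup K L) :
    h • x = (relGalHom K M L h) • x := rfl


variable [IsGalois M L]

/-- `relClass ∘ relClassNorm` is the product of the `Gal(L/M)`-conjugates. -/
theorem idNI_relClass_relClassNorm (c : ideleClass K L) :
    relClass K M L (relClassNorm K M L c) = ∏ h : Gal(L/M), (relGalHom K M L h) • c := by
  induction c using QuotientGroup.induction_on with
  | H x =>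
    rw [relClassNorm_mk, relClass_mk, relIdele_relIdeleNorm]
    change (QuotientGroup.mk' (principalIdeles K L)) (∏ h : Gal(L/M), (relGalHom K M L h) • x) = _
    rw [map_prod]
    rfl

variable [Fintype Gal(L/M)]

/-- the norm endomorphism of `C_L` factors through `relClassNorm`. -/
theorem idNI_normHom_apply (c : Additive (ideleClass K L)) :
    normHom Gal(L/M) (Additive (ideleClass K L)) c =
      Additive.ofMul (relClass K M L (relClassNorm K M L (Additive.toMul c))) := by
  rw [idNI_relClass_relClassNorm, normHom_apply, ofMul_prod]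
  refine Finset.sum_congr (Finset.ext fun x => by simp) fun h _ => ?_
  rfl

/-- the invariants of a generator are `C_M`. -/
theorem idNI_ker_subOneHom {σ : Gal(L/M)} (hσ : ∀ τ, τ ∈ Subgroup.zpowers σ) :
    (subOneHom (Additive (ideleClass K L)) σ).ker = (relClass K M L).range.toAddSubgroup := by
  ext c
  rw [mem_ker_subOneHom_iff hσ]
  change _ ↔ Additive.toMul c ∈ (relClass K M L).range
  rw [mem_range_relClass_iff]
  constructor
  · intro h g hg
    obtain ⟨h0, rfl⟩ := exists_relGalHom_eq hg
    exact congrArg Additive.toMul (h h0)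
  · intro h τ
    exact congrArg Additive.ofMul (h _ (relGalHom_mem_relFixing K M L τ))

/-- the norms are the image of `N_{L/M} C_L ⊆ C_M`. -/
theorem idNI_range_normHom :
    (normHom Gal(L/M) (Additive (ideleClass K L))).range =
      ((relClassNorm K M L).range.map (relClass K M L)).toAddSubgroup := by
  ext c
  constructor
  · rintro ⟨d, rfl⟩
    rw [idNI_normHom_apply]
    exact ⟨relClassNorm K M L (Additive.toMul d), ⟨_, rfl⟩, rfl⟩
  · rintro ⟨_, ⟨d, rfl⟩, hd⟩
    refine ⟨Additive.ofMul d, ?_⟩
    rw [idNI_normHom_apply]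
    exact congrArg Additive.ofMul hd

/-- **`|Ĥ⁰(Gal(L/M), C_L)| = [C_M : N_{L/M} C_L]`.** -/
theorem idNI_tateH0Card_eq_index {σ : Gal(L/M)} (hσ : ∀ τ, τ ∈ Subgroup.zpowers σ) :
    tateH0Card Gal(L/M) (Additive (ideleClass K L)) σ = (relClassNorm K M L).range.index := by
  unfold tateH0Card hIndex
  rw [idNI_ker_subOneHom hσ, idNI_range_normHom]
  have h := Subgroup.relIndex_toAddSubgroup
    (H := (relClassNorm K M L).range.map (relClass K M L)) (K := (relClass K M L).range)
  refine h.trans ?_
  rw [MonoidHom.range_eq_map (relClass K M L),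
    Subgroup.relIndex_map_map_of_injective _ _ (relClass_injective K M L),
    Subgroup.relIndex_top_right]

/-- **First + second inequality**: if `h(Gal(L/M), C_L) = n` (first inequality, e.g.
`idFG_herbrand_ideleClass_gal`) and `[C_M : N_{L/M} C_L] ≤ n` (second inequality), then
`|Ĥ⁰(Gal(L/M), C_L)| = [C_M : N C_L] = n` and `Ĥ¹(Gal(L/M), C_L) = 0`. -/
theorem idNI_tateCard_of_index_le {σ : Gal(L/M)} (hσ : ∀ τ, τ ∈ Subgroup.zpowers σ) {n : ℕ}
    (hC : HerbrandDefinedCyclic Gal(L/M) (Additive (ideleClass K L)) σ)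
    (h : herbrand Gal(L/M) (Additive (ideleClass K L)) σ = n)
    (h2 : (relClassNorm K M L).range.index ≤ n) :
    tateH0Card Gal(L/M) (Additive (ideleClass K L)) σ = n ∧
      tateH1Card Gal(L/M) (Additive (ideleClass K L)) σ = 1 ∧
      (relClassNorm K M L).range.index = n := by
  obtain ⟨hmul, hle, h0, -⟩ := idFG_first_inequality_of_herbrand hC h
  have hidx := idNI_tateH0Card_eq_index (K := K) hσ
  have ht0 : tateH0Card Gal(L/M) (Additive (ideleClass K L)) σ = n :=
    le_antisymm (hidx ▸ h2) hle
  refine ⟨ht0, ?_, hidx ▸ ht0⟩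
  have hn : n ≠ 0 := ht0 ▸ h0
  rw [ht0] at hmul
  exact (Nat.eq_of_mul_eq_mul_left (Nat.pos_of_ne_zero hn) (by rw [mul_one]; exact hmul)).symm

end NormIndex

end Fermat.Agent.CFT
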