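import Mathlib
import Fermat.Agent.CFT.Local.LocalField
import Fermat.Agent.CFT.Local.NormIndex
import Fermat.Agent.CFT.Idele.AdicLocalField

set_option autoImplicit false

/-!
# CFT, S55 global-idelic pool, chunk (GL8), local half: `h(D, Eˣ) = |D|` in generic-group form

* `tateH0Card_mulEquiv`, `tateH1Card_mulEquiv`, `herbrand_mulEquiv` : the Tate cardinalities do not
  change when the group is replaced by an isomorphic one acting in the same way;
* `localHerbrand_tateH0Card`, `localHerbrand_tateH1Card` : for a local field `F`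
  (`IsLocalFieldNA F`) and a finite cyclic group `D = ⟨τ⟩` acting on a field `E ⊇ F` with
  `IsGaloisGroup D F E` (the shape output by helper27's `isGaloisGroup_tensor_quot`):
  `|Ĥ⁰(D, Eˣ)| = |D|`, `|Ĥ¹(D, Eˣ)| = 1`; `localHerbrand_herbrand : h(D, Eˣ) = |D|`;
* `localHerbrand_adic_*` : the same with `F = v.adicCompletion K`.
-/

namespace Fermat.Agent.CFT

open IsDedekindDomain HeightOneSpectrum NumberField

section GroupChange

variable {G G' : Type*} [Group G] [Fintype G] [Group G'] [Fintype G'] {A : Type*} [AddCommGroup A]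
  [DistribMulAction G A] [DistribMulAction G' A]

omit [Fintype G] [Fintype G'] in
theorem subOneHom_mulEquiv (e : G ≃* G') (h : ∀ (g : G) (a : A), e g • a = g • a) (σ : G) :
    subOneHom A (e σ) = subOneHom A σ := by
  refine AddMonoidHom.ext fun a => ?_
  rw [subOneHom_apply, subOneHom_apply, h]

theorem normHom_mulEquiv (e : G ≃* G') (h : ∀ (g : G) (a : A), e g • a = g • a) :
    normHom G' A = normHom G A := by
  refine AddMonoidHom.ext fun a => ?_
  rw [normHom_apply, normHom_apply]
  exact (Fintype.sum_equiv e.toEquiv _ _ (fun g => (h g a).symm)).symm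

theorem tateH0Card_mulEquiv (e : G ≃* G') (h : ∀ (g : G) (a : A), e g • a = g • a) (σ : G) :
    tateH0Card G' A (e σ) = tateH0Card G A σ := by
  unfold tateH0Card
  rw [subOneHom_mulEquiv e h, normHom_mulEquiv e h]

theorem tateH1Card_mulEquiv (e : G ≃* G') (h : ∀ (g : G) (a : A), e g • a = g • a) (σ : G) :
    tateH1Card G' A (e σ) = tateH1Card G A σ := by
  unfold tateH1Card
  rw [subOneHom_mulEquiv e h, normHom_mulEquiv e h]

theorem herbrand_mulEquiv (e : G ≃* G') (h : ∀ (g : G) (a : A), e g • a = g • a) (σ : G) :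
    herbrand G' A (e σ) = herbrand G A σ := by
  rw [herbrand_eq, herbrand_eq, tateH0Card_mulEquiv e h, tateH1Card_mulEquiv e h]

theorem herbrandDefinedCyclic_mulEquiv (e : G ≃* G') (h : ∀ (g : G) (a : A), e g • a = g • a)
    (σ : G) : HerbrandDefinedCyclic G' A (e σ) ↔ HerbrandDefinedCyclic G A σ := by
  unfold HerbrandDefinedCyclic
  rw [subOneHom_mulEquiv e h, normHom_mulEquiv e h]

end GroupChange

section LocalAux

attribute [local instance] additiveDistribMulAction

variable {F E : Type} [Field F] [Field E] [Algebra F E]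
  {D : Type*} [Group D] [Fintype D] [MulSemiringAction D E] [IsGaloisGroup D F E]
  [MulDistribMulAction D Eˣ]

/-- auxiliary form of `localHerbrand_tateCard` for an arbitrary action of `D` on `Eˣ` compatible
with the action on `E`. -/
theorem localHerbrand_tateCard_aux (hF : IsLocalFieldNA F)
    (hcoe : ∀ (d : D) (u : Eˣ), ((d • u : Eˣ) : E) = d • (u : E)) {τ : D}
    (hτ : ∀ d, d ∈ Subgroup.zpowers τ) :
    tateH0Card D (Additive Eˣ) τ = Nat.card D ∧ tateH1Card D (Additive Eˣ) τ = 1 := by
  have : FiniteDimensional F E := IsGaloisGroup.finiteDimensional D F E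
  have : IsGalois F E := IsGaloisGroup.isGalois D F E
  let e : D ≃* (E ≃ₐ[F] E) := IsGaloisGroup.mulEquivCongr D (E ≃ₐ[F] E) F E
  have he : ∀ (d : D) (x : E), e d x = d • x := fun d x =>
    IsGaloisGroup.mulEquivCongr_apply_smul D (E ≃ₐ[F] E) F E d x
  have hact : ∀ (d : D) (a : Additive Eˣ), e d • a = d • a := by
    intro d a
    apply congrArg Additive.ofMul
    apply Units.ext
    rw [hcoe]
    exact he d _
  have hgen : ∀ σ : E ≃ₐ[F] E, σ ∈ Subgroup.zpowers (e τ) := by
    intro σ
    obtain ⟨d, rfl⟩ := e.surjective σ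
    obtain ⟨k, rfl⟩ := Subgroup.mem_zpowers_iff.mp (hτ d)
    exact Subgroup.mem_zpowers_iff.mpr ⟨k, (map_zpow e τ k).symm⟩
  have : IsCyclic (E ≃ₐ[F] E) := ⟨e τ, hgen⟩
  constructor
  · rw [← tateH0Card_mulEquiv e hact, tateH0Card_units_field F E hgen, hF.normSubgroup_index,
      IsGaloisGroup.card_eq_finrank D F E]
  · rw [← tateH1Card_mulEquiv e hact, tateH1Card_units_field F E hgen]

end LocalAux

section Local

attribute [local instance] Units.mulDistribMulActionRight additiveDistribMulAction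

variable {F E : Type} [Field F] [Field E] [Algebra F E]
  {D : Type*} [Group D] [Fintype D] [MulSemiringAction D E] [IsGaloisGroup D F E]

/-- `|Ĥ⁰(D, Eˣ)| = |D|` and `|Ĥ¹(D, Eˣ)| = 1` for a cyclic Galois group `D` of a finite extension
`E / F` of local fields. -/
theorem localHerbrand_tateCard (hF : IsLocalFieldNA F) {τ : D}
    (hτ : ∀ d, d ∈ Subgroup.zpowers τ) :
    tateH0Card D (Additive Eˣ) τ = Nat.card D ∧ tateH1Card D (Additive Eˣ) τ = 1 :=
  localHerbrand_tateCard_aux hF (fun _ _ => rfl) hτ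

theorem localHerbrand_tateH0Card (hF : IsLocalFieldNA F) {τ : D}
    (hτ : ∀ d, d ∈ Subgroup.zpowers τ) : tateH0Card D (Additive Eˣ) τ = Nat.card D :=
  (localHerbrand_tateCard hF hτ).1

theorem localHerbrand_tateH1Card (hF : IsLocalFieldNA F) {τ : D}
    (hτ : ∀ d, d ∈ Subgroup.zpowers τ) : tateH1Card D (Additive Eˣ) τ = 1 :=
  (localHerbrand_tateCard hF hτ).2

/-- the Herbrand quotient `h(D, Eˣ) = |D|`. -/
theorem localHerbrand_herbrand (hF : IsLocalFieldNA F) {τ : D}
    (hτ : ∀ d, d ∈ Subgroup.zpowers τ) : herbrand D (Additive Eˣ) τ = Nat.card D := by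
  rw [herbrand_eq, localHerbrand_tateH0Card hF hτ, localHerbrand_tateH1Card hF hτ]
  simp

/-- `Ĥ⁰` and `Ĥ¹` of `Eˣ` are finite. -/
theorem localHerbrand_defined (hF : IsLocalFieldNA F) {τ : D}
    (hτ : ∀ d, d ∈ Subgroup.zpowers τ) : HerbrandDefinedCyclic D (Additive Eˣ) τ := by
  refine ⟨?_, ?_⟩
  · show tateH0Card D (Additive Eˣ) τ ≠ 0
    rw [localHerbrand_tateH0Card hF hτ]
    exact Nat.card_pos.ne'
  · show tateH1Card D (Additive Eˣ) τ ≠ 0
    rw [localHerbrand_tateH1Card hF hτ]
    exact one_ne_zero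

/-- the case `F = K_v`: `|Ĥ⁰(D, Eˣ)| = |D|`, `|Ĥ¹(D, Eˣ)| = 1`. -/
theorem localHerbrand_adic_tateCard (K : Type) [Field K] [NumberField K]
    (v : HeightOneSpectrum (𝓞 K)) {E : Type} [Field E] [Algebra (v.adicCompletion K) E]
    {D : Type*} [Group D] [Fintype D] [MulSemiringAction D E]
    [IsGaloisGroup D (v.adicCompletion K) E] {τ : D} (hτ : ∀ d, d ∈ Subgroup.zpowers τ) :
    tateH0Card D (Additive Eˣ) τ = Nat.card D ∧ tateH1Card D (Additive Eˣ) τ = 1 :=
  localHerbrand_tateCard (isLocalFieldNA_adicCompletion K v) hτ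

/-- the case `F = K_v`: `h(D, Eˣ) = |D|`. -/
theorem localHerbrand_adic_herbrand (K : Type) [Field K] [NumberField K]
    (v : HeightOneSpectrum (𝓞 K)) {E : Type} [Field E] [Algebra (v.adicCompletion K) E]
    {D : Type*} [Group D] [Fintype D] [MulSemiringAction D E]
    [IsGaloisGroup D (v.adicCompletion K) E] {τ : D} (hτ : ∀ d, d ∈ Subgroup.zpowers τ) :
    herbrand D (Additive Eˣ) τ = Nat.card D :=
  localHerbrand_herbrand (isLocalFieldNA_adicCompletion K v) hτ

end Local

end Fermat.Agent.CFT
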