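import Mathlib
import Fermat.Agent.CFT.Idele.SemiLocal
import Fermat.Agent.CFT.Idele.LocalHerbrand
import Fermat.Agent.CFT.Idele.Defs
import Fermat.Agent.CFT.Coh.CyclicInducedSet
import Fermat.Agent.CFT.Local.UnitsCoh

set_option autoImplicit false
set_option linter.unusedSectionVars false

/-!
# S55 global-idelic stream, chunk (GL8): Tate cohomology of the units of a semilocal algebra

`R` a reduced Artinian ring (a finite product of fields `R ⧸ m`), `G = ⟨σ⟩` a finite cyclic group
acting on `R` transitively on the maximal ideals, `D = Stab(m₀)`.  Then (Shapiro)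
`|Ĥ^i(G, Rˣ)| = |Ĥ^i(D, (R ⧸ m₀)ˣ)|` (`locHerb_tateCard_units`).  With helper28's local computation
(`Idele/LocalHerbrand.lean`) this gives, for `L / K` cyclic Galois number fields and a finite place
`v` of `K`: `|Ĥ⁰(G, (K_v ⊗ L)ˣ)| = |D_v|`, `|Ĥ¹| = 1`, `h = |D_v|`
(`semiLocal_tateCard`, `semiLocal_herbrand`, `semiLocal_herbrandDefined`).
-/

namespace Fermat.Agent.CFT

open IsArtinianRing

attribute [local instance] additiveDistribMulAction Units.mulDistribMulActionRight

section CRT

variable (R : Type*) [CommRing R] [IsArtinianRing R] [IsReduced R]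

theorem locHerb_eq_of_forall_mk_eq {x y : R}
    (h : ∀ m : MaximalSpectrum R, Ideal.Quotient.mk m.asIdeal x = Ideal.Quotient.mk m.asIdeal y) :
    x = y := by
  apply (equivPi R).injective
  funext m
  exact h m

open Classical in
/-- the CRT lift `(R ⧸ m)ˣ → Rˣ` (`1` in all other components). -/
noncomputable def locHerbLift (m : MaximalSpectrum R) : (R ⧸ m.asIdeal)ˣ →* Rˣ :=
  Units.map (((equivPi R).symm : (∀ I : MaximalSpectrum R, R ⧸ I.asIdeal) →* R).comp
    (MonoidHom.mulSingle (fun I : MaximalSpectrum R => R ⧸ I.asIdeal) m))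

open Classical in
theorem locHerb_mk_lift (m m' : MaximalSpectrum R) (u : (R ⧸ m.asIdeal)ˣ) :
    Ideal.Quotient.mk m'.asIdeal (locHerbLift R m u : R) =
      (Pi.mulSingle m (u : R ⧸ m.asIdeal) : ∀ I : MaximalSpectrum R, R ⧸ I.asIdeal) m' := by
  have h : equivPi R (locHerbLift R m u : R) = Pi.mulSingle m (u : R ⧸ m.asIdeal) := by
    show equivPi R ((equivPi R).symm (Pi.mulSingle m (u : R ⧸ m.asIdeal))) = _
    exact (equivPi R).apply_symm_apply _
  have := congrFun h m'
  rwa [equivPi_apply] at this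

theorem locHerb_mk_lift_self (m : MaximalSpectrum R) (u : (R ⧸ m.asIdeal)ˣ) :
    Ideal.Quotient.mk m.asIdeal (locHerbLift R m u : R) = u := by
  classical
  rw [locHerb_mk_lift, Pi.mulSingle_eq_same]

theorem locHerb_mk_lift_of_ne {m m' : MaximalSpectrum R} (h : m' ≠ m) (u : (R ⧸ m.asIdeal)ˣ) :
    Ideal.Quotient.mk m'.asIdeal (locHerbLift R m u : R) = 1 := by
  classical
  rw [locHerb_mk_lift, Pi.mulSingle_eq_of_ne h]

theorem locHerbLift_injective (m : MaximalSpectrum R) : Function.Injective (locHerbLift R m) := by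
  intro u u' h
  apply Units.ext
  rw [← locHerb_mk_lift_self R m u, ← locHerb_mk_lift_self R m u', h]

/-- the units which are `1` in all components but the `m`-th. -/
def locHerbComp (m : MaximalSpectrum R) : Subgroup Rˣ where
  carrier := {u | ∀ m' : MaximalSpectrum R, m' ≠ m → Ideal.Quotient.mk m'.asIdeal (u : R) = 1}
  one_mem' := fun m' _ => by simp
  mul_mem' := fun {a b} ha hb m' h => by
    rw [Units.val_mul, map_mul, ha m' h, hb m' h, one_mul]
  inv_mem' := fun {a} ha m' h => by
    have h1 : Ideal.Quotient.mk m'.asIdeal ((a⁻¹ : Rˣ) : R) * Ideal.Quotient.mk m'.asIdeal (a : R)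
        = 1 := by
      rw [← map_mul, Units.inv_mul, map_one]
    rwa [ha m' h, mul_one] at h1

theorem mem_locHerbComp {m : MaximalSpectrum R} {u : Rˣ} :
    u ∈ locHerbComp R m ↔
      ∀ m' : MaximalSpectrum R, m' ≠ m → Ideal.Quotient.mk m'.asIdeal (u : R) = 1 := Iff.rfl

theorem locHerb_range_lift (m : MaximalSpectrum R) :
    (locHerbLift R m).range = locHerbComp R m := by
  ext u
  constructor
  · rintro ⟨b, rfl⟩ m' h
    exact locHerb_mk_lift_of_ne R h b
  · intro hu
    refine ⟨Units.map (Ideal.Quotient.mk m.asIdeal : R →* R ⧸ m.asIdeal) u, ?_⟩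
    apply Units.ext
    apply locHerb_eq_of_forall_mk_eq R
    intro m'
    by_cases h : m' = m
    · subst h
      rw [locHerb_mk_lift_self]
      rfl
    · rw [locHerb_mk_lift_of_ne R h, hu m' h]

/-- every unit is the product of its components. -/
theorem locHerb_eq_prod_lift [Fintype (MaximalSpectrum R)] (u : Rˣ) :
    u = ∏ m : MaximalSpectrum R,
      locHerbLift R m (Units.map (Ideal.Quotient.mk m.asIdeal : R →* R ⧸ m.asIdeal) u) := by
  classical
  apply Units.ext
  apply locHerb_eq_of_forall_mk_eq R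
  intro m'
  rw [Units.coe_prod, map_prod, Finset.prod_eq_single m']
  · rw [locHerb_mk_lift_self]
    rfl
  · intro m _ h
    exact locHerb_mk_lift_of_ne R h.symm _
  · intro h
    exact absurd (Finset.mem_univ m') h

/-- independence of the components. -/
theorem locHerb_eq_one_of_prod_eq_one [Fintype (MaximalSpectrum R)] (c : MaximalSpectrum R → Rˣ)
    (hc : ∀ m, c m ∈ locHerbComp R m) (h : ∏ m, c m = 1) (m : MaximalSpectrum R) : c m = 1 := by
  classical
  apply Units.ext
  apply locHerb_eq_of_forall_mk_eq R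
  intro m'
  by_cases hm : m' = m
  · subst hm
    have h1 := congrArg (fun u : Rˣ => Ideal.Quotient.mk m'.asIdeal (u : R)) h
    simp only [Units.coe_prod, map_prod, Units.val_one, map_one] at h1
    rw [Finset.prod_eq_single m'] at h1
    · rw [h1, Units.val_one, map_one]
    · intro m _ hne
      exact hc m m' hne.symm
    · intro hh
      exact absurd (Finset.mem_univ m') hh
  · rw [hc m m' hm, Units.val_one, map_one]

end CRT

open scoped Pointwise

section Shapiro

variable (F R G : Type*) [Field F] [CommRing R] [Algebra F R] [IsArtinianRing R] [IsReduced R]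
  [Group G] [MulSemiringAction G R] [SMulCommClass G F R]

attribute [local instance] maxSpecMulAction

theorem locHerb_units_smul_val (g : G) (u : Rˣ) : ((g • u : Rˣ) : R) = g • (u : R) := rfl

theorem locHerb_smul_mem_comp (τ : G) (m : MaximalSpectrum R) {u : Rˣ}
    (hu : u ∈ locHerbComp R m) : τ • u ∈ locHerbComp R (τ • m) := by
  intro m' hm'
  have hne : τ⁻¹ • m' ≠ m := by
    intro h
    apply hm'
    rw [← h, smul_inv_smul]
  have h1 := hu (τ⁻¹ • m') hne
  have h2 : (u : R) - 1 ∈ (τ⁻¹ • m').asIdeal := by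
    rw [← Ideal.Quotient.eq_zero_iff_mem, map_sub, h1, map_one, sub_self]
  have h3 : (u : R) - 1 ∈ τ⁻¹ • m'.asIdeal := h2
  rw [Ideal.mem_inv_pointwise_smul_iff] at h3
  rw [locHerb_units_smul_val, ← sub_eq_zero, ← map_one (Ideal.Quotient.mk m'.asIdeal), ← map_sub,
    Ideal.Quotient.eq_zero_iff_mem]
  have : τ • (u : R) - 1 = τ • ((u : R) - 1) := by rw [smul_sub, smul_one]
  rw [this]
  exact h3

/-- the action of the decomposition group on the units of the residue ring. -/
@[reducible] noncomputable def locHerbStabUnitsAction (m : Ideal R) :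
    MulDistribMulAction (MulAction.stabilizer G m) (R ⧸ m)ˣ :=
  @Units.mulDistribMulActionRight _ _ _ _
    (@MulSemiringAction.toMulDistribMulAction _ _ _ _ (quotStabAction F R G m))

theorem locHerbStab_smul_val (m : Ideal R) (h : MulAction.stabilizer G m) (u : (R ⧸ m)ˣ) :
    letI := locHerbStabUnitsAction F R G m
    ((h • u : (R ⧸ m)ˣ) : R ⧸ m) = quotStabHom F R G m h (u : R ⧸ m) := rfl

/-- equivariance of the CRT lift under the decomposition group. -/
theorem locHerbLift_smul (m₀ : MaximalSpectrum R)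
    (h : MulAction.stabilizer G m₀.asIdeal) (u : (R ⧸ m₀.asIdeal)ˣ) :
    letI := locHerbStabUnitsAction F R G m₀.asIdeal
    locHerbLift R m₀ (h • u) = (h : G) • locHerbLift R m₀ u := by
  letI := locHerbStabUnitsAction F R G m₀.asIdeal
  have hm : (h : G) • m₀ = m₀ := MaximalSpectrum.ext h.2
  apply Units.ext
  apply locHerb_eq_of_forall_mk_eq R
  intro m'
  by_cases hne : m' = m₀
  · subst hne
    rw [locHerb_mk_lift_self, locHerbStab_smul_val]
    have h2 : Ideal.Quotient.mk m'.asIdeal (((h : G) • locHerbLift R m' u : Rˣ) : R) =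
        quotStabHom F R G m'.asIdeal h (Ideal.Quotient.mk m'.asIdeal (locHerbLift R m' u : R)) :=
      (quotStabHom_mk F R G m'.asIdeal h _).symm
    rw [h2, locHerb_mk_lift_self]
  · rw [locHerb_mk_lift_of_ne R hne]
    have h1 : (h : G) • locHerbLift R m₀ u ∈ locHerbComp R ((h : G) • m₀) :=
      locHerb_smul_mem_comp R G (h : G) m₀ ((locHerb_range_lift R m₀) ▸ ⟨u, rfl⟩)
    rw [hm] at h1
    exact (h1 m' hne).symm

variable [Fintype G]

/-- **Shapiro** for the units of a reduced Artinian ring on whose maximal ideals `G = ⟨σ⟩` acts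
transitively. -/
theorem locHerb_tateCard_units [MulAction.IsPretransitive G (MaximalSpectrum R)] {σ : G}
    (hσ : ∀ τ, τ ∈ Subgroup.zpowers σ) (m₀ : MaximalSpectrum R)
    [Fintype (MulAction.stabilizer G m₀.asIdeal)]
    {σD : MulAction.stabilizer G m₀.asIdeal} (hσD : ∀ h, h ∈ Subgroup.zpowers σD) :
    letI := locHerbStabUnitsAction F R G m₀.asIdeal
    tateH0Card G (Additive Rˣ) σ =
        tateH0Card (MulAction.stabilizer G m₀.asIdeal) (Additive (R ⧸ m₀.asIdeal)ˣ) σD ∧
      tateH1Card G (Additive Rˣ) σ =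
        tateH1Card (MulAction.stabilizer G m₀.asIdeal) (Additive (R ⧸ m₀.asIdeal)ˣ) σD := by
  classical
  letI := locHerbStabUnitsAction F R G m₀.asIdeal
  letI : Fintype (MaximalSpectrum R) := Fintype.ofFinite _
  refine tateCard_induced (G := G) (A := Additive Rˣ) (X := MaximalSpectrum R) hσ hσD
    (fun m => (locHerbComp R m).toAddSubgroup) ?_ ?_ ?_ m₀
    (MulAction.stabilizer G m₀.asIdeal).subtype Subtype.val_injective ?_
    (MonoidHom.toAdditive (locHerbLift R m₀)) ?_ ?_ ?_
  · intro τ m a ha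
    exact locHerb_smul_mem_comp R G τ m ha
  · intro a
    refine ⟨fun m => Additive.ofMul (locHerbLift R m
      (Units.map (Ideal.Quotient.mk m.asIdeal : R →* R ⧸ m.asIdeal) a.toMul)), ?_, ?_⟩
    · intro m
      show _ ∈ locHerbComp R m
      rw [← locHerb_range_lift]
      exact ⟨_, rfl⟩
    · rw [← ofMul_prod]
      exact congrArg Additive.ofMul (locHerb_eq_prod_lift R a.toMul)
  · intro c hc hsum m
    have h1 : ∏ m, (c m).toMul = 1 := by
      have := congrArg Additive.toMul hsum
      rwa [toMul_sum] at this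
    exact congrArg Additive.ofMul
      (locHerb_eq_one_of_prod_eq_one R (fun m => (c m).toMul) hc h1 m)
  · intro τ
    rw [Subgroup.range_subtype, MulAction.mem_stabilizer_iff]
    constructor
    · intro h
      exact MaximalSpectrum.ext h
    · intro h
      exact congrArg MaximalSpectrum.asIdeal h
  · intro b b' h
    exact congrArg Additive.ofMul (locHerbLift_injective R m₀ (congrArg Additive.toMul h))
  · intro a
    constructor
    · rintro ⟨b, rfl⟩
      show _ ∈ locHerbComp R m₀
      rw [← locHerb_range_lift]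
      exact ⟨b.toMul, rfl⟩
    · intro ha
      have : a.toMul ∈ (locHerbLift R m₀).range := by
        rw [locHerb_range_lift]
        exact ha
      obtain ⟨b, hb⟩ := this
      exact ⟨Additive.ofMul b, congrArg Additive.ofMul hb⟩
  · intro h b
    exact congrArg Additive.ofMul (locHerbLift_smul F R G m₀ h b.toMul)

end Shapiro

section Tensor

open scoped TensorProduct Fermat.Agent.CFT.TensorGal

variable (K F L G : Type) [Field K] [Field F] [Field L] [Algebra K F] [Algebra K L]
  [FiniteDimensional K L] [Algebra.IsSeparable K L]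
  [Group G] [Fintype G] [MulSemiringAction G L] [SMulCommClass G K L] [IsGaloisGroup G K L]

attribute [local instance] maxSpecMulAction Ideal.Quotient.field

/-- `|Ĥ⁰(G, (F ⊗ L)ˣ)| = |D_m|`, `|Ĥ¹(G, (F ⊗ L)ˣ)| = 1` for `G = ⟨σ⟩` cyclic, `F` a local
field. -/
theorem locHerb_tensor_tateCard (hF : IsLocalFieldNA F) {σ : G}
    (hσ : ∀ τ, τ ∈ Subgroup.zpowers σ) (m : MaximalSpectrum (F ⊗[K] L)) :
    tateH0Card G (Additive (F ⊗[K] L)ˣ) σ = Nat.card (MulAction.stabilizer G m.asIdeal) ∧
      tateH1Card G (Additive (F ⊗[K] L)ˣ) σ = 1 := by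
  classical
  haveI : m.asIdeal.IsMaximal := m.isMaximal
  haveI : MulAction.IsPretransitive G (MaximalSpectrum (F ⊗[K] L)) :=
    maxSpec_isPretransitive F (F ⊗[K] L) G
  letI : Fintype (MulAction.stabilizer G m.asIdeal) := Fintype.ofFinite _
  -- the decomposition group is cyclic
  haveI : IsCyclic G := ⟨σ, hσ⟩
  obtain ⟨σD, hσD⟩ := (inferInstance : IsCyclic (MulAction.stabilizer G m.asIdeal)).exists_generator
  obtain ⟨h0, h1⟩ := locHerb_tateCard_units F (F ⊗[K] L) G hσ m hσD
  letI := quotStabAction F (F ⊗[K] L) G m.asIdeal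
  haveI := isGaloisGroup_tensor_quot K F L G m.asIdeal
  obtain ⟨l0, l1⟩ := localHerbrand_tateCard (F := F) (E := (F ⊗[K] L) ⧸ m.asIdeal)
    (D := MulAction.stabilizer G m.asIdeal) hF hσD
  exact ⟨h0.trans l0, h1.trans l1⟩

end Tensor

section NumberField

open NumberField IsDedekindDomain
open scoped TensorProduct Fermat.Agent.CFT.TensorGal

variable (K L : Type) [Field K] [NumberField K] [Field L] [NumberField L] [Algebra K L]
  [IsGalois K L]

attribute [local instance] maxSpecMulAction

/-- **(GL8)** `|Ĥ⁰(G, (L_v)ˣ)| = |D_v|` and `|Ĥ¹(G, (L_v)ˣ)| = 1` for a cyclic extension `L / K` of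
number fields and a finite place `v` of `K` (`D_v` = the stabiliser of any maximal ideal of
`L_v = K_v ⊗ L`). -/
theorem semiLocal_tateCard [Fintype Gal(L/K)] {σ : Gal(L/K)}
    (hσ : ∀ τ, τ ∈ Subgroup.zpowers σ) (v : HeightOneSpectrum (𝓞 K))
    (m : MaximalSpectrum (semiLocal K L v)) :
    tateH0Card Gal(L/K) (Additive (semiLocal K L v)ˣ) σ =
        Nat.card (MulAction.stabilizer Gal(L/K) m.asIdeal) ∧
      tateH1Card Gal(L/K) (Additive (semiLocal K L v)ˣ) σ = 1 :=
  locHerb_tensor_tateCard K (v.adicCompletion K) L Gal(L/K)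
    (isLocalFieldNA_adicCompletion K v) hσ m

theorem semiLocal_herbrand [Fintype Gal(L/K)] {σ : Gal(L/K)}
    (hσ : ∀ τ, τ ∈ Subgroup.zpowers σ) (v : HeightOneSpectrum (𝓞 K))
    (m : MaximalSpectrum (semiLocal K L v)) :
    herbrand Gal(L/K) (Additive (semiLocal K L v)ˣ) σ =
      Nat.card (MulAction.stabilizer Gal(L/K) m.asIdeal) := by
  obtain ⟨h0, h1⟩ := semiLocal_tateCard K L hσ v m
  rw [herbrand_eq, h0, h1]
  simp

theorem semiLocal_herbrandDefined [Fintype Gal(L/K)] {σ : Gal(L/K)}
    (hσ : ∀ τ, τ ∈ Subgroup.zpowers σ) (v : HeightOneSpectrum (𝓞 K)) :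
    HerbrandDefinedCyclic Gal(L/K) (Additive (semiLocal K L v)ˣ) σ := by
  obtain ⟨m⟩ : Nonempty (MaximalSpectrum (semiLocal K L v)) := inferInstance
  obtain ⟨h0, h1⟩ := semiLocal_tateCard K L hσ v m
  refine ⟨?_, ?_⟩
  · show tateH0Card Gal(L/K) (Additive (semiLocal K L v)ˣ) σ ≠ 0
    rw [h0]
    exact Nat.card_pos.ne'
  · show tateH1Card Gal(L/K) (Additive (semiLocal K L v)ˣ) σ ≠ 0
    rw [h1]
    exact one_ne_zero

end NumberField

end Fermat.Agent.CFT
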