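import Mathlib
import Fermat.Agent.CFT.Idele.SemiLocalHerbrand
import Fermat.Agent.CFT.Coh.CyclicInducedOrbits

set_option autoImplicit false
set_option linter.unusedSectionVars false
set_option linter.style.haveILetI false

/-!
# S55 global-idelic stream, chunk (GL8-rel): Tate cohomology of the units of a semilocal algebra,
RELATIVE form (non-transitive action)

`K` the fixed tensor base, `L / K` finite separable (NOT necessarily Galois), `H = ⟨σ⟩` a finite
cyclic group acting faithfully on `L` by `K`-automorphisms (e.g. `H = Gal(L/M)`, `K ≤ M ≤ L`),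
acting on `R = F ⊗[K] L` through the right factor; the action on the maximal ideals of `R` need not
be transitive.

* `locHerbR_tateCard_units` (abstract, `R` reduced Artinian): the Tate cardinalities of `Rˣ` are the
  products over the `H`-orbits `o` of maximal ideals of the Tate cardinalities of the
  decomposition group `Stab(o.out)` on `(R ⧸ o.out)ˣ`.
* `locHerbR_local` : for `F` a local field, `|Ĥ⁰(D_m, (R ⧸ m)ˣ)| = |D_m|`, `|Ĥ¹| = 1`.
* `locHerbR_tensor_tateCard` : `|Ĥ⁰(H, (F ⊗ L)ˣ)| = ∏_o |Stab(o.out)|`, `|Ĥ¹(H, (F ⊗ L)ˣ)| = 1`.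
* `locHerbR_tensor_herbrand`, `locHerbR_tensor_herbrandDefined`, and the number field instances
  `semiLocalRel_tateCard`, `semiLocalRel_herbrand`, `semiLocalRel_herbrandDefined`.
-/

namespace Fermat.Agent.CFT

open IsArtinianRing

attribute [local instance] additiveDistribMulAction Units.mulDistribMulActionRight

open scoped Pointwise

section Galois

/-- a group acting faithfully on a field `E` by `F`-automorphisms is the Galois group of `E`
over its fixed field (as an intermediate field of `E / F`). -/
theorem isGaloisGroup_fixedIntermediateField (F E D : Type*) [Field F] [Field E] [Algebra F E]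
    [Group D] [MulSemiringAction D E] [SMulCommClass D F E] [FaithfulSMul D E] :
    IsGaloisGroup D ↥(FixedPoints.intermediateField D : IntermediateField F E) E where
  faithful := inferInstance
  commutes := ⟨fun d a x => by
    rw [Algebra.smul_def, Algebra.smul_def, smul_mul']
    congr 1
    exact a.2 d⟩
  isInvariant := ⟨fun x hx => ⟨⟨x, hx⟩, rfl⟩⟩

end Galois

section Shapiro

variable (F R G : Type*) [Field F] [CommRing R] [Algebra F R] [IsArtinianRing R] [IsReduced R]
  [Group G] [MulSemiringAction G R] [SMulCommClass G F R]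

attribute [local instance] maxSpecMulAction

theorem locHerbR_perm (τ : G) (m : MaximalSpectrum R) (a : Additive Rˣ)
    (ha : a ∈ (locHerbComp R m).toAddSubgroup) :
    τ • a ∈ (locHerbComp R (τ • m)).toAddSubgroup :=
  locHerb_smul_mem_comp R G τ m ha

theorem locHerbR_sum [Fintype (MaximalSpectrum R)] (a : Additive Rˣ) :
    ∃ c : MaximalSpectrum R → Additive Rˣ,
      (∀ m, c m ∈ (locHerbComp R m).toAddSubgroup) ∧ a = ∑ m, c m := by
  refine ⟨fun m => Additive.ofMul (locHerbLift R m
    (Units.map (Ideal.Quotient.mk m.asIdeal : R →* R ⧸ m.asIdeal) a.toMul)), ?_, ?_⟩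
  · intro m
    show _ ∈ locHerbComp R m
    rw [← locHerb_range_lift]
    exact ⟨_, rfl⟩
  · rw [← ofMul_prod]
    exact congrArg Additive.ofMul (locHerb_eq_prod_lift R a.toMul)

theorem locHerbR_ind [Fintype (MaximalSpectrum R)] (c : MaximalSpectrum R → Additive Rˣ)
    (hc : ∀ m, c m ∈ (locHerbComp R m).toAddSubgroup) (hsum : ∑ m, c m = 0) :
    ∀ m, c m = 0 := by
  intro m
  have h1 : ∏ m, (c m).toMul = 1 := by
    have := congrArg Additive.toMul hsum
    rwa [toMul_sum] at this
  exact congrArg Additive.ofMul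
    (locHerb_eq_one_of_prod_eq_one R (fun m => (c m).toMul) hc h1 m)

variable [Fintype G]

/-- **Shapiro, non-transitive form**: the Tate cardinalities of the units of a reduced Artinian
ring with an action of a finite cyclic group `G = ⟨σ⟩` are the products over the `G`-orbits of
maximal ideals of the Tate cardinalities of the decomposition groups on the residue fields. -/
theorem locHerbR_tateCard_units {σ : G} (hσ : ∀ τ, τ ∈ Subgroup.zpowers σ)
    [Fintype (MulAction.orbitRel.Quotient G (MaximalSpectrum R))]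
    (c0 c1 : MaximalSpectrum R → ℕ)
    (hloc : ∀ (m : MaximalSpectrum R) [Fintype (MulAction.stabilizer G m.asIdeal)]
      (σD : MulAction.stabilizer G m.asIdeal), (∀ h, h ∈ Subgroup.zpowers σD) →
      letI := locHerbStabUnitsAction F R G m.asIdeal
      tateH0Card (MulAction.stabilizer G m.asIdeal) (Additive (R ⧸ m.asIdeal)ˣ) σD = c0 m ∧
        tateH1Card (MulAction.stabilizer G m.asIdeal) (Additive (R ⧸ m.asIdeal)ˣ) σD = c1 m) :
    tateH0Card G (Additive Rˣ) σ =
        ∏ o : MulAction.orbitRel.Quotient G (MaximalSpectrum R), c0 o.out ∧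
      tateH1Card G (Additive Rˣ) σ =
        ∏ o : MulAction.orbitRel.Quotient G (MaximalSpectrum R), c1 o.out := by
  classical
  letI : Fintype (MaximalSpectrum R) := Fintype.ofFinite _
  haveI : IsCyclic G := ⟨σ, hσ⟩
  refine tateCard_orbit_blocks (G := G) (A := Additive Rˣ) (X := MaximalSpectrum R)
    (fun m => (locHerbComp R m).toAddSubgroup) (locHerbR_perm R G) (locHerbR_sum R)
    (locHerbR_ind R) σ c0 c1 ?_
  intro m₀ Y hY hm₀ htrans
  letI : Fintype (MulAction.stabilizer G m₀.asIdeal) := Fintype.ofFinite _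
  obtain ⟨σD, hσD⟩ :=
    (inferInstance : IsCyclic (MulAction.stabilizer G m₀.asIdeal)).exists_generator
  letI := locHerbStabUnitsAction F R G m₀.asIdeal
  obtain ⟨l0, l1⟩ := hloc m₀ σD hσD
  obtain ⟨b0, b1⟩ := tateCard_induced_block (G := G) (A := Additive Rˣ)
    (H := MulAction.stabilizer G m₀.asIdeal) (B := Additive (R ⧸ m₀.asIdeal)ˣ)
    (X := MaximalSpectrum R) hσ hσD
    (fun m => (locHerbComp R m).toAddSubgroup) (locHerbR_perm R G) (locHerbR_ind R) Y hY m₀ hm₀
    htrans (MulAction.stabilizer G m₀.asIdeal).subtype Subtype.val_injective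
    (by
      intro τ
      rw [Subgroup.range_subtype, MulAction.mem_stabilizer_iff]
      constructor
      · intro h
        exact MaximalSpectrum.ext h
      · intro h
        exact congrArg MaximalSpectrum.asIdeal h)
    (MonoidHom.toAdditive (locHerbLift R m₀))
    (by
      intro b b' h
      exact congrArg Additive.ofMul (locHerbLift_injective R m₀ (congrArg Additive.toMul h)))
    (by
      intro a
      constructor
      · rintro ⟨b, rfl⟩
        show _ ∈ locHerbComp R m₀
        rw [← locHerb_range_lift]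
        exact ⟨b.toMul, rfl⟩
      · intro ha
        have : a.toMul ∈ (locHerbLift R m₀).range := by
          rw [locHerb_range_lift]
          exact ha
        obtain ⟨b, hb⟩ := this
        exact ⟨Additive.ofMul b, congrArg Additive.ofMul hb⟩)
    (by
      intro h b
      exact congrArg Additive.ofMul (locHerbLift_smul F R G m₀ h b.toMul))
  exact ⟨b0.trans l0, b1.trans l1⟩

end Shapiro

section Tensor

open scoped TensorProduct Fermat.Agent.CFT.TensorGal

variable (K : Type*) (F L : Type) (H : Type*) [Field K] [Field F] [Field L] [Algebra K F]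
  [Algebra K L] [FiniteDimensional K L] [Algebra.IsSeparable K L]
  [Group H] [MulSemiringAction H L] [SMulCommClass H K L] [FaithfulSMul H L]

attribute [local instance] maxSpecMulAction Ideal.Quotient.field

omit [FiniteDimensional K L] [Algebra.IsSeparable K L] in
/-- The decomposition group acts faithfully on the residue field (faithful `H`, no Galois
hypothesis on `L / K`). -/
theorem locHerbR_quotStabHom_injective (m : Ideal (F ⊗[K] L)) [m.IsMaximal] :
    Function.Injective (quotStabHom F (F ⊗[K] L) H m) := by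
  rw [injective_iff_map_eq_one]
  intro d hd
  apply Subtype.ext
  refine FaithfulSMul.eq_of_smul_eq_smul (α := L) fun l => ?_
  rw [Subgroup.coe_one, one_smul]
  apply tensor_quot_mk_includeRight_injective K F L m
  have h := DFunLike.congr_fun hd (Ideal.Quotient.mk m ((1 : F) ⊗ₜ[K] l))
  rw [quotStabHom_mk, tensorRight_smul_tmul] at h
  exact h

omit [FiniteDimensional K L] [Algebra.IsSeparable K L] in
theorem locHerbR_faithful_quot (m : Ideal (F ⊗[K] L)) [m.IsMaximal] :
    letI := quotStabAction F (F ⊗[K] L) H m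
    FaithfulSMul (MulAction.stabilizer H m) ((F ⊗[K] L) ⧸ m) := by
  letI := quotStabAction F (F ⊗[K] L) H m
  refine ⟨fun {d d'} h => ?_⟩
  apply locHerbR_quotStabHom_injective K F L H m
  exact AlgEquiv.ext h

omit [Algebra.IsSeparable K L] [Group H] [MulSemiringAction H L] [SMulCommClass H K L]
  [FaithfulSMul H L] in
theorem locHerbR_finiteDimensional_quot (m : Ideal (F ⊗[K] L)) [m.IsMaximal] :
    FiniteDimensional F ((F ⊗[K] L) ⧸ m) :=
  Module.Finite.of_surjective (Ideal.Quotient.mkₐ F m).toLinearMap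
    (Ideal.Quotient.mkₐ_surjective F m)

omit [Group H] [MulSemiringAction H L] [SMulCommClass H K L] [FaithfulSMul H L] in
/-- the residue fields of `F ⊗[K] L` are separable over `F`. -/
theorem locHerbR_isSeparable_quot (m : Ideal (F ⊗[K] L)) [m.IsMaximal] :
    Algebra.IsSeparable F ((F ⊗[K] L) ⧸ m) := by
  haveI := locHerbR_finiteDimensional_quot K F L m
  haveI : Algebra.FormallyUnramified K L := Algebra.FormallyUnramified.of_isSeparable K L
  haveI : Algebra.FormallyUnramified F (F ⊗[K] L) := inferInstance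
  haveI : Algebra.FormallyUnramified F ((F ⊗[K] L) ⧸ m) :=
    Algebra.FormallyUnramified.of_surjective (Ideal.Quotient.mkₐ F m)
      (Ideal.Quotient.mkₐ_surjective F m)
  exact Algebra.FormallyUnramified.isSeparable F ((F ⊗[K] L) ⧸ m)

variable [Fintype H]

/-- **local computation**: for `F` a local field the decomposition group `D_m` of a maximal ideal
`m` of `F ⊗[K] L` (cyclic) has `|Ĥ⁰(D_m, E_mˣ)| = |D_m|` and `|Ĥ¹(D_m, E_mˣ)| = 1`,
`E_m = (F ⊗[K] L) ⧸ m`. -/
theorem locHerbR_local (hF : IsLocalFieldNA F) (m : Ideal (F ⊗[K] L)) [m.IsMaximal]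
    [Fintype (MulAction.stabilizer H m)] {σD : MulAction.stabilizer H m}
    (hσD : ∀ h, h ∈ Subgroup.zpowers σD) :
    letI := locHerbStabUnitsAction F (F ⊗[K] L) H m
    tateH0Card (MulAction.stabilizer H m) (Additive ((F ⊗[K] L) ⧸ m)ˣ) σD =
        Nat.card (MulAction.stabilizer H m) ∧
      tateH1Card (MulAction.stabilizer H m) (Additive ((F ⊗[K] L) ⧸ m)ˣ) σD = 1 := by
  letI := quotStabAction F (F ⊗[K] L) H m
  haveI := locHerbR_faithful_quot K F L H m
  haveI := locHerbR_finiteDimensional_quot K F L m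
  haveI := locHerbR_isSeparable_quot K F L m
  haveI : SMulCommClass (MulAction.stabilizer H m) F ((F ⊗[K] L) ⧸ m) :=
    ⟨fun d c x => by
      show quotStabHom F (F ⊗[K] L) H m d (c • x) = c • quotStabHom F (F ⊗[K] L) H m d x
      exact map_smul _ c x⟩
  haveI := isGaloisGroup_fixedIntermediateField F ((F ⊗[K] L) ⧸ m) (MulAction.stabilizer H m)
  haveI : Algebra.IsSeparable F
      ↥(FixedPoints.intermediateField (MulAction.stabilizer H m) :
        IntermediateField F ((F ⊗[K] L) ⧸ m)) :=
    Algebra.isSeparable_tower_bot_of_isSeparable F _ ((F ⊗[K] L) ⧸ m)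
  have hF' : IsLocalFieldNA ↥(FixedPoints.intermediateField (MulAction.stabilizer H m) :
      IntermediateField F ((F ⊗[K] L) ⧸ m)) := hF.of_finite
  exact localHerbrand_tateCard (E := (F ⊗[K] L) ⧸ m) (D := MulAction.stabilizer H m) hF' hσD

/-- **(GL8-rel)** `|Ĥ⁰(H, (F ⊗[K] L)ˣ)| = ∏_{orbits o} |Stab_H(o.out)|` and
`|Ĥ¹(H, (F ⊗[K] L)ˣ)| = 1` for `F` a local field and `H = ⟨σ⟩` a finite cyclic group acting
faithfully on `L` by `K`-automorphisms. -/
theorem locHerbR_tensor_tateCard (hF : IsLocalFieldNA F) {σ : H}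
    (hσ : ∀ τ, τ ∈ Subgroup.zpowers σ)
    [Fintype (MulAction.orbitRel.Quotient H (MaximalSpectrum (F ⊗[K] L)))] :
    tateH0Card H (Additive (F ⊗[K] L)ˣ) σ =
        ∏ o : MulAction.orbitRel.Quotient H (MaximalSpectrum (F ⊗[K] L)),
          Nat.card (MulAction.stabilizer H o.out) ∧
      tateH1Card H (Additive (F ⊗[K] L)ˣ) σ = 1 := by
  classical
  have hstab : ∀ m : MaximalSpectrum (F ⊗[K] L),
      Nat.card (MulAction.stabilizer H m) = Nat.card (MulAction.stabilizer H m.asIdeal) := by
    intro m
    have : MulAction.stabilizer H m = MulAction.stabilizer H m.asIdeal := by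
      ext g
      rw [MulAction.mem_stabilizer_iff, MulAction.mem_stabilizer_iff]
      exact ⟨fun h => congrArg MaximalSpectrum.asIdeal h, fun h => MaximalSpectrum.ext h⟩
    rw [this]
  obtain ⟨h0, h1⟩ := locHerbR_tateCard_units F (F ⊗[K] L) H hσ
    (fun m => Nat.card (MulAction.stabilizer H m)) (fun _ => 1) (by
      intro m _ σD hσD
      haveI : m.asIdeal.IsMaximal := m.isMaximal
      rw [hstab m]
      exact locHerbR_local K F L H hF m.asIdeal hσD)
  refine ⟨h0, ?_⟩
  rw [h1]
  exact Finset.prod_const_one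

theorem locHerbR_tensor_herbrand (hF : IsLocalFieldNA F) {σ : H}
    (hσ : ∀ τ, τ ∈ Subgroup.zpowers σ)
    [Fintype (MulAction.orbitRel.Quotient H (MaximalSpectrum (F ⊗[K] L)))] :
    herbrand H (Additive (F ⊗[K] L)ˣ) σ =
      ∏ o : MulAction.orbitRel.Quotient H (MaximalSpectrum (F ⊗[K] L)),
        (Nat.card (MulAction.stabilizer H o.out) : ℚ) := by
  obtain ⟨h0, h1⟩ := locHerbR_tensor_tateCard K F L H hF hσ
  rw [herbrand_eq, h0, h1]
  simp

theorem locHerbR_tensor_herbrandDefined (hF : IsLocalFieldNA F) {σ : H}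
    (hσ : ∀ τ, τ ∈ Subgroup.zpowers σ) :
    HerbrandDefinedCyclic H (Additive (F ⊗[K] L)ˣ) σ := by
  classical
  letI : Fintype (MulAction.orbitRel.Quotient H (MaximalSpectrum (F ⊗[K] L))) :=
    Fintype.ofFinite _
  obtain ⟨h0, h1⟩ := locHerbR_tensor_tateCard K F L H hF hσ
  refine ⟨?_, ?_⟩
  · show tateH0Card H (Additive (F ⊗[K] L)ˣ) σ ≠ 0
    rw [h0]
    exact Finset.prod_ne_zero_iff.mpr fun o _ => Nat.card_pos.ne'
  · show tateH1Card H (Additive (F ⊗[K] L)ˣ) σ ≠ 0
    rw [h1]
    exact one_ne_zero

end Tensor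

section NumberField

open NumberField IsDedekindDomain
open scoped TensorProduct Fermat.Agent.CFT.TensorGal

variable (K L : Type) (H : Type*) [Field K] [NumberField K] [Field L] [NumberField L]
  [Algebra K L] [Group H] [Fintype H] [MulSemiringAction H L] [SMulCommClass H K L]
  [FaithfulSMul H L]

attribute [local instance] maxSpecMulAction

/-- **(GL8-rel)** for number fields: `K` the tensor base, `H = ⟨σ⟩` a finite cyclic group acting
faithfully on `L` by `K`-automorphisms (e.g. `Gal(L/M)`, `K ≤ M ≤ L`), `v` a finite place of `K`: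
`|Ĥ⁰(H, (K_v ⊗ L)ˣ)| = ∏_{H-orbits o of maximal ideals} |Stab_H(o.out)|`, `|Ĥ¹| = 1`. -/
theorem semiLocalRel_tateCard {σ : H} (hσ : ∀ τ, τ ∈ Subgroup.zpowers σ)
    (v : HeightOneSpectrum (𝓞 K))
    [Fintype (MulAction.orbitRel.Quotient H (MaximalSpectrum (semiLocal K L v)))] :
    tateH0Card H (Additive (semiLocal K L v)ˣ) σ =
        ∏ o : MulAction.orbitRel.Quotient H (MaximalSpectrum (semiLocal K L v)),
          Nat.card (MulAction.stabilizer H o.out) ∧
      tateH1Card H (Additive (semiLocal K L v)ˣ) σ = 1 :=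
  locHerbR_tensor_tateCard K (v.adicCompletion K) L H (isLocalFieldNA_adicCompletion K v) hσ

theorem semiLocalRel_herbrand {σ : H} (hσ : ∀ τ, τ ∈ Subgroup.zpowers σ)
    (v : HeightOneSpectrum (𝓞 K))
    [Fintype (MulAction.orbitRel.Quotient H (MaximalSpectrum (semiLocal K L v)))] :
    herbrand H (Additive (semiLocal K L v)ˣ) σ =
      ∏ o : MulAction.orbitRel.Quotient H (MaximalSpectrum (semiLocal K L v)),
        (Nat.card (MulAction.stabilizer H o.out) : ℚ) :=
  locHerbR_tensor_herbrand K (v.adicCompletion K) L H (isLocalFieldNA_adicCompletion K v) hσ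

theorem semiLocalRel_herbrandDefined {σ : H} (hσ : ∀ τ, τ ∈ Subgroup.zpowers σ)
    (v : HeightOneSpectrum (𝓞 K)) :
    HerbrandDefinedCyclic H (Additive (semiLocal K L v)ˣ) σ :=
  locHerbR_tensor_herbrandDefined K (v.adicCompletion K) L H (isLocalFieldNA_adicCompletion K v) hσ

end NumberField

end Fermat.Agent.CFT
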