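/-
CFT, S55 pool, GLOBAL-IDELIC layer (GL10), RELATIVE form, final glue (helper23).

`K ≤ M ≤ L` number fields, `K` the tensor base (`L/K` Galois), `L/M` cyclic with group
`Gal(L/M) = ⟨σ⟩`, unramified at the infinite places (e.g. of odd degree).  Then
`h(Gal(L/M), C_L) = [L : M]` for `C_L = ideleClass K L`, and the first inequality
`[L : M] ≤ |Ĥ⁰(Gal(L/M), C_L)| = [C_M : N_{L/M} C_L]` holds.

Glue of `Idele/FirstIneqGen.lean` (assembly), helper11's `Idele/SemiLocalHerbrandRel.lean`
(`h(Gal(L/M), (K_v ⊗ L)ˣ) = ∏_{orbits} |Stab|`), helper25's `Idele/LocalDegreeRel.lean` (orbit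
products over the maximal ideals of `K_v ⊗ L` vs. over the primes of `L`).  Remaining explicit
hypotheses: (GL6) `J_L = Lˣ J_{L,S}` and (GL7-rel) the local units off `S` have trivial Tate groups.
-/
import Mathlib
import Fermat.Agent.CFT.Idele.FirstIneqGen
import Fermat.Agent.CFT.Idele.NormIndexRel
import Fermat.Agent.CFT.Idele.SemiLocalHerbrandRel
import Fermat.Agent.CFT.Idele.LocalDegreeRel

set_option autoImplicit false
set_option linter.unusedSectionVars false
set_option linter.style.haveILetI false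

open NumberField IsDedekindDomain IsDedekindDomain.HeightOneSpectrum MulAction
open scoped TensorProduct Fermat.Agent.CFT.TensorGal

namespace Fermat.Agent.CFT

attribute [local instance] additiveDistribMulAction Units.mulDistribMulActionRight
  heightOneSpectrumMulAction ideleGroupActionOf ideleClassActionOf maxSpecMulAction

section Rel

variable {K M L : Type} [Field K] [NumberField K] [Field M] [NumberField M]
  [Field L] [NumberField L] [Algebra K M] [Algebra M L] [Algebra K L] [IsScalarTower K M L]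
  [IsGalois K L] [IsGalois M L] [Fintype Gal(L/M)]

/-- **The Herbrand quotient of the idele class group, relative form, local inputs discharged.** -/
theorem idFR_herbrand_ideleClass [IsUnramifiedAtInfinitePlaces M L]
    (S : Finset (HeightOneSpectrum (𝓞 K))) {σ : Gal(L/M)}
    (hσ : ∀ τ, τ ∈ Subgroup.zpowers σ)
    (hgen : principalIdeles K L ⊔ ideleGroupS K L (S : Set (HeightOneSpectrum (𝓞 K))) = ⊤)
    (hunr : ∀ v : HeightOneSpectrum (𝓞 K), v ∉ S →
      letI := stableSubgroupAction (idFI_unitsSide (K := K) (L := L) v)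
        (idFG_smul_mem_unitsSide (G := Gal(L/M)) v)
      tateH0Card Gal(L/M) ↥(idFI_unitsSide (K := K) (L := L) v) σ = 1 ∧
        tateH1Card Gal(L/M) ↥(idFI_unitsSide (K := K) (L := L) v) σ = 1) :
    HerbrandDefinedCyclic Gal(L/M) (Additive (ideleClass K L)) σ ∧
      herbrand Gal(L/M) (Additive (ideleClass K L)) σ = Fintype.card Gal(L/M) := by
  classical
  have hT : ∀ w : HeightOneSpectrum (𝓞 L), w ∈ primesAbove K L S ↔ w.under (𝓞 K) ∈ S :=
    fun w => mem_primesAbove
  refine idFG_herbrand_ideleClass_gal S (primesAbove K L S) hT hσ hgen hunr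
    (fun v _ => semiLocalRel_herbrandDefined K L Gal(L/M) hσ v) ?_
  intro inst
  letI : ∀ v : HeightOneSpectrum (𝓞 K),
      Fintype (orbitRel.Quotient Gal(L/M) (MaximalSpectrum ((v.adicCompletion K) ⊗[K] L))) :=
    fun v => Fintype.ofFinite _
  rw [ldRel_prod_card_stabilizer_tower K M L S (primesAbove K L S) hT
    (idFG_smul_mem_of_under S (primesAbove K L S) hT)]
  exact Finset.prod_congr rfl fun v _ => semiLocalRel_herbrand K L Gal(L/M) hσ v

/-- the first inequality, relative form: `[L : M] ≤ |Ĥ⁰(Gal(L/M), C_L)| = [C_M : N_{L/M} C_L]`. -/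
theorem idFR_first_inequality [IsUnramifiedAtInfinitePlaces M L]
    (S : Finset (HeightOneSpectrum (𝓞 K))) {σ : Gal(L/M)}
    (hσ : ∀ τ, τ ∈ Subgroup.zpowers σ)
    (hgen : principalIdeles K L ⊔ ideleGroupS K L (S : Set (HeightOneSpectrum (𝓞 K))) = ⊤)
    (hunr : ∀ v : HeightOneSpectrum (𝓞 K), v ∉ S →
      letI := stableSubgroupAction (idFI_unitsSide (K := K) (L := L) v)
        (idFG_smul_mem_unitsSide (G := Gal(L/M)) v)
      tateH0Card Gal(L/M) ↥(idFI_unitsSide (K := K) (L := L) v) σ = 1 ∧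
        tateH1Card Gal(L/M) ↥(idFI_unitsSide (K := K) (L := L) v) σ = 1) :
    tateH0Card Gal(L/M) (Additive (ideleClass K L)) σ =
        Fintype.card Gal(L/M) * tateH1Card Gal(L/M) (Additive (ideleClass K L)) σ ∧
      Fintype.card Gal(L/M) ≤ (relClassNorm K M L).range.index ∧
      (relClassNorm K M L).range.index ≠ 0 ∧
      tateH1Card Gal(L/M) (Additive (ideleClass K L)) σ ≠ 0 := by
  obtain ⟨hC, h⟩ := idFR_herbrand_ideleClass S hσ hgen hunr
  obtain ⟨h1, h2, h3, h4⟩ := idFG_first_inequality_of_herbrand hC h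
  rw [idNI_tateH0Card_eq_index (K := K) hσ] at h2 h3
  exact ⟨h1, h2, h3, h4⟩

/-- `[C_M : N_{L/M} C_L] = [J_M : Mˣ N_{L/M} J_L]`. -/
theorem idFR_index_range_relClassNorm :
    (relClassNorm K M L).range.index =
      (principalIdeles K M ⊔ (relIdeleNorm K M L).range).index := by
  have h1 : (relClassNorm K M L).range =
      (relIdeleNorm K M L).range.map (QuotientGroup.mk' (principalIdeles K M)) := by
    ext c
    constructor
    · rintro ⟨d, rfl⟩
      induction d using QuotientGroup.induction_on with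
      | H x => exact ⟨relIdeleNorm K M L x, ⟨x, rfl⟩, rfl⟩
    · rintro ⟨_, ⟨x, rfl⟩, rfl⟩
      exact ⟨(x : ideleClass K L), rfl⟩
  rw [h1, Subgroup.index_map, QuotientGroup.ker_mk',
    MonoidHom.range_eq_top_of_surjective _ (QuotientGroup.mk'_surjective _), Subgroup.index_top,
    mul_one, sup_comm]

/-- **The cyclic layer**: first inequality (with (GL6), (GL7-rel) as hypotheses) + second
inequality `[J_M : Mˣ N J_L] ≤ [L : M]` give `|Ĥ⁰(Gal(L/M), C_L)| = [L : M]`, `|Ĥ¹| = 1`. -/
theorem idFR_tateCard_of_second_inequality [IsUnramifiedAtInfinitePlaces M L]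
    (S : Finset (HeightOneSpectrum (𝓞 K))) {σ : Gal(L/M)}
    (hσ : ∀ τ, τ ∈ Subgroup.zpowers σ)
    (hgen : principalIdeles K L ⊔ ideleGroupS K L (S : Set (HeightOneSpectrum (𝓞 K))) = ⊤)
    (hunr : ∀ v : HeightOneSpectrum (𝓞 K), v ∉ S →
      letI := stableSubgroupAction (idFI_unitsSide (K := K) (L := L) v)
        (idFG_smul_mem_unitsSide (G := Gal(L/M)) v)
      tateH0Card Gal(L/M) ↥(idFI_unitsSide (K := K) (L := L) v) σ = 1 ∧
        tateH1Card Gal(L/M) ↥(idFI_unitsSide (K := K) (L := L) v) σ = 1)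
    (h2 : (principalIdeles K M ⊔ (relIdeleNorm K M L).range).index ≤ Fintype.card Gal(L/M)) :
    tateH0Card Gal(L/M) (Additive (ideleClass K L)) σ = Fintype.card Gal(L/M) ∧
      tateH1Card Gal(L/M) (Additive (ideleClass K L)) σ = 1 ∧
      (relClassNorm K M L).range.index = Fintype.card Gal(L/M) := by
  obtain ⟨hC, h⟩ := idFR_herbrand_ideleClass S hσ hgen hunr
  have h2' : (relClassNorm K M L).range.index ≤ Fintype.card Gal(L/M) := by
    rw [idFR_index_range_relClassNorm]
    exact h2
  exact idNI_tateCard_of_index_le hσ hC h h2'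

/-- the same for a cyclic layer of odd degree, in terms of `Nat.card Gal(L/M)`. -/
theorem idFR_tateCard_of_second_inequality_of_odd (hodd : Odd (Module.finrank M L))
    (S : Finset (HeightOneSpectrum (𝓞 K))) {σ : Gal(L/M)}
    (hσ : ∀ τ, τ ∈ Subgroup.zpowers σ)
    (hgen : principalIdeles K L ⊔ ideleGroupS K L (S : Set (HeightOneSpectrum (𝓞 K))) = ⊤)
    (hunr : ∀ v : HeightOneSpectrum (𝓞 K), v ∉ S →
      letI := stableSubgroupAction (idFI_unitsSide (K := K) (L := L) v)
        (idFG_smul_mem_unitsSide (G := Gal(L/M)) v)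
      tateH0Card Gal(L/M) ↥(idFI_unitsSide (K := K) (L := L) v) σ = 1 ∧
        tateH1Card Gal(L/M) ↥(idFI_unitsSide (K := K) (L := L) v) σ = 1)
    (h2 : (principalIdeles K M ⊔ (relIdeleNorm K M L).range).index ≤ Nat.card Gal(L/M)) :
    tateH0Card Gal(L/M) (Additive (ideleClass K L)) σ = Nat.card Gal(L/M) ∧
      tateH1Card Gal(L/M) (Additive (ideleClass K L)) σ = 1 ∧
      (relClassNorm K M L).range.index = Nat.card Gal(L/M) := by
  have := IsUnramifiedAtInfinitePlaces_of_odd_finrank hodd
  rw [Nat.card_eq_fintype_card] at h2 ⊢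
  exact idFR_tateCard_of_second_inequality S hσ hgen hunr h2

end Rel

end Fermat.Agent.CFT
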