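/-
S55 pool, GLOBAL-IDELIC chunk (GL11-R2) (helper2, for helper9's relative second inequality):
a prime `u` of `M` at which `a` is a `p`-th power residue splits completely in the Kummer extension
`L = M(a^{1/p})`, and hence there is `l ∈ Lˣ` whose norm is a uniformiser at `u` and a unit at a
prescribed finite set of other primes.
-/
import Mathlib
import Fermat.Agent.CFT.Global.PrimeDivisor
import Fermat.Agent.CFT.Global.WeakApprox

set_option autoImplicit false

namespace Fermat.Agent.CFT

open IsDedekindDomain IsDedekindDomain.HeightOneSpectrum NumberField WithZero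

attribute [local instance] heightOneSpectrumMulAction

section Val

variable {F : Type*} [Field F] {Γ₀ : Type*} [LinearOrderedCommGroupWithZero Γ₀]
  (v : Valuation F Γ₀)

/-- a root of unity has valuation `1`. -/
theorem kSP_val_eq_one_of_pow_eq_one {x : F} {n : ℕ} (hn : n ≠ 0) (hx : x ^ n = 1) : v x = 1 := by
  have h : v x ^ n = 1 := by rw [← map_pow, hx, map_one]
  exact (pow_eq_one_iff_of_nonneg zero_le hn).1 h

/-- if `ζ ≡ 1` then `ζ ^ k ≡ 1`. -/
theorem kSP_val_pow_sub_one_lt {x : F} (hx1 : v x ≤ 1) (hx : v (x - 1) < 1) (k : ℕ) :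
    v (x ^ k - 1) < 1 := by
  induction k with
  | zero => simp
  | succ k ih =>
    have e : x ^ (k + 1) - 1 = x * (x ^ k - 1) + (x - 1) := by ring
    rw [e]
    refine Valuation.map_add_lt _ ?_ hx
    rw [map_mul]
    exact lt_of_le_of_lt (mul_le_of_le_one_left zero_le hx1) ih

/-- a nontrivial `p`-th root of unity congruent to `1` forces `p ≡ 0`. -/
theorem kSP_val_natCast_lt_one {x : F} {p : ℕ} (hp : p ≠ 0) (hxp : x ^ p = 1) (hx1 : x ≠ 1)
    (hx : v (x - 1) < 1) : v (p : F) < 1 := by
  have hv1 : v x = 1 := kSP_val_eq_one_of_pow_eq_one v hp hxp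
  have hgs : ∑ i ∈ Finset.range p, x ^ i = 0 := by
    have h := geom_sum_mul x p
    rw [hxp, sub_self] at h
    rcases mul_eq_zero.1 h with h | h
    · exact h
    · exact absurd (sub_eq_zero.1 h) hx1
  have hsum : ∑ i ∈ Finset.range p, (x ^ i - 1) = -(p : F) := by
    rw [Finset.sum_sub_distrib, hgs]
    simp
  have hlt : v (∑ i ∈ Finset.range p, (x ^ i - 1)) < 1 :=
    Valuation.map_sum_lt v one_ne_zero fun i _ => kSP_val_pow_sub_one_lt v hv1.le hx i
  rwa [hsum, Valuation.map_neg] at hlt

end Val

section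

variable (M L : Type) [Field M] [NumberField M] [Field L] [NumberField L] [Algebra M L]

/-- valuations of elements of the base field at a prime above. -/
theorem kSP_valuation_algebraMap (w : HeightOneSpectrum (𝓞 L)) (x : M) :
    ∃ e : ℕ, e ≠ 0 ∧ w.valuation L (algebraMap M L x) = (primeBelow M L w).valuation M x ^ e := by
  have hlies : w.asIdeal.LiesOver (primeBelow M L w).asIdeal := ⟨rfl⟩
  have h1 := HeightOneSpectrum.valuation_liesOver L (primeBelow M L w) w x
  have he : (primeBelow M L w).asIdeal.ramificationIdx' w.asIdeal ≠ 0 :=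
    Ideal.IsDedekindDomain.ramificationIdx'_ne_zero_of_liesOver _ (primeBelow M L w).ne_bot
  exact ⟨_, he, h1.symm⟩

theorem kSP_valuation_algebraMap_eq_one (w : HeightOneSpectrum (𝓞 L)) {x : M}
    (hx : (primeBelow M L w).valuation M x = 1) : w.valuation L (algebraMap M L x) = 1 := by
  obtain ⟨e, -, h⟩ := kSP_valuation_algebraMap M L w x
  rw [h, hx, one_pow]

theorem kSP_valuation_algebraMap_lt_one (w : HeightOneSpectrum (𝓞 L)) {x : M}
    (hx : (primeBelow M L w).valuation M x < 1) : w.valuation L (algebraMap M L x) < 1 := by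
  obtain ⟨e, he, h⟩ := kSP_valuation_algebraMap M L w x
  rw [h]
  exact pow_lt_one₀ zero_le hx he

variable [IsGalois M L]

/-- **Complete splitting**: the decomposition group of a prime `w` above `u` is trivial. -/
theorem kSP_stabilizer_trivial {p : ℕ} (hp : p.Prime) (hcard : Nat.card Gal(L/M) = p)
    {ζ : M} (hζ : IsPrimitiveRoot ζ p) (a : Mˣ) (θ : L) (hθ : θ ^ p = algebraMap M L a)
    (hθM : θ ∉ Set.range (algebraMap M L)) (w : HeightOneSpectrum (𝓞 L))
    (hup : (primeBelow M L w).valuation M (p : M) = 1)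
    (hua : (primeBelow M L w).valuation M (a : M) = 1)
    (hy : ∃ y : M, (primeBelow M L w).valuation M ((a : M) - y ^ p) < 1)
    (σ : Gal(L/M)) (hσ : σ • w = w) : σ = 1 := by
  classical
  by_contra hσ1
  have hp0 : p ≠ 0 := hp.ne_zero
  have hθ0 : θ ≠ 0 := by
    intro h
    rw [h, zero_pow hp0] at hθ
    exact a.ne_zero ((map_eq_zero (algebraMap M L)).1 hθ.symm)
  -- `σ` moves `θ`
  have hσθ : σ θ ≠ θ := by
    intro h
    apply hθM
    rw [IsGalois.mem_range_algebraMap_iff_fixed]
    intro τ
    have : Fact p.Prime := ⟨hp⟩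
    have hτ : τ ∈ Subgroup.zpowers σ := mem_zpowers_of_prime_card hcard hσ1
    have hle : Subgroup.zpowers σ ≤ MulAction.stabilizer Gal(L/M) θ := by
      rw [Subgroup.zpowers_le]
      exact h
    exact hle hτ
  -- the root of unity `ζ' = σ θ / θ`
  set ζ' : L := σ θ / θ with hζ'
  have hζ'p : ζ' ^ p = 1 := by
    rw [hζ', div_pow, ← map_pow, hθ, AlgEquiv.commutes, div_self]
    rw [← hθ]
    exact pow_ne_zero _ hθ0
  have hζ'1 : ζ' ≠ 1 := by
    intro h
    apply hσθ
    rw [hζ', div_eq_one_iff_eq hθ0] at h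
    exact h
  -- some `θ - μ y` lies in `w`
  obtain ⟨y, hy⟩ := hy
  have hζL : IsPrimitiveRoot (algebraMap M L ζ) p :=
    hζ.map_of_injective (FaithfulSMul.algebraMap_injective M L)
  have hprod := hζL.pow_sub_pow_eq_prod_sub_mul θ (algebraMap M L y) hp.pos
  have hlt : w.valuation L (θ ^ p - algebraMap M L y ^ p) < 1 := by
    have := kSP_valuation_algebraMap_lt_one M L w hy
    rwa [map_sub, map_pow, ← hθ] at this
  rw [hprod, map_prod] at hlt
  obtain ⟨μ, hμ, hμlt⟩ : ∃ μ ∈ Polynomial.nthRootsFinset p (1 : L),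
      w.valuation L (θ - μ * algebraMap M L y) < 1 := by
    by_contra hcon
    simp only [not_exists, not_and, not_lt] at hcon
    exact absurd hlt (not_lt.2 (Finset.one_le_prod' hcon))
  -- `μ y` is fixed by `σ`
  have hμfix : σ (μ * algebraMap M L y) = μ * algebraMap M L y := by
    have hμp : μ ^ p = 1 := ((Polynomial.mem_nthRootsFinset hp.pos (1 : L)).1 hμ)
    have : NeZero p := ⟨hp0⟩
    obtain ⟨i, -, rfl⟩ := hζL.eq_pow_of_pow_eq_one hμp
    rw [← map_pow, ← map_mul, AlgEquiv.commutes]
  -- apply `σ`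
  have h2 : w.valuation L (σ (θ - μ * algebraMap M L y)) < 1 := by
    have := hos_smul_valuation M L σ w (θ - μ * algebraMap M L y)
    rw [hσ] at this
    rwa [this]
  rw [map_sub, hμfix] at h2
  have h3 : w.valuation L ((ζ' - 1) * θ) < 1 := by
    have e : (ζ' - 1) * θ = (σ θ - μ * algebraMap M L y) - (θ - μ * algebraMap M L y) := by
      rw [hζ']
      field_simp
      ring
    rw [e]
    exact Valuation.map_sub_lt _ h2 hμlt
  have hθ1 : w.valuation L θ = 1 := by
    have h : w.valuation L θ ^ p = 1 := by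
      rw [← map_pow, hθ]
      exact kSP_valuation_algebraMap_eq_one M L w hua
    exact (pow_eq_one_iff_of_nonneg zero_le hp0).1 h
  rw [map_mul, hθ1, mul_one] at h3
  have h4 := kSP_val_natCast_lt_one (w.valuation L) hp0 hζ'p hζ'1 h3
  have h5 : w.valuation L (p : L) = 1 := by
    have := kSP_valuation_algebraMap_eq_one M L w hup
    rwa [map_natCast] at this
  rw [h5] at h4
  exact lt_irrefl _ h4

/-- the valuation of a norm at a prime `w0` above: product over the conjugate primes. -/
theorem kSP_valuation_norm (w0 : HeightOneSpectrum (𝓞 L)) (x : L) :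
    w0.valuation L (algebraMap M L (Algebra.norm M x)) =
      ∏ σ : Gal(L/M), (σ⁻¹ • w0).valuation L x := by
  rw [Algebra.norm_eq_prod_automorphisms, map_prod]
  refine Finset.prod_congr rfl fun σ _ => ?_
  have := hos_smul_valuation M L σ (σ⁻¹ • w0) x
  rwa [smul_inv_smul] at this

/-- **(GL11-R2)**: a prime `u ∤ p·a` of `M` at which `a` is a `p`-th power residue splits
completely in `L = M(a^{1/p})`; hence some `l ∈ Lˣ` has norm a uniformiser at `u` and a unit at
every prime of a given finite set `Ω ∌ u`. -/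
theorem kSP_exists_norm {p : ℕ} (hp : p.Prime) (hcard : Nat.card Gal(L/M) = p)
    {ζ : M} (hζ : IsPrimitiveRoot ζ p) (a : Mˣ) (θ : L) (hθ : θ ^ p = algebraMap M L a)
    (hθM : θ ∉ Set.range (algebraMap M L)) (u : HeightOneSpectrum (𝓞 M))
    (hup : u.valuation M (p : M) = 1) (hua : u.valuation M (a : M) = 1)
    (hy : ∃ y : M, u.valuation M ((a : M) - y ^ p) < 1)
    (Ω : Finset (HeightOneSpectrum (𝓞 M))) (huΩ : u ∉ Ω) :
    ∃ l : Lˣ, u.valuation M (Algebra.norm M (l : L)) = exp (-1 : ℤ) ∧
      ∀ u' ∈ Ω, u'.valuation M (Algebra.norm M (l : L)) = 1 := by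
  classical
  obtain ⟨w, hw⟩ := primeBelow_surjective M L u
  have hstab : ∀ σ : Gal(L/M), σ • w = w → σ = 1 := fun σ hσ =>
    kSP_stabilizer_trivial M L hp hcard hζ a θ hθ hθM w (hw ▸ hup) (hw ▸ hua) (hw ▸ hy) σ hσ
  -- chosen primes above, and the finite set of all primes above `insert u Ω`
  let wOf : HeightOneSpectrum (𝓞 M) → HeightOneSpectrum (𝓞 L) :=
    Function.surjInv (primeBelow_surjective M L)
  have hwOf : ∀ q, primeBelow M L (wOf q) = q := Function.surjInv_eq _
  let T : Finset (HeightOneSpectrum (𝓞 L)) :=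
    (insert u Ω).biUnion fun q => Finset.univ.image fun σ : Gal(L/M) => σ • wOf q
  have hT : ∀ w', primeBelow M L w' ∈ insert u Ω → w' ∈ T := by
    intro w' hw'
    obtain ⟨g, hg⟩ := exists_smul_eq_of_primeBelow_eq M L (hwOf (primeBelow M L w'))
    exact Finset.mem_biUnion.2 ⟨_, hw', Finset.mem_image.2 ⟨g, Finset.mem_univ _, hg.symm⟩⟩
  obtain ⟨l, hl⟩ := exists_units_forall_valuation_eq L T (fun w' => if w' = w then 1 else 0)
  have hlw : w.valuation L (l : L) = exp (-1 : ℤ) := by
    have := hl w (hT w (by rw [hw]; exact Finset.mem_insert_self _ _))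
    simpa using this
  have hlw' : ∀ w', primeBelow M L w' ∈ insert u Ω → w' ≠ w → w'.valuation L (l : L) = 1 := by
    intro w' hw' hne
    have := hl w' (hT w' hw')
    simpa [hne] using this
  refine ⟨l, ?_, ?_⟩
  · -- at `u`
    have h1 : w.valuation L (algebraMap M L (Algebra.norm M (l : L))) = exp (-1 : ℤ) := by
      rw [kSP_valuation_norm, Finset.prod_eq_single 1]
      · rw [inv_one, one_smul, hlw]
      · intro σ _ hσ
        apply hlw'
        · rw [primeBelow_smul, hw]
          exact Finset.mem_insert_self _ _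
        · intro h
          apply hσ
          have := hstab σ⁻¹ h
          exact inv_eq_one.1 this
      · intro h
        exact absurd (Finset.mem_univ _) h
    obtain ⟨e, he, h2⟩ := kSP_valuation_algebraMap M L w (Algebra.norm M (l : L))
    rw [hw, h1] at h2
    set m := u.valuation M (Algebra.norm M (l : L)) with hm
    have hm0 : m ≠ 0 := by
      intro h0
      rw [h0, zero_pow he] at h2
      exact exp_ne_zero h2
    have hmexp : m = exp (log m) := (exp_log hm0).symm
    rw [hmexp, ← exp_nsmul, exp_inj] at h2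
    have h3 : (e : ℤ) * (-(log m)) = 1 := by
      rw [nsmul_eq_mul] at h2
      linarith
    have h4 : (e : ℤ) = 1 := by
      rcases Int.eq_one_or_neg_one_of_mul_eq_one h3 with h | h
      · exact h
      · omega
    rw [h4, one_mul] at h3
    rw [hmexp]
    congr 1
    omega
  · intro u' hu'
    have hne : u' ≠ u := fun h => huΩ (h ▸ hu')
    have h1 : (wOf u').valuation L (algebraMap M L (Algebra.norm M (l : L))) = 1 := by
      rw [kSP_valuation_norm]
      refine Finset.prod_eq_one fun σ _ => ?_
      apply hlw'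
      · rw [primeBelow_smul, hwOf]
        exact Finset.mem_insert_of_mem hu'
      · intro h
        apply hne
        have := congrArg (primeBelow M L) h
        rwa [primeBelow_smul, hwOf, hw] at this
    obtain ⟨e, he, h2⟩ := kSP_valuation_algebraMap M L (wOf u') (Algebra.norm M (l : L))
    rw [hwOf, h1] at h2
    exact (pow_eq_one_iff_of_nonneg zero_le he).1 h2.symm

end

end Fermat.Agent.CFT
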