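import Mathlib

/-!
# CFT, S55 global-idelic stream, chunk (GL11), local norm fact (N2)

Abstract form.  `E` a field containing a primitive `p`-th root of unity `ζ`, `p ≠ 0` in `E`;
`R` a commutative `E`-algebra with an action of a cyclic group `G = ⟨σ⟩` of order `p` by
`E`-algebra automorphisms; `t ∈ R` with `t ^ p = 1` and `σ • t = ζ • t`.
Then every `b ∈ E` is a "norm": `b = ∏ g, g • c` for some `c ∈ R`.

Application: `R = K_v ⊗[K] L`, `L = K(θ)`, `θ ^ p = a`, `a = β ^ p` in `K_v`, `t = β⁻¹ ⊗ θ`:
at a place `v` where the Kummer extension `L / K` splits completely every element of `K_vˣ` is a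
norm from `(K_v ⊗ L)ˣ`.
-/

set_option autoImplicit false

namespace Fermat.Agent.CFT

section Abstract

variable {E R G : Type*} [Field E] [CommRing R] [Algebra E R] [Group G] [Fintype G]
  [MulSemiringAction G R] [SMulCommClass G E R]

omit [Fintype G] in
theorem kln_pow_smul_of_smul {σ : G} {ζ : E} {t : R} (hσt : σ • t = ζ • t) (m : ℕ) :
    σ ^ m • t = ζ ^ m • t := by
  induction m with
  | zero => simp
  | succ m ih =>
    rw [pow_succ', mul_smul, ih, smul_comm, hσt, smul_smul, ← pow_succ]

theorem kln_geom_sum_eq_zero {p : ℕ} {ω : E} (hω : ω ^ p = 1) (h1 : ω ≠ 1) :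
    ∑ j ∈ Finset.range p, ω ^ j = 0 := by
  have h := mul_geom_sum ω p
  rw [hω, sub_self] at h
  rcases mul_eq_zero.mp h with h | h
  · exact absurd (sub_eq_zero.mp h) h1
  · exact h

/-- pairwise orthogonal `x m` : `∏ (1 + x m) = 1 + ∑ x m`. -/
theorem kln_prod_one_add {ι : Type*} [DecidableEq ι] (s : Finset ι) (x : ι → R)
    (h : ∀ i ∈ s, ∀ j ∈ s, i ≠ j → x i * x j = 0) :
    ∏ i ∈ s, (1 + x i) = 1 + ∑ i ∈ s, x i := by
  induction s using Finset.induction_on with
  | empty => simp
  | insert a s ha ih =>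
    rw [Finset.prod_insert ha, Finset.sum_insert ha, ih (fun i hi j hj hij =>
      h i (Finset.mem_insert_of_mem hi) j (Finset.mem_insert_of_mem hj) hij)]
    have h0 : x a * ∑ i ∈ s, x i = 0 := by
      rw [Finset.mul_sum]
      refine Finset.sum_eq_zero fun i hi => ?_
      exact h a (Finset.mem_insert_self a s) i (Finset.mem_insert_of_mem hi)
        (fun hai => ha (hai ▸ hi))
    linear_combination h0

/-- **(N2), abstract form.** -/
theorem kln_exists_prod_smul_eq {p : ℕ} (hp : p.Prime) (hcard : Nat.card G = p) {σ : G}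
    (hσ : ∀ τ, τ ∈ Subgroup.zpowers σ) {ζ : E} (hζ : IsPrimitiveRoot ζ p) (hpE : (p : E) ≠ 0)
    {t : R} (ht : t ^ p = 1) (hσt : σ • t = ζ • t) (b : E) :
    ∃ c : R, ∏ g : G, g • c = algebraMap E R b := by
  classical
  -- the elements `s m = ζ^m t` and the idempotents `e m`
  set s : ℕ → R := fun m => ζ ^ m • t with hs
  set e : ℕ → R := fun m => (p : E)⁻¹ • ∑ j ∈ Finset.range p, s m ^ j with he
  have hsp : ∀ m, s m ^ p = 1 := by
    intro m
    simp only [hs]
    rw [smul_pow, ht, ← pow_mul, mul_comm, pow_mul, hζ.pow_eq_one, one_pow, one_smul]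
  have hse : ∀ m, s m * e m = e m := by
    intro m
    simp only [he]
    rw [mul_smul_comm, Finset.mul_sum]
    congr 1
    have h1 : ∀ j, s m * s m ^ j = s m ^ (j + 1) := fun j => (pow_succ' (s m) j).symm
    simp_rw [h1]
    have h2 := Finset.sum_range_succ' (fun j => s m ^ j) p
    have h3 := Finset.sum_range_succ (fun j => s m ^ j) p
    simp only [pow_zero] at h2
    rw [hsp m] at h3
    linear_combination h3 - h2
  have hsje : ∀ m j, s m ^ j * e m = e m := by
    intro m j
    induction j with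
    | zero => simp
    | succ j ih => rw [pow_succ, mul_assoc, hse m, ih]
  -- orthogonality
  have horth : ∀ m ∈ Finset.range p, ∀ m' ∈ Finset.range p, m ≠ m' → e m' * e m = 0 := by
    intro m hm m' hm' hmm'
    set ω : E := ζ ^ m' * (ζ ^ m)⁻¹ with hω
    have hζm0 : ζ ^ m ≠ 0 := pow_ne_zero m (hζ.ne_zero hp.ne_zero)
    have hsm' : s m' = ω • s m := by
      simp only [hs, hω]
      rw [smul_smul, mul_assoc, inv_mul_cancel₀ hζm0, mul_one]
    have hωp : ω ^ p = 1 := by
      rw [hω, mul_pow, inv_pow, ← pow_mul, ← pow_mul, mul_comm m' p, mul_comm m p, pow_mul,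
        pow_mul, hζ.pow_eq_one, one_pow, one_pow, inv_one, mul_one]
    have hω1 : ω ≠ 1 := by
      intro h
      rw [hω, mul_inv_eq_one₀ hζm0] at h
      exact hmm' (hζ.pow_inj (Finset.mem_range.mp hm') (Finset.mem_range.mp hm) h).symm
    have hterm : ∀ j, s m' ^ j * e m = ω ^ j • e m := by
      intro j
      rw [hsm', smul_pow, smul_mul_assoc, hsje m j]
    have : e m' * e m = ((p : E)⁻¹ * ∑ j ∈ Finset.range p, ω ^ j) • e m := by
      conv_lhs => rw [show e m' = (p : E)⁻¹ • ∑ j ∈ Finset.range p, s m' ^ j from rfl]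
      rw [smul_mul_assoc, Finset.sum_mul]
      simp_rw [hterm]
      rw [← Finset.sum_smul, smul_smul]
    rw [this, kln_geom_sum_eq_zero hωp hω1, mul_zero, zero_smul]
  -- the sum of the idempotents
  have hsum : ∑ m ∈ Finset.range p, e m = 1 := by
    have h1 : ∀ m, e m = (p : E)⁻¹ • ∑ j ∈ Finset.range p, ((ζ ^ j) ^ m) • t ^ j := by
      intro m
      simp only [he, hs]
      congr 1
      refine Finset.sum_congr rfl fun j _ => ?_
      rw [smul_pow, ← pow_mul, ← pow_mul, mul_comm]
    simp_rw [h1]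
    rw [← Finset.smul_sum, Finset.sum_comm]
    simp_rw [← Finset.sum_smul]
    have h2 : ∀ j ∈ Finset.range p, (∑ m ∈ Finset.range p, (ζ ^ j) ^ m) • t ^ j =
        if j = 0 then (p : E) • (1 : R) else 0 := by
      intro j hj
      by_cases hj0 : j = 0
      · subst hj0
        simp
      · rw [if_neg hj0]
        have hωp : (ζ ^ j) ^ p = 1 := by
          rw [← pow_mul, mul_comm, pow_mul, hζ.pow_eq_one, one_pow]
        have hω1 : ζ ^ j ≠ 1 :=
          hζ.pow_ne_one_of_pos_of_lt hj0 (Finset.mem_range.mp hj)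
        rw [kln_geom_sum_eq_zero hωp hω1, zero_smul]
    rw [Finset.sum_congr rfl h2, Finset.sum_ite_eq' (Finset.range p) 0]
    rw [if_pos (Finset.mem_range.mpr hp.pos), smul_smul, inv_mul_cancel₀ hpE, one_smul]
  -- the element `c`
  refine ⟨1 + (b - 1) • e 0, ?_⟩
  have hσe : ∀ m, σ ^ m • e 0 = e m := by
    intro m
    simp only [he, hs]
    rw [smul_comm, Finset.smul_sum]
    congr 1
    refine Finset.sum_congr rfl fun j _ => ?_
    rw [pow_zero, one_smul, smul_pow', kln_pow_smul_of_smul hσt m]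
  have hσc : ∀ m, σ ^ m • (1 + (b - 1) • e 0) = 1 + (b - 1) • e m := by
    intro m
    rw [smul_add, smul_one, smul_comm, hσe m]
  -- reindex the product over `G`
  have himg : Finset.image (fun i => σ ^ i) (Finset.range (Nat.card G)) = Finset.univ :=
    IsCyclic.image_range_card hσ
  have hord : orderOf σ = p := by
    rw [orderOf_eq_card_of_forall_mem_zpowers hσ, hcard]
  have hinj : Set.InjOn (fun i => σ ^ i) (Finset.range p : Set ℕ) := by
    intro i hi j hj hij
    have hi' : i < orderOf σ := by rw [hord]; exact Finset.mem_range.mp hi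
    have hj' : j < orderOf σ := by rw [hord]; exact Finset.mem_range.mp hj
    exact pow_injOn_Iio_orderOf hi' hj' hij
  rw [← himg, hcard, Finset.prod_image hinj]
  simp_rw [hσc]
  rw [kln_prod_one_add (Finset.range p) (fun m => (b - 1) • e m)]
  · rw [← Finset.smul_sum, hsum, Algebra.algebraMap_eq_smul_one, sub_smul, one_smul]
    abel
  · intro i hi j hj hij
    rw [smul_mul_smul_comm, horth j hj i hi (Ne.symm hij), smul_zero]

end Abstract

end Fermat.Agent.CFT
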