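import Mathlib
import Fermat.Agent.CFT.Idele.KummerLocalNorm
import Fermat.Agent.CFT.Idele.Base
import Fermat.Agent.CFT.Global.KummerField

/-!
# CFT, S55 global-idelic stream, chunk (GL11), local norm fact (N2), concrete form

`L = K(θ)`, `θ ^ p = a`, cyclic of degree `p` over `K ∋ ζ_p`.  If `a` is a `p`-th power in `K_v`
then every element of `K_vˣ` is a norm from `(K_v ⊗[K] L)ˣ`:
`∏ g : Gal(L/K), g • c = b ⊗ 1`.
-/

set_option autoImplicit false
set_option linter.unusedSectionVars false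
set_option linter.style.haveILetI false

open NumberField IsDedekindDomain
open scoped TensorProduct Fermat.Agent.CFT.TensorGal Fermat.Agent.CFT.IdeleAct

namespace Fermat.Agent.CFT

variable {K L : Type*} [Field K] [NumberField K] [Field L] [NumberField L] [Algebra K L]
  [IsGalois K L]

/-- a generator `σ` of `Gal(L/K)` and a primitive `p`-th root of unity `ζ₁ ∈ K` with
`σ θ = ζ₁ θ`. -/
theorem exists_generator_apply_kummer {p : ℕ} (hp : p.Prime) (hcard : Nat.card Gal(L/K) = p)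
    {ζ : K} (hζ : IsPrimitiveRoot ζ p) {θ : L} {a : K} (hθ : θ ^ p = algebraMap K L a)
    (hθK : θ ∉ Set.range (algebraMap K L)) :
    ∃ (σ : Gal(L/K)) (ζ₁ : K), (∀ τ, τ ∈ Subgroup.zpowers σ) ∧ IsPrimitiveRoot ζ₁ p ∧
      σ θ = algebraMap K L ζ₁ * θ := by
  haveI : NeZero p := ⟨hp.ne_zero⟩
  haveI : Fact p.Prime := ⟨hp⟩
  have hdeg : Module.finrank K L = p := by rw [← IsGalois.card_aut_eq_finrank, hcard]
  haveI : IsCyclic Gal(L/K) := isCyclic_of_prime_card hcard
  obtain ⟨σ, hσ⟩ := IsCyclic.exists_generator (α := Gal(L/K))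
  have hθ0 : θ ≠ 0 := by
    rintro rfl
    exact hθK ⟨0, map_zero _⟩
  have hσ1 : σ ≠ 1 := by
    rintro rfl
    have htop : (⊤ : Subgroup Gal(L/K)) = ⊥ := by
      rw [eq_bot_iff]
      intro τ _
      have := hσ τ
      rwa [Subgroup.zpowers_one_eq_bot] at this
    have h1 : Nat.card Gal(L/K) = 1 := by
      rw [← Subgroup.card_top, htop, Subgroup.card_bot]
    rw [hcard] at h1
    exact hp.one_lt.ne' h1
  have hω : (σ θ / θ) ^ p = 1 := by
    rw [div_pow, ← map_pow, hθ, AlgEquiv.commutes, div_self]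
    rw [← hθ]
    exact pow_ne_zero p hθ0
  have hζL : IsPrimitiveRoot (algebraMap K L ζ) p :=
    hζ.map_of_injective (algebraMap K L).injective
  obtain ⟨i, hi, hiω⟩ := hζL.eq_pow_of_pow_eq_one hω
  have hi0 : i ≠ 0 := by
    rintro rfl
    rw [pow_zero] at hiω
    apply hσ1
    apply eq_one_of_fixes_of_prime_degree hp hdeg hθK σ
    have := hiω.symm
    rwa [div_eq_one_iff_eq hθ0] at this
  refine ⟨σ, ζ ^ i, hσ, ?_, ?_⟩
  · apply hζ.pow_of_coprime
    exact Nat.Coprime.symm ((Nat.Prime.coprime_iff_not_dvd hp).mpr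
      (Nat.not_dvd_of_pos_of_lt (Nat.pos_of_ne_zero hi0) hi))
  · rw [map_pow, hiω, div_mul_cancel₀ _ hθ0]

/-- **(N2)**: at a place where `a` is a `p`-th power every element of `K_vˣ` is a norm from
`(K_v ⊗ L)ˣ`. -/
theorem semiLocal_exists_prod_smul_eq {p : ℕ} (hp : p.Prime) (hcard : Nat.card Gal(L/K) = p)
    {ζ : K} (hζ : IsPrimitiveRoot ζ p) {θ : L} {a : K} (hθ : θ ^ p = algebraMap K L a)
    (hθK : θ ∉ Set.range (algebraMap K L)) (v : HeightOneSpectrum (𝓞 K))
    {β : v.adicCompletion K} (hβ : β ^ p = algebraMap K (v.adicCompletion K) a)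
    (b : (v.adicCompletion K)ˣ) :
    ∃ c : (semiLocal K L v)ˣ, ∏ g : Gal(L/K), g • c =
      Units.map (algebraMap (v.adicCompletion K) (semiLocal K L v) : _ →* _) b := by
  classical
  obtain ⟨σ, ζ₁, hσ, hζ₁, hσθ⟩ := exists_generator_apply_kummer hp hcard hζ hθ hθK
  have hθ0 : θ ≠ 0 := by
    rintro rfl
    exact hθK ⟨0, map_zero _⟩
  have ha0 : a ≠ 0 := by
    rintro rfl
    rw [map_zero] at hθ
    exact hθ0 ((pow_eq_zero_iff hp.ne_zero).mp hθ)
  have haE : algebraMap K (v.adicCompletion K) a ≠ 0 := by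
    rw [Ne, map_eq_zero]; exact ha0
  have hβ0 : β ≠ 0 := by
    rintro rfl
    rw [zero_pow hp.ne_zero] at hβ
    exact haE hβ.symm
  haveI : CharZero (v.adicCompletion K) :=
    charZero_of_injective_algebraMap (algebraMap K (v.adicCompletion K)).injective
  have hpE : ((p : ℕ) : v.adicCompletion K) ≠ 0 := Nat.cast_ne_zero.mpr hp.ne_zero
  have hζE : IsPrimitiveRoot (algebraMap K (v.adicCompletion K) ζ₁) p :=
    hζ₁.map_of_injective (algebraMap K (v.adicCompletion K)).injective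
  set t : semiLocal K L v := β⁻¹ ⊗ₜ[K] θ with ht
  have htp : t ^ p = 1 := by
    have h1 : algebraMap K L a = a • (1 : L) := Algebra.algebraMap_eq_smul_one a
    rw [ht, Algebra.TensorProduct.tmul_pow, hθ, inv_pow, hβ, h1,
      ← TensorProduct.smul_tmul, Algebra.smul_def, mul_inv_cancel₀ haE]
    rfl
  have hσt : σ • t = (algebraMap K (v.adicCompletion K) ζ₁) • t := by
    rw [ht, tensorRight_smul_tmul, TensorProduct.smul_tmul']
    show β⁻¹ ⊗ₜ[K] (σ θ) = _
    rw [hσθ, ← Algebra.smul_def, ← TensorProduct.smul_tmul, Algebra.smul_def, smul_eq_mul]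
  obtain ⟨c, hc⟩ := kln_exists_prod_smul_eq (E := v.adicCompletion K) (R := semiLocal K L v)
    (G := Gal(L/K)) hp hcard hσ hζE hpE htp hσt (b : v.adicCompletion K)
  have hbu : IsUnit (algebraMap (v.adicCompletion K) (semiLocal K L v) (b : v.adicCompletion K)) :=
    b.isUnit.map _
  have hcu : IsUnit c := by
    rw [← hc] at hbu
    have := (IsUnit.prod_univ_iff.mp hbu) 1
    rwa [one_smul] at this
  refine ⟨hcu.unit, Units.ext ?_⟩
  rw [Units.coe_prod, Units.coe_map, MonoidHom.coe_coe, ← hc]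
  refine Finset.prod_congr rfl fun g _ => ?_
  rw [units_smul_val, IsUnit.unit_spec]

end Fermat.Agent.CFT
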