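import Mathlib
import Fermat.Agent.CFT.Local.PowIndex
import Fermat.Agent.CFT.Idele.AdicLocalField
import Fermat.Agent.CFT.Global.WeakApprox

/-!
# CFT, S55 global-idelic stream, chunk (GL11): `p`-th powers and approximation in `K_v`

* `exists_pow_eq_of_mem_unitsCongr` : in a complete DVR `A` with `π ^ e ∼ p`, every unit
  `≡ 1 mod p π^(e+1)` is a `p`-th power (successive approximation, extracted from helper8's
  `index_range_powMonoidHom_units`).
* `adic_exists_pow_eq` : in `K_v`, `|b - 1|_v ≤ exp (-k)`, `2 e_v + 1 ≤ k` ⟹ `b` is a `p`-th power.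
* `adic_exists_valued_sub_lt`, `adic_exists_units_approx` : density of `K` in `K_v`.
* `exists_units_forall_valued_div_sub_one_le` : weak approximation for finitely many completions.
-/

set_option autoImplicit false
set_option linter.unusedSectionVars false

open IsDedekindDomain IsDedekindDomain.HeightOneSpectrum IsLocalRing NumberField
open scoped Valued WithZero
open WithZero

namespace Fermat.Agent.CFT

section DVR

variable {A : Type*} [CommRing A] [IsDomain A] [IsDiscreteValuationRing A]
  [IsAdicComplete (maximalIdeal A) A]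

/-- every unit `≡ 1 mod p π^(e+1)` is a `p`-th power (`π ^ e = w p`). -/
theorem exists_pow_eq_of_mem_unitsCongr {p : ℕ} (hp : p.Prime) {π w : A} (hπ : Irreducible π)
    {e : ℕ} (hπe : π ^ e = w * (p : A)) (y : Aˣ)
    (hy : y ∈ unitsCongr (Ideal.span {(p : A) * π ^ (e + 1)})) : ∃ x : Aˣ, x ^ p = y := by
  classical
  have hm : maximalIdeal A = Ideal.span {π} := hπ.maximalIdeal_eq
  have hπmem : π ∈ maximalIdeal A := hm ▸ Ideal.mem_span_singleton_self π
  have hmpow : ∀ i, maximalIdeal A ^ i = Ideal.span {π ^ i} := fun i => by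
    rw [hm, Ideal.span_singleton_pow]
  set m := e + 1 with hm_def
  set ψ : Aˣ →* Aˣ := powMonoidHom p with hψ
  have hψval : ∀ x : Aˣ, ((ψ x : Aˣ) : A) = (x : A) ^ p := fun x => by
    rw [hψ, powMonoidHom_apply, Units.val_pow_eq_pow_val]
  have key : ∀ n, m ≤ n → ∀ a : A, ∃ b : A,
      (1 + a * π ^ n) ^ p = 1 + ((p : A) * π ^ n) * a * (1 + π * b) :=
    fun n hn a => exists_one_add_mul_pow_prime_eq hp hπe hn a
  have hmemV : ∀ n (x : Aˣ), x ∈ unitsCongr (Ideal.span {π ^ n}) →
      ∃ a, (x : A) = 1 + a * π ^ n := by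
    intro n x hx
    obtain ⟨a, ha⟩ := Ideal.mem_span_singleton'.mp (mem_unitsCongr.mp hx)
    exact ⟨a, by rw [ha]; ring⟩
  have hmapn : ∀ n, m ≤ n → ∀ x ∈ unitsCongr (Ideal.span {π ^ n}),
      ψ x ∈ unitsCongr (Ideal.span {(p : A) * π ^ n}) := by
    intro n hn x hx
    obtain ⟨a, ha⟩ := hmemV n x hx
    obtain ⟨b, hb⟩ := key n hn a
    rw [mem_unitsCongr, hψval, ha, hb, add_sub_cancel_left]
    exact Ideal.mem_span_singleton'.mpr ⟨a * (1 + π * b), by ring⟩
  have hmap : ∀ i, ∀ x ∈ (fun i => unitsCongr (Ideal.span {π ^ (m + i)})) i,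
      ψ x ∈ (fun i => unitsCongr (Ideal.span {(p : A) * π ^ (m + i)})) i :=
    fun i x hx => hmapn (m + i) (Nat.le_add_right m i) x hx
  have hgr : ∀ i, ∀ y ∈ (fun i => unitsCongr (Ideal.span {(p : A) * π ^ (m + i)})) i,
      ∃ x ∈ (fun i => unitsCongr (Ideal.span {π ^ (m + i)})) i,
        y / ψ x ∈ (fun i => unitsCongr (Ideal.span {(p : A) * π ^ (m + i)})) (i + 1) := by
    intro i y hy
    obtain ⟨c, hc⟩ := Ideal.mem_span_singleton'.mp (mem_unitsCongr.mp hy)
    have hpow_mem : π ^ (m + i) ∈ maximalIdeal A :=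
      Ideal.pow_le_self (by omega) (hmpow (m + i) ▸ Ideal.mem_span_singleton_self _)
    have hxu : IsUnit (1 + π ^ (m + i) * c) := isUnit_one_add_mul_of_mem hpow_mem c
    obtain ⟨b, hb⟩ := key (m + i) (Nat.le_add_right m i) c
    refine ⟨hxu.unit, ?_, ?_⟩
    · change hxu.unit ∈ unitsCongr (Ideal.span {π ^ (m + i)})
      rw [mem_unitsCongr, IsUnit.unit_spec, add_sub_cancel_left]
      exact Ideal.mem_span_singleton'.mpr ⟨c, mul_comm _ _⟩
    · change y / ψ hxu.unit ∈ unitsCongr (Ideal.span {(p : A) * π ^ (m + (i + 1))})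
      rw [div_mem_unitsCongr, hψval, IsUnit.unit_spec, mul_comm (π ^ (m + i)) c, hb,
        Ideal.mem_span_singleton']
      refine ⟨-(c * b), ?_⟩
      have hpow : π ^ (m + (i + 1)) = π ^ (m + i) * π := by
        rw [← Nat.add_assoc, pow_succ]
      rw [hpow]
      linear_combination hc
  have hcomplete : ∀ P : ℕ → Aˣ,
      (∀ i, P (i + 1) / P i ∈ (fun i => unitsCongr (Ideal.span {π ^ (m + i)})) i) →
      ∃ z : Aˣ, ∀ i, z / P i ∈ (fun i => unitsCongr (Ideal.span {π ^ (m + i)})) i := by
    intro P hP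
    simp only [← hmpow] at hP ⊢
    exact exists_unit_limit_shift m P hP
  have hsep : ∀ y : Aˣ,
      (∀ i, y ∈ (fun i => unitsCongr (Ideal.span {(p : A) * π ^ (m + i)})) i) → y = 1 := by
    intro y hy
    apply eq_one_of_forall_mem_unitsCongr
    intro i
    refine unitsCongr_mono ?_ (hy i)
    rw [hmpow, Ideal.span_singleton_le_span_singleton]
    exact ⟨(p : A) * π ^ m, by ring⟩
  obtain ⟨z, -, hzy⟩ := exists_mem_preimage_of_filtration ψ
    (fun i => unitsCongr (Ideal.span {π ^ (m + i)}))
    (fun i => unitsCongr (Ideal.span {(p : A) * π ^ (m + i)})) hmap hgr hcomplete hsep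
    (y := y) hy
  exact ⟨z, hzy⟩

end DVR

section Adic

variable (K : Type*) [Field K] [NumberField K] (v : HeightOneSpectrum (𝓞 K))

/-- `|b - 1|_v ≤ exp (-k)` with `2 e_v + 1 ≤ k` implies that `b` is a `p`-th power in `K_v`. -/
theorem adic_exists_pow_eq {p : ℕ} (hp : p.Prime) {e k : ℕ}
    (he : v.valuation K (p : K) = exp (-(e : ℤ))) (hk : 2 * e + 1 ≤ k)
    (b : v.adicCompletion K) (hb : Valued.v (b - 1) ≤ exp (-(k : ℤ))) :
    ∃ d : v.adicCompletion K, d ^ p = b := by
  have := adicLF_isAdicComplete K v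
  have hb1 : Valued.v (b - 1) < 1 := by
    refine lt_of_le_of_lt hb ?_
    rw [← exp_zero, exp_lt_exp]
    omega
  have hbv : Valued.v b = 1 := by
    have h1 : b = (b - 1) + 1 := by ring
    rw [h1, Valuation.map_add_eq_of_lt_right]
    · exact map_one _
    · rw [map_one]; exact hb1
  have hbA : b ∈ v.adicCompletionIntegers K :=
    (mem_adicCompletionIntegers (𝓞 K) K v).mpr hbv.le
  have hbu : IsUnit (⟨b, hbA⟩ : v.adicCompletionIntegers K) :=
    adicCompletionIntegers.isUnit_iff_valued_eq_one.mpr hbv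
  obtain ⟨π, hπ⟩ := IsDiscreteValuationRing.exists_irreducible (v.adicCompletionIntegers K)
  have hπv : Valued.v (π : v.adicCompletion K) = exp (-1 : ℤ) := adicLF_valued_irreducible K v hπ
  have hpv : Valued.v ((p : v.adicCompletion K)) = exp (-(e : ℤ)) := by
    have h := adicLF_valued_algebraMap K v (p : K)
    rw [map_natCast] at h
    rw [h, he]
  have hpA : ((p : ℕ) : v.adicCompletionIntegers K) ≠ 0 := by
    intro h
    have h1 : ((p : v.adicCompletionIntegers K) : v.adicCompletion K) = 0 := by rw [h]; rfl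
    rw [show ((p : v.adicCompletionIntegers K) : v.adicCompletion K) = (p : v.adicCompletion K)
      from rfl] at h1
    rw [h1, map_zero] at hpv
    exact exp_ne_zero hpv.symm
  obtain ⟨n, u, hu⟩ := IsDiscreteValuationRing.eq_unit_mul_pow_irreducible hpA hπ
  have hu1 : Valued.v ((u : v.adicCompletionIntegers K) : v.adicCompletion K) = 1 :=
    adicCompletionIntegers.isUnit_iff_valued_eq_one.mp u.isUnit
  have hne : n = e := by
    have h1 := congrArg (fun x : v.adicCompletionIntegers K => Valued.v (x : v.adicCompletion K)) hu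
    beta_reduce at h1
    rw [show ((p : v.adicCompletionIntegers K) : v.adicCompletion K) = (p : v.adicCompletion K)
      from rfl, hpv] at h1
    have h2 : (((u : v.adicCompletionIntegers K) * π ^ n : v.adicCompletionIntegers K) :
        v.adicCompletion K) = ((u : v.adicCompletionIntegers K) : v.adicCompletion K) *
          (π : v.adicCompletion K) ^ n := by
      push_cast
      rfl
    rw [h2, map_mul, hu1, one_mul, map_pow, hπv, ← exp_nsmul, exp_inj] at h1
    have : (-(e : ℤ)) = -(n : ℤ) := by simpa using h1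
    omega
  subst hne
  have hπe : π ^ n = ((u⁻¹ : (v.adicCompletionIntegers K)ˣ) : v.adicCompletionIntegers K) *
      ((p : ℕ) : v.adicCompletionIntegers K) := by
    rw [hu, ← mul_assoc, ← Units.val_mul]; simp
  -- membership
  have hmem : hbu.unit ∈ unitsCongr (Ideal.span
      {((p : ℕ) : v.adicCompletionIntegers K) * π ^ (n + 1)}) := by
    rw [mem_unitsCongr, IsUnit.unit_spec, Ideal.mem_span_singleton']
    set t : v.adicCompletion K := (p : v.adicCompletion K) * (π : v.adicCompletion K) ^ (n + 1)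
      with ht
    have htv : Valued.v t = exp (-((2 * n + 1 : ℕ) : ℤ)) := by
      rw [ht, map_mul, map_pow, hpv, hπv, ← exp_nsmul, ← exp_add]
      congr 1
      push_cast
      ring
    have ht0 : t ≠ 0 := by
      intro h
      rw [h, map_zero] at htv
      exact exp_ne_zero htv.symm
    have hq : Valued.v ((b - 1) / t) ≤ 1 := by
      rw [map_div₀, htv]
      rw [div_le_iff₀ (by rw [zero_lt_iff]; exact exp_ne_zero), one_mul]
      refine hb.trans ?_
      rw [exp_le_exp]
      push_cast
      omega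
    refine ⟨⟨(b - 1) / t, (mem_adicCompletionIntegers (𝓞 K) K v).mpr hq⟩, ?_⟩
    apply Subtype.ext
    show (b - 1) / t * (((p : ℕ) : v.adicCompletionIntegers K) * π ^ (n + 1) :
      v.adicCompletionIntegers K) = b - 1
    have h3 : ((((p : ℕ) : v.adicCompletionIntegers K) * π ^ (n + 1) :
        v.adicCompletionIntegers K) : v.adicCompletion K) = t := by
      rw [ht]
      push_cast
      rfl
    rw [h3, div_mul_cancel₀ _ ht0]
  obtain ⟨x, hx⟩ := exists_pow_eq_of_mem_unitsCongr hp hπ hπe hbu.unit hmem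
  refine ⟨((x : v.adicCompletionIntegers K) : v.adicCompletion K), ?_⟩
  have h4 := congrArg (fun y : (v.adicCompletionIntegers K)ˣ =>
    ((y : v.adicCompletionIntegers K) : v.adicCompletion K)) hx
  simp only [Units.val_pow_eq_pow_val, IsUnit.unit_spec] at h4
  exact_mod_cast h4

/-- `K` is dense in `K_v`, quantitatively. -/
theorem adic_exists_valued_sub_lt (y : v.adicCompletion K) {γ : ℤᵐ⁰} (hγ : γ ≠ 0) :
    ∃ x : K, Valued.v (y - algebraMap K (v.adicCompletion K) x) < γ := by
  obtain ⟨c, hc⟩ := valuedAdicCompletion_surjective K v γ⁻¹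
  have hopen : IsOpen {z : v.adicCompletion K | Valued.v (c * (z - y)) < 1} :=
    (adicLF_isOpen_ball K v).preimage (continuous_const.mul (continuous_id.sub continuous_const))
  obtain ⟨x, hx⟩ := (denseRange_algebraMap K v).exists_mem_open hopen ⟨y, by simp⟩
  refine ⟨x, ?_⟩
  have hx' : Valued.v (c * (algebraMap K (v.adicCompletion K) x - y)) < 1 := hx
  rw [map_mul, hc, inv_mul_lt_iff₀ (zero_lt_iff.mpr hγ), mul_one] at hx'
  rwa [Valuation.map_sub_swap]

/-- approximation of units of `K_v` by units of `K`. -/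
theorem adic_exists_units_approx (y : (v.adicCompletion K)ˣ) (k : ℕ) :
    ∃ x : Kˣ, Valued.v ((y : v.adicCompletion K) / algebraMap K (v.adicCompletion K) (x : K) - 1) ≤
      exp (-(k : ℤ)) := by
  have hy0 : Valued.v (y : v.adicCompletion K) ≠ 0 := (Valuation.ne_zero_iff _).mpr y.ne_zero
  have hγ : Valued.v (y : v.adicCompletion K) * exp (-(k : ℤ)) ≠ 0 :=
    mul_ne_zero hy0 exp_ne_zero
  obtain ⟨x, hx⟩ := adic_exists_valued_sub_lt K v (y : v.adicCompletion K) hγ
  have hle : Valued.v (y : v.adicCompletion K) * exp (-(k : ℤ)) ≤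
      Valued.v (y : v.adicCompletion K) := by
    calc Valued.v (y : v.adicCompletion K) * exp (-(k : ℤ))
        ≤ Valued.v (y : v.adicCompletion K) * 1 := by
          refine mul_le_mul_right ?_ _
          rw [← exp_zero, exp_le_exp]
          omega
      _ = _ := mul_one _
  have hlt : Valued.v ((y : v.adicCompletion K) - algebraMap K (v.adicCompletion K) x) <
      Valued.v (y : v.adicCompletion K) := lt_of_lt_of_le hx hle
  have hxv : Valued.v (algebraMap K (v.adicCompletion K) x) = Valued.v (y : v.adicCompletion K) := by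
    have h1 : algebraMap K (v.adicCompletion K) x =
        (y : v.adicCompletion K) - ((y : v.adicCompletion K) - algebraMap K (v.adicCompletion K) x) := by
      ring
    rw [h1]
    exact Valuation.map_sub_eq_of_lt_left _ hlt
  have hx0 : x ≠ 0 := by
    rintro rfl
    rw [map_zero, map_zero] at hxv
    exact hy0 hxv.symm
  refine ⟨Units.mk0 x hx0, ?_⟩
  rw [Units.val_mk0]
  have hxK0 : algebraMap K (v.adicCompletion K) x ≠ 0 := by
    rw [Ne, map_eq_zero]; exact hx0
  have h2 : (y : v.adicCompletion K) / algebraMap K (v.adicCompletion K) x - 1 =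
      ((y : v.adicCompletion K) - algebraMap K (v.adicCompletion K) x) /
        algebraMap K (v.adicCompletion K) x := by
    field_simp
  rw [h2, map_div₀, hxv, div_le_iff₀ (zero_lt_iff.mpr hy0), mul_comm]
  exact hx.le

end Adic

section Global

variable (K : Type*) [Field K] [NumberField K]

/-- **weak approximation for finitely many completions**: units `y v ∈ K_vˣ` (`v ∈ S`) are
simultaneously approximated, multiplicatively, by one `x ∈ Kˣ`. -/
theorem exists_units_forall_valued_div_sub_one_le (S : Finset (HeightOneSpectrum (𝓞 K)))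
    (y : ∀ v : HeightOneSpectrum (𝓞 K), (v.adicCompletion K)ˣ) {k : ℕ} (hk : 1 ≤ k) :
    ∃ x : Kˣ, ∀ v ∈ S, Valued.v ((y v : v.adicCompletion K) /
      algebraMap K (v.adicCompletion K) (x : K) - 1) ≤ exp (-(k : ℤ)) := by
  choose x₀ hx₀ using fun v : HeightOneSpectrum (𝓞 K) => adic_exists_units_approx K v (y v) k
  obtain ⟨z, hz⟩ := exists_units_forall_valuation_div_sub_one_le (R := 𝓞 K) K S x₀ k
  refine ⟨z, fun v hv => ?_⟩
  set a : v.adicCompletion K := (y v : v.adicCompletion K) /
    algebraMap K (v.adicCompletion K) (x₀ v : K) with ha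
  set c : v.adicCompletion K := algebraMap K (v.adicCompletion K) ((z : K) / (x₀ v : K)) with hc
  have hε : exp (-(k : ℤ)) < (1 : ℤᵐ⁰) := by
    rw [← exp_zero, exp_lt_exp]
    omega
  have hc1 : Valued.v (c - 1) ≤ exp (-(k : ℤ)) := by
    have h1 : c - 1 = algebraMap K (v.adicCompletion K) ((z : K) / (x₀ v : K) - 1) := by
      rw [hc, map_sub, map_one]
    rw [h1, adicLF_valued_algebraMap]
    exact hz v hv
  have hcv : Valued.v c = 1 := by
    have h1 : c = (c - 1) + 1 := by ring
    rw [h1, Valuation.map_add_eq_of_lt_right]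
    · exact map_one _
    · rw [map_one]; exact lt_of_le_of_lt hc1 hε
  have hc0 : c ≠ 0 := by
    intro h
    rw [h, map_zero] at hcv
    exact zero_ne_one hcv
  have hx₀0 : algebraMap K (v.adicCompletion K) (x₀ v : K) ≠ 0 := by
    rw [Ne, map_eq_zero]; exact (x₀ v).ne_zero
  have hz0 : algebraMap K (v.adicCompletion K) (z : K) ≠ 0 := by
    rw [Ne, map_eq_zero]; exact z.ne_zero
  have h2 : (y v : v.adicCompletion K) / algebraMap K (v.adicCompletion K) (z : K) - 1 =
      ((a - 1) - (c - 1)) / c := by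
    rw [ha, hc, map_div₀]
    field_simp
    ring
  rw [h2, map_div₀, hcv, div_one]
  exact (Valuation.map_sub _ _ _).trans (max_le (hx₀ v) hc1)

end Global

end Fermat.Agent.CFT
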