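import Mathlib
import Fermat.Agent.CFT.Idele.SecondIneqCore
import Fermat.Agent.CFT.Idele.KummerSplitNorm
import Fermat.Agent.CFT.Idele.LocalPow
import Fermat.Agent.CFT.Idele.Base
import Fermat.Agent.CFT.Global.LemmaBIdeals

/-!
# CFT, S55 global-idelic stream, chunk (GL11b): the idelic second inequality

`K ∋ ζ_p` a number field, `p` odd, `L / K` Galois of degree `p`.  Assume (contract (N1) = (GL7))
that outside a finite set `Bram` of primes of `K` every local unit `u ∈ O_vˣ` is the norm of a
unit of `O_{L,v}`.  Then `[J_K : Kˣ · N J_L] ≤ p`.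
-/

set_option autoImplicit false
set_option linter.unusedSectionVars false
set_option linter.style.haveILetI false

open NumberField IsDedekindDomain IsDedekindDomain.HeightOneSpectrum
open scoped TensorProduct Fermat.Agent.CFT.TensorGal Fermat.Agent.CFT.IdeleAct Valued WithZero
open WithZero

namespace Fermat.Agent.CFT

section Abstract

/-- index bound from a surjection modulo `Q` which kills `H`. -/
theorem index_le_of_surj_of_le {G₁ J : Type*} [Group G₁] [CommGroup J] (Q : Subgroup J)
    (H : Subgroup G₁) (f : G₁ →* J) (hsurj : ∀ y : J, ∃ x : G₁, y / f x ∈ Q)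
    (hkill : ∀ x ∈ H, f x ∈ Q) (hH : H.index ≠ 0) : Q.index ≠ 0 ∧ Q.index ≤ H.index := by
  set g : G₁ →* J ⧸ Q := (QuotientGroup.mk' Q).comp f with hg
  have hgsurj : Function.Surjective g := by
    intro q
    induction q using QuotientGroup.induction_on with
    | H y =>
      obtain ⟨x, hx⟩ := hsurj y
      refine ⟨x, ?_⟩
      rw [hg, MonoidHom.comp_apply, QuotientGroup.mk'_apply, QuotientGroup.eq]
      have : (f x)⁻¹ * y = y / f x := by rw [div_eq_mul_inv, mul_comm]
      rw [this]
      exact hx
  have hker : H ≤ g.ker := by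
    intro x hx
    rw [MonoidHom.mem_ker, hg, MonoidHom.comp_apply, QuotientGroup.mk'_apply,
      QuotientGroup.eq_one_iff]
    exact hkill x hx
  have h1 : g.ker.index = Q.index := by
    rw [Subgroup.index_ker, MonoidHom.range_eq_top.mpr hgsurj, Subgroup.card_top]
    rfl
  have h2 : g.ker.index ∣ H.index := Subgroup.index_dvd_of_le hker
  rw [h1] at h2
  exact ⟨fun h0 => hH (by rw [h0] at h2; exact zero_dvd_iff.mp h2),
    Nat.le_of_dvd (Nat.pos_of_ne_zero hH) h2⟩

end Abstract

section DivLemma

open FractionalIdeal nonZeroDivisors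

variable {R : Type*} [CommRing R] [IsDedekindDomain R]
variable (F : Type*) [Field F] [Algebra R F] [IsFractionRing R F]

/-- an element with prescribed valuations outside `S`, when `S` generates the class group. -/
theorem exists_valuation_eq_of_div (S : Finset (HeightOneSpectrum R))
    (hS : ∀ C : ClassGroup R, ∃ D : HeightOneSpectrum R →₀ ℤ, D.support ⊆ S ∧ divClass D = C)
    (D₀ : HeightOneSpectrum R →₀ ℤ) :
    ∃ c : Fˣ, ∀ v : HeightOneSpectrum R, v ∉ S → v.valuation F (c : F) = exp (-(D₀ v)) := by
  obtain ⟨D, hDS, hD⟩ := hS (divClass D₀)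
  set X : (FractionalIdeal R⁰ F)ˣ := divUnit F D₀ * (divUnit F D)⁻¹ with hX
  have h1 : ClassGroup.mk F X = 1 := by
    rw [hX, map_mul, map_inv, mk_divUnit, mk_divUnit, hD, mul_inv_cancel]
  rw [ClassGroup.mk_eq_one_iff] at h1
  obtain ⟨x, hx⟩ := h1.principal
  have hx' : (X : FractionalIdeal R⁰ F) = spanSingleton R⁰ x := by
    apply Subtype.coe_injective
    simp only [val_eq_coe, hx, coe_spanSingleton]
  have hx0 : x ≠ 0 := by
    intro h0
    apply Units.ne_zero X
    rw [hx', h0, spanSingleton_zero]
  refine ⟨Units.mk0 x hx0, fun v hv => ?_⟩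
  have h2 : count F v (X : FractionalIdeal R⁰ F) = D₀ v - D v := by
    rw [hX, Units.val_mul, count_mul F v (Units.ne_zero _) (Units.ne_zero _),
      Units.val_inv_eq_inv_val, count_inv, count_divUnit, count_divUnit]
    ring
  have hDv : D v = 0 := Finsupp.notMem_support_iff.mp (fun h => hv (hDS h))
  rw [hx', Fermat.Agent.S20.count_spanSingleton v hx0, hDv, sub_zero] at h2
  rw [Units.val_mk0, ← h2, neg_neg, exp_log ((Valuation.ne_zero_iff _).mpr hx0)]

end DivLemma

section Constructions

variable (K L : Type*) [Field K] [NumberField K] [Field L] [NumberField L] [Algebra K L]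

open scoped Classical in
/-- the idele of `K` with components `y v` for `v ∈ S` and `1` elsewhere, as a homomorphism. -/
noncomputable def baseFinsetIdele (S : Finset (HeightOneSpectrum (𝓞 K))) :
    (∀ v : HeightOneSpectrum (𝓞 K), (v.adicCompletion K)ˣ) →* baseIdeleGroup K where
  toFun y := ⟨fun v => if v ∈ S then y v else 1, by
    rw [mem_baseIdeleGroup_iff, Filter.eventually_cofinite]
    refine S.finite_toSet.subset fun v hv => ?_
    by_contra hvS
    apply hv
    show (if v ∈ S then y v else 1) ∈ baseLocalUnits K v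
    rw [if_neg (by simpa using hvS)]
    exact one_mem _⟩
  map_one' := by
    apply Subtype.ext
    funext v
    show (if v ∈ S then (1 : (v.adicCompletion K)ˣ) else 1) = 1
    rw [ite_self]
  map_mul' y y' := by
    apply Subtype.ext
    funext v
    show (if v ∈ S then y v * y' v else 1) =
      (if v ∈ S then y v else 1) * (if v ∈ S then y' v else 1)
    split_ifs <;> simp

open scoped Classical in
variable {K} in
theorem baseFinsetIdele_apply_of_mem {S : Finset (HeightOneSpectrum (𝓞 K))}
    (y : ∀ v : HeightOneSpectrum (𝓞 K), (v.adicCompletion K)ˣ) {v : HeightOneSpectrum (𝓞 K)}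
    (hv : v ∈ S) : (baseFinsetIdele K S y).1 v = y v := by
  show (if v ∈ S then y v else 1) = y v
  rw [if_pos hv]

open scoped Classical in
variable {K} in
theorem baseFinsetIdele_apply_of_notMem {S : Finset (HeightOneSpectrum (𝓞 K))}
    (y : ∀ v : HeightOneSpectrum (𝓞 K), (v.adicCompletion K)ˣ) {v : HeightOneSpectrum (𝓞 K)}
    (hv : v ∉ S) : (baseFinsetIdele K S y).1 v = 1 := by
  show (if v ∈ S then y v else 1) = 1
  rw [if_neg hv]

/-- an idele of `L` from components which are integral units outside a finite set. -/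
noncomputable def mkIdele (c : ∀ v : HeightOneSpectrum (𝓞 K), (semiLocal K L v)ˣ)
    (S' : Finset (HeightOneSpectrum (𝓞 K)))
    (h : ∀ v, v ∉ S' → c v ∈ semiLocalUnits K L v) : ideleGroup K L :=
  ⟨c, by
    rw [mem_ideleGroup_iff, Filter.eventually_cofinite]
    refine S'.finite_toSet.subset fun v hv => ?_
    by_contra hvS
    exact hv (h v hvS)⟩

variable {K L} in
/-- componentwise criterion for the idele norm. -/
theorem ideleNorm_eq_of_forall [IsGalois K L] (c : ideleGroup K L) (y : baseIdeleGroup K)
    (h : ∀ v, ∏ g : Gal(L/K), g • (c.1 v) =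
      Units.map (algebraMap (v.adicCompletion K) (semiLocal K L v) : _ →* _) (y.1 v)) :
    ideleNorm K L c = y := by
  apply baseToIdele_injective K L
  rw [baseToIdele_ideleNorm]
  apply Subtype.ext
  funext v
  rw [baseToIdele_apply, ← h v, Subgroup.val_finsetProd, Finset.prod_apply]
  rfl

end Constructions

section Main

theorem le_exp_neg_one_of_lt_one {x : ℤᵐ⁰} (h : x < 1) : x ≤ exp (-1 : ℤ) := by
  by_cases hx : x = 0
  · rw [hx]; exact zero_le
  · rw [← exp_log hx] at h ⊢
    rw [← exp_zero, exp_lt_exp] at h
    rw [exp_le_exp]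
    omega

variable {K L : Type} [Field K] [NumberField K] [Field L] [NumberField L] [Algebra K L]
  [IsGalois K L]

/-- **The idelic second inequality** `[J_K : Kˣ · N J_L] ≤ p` for `L / K` cyclic of odd prime
degree `p`, `ζ_p ∈ K`, assuming that outside the finite set `Bram` local units are norms of
local units ((N1) = (GL7)). -/
theorem index_diagBase_sup_ideleNorm_le {p : ℕ} (hp : p.Prime) (hp2 : p ≠ 2)
    {ζ : K} (hζ : IsPrimitiveRoot ζ p) (hcard : Nat.card Gal(L/K) = p)
    (Bram : Finset (HeightOneSpectrum (𝓞 K)))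
    (hN1 : ∀ v : HeightOneSpectrum (𝓞 K), v ∉ Bram → ∀ u ∈ baseLocalUnits K v,
      ∃ c ∈ semiLocalUnits K L v, ∏ g : Gal(L/K), g • c =
        Units.map (algebraMap (v.adicCompletion K) (semiLocal K L v) : _ →* _) u) :
    ((diagBase K).range ⊔ (ideleNorm K L).range).index ≠ 0 ∧
      ((diagBase K).range ⊔ (ideleNorm K L).range).index ≤ p := by
  classical
  obtain ⟨a, θ, S, T, k, hθ, hθK, hBS, hSp, hSa, hS, hST, hTa, hkS, hidx0, hidxle, hkdef⟩ :=
    exists_secondIneq_core (F := K) (M := L) hp hp2 hζ hcard Bram
  set Q : Subgroup (baseIdeleGroup K) := (diagBase K).range ⊔ (ideleNorm K L).range with hQ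
  have hPQ : ∀ x : Kˣ, diagBase K x ∈ Q := fun x => Subgroup.mem_sup_left ⟨x, rfl⟩
  have hNQ : ∀ c : ideleGroup K L, ideleNorm K L c ∈ Q := fun c =>
    Subgroup.mem_sup_right ⟨c, rfl⟩
  have hpowQ : ∀ y : baseIdeleGroup K, y ^ p ∈ Q := by
    intro y
    have h1 := ideleNorm_baseToIdele (L := L) y
    rw [hcard] at h1
    rw [← h1]
    exact hNQ _
  -- local exponents
  have he : ∀ v : HeightOneSpectrum (𝓞 K), v.valuation K (p : K) = exp (-(natOrdAt v p : ℤ)) :=
    fun v => valuation_natCast_eq_exp v hp.ne_zero
  have hke : ∀ v : HeightOneSpectrum (𝓞 K), 2 * natOrdAt v p + 1 ≤ k v := by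
    intro v
    rw [hkdef v]
    have := hp.two_le
    nlinarith
  have hk1 : ∀ v : HeightOneSpectrum (𝓞 K), 1 ≤ k v := fun v => le_trans (by omega) (hke v)
  have hHensel : ∀ (v : HeightOneSpectrum (𝓞 K)) (b : v.adicCompletion K),
      Valued.v (b - 1) ≤ exp (-(k v : ℤ)) → ∃ d : v.adicCompletion K, d ^ p = b :=
    fun v b hb => adic_exists_pow_eq K v hp (he v) (hke v) b hb
  -- units version
  have hHenselU : ∀ (v : HeightOneSpectrum (𝓞 K)) (b : (v.adicCompletion K)ˣ),
      Valued.v ((b : v.adicCompletion K) - 1) ≤ exp (-(k v : ℤ)) →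
        ∃ d : (v.adicCompletion K)ˣ, d ^ p = b := by
    intro v b hb
    obtain ⟨d, hd⟩ := hHensel v b hb
    have hd0 : d ≠ 0 := by
      rintro rfl
      rw [zero_pow hp.ne_zero] at hd
      exact b.ne_zero hd.symm
    exact ⟨Units.mk0 d hd0, Units.ext (by simpa using hd)⟩
  -- the map `j_S`
  set emb : Kˣ →* (∀ v : HeightOneSpectrum (𝓞 K), (v.adicCompletion K)ˣ) :=
    MonoidHom.pi fun v => Units.map (algebraMap K (v.adicCompletion K) : K →* v.adicCompletion K)
    with hemb
  set jS : Kˣ →* baseIdeleGroup K := (baseFinsetIdele K S).comp emb with hjS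
  have hjS_mem : ∀ (x : Kˣ) (v : HeightOneSpectrum (𝓞 K)), v ∈ S → (jS x).1 v =
      Units.map (algebraMap K (v.adicCompletion K) : K →* v.adicCompletion K) x := by
    intro x v hv
    exact baseFinsetIdele_apply_of_mem (emb x) hv
  have hjS_notMem : ∀ (x : Kˣ) (v : HeightOneSpectrum (𝓞 K)), v ∉ S → (jS x).1 v = 1 := by
    intro x v hv
    exact baseFinsetIdele_apply_of_notMem (emb x) hv
  refine (fun h => ⟨h.1, h.2.trans hidxle⟩) (index_le_of_surj_of_le Q _ jS ?_ ?_ hidx0)
  · -- surjectivity
    intro y
    -- (a) the divisor of `y`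
    have hyfin : (Function.support fun v : HeightOneSpectrum (𝓞 K) =>
        -log (Valued.v ((y.1 v : (v.adicCompletion K)ˣ) : v.adicCompletion K))).Finite := by
      have hy2 : ∀ᶠ v in Filter.cofinite, y.1 v ∈ baseLocalUnits K v := y.2
      rw [Filter.eventually_cofinite] at hy2
      refine hy2.subset fun v hv => ?_
      rw [Function.mem_support] at hv
      intro h
      apply hv
      rw [(mem_baseLocalUnits_iff _).mp h, log_one, neg_zero]
    set D₀ : HeightOneSpectrum (𝓞 K) →₀ ℤ := Finsupp.ofSupportFinite _ hyfin with hD₀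
    obtain ⟨x₁, hx₁⟩ := exists_valuation_eq_of_div (R := 𝓞 K) K S hS D₀
    have hD₀v : ∀ v : HeightOneSpectrum (𝓞 K), exp (-(D₀ v)) =
        Valued.v ((y.1 v : (v.adicCompletion K)ˣ) : v.adicCompletion K) := by
      intro v
      rw [hD₀, Finsupp.ofSupportFinite_coe, neg_neg, exp_log]
      exact (Valuation.ne_zero_iff _).mpr (y.1 v).ne_zero
    -- (b) `y₁ = y / x₁` is a unit outside `S`
    set y₁ : baseIdeleGroup K := y / diagBase K x₁ with hy₁
    have hy₁v : ∀ v, y₁.1 v = y.1 v /
        Units.map (algebraMap K (v.adicCompletion K) : K →* v.adicCompletion K) x₁ := fun v => rfl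
    have hy₁u : ∀ v : HeightOneSpectrum (𝓞 K), v ∉ S → y₁.1 v ∈ baseLocalUnits K v := by
      intro v hv
      rw [mem_baseLocalUnits_iff, hy₁v, Units.val_div_eq_div_val, map_div₀, Units.coe_map,
        MonoidHom.coe_coe, adicLF_valued_algebraMap, hx₁ v hv, hD₀v v]
      exact div_self ((Valuation.ne_zero_iff _).mpr (y.1 v).ne_zero)
    -- (c) the part of `y₁` outside `S` is a norm
    set y₃ : baseIdeleGroup K := baseFinsetIdele K S y₁.1 with hy₃
    set Y₂ : baseIdeleGroup K := y₁ / y₃ with hY₂
    have hY₂S : ∀ v ∈ S, Y₂.1 v = 1 := by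
      intro v hv
      have : Y₂.1 v = y₁.1 v / y₃.1 v := rfl
      rw [this, hy₃, baseFinsetIdele_apply_of_mem y₁.1 hv, div_self']
    have hY₂nS : ∀ v, v ∉ S → Y₂.1 v = y₁.1 v := by
      intro v hv
      have : Y₂.1 v = y₁.1 v / y₃.1 v := rfl
      rw [this, hy₃, baseFinsetIdele_apply_of_notMem y₁.1 hv, div_one]
    have hloc : ∀ v : HeightOneSpectrum (𝓞 K), ∃ c : (semiLocal K L v)ˣ,
        c ∈ semiLocalUnits K L v ∧ ∏ g : Gal(L/K), g • c =
          Units.map (algebraMap (v.adicCompletion K) (semiLocal K L v) : _ →* _) (Y₂.1 v) := by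
      intro v
      by_cases hvS : v ∈ S
      · refine ⟨1, one_mem _, ?_⟩
        rw [hY₂S v hvS, map_one]
        simp
      · rw [hY₂nS v hvS]
        obtain ⟨c, hc1, hc2⟩ := hN1 v (fun h => hvS (hBS h)) (y₁.1 v) (hy₁u v hvS)
        exact ⟨c, hc1, hc2⟩
    choose c hc1 hc2 using hloc
    have hnorm : ideleNorm K L (mkIdele K L c ∅ (fun v _ => hc1 v)) = Y₂ :=
      ideleNorm_eq_of_forall _ Y₂ hc2
    have hY₂Q : Y₂ ∈ Q := hnorm ▸ hNQ _
    -- (e) weak approximation at `S`
    set kmax : ℕ := S.sup k ⊔ 1 with hkmax
    obtain ⟨x₂, hx₂⟩ := exists_units_forall_valued_div_sub_one_le K S y₁.1 (k := kmax)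
      (le_sup_right)
    refine ⟨x₂, ?_⟩
    -- (f) `y₃ / j_S x₂` is a `p`-th power
    have hloc2 : ∀ v : HeightOneSpectrum (𝓞 K), ∃ d : (v.adicCompletion K)ˣ, v ∈ S →
        d ^ p = y₁.1 v /
          Units.map (algebraMap K (v.adicCompletion K) : K →* v.adicCompletion K) x₂ := by
      intro v
      by_cases hv : v ∈ S
      · obtain ⟨d, hd⟩ := hHenselU v (y₁.1 v /
          Units.map (algebraMap K (v.adicCompletion K) : K →* v.adicCompletion K) x₂) (by
            rw [Units.val_div_eq_div_val, Units.coe_map, MonoidHom.coe_coe]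
            refine (hx₂ v hv).trans ?_
            rw [exp_le_exp, neg_le_neg_iff, Nat.cast_le]
            exact le_trans (Finset.le_sup (f := k) hv) le_sup_left)
        exact ⟨d, fun _ => hd⟩
      · exact ⟨1, fun h => absurd h hv⟩
    choose d hd using hloc2
    have hy₃d : y₃ / jS x₂ = (baseFinsetIdele K S d) ^ p := by
      apply Subtype.ext
      funext v
      have h1 : (y₃ / jS x₂).1 v = y₃.1 v / (jS x₂).1 v := rfl
      rw [h1, Subgroup.coe_pow, Pi.pow_apply]
      by_cases hv : v ∈ S
      · rw [hy₃, baseFinsetIdele_apply_of_mem y₁.1 hv, hjS_mem x₂ v hv,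
          baseFinsetIdele_apply_of_mem d hv, hd v hv]
      · rw [hy₃, baseFinsetIdele_apply_of_notMem y₁.1 hv, hjS_notMem x₂ v hv,
          baseFinsetIdele_apply_of_notMem d hv, one_pow, div_one]
    have hfinal : y / jS x₂ = diagBase K x₁ * Y₂ * (y₃ / jS x₂) := by
      have h1 : diagBase K x₁ * (y / (diagBase K x₁ * y₃)) = y / y₃ := by
        rw [mul_div_assoc', mul_div_mul_left_eq_div]
      rw [hY₂, hy₁, div_div, h1, div_mul_div_cancel]
    rw [hfinal, hy₃d]
    exact Q.mul_mem (Q.mul_mem (hPQ x₁) hY₂Q) (hpowQ _)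
  · -- the kernel
    intro x hx
    have hle : (⨅ v ∈ S, powCongr (F := K) v p (k v)) ⊔ sUnit K (S ∪ T) ≤ Q.comap jS := by
      refine sup_le ?_ ?_
      · -- elements which are local `p`-th powers at `S`
        intro x hx
        rw [Subgroup.mem_comap]
        simp only [Subgroup.mem_iInf] at hx
        have hloc : ∀ v : HeightOneSpectrum (𝓞 K), ∃ d : (v.adicCompletion K)ˣ, v ∈ S →
            d ^ p = Units.map (algebraMap K (v.adicCompletion K) : K →* v.adicCompletion K) x := by
          intro v
          by_cases hv : v ∈ S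
          · have hk0 : k v ≠ 0 := by have := hk1 v; omega
            obtain ⟨y, hy⟩ := (mem_powCongr_iff v hk0).mp (hx v hv)
            obtain ⟨d, hd⟩ := hHenselU v
              (Units.map (algebraMap K (v.adicCompletion K) : K →* v.adicCompletion K) (x / y ^ p))
              (by
                have h1 : ((Units.map (algebraMap K (v.adicCompletion K) : K →* v.adicCompletion K)
                    (x / y ^ p) : (v.adicCompletion K)ˣ) : v.adicCompletion K) - 1 =
                    algebraMap K (v.adicCompletion K) ((x : K) / (y : K) ^ p - 1) := by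
                  simp
                rw [h1, adicLF_valued_algebraMap]
                exact hy)
            refine ⟨Units.map (algebraMap K (v.adicCompletion K) : K →* v.adicCompletion K) y * d,
              fun _ => ?_⟩
            rw [mul_pow, hd, ← map_pow, ← map_mul]
            congr 1
            rw [mul_div_cancel]
          · exact ⟨1, fun h => absurd h hv⟩
        choose d hd using hloc
        have hjd : jS x = (baseFinsetIdele K S d) ^ p := by
          apply Subtype.ext
          funext v
          rw [Subgroup.coe_pow, Pi.pow_apply]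
          by_cases hv : v ∈ S
          · rw [hjS_mem x v hv, baseFinsetIdele_apply_of_mem d hv, hd v hv]
          · rw [hjS_notMem x v hv, baseFinsetIdele_apply_of_notMem d hv, one_pow]
        rw [hjd]
        exact hpowQ _
      · -- `S ∪ T`-units
        intro x hx
        rw [Subgroup.mem_comap]
        have hxU : ∀ v : HeightOneSpectrum (𝓞 K), v ∉ S → v ∉ T → v.valuation K (x : K) = 1 := by
          intro v hvS hvT
          exact (mem_sUnit_iff K (S ∪ T) x).mp hx v
            (by rw [Finset.mem_union, not_or]; exact ⟨hvS, hvT⟩)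
        set y : baseIdeleGroup K := jS x / diagBase K x with hy
        have hyS : ∀ v ∈ S, y.1 v = 1 := by
          intro v hv
          have : y.1 v = (jS x).1 v / (diagBase K x).1 v := rfl
          rw [this, hjS_mem x v hv, diagBase_apply, div_self']
        have hynS : ∀ v, v ∉ S → y.1 v =
            (Units.map (algebraMap K (v.adicCompletion K) : K →* v.adicCompletion K) x)⁻¹ := by
          intro v hv
          have : y.1 v = (jS x).1 v / (diagBase K x).1 v := rfl
          rw [this, hjS_notMem x v hv, diagBase_apply, one_div]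
        have hloc : ∀ v : HeightOneSpectrum (𝓞 K), ∃ c : (semiLocal K L v)ˣ,
            (v ∉ T → c ∈ semiLocalUnits K L v) ∧ ∏ g : Gal(L/K), g • c =
              Units.map (algebraMap (v.adicCompletion K) (semiLocal K L v) : _ →* _) (y.1 v) := by
          intro v
          by_cases hvS : v ∈ S
          · refine ⟨1, fun _ => one_mem _, ?_⟩
            rw [hyS v hvS, map_one]
            simp
          · by_cases hvT : v ∈ T
            · -- `a` is a `p`-th power in `K_v`
              obtain ⟨z, hz⟩ := hTa v hvT
              have hav : v.valuation K (a : K) = 1 := hSa v hvS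
              have hzp : v.valuation K (z ^ p) = 1 := by
                have h1 : z ^ p = (a : K) - ((a : K) - z ^ p) := by ring
                rw [h1, Valuation.map_sub_eq_of_lt_left _ (by rw [hav]; exact hz), hav]
              have hz0 : z ≠ 0 := by
                rintro rfl
                rw [zero_pow hp.ne_zero, map_zero] at hzp
                exact zero_ne_one hzp
              have he0 : v.valuation K (p : K) = exp (-((0 : ℕ) : ℤ)) := by
                rw [hSp v hvS]; simp
              obtain ⟨d, hd⟩ := adic_exists_pow_eq K v hp he0 (k := 1) (by omega)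
                (algebraMap K (v.adicCompletion K) ((a : K) / z ^ p))
                (by
                  have h1 : algebraMap K (v.adicCompletion K) ((a : K) / z ^ p) - 1 =
                      algebraMap K (v.adicCompletion K) (((a : K) - z ^ p) / z ^ p) := by
                    rw [← map_one (algebraMap K (v.adicCompletion K)), ← map_sub]
                    congr 1
                    field_simp
                  rw [h1, adicLF_valued_algebraMap, map_div₀, hzp, div_one]
                  exact le_exp_neg_one_of_lt_one hz)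
              have hβ : (algebraMap K (v.adicCompletion K) z * d) ^ p =
                  algebraMap K (v.adicCompletion K) (a : K) := by
                rw [mul_pow, hd, ← map_pow, ← map_mul]
                congr 1
                field_simp
              obtain ⟨c, hc⟩ := semiLocal_exists_prod_smul_eq hp hcard hζ hθ hθK v hβ (y.1 v)
              exact ⟨c, fun h => absurd hvT h, hc⟩
            · -- unramified place, `x` is a unit
              have hu : y.1 v ∈ baseLocalUnits K v := by
                rw [hynS v hvS, mem_baseLocalUnits_iff, Units.val_inv_eq_inv_val, map_inv₀,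
                  Units.coe_map, MonoidHom.coe_coe, adicLF_valued_algebraMap, hxU v hvS hvT,
                  inv_one]
              obtain ⟨c, hc1, hc2⟩ := hN1 v (fun h => hvS (hBS h)) (y.1 v) hu
              exact ⟨c, fun _ => hc1, hc2⟩
        choose c hc1 hc2 using hloc
        have hnorm : ideleNorm K L (mkIdele K L c T hc1) = y :=
          ideleNorm_eq_of_forall (mkIdele K L c T hc1) y hc2
        have hx' : jS x = diagBase K x * y := by rw [hy, mul_div_cancel]
        rw [hx']
        exact Q.mul_mem (hPQ x) (hnorm ▸ hNQ _)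
    exact hle hx

end Main

end Fermat.Agent.CFT
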