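import Mathlib
import Fermat.Agent.CFT.Idele.SecondIneqCore

/-!
# CFT, S55 global-idelic stream, chunk (GL11-rel), step (R0): the core of the second inequality
with a closed set `S`

Same statement and proof as `exists_secondIneq_core` (Idele/SecondIneqCore.lean), but the set `S`
is of the form `cl S₁` for a prescribed inflationary operator `cl` on finite sets of primes
(used with `cl` = saturation over a subfield `K ⊆ F`).
-/

set_option autoImplicit false
set_option linter.unusedSectionVars false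
set_option linter.style.haveILetI false

open NumberField IsDedekindDomain
open scoped IntermediateField

namespace Fermat.Agent.CFT

/-- **Core of the second inequality**, with `S` closed under a prescribed closure operator
(e.g. saturation over a subfield). -/
theorem exists_secondIneq_core_cl {p : ℕ} {F M : Type} [Field F] [NumberField F] [Field M]
    [NumberField M] [Algebra F M] [IsGalois F M] [DecidableEq (HeightOneSpectrum (𝓞 F))]
    (hp : p.Prime) (hp2 : p ≠ 2) {ζ : F} (hζ : IsPrimitiveRoot ζ p)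
    (hcard : Nat.card Gal(M/F) = p) (B : Finset (HeightOneSpectrum (𝓞 F)))
    (cl : Finset (HeightOneSpectrum (𝓞 F)) → Finset (HeightOneSpectrum (𝓞 F)))
    (hcl : ∀ S, S ⊆ cl S) :
    ∃ (a : Fˣ) (θ : M) (S T : Finset (HeightOneSpectrum (𝓞 F)))
      (k : HeightOneSpectrum (𝓞 F) → ℕ),
      θ ^ p = algebraMap F M (a : F) ∧ θ ∉ Set.range (algebraMap F M) ∧
      B ⊆ S ∧
      (∀ v : HeightOneSpectrum (𝓞 F), v ∉ S → v.valuation F (p : F) = 1) ∧
      (∀ v : HeightOneSpectrum (𝓞 F), v ∉ S → v.valuation F (a : F) = 1) ∧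
      (∀ C : ClassGroup (𝓞 F), ∃ D : HeightOneSpectrum (𝓞 F) →₀ ℤ,
        D.support ⊆ S ∧ divClass D = C) ∧
      Disjoint S T ∧
      (∀ v ∈ T, ∃ y : F, v.valuation F ((a : F) - y ^ p) < 1) ∧
      (∀ v ∈ S, p * natOrdAt v p < (p - 1) * k v) ∧
      ((⨅ v ∈ S, powCongr (F := F) v p (k v)) ⊔ sUnit F (S ∪ T)).index ≠ 0 ∧
      ((⨅ v ∈ S, powCongr (F := F) v p (k v)) ⊔ sUnit F (S ∪ T)).index ≤ p ∧
      (∀ v, k v = p * natOrdAt v p + 1) ∧ ∃ S₁, S = cl S₁ := by
  classical
  have hLB : SecondIneqLemmaB p F := secondIneqLemmaB_holds p F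
  haveI : Fact p.Prime := ⟨hp⟩
  have h2p : 2 < p := lt_of_le_of_ne hp.two_le (Ne.symm hp2)
  have hdeg : Module.finrank F M = p := by rw [← IsGalois.card_aut_eq_finrank, hcard]
  have hnt : Nat.card Gal(M/F) ≠ 1 := by rw [hcard]; exact hp.one_lt.ne'
  -- Kummer generator
  haveI : IsCyclic Gal(M/F) := isCyclic_of_prime_card hcard
  have hK : (primitiveRoots (Module.finrank F M) F).Nonempty := by
    rw [hdeg]
    exact ⟨ζ, (mem_primitiveRoots hp.pos).mpr hζ⟩
  obtain ⟨θ₀, ⟨a₀, ha₀⟩, hθtop⟩ := exists_root_adjoin_eq_top_of_isCyclic F M hK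
  rw [hdeg] at ha₀
  have hθ₀F : θ₀ ∉ Set.range (algebraMap F M) := by
    rintro ⟨x, rfl⟩
    have hbot : F⟮algebraMap F M x⟯ = ⊥ :=
      IntermediateField.adjoin_simple_eq_bot_iff.mpr (IntermediateField.algebraMap_mem ⊥ x)
    rw [hbot] at hθtop
    have h1 : Module.finrank F M = 1 := IntermediateField.bot_eq_top_iff_finrank_eq_one.mp hθtop
    rw [hdeg] at h1
    exact hp.one_lt.ne' h1
  have ha₀0 : a₀ ≠ 0 := by
    rintro rfl
    rw [map_zero] at ha₀
    apply hθ₀F
    exact ⟨0, by rw [map_zero]; exact ((pow_eq_zero_iff hp.ne_zero).mp ha₀.symm).symm⟩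
  -- integral Kummer data
  obtain ⟨ζ', a₁, d, α, hKG, hd0, ha₁, -, hα⟩ :=
    exists_isKummerGen_global hp hζ hdeg ha₀.symm hθ₀F
  have hdF : algebraMap (𝓞 F) F d ≠ 0 := by
    rwa [Ne, map_eq_zero_iff _ (FaithfulSMul.algebraMap_injective (𝓞 F) F)]
  have ha₁F : (a₁ : F) ≠ 0 := by
    show algebraMap (𝓞 F) F a₁ ≠ 0
    rw [ha₁]
    exact mul_ne_zero (pow_ne_zero p hdF) ha₀0
  have ha₁0 : a₁ ≠ 0 := by
    rintro rfl
    exact ha₁F (map_zero _)
  set θ : M := algebraMap (𝓞 M) M α with hθdef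
  have hθ : θ ^ p = algebraMap F M (a₁ : F) := by
    have h1 : algebraMap F M (a₁ : F) = ((algebraMap (𝓞 F) (𝓞 M) a₁ : 𝓞 M) : M) := rfl
    rw [h1, ← hKG.pow]
    rfl
  have hθF : θ ∉ Set.range (algebraMap F M) := by
    rintro ⟨x, hx⟩
    apply hθ₀F
    refine ⟨x / algebraMap (𝓞 F) F d, ?_⟩
    have hdM : algebraMap F M (algebraMap (𝓞 F) F d) ≠ 0 := by
      rw [Ne, map_eq_zero]
      exact hdF
    rw [map_div₀, hx, hα, mul_comm, mul_div_assoc, div_self hdM, mul_one]
  set a : Fˣ := Units.mk0 (a₁ : F) ha₁F with ha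
  have haa : (a : F) = (a₁ : F) := rfl
  have hp0F : (p : F) ≠ 0 := Nat.cast_ne_zero.mpr hp.ne_zero
  -- the set `S`
  set B₀ : Finset (HeightOneSpectrum (𝓞 F)) :=
    ((finite_setOf_valuation_ne_one (R := 𝓞 F) F hp0F).toFinset ∪
      (finite_setOf_valuation_ne_one (R := 𝓞 F) F a.ne_zero).toFinset) ∪ B with hB₀
  obtain ⟨S₁, hB₀S₁, hS₁⟩ := exists_finset_generating_superset (R := 𝓞 F) B₀
  set S : Finset (HeightOneSpectrum (𝓞 F)) := cl S₁ with hSdef
  have hB₀S : B₀ ⊆ S := hB₀S₁.trans (hcl S₁)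
  have hS : ∀ C : ClassGroup (𝓞 F), ∃ D : HeightOneSpectrum (𝓞 F) →₀ ℤ,
      D.support ⊆ S ∧ divClass D = C := by
    intro C
    obtain ⟨D, hD1, hD2⟩ := hS₁ C
    exact ⟨D, hD1.trans (hcl S₁), hD2⟩
  have hBS : B ⊆ S := fun v hv => hB₀S (by rw [hB₀]; exact Finset.mem_union_right _ hv)
  have hSp : ∀ v : HeightOneSpectrum (𝓞 F), v.valuation F (p : F) ≠ 1 → v ∈ S := by
    intro v hv
    apply hB₀S
    rw [hB₀, Finset.mem_union, Finset.mem_union]
    left; left
    rw [Set.Finite.mem_toFinset]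
    exact hv
  have hSa : ∀ v : HeightOneSpectrum (𝓞 F), v ∉ S → v.valuation F (a : F) = 1 := by
    intro v hv
    by_contra hne
    apply hv
    apply hB₀S
    rw [hB₀, Finset.mem_union, Finset.mem_union]
    left; right
    rw [Set.Finite.mem_toFinset]
    exact hne
  have hSp' : ∀ v : HeightOneSpectrum (𝓞 F), v ∉ S → v.valuation F (p : F) = 1 := by
    intro v hv
    by_contra hne
    exact hv (hSp v hne)
  have haU : a ∈ sUnit F S := (mem_sUnit_iff F S a).mpr hSa
  -- the set `T`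
  set s : ℕ := S.card + Fintype.card (InfinitePlace F) with hs
  have hUidx : (powMonoidHom p : sUnit F S →* sUnit F S).range.index = p ^ s :=
    index_range_powMonoidHom_sUnit F S hζ
  obtain ⟨hs1, T, hTcard, hTS, hTa, -, hTsurj⟩ :=
    hKG.exists_finset_primes_sUnit hp ha₁0 hnt (degreeOneNotPow_contract hp M) S a haa haU
      (fun v hv => natCast_not_mem_of_valuation v (hSp' v hv)) hUidx
  obtain ⟨m, hsm⟩ : ∃ m, s = m + 1 := ⟨s - 1, (Nat.succ_pred_eq_of_pos hs1).symm⟩
  have hTcard' : T.card = m := by rw [hTcard, hsm, Nat.add_sub_cancel]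
  have hST : Disjoint S T := hTS.symm
  have hTnotS : ∀ v ∈ T, v ∉ S := fun v hv hvS => (Finset.disjoint_left.mp hTS hv) hvS
  -- the group `W`
  set k : HeightOneSpectrum (𝓞 F) → ℕ := fun v => p * natOrdAt v p + 1 with hk
  have hkS : ∀ v ∈ S, p * natOrdAt v p < (p - 1) * k v := by
    intro v _
    have h1 : 1 ≤ p - 1 := by omega
    calc p * natOrdAt v p < 1 * (p * natOrdAt v p + 1) := by omega
      _ ≤ (p - 1) * (p * natOrdAt v p + 1) := Nat.mul_le_mul_right _ h1
  set W : Subgroup Fˣ := ⨅ v ∈ S, powCongr (F := F) v p (k v) with hW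
  obtain ⟨hW0, hWle⟩ := index_iInf_powCongr_le hp hζ S hSp k hkS
  -- the `S ∪ T`-units
  set U' : Subgroup Fˣ := sUnit F (S ∪ T) with hU'
  have hmemU' : ∀ x : Fˣ, x ∈ U' ↔
      ∀ v : HeightOneSpectrum (𝓞 F), v ∉ S → v ∉ T → v.valuation F (x : F) = 1 := by
    intro x
    rw [hU', mem_sUnit_iff]
    constructor
    · intro h v hvS hvT
      exact h v (by rw [Finset.mem_union, not_or]; exact ⟨hvS, hvT⟩)
    · intro h v hv
      rw [Finset.mem_union, not_or] at hv
      exact h v hv.1 hv.2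
  have hU'idx : (powMonoidHom p : U' →* U').range.index = p ^ (s + m) := by
    have h1 := index_range_powMonoidHom_sUnit F (S ∪ T) hζ
    rw [Finset.card_union_of_disjoint hST, hTcard'] at h1
    have h2 : S.card + m + Fintype.card (InfinitePlace F) = s + m := by rw [hs]; ring
    rw [h2] at h1
    exact h1
  -- the count
  have hfin : Module.finrank ℚ F = 2 * Fintype.card (InfinitePlace F) := by
    rw [card_infinitePlace_eq_nrComplexPlaces F h2p hζ,
      ← InfinitePlace.card_add_two_mul_card_eq_rank,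
      NumberField.InfinitePlace.IsPrimitiveRoot.nrRealPlaces_eq_zero_of_two_lt h2p hζ, zero_add]
  have hWle' : W.index ≤ p ^ (s + m + 1) := by
    refine hWle.trans (le_of_eq ?_)
    congr 1
    rw [hfin, hs] at *
    omega
  have hUW : ∀ u : U', (u : Fˣ) ∈ W → ∃ u' : U', u' ^ p = u := by
    intro u hu
    have hx := (hmemU' (u : Fˣ)).mp u.2
    have hxW : ∀ v ∈ S, (u : Fˣ) ∈ powCongr (F := F) v p (k v) := by
      intro v hv
      rw [hW] at hu
      simp only [Subgroup.mem_iInf] at hu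
      exact hu v hv
    obtain ⟨y, hy⟩ := hLB hp hp2 ⟨ζ, hζ⟩ S T hST hSp hS k hkS hTsurj (u : Fˣ) hx hxW
    have hyU' : y ∈ U' := by
      rw [hU', ← pow_mem_sUnit_iff F (S ∪ T) hp.ne_zero, hy]
      exact u.2
    exact ⟨⟨y, hyU'⟩, Subtype.ext hy⟩
  obtain ⟨hsup0, hsuple⟩ := index_sup_le_of_count W U' p (s + m) hp.pos hW0 hWle'
    (le_of_eq hU'idx.symm) hUW
  exact ⟨a, θ, S, T, k, hθ, hθF, hBS, hSp', hSa, hS, hST, hTa, hkS, hsup0, hsuple, fun _ => rfl,
    S₁, rfl⟩



end Fermat.Agent.CFT
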