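/-
CFT, S55 pool, GLOBAL layer (GL2b) (helper27): units of semilocal algebras.

`R` a reduced Artinian ring (a finite product of fields) with an action of a finite group `G`
(no transitivity assumption).  `Rˣ ≃* ∏_m (R ⧸ m)ˣ` (`unitsEquivPi`), the component embeddings
`unitsLift R m : (R ⧸ m)ˣ →* Rˣ`, their `G`-equivariance (`smul_unitsLift`, `stab_smul_unitsLift`),
componentwise subgroups `unitsSub R V` (e.g. the units of the integral closure of a DVR) and the

* **semilocal Shapiro lemma** `tateCard_unitsSub` (orbit form, `G` cyclic): the Tate cohomology of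
  `G` on `unitsSub R V`, `V` supported on the orbit of `m₀`, is that of the decomposition group
  `Stab m₀` on `V m₀`;
* `tateCard_units_of_transitive`, `tateCard_units_tensor`: the full unit group, `R = F ⊗[K] L`;
* `tateH1Card_units_tensor` : Hilbert 90 for `(F ⊗[K] L)ˣ`;
* `tateH0Card_units_tensor` : for `F` a local field, `|Ĥ⁰(G, (F ⊗[K] L)ˣ)| = |Stab m|`.
-/
import Mathlib
import Fermat.Agent.CFT.Idele.SemiLocal
import Fermat.Agent.CFT.Coh.CyclicInducedSet
import Fermat.Agent.CFT.Local.UnitsCoh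
import Fermat.Agent.CFT.Local.LocalField

set_option autoImplicit false
set_option linter.unusedSectionVars false
set_option linter.style.haveILetI false

namespace Fermat.Agent.CFT

open scoped Pointwise

section Decomp

variable (R : Type*) [CommRing R] [IsArtinianRing R] [IsReduced R]

/-- `Rˣ ≃* ∏_m (R ⧸ m)ˣ` for a reduced Artinian ring. -/
noncomputable def unitsEquivPi : Rˣ ≃* ∀ m : MaximalSpectrum R, (R ⧸ m.asIdeal)ˣ :=
  (Units.mapEquiv (IsArtinianRing.equivPi R).toRingEquiv.toMulEquiv).trans MulEquiv.piUnits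

@[simp] theorem coe_unitsEquivPi_apply (u : Rˣ) (m : MaximalSpectrum R) :
    ((unitsEquivPi R u m : (R ⧸ m.asIdeal)ˣ) : R ⧸ m.asIdeal) =
      Ideal.Quotient.mk m.asIdeal (u : R) := rfl

theorem unitsEquivPi_apply (u : Rˣ) (m : MaximalSpectrum R) :
    unitsEquivPi R u m = Units.map (Ideal.Quotient.mk m.asIdeal : R →* R ⧸ m.asIdeal) u :=
  Units.ext rfl

open Classical in
/-- the unit of `R` with component `b` at `m` and `1` at all other maximal ideals. -/
noncomputable def unitsLift (m : MaximalSpectrum R) : (R ⧸ m.asIdeal)ˣ →* Rˣ :=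
  (unitsEquivPi R).symm.toMonoidHom.comp
    (MonoidHom.mulSingle (fun m : MaximalSpectrum R => (R ⧸ m.asIdeal)ˣ) m)

open Classical in
theorem unitsEquivPi_unitsLift (m : MaximalSpectrum R) (b : (R ⧸ m.asIdeal)ˣ) :
    unitsEquivPi R (unitsLift R m b) = Pi.mulSingle m b := by
  unfold unitsLift
  simp

theorem unitsEquivPi_unitsLift_same (m : MaximalSpectrum R) (b : (R ⧸ m.asIdeal)ˣ) :
    unitsEquivPi R (unitsLift R m b) m = b := by
  classical
  rw [unitsEquivPi_unitsLift, Pi.mulSingle_eq_same]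

theorem unitsEquivPi_unitsLift_of_ne {m m' : MaximalSpectrum R} (h : m' ≠ m)
    (b : (R ⧸ m.asIdeal)ˣ) : unitsEquivPi R (unitsLift R m b) m' = 1 := by
  classical
  rw [unitsEquivPi_unitsLift, Pi.mulSingle_eq_of_ne h]

theorem unitsLift_injective (m : MaximalSpectrum R) : Function.Injective (unitsLift R m) := by
  intro b b' h
  have := congrArg (fun u => unitsEquivPi R u m) h
  simpa [unitsEquivPi_unitsLift_same] using this

/-- characterisation of `unitsLift`. -/
theorem eq_unitsLift_iff (m : MaximalSpectrum R) (b : (R ⧸ m.asIdeal)ˣ) (u : Rˣ) :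
    u = unitsLift R m b ↔
      unitsEquivPi R u m = b ∧ ∀ m', m' ≠ m → unitsEquivPi R u m' = 1 := by
  constructor
  · rintro rfl
    exact ⟨unitsEquivPi_unitsLift_same R m b, fun m' h => unitsEquivPi_unitsLift_of_ne R h b⟩
  · rintro ⟨h1, h2⟩
    apply (unitsEquivPi R).injective
    funext m'
    by_cases h : m' = m
    · subst h
      rw [h1, unitsEquivPi_unitsLift_same]
    · rw [h2 m' h, unitsEquivPi_unitsLift_of_ne R h]

theorem unitsLift_unitsEquivPi_of_forall (m : MaximalSpectrum R) (u : Rˣ)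
    (h : ∀ m', m' ≠ m → unitsEquivPi R u m' = 1) : unitsLift R m (unitsEquivPi R u m) = u :=
  ((eq_unitsLift_iff R m _ u).mpr ⟨rfl, h⟩).symm

end Decomp

section Action

variable (F R G : Type*) [Field F] [CommRing R] [Algebra F R] [IsArtinianRing R] [IsReduced R]
  [Group G] [MulSemiringAction G R] [SMulCommClass G F R]

attribute [local instance] maxSpecMulAction Units.mulDistribMulActionRight

theorem unitsEquivPi_smul (g : G) (u : Rˣ) (m : MaximalSpectrum R) :
    unitsEquivPi R (g • u) (g • m) =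
      Units.map ((quotSmulEquiv F R G g m.asIdeal : (R ⧸ m.asIdeal) →* (R ⧸ (g • m.asIdeal))))
        (unitsEquivPi R u m) :=
  Units.ext rfl

omit [IsReduced R] in
theorem stabilizer_maxSpec_eq' (m : MaximalSpectrum R) :
    MulAction.stabilizer G m = MulAction.stabilizer G m.asIdeal := by
  ext g
  rw [MulAction.mem_stabilizer_iff, MulAction.mem_stabilizer_iff]
  exact ⟨fun h => congrArg MaximalSpectrum.asIdeal h, fun h => MaximalSpectrum.ext h⟩

include F in
theorem unitsEquivPi_smul_eq_one_iff (g : G) (u : Rˣ) (m : MaximalSpectrum R) :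
    unitsEquivPi R (g • u) (g • m) = 1 ↔ unitsEquivPi R u m = 1 := by
  rw [unitsEquivPi_smul F R G g u m]
  constructor
  · intro h
    have h1 : Function.Injective (Units.map ((quotSmulEquiv F R G g m.asIdeal :
        (R ⧸ m.asIdeal) →* (R ⧸ (g • m.asIdeal))))) :=
      Units.map_injective (quotSmulEquiv F R G g m.asIdeal).injective
    exact h1 (h.trans (map_one _).symm)
  · intro h
    rw [h, map_one]

/-- `g • lift_m(b) = lift_{g m}(g b)`. -/
theorem smul_unitsLift (g : G) (m : MaximalSpectrum R) (b : (R ⧸ m.asIdeal)ˣ) :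
    g • unitsLift R m b = unitsLift R (g • m)
      (Units.map ((quotSmulEquiv F R G g m.asIdeal :
        (R ⧸ m.asIdeal) →* (R ⧸ (g • m.asIdeal)))) b) := by
  rw [eq_unitsLift_iff]
  refine ⟨?_, ?_⟩
  · rw [unitsEquivPi_smul F R G, unitsEquivPi_unitsLift_same]
  · intro m' hm'
    obtain ⟨m'', rfl⟩ : ∃ m'', m' = g • m'' := ⟨g⁻¹ • m', (smul_inv_smul g m').symm⟩
    rw [unitsEquivPi_smul_eq_one_iff F R G]
    apply unitsEquivPi_unitsLift_of_ne
    rintro rfl
    exact hm' rfl

/-- the action of the decomposition group of `m` on the units of the residue ring `R ⧸ m`. -/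
@[reducible] noncomputable def unitsStabAction (m : Ideal R) :
    MulDistribMulAction (MulAction.stabilizer G m) (R ⧸ m)ˣ :=
  letI := quotStabAction F R G m
  Units.mulDistribMulActionRight

omit [IsArtinianRing R] [IsReduced R] in
theorem coe_unitsStabAction_smul (m : Ideal R) (d : MulAction.stabilizer G m) (b : (R ⧸ m)ˣ) :
    letI := unitsStabAction F R G m
    ((d • b : (R ⧸ m)ˣ) : R ⧸ m) = quotStabHom F R G m d (b : R ⧸ m) := rfl

/-- the action of the decomposition group on the component at `m`. -/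
theorem stab_smul_unitsLift (m : MaximalSpectrum R) (d : MulAction.stabilizer G m.asIdeal)
    (b : (R ⧸ m.asIdeal)ˣ) :
    letI := unitsStabAction F R G m.asIdeal
    unitsLift R m (d • b) = (d : G) • unitsLift R m b := by
  letI := unitsStabAction F R G m.asIdeal
  symm
  rw [eq_unitsLift_iff]
  have hd : (d : G) • m = m := MaximalSpectrum.ext d.2
  refine ⟨?_, ?_⟩
  · apply Units.ext
    have h1 := unitsEquivPi_unitsLift_same R m b
    have h2 : ((unitsEquivPi R (unitsLift R m b) m : (R ⧸ m.asIdeal)ˣ) : R ⧸ m.asIdeal) =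
        (b : R ⧸ m.asIdeal) := by rw [h1]
    rw [coe_unitsEquivPi_apply] at h2 ⊢
    rw [coe_unitsStabAction_smul, ← h2, quotStabHom_mk]
    rfl
  · intro m' hm'
    obtain ⟨m'', rfl⟩ : ∃ m'', m' = (d : G) • m'' := ⟨(d : G)⁻¹ • m', (smul_inv_smul _ m').symm⟩
    rw [unitsEquivPi_smul_eq_one_iff F R G]
    apply unitsEquivPi_unitsLift_of_ne
    rintro rfl
    exact hm' hd

end Action

section Sub

variable (F R G : Type*) [Field F] [CommRing R] [Algebra F R] [IsArtinianRing R] [IsReduced R]
  [Group G] [MulSemiringAction G R] [SMulCommClass G F R]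

attribute [local instance] maxSpecMulAction Units.mulDistribMulActionRight

variable (V : ∀ m : MaximalSpectrum R, Subgroup (R ⧸ m.asIdeal)ˣ)

/-- the subgroup of `Rˣ` cut out by componentwise conditions `V m ≤ (R ⧸ m)ˣ`. -/
noncomputable def unitsSub : Subgroup Rˣ :=
  Subgroup.comap (unitsEquivPi R).toMonoidHom (Subgroup.pi Set.univ V)

theorem mem_unitsSub_iff {u : Rˣ} : u ∈ unitsSub R V ↔ ∀ m, unitsEquivPi R u m ∈ V m := by
  simp [unitsSub, Subgroup.mem_pi]

theorem unitsSub_top : unitsSub R (fun _ => ⊤) = ⊤ := by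
  ext u
  simp [mem_unitsSub_iff]

theorem unitsLift_mem_unitsSub (m : MaximalSpectrum R) {b : (R ⧸ m.asIdeal)ˣ} (hb : b ∈ V m) :
    unitsLift R m b ∈ unitsSub R V := by
  rw [mem_unitsSub_iff]
  intro m'
  by_cases h : m' = m
  · subst h
    rwa [unitsEquivPi_unitsLift_same]
  · rw [unitsEquivPi_unitsLift_of_ne R h]
    exact one_mem _

/-- units with trivial components away from `m`. -/
noncomputable def unitsComp (m : MaximalSpectrum R) : Subgroup Rˣ where
  carrier := {u | ∀ m', m' ≠ m → unitsEquivPi R u m' = 1}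
  one_mem' := fun m' _ => by rw [map_one]; rfl
  mul_mem' := fun {u v} hu hv m' h => by
    rw [map_mul, Pi.mul_apply, hu m' h, hv m' h, one_mul]
  inv_mem' := fun {u} hu m' h => by
    rw [map_inv, Pi.inv_apply, hu m' h, inv_one]

theorem mem_unitsComp_iff {m : MaximalSpectrum R} {u : Rˣ} :
    u ∈ unitsComp R m ↔ ∀ m', m' ≠ m → unitsEquivPi R u m' = 1 := Iff.rfl

theorem unitsLift_mem_unitsComp (m : MaximalSpectrum R) (b : (R ⧸ m.asIdeal)ˣ) :
    unitsLift R m b ∈ unitsComp R m := fun _ h => unitsEquivPi_unitsLift_of_ne R h b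

theorem range_unitsLift (m : MaximalSpectrum R) : (unitsLift R m).range = unitsComp R m := by
  ext u
  constructor
  · rintro ⟨b, rfl⟩
    exact unitsLift_mem_unitsComp R m b
  · intro hu
    exact ⟨_, unitsLift_unitsEquivPi_of_forall R m u hu⟩

include F in
theorem smul_mem_unitsComp (g : G) {m : MaximalSpectrum R} {u : Rˣ} (hu : u ∈ unitsComp R m) :
    g • u ∈ unitsComp R (g • m) := by
  intro m' hm'
  obtain ⟨m'', rfl⟩ : ∃ m'', m' = g • m'' := ⟨g⁻¹ • m', (smul_inv_smul g m').symm⟩
  rw [unitsEquivPi_smul_eq_one_iff F R G]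
  apply hu
  rintro rfl
  exact hm' rfl

variable (hV : ∀ g : G, ∀ u ∈ unitsSub R V, g • u ∈ unitsSub R V)

/-- the `G`-action on a `G`-stable componentwise subgroup of `Rˣ`. -/
@[reducible] noncomputable def unitsSubAction : MulDistribMulAction G (unitsSub R V) where
  smul g u := ⟨g • (u : Rˣ), hV g u u.2⟩
  one_smul u := Subtype.ext (one_smul _ (u : Rˣ))
  mul_smul g h u := Subtype.ext (mul_smul g h (u : Rˣ))
  smul_mul g u v := Subtype.ext (smul_mul' g (u : Rˣ) (v : Rˣ))
  smul_one g := Subtype.ext (smul_one g)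

include hV in
theorem stab_smul_mem_unitsSub (m : MaximalSpectrum R) (d : MulAction.stabilizer G m.asIdeal)
    {b : (R ⧸ m.asIdeal)ˣ} (hb : b ∈ V m) :
    letI := unitsStabAction F R G m.asIdeal
    d • b ∈ V m := by
  letI := unitsStabAction F R G m.asIdeal
  have h1 := hV (d : G) _ (unitsLift_mem_unitsSub R V m hb)
  rw [← stab_smul_unitsLift F R G m d b, mem_unitsSub_iff] at h1
  have h2 := h1 m
  rwa [unitsEquivPi_unitsLift_same] at h2

/-- the action of the decomposition group of `m` on the component `V m`. -/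
@[reducible] noncomputable def unitsSubStabAction (m : MaximalSpectrum R) :
    MulDistribMulAction (MulAction.stabilizer G m.asIdeal) (V m) :=
  letI := unitsStabAction F R G m.asIdeal
  { smul := fun d b => ⟨d • (b : (R ⧸ m.asIdeal)ˣ), stab_smul_mem_unitsSub F R G V hV m d b.2⟩
    one_smul := fun b => Subtype.ext (one_smul _ (b : (R ⧸ m.asIdeal)ˣ))
    mul_smul := fun g h b => Subtype.ext (mul_smul g h (b : (R ⧸ m.asIdeal)ˣ))
    smul_mul := fun g u v => Subtype.ext (smul_mul' g (u : (R ⧸ m.asIdeal)ˣ) (v : (R ⧸ m.asIdeal)ˣ))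
    smul_one := fun g => Subtype.ext (smul_one g) }

end Sub

section Main

variable (F R G : Type*) [Field F] [CommRing R] [Algebra F R] [IsArtinianRing R] [IsReduced R]
  [Group G] [MulSemiringAction G R] [SMulCommClass G F R]

attribute [local instance] maxSpecMulAction Units.mulDistribMulActionRight
  additiveDistribMulAction

variable (V : ∀ m : MaximalSpectrum R, Subgroup (R ⧸ m.asIdeal)ˣ)
variable (hV : ∀ g : G, ∀ u ∈ unitsSub R V, g • u ∈ unitsSub R V)

/-- **Semilocal Shapiro lemma for units** (orbit form).  `G = ⟨σ⟩` a finite cyclic group acting on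
a reduced Artinian ring `R`, `V` a `G`-stable family of componentwise conditions supported on the
orbit of a maximal ideal `m₀`: the Tate cohomology of `G` on `unitsSub R V` is that of the
decomposition group of `m₀` on `V m₀`. -/
theorem tateCard_unitsSub [Fintype G] (m₀ : MaximalSpectrum R)
    (hsupp : ∀ m, m ∉ MulAction.orbit G m₀ → V m = ⊥)
    [Fintype (MulAction.stabilizer G m₀.asIdeal)]
    {σ : G} (hσ : ∀ τ, τ ∈ Subgroup.zpowers σ)
    {σD : MulAction.stabilizer G m₀.asIdeal} (hσD : ∀ h, h ∈ Subgroup.zpowers σD) :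
    letI := unitsSubAction R G V hV
    letI := unitsSubStabAction F R G V hV m₀
    tateH0Card G (Additive (unitsSub R V)) σ =
        tateH0Card (MulAction.stabilizer G m₀.asIdeal) (Additive (V m₀)) σD ∧
      tateH1Card G (Additive (unitsSub R V)) σ =
        tateH1Card (MulAction.stabilizer G m₀.asIdeal) (Additive (V m₀)) σD := by
  classical
  letI := unitsSubAction R G V hV
  letI := unitsSubStabAction F R G V hV m₀
  letI : Fintype (MulAction.orbit G m₀) := Fintype.ofFinite _
  -- the components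
  let Ax : MulAction.orbit G m₀ → AddSubgroup (Additive (unitsSub R V)) := fun x =>
    Subgroup.toAddSubgroup (Subgroup.comap (unitsSub R V).subtype (unitsComp R (x : MaximalSpectrum R)))
  have hAx : ∀ (x : MulAction.orbit G m₀) (a : Additive (unitsSub R V)),
      a ∈ Ax x ↔ ((Additive.toMul a : unitsSub R V) : Rˣ) ∈ unitsComp R (x : MaximalSpectrum R) :=
    fun x a => Iff.rfl
  -- evaluation of sums
  have hsum : ∀ (c : MulAction.orbit G m₀ → Additive (unitsSub R V)) (m : MaximalSpectrum R),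
      unitsEquivPi R ((Additive.toMul (∑ x, c x) : unitsSub R V) : Rˣ) m =
        ∏ x, unitsEquivPi R ((Additive.toMul (c x) : unitsSub R V) : Rˣ) m := by
    intro c m
    rw [toMul_sum, Subgroup.val_finsetProd, map_prod, Finset.prod_apply]
  -- the lift
  let jm : V m₀ →* unitsSub R V :=
    ((unitsLift R m₀).comp (V m₀).subtype).codRestrict (unitsSub R V)
      (fun b => unitsLift_mem_unitsSub R V m₀ b.2)
  have hjm : ∀ b : V m₀, ((jm b : unitsSub R V) : Rˣ) = unitsLift R m₀ (b : (R ⧸ m₀.asIdeal)ˣ) :=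
    fun b => rfl
  refine tateCard_induced (X := MulAction.orbit G m₀) hσ hσD Ax ?_ ?_ ?_
    ⟨m₀, MulAction.mem_orbit_self m₀⟩ (MulAction.stabilizer G m₀.asIdeal).subtype
    (Subgroup.subtype_injective _) ?_ (MonoidHom.toAdditive jm) ?_ ?_ ?_
  · -- hperm
    intro τ x a ha
    rw [hAx] at ha ⊢
    exact smul_mem_unitsComp F R G τ ha
  · -- hsumX
    intro a
    have hmem : ∀ x : MulAction.orbit G m₀,
        unitsLift R (x : MaximalSpectrum R)
          (unitsEquivPi R ((Additive.toMul a : unitsSub R V) : Rˣ) x) ∈ unitsSub R V :=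
      fun x => unitsLift_mem_unitsSub R V x
        ((mem_unitsSub_iff R V).mp (Additive.toMul a : unitsSub R V).2 x)
    refine ⟨fun x => Additive.ofMul ⟨_, hmem x⟩, fun x => ?_, ?_⟩
    · rw [hAx]
      exact unitsLift_mem_unitsComp R _ _
    · apply Additive.toMul.injective
      apply Subtype.ext
      apply (unitsEquivPi R).injective
      funext m
      rw [hsum]
      simp only [toMul_ofMul]
      by_cases hm : m ∈ MulAction.orbit G m₀
      · rw [Finset.prod_eq_single (⟨m, hm⟩ : MulAction.orbit G m₀)]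
        · rw [unitsEquivPi_unitsLift_same]
        · intro x _ hx
          apply unitsEquivPi_unitsLift_of_ne
          rintro rfl
          exact hx rfl
        · intro h
          exact absurd (Finset.mem_univ _) h
      · rw [Finset.prod_eq_one]
        · have h1 := (mem_unitsSub_iff R V).mp (Additive.toMul a : unitsSub R V).2 m
          rw [hsupp m hm, Subgroup.mem_bot] at h1
          exact h1
        · intro x _
          apply unitsEquivPi_unitsLift_of_ne
          rintro rfl
          exact hm x.2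
  · -- hindX
    intro c hc h0 x₁
    apply Additive.toMul.injective
    apply Subtype.ext
    apply (unitsEquivPi R).injective
    funext m
    show unitsEquivPi R ((Additive.toMul (c x₁) : unitsSub R V) : Rˣ) m = 1
    by_cases hm : m = (x₁ : MaximalSpectrum R)
    · have h1 := hsum c m
      rw [h0] at h1
      rw [Finset.prod_eq_single x₁] at h1
      · rw [← h1]
        rfl
      · intro x _ hx
        have := (hAx x (c x)).mp (hc x)
        apply this
        rw [hm]
        intro h
        exact hx (Subtype.ext h.symm)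
      · intro h
        exact absurd (Finset.mem_univ _) h
    · exact (hAx x₁ (c x₁)).mp (hc x₁) m hm
  · -- hιrange
    intro τ
    rw [Subgroup.range_subtype, MulAction.mem_stabilizer_iff, Subtype.ext_iff,
      MulAction.orbit.coe_smul]
    exact ⟨fun h => MaximalSpectrum.ext h, fun h => congrArg MaximalSpectrum.asIdeal h⟩
  · -- hj
    intro b b' h
    have h1 : jm (Additive.toMul b) = jm (Additive.toMul b') := Additive.ofMul.injective h
    have h2 := congrArg (fun u : unitsSub R V => (u : Rˣ)) h1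
    simp only [hjm] at h2
    exact Additive.toMul.injective (Subtype.ext (unitsLift_injective R m₀ h2))
  · -- hjrange
    intro a
    rw [hAx]
    constructor
    · rintro ⟨b, rfl⟩
      show ((jm (Additive.toMul b) : unitsSub R V) : Rˣ) ∈ _
      rw [hjm]
      exact unitsLift_mem_unitsComp R _ _
    · intro ha
      have h1 := (mem_unitsSub_iff R V).mp (Additive.toMul a : unitsSub R V).2 m₀
      refine ⟨Additive.ofMul ⟨_, h1⟩, ?_⟩
      apply Additive.toMul.injective
      apply Subtype.ext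
      show ((jm ⟨_, h1⟩ : unitsSub R V) : Rˣ) = _
      rw [hjm]
      exact unitsLift_unitsEquivPi_of_forall R m₀ _ ha
  · -- hjι
    intro d b
    apply Additive.toMul.injective
    apply Subtype.ext
    show ((jm (d • Additive.toMul b) : unitsSub R V) : Rˣ) =
      (d : G) • ((jm (Additive.toMul b) : unitsSub R V) : Rˣ)
    rw [hjm, hjm]
    exact stab_smul_unitsLift F R G m₀ d _

end Main

section CongrGroup

variable {G H : Type*} [Group G] [Fintype G] [Group H] [Fintype H]
  {A B : Type*} [AddCommGroup A] [DistribMulAction G A] [AddCommGroup B] [DistribMulAction H B]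

/-- Tate cohomology cardinalities are invariant under an isomorphism of pairs (group, module). -/
theorem tateCard_congr_group (φ : H ≃* G) (e : B ≃+ A)
    (he : ∀ (h : H) (b : B), e (h • b) = φ h • e b) (σH : H) :
    tateH0Card H B σH = tateH0Card G A (φ σH) ∧ tateH1Card H B σH = tateH1Card G A (φ σH) := by
  have h1 : ∀ b, e (subOneHom B σH b) = subOneHom A (φ σH) (e b) := by
    intro b
    simp [subOneHom_apply, he]
  have h2 : ∀ b, e (normHom H B b) = normHom G A (e b) := by
    intro b
    simp only [normHom_apply, map_sum, he]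
    exact Equiv.sum_comp φ.toEquiv (fun g => g • e b)
  exact ⟨hIndex_congr e h1 h2, hIndex_congr e h2 h1⟩

end CongrGroup

section Transitive

variable (F R G : Type*) [Field F] [CommRing R] [Algebra F R] [IsArtinianRing R] [IsReduced R]
  [Group G] [MulSemiringAction G R] [SMulCommClass G F R]

attribute [local instance] maxSpecMulAction Units.mulDistribMulActionRight
  additiveDistribMulAction

/-- **Semilocal Shapiro lemma for the full unit group**, transitive case. -/
theorem tateCard_units_of_transitive [Fintype G] [MulAction.IsPretransitive G (MaximalSpectrum R)]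
    (m₀ : MaximalSpectrum R) [Fintype (MulAction.stabilizer G m₀.asIdeal)]
    {σ : G} (hσ : ∀ τ, τ ∈ Subgroup.zpowers σ)
    {σD : MulAction.stabilizer G m₀.asIdeal} (hσD : ∀ h, h ∈ Subgroup.zpowers σD) :
    letI := unitsStabAction F R G m₀.asIdeal
    tateH0Card G (Additive Rˣ) σ =
        tateH0Card (MulAction.stabilizer G m₀.asIdeal) (Additive (R ⧸ m₀.asIdeal)ˣ) σD ∧
      tateH1Card G (Additive Rˣ) σ =
        tateH1Card (MulAction.stabilizer G m₀.asIdeal) (Additive (R ⧸ m₀.asIdeal)ˣ) σD := by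
  letI := unitsStabAction F R G m₀.asIdeal
  let V : ∀ m : MaximalSpectrum R, Subgroup (R ⧸ m.asIdeal)ˣ := fun _ => ⊤
  have hU : unitsSub R V = ⊤ := unitsSub_top R
  have hV : ∀ g : G, ∀ u ∈ unitsSub R V, g • u ∈ unitsSub R V := fun g u _ => by
    rw [hU]; exact Subgroup.mem_top _
  have hsupp : ∀ m, m ∉ MulAction.orbit G m₀ → V m = ⊥ := by
    intro m hm
    exact absurd (MulAction.mem_orbit_iff.mpr (MulAction.exists_smul_eq G m₀ m)) hm
  obtain ⟨h0, h1⟩ := tateCard_unitsSub F R G V hV m₀ hsupp hσ hσD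
  letI := unitsSubAction R G V hV
  letI := unitsSubStabAction F R G V hV m₀
  -- transport along `unitsSub R V = ⊤` and `V m₀ = ⊤`
  let e1 : Additive (unitsSub R V) ≃+ Additive Rˣ :=
    MulEquiv.toAdditive (MulEquiv.ofBijective (unitsSub R V).subtype
      ⟨Subgroup.subtype_injective _, fun u => ⟨⟨u, by rw [hU]; exact Subgroup.mem_top _⟩, rfl⟩⟩)
  have he1 : ∀ (τ : G) (a : Additive (unitsSub R V)), e1 (τ • a) = τ • e1 a := fun τ a => rfl
  let e2 : Additive (V m₀) ≃+ Additive (R ⧸ m₀.asIdeal)ˣ :=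
    MulEquiv.toAdditive (Subgroup.topEquiv : (⊤ : Subgroup (R ⧸ m₀.asIdeal)ˣ) ≃* _)
  have he2 : ∀ (τ : MulAction.stabilizer G m₀.asIdeal) (a : Additive (V m₀)),
      e2 (τ • a) = τ • e2 a := fun τ a => rfl
  rw [← tateH0Card_congr e1 he1, ← tateH1Card_congr e1 he1, h0, h1,
    tateH0Card_congr e2 he2, tateH1Card_congr e2 he2]
  exact ⟨rfl, rfl⟩

end Transitive

section Tensor

open scoped TensorProduct Fermat.Agent.CFT.TensorGal

variable (K : Type*) (F L : Type) (G : Type*) [Field K] [Field F] [Field L] [Algebra K F]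
  [Algebra K L] [FiniteDimensional K L] [Algebra.IsSeparable K L]
  [Group G] [Fintype G] [MulSemiringAction G L] [SMulCommClass G K L] [IsGaloisGroup G K L]

attribute [local instance] maxSpecMulAction Ideal.Quotient.field additiveDistribMulAction

/-- Semilocal Shapiro for `(F ⊗[K] L)ˣ`: reduction to the decomposition group acting on a residue
field. -/
theorem tateCard_units_tensor (m : Ideal (F ⊗[K] L)) [hm : m.IsMaximal]
    [Fintype (MulAction.stabilizer G m)]
    {σ : G} (hσ : ∀ τ, τ ∈ Subgroup.zpowers σ)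
    {σD : MulAction.stabilizer G m} (hσD : ∀ h, h ∈ Subgroup.zpowers σD) :
    letI : MulDistribMulAction G (F ⊗[K] L)ˣ := Units.mulDistribMulActionRight
    letI := unitsStabAction F (F ⊗[K] L) G m
    tateH0Card G (Additive (F ⊗[K] L)ˣ) σ =
        tateH0Card (MulAction.stabilizer G m) (Additive ((F ⊗[K] L) ⧸ m)ˣ) σD ∧
      tateH1Card G (Additive (F ⊗[K] L)ˣ) σ =
        tateH1Card (MulAction.stabilizer G m) (Additive ((F ⊗[K] L) ⧸ m)ˣ) σD := by
  haveI := maxSpec_isPretransitive F (F ⊗[K] L) G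
  exact tateCard_units_of_transitive F (F ⊗[K] L) G ⟨m, hm⟩ hσ hσD

include G in
theorem finiteDimensional_tensor_quot (m : Ideal (F ⊗[K] L)) [m.IsMaximal] :
    FiniteDimensional F ((F ⊗[K] L) ⧸ m) :=
  Module.Finite.of_surjective (Ideal.Quotient.mkₐ F m).toLinearMap
    (Ideal.Quotient.mkₐ_surjective F m)

/-- Reduction to the Galois group of the residue field extension. -/
theorem tateCard_units_tensor_gal (m : Ideal (F ⊗[K] L)) [hm : m.IsMaximal]
    [Fintype (((F ⊗[K] L) ⧸ m) ≃ₐ[F] ((F ⊗[K] L) ⧸ m))]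
    {σ : G} (hσ : ∀ τ, τ ∈ Subgroup.zpowers σ)
    {σE : ((F ⊗[K] L) ⧸ m) ≃ₐ[F] ((F ⊗[K] L) ⧸ m)} (hσE : ∀ h, h ∈ Subgroup.zpowers σE) :
    letI : MulDistribMulAction G (F ⊗[K] L)ˣ := Units.mulDistribMulActionRight
    tateH0Card G (Additive (F ⊗[K] L)ˣ) σ =
        tateH0Card (((F ⊗[K] L) ⧸ m) ≃ₐ[F] ((F ⊗[K] L) ⧸ m)) (Additive ((F ⊗[K] L) ⧸ m)ˣ) σE ∧
      tateH1Card G (Additive (F ⊗[K] L)ˣ) σ =
        tateH1Card (((F ⊗[K] L) ⧸ m) ≃ₐ[F] ((F ⊗[K] L) ⧸ m)) (Additive ((F ⊗[K] L) ⧸ m)ˣ) σE := by
  classical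
  letI : MulDistribMulAction G (F ⊗[K] L)ˣ := Units.mulDistribMulActionRight
  letI : Fintype (MulAction.stabilizer G m) := Fintype.ofFinite _
  let φ := quotStabEquiv K F L G m
  have hgen : ∀ h, h ∈ Subgroup.zpowers (φ.symm σE) := by
    intro h
    obtain ⟨k, hk⟩ := Subgroup.mem_zpowers_iff.mp (hσE (φ h))
    refine Subgroup.mem_zpowers_iff.mpr ⟨k, ?_⟩
    apply φ.injective
    rw [map_zpow, MulEquiv.apply_symm_apply, hk]
  obtain ⟨h0, h1⟩ := tateCard_units_tensor K F L G m hσ hgen
  letI := unitsStabAction F (F ⊗[K] L) G m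
  obtain ⟨h0', h1'⟩ := tateCard_congr_group
    (A := Additive ((F ⊗[K] L) ⧸ m)ˣ) (B := Additive ((F ⊗[K] L) ⧸ m)ˣ) φ (AddEquiv.refl _)
    (fun h b => rfl) (φ.symm σE)
  rw [MulEquiv.apply_symm_apply] at h0' h1'
  exact ⟨h0.trans h0', h1.trans h1'⟩

/-- **Hilbert 90 for the semilocal algebra** `F ⊗[K] L`. -/
theorem tateH1Card_units_tensor {σ : G} (hσ : ∀ τ, τ ∈ Subgroup.zpowers σ) :
    letI : MulDistribMulAction G (F ⊗[K] L)ˣ := Units.mulDistribMulActionRight
    tateH1Card G (Additive (F ⊗[K] L)ˣ) σ = 1 := by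
  classical
  obtain ⟨m, hm⟩ := Ideal.exists_maximal (F ⊗[K] L)
  haveI := finiteDimensional_tensor_quot K F L G m
  haveI := isGalois_tensor_quot K F L G m
  haveI : IsCyclic G := ⟨σ, hσ⟩
  haveI : IsCyclic (MulAction.stabilizer G m) := Subgroup.isCyclic _
  haveI : IsCyclic (((F ⊗[K] L) ⧸ m) ≃ₐ[F] ((F ⊗[K] L) ⧸ m)) :=
    isCyclic_of_surjective (quotStabEquiv K F L G m) (quotStabEquiv K F L G m).surjective
  obtain ⟨σE, hσE⟩ := IsCyclic.exists_generator
    (α := ((F ⊗[K] L) ⧸ m) ≃ₐ[F] ((F ⊗[K] L) ⧸ m))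
  have h1 := (tateCard_units_tensor_gal K F L G m hσ hσE).2
  have h2 := tateH1Card_units_field F ((F ⊗[K] L) ⧸ m) hσE
  exact h1.trans h2

/-- **Local norm index for the semilocal algebra**: for `F` a local field,
`|Ĥ⁰(G, (F ⊗[K] L)ˣ)|` is the order of the decomposition group. -/
theorem tateH0Card_units_tensor (hF : IsLocalFieldNA F) (m : Ideal (F ⊗[K] L)) [hm : m.IsMaximal]
    {σ : G} (hσ : ∀ τ, τ ∈ Subgroup.zpowers σ) :
    letI : MulDistribMulAction G (F ⊗[K] L)ˣ := Units.mulDistribMulActionRight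
    tateH0Card G (Additive (F ⊗[K] L)ˣ) σ = Nat.card (MulAction.stabilizer G m) := by
  classical
  haveI := finiteDimensional_tensor_quot K F L G m
  haveI := isGalois_tensor_quot K F L G m
  haveI : IsCyclic G := ⟨σ, hσ⟩
  haveI : IsCyclic (MulAction.stabilizer G m) := Subgroup.isCyclic _
  haveI : IsCyclic (((F ⊗[K] L) ⧸ m) ≃ₐ[F] ((F ⊗[K] L) ⧸ m)) :=
    isCyclic_of_surjective (quotStabEquiv K F L G m) (quotStabEquiv K F L G m).surjective
  obtain ⟨σE, hσE⟩ := IsCyclic.exists_generator
    (α := ((F ⊗[K] L) ⧸ m) ≃ₐ[F] ((F ⊗[K] L) ⧸ m))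
  have h1 := (tateCard_units_tensor_gal K F L G m hσ hσE).1
  have h2 := tateH0Card_units_field F ((F ⊗[K] L) ⧸ m) hσE
  rw [hF.normSubgroup_index, finrank_tensor_quot K F L G m] at h2
  exact h1.trans h2

end Tensor

end Fermat.Agent.CFT
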