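import Mathlib
import Fermat.Agent.CFT.Idele.Defs
import Fermat.Agent.CFT.Idele.SemiLocal
import Fermat.Agent.CFT.Idele.AdicLocalField
import Fermat.Agent.CFT.Local.CompleteDVRExt
import Fermat.Agent.CFT.Local.Interface
import Fermat.Agent.CFT.Global.CrossVal
import Fermat.Agent.CFT.Global.PrimeDivisor

set_option autoImplicit false
set_option linter.unusedSectionVars false
set_option linter.style.haveILetI false

/-!
# S55 pool, chunk (GL7), bridge: the residue fields of `K_v ⊗[K] L` at an unramified prime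
(helper20)

`L / K` number fields, `v` a prime of `K`, `R = K_v ⊗[K] L`, `m` a maximal ideal of `R`,
`E = R / m` (a finite extension of `K_v`), `B = integralClosure O_v E` (a complete DVR).

* (D1) `unrB_psi : L →ₐ[K] E`, `unrB_phi : 𝓞 L →+* B`, `unrB_w : HeightOneSpectrum (𝓞 L)` the prime of
  `L` cut out by `m` (it lies over `v`: `unrB_primeBelow_w`);
* (D2) `unrB_psi_mem_of_valuation_le_one`, `unrB_isUnit_of_valuation_eq_one` : `w_m(x) ≤ 1`
  (resp. `= 1`) implies `ψ x ∈ B` (resp. `ψ x ∈ Bˣ`);
* (D3) `unrB_exists_irreducible` : some `y ∈ L` maps to a uniformizer of `B` (density of `L` in `E`);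
* (D4) `unrB_isUnramifiedExt` : if the inertia group of `w_m` is trivial then `B / O_v` is unramified
  in the sense of `Local/Interface.lean`.
-/

namespace Fermat.Agent.CFT

open IsDedekindDomain IsDedekindDomain.HeightOneSpectrum NumberField TensorProduct IsLocalRing

attribute [local instance] Ideal.Quotient.field

variable (K L : Type) [Field K] [NumberField K] [Field L] [NumberField L] [Algebra K L]
variable (v : HeightOneSpectrum (𝓞 K)) (m : Ideal (semiLocal K L v)) [hm : m.IsMaximal]

/-- the residue field `E = (K_v ⊗[K] L) / m`. -/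
abbrev unrB_E : Type := semiLocal K L v ⧸ m

/-- `B = integralClosure O_v E`. -/
noncomputable abbrev unrB_B : Subalgebra (v.adicCompletionIntegers K) (unrB_E K L v m) :=
  integralClosure (v.adicCompletionIntegers K) (unrB_E K L v m)

/-- `ψ : L → E`, `x ↦ (1 ⊗ x mod m)`. -/
noncomputable def unrB_psi : L →ₐ[K] unrB_E K L v m :=
  (Ideal.Quotient.mkₐ K m).comp (semiLocalIncl K L v)

theorem unrB_psi_apply (x : L) :
    unrB_psi K L v m x = Ideal.Quotient.mk m ((1 : v.adicCompletion K) ⊗ₜ[K] x) := rfl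

/-- the structure map `K → E` factors through `ψ`. -/
theorem unrB_psi_algebraMap (a : K) :
    unrB_psi K L v m (algebraMap K L a) =
      algebraMap (v.adicCompletion K) (unrB_E K L v m) (algebraMap K (v.adicCompletion K) a) := by
  rw [AlgHom.commutes, IsScalarTower.algebraMap_apply K (v.adicCompletion K) (unrB_E K L v m)]

/-- integers of `L` map into `B`. -/
theorem unrB_isIntegral_psi (x : 𝓞 L) :
    IsIntegral (v.adicCompletionIntegers K) (unrB_psi K L v m (x : L)) := by
  have h1 : IsIntegral ℤ (x : L) := RingOfIntegers.isIntegral_coe x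
  have h2 : IsIntegral ℤ (unrB_psi K L v m (x : L)) :=
    h1.map ((unrB_psi K L v m).restrictScalars ℤ)
  exact h2.tower_top

/-- `φ : 𝓞 L → B`. -/
noncomputable def unrB_phi : 𝓞 L →+* unrB_B K L v m where
  toFun x := ⟨unrB_psi K L v m (x : L), unrB_isIntegral_psi K L v m x⟩
  map_one' := by
    apply Subtype.ext
    simp
  map_mul' x y := by
    apply Subtype.ext
    simp
  map_zero' := by
    apply Subtype.ext
    simp
  map_add' x y := by
    apply Subtype.ext
    simp

theorem unrB_coe_phi (x : 𝓞 L) :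
    ((unrB_phi K L v m x : unrB_B K L v m) : unrB_E K L v m) = unrB_psi K L v m (x : L) := rfl

/-! ### `B` is a complete discrete valuation ring -/

theorem unrB_isAdicComplete :
    IsAdicComplete (maximalIdeal (v.adicCompletionIntegers K)) (v.adicCompletionIntegers K) :=
  adicLF_isAdicComplete K v

theorem unrB_isSeparable : Algebra.IsSeparable (v.adicCompletion K) (unrB_E K L v m) := by
  haveI := adicLF_charZero K v
  infer_instance

attribute [local instance] unrB_isAdicComplete unrB_isSeparable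

theorem unrB_isLocalRing : IsLocalRing (unrB_B K L v m) :=
  intClosure_isLocalRing (v.adicCompletionIntegers K) (v.adicCompletion K) (unrB_E K L v m)
    (unrB_B K L v m)

attribute [local instance] unrB_isLocalRing

theorem unrB_isDiscreteValuationRing : IsDiscreteValuationRing (unrB_B K L v m) :=
  intClosure_isDiscreteValuationRing (v.adicCompletionIntegers K) (v.adicCompletion K)
    (unrB_E K L v m) (unrB_B K L v m)

theorem unrB_isLocalHom :
    IsLocalHom (algebraMap (v.adicCompletionIntegers K) (unrB_B K L v m)) :=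
  intClosure_isLocalHom (v.adicCompletionIntegers K) (v.adicCompletion K) (unrB_E K L v m)
    (unrB_B K L v m)

attribute [local instance] unrB_isDiscreteValuationRing unrB_isLocalHom

/-! ### (D1) the prime `w_m` of `L` -/

/-- compatibility of `φ` with the structure maps. -/
theorem unrB_phi_algebraMap (a : 𝓞 K) :
    unrB_phi K L v m (algebraMap (𝓞 K) (𝓞 L) a) =
      algebraMap (v.adicCompletionIntegers K) (unrB_B K L v m)
        (algebraMap (𝓞 K) (v.adicCompletionIntegers K) a) := by
  apply Subtype.ext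
  rw [unrB_coe_phi]
  have h1 : ((algebraMap (𝓞 K) (𝓞 L) a : 𝓞 L) : L) = algebraMap K L (a : K) := rfl
  rw [h1, unrB_psi_algebraMap]
  have h2 : ((algebraMap (v.adicCompletionIntegers K) (unrB_B K L v m)
      (algebraMap (𝓞 K) (v.adicCompletionIntegers K) a) : unrB_B K L v m) : unrB_E K L v m) =
      algebraMap (v.adicCompletion K) (unrB_E K L v m)
        ((algebraMap (𝓞 K) (v.adicCompletionIntegers K) a : v.adicCompletionIntegers K) :
          v.adicCompletion K) := rfl
  rw [h2, adicLF_coe_algebraMap]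

/-- the ideal of `𝓞 L` cut out by `m`. -/
noncomputable def unrB_wIdeal : Ideal (𝓞 L) :=
  (maximalIdeal (unrB_B K L v m)).comap (unrB_phi K L v m)

theorem unrB_mem_wIdeal_iff (x : 𝓞 L) :
    x ∈ unrB_wIdeal K L v m ↔ unrB_phi K L v m x ∈ maximalIdeal (unrB_B K L v m) := Iff.rfl

theorem unrB_algebraMap_mem_wIdeal_iff (a : 𝓞 K) :
    algebraMap (𝓞 K) (𝓞 L) a ∈ unrB_wIdeal K L v m ↔ a ∈ v.asIdeal := by
  rw [unrB_mem_wIdeal_iff, unrB_phi_algebraMap, mem_maximalIdeal, map_mem_nonunits_iff,
    ← mem_maximalIdeal, adicLF_mem_maximalIdeal_iff, adicLF_coe_algebraMap,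
    adicLF_valued_algebraMap, valuation_lt_one_iff_mem]

theorem unrB_wIdeal_isPrime : (unrB_wIdeal K L v m).IsPrime :=
  Ideal.comap_isPrime _ _

theorem unrB_wIdeal_ne_bot : unrB_wIdeal K L v m ≠ ⊥ := by
  obtain ⟨a, ha, ha0⟩ := Submodule.exists_mem_ne_zero_of_ne_bot v.ne_bot
  intro hbot
  have h1 : algebraMap (𝓞 K) (𝓞 L) a ∈ unrB_wIdeal K L v m :=
    (unrB_algebraMap_mem_wIdeal_iff K L v m a).mpr ha
  rw [hbot, Ideal.mem_bot] at h1
  exact ha0 ((FaithfulSMul.algebraMap_injective (𝓞 K) (𝓞 L)) (by rw [h1, map_zero]))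

/-- the prime `w_m` of `L` cut out by `m`. -/
noncomputable def unrB_w : HeightOneSpectrum (𝓞 L) :=
  ⟨unrB_wIdeal K L v m, unrB_wIdeal_isPrime K L v m, unrB_wIdeal_ne_bot K L v m⟩

theorem unrB_w_asIdeal : (unrB_w K L v m).asIdeal = unrB_wIdeal K L v m := rfl

/-- `w_m` lies over `v`. -/
theorem unrB_primeBelow_w : primeBelow K L (unrB_w K L v m) = v := by
  apply HeightOneSpectrum.ext
  ext a
  rw [under_asIdeal, Ideal.under_def, Ideal.mem_comap, unrB_w_asIdeal]
  exact unrB_algebraMap_mem_wIdeal_iff K L v m a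

/-! ### (D2) `w_m`-integral elements of `L` land in `B` -/

/-- integers of `L` outside `w_m` map to units of `B`. -/
theorem unrB_isUnit_phi_of_not_mem (d : 𝓞 L) (hd : d ∉ (unrB_w K L v m).asIdeal) :
    IsUnit (unrB_phi K L v m d) := by
  by_contra h
  exact hd ((unrB_mem_wIdeal_iff K L v m d).mpr h)

/-- (D2) `w_m(x) ≤ 1` implies `ψ x ∈ B`. -/
theorem unrB_psi_mem_of_valuation_le_one (x : L) (hx : (unrB_w K L v m).valuation L x ≤ 1) :
    unrB_psi K L v m x ∈ unrB_B K L v m := by
  obtain ⟨n, d, hnd⟩ := exists_primeCompl_mul_eq_of_integer (unrB_w K L v m) x hx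
  obtain ⟨u, hu⟩ := unrB_isUnit_phi_of_not_mem K L v m d d.2
  have h1 : unrB_psi K L v m x * ((u : unrB_B K L v m) : unrB_E K L v m) =
      ((unrB_phi K L v m n : unrB_B K L v m) : unrB_E K L v m) := by
    rw [hu, unrB_coe_phi, unrB_coe_phi, ← map_mul]
    exact congrArg (unrB_psi K L v m) hnd
  have h2 : unrB_psi K L v m x =
      (((unrB_phi K L v m n) * ((u⁻¹ : (unrB_B K L v m)ˣ) : unrB_B K L v m) : unrB_B K L v m) :
        unrB_E K L v m) := by
    rw [Subalgebra.coe_mul, ← h1, mul_assoc, ← Subalgebra.coe_mul, Units.mul_inv,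
      Subalgebra.coe_one, mul_one]
  rw [h2]
  exact Subtype.property _

/-- (D2), units: `w_m(x) = 1` implies that `ψ x` is a unit of `B`. -/
theorem unrB_isUnit_of_valuation_eq_one (x : L) (hx : (unrB_w K L v m).valuation L x = 1) :
    ∃ u : (unrB_B K L v m)ˣ, ((u : unrB_B K L v m) : unrB_E K L v m) = unrB_psi K L v m x := by
  have hx0 : x ≠ 0 := by
    rintro rfl
    rw [map_zero] at hx
    exact zero_ne_one hx
  have h1 := unrB_psi_mem_of_valuation_le_one K L v m x hx.le
  have h2 := unrB_psi_mem_of_valuation_le_one K L v m x⁻¹ (by rw [map_inv₀, hx, inv_one])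
  refine ⟨⟨⟨_, h1⟩, ⟨_, h2⟩, ?_, ?_⟩, rfl⟩
  · apply Subtype.ext
    rw [Subalgebra.coe_mul, Subalgebra.coe_one, ← map_mul, mul_inv_cancel₀ hx0, map_one]
  · apply Subtype.ext
    rw [Subalgebra.coe_mul, Subalgebra.coe_one, ← map_mul, inv_mul_cancel₀ hx0, map_one]

/-- if `ψ y` lies in the maximal ideal of `B` then `w_m(y) < 1`. -/
theorem unrB_valuation_lt_one_of_mem (y : L) (hy : unrB_psi K L v m y ∈ unrB_B K L v m)
    (hy' : (⟨_, hy⟩ : unrB_B K L v m) ∈ maximalIdeal (unrB_B K L v m)) :
    (unrB_w K L v m).valuation L y < 1 := by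
  by_contra hcon
  rw [not_lt] at hcon
  have hy0 : y ≠ 0 := by
    rintro rfl
    rw [map_zero] at hcon
    exact not_le.mpr zero_lt_one hcon
  have h2 := unrB_psi_mem_of_valuation_le_one K L v m y⁻¹
    (by rw [map_inv₀]; exact inv_le_one_of_one_le₀ hcon)
  apply hy'
  refine IsUnit.of_mul_eq_one ⟨_, h2⟩ ?_
  apply Subtype.ext
  rw [Subalgebra.coe_mul, Subalgebra.coe_one, ← map_mul, mul_inv_cancel₀ hy0, map_one]

/-! ### (D3) density of `L` in `E` -/

omit [NumberField L] [Algebra K L] in
/-- density of `K` in `K_v`, multiplicative form. -/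
theorem unrB_exists_sub_eq_mul (c t : v.adicCompletion K) (ht : t ≠ 0) :
    ∃ (k : K) (a : v.adicCompletionIntegers K),
      c - algebraMap K (v.adicCompletion K) k = t * (a : v.adicCompletion K) := by
  have hopen : IsOpen {y : v.adicCompletion K | Valued.v ((y - c) * t⁻¹) < (1 : WithZero (Multiplicative ℤ))} := by
    have hcont : Continuous fun y : v.adicCompletion K => (y - c) * t⁻¹ :=
      (continuous_id.sub continuous_const).mul continuous_const
    exact (adicLF_isOpen_ball K v).preimage hcont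
  have hc : c ∈ {y : v.adicCompletion K | Valued.v ((y - c) * t⁻¹) < (1 : WithZero (Multiplicative ℤ))} := by
    rw [Set.mem_ofPred_eq, sub_self, zero_mul, map_zero]
    exact zero_lt_one
  obtain ⟨k, hk⟩ := (denseRange_algebraMap (K := K) v).exists_mem_open hopen ⟨c, hc⟩
  rw [Set.mem_ofPred_eq] at hk
  refine ⟨k, ⟨(c - algebraMap K (v.adicCompletion K) k) * t⁻¹, ?_⟩, ?_⟩
  · rw [mem_adicCompletionIntegers]
    have : (c - algebraMap K (v.adicCompletion K) k) * t⁻¹ =
        -((algebraMap K (v.adicCompletion K) k - c) * t⁻¹) := by ring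
    rw [this, Valuation.map_neg]
    exact hk.le
  · show c - algebraMap K (v.adicCompletion K) k =
      t * ((c - algebraMap K (v.adicCompletion K) k) * t⁻¹)
    field_simp

/-- denominators: every element of `E` becomes integral after multiplication by a power of a
uniformizer of `O_v`. -/
theorem unrB_exists_pow_mul_mem {ϖ : v.adicCompletionIntegers K} (hϖ : Irreducible ϖ)
    (e : unrB_E K L v m) :
    ∃ M : ℕ, algebraMap (v.adicCompletionIntegers K) (unrB_E K L v m) (ϖ ^ M) * e ∈
      unrB_B K L v m := by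
  have halg : IsAlgebraic (v.adicCompletionIntegers K) e :=
    (IsFractionRing.isAlgebraic_iff (v.adicCompletionIntegers K) (v.adicCompletion K)
      (unrB_E K L v m)).mpr (Algebra.IsAlgebraic.isAlgebraic e)
  obtain ⟨y, hy0, hy⟩ := halg.exists_integral_multiple
  obtain ⟨M, u, rfl⟩ := IsDiscreteValuationRing.eq_unit_mul_pow_irreducible hy0 hϖ
  refine ⟨M, ?_⟩
  have h1 : algebraMap (v.adicCompletionIntegers K) (unrB_E K L v m) (ϖ ^ M) * e =
      algebraMap (v.adicCompletionIntegers K) (unrB_E K L v m)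
        ((u⁻¹ : (v.adicCompletionIntegers K)ˣ) : v.adicCompletionIntegers K) *
        (((u : v.adicCompletionIntegers K) * ϖ ^ M) • e) := by
    have hs : ((u : v.adicCompletionIntegers K) * ϖ ^ M) • e =
        algebraMap (v.adicCompletionIntegers K) (unrB_E K L v m)
          ((u : v.adicCompletionIntegers K) * ϖ ^ M) * e :=
      Algebra.smul_def (R := v.adicCompletionIntegers K) (A := unrB_E K L v m) _ _
    rw [hs, ← mul_assoc, ← map_mul, ← mul_assoc, Units.inv_mul, one_mul]
  rw [h1]
  exact (unrB_B K L v m).mul_mem (isIntegral_algebraMap) hy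

/-- **density**: every element of `E` is congruent to an element of (the image of) `L` modulo any
power of the uniformizer. -/
theorem unrB_exists_psi_sub_eq {ϖ : v.adicCompletionIntegers K} (hϖ : Irreducible ϖ)
    (r : semiLocal K L v) (N : ℕ) :
    ∃ (y : L) (b : unrB_B K L v m), Ideal.Quotient.mk m r - unrB_psi K L v m y =
      algebraMap (v.adicCompletionIntegers K) (unrB_E K L v m) (ϖ ^ N) * (b : unrB_E K L v m) := by
  induction r using TensorProduct.induction_on with
  | zero => exact ⟨0, 0, by simp⟩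
  | tmul c l =>
    obtain ⟨M, hM⟩ := unrB_exists_pow_mul_mem K L v m hϖ (unrB_psi K L v m l)
    have hϖ0 : ((ϖ ^ (N + M) : v.adicCompletionIntegers K) : v.adicCompletion K) ≠ 0 := by
      intro h
      have h1 : (ϖ ^ (N + M) : v.adicCompletionIntegers K) = 0 := Subtype.ext h
      exact pow_ne_zero _ hϖ.ne_zero h1
    obtain ⟨k, a, hka⟩ := unrB_exists_sub_eq_mul K v c _ hϖ0
    refine ⟨algebraMap K L k * l,
      algebraMap (v.adicCompletionIntegers K) (unrB_B K L v m) a * ⟨_, hM⟩, ?_⟩
    have h1 : Ideal.Quotient.mk m (c ⊗ₜ[K] l) =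
        algebraMap (v.adicCompletion K) (unrB_E K L v m) c * unrB_psi K L v m l := by
      have h0 : c ⊗ₜ[K] l =
          algebraMap (v.adicCompletion K) (semiLocal K L v) c * ((1 : v.adicCompletion K) ⊗ₜ[K] l) := by
        rw [Algebra.TensorProduct.algebraMap_apply, Algebra.TensorProduct.tmul_mul_tmul, one_mul,
          Algebra.algebraMap_self, RingHom.id_apply, mul_one]
      rw [h0, map_mul, unrB_psi_apply]
      rfl
    have h2 : unrB_psi K L v m (algebraMap K L k * l) =
        algebraMap (v.adicCompletion K) (unrB_E K L v m)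
          (algebraMap K (v.adicCompletion K) k) * unrB_psi K L v m l := by
      rw [map_mul, unrB_psi_algebraMap]
    rw [h1, h2, ← sub_mul, ← map_sub, hka, map_mul]
    have h3 : algebraMap (v.adicCompletion K) (unrB_E K L v m)
        ((ϖ ^ (N + M) : v.adicCompletionIntegers K) : v.adicCompletion K) =
        algebraMap (v.adicCompletionIntegers K) (unrB_E K L v m) (ϖ ^ N) *
          algebraMap (v.adicCompletionIntegers K) (unrB_E K L v m) (ϖ ^ M) := by
      rw [← map_mul, ← pow_add]
      rfl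
    have h4 : algebraMap (v.adicCompletion K) (unrB_E K L v m) (a : v.adicCompletion K) =
        algebraMap (v.adicCompletionIntegers K) (unrB_E K L v m) a := rfl
    rw [h3, h4]
    show _ = _ * (algebraMap (v.adicCompletionIntegers K) (unrB_E K L v m) a *
      (algebraMap (v.adicCompletionIntegers K) (unrB_E K L v m) (ϖ ^ M) * unrB_psi K L v m l))
    ring
  | add r₁ r₂ h₁ h₂ =>
    obtain ⟨y₁, b₁, e₁⟩ := h₁
    obtain ⟨y₂, b₂, e₂⟩ := h₂
    refine ⟨y₁ + y₂, b₁ + b₂, ?_⟩
    rw [map_add, map_add, Subalgebra.coe_add, mul_add, ← e₁, ← e₂]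
    ring

/-- (D3) some element of `L` maps to a uniformizer of `B`. -/
theorem unrB_exists_irreducible :
    ∃ (y : L) (hy : unrB_psi K L v m y ∈ unrB_B K L v m),
      Irreducible (⟨_, hy⟩ : unrB_B K L v m) := by
  obtain ⟨ϖ, hϖ⟩ := IsDiscreteValuationRing.exists_irreducible (v.adicCompletionIntegers K)
  obtain ⟨ϖB, hϖB⟩ := IsDiscreteValuationRing.exists_irreducible (unrB_B K L v m)
  obtain ⟨r, hr⟩ := Ideal.Quotient.mk_surjective (ϖB : unrB_E K L v m)
  obtain ⟨y, b, hyb⟩ := unrB_exists_psi_sub_eq K L v m hϖ r 2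
  have h1 : algebraMap (v.adicCompletionIntegers K) (unrB_B K L v m) ϖ ∈
      maximalIdeal (unrB_B K L v m) := by
    rw [mem_maximalIdeal, map_mem_nonunits_iff]
    exact hϖ.not_isUnit
  rw [hϖB.maximalIdeal_eq, Ideal.mem_span_singleton'] at h1
  obtain ⟨c, hc⟩ := h1
  have h2 : unrB_psi K L v m y =
      ((ϖB * (1 - ϖB * (c ^ 2 * b)) : unrB_B K L v m) : unrB_E K L v m) := by
    have h3 : unrB_psi K L v m y = Ideal.Quotient.mk m r -
        algebraMap (v.adicCompletionIntegers K) (unrB_E K L v m) (ϖ ^ 2) * (b : unrB_E K L v m) := by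
      rw [← hyb]; ring
    have h4 : algebraMap (v.adicCompletionIntegers K) (unrB_E K L v m) (ϖ ^ 2) =
        (((c * ϖB) ^ 2 : unrB_B K L v m) : unrB_E K L v m) := by
      rw [hc, ← map_pow]
      rfl
    rw [h3, hr, h4]
    push_cast
    ring
  have hu : IsUnit (1 - ϖB * (c ^ 2 * b)) := by
    apply isUnit_one_sub_self_of_mem_nonunits
    rw [← mem_maximalIdeal]
    exact Ideal.mul_mem_right _ _ ((mem_maximalIdeal ϖB).mpr hϖB.not_isUnit)
  have hy : unrB_psi K L v m y ∈ unrB_B K L v m := by
    rw [h2]; exact Subtype.property _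
  refine ⟨y, hy, ?_⟩
  have h5 : (⟨_, hy⟩ : unrB_B K L v m) = ϖB * (1 - ϖB * (c ^ 2 * b)) := Subtype.ext h2
  rw [h5, irreducible_mul_isUnit hu]
  exact hϖB

/-! ### (D4) unramifiedness -/

/-- (D4), valuation form: if a uniformizer of `v` is a uniformizer of `w_m` then `B / O_v` is
unramified. -/
theorem unrB_isUnramifiedExt_of_valuation {π : K}
    (hπ : v.valuation K π = WithZero.exp (-1 : ℤ))
    (hπw : (unrB_w K L v m).valuation L (algebraMap K L π) = WithZero.exp (-1 : ℤ)) :
    IsUnramifiedExt (v.adicCompletionIntegers K) (unrB_B K L v m) := by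
  obtain ⟨ϖ, hϖ⟩ := IsDiscreteValuationRing.exists_irreducible (v.adicCompletionIntegers K)
  have hϖv := adicLF_valued_irreducible K v hϖ
  have hπv : Valued.v (algebraMap K (v.adicCompletion K) π) = WithZero.exp (-1 : ℤ) := by
    rw [adicLF_valued_algebraMap, hπ]
  have hϖ0 : (ϖ : v.adicCompletion K) ≠ 0 := fun h => hϖ.ne_zero (Subtype.ext h)
  have hπ0 : algebraMap K (v.adicCompletion K) π ≠ 0 := by
    intro h
    rw [h, map_zero] at hπv
    exact WithZero.exp_ne_zero hπv.symm
  -- `π = ϖ * unit` in `O_v`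
  have hq : Valued.v (algebraMap K (v.adicCompletion K) π * (ϖ : v.adicCompletion K)⁻¹) =
      (1 : WithZero (Multiplicative ℤ)) := by
    rw [map_mul, map_inv₀, hπv, hϖv, mul_inv_cancel₀ WithZero.exp_ne_zero]
  have hq' : Valued.v ((ϖ : v.adicCompletion K) * (algebraMap K (v.adicCompletion K) π)⁻¹) =
      (1 : WithZero (Multiplicative ℤ)) := by
    rw [map_mul, map_inv₀, hπv, hϖv, mul_inv_cancel₀ WithZero.exp_ne_zero]
  let uA : v.adicCompletionIntegers K :=
    ⟨algebraMap K (v.adicCompletion K) π * (ϖ : v.adicCompletion K)⁻¹,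
      (mem_adicCompletionIntegers _ _ _).mpr hq.le⟩
  let uA' : v.adicCompletionIntegers K :=
    ⟨(ϖ : v.adicCompletion K) * (algebraMap K (v.adicCompletion K) π)⁻¹,
      (mem_adicCompletionIntegers _ _ _).mpr hq'.le⟩
  have huA : IsUnit uA := by
    refine IsUnit.of_mul_eq_one uA' (Subtype.ext ?_)
    show algebraMap K (v.adicCompletion K) π * (ϖ : v.adicCompletion K)⁻¹ *
      ((ϖ : v.adicCompletion K) * (algebraMap K (v.adicCompletion K) π)⁻¹) = 1
    field_simp
  let πA : v.adicCompletionIntegers K := ϖ * uA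
  have hπA : Irreducible πA := (irreducible_mul_isUnit huA).mpr hϖ
  have hπAcoe : (πA : v.adicCompletion K) = algebraMap K (v.adicCompletion K) π := by
    show (ϖ : v.adicCompletion K) *
      (algebraMap K (v.adicCompletion K) π * (ϖ : v.adicCompletion K)⁻¹) = _
    field_simp
  -- a uniformizer of `B` coming from `L`
  obtain ⟨y, hy, hirr⟩ := unrB_exists_irreducible K L v m
  have hylt := unrB_valuation_lt_one_of_mem K L v m y hy
    ((mem_maximalIdeal _).mpr hirr.not_isUnit)
  have hy0 : y ≠ 0 := by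
    rintro rfl
    apply hirr.ne_zero
    apply Subtype.ext
    simp
  have hwy0 : (unrB_w K L v m).valuation L y ≠ 0 := (Valuation.ne_zero_iff _).mpr hy0
  -- the exponent
  have hlog : WithZero.log ((unrB_w K L v m).valuation L y) < 0 := by
    rw [← WithZero.exp_lt_exp, WithZero.exp_log hwy0, WithZero.exp_zero]
    exact hylt
  obtain ⟨n, hn⟩ : ∃ n : ℕ, ((n + 1 : ℕ) : ℤ) = -WithZero.log ((unrB_w K L v m).valuation L y) :=
    ⟨(-WithZero.log ((unrB_w K L v m).valuation L y) - 1).toNat, by
      push_cast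
      rw [Int.toNat_of_nonneg (by omega)]
      ring⟩
  have hπL0 : algebraMap K L π ≠ 0 := by
    intro h
    rw [h, map_zero] at hπw
    exact WithZero.exp_ne_zero hπw.symm
  -- `t = y / π ^ (n + 1)` is a `w_m`-unit
  have ht : (unrB_w K L v m).valuation L (y * (algebraMap K L π ^ (n + 1))⁻¹) = 1 := by
    rw [map_mul, map_inv₀, map_pow, hπw, ← WithZero.exp_nsmul, ← WithZero.exp_neg,
      ← WithZero.exp_log hwy0, ← WithZero.exp_add, ← WithZero.exp_zero, WithZero.exp_inj]
    rw [nsmul_eq_mul, hn]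
    ring
  obtain ⟨ut, hut⟩ := unrB_isUnit_of_valuation_eq_one K L v m _ ht
  -- the image of `π` in `B`
  set p0 : unrB_B K L v m := algebraMap (v.adicCompletionIntegers K) (unrB_B K L v m) πA with hp0
  have hp0coe : (p0 : unrB_E K L v m) = unrB_psi K L v m (algebraMap K L π) := by
    rw [unrB_psi_algebraMap, ← hπAcoe]
    rfl
  have hp0nu : ¬ IsUnit p0 := by
    intro h
    exact hπA.not_isUnit (isUnit_of_map_unit (algebraMap (v.adicCompletionIntegers K)
      (unrB_B K L v m)) πA h)
  -- `ψ y = ut * p0 ^ (n + 1)`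
  have hfac : (⟨_, hy⟩ : unrB_B K L v m) = p0 * ((ut : unrB_B K L v m) * p0 ^ n) := by
    apply Subtype.ext
    rw [Subalgebra.coe_mul, Subalgebra.coe_mul, Subalgebra.coe_pow, hp0coe, hut,
      ← map_pow (unrB_psi K L v m) (algebraMap K L π) n, ← map_mul, ← map_mul]
    show unrB_psi K L v m y = _
    congr 1
    field_simp
    rw [pow_succ']
  have hp0irr : Irreducible p0 := by
    rcases hirr.isUnit_or_isUnit hfac with h | h
    · exact absurd h hp0nu
    · rw [hfac, irreducible_mul_isUnit h] at hirr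
      exact hirr
  -- conclusion
  unfold IsUnramifiedExt
  rw [hπA.maximalIdeal_eq, hp0irr.maximalIdeal_eq, Ideal.map_span, Set.image_singleton]

/-- (D4) if the inertia group of `w_m` is trivial then `B / O_v` is unramified. -/
theorem unrB_isUnramifiedExt [IsGalois K L]
    (h : (unrB_w K L v m).asIdeal.inertia Gal(L/K) = ⊥) :
    IsUnramifiedExt (v.adicCompletionIntegers K) (unrB_B K L v m) := by
  obtain ⟨π, hπ⟩ := v.valuation_exists_uniformizer K
  haveI : (unrB_w K L v m).asIdeal.LiesOver v.asIdeal := by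
    constructor
    have := congrArg HeightOneSpectrum.asIdeal (unrB_primeBelow_w K L v m)
    rw [under_asIdeal] at this
    exact this.symm
  refine unrB_isUnramifiedExt_of_valuation K L v m hπ ?_
  rw [valuation_algebraMap_eq_of_inertia_eq_bot (unrB_w K L v m) v h, hπ]

end Fermat.Agent.CFT
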