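import Mathlib
import Fermat.Agent.CFT.Idele.UnramBridge
import Fermat.Agent.CFT.Idele.SemiLocalUnits
import Fermat.Agent.CFT.Idele.LocalPow
import Fermat.Agent.CFT.Global.PowCongrGlobal

/-!
# CFT, S55 global-idelic stream, chunk (GL11-rel), step (R1): `p`-th powers in `K_v ⊗[K] M`

* `sIR_exists_pow_eq_of_sub_one_mem` : in a complete DVR `A` of characteristic `0`, every
  `1 + p² s`, `s ∈ 𝔪_A`, is a `p`-th power of a unit.
* `sIR_exists_pow_eq_semiLocal` : `z ∈ K_v ⊗[K] M` whose image in every residue field `E_m` is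
  `1 + p² s_m`, `s_m ∈ 𝔪_{B_m}`, is a `p`-th power of a unit (CRT + the previous item in helper20's
  complete DVRs `B_m = unrB_B`).
* `sIR_exists_pow_eq_incl` : `x ∈ M`, `u(x - 1) ≤ exp (-(2 e_u + 1))` for all `u ∣ v` ⟹
  `1 ⊗ x` is a `p`-th power.
* `sIR_exists_pow_eq_one_add_smul` : `1 + π ^ (2 n + 1) • b`, `b` integral over `O_v`, is a
  `p`-th power (`v(π) = exp (-1)`, `v(p) = exp (-n)`).
-/

set_option autoImplicit false
set_option linter.unusedSectionVars false
set_option linter.style.haveILetI false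

open IsDedekindDomain IsDedekindDomain.HeightOneSpectrum IsLocalRing NumberField
open scoped TensorProduct WithZero
open WithZero

namespace Fermat.Agent.CFT

section DVR

variable {A : Type*} [CommRing A] [IsDomain A] [IsDiscreteValuationRing A]
  [IsAdicComplete (maximalIdeal A) A]

/-- in a complete DVR with `p ≠ 0`, `1 + p² s` (`s` in the maximal ideal) is a `p`-th power. -/
theorem sIR_exists_pow_eq_of_sub_one_mem {p : ℕ} (hp : p.Prime) (hp0 : (p : A) ≠ 0)
    (s : A) (hs : s ∈ maximalIdeal A) : ∃ x : Aˣ, (x : A) ^ p = 1 + (p : A) ^ 2 * s := by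
  obtain ⟨ϖ, hϖ⟩ := IsDiscreteValuationRing.exists_irreducible A
  obtain ⟨e, u, hu⟩ := IsDiscreteValuationRing.eq_unit_mul_pow_irreducible hp0 hϖ
  have hm : maximalIdeal A = Ideal.span {ϖ} := hϖ.maximalIdeal_eq
  rw [hm, Ideal.mem_span_singleton'] at hs
  obtain ⟨s', hs'⟩ := hs
  have hmem : (p : A) ^ 2 * s ∈ maximalIdeal A := by
    rw [hm, Ideal.mem_span_singleton']
    exact ⟨(p : A) ^ 2 * s', by rw [← hs']; ring⟩
  have hyu : IsUnit (1 + (p : A) ^ 2 * s) := by
    have h1 := isUnit_one_add_mul_of_mem hmem 1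
    rwa [mul_one] at h1
  have hπe : ϖ ^ e = ((u⁻¹ : Aˣ) : A) * (p : A) := by
    rw [hu, ← mul_assoc, Units.inv_mul, one_mul]
  obtain ⟨x, hx⟩ := exists_pow_eq_of_mem_unitsCongr hp hϖ hπe hyu.unit (by
    rw [mem_unitsCongr, IsUnit.unit_spec, add_sub_cancel_left, Ideal.mem_span_singleton']
    refine ⟨(u : A) * s', ?_⟩
    rw [← hs']
    conv_rhs => rw [sq, hu]
    rw [hu]
    ring)
  refine ⟨x, ?_⟩
  rw [← Units.val_pow_eq_pow_val, hx, IsUnit.unit_spec]

end DVR

section SemiLocal

attribute [local instance] Ideal.Quotient.field unrB_isAdicComplete unrB_isSeparable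
  unrB_isLocalRing unrB_isDiscreteValuationRing unrB_isLocalHom

variable (K M : Type) [Field K] [NumberField K] [Field M] [NumberField M] [Algebra K M]
variable (v : HeightOneSpectrum (𝓞 K))

/-- `B_m` is adically complete. -/
theorem sIR_isAdicComplete (m : Ideal (semiLocal K M v)) [m.IsMaximal] :
    IsAdicComplete (maximalIdeal (unrB_B K M v m)) (unrB_B K M v m) :=
  intClosure_isAdicComplete (v.adicCompletionIntegers K) (v.adicCompletion K)
    (unrB_E K M v m) (unrB_B K M v m)

/-- `w_m(x) < 1` implies that `ψ x` lies in the maximal ideal of `B_m`. -/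
theorem sIR_psi_mem_maximalIdeal (m : Ideal (semiLocal K M v)) [m.IsMaximal] (x : M)
    (hx : (unrB_w K M v m).valuation M x < 1) :
    ∃ h : unrB_psi K M v m x ∈ unrB_B K M v m,
      (⟨_, h⟩ : unrB_B K M v m) ∈ maximalIdeal (unrB_B K M v m) := by
  have h := unrB_psi_mem_of_valuation_le_one K M v m x hx.le
  refine ⟨h, ?_⟩
  by_contra hcon
  have hunit : IsUnit (⟨_, h⟩ : unrB_B K M v m) := by
    by_contra h'
    exact hcon ((mem_maximalIdeal _).mpr h')
  obtain ⟨c, hc⟩ := hunit.exists_right_inv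
  have hx0 : x ≠ 0 := by
    rintro rfl
    have h0 : (⟨unrB_psi K M v m 0, h⟩ : unrB_B K M v m) = 0 := by
      apply Subtype.ext
      simp
    rw [h0, zero_mul] at hc
    exact zero_ne_one hc
  -- `ψ (x⁻¹) = c ∈ B`
  have hc' : unrB_psi K M v m x * (c : unrB_E K M v m) = 1 := by
    have := congrArg (fun t : unrB_B K M v m => (t : unrB_E K M v m)) hc
    simpa using this
  have hpsi0 : unrB_psi K M v m x ≠ 0 := by
    intro h0
    rw [h0, zero_mul] at hc'
    exact zero_ne_one hc'
  have hcinv : (c : unrB_E K M v m) = unrB_psi K M v m x⁻¹ := by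
    rw [map_inv₀]
    exact eq_inv_of_mul_eq_one_right hc'
  -- hence `w_m(x⁻¹) ≤ 1`, by the converse direction
  by_cases hcm : c ∈ maximalIdeal (unrB_B K M v m)
  · have hlt := unrB_valuation_lt_one_of_mem K M v m x⁻¹ (by rw [← hcinv]; exact c.2)
      (by
        have : (⟨unrB_psi K M v m x⁻¹, by rw [← hcinv]; exact c.2⟩ : unrB_B K M v m) = c :=
          Subtype.ext hcinv.symm
        rw [this]
        exact hcm)
    rw [map_inv₀] at hlt
    have h1 : (1 : ℤᵐ⁰) < (unrB_w K M v m).valuation M x := by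
      have hne : (unrB_w K M v m).valuation M x ≠ 0 := (Valuation.ne_zero_iff _).mpr hx0
      exact (inv_lt_one₀ (zero_lt_iff.mpr hne)).mp hlt
    exact absurd hx (not_lt.mpr h1.le)
  · -- `c` is a unit, so `⟨ψ x, h⟩` is a unit with `ψ x` of valuation `< 1`
    -- use the uniformizer argument: `x = n / d` with `n ∈ w`, `d ∉ w`
    obtain ⟨n, d, hnd⟩ := exists_primeCompl_mul_eq_of_integer (unrB_w K M v m) x hx.le
    have hn : n ∈ (unrB_w K M v m).asIdeal := by
      rw [← valuation_lt_one_iff_mem (K := M)]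
      change (unrB_w K M v m).valuation M (algebraMap (𝓞 M) M n) < 1
      rw [← hnd, map_mul]
      exact mul_lt_one_of_nonneg_of_lt_one_left zero_le hx
        ((unrB_w K M v m).valuation_le_one _)
    have hn' : unrB_phi K M v m n ∈ maximalIdeal (unrB_B K M v m) :=
      (unrB_mem_wIdeal_iff K M v m n).mp hn
    have heq : (⟨_, h⟩ : unrB_B K M v m) * unrB_phi K M v m d = unrB_phi K M v m n := by
      apply Subtype.ext
      rw [Subalgebra.coe_mul, unrB_coe_phi, unrB_coe_phi, ← map_mul]
      exact congrArg (unrB_psi K M v m) hnd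
    have hunit' : IsUnit (unrB_phi K M v m n) := by
      rw [← heq]
      exact hunit.mul (unrB_isUnit_phi_of_not_mem K M v m d d.2)
    exact hn' hunit'

/-- **CRT + Hensel**: an element of `K_v ⊗ M` which is `≡ 1 mod p² 𝔪_{B_m}` in every residue
field is a `p`-th power of a unit. -/
theorem sIR_exists_pow_eq_semiLocal {p : ℕ} (hp : p.Prime) (z : semiLocal K M v)
    (hz : ∀ (m : Ideal (semiLocal K M v)) [m.IsMaximal], ∃ (s : unrB_E K M v m)
      (hs : s ∈ unrB_B K M v m), (⟨s, hs⟩ : unrB_B K M v m) ∈ maximalIdeal (unrB_B K M v m) ∧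
        Ideal.Quotient.mk m z = 1 + (p : unrB_E K M v m) ^ 2 * s) :
    ∃ d : (semiLocal K M v)ˣ, (((d ^ p : (semiLocal K M v)ˣ)) : semiLocal K M v) = z := by
  haveI : FiniteDimensional K M := Module.Finite.of_restrictScalars_finite ℚ K M
  haveI := adicLF_charZero K v
  -- the local roots
  have hloc : ∀ m : MaximalSpectrum (semiLocal K M v), ∃ x : (semiLocal K M v ⧸ m.asIdeal)ˣ,
      (x : semiLocal K M v ⧸ m.asIdeal) ^ p = Ideal.Quotient.mk m.asIdeal z := by
    intro m
    haveI := m.isMaximal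
    obtain ⟨s, hs, hsm, hzs⟩ := hz m.asIdeal
    haveI := sIR_isAdicComplete K M v m.asIdeal
    have hp0 : ((p : ℕ) : unrB_B K M v m.asIdeal) ≠ 0 := by
      intro h0
      have h1 : ((p : ℕ) : unrB_E K M v m.asIdeal) = 0 := by
        have := congrArg (fun t : unrB_B K M v m.asIdeal => (t : unrB_E K M v m.asIdeal)) h0
        simpa only [SubringClass.coe_natCast, ZeroMemClass.coe_zero] using this
      haveI : CharZero (unrB_E K M v m.asIdeal) :=
        charZero_of_injective_algebraMap
          (FaithfulSMul.algebraMap_injective (v.adicCompletion K) (unrB_E K M v m.asIdeal))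
      exact hp.ne_zero (Nat.cast_eq_zero.mp h1)
    obtain ⟨x, hx⟩ := sIR_exists_pow_eq_of_sub_one_mem (A := unrB_B K M v m.asIdeal) hp hp0
      ⟨s, hs⟩ hsm
    have hxE : ((x : unrB_B K M v m.asIdeal) : unrB_E K M v m.asIdeal) ^ p =
        Ideal.Quotient.mk m.asIdeal z := by
      have := congrArg (fun t : unrB_B K M v m.asIdeal => (t : unrB_E K M v m.asIdeal)) hx
      simp only [Subalgebra.coe_pow, Subalgebra.coe_add, Subalgebra.coe_one, Subalgebra.coe_mul,
        SubringClass.coe_natCast] at this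
      rw [hzs]
      exact this
    have hx0 : ((x : unrB_B K M v m.asIdeal) : unrB_E K M v m.asIdeal) ≠ 0 := by
      intro h0
      have : (x : unrB_B K M v m.asIdeal) = 0 := Subtype.ext h0
      exact x.ne_zero this
    exact ⟨Units.mk0 _ hx0, hxE⟩
  choose x hx using hloc
  refine ⟨(unitsEquivPi (semiLocal K M v)).symm x, ?_⟩
  apply (IsArtinianRing.equivPi (semiLocal K M v)).injective
  funext m
  rw [IsArtinianRing.equivPi_apply, IsArtinianRing.equivPi_apply]
  rw [← coe_unitsEquivPi_apply, map_pow, MulEquiv.apply_symm_apply, Pi.pow_apply,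
    Units.val_pow_eq_pow_val, hx m]

/-- a global element which is close to `1` at all primes above `v` is a `p`-th power in
`K_v ⊗ M`. -/
theorem sIR_exists_pow_eq_incl {p : ℕ} (hp : p.Prime) (x : M)
    (hx : ∀ u : HeightOneSpectrum (𝓞 M), primeBelow K M u = v →
      u.valuation M (x - 1) ≤ exp (-((2 * natOrdAt u p + 1 : ℕ) : ℤ))) :
    ∃ d : (semiLocal K M v)ˣ,
      (((d ^ p : (semiLocal K M v)ˣ)) : semiLocal K M v) = semiLocalIncl K M v x := by
  apply sIR_exists_pow_eq_semiLocal K M v hp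
  intro m _
  set u := unrB_w K M v m with hu
  have hpM : (p : M) ≠ 0 := Nat.cast_ne_zero.mpr hp.ne_zero
  have hvp : u.valuation M (p : M) = exp (-(natOrdAt u p : ℤ)) :=
    valuation_natCast_eq_exp u hp.ne_zero
  have hlt : u.valuation M ((x - 1) / (p : M) ^ 2) < 1 := by
    rw [map_div₀, map_pow, hvp, ← exp_nsmul, div_lt_one₀ (exp_pos)]
    refine lt_of_le_of_lt (hx u (unrB_primeBelow_w K M v m)) ?_
    rw [exp_lt_exp]
    simp only [nsmul_eq_mul]
    push_cast
    omega
  obtain ⟨h1, h2⟩ := sIR_psi_mem_maximalIdeal K M v m _ hlt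
  refine ⟨_, h1, h2, ?_⟩
  have h3 : Ideal.Quotient.mk m (semiLocalIncl K M v x) = unrB_psi K M v m x := rfl
  rw [h3, ← map_natCast (unrB_psi K M v m) p, ← map_pow, ← map_mul, ← map_one (unrB_psi K M v m),
    ← map_add]
  congr 1
  field_simp
  ring

/-- `1 + π ^ (2 n + 1) • b` with `b` integral is a `p`-th power in `K_v ⊗ M`. -/
theorem sIR_exists_pow_eq_one_add_smul {p : ℕ} (hp : p.Prime) {π : K}
    (hπ : v.valuation K π = exp (-1 : ℤ)) {n : ℕ} (hn : v.valuation K (p : K) = exp (-(n : ℤ)))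
    (b : semiLocal K M v) (hb : IsIntegral (v.adicCompletionIntegers K) b) :
    ∃ d : (semiLocal K M v)ˣ,
      (((d ^ p : (semiLocal K M v)ˣ)) : semiLocal K M v) = 1 + (π ^ (2 * n + 1)) • b := by
  apply sIR_exists_pow_eq_semiLocal K M v hp
  intro m _
  have hpK : (p : K) ≠ 0 := Nat.cast_ne_zero.mpr hp.ne_zero
  -- the scalar `c = π ^ (2 n + 1) / p ^ 2` has valuation `< 1`
  set c : K := π ^ (2 * n + 1) / (p : K) ^ 2 with hc
  have hcv : v.valuation K c = exp (-1 : ℤ) := by
    rw [hc, map_div₀, map_pow, map_pow, hπ, hn, ← exp_nsmul, ← exp_nsmul, ← exp_sub]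
    congr 1
    simp only [nsmul_eq_mul]
    push_cast
    ring
  have hcK : Valued.v (algebraMap K (v.adicCompletion K) c) < 1 := by
    rw [adicLF_valued_algebraMap, hcv, ← exp_zero, exp_lt_exp]
    norm_num
  set c' : v.adicCompletionIntegers K := ⟨algebraMap K (v.adicCompletion K) c, hcK.le⟩ with hc'
  have hc'm : c' ∈ maximalIdeal (v.adicCompletionIntegers K) := by
    rw [adicLF_mem_maximalIdeal_iff]
    exact hcK
  -- the image of `b`
  have hbm : IsIntegral (v.adicCompletionIntegers K) (Ideal.Quotient.mk m b) :=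
    hb.map (Ideal.Quotient.mkₐ (v.adicCompletionIntegers K) m)
  set b' : unrB_B K M v m := ⟨Ideal.Quotient.mk m b, hbm⟩ with hb'
  have hmem : algebraMap (v.adicCompletionIntegers K) (unrB_B K M v m) c' * b' ∈
      maximalIdeal (unrB_B K M v m) := by
    refine Ideal.mul_mem_right _ _ ?_
    rw [mem_maximalIdeal, mem_nonunits_iff]
    intro hunit
    exact hc'm (isUnit_of_map_unit (algebraMap (v.adicCompletionIntegers K) (unrB_B K M v m)) c' hunit)
  refine ⟨_, (algebraMap (v.adicCompletionIntegers K) (unrB_B K M v m) c' * b').2, hmem, ?_⟩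
  rw [map_add, map_one]
  congr 1
  rw [Subalgebra.coe_mul]
  have h1 : ((algebraMap (v.adicCompletionIntegers K) (unrB_B K M v m) c' : unrB_B K M v m) :
      unrB_E K M v m) = algebraMap K (unrB_E K M v m) c := by
    rw [IsScalarTower.algebraMap_apply K (v.adicCompletion K) (unrB_E K M v m)]
    rfl
  rw [h1, Algebra.smul_def, map_mul]
  have h2 : Ideal.Quotient.mk m (algebraMap K (semiLocal K M v) (π ^ (2 * n + 1))) =
      algebraMap K (unrB_E K M v m) (π ^ (2 * n + 1)) := rfl
  rw [h2, ← mul_assoc]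
  congr 1
  rw [← map_natCast (algebraMap K (unrB_E K M v m)) p, ← map_pow, ← map_mul]
  congr 1
  rw [hc]
  field_simp

end SemiLocal

end Fermat.Agent.CFT
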