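import Mathlib
import Fermat.Agent.CFT.Idele.Relative
import Fermat.Agent.CFT.Idele.SecondIneq
import Fermat.Agent.CFT.Idele.SecondIneqCoreCl
import Fermat.Agent.CFT.Idele.SemiLocalPow
import Fermat.Agent.CFT.Idele.ClassNumber
import Fermat.Agent.CFT.Global.SUnitsHerbrand

/-!
# CFT, S55 global-idelic stream, chunk (GL11-rel): the RELATIVE idelic second inequality

`K ⊆ M ⊆ L` number fields, `K` the tensor base of the idele model (helper4's `Idele/Relative.lean`),
`L / M` Galois of odd prime degree `p`, `ζ_p ∈ M`.  Then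
`[J_M : Mˣ · N_{L/M} J_L] ≤ p` where `J_M = ideleGroup K M`, `J_L = ideleGroup K L` and
`N_{L/M} = relIdeleNorm K M L` (`index_principalIdeles_sup_relIdeleNorm_le`).

Inputs: (hN1) local units are norms of local units outside a finite set of primes of `K`
((GL7-rel)), (hgen) `J_M = Mˣ J_{M,S}` for `S` large ((GL6)), and (hsplit) the norm elements at the
split primes (helper2's `kSP_exists_norm`).
-/

set_option autoImplicit false
set_option linter.unusedSectionVars false
set_option linter.style.haveILetI false

open NumberField IsDedekindDomain IsDedekindDomain.HeightOneSpectrum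
open scoped TensorProduct Fermat.Agent.CFT.TensorGal Fermat.Agent.CFT.IdeleAct Valued WithZero
open WithZero

namespace Fermat.Agent.CFT

section Constructions

variable (K L : Type*) [Field K] [NumberField K] [Field L] [NumberField L] [Algebra K L]

open scoped Classical in
/-- the idele of `L` (in the `K`-model) with components `y v` for `v ∈ S` and `1` elsewhere. -/
noncomputable def sIR_finsetIdele (S : Finset (HeightOneSpectrum (𝓞 K))) :
    (∀ v : HeightOneSpectrum (𝓞 K), (semiLocal K L v)ˣ) →* ideleGroup K L where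
  toFun y := ⟨fun v => if v ∈ S then y v else 1, by
    rw [mem_ideleGroup_iff, Filter.eventually_cofinite]
    refine S.finite_toSet.subset fun v hv => ?_
    by_contra hvS
    apply hv
    show (if v ∈ S then y v else 1) ∈ semiLocalUnits K L v
    rw [if_neg (by simpa using hvS)]
    exact one_mem _⟩
  map_one' := by
    apply Subtype.ext
    funext v
    show (if v ∈ S then (1 : (semiLocal K L v)ˣ) else 1) = 1
    rw [ite_self]
  map_mul' y y' := by
    apply Subtype.ext
    funext v
    show (if v ∈ S then y v * y' v else 1) =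
      (if v ∈ S then y v else 1) * (if v ∈ S then y' v else 1)
    split_ifs <;> simp

open scoped Classical in
variable {K L} in
theorem sIR_finsetIdele_apply_of_mem {S : Finset (HeightOneSpectrum (𝓞 K))}
    (y : ∀ v : HeightOneSpectrum (𝓞 K), (semiLocal K L v)ˣ) {v : HeightOneSpectrum (𝓞 K)}
    (hv : v ∈ S) : (sIR_finsetIdele K L S y).1 v = y v := by
  show (if v ∈ S then y v else 1) = y v
  rw [if_pos hv]

open scoped Classical in
variable {K L} in
theorem sIR_finsetIdele_apply_of_notMem {S : Finset (HeightOneSpectrum (𝓞 K))}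
    (y : ∀ v : HeightOneSpectrum (𝓞 K), (semiLocal K L v)ˣ) {v : HeightOneSpectrum (𝓞 K)}
    (hv : v ∉ S) : (sIR_finsetIdele K L S y).1 v = 1 := by
  show (if v ∈ S then y v else 1) = 1
  rw [if_neg hv]

end Constructions

section LocalDecomp

variable (K M : Type) [Field K] [NumberField K] [Field M] [NumberField M] [Algebra K M]
variable (v : HeightOneSpectrum (𝓞 K))

/-- **local density modulo `p`-th powers**: `(K_v ⊗ M)ˣ = Mˣ · ((K_v ⊗ M)ˣ)^p`. -/
theorem sIR_exists_incl_mul_pow {p : ℕ} (hp : p.Prime) (a : (semiLocal K M v)ˣ) :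
    ∃ (X : Mˣ) (d : (semiLocal K M v)ˣ),
      a = Units.map (semiLocalIncl K M v : M →* semiLocal K M v) X * d ^ p := by
  haveI : Nontrivial (semiLocal K M v) := (semiLocalIncl_injective K M v).nontrivial
  obtain ⟨y, u, hu, hau⟩ := idCN_exists_incl_mul_unit v a
  obtain ⟨π, hπ⟩ := v.valuation_exists_uniformizer K
  have hπ0 : π ≠ 0 := by
    intro h
    rw [h, map_zero] at hπ
    exact exp_ne_zero hπ.symm
  have hn : v.valuation K (p : K) = exp (-(natOrdAt v p : ℤ)) :=
    valuation_natCast_eq_exp v hp.ne_zero
  obtain ⟨x', b, hb, hub⟩ := idCN_exists_incl_add_smul v π hπ0 (2 * natOrdAt v p + 1)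
    (u : semiLocal K M v)
  have huinv : IsIntegral (v.adicCompletionIntegers K)
      ((u⁻¹ : (semiLocal K M v)ˣ) : semiLocal K M v) := ((mem_semiLocalUnits_iff u).mp hu).2
  obtain ⟨d, hd⟩ := sIR_exists_pow_eq_one_add_smul K M v hp hπ hn
    (-(((u⁻¹ : (semiLocal K M v)ˣ) : semiLocal K M v) * b)) (huinv.mul hb).neg
  have key : semiLocalIncl K M v x' =
      (u : semiLocal K M v) * ((d ^ p : (semiLocal K M v)ˣ) : semiLocal K M v) := by
    rw [hd, mul_add, mul_one, mul_smul_comm, mul_neg, ← mul_assoc, Units.mul_inv, one_mul,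
      smul_neg, ← sub_eq_add_neg, eq_sub_iff_add_eq]
    exact hub.symm
  have hx'0 : x' ≠ 0 := by
    rintro rfl
    rw [map_zero] at key
    exact (u * d ^ p).ne_zero key.symm
  refine ⟨y * Units.mk0 x' hx'0, d⁻¹, ?_⟩
  rw [hau, map_mul, mul_assoc]
  congr 1
  apply Units.ext
  rw [Units.val_mul, inv_pow, ← Units.mul_inv_eq_iff_eq_mul]  -- u * d^p = incl x'
  rw [inv_inv]
  exact key.symm

end LocalDecomp

section Norm

variable {K M L : Type*} [Field K] [NumberField K] [Field M] [NumberField M]
  [Field L] [NumberField L] [Algebra K M] [Algebra M L] [Algebra K L] [IsScalarTower K M L]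
  [IsGalois M L]

/-- componentwise criterion for the relative idele norm. -/
theorem sIR_relIdeleNorm_eq_of_forall (c : ideleGroup K L) (y : ideleGroup K M)
    (h : ∀ v, ∏ g : Gal(L/M), (relGalHom K M L g) • (c.1 v) =
      Units.map (relSemiLocalMap K M L v : semiLocal K M v →* semiLocal K L v) (y.1 v)) :
    relIdeleNorm K M L c = y := by
  apply relIdele_injective K M L
  rw [relIdele_relIdeleNorm]
  apply Subtype.ext
  funext v
  rw [relIdele_apply, ← h v, Subgroup.val_finsetProd, Finset.prod_apply]
  rfl

variable (K M L) in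
/-- the local relative norm `(K_v ⊗ L)ˣ → (K_v ⊗ L)ˣ`, `c ↦ ∏_{h ∈ Gal(L/M)} h • c`. -/
noncomputable def sIR_locNorm (v : HeightOneSpectrum (𝓞 K)) :
    (semiLocal K L v)ˣ →* (semiLocal K L v)ˣ where
  toFun c := ∏ g : Gal(L/M), (relGalHom K M L g) • c
  map_one' := by simp
  map_mul' x y := by
    rw [← Finset.prod_mul_distrib]
    exact Finset.prod_congr rfl fun g _ => smul_mul' _ x y

theorem sIR_locNorm_apply (v : HeightOneSpectrum (𝓞 K)) (c : (semiLocal K L v)ˣ) :
    sIR_locNorm K M L v c = ∏ g : Gal(L/M), (relGalHom K M L g) • c := rfl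

/-- the local norm of a global element is the global norm. -/
theorem sIR_locNorm_incl (v : HeightOneSpectrum (𝓞 K)) (l : Lˣ) :
    sIR_locNorm K M L v (Units.map (semiLocalIncl K L v : L →* semiLocal K L v) l) =
      Units.map (relSemiLocalMap K M L v : semiLocal K M v →* semiLocal K L v)
        (Units.map (semiLocalIncl K M v : M →* semiLocal K M v)
          (Units.map (Algebra.norm M : L →* M) l)) := by
  apply Units.ext
  rw [sIR_locNorm_apply, Units.coe_prod]
  simp only [units_smul_val, Units.coe_map, MonoidHom.coe_coe]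
  simp_rw [semiLocal_smul_incl, relGalHom_apply]
  rw [relSemiLocalMap_incl, Algebra.norm_eq_prod_automorphisms, ← map_prod]

end Norm

section PrimesOver

variable (K M : Type*) [Field K] [NumberField K] [Field M] [NumberField M] [Algebra K M]

/-- elements of a prime of `K` have valuation `< 1` at the primes of `M` above it. -/
theorem sIR_valuation_algebraMap_lt_one (u : HeightOneSpectrum (𝓞 M)) (a : 𝓞 K)
    (ha : a ∈ (primeBelow K M u).asIdeal) : u.valuation M (algebraMap K M (a : K)) < 1 := by
  have h1 : algebraMap K M (a : K) = algebraMap (𝓞 M) M (algebraMap (𝓞 K) (𝓞 M) a) := rfl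
  rw [h1, valuation_lt_one_iff_mem]
  rw [under_asIdeal, Ideal.under_def, Ideal.mem_comap] at ha
  exact ha

/-- the fibres of `primeBelow` are finite (no Galois hypothesis). -/
theorem sIR_finite_setOf_primeBelow_eq (v : HeightOneSpectrum (𝓞 K)) :
    {u : HeightOneSpectrum (𝓞 M) | primeBelow K M u = v}.Finite := by
  obtain ⟨a, ha, ha0⟩ := Submodule.exists_mem_ne_zero_of_ne_bot v.ne_bot
  have hx0 : algebraMap K M (a : K) ≠ 0 := by
    rw [Ne, map_eq_zero]
    exact fun h => ha0 (RingOfIntegers.coe_injective (by simpa using h))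
  refine (finite_setOf_valuation_ne_one (R := 𝓞 M) M hx0).subset fun u hu => ?_
  rw [Set.mem_ofPred_eq] at hu ⊢
  exact (sIR_valuation_algebraMap_lt_one K M u a (hu ▸ ha)).ne

/-- the primes of `M` above a finite set of primes of `K`. -/
noncomputable def sIR_primesOver (S : Finset (HeightOneSpectrum (𝓞 K))) :
    Finset (HeightOneSpectrum (𝓞 M)) :=
  (S.finite_toSet.biUnion fun q _ => sIR_finite_setOf_primeBelow_eq K M q).toFinset

variable {K M} in
theorem sIR_mem_primesOver {S : Finset (HeightOneSpectrum (𝓞 K))}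
    {u : HeightOneSpectrum (𝓞 M)} : u ∈ sIR_primesOver K M S ↔ primeBelow K M u ∈ S := by
  simp [sIR_primesOver]

end PrimesOver

section Main

variable {K M L : Type} [Field K] [NumberField K] [Field M] [NumberField M]
  [Field L] [NumberField L] [Algebra K M] [Algebra M L] [Algebra K L] [IsScalarTower K M L]
  [IsGalois M L]

/-- **The relative idelic second inequality**, with the split-prime norm elements as an explicit
input (`hsplit`, helper2's `kSP_exists_norm`). -/
theorem sIR_index_le_of_split {p : ℕ} (hp : p.Prime) (hp2 : p ≠ 2)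
    {ζ : M} (hζ : IsPrimitiveRoot ζ p) (hcard : Nat.card Gal(L/M) = p)
    (Bram : Finset (HeightOneSpectrum (𝓞 K)))
    (hN1 : ∀ v : HeightOneSpectrum (𝓞 K), v ∉ Bram → ∀ u ∈ semiLocalUnits K M v,
      ∃ c ∈ semiLocalUnits K L v, sIR_locNorm K M L v c =
        Units.map (relSemiLocalMap K M L v : semiLocal K M v →* semiLocal K L v) u)
    (S0 : Finset (HeightOneSpectrum (𝓞 K)))
    (hgen : ∀ a : ideleGroup K M, ∃ y : Mˣ,
      a * (diagIdele (K := K) y)⁻¹ ∈ ideleGroupS K M (S0 : Set (HeightOneSpectrum (𝓞 K))))
    (hsplit : ∀ (a : Mˣ) (θ : L), θ ^ p = algebraMap M L (a : M) →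
      θ ∉ Set.range (algebraMap M L) → ∀ u : HeightOneSpectrum (𝓞 M),
      u.valuation M (p : M) = 1 → u.valuation M (a : M) = 1 →
      (∃ y : M, u.valuation M ((a : M) - y ^ p) < 1) →
      ∀ Ω : Finset (HeightOneSpectrum (𝓞 M)), u ∉ Ω →
        ∃ l : Lˣ, u.valuation M (Algebra.norm M (l : L)) = exp (-1 : ℤ) ∧
          ∀ u' ∈ Ω, u'.valuation M (Algebra.norm M (l : L)) = 1) :
    (principalIdeles K M ⊔ (relIdeleNorm K M L).range).index ≠ 0 ∧
      (principalIdeles K M ⊔ (relIdeleNorm K M L).range).index ≤ p := by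
  classical
  -- the closure operator: saturation over `K`
  set cl : Finset (HeightOneSpectrum (𝓞 M)) → Finset (HeightOneSpectrum (𝓞 M)) :=
    fun S => sIR_primesOver K M (S.image (primeBelow K M)) with hcl_def
  have hcl : ∀ S, S ⊆ cl S := fun S u hu =>
    sIR_mem_primesOver.mpr (Finset.mem_image_of_mem _ hu)
  obtain ⟨a, θ, S, T, k, hθ, hθK, hBS, hSp, hSa, -, hST, hTa, hkS, hidx0, hidxle, hkdef, S₁, hSS₁⟩ :=
    exists_secondIneq_core_cl (F := M) (M := L) hp hp2 hζ hcard
      (sIR_primesOver K M (S0 ∪ Bram)) cl hcl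
  set S0' : Finset (HeightOneSpectrum (𝓞 K)) := S₁.image (primeBelow K M) with hS0'
  have hSmem : ∀ u : HeightOneSpectrum (𝓞 M), u ∈ S ↔ primeBelow K M u ∈ S0' := fun u => by
    rw [hSS₁]
    exact sIR_mem_primesOver
  have hS0S0' : ∀ v, v ∈ S0 ∪ Bram → v ∈ S0' := by
    intro v hv
    obtain ⟨u, rfl⟩ := primeBelow_surjective K M v
    exact (hSmem u).mp (hBS (sIR_mem_primesOver.mpr hv))
  set Q : Subgroup (ideleGroup K M) := principalIdeles K M ⊔ (relIdeleNorm K M L).range with hQ
  have hPQ : ∀ x : Mˣ, diagIdele (K := K) x ∈ Q := fun x => Subgroup.mem_sup_left ⟨x, rfl⟩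
  have hNQ : ∀ c : ideleGroup K L, relIdeleNorm K M L c ∈ Q := fun c =>
    Subgroup.mem_sup_right ⟨c, rfl⟩
  have hpowQ : ∀ y : ideleGroup K M, y ^ p ∈ Q := by
    intro y
    have h1 := relIdeleNorm_relIdele (L := L) y
    rw [hcard] at h1
    rw [← h1]
    exact hNQ _
  -- exponents
  have hke : ∀ u : HeightOneSpectrum (𝓞 M), 2 * natOrdAt u p + 1 ≤ k u := by
    intro u
    rw [hkdef u]
    have := hp.two_le
    nlinarith
  have hk0 : ∀ u : HeightOneSpectrum (𝓞 M), k u ≠ 0 := fun u => by have := hke u; omega
  -- the criterion for `p`-th powers at `v ∈ S0'`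
  have hpowS : ∀ v ∈ S0', ∀ z : Mˣ,
      (∀ u : HeightOneSpectrum (𝓞 M), primeBelow K M u = v → z ∈ localUnits u (k u)) →
      ∃ D : (semiLocal K M v)ˣ,
        D ^ p = Units.map (semiLocalIncl K M v : M →* semiLocal K M v) z := by
    intro v hv z hz
    obtain ⟨D, hD⟩ := sIR_exists_pow_eq_incl K M v hp (z : M) (fun u hu => by
      have h1 := localUnits_anti u (hke u) (hz u hu)
      exact (mem_localUnits_iff_of_pos u (by omega)).mp h1)
    exact ⟨D, Units.ext hD⟩
  -- the map `j_S`
  set emb : Mˣ →* (∀ v : HeightOneSpectrum (𝓞 K), (semiLocal K M v)ˣ) :=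
    MonoidHom.pi fun v => Units.map (semiLocalIncl K M v : M →* semiLocal K M v) with hemb
  set jS : Mˣ →* ideleGroup K M := (sIR_finsetIdele K M S0').comp emb with hjS
  have hjS_mem : ∀ (x : Mˣ) (v : HeightOneSpectrum (𝓞 K)), v ∈ S0' → (jS x).1 v =
      Units.map (semiLocalIncl K M v : M →* semiLocal K M v) x := by
    intro x v hv
    exact sIR_finsetIdele_apply_of_mem (emb x) hv
  have hjS_notMem : ∀ (x : Mˣ) (v : HeightOneSpectrum (𝓞 K)), v ∉ S0' → (jS x).1 v = 1 := by
    intro x v hv
    exact sIR_finsetIdele_apply_of_notMem (emb x) hv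
  refine (fun h => ⟨h.1, h.2.trans hidxle⟩) (index_le_of_surj_of_le Q _ jS ?_ ?_ hidx0)
  · -- surjectivity
    intro y
    obtain ⟨x₁, hx₁⟩ := hgen y
    set y₁ : ideleGroup K M := y * (diagIdele (K := K) x₁)⁻¹ with hy₁
    have hy₁u : ∀ v : HeightOneSpectrum (𝓞 K), v ∉ S0' → y₁.1 v ∈ semiLocalUnits K M v := by
      intro v hv
      exact hx₁ v (fun h => hv (hS0S0' v (Finset.mem_union_left _ (Finset.mem_coe.mp h))))
    set y₃ : ideleGroup K M := sIR_finsetIdele K M S0' y₁.1 with hy₃
    set Y₂ : ideleGroup K M := y₁ / y₃ with hY₂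
    have hY₂S : ∀ v ∈ S0', Y₂.1 v = 1 := by
      intro v hv
      have : Y₂.1 v = y₁.1 v / y₃.1 v := rfl
      rw [this, hy₃, sIR_finsetIdele_apply_of_mem y₁.1 hv, div_self']
    have hY₂nS : ∀ v, v ∉ S0' → Y₂.1 v = y₁.1 v := by
      intro v hv
      have : Y₂.1 v = y₁.1 v / y₃.1 v := rfl
      rw [this, hy₃, sIR_finsetIdele_apply_of_notMem y₁.1 hv, div_one]
    have hloc : ∀ v : HeightOneSpectrum (𝓞 K), ∃ c : (semiLocal K L v)ˣ,
        c ∈ semiLocalUnits K L v ∧ sIR_locNorm K M L v c =
          Units.map (relSemiLocalMap K M L v : semiLocal K M v →* semiLocal K L v) (Y₂.1 v) := by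
      intro v
      by_cases hvS : v ∈ S0'
      · refine ⟨1, one_mem _, ?_⟩
        rw [hY₂S v hvS, map_one, map_one]
      · rw [hY₂nS v hvS]
        exact hN1 v (fun h => hvS (hS0S0' v (Finset.mem_union_right _ h))) (y₁.1 v) (hy₁u v hvS)
    choose c hc1 hc2 using hloc
    have hnorm : relIdeleNorm K M L (mkIdele K L c ∅ (fun v _ => hc1 v)) = Y₂ :=
      sIR_relIdeleNorm_eq_of_forall _ Y₂ hc2
    have hY₂Q : Y₂ ∈ Q := hnorm ▸ hNQ _
    -- local decompositions
    choose X d hXd using fun v => sIR_exists_incl_mul_pow K M v hp (y₁.1 v)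
    -- weak approximation at `S`
    set kk : ℕ := S.sup k with hkk
    obtain ⟨x₂, hx₂⟩ := exists_units_forall_valuation_div_sub_one_le (R := 𝓞 M) M S
      (fun u => X (primeBelow K M u)) kk
    refine ⟨x₂, ?_⟩
    have hloc2 : ∀ v : HeightOneSpectrum (𝓞 K), ∃ D : (semiLocal K M v)ˣ, v ∈ S0' →
        D ^ p = Units.map (semiLocalIncl K M v : M →* semiLocal K M v) (x₂ / X v) := by
      intro v
      by_cases hv : v ∈ S0'
      · obtain ⟨D, hD⟩ := hpowS v hv (x₂ / X v) (fun u hu => by
          have huS : u ∈ S := (hSmem u).mpr (hu ▸ hv)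
          have h1 := hx₂ u huS
          simp only [hu] at h1
          rw [mem_localUnits_iff_of_pos u (hk0 u), Units.val_div_eq_div_val]
          refine h1.trans ?_
          rw [exp_le_exp, neg_le_neg_iff, Nat.cast_le]
          exact Finset.le_sup (f := k) huS)
        exact ⟨D, fun _ => hD⟩
      · exact ⟨1, fun h => absurd h hv⟩
    choose D hD using hloc2
    have hy₃d : y₃ / jS x₂ = (sIR_finsetIdele K M S0' (fun v => d v / D v)) ^ p := by
      apply Subtype.ext
      funext v
      have h1 : (y₃ / jS x₂).1 v = y₃.1 v / (jS x₂).1 v := rfl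
      rw [h1, Subgroup.coe_pow, Pi.pow_apply]
      by_cases hv : v ∈ S0'
      · rw [hy₃, sIR_finsetIdele_apply_of_mem y₁.1 hv, hjS_mem x₂ v hv,
          sIR_finsetIdele_apply_of_mem _ hv, div_pow, hD v hv, hXd v, map_div]
        rw [div_eq_div_iff_mul_eq_mul]
        rw [mul_comm (Units.map _ (X v)), mul_assoc, mul_div_cancel]
      · rw [hy₃, sIR_finsetIdele_apply_of_notMem y₁.1 hv, hjS_notMem x₂ v hv,
          sIR_finsetIdele_apply_of_notMem _ hv, one_pow, div_one]
    have hfinal : y / jS x₂ = diagIdele (K := K) x₁ * Y₂ * (y₃ / jS x₂) := by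
      rw [mul_assoc, hY₂, div_mul_div_cancel, hy₁, mul_div_assoc', mul_comm y,
        mul_inv_cancel_left]
    rw [hfinal, hy₃d]
    exact Q.mul_mem (Q.mul_mem (hPQ x₁) hY₂Q) (hpowQ _)
  · -- the kernel
    intro x hx
    have hle : (⨅ u ∈ S, powCongr (F := M) u p (k u)) ⊔ sUnit M (S ∪ T) ≤ Q.comap jS := by
      refine sup_le ?_ ?_
      · -- elements which are local `p`-th powers at `S`
        intro x hx
        rw [Subgroup.mem_comap]
        simp only [Subgroup.mem_iInf] at hx
        have hex : ∀ u : HeightOneSpectrum (𝓞 M), ∃ y : Mˣ, u ∈ S →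
            x / y ^ p ∈ localUnits u (k u) := by
          intro u
          by_cases hu : u ∈ S
          · obtain ⟨y, hy⟩ := (mem_powCongr_iff' u).mp (hx u hu)
            exact ⟨y, fun _ => hy⟩
          · exact ⟨1, fun h => absurd h hu⟩
        choose yy hyy using hex
        set kk : ℕ := S.sup k with hkk
        obtain ⟨Y, hY⟩ := exists_units_forall_valuation_div_sub_one_le (R := 𝓞 M) M S yy kk
        have hYu : ∀ u ∈ S, x / Y ^ p ∈ localUnits u (k u) := by
          intro u hu
          have h1 : Y / yy u ∈ localUnits u (k u) := by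
            rw [mem_localUnits_iff_of_pos u (hk0 u), Units.val_div_eq_div_val]
            refine (hY u hu).trans ?_
            rw [exp_le_exp, neg_le_neg_iff, Nat.cast_le]
            exact Finset.le_sup (f := k) hu
          have h2 : x / Y ^ p = (x / yy u ^ p) / (Y / yy u) ^ p := by
            rw [div_pow, div_div_div_cancel_right]
          rw [h2]
          exact (localUnits u (k u)).div_mem (hyy u hu) ((localUnits u (k u)).pow_mem h1 p)
        have hloc : ∀ v : HeightOneSpectrum (𝓞 K), ∃ D : (semiLocal K M v)ˣ, v ∈ S0' →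
            D ^ p = Units.map (semiLocalIncl K M v : M →* semiLocal K M v) x := by
          intro v
          by_cases hv : v ∈ S0'
          · obtain ⟨D, hD⟩ := hpowS v hv (x / Y ^ p)
              (fun u hu => hYu u ((hSmem u).mpr (hu ▸ hv)))
            refine ⟨Units.map (semiLocalIncl K M v : M →* semiLocal K M v) Y * D, fun _ => ?_⟩
            rw [mul_pow, hD, ← map_pow, ← map_mul, mul_div_cancel]
          · exact ⟨1, fun h => absurd h hv⟩
        choose D hD using hloc
        have hjd : jS x = (sIR_finsetIdele K M S0' D) ^ p := by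
          apply Subtype.ext
          funext v
          rw [Subgroup.coe_pow, Pi.pow_apply]
          by_cases hv : v ∈ S0'
          · rw [hjS_mem x v hv, sIR_finsetIdele_apply_of_mem D hv, hD v hv]
          · rw [hjS_notMem x v hv, sIR_finsetIdele_apply_of_notMem D hv, one_pow]
        rw [hjd]
        exact hpowQ _
      · -- `S ∪ T`-units
        intro x hx
        rw [Subgroup.mem_comap]
        have hxU : ∀ u : HeightOneSpectrum (𝓞 M), u ∉ S → u ∉ T → u.valuation M (x : M) = 1 := by
          intro u huS huT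
          exact (mem_sUnit_iff M (S ∪ T) x).mp hx u
            (by rw [Finset.mem_union, not_or]; exact ⟨huS, huT⟩)
        set y : ideleGroup K M := jS x / diagIdele (K := K) x with hy
        have hyS : ∀ v ∈ S0', y.1 v = 1 := by
          intro v hv
          have : y.1 v = (jS x).1 v / (diagIdele (K := K) x).1 v := rfl
          rw [this, hjS_mem x v hv, diagIdele_apply, div_self']
        have hynS : ∀ v, v ∉ S0' → y.1 v =
            (Units.map (semiLocalIncl K M v : M →* semiLocal K M v) x)⁻¹ := by
          intro v hv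
          have : y.1 v = (jS x).1 v / (diagIdele (K := K) x).1 v := rfl
          rw [this, hjS_notMem x v hv, diagIdele_apply, one_div]
        -- the norm elements at the primes of `T`
        have hTS : ∀ u ∈ T, u ∉ S := fun u hu huS => (Finset.disjoint_left.mp hST huS) hu
        have hlam : ∀ u : HeightOneSpectrum (𝓞 M), ∃ l : Lˣ, u ∈ T →
            (u.valuation M (Algebra.norm M (l : L)) = exp (-1 : ℤ) ∧
              ∀ u' : HeightOneSpectrum (𝓞 M), u' ≠ u → primeBelow K M u' = primeBelow K M u →
                u'.valuation M (Algebra.norm M (l : L)) = 1) := by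
          intro u
          by_cases hu : u ∈ T
          · obtain ⟨l, hl1, hl2⟩ := hsplit a θ hθ hθK u (hSp u (hTS u hu)) (hSa u (hTS u hu))
              (hTa u hu) ((sIR_primesOver K M {primeBelow K M u}).erase u) (Finset.notMem_erase _ _)
            refine ⟨l, fun _ => ⟨hl1, fun u' hne hpb => hl2 u' ?_⟩⟩
            rw [Finset.mem_erase, sIR_mem_primesOver, Finset.mem_singleton]
            exact ⟨hne, hpb⟩
          · exact ⟨1, fun h => absurd h hu⟩
        choose lam hlam using hlam
        set Nl : HeightOneSpectrum (𝓞 M) → Mˣ := fun u =>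
          Units.map (Algebra.norm M : L →* M) (lam u) with hNl
        have hNlval : ∀ u, ((Nl u : Mˣ) : M) = Algebra.norm M ((lam u : Lˣ) : L) := fun u => rfl
        set nn : HeightOneSpectrum (𝓞 M) → ℤ := fun u => -(log (u.valuation M (x : M))) with hnn
        have hxval : ∀ u : HeightOneSpectrum (𝓞 M), u.valuation M (x : M) = exp (-(nn u)) := by
          intro u
          rw [hnn, neg_neg, exp_log ((Valuation.ne_zero_iff _).mpr x.ne_zero)]
        -- the local correction at `v`
        set Tv : HeightOneSpectrum (𝓞 K) → Finset (HeightOneSpectrum (𝓞 M)) := fun v =>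
          T.filter (fun u => primeBelow K M u = v) with hTv
        set P : HeightOneSpectrum (𝓞 K) → Mˣ := fun v => ∏ u ∈ Tv v, Nl u ^ (-(nn u)) with hP
        have hx'val : ∀ v : HeightOneSpectrum (𝓞 K), v ∉ S0' → ∀ u₀ : HeightOneSpectrum (𝓞 M),
            primeBelow K M u₀ = v → u₀.valuation M ((x * P v : Mˣ) : M) = 1 := by
          intro v hv u₀ hu₀
          have hu₀S : u₀ ∉ S := fun h => hv (hu₀ ▸ (hSmem u₀).mp h)
          rw [Units.val_mul, map_mul, hP, Units.coe_prod, map_prod]
          by_cases hu₀T : u₀ ∈ Tv v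
          · have hu₀T' : u₀ ∈ T := (Finset.mem_filter.mp hu₀T).1
            rw [← Finset.mul_prod_erase _ _ hu₀T, Finset.prod_eq_one, mul_one,
              Units.val_zpow_eq_zpow_val, map_zpow₀, hNlval, (hlam u₀ hu₀T').1, hxval,
              ← exp_zsmul, ← exp_add, ← exp_zero]
            · congr 1
              simp only [smul_eq_mul]
              ring
            · intro u hu
              rw [Finset.mem_erase] at hu
              have huT : u ∈ T := (Finset.mem_filter.mp hu.2).1
              have huv : primeBelow K M u = v := (Finset.mem_filter.mp hu.2).2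
              rw [Units.val_zpow_eq_zpow_val, map_zpow₀, hNlval,
                (hlam u huT).2 u₀ (Ne.symm hu.1) (hu₀.trans huv.symm), one_zpow]
          · have hu₀T' : u₀ ∉ T := fun h => hu₀T (Finset.mem_filter.mpr ⟨h, hu₀⟩)
            rw [hxU u₀ hu₀S hu₀T', one_mul]
            apply Finset.prod_eq_one
            intro u hu
            have huT : u ∈ T := (Finset.mem_filter.mp hu).1
            have huv : primeBelow K M u = v := (Finset.mem_filter.mp hu).2
            have hne : u₀ ≠ u := fun h => hu₀T' (h ▸ huT)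
            rw [Units.val_zpow_eq_zpow_val, map_zpow₀, hNlval,
              (hlam u huT).2 u₀ hne (hu₀.trans huv.symm), one_zpow]
        have hx'unit : ∀ v : HeightOneSpectrum (𝓞 K), v ∉ S0' →
            Units.map (semiLocalIncl K M v : M →* semiLocal K M v) (x * P v) ∈
              semiLocalUnits K M v := by
          intro v hv
          rw [← diagIdele_apply, diagIdele_mem_semiLocalUnits_iff]
          intro u₀ hu₀
          exact hx'val v hv u₀ hu₀
        have hloc : ∀ v : HeightOneSpectrum (𝓞 K), ∃ c : (semiLocal K L v)ˣ,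
            (v ∉ T.image (primeBelow K M) → c ∈ semiLocalUnits K L v) ∧
              sIR_locNorm K M L v c =
                Units.map (relSemiLocalMap K M L v : semiLocal K M v →* semiLocal K L v)
                  (y.1 v) := by
          intro v
          by_cases hvS : v ∈ S0'
          · refine ⟨1, fun _ => one_mem _, ?_⟩
            rw [hyS v hvS, map_one, map_one]
          · obtain ⟨c', hc'1, hc'2⟩ := hN1 v
              (fun h => hvS (hS0S0' v (Finset.mem_union_right _ h)))
              (Units.map (semiLocalIncl K M v : M →* semiLocal K M v) (x * P v))⁻¹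
              ((semiLocalUnits K M v).inv_mem (hx'unit v hvS))
            refine ⟨c' * ∏ u ∈ Tv v,
              (Units.map (semiLocalIncl K L v : L →* semiLocal K L v) (lam u)) ^ (-(nn u)), ?_, ?_⟩
            · intro hvT
              have hempty : Tv v = ∅ := by
                rw [hTv, Finset.filter_eq_empty_iff]
                intro u hu huv
                exact hvT (Finset.mem_image.mpr ⟨u, hu, huv⟩)
              rw [hempty, Finset.prod_empty, mul_one]
              exact hc'1
            · rw [map_mul, hc'2, map_prod, hynS v hvS]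
              simp_rw [map_zpow, sIR_locNorm_incl]
              have hφP : ∏ u ∈ Tv v,
                  (Units.map (relSemiLocalMap K M L v : semiLocal K M v →* semiLocal K L v)
                    (Units.map (semiLocalIncl K M v : M →* semiLocal K M v)
                      (Units.map (Algebra.norm M : L →* M) (lam u)))) ^ (-(nn u)) =
                  Units.map (relSemiLocalMap K M L v : semiLocal K M v →* semiLocal K L v)
                    (Units.map (semiLocalIncl K M v : M →* semiLocal K M v) (P v)) := by
                rw [hP]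
                simp only [map_prod, map_zpow]
                exact Finset.prod_congr rfl fun u _ => rfl
              rw [hφP, ← map_mul]
              congr 1
              rw [map_mul, mul_inv, mul_assoc, inv_mul_cancel, mul_one]
        choose c hc1 hc2 using hloc
        have hnorm : relIdeleNorm K M L (mkIdele K L c (T.image (primeBelow K M)) hc1) = y :=
          sIR_relIdeleNorm_eq_of_forall (mkIdele K L c (T.image (primeBelow K M)) hc1) y hc2
        have hx' : jS x = diagIdele (K := K) x * y := by rw [hy, mul_div_cancel]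
        rw [hx']
        exact Q.mul_mem (hPQ x) (hnorm ▸ hNQ _)
    exact hle hx

end Main

end Fermat.Agent.CFT
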