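import Mathlib
import Fermat.Agent.CFT.Idele.SecondIneqRel
import Fermat.Agent.CFT.Idele.KummerSplitPrime
import Fermat.Agent.CFT.Idele.ClassNumberGen

/-!
# CFT, S55 global-idelic stream, chunk (GL11-rel): the RELATIVE idelic second inequality, final form

`K ⊆ M ⊆ L` number fields (`K` = tensor base of the idele model), `L / M` Galois of odd prime degree
`p`, `ζ_p ∈ M`; NO Galois hypothesis on `L / K` or `M / K`.  The only remaining input is (hN1):
outside a finite set `Bram` of primes of `K`, every local unit of `M` is the norm of a local unit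
of `L` ((GL7-rel)).

* `index_principalIdeles_sup_relIdeleNorm_le` : `[J_M : Mˣ · N_{L/M} J_L] ≠ 0` and `≤ p`;
* `index_range_relClassNorm_le` : `[C_M : N_{L/M} C_L] ≠ 0` and `≤ p`.
-/

set_option autoImplicit false
set_option linter.unusedSectionVars false

open NumberField IsDedekindDomain IsDedekindDomain.HeightOneSpectrum
open scoped TensorProduct Fermat.Agent.CFT.TensorGal Fermat.Agent.CFT.IdeleAct

namespace Fermat.Agent.CFT

variable {K M L : Type} [Field K] [NumberField K] [Field M] [NumberField M]
  [Field L] [NumberField L] [Algebra K M] [Algebra M L] [Algebra K L] [IsScalarTower K M L]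
  [IsGalois M L]

/-- **The relative idelic second inequality** `[J_M : Mˣ · N_{L/M} J_L] ≤ p`. -/
theorem index_principalIdeles_sup_relIdeleNorm_le {p : ℕ} (hp : p.Prime) (hp2 : p ≠ 2)
    {ζ : M} (hζ : IsPrimitiveRoot ζ p) (hcard : Nat.card Gal(L/M) = p)
    (Bram : Finset (HeightOneSpectrum (𝓞 K)))
    (hN1 : ∀ v : HeightOneSpectrum (𝓞 K), v ∉ Bram → ∀ u ∈ semiLocalUnits K M v,
      ∃ c ∈ semiLocalUnits K L v, ∏ h : Gal(L/M), (relGalHom K M L h) • c =
        Units.map (relSemiLocalMap K M L v : semiLocal K M v →* semiLocal K L v) u) :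
    (principalIdeles K M ⊔ (relIdeleNorm K M L).range).index ≠ 0 ∧
      (principalIdeles K M ⊔ (relIdeleNorm K M L).range).index ≤ p := by
  obtain ⟨S0, hS0⟩ := exists_finset_forall_mul_diagIdele_inv_mem_gen K M
  exact sIR_index_le_of_split hp hp2 hζ hcard Bram hN1 S0
    (fun a => hS0 (S0 : Set (HeightOneSpectrum (𝓞 K))) (le_refl _) a)
    (fun a θ hθ hθM u hup hua hy Ω huΩ =>
      kSP_exists_norm M L hp hcard hζ a θ hθ hθM u hup hua hy Ω huΩ)

/-- the index of the norm group in the idele class group, in terms of ideles. -/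
theorem sIR_index_range_relClassNorm_eq :
    (relClassNorm K M L).range.index =
      (principalIdeles K M ⊔ (relIdeleNorm K M L).range).index := by
  have h1 : (relClassNorm K M L).range =
      ((relIdeleNorm K M L).range).map (QuotientGroup.mk' (principalIdeles K M)) := by
    ext c
    constructor
    · rintro ⟨d, rfl⟩
      induction d using QuotientGroup.induction_on with
      | H x => exact ⟨relIdeleNorm K M L x, ⟨x, rfl⟩, rfl⟩
    · rintro ⟨_, ⟨x, rfl⟩, rfl⟩
      exact ⟨(x : ideleClass K L), rfl⟩
  rw [h1, Subgroup.index_map, QuotientGroup.ker_mk',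
    MonoidHom.range_eq_top_of_surjective _ (QuotientGroup.mk'_surjective _), Subgroup.index_top,
    mul_one, sup_comm]

/-- **The relative second inequality for idele classes** `[C_M : N_{L/M} C_L] ≤ p`. -/
theorem index_range_relClassNorm_le {p : ℕ} (hp : p.Prime) (hp2 : p ≠ 2)
    {ζ : M} (hζ : IsPrimitiveRoot ζ p) (hcard : Nat.card Gal(L/M) = p)
    (Bram : Finset (HeightOneSpectrum (𝓞 K)))
    (hN1 : ∀ v : HeightOneSpectrum (𝓞 K), v ∉ Bram → ∀ u ∈ semiLocalUnits K M v,
      ∃ c ∈ semiLocalUnits K L v, ∏ h : Gal(L/M), (relGalHom K M L h) • c =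
        Units.map (relSemiLocalMap K M L v : semiLocal K M v →* semiLocal K L v) u) :
    (relClassNorm K M L).range.index ≠ 0 ∧ (relClassNorm K M L).range.index ≤ p := by
  rw [sIR_index_range_relClassNorm_eq]
  exact index_principalIdeles_sup_relIdeleNorm_le hp hp2 hζ hcard Bram hN1

end Fermat.Agent.CFT
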