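import Mathlib
import Fermat.Agent.CFT.Idele.SemiLocalHerbrand
import Fermat.Agent.CFT.Idele.UnramBridge
import Fermat.Agent.CFT.Local.UnramUnitsCoh
import Fermat.Agent.CFT.Idele.FirstIneq

set_option autoImplicit false
set_option linter.unusedSectionVars false
set_option linter.style.haveILetI false

/-!
# S55 global-idelic stream, chunk (GL7): the integral units at an unramified place are
cohomologically trivial (helper20)

`L / K` a cyclic extension of number fields, `G = Gal(L/K) = ⟨σ⟩`, `v` a finite place of `K` all of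
whose primes `w ∣ v` of `L` have trivial inertia group.  Then the group
`O_{L,v}ˣ = semiLocalUnits K L v` of integral units of `L_v = K_v ⊗[K] L` satisfies
`|Ĥ⁰(G, O_{L,v}ˣ)| = |Ĥ¹(G, O_{L,v}ˣ)| = 1` (`unrU_tateCard`), in the exact shape of the hypothesis
`hunr` of `idFI_herbrand_ideleClass` / `idFI_first_inequality` (`Idele/FirstIneq.lean`, helper23);
`unrU_hunr` is that hypothesis for a finite set `S` containing the ramified places.

Proof: Shapiro (`tateCard_induced`, helper18) along the CRT decomposition of `L_v` (helper11's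
`locHerbLift` / `locHerbComp`): `O_{L,v}ˣ = ⨁_m B_mˣ` with `B_m` the integral closure of `O_v` in the
residue field `E_m = L_v ⧸ m`, the stabiliser of `m` is `Gal(E_m / K_v)` (helper27's
`quotStabEquiv`), `B_m / O_v` is unramified (`unrB_isUnramifiedExt`, `Idele/UnramBridge.lean`), and
the units of an unramified extension of complete DVRs are cohomologically trivial
(`tateCard_units_of_isUnramifiedExt`, `Local/UnramUnitsCoh.lean`).
-/

namespace Fermat.Agent.CFT

section Generic

variable (A R : Type*) [CommRing A] [CommRing R] [Algebra A R] [IsArtinianRing R] [IsReduced R]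

theorem unrU_isIntegral_iff_forall_mk (x : R) :
    IsIntegral A x ↔ ∀ m : MaximalSpectrum R, IsIntegral A (Ideal.Quotient.mk m.asIdeal x) := by
  classical
  constructor
  · intro h m
    exact h.map (Ideal.Quotient.mkₐ A m.asIdeal)
  · intro h
    haveI : Fintype (MaximalSpectrum R) := Fintype.ofFinite _
    choose p hp hpx using h
    refine ⟨∏ m, p m, Polynomial.monic_prod_of_monic _ _ fun m _ => hp m, ?_⟩
    apply locHerb_eq_of_forall_mk_eq R
    intro m'
    rw [map_zero, ← Polynomial.aeval_def]
    have h1 : Ideal.Quotient.mk m'.asIdeal (Polynomial.aeval x (∏ m, p m)) =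
        Polynomial.aeval (Ideal.Quotient.mk m'.asIdeal x) (∏ m, p m) := by
      have := Polynomial.aeval_algHom_apply (Ideal.Quotient.mkₐ A m'.asIdeal) x (∏ m, p m)
      exact this.symm
    rw [h1, map_prod]
    refine Finset.prod_eq_zero (Finset.mem_univ m') ?_
    rw [Polynomial.aeval_def]
    exact hpx m'

/-- integrality of a CRT lift is tested in its own component. -/
theorem unrU_isIntegral_lift_iff (m : MaximalSpectrum R) (b : (R ⧸ m.asIdeal)ˣ) :
    IsIntegral A ((locHerbLift R m b : Rˣ) : R) ↔ IsIntegral A (b : R ⧸ m.asIdeal) := by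
  rw [unrU_isIntegral_iff_forall_mk]
  constructor
  · intro h
    have := h m
    rwa [locHerb_mk_lift_self] at this
  · intro h m'
    by_cases hm : m' = m
    · subst hm
      rwa [locHerb_mk_lift_self]
    · rw [locHerb_mk_lift_of_ne R hm]
      exact isIntegral_one

end Generic

section NumberField

open NumberField IsDedekindDomain IsDedekindDomain.HeightOneSpectrum IsLocalRing
open scoped TensorProduct Fermat.Agent.CFT.TensorGal Fermat.Agent.CFT.IdeleAct Pointwise

attribute [local instance] additiveDistribMulAction heightOneSpectrumMulAction maxSpecMulAction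
  Ideal.Quotient.field

variable (K L : Type) [Field K] [NumberField K] [Field L] [NumberField L] [Algebra K L]
variable (v : HeightOneSpectrum (𝓞 K))

theorem unrU_lift_mem_iff (m : MaximalSpectrum (semiLocal K L v))
    (b : (semiLocal K L v ⧸ m.asIdeal)ˣ) :
    locHerbLift (semiLocal K L v) m b ∈ semiLocalUnits K L v ↔
      IsIntegral (v.adicCompletionIntegers K) (b : semiLocal K L v ⧸ m.asIdeal) ∧
      IsIntegral (v.adicCompletionIntegers K)
        ((b⁻¹ : (semiLocal K L v ⧸ m.asIdeal)ˣ) : semiLocal K L v ⧸ m.asIdeal) := by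
  rw [mem_semiLocalUnits_iff, ← map_inv, unrU_isIntegral_lift_iff, unrU_isIntegral_lift_iff]

/-- the component of an integral unit is integral. -/
theorem unrU_isIntegral_mk_of_mem (m : MaximalSpectrum (semiLocal K L v))
    {u : (semiLocal K L v)ˣ} (hu : u ∈ semiLocalUnits K L v) :
    IsIntegral (v.adicCompletionIntegers K)
      ((Units.map (Ideal.Quotient.mk m.asIdeal : semiLocal K L v →* semiLocal K L v ⧸ m.asIdeal) u :
        (semiLocal K L v ⧸ m.asIdeal)ˣ) : semiLocal K L v ⧸ m.asIdeal) ∧
    IsIntegral (v.adicCompletionIntegers K)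
      (((Units.map (Ideal.Quotient.mk m.asIdeal : semiLocal K L v →* semiLocal K L v ⧸ m.asIdeal) u)⁻¹ :
        (semiLocal K L v ⧸ m.asIdeal)ˣ) : semiLocal K L v ⧸ m.asIdeal) := by
  rw [mem_semiLocalUnits_iff] at hu
  refine ⟨hu.1.map (Ideal.Quotient.mkₐ (v.adicCompletionIntegers K) m.asIdeal), ?_⟩
  rw [← map_inv]
  exact hu.2.map (Ideal.Quotient.mkₐ (v.adicCompletionIntegers K) m.asIdeal)

/-- the block of `m` in the integral units. -/
noncomputable def unrU_block (m : MaximalSpectrum (semiLocal K L v)) :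
    AddSubgroup ↥(idFI_unitsSide (K := K) (L := L) v) :=
  ((locHerbComp (semiLocal K L v) m).toAddSubgroup).comap
    (idFI_unitsSide (K := K) (L := L) v).subtype

theorem unrU_mem_block_iff (m : MaximalSpectrum (semiLocal K L v))
    (a : ↥(idFI_unitsSide (K := K) (L := L) v)) :
    a ∈ unrU_block K L v m ↔
      Additive.toMul (a : Additive (semiLocal K L v)ˣ) ∈ locHerbComp (semiLocal K L v) m :=
  Iff.rfl

/-- `B_mˣ → O_{L,v}ˣ`, the CRT lift. -/
noncomputable def unrU_j (m : MaximalSpectrum (semiLocal K L v)) :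
    Additive (unrB_B K L v m.asIdeal)ˣ →+ ↥(idFI_unitsSide (K := K) (L := L) v) :=
  AddMonoidHom.codRestrict
    (MonoidHom.toAdditive ((locHerbLift (semiLocal K L v) m).comp
      (Units.map ((unrB_B K L v m.asIdeal).val : unrB_B K L v m.asIdeal →* unrB_E K L v m.asIdeal))))
    (idFI_unitsSide (K := K) (L := L) v) (fun b => by
      show locHerbLift (semiLocal K L v) m _ ∈ semiLocalUnits K L v
      rw [unrU_lift_mem_iff, ← map_inv]
      exact ⟨(Additive.toMul b : (unrB_B K L v m.asIdeal)ˣ).1.2,
        ((Additive.toMul b)⁻¹ : (unrB_B K L v m.asIdeal)ˣ).1.2⟩)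

theorem unrU_j_apply (m : MaximalSpectrum (semiLocal K L v))
    (b : Additive (unrB_B K L v m.asIdeal)ˣ) :
    Additive.toMul ((unrU_j K L v m b : ↥(idFI_unitsSide (K := K) (L := L) v)) :
      Additive (semiLocal K L v)ˣ) =
    locHerbLift (semiLocal K L v) m (Units.map ((unrB_B K L v m.asIdeal).val :
      unrB_B K L v m.asIdeal →* unrB_E K L v m.asIdeal) (Additive.toMul b)) := rfl

theorem unrU_j_injective (m : MaximalSpectrum (semiLocal K L v)) :
    Function.Injective (unrU_j K L v m) := by
  intro b b' h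
  have h1 := congrArg (fun a : ↥(idFI_unitsSide (K := K) (L := L) v) =>
    Additive.toMul (a : Additive (semiLocal K L v)ˣ)) h
  simp only [unrU_j_apply] at h1
  have h2 := locHerbLift_injective _ m h1
  have h3 : Function.Injective (Units.map ((unrB_B K L v m.asIdeal).val :
      unrB_B K L v m.asIdeal →* unrB_E K L v m.asIdeal)) :=
    Units.map_injective Subtype.val_injective
  exact congrArg Additive.ofMul (h3 h2)

theorem unrU_j_range (m : MaximalSpectrum (semiLocal K L v))
    (a : ↥(idFI_unitsSide (K := K) (L := L) v)) :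
    a ∈ (unrU_j K L v m).range ↔ a ∈ unrU_block K L v m := by
  rw [unrU_mem_block_iff]
  constructor
  · rintro ⟨b, rfl⟩
    rw [unrU_j_apply, ← locHerb_range_lift]
    exact ⟨_, rfl⟩
  · intro ha
    rw [← locHerb_range_lift] at ha
    obtain ⟨u, hu⟩ := ha
    have hmem : locHerbLift (semiLocal K L v) m u ∈ semiLocalUnits K L v := by
      rw [hu]
      exact a.2
    rw [unrU_lift_mem_iff] at hmem
    let b : (unrB_B K L v m.asIdeal)ˣ :=
      ⟨⟨(u : unrB_E K L v m.asIdeal), hmem.1⟩,
       ⟨((u⁻¹ : (unrB_E K L v m.asIdeal)ˣ) : unrB_E K L v m.asIdeal), hmem.2⟩,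
       Subtype.ext (by simp), Subtype.ext (by simp)⟩
    refine ⟨Additive.ofMul b, ?_⟩
    apply Subtype.ext
    apply Additive.toMul.injective
    rw [unrU_j_apply, ← hu]
    congr 1

section Equivariance

variable [IsGalois K L]

/-- `Gal(E_m / K_v) → Gal(L/K)`, with image the decomposition group of `m`. -/
noncomputable def unrU_iota (m : MaximalSpectrum (semiLocal K L v)) :
    (unrB_E K L v m.asIdeal ≃ₐ[v.adicCompletion K] unrB_E K L v m.asIdeal) →* Gal(L/K) :=
  (MulAction.stabilizer Gal(L/K) m.asIdeal).subtype.comp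
    (quotStabEquiv K (v.adicCompletion K) L Gal(L/K) m.asIdeal).symm.toMonoidHom

theorem unrU_iota_injective (m : MaximalSpectrum (semiLocal K L v)) :
    Function.Injective (unrU_iota K L v m) := by
  intro h h' hh
  have h1 : (quotStabEquiv K (v.adicCompletion K) L Gal(L/K) m.asIdeal).symm h =
      (quotStabEquiv K (v.adicCompletion K) L Gal(L/K) m.asIdeal).symm h' :=
    Subtype.ext hh
  exact (quotStabEquiv K (v.adicCompletion K) L Gal(L/K) m.asIdeal).symm.injective h1

theorem unrU_iota_range (m : MaximalSpectrum (semiLocal K L v)) (τ : Gal(L/K)) :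
    τ ∈ (unrU_iota K L v m).range ↔ τ • m = m := by
  constructor
  · rintro ⟨h, rfl⟩
    exact MaximalSpectrum.ext
      ((quotStabEquiv K (v.adicCompletion K) L Gal(L/K) m.asIdeal).symm h).2
  · intro hτ
    have hτ' : τ ∈ MulAction.stabilizer Gal(L/K) m.asIdeal :=
      congrArg MaximalSpectrum.asIdeal hτ
    refine ⟨quotStabEquiv K (v.adicCompletion K) L Gal(L/K) m.asIdeal ⟨τ, hτ'⟩, ?_⟩
    show (((quotStabEquiv K (v.adicCompletion K) L Gal(L/K) m.asIdeal).symm
      (quotStabEquiv K (v.adicCompletion K) L Gal(L/K) m.asIdeal ⟨τ, hτ'⟩) :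
        MulAction.stabilizer Gal(L/K) m.asIdeal) : Gal(L/K)) = τ
    rw [MulEquiv.symm_apply_apply]

attribute [local instance] unrB_isAdicComplete unrB_isSeparable unrB_isLocalRing
  unrB_isDiscreteValuationRing unrB_isLocalHom adicLF_finite_residueField_nf

set_option synthInstance.maxHeartbeats 400000 in
set_option maxHeartbeats 1000000 in
theorem unrU_j_smul (m : MaximalSpectrum (semiLocal K L v))
    (h : unrB_E K L v m.asIdeal ≃ₐ[v.adicCompletion K] unrB_E K L v m.asIdeal)
    (b : Additive (unrB_B K L v m.asIdeal)ˣ) :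
    haveI : IsGalois (v.adicCompletion K) (unrB_E K L v m.asIdeal) :=
      isGalois_tensor_quot K (v.adicCompletion K) L Gal(L/K) m.asIdeal
    letI := IsIntegralClosure.MulSemiringAction (v.adicCompletionIntegers K) (v.adicCompletion K)
      (unrB_E K L v m.asIdeal) (unrB_B K L v m.asIdeal)
    letI : MulDistribMulAction
      (unrB_E K L v m.asIdeal ≃ₐ[v.adicCompletion K] unrB_E K L v m.asIdeal)
        (unrB_B K L v m.asIdeal)ˣ := Units.mulDistribMulActionRight
    letI := stableSubgroupAction (idFI_unitsSide (K := K) (L := L) v) (idFI_smul_mem_unitsSide v)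
    unrU_j K L v m (h • b) = unrU_iota K L v m h • unrU_j K L v m b := by
  haveI : IsGalois (v.adicCompletion K) (unrB_E K L v m.asIdeal) :=
    isGalois_tensor_quot K (v.adicCompletion K) L Gal(L/K) m.asIdeal
  letI act := IsIntegralClosure.MulSemiringAction (v.adicCompletionIntegers K) (v.adicCompletion K)
    (unrB_E K L v m.asIdeal) (unrB_B K L v m.asIdeal)
  letI act2 : MulDistribMulAction
    (unrB_E K L v m.asIdeal ≃ₐ[v.adicCompletion K] unrB_E K L v m.asIdeal)
      (unrB_B K L v m.asIdeal)ˣ := Units.mulDistribMulActionRight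
  letI := stableSubgroupAction (idFI_unitsSide (K := K) (L := L) v) (idFI_smul_mem_unitsSide v)
  letI := locHerbStabUnitsAction (v.adicCompletion K) (semiLocal K L v) Gal(L/K) m.asIdeal
  set d := (quotStabEquiv K (v.adicCompletion K) L Gal(L/K) m.asIdeal).symm h with hd
  have hdh : quotStabHom (v.adicCompletion K) (semiLocal K L v) Gal(L/K) m.asIdeal d = h :=
    (quotStabEquiv K (v.adicCompletion K) L Gal(L/K) m.asIdeal).apply_symm_apply h
  apply Subtype.ext
  apply Additive.toMul.injective
  show locHerbLift (semiLocal K L v) m (Units.map ((unrB_B K L v m.asIdeal).val :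
      unrB_B K L v m.asIdeal →* unrB_E K L v m.asIdeal) (h • Additive.toMul b)) =
    (d : Gal(L/K)) • locHerbLift (semiLocal K L v) m (Units.map ((unrB_B K L v m.asIdeal).val :
      unrB_B K L v m.asIdeal →* unrB_E K L v m.asIdeal) (Additive.toMul b))
  rw [← locHerbLift_smul (v.adicCompletion K) (semiLocal K L v) Gal(L/K) m d]
  congr 1
  apply Units.ext
  rw [locHerbStab_smul_val, hdh]
  exact algebraMap_galRestrict_apply (v.adicCompletionIntegers K) h
    ((Additive.toMul b : (unrB_B K L v m.asIdeal)ˣ) : unrB_B K L v m.asIdeal)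

theorem unrU_local (m : MaximalSpectrum (semiLocal K L v))
    (h : (unrB_w K L v m.asIdeal).asIdeal.inertia Gal(L/K) = ⊥)
    {σ : unrB_E K L v m.asIdeal ≃ₐ[v.adicCompletion K] unrB_E K L v m.asIdeal}
    (hσ : ∀ τ, τ ∈ Subgroup.zpowers σ) :
    haveI : IsGalois (v.adicCompletion K) (unrB_E K L v m.asIdeal) :=
      isGalois_tensor_quot K (v.adicCompletion K) L Gal(L/K) m.asIdeal
    letI := IsIntegralClosure.MulSemiringAction (v.adicCompletionIntegers K) (v.adicCompletion K)
      (unrB_E K L v m.asIdeal) (unrB_B K L v m.asIdeal)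
    letI : MulDistribMulAction
      (unrB_E K L v m.asIdeal ≃ₐ[v.adicCompletion K] unrB_E K L v m.asIdeal)
        (unrB_B K L v m.asIdeal)ˣ := Units.mulDistribMulActionRight
    tateH0Card (unrB_E K L v m.asIdeal ≃ₐ[v.adicCompletion K] unrB_E K L v m.asIdeal)
        (Additive (unrB_B K L v m.asIdeal)ˣ) σ = 1 ∧
      tateH1Card (unrB_E K L v m.asIdeal ≃ₐ[v.adicCompletion K] unrB_E K L v m.asIdeal)
        (Additive (unrB_B K L v m.asIdeal)ˣ) σ = 1 := by
  haveI : IsGalois (v.adicCompletion K) (unrB_E K L v m.asIdeal) :=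
    isGalois_tensor_quot K (v.adicCompletion K) L Gal(L/K) m.asIdeal
  exact tateCard_units_of_isUnramifiedExt (v.adicCompletionIntegers K) (v.adicCompletion K)
    (unrB_E K L v m.asIdeal) (unrB_B K L v m.asIdeal) hσ (unrB_isUnramifiedExt K L v m.asIdeal h)

set_option synthInstance.maxHeartbeats 400000 in
set_option maxHeartbeats 1000000 in
/-- **(GL7)** the integral units `O_{L,v}ˣ` of the semilocal algebra at a place `v` of `K` which is
unramified in the cyclic extension `L / K` have trivial Tate cohomology. -/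
theorem unrU_tateCard [Fintype Gal(L/K)] {σ : Gal(L/K)} (hσ : ∀ τ, τ ∈ Subgroup.zpowers σ)
    (hv : ∀ w : HeightOneSpectrum (𝓞 L), primeBelow K L w = v →
      w.asIdeal.inertia Gal(L/K) = ⊥) :
    letI := stableSubgroupAction (idFI_unitsSide (K := K) (L := L) v) (idFI_smul_mem_unitsSide v)
    tateH0Card Gal(L/K) ↥(idFI_unitsSide (K := K) (L := L) v) σ = 1 ∧
      tateH1Card Gal(L/K) ↥(idFI_unitsSide (K := K) (L := L) v) σ = 1 := by
  classical
  letI iA := stableSubgroupAction (idFI_unitsSide (K := K) (L := L) v) (idFI_smul_mem_unitsSide v)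
  obtain ⟨m⟩ : Nonempty (MaximalSpectrum (semiLocal K L v)) := inferInstance
  haveI : IsGalois (v.adicCompletion K) (unrB_E K L v m.asIdeal) :=
    isGalois_tensor_quot K (v.adicCompletion K) L Gal(L/K) m.asIdeal
  letI act := IsIntegralClosure.MulSemiringAction (v.adicCompletionIntegers K) (v.adicCompletion K)
    (unrB_E K L v m.asIdeal) (unrB_B K L v m.asIdeal)
  letI act2 : MulDistribMulAction
    (unrB_E K L v m.asIdeal ≃ₐ[v.adicCompletion K] unrB_E K L v m.asIdeal)
      (unrB_B K L v m.asIdeal)ˣ := Units.mulDistribMulActionRight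
  haveI : MulAction.IsPretransitive Gal(L/K) (MaximalSpectrum (semiLocal K L v)) :=
    maxSpec_isPretransitive (v.adicCompletion K) (semiLocal K L v) Gal(L/K)
  letI : Fintype (MaximalSpectrum (semiLocal K L v)) := Fintype.ofFinite _
  -- the local Galois group is cyclic
  haveI : IsCyclic Gal(L/K) := ⟨σ, hσ⟩
  haveI : IsCyclic (unrB_E K L v m.asIdeal ≃ₐ[v.adicCompletion K] unrB_E K L v m.asIdeal) :=
    isCyclic_of_injective (unrU_iota K L v m) (unrU_iota_injective K L v m)
  obtain ⟨σH, hσH⟩ := (inferInstance : IsCyclic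
    (unrB_E K L v m.asIdeal ≃ₐ[v.adicCompletion K] unrB_E K L v m.asIdeal)).exists_generator
  obtain ⟨l0, l1⟩ := unrU_local K L v m
    (hv (unrB_w K L v m.asIdeal) (unrB_primeBelow_w K L v m.asIdeal)) hσH
  have hperm : ∀ (τ : Gal(L/K)) (x : MaximalSpectrum (semiLocal K L v))
      (a : ↥(idFI_unitsSide (K := K) (L := L) v)), a ∈ unrU_block K L v x →
        τ • a ∈ unrU_block K L v (τ • x) := by
    intro τ m' a ha
    rw [unrU_mem_block_iff] at ha ⊢
    exact locHerb_smul_mem_comp (semiLocal K L v) Gal(L/K) τ m' ha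
  have hsumX : ∀ a : ↥(idFI_unitsSide (K := K) (L := L) v),
      ∃ c : MaximalSpectrum (semiLocal K L v) → ↥(idFI_unitsSide (K := K) (L := L) v),
        (∀ x, c x ∈ unrU_block K L v x) ∧ a = ∑ x, c x := by
    intro a
    refine ⟨fun m' => ⟨Additive.ofMul (locHerbLift (semiLocal K L v) m'
      (Units.map (Ideal.Quotient.mk m'.asIdeal : semiLocal K L v →* semiLocal K L v ⧸ m'.asIdeal)
        (Additive.toMul (a : Additive (semiLocal K L v)ˣ)))), ?_⟩, ?_, ?_⟩
    · show locHerbLift (semiLocal K L v) m' _ ∈ semiLocalUnits K L v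
      rw [unrU_lift_mem_iff]
      exact unrU_isIntegral_mk_of_mem K L v m' a.2
    · intro m'
      rw [unrU_mem_block_iff]
      show locHerbLift (semiLocal K L v) m' _ ∈ locHerbComp (semiLocal K L v) m'
      rw [← locHerb_range_lift]
      exact ⟨_, rfl⟩
    · apply Subtype.ext
      rw [AddSubgroup.val_finsetSum]
      apply Additive.toMul.injective
      rw [toMul_sum]
      exact locHerb_eq_prod_lift (semiLocal K L v) (Additive.toMul (a : Additive (semiLocal K L v)ˣ))
  have hindX : ∀ c : MaximalSpectrum (semiLocal K L v) → ↥(idFI_unitsSide (K := K) (L := L) v),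
      (∀ x, c x ∈ unrU_block K L v x) → ∑ x, c x = 0 → ∀ x, c x = 0 := by
    intro c hc hsum m'
    have h1 : ∏ m'', Additive.toMul ((c m'' : ↥(idFI_unitsSide (K := K) (L := L) v)) :
        Additive (semiLocal K L v)ˣ) = 1 := by
      have := congrArg (fun a : ↥(idFI_unitsSide (K := K) (L := L) v) =>
        Additive.toMul (a : Additive (semiLocal K L v)ˣ)) hsum
      simp only [AddSubgroup.val_finsetSum, toMul_sum] at this
      exact this
    have h2 := locHerb_eq_one_of_prod_eq_one (semiLocal K L v)
      (fun m'' => Additive.toMul ((c m'' : ↥(idFI_unitsSide (K := K) (L := L) v)) :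
        Additive (semiLocal K L v)ˣ)) (fun m'' => (unrU_mem_block_iff K L v m'' (c m'')).mp (hc m''))
      h1 m'
    apply Subtype.ext
    exact congrArg Additive.ofMul h2
  obtain ⟨h0, h1⟩ := tateCard_induced (G := Gal(L/K))
    (A := ↥(idFI_unitsSide (K := K) (L := L) v))
    (H := unrB_E K L v m.asIdeal ≃ₐ[v.adicCompletion K] unrB_E K L v m.asIdeal)
    (B := Additive (unrB_B K L v m.asIdeal)ˣ)
    (X := MaximalSpectrum (semiLocal K L v)) hσ hσH
    (unrU_block K L v) hperm hsumX hindX m (unrU_iota K L v m) (unrU_iota_injective K L v m)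
    (unrU_iota_range K L v m) (unrU_j K L v m) (unrU_j_injective K L v m)
    (unrU_j_range K L v m) (unrU_j_smul K L v m)
  exact ⟨h0.trans l0, h1.trans l1⟩

/-- the hypothesis `hunr` of `idFI_herbrand_ideleClass` / `idFI_first_inequality` for a finite set
`S` of places of `K` outside of which `L / K` is unramified. -/
theorem unrU_hunr [Fintype Gal(L/K)] (S : Finset (HeightOneSpectrum (𝓞 K))) {σ : Gal(L/K)}
    (hσ : ∀ τ, τ ∈ Subgroup.zpowers σ)
    (hS : ∀ w : HeightOneSpectrum (𝓞 L), primeBelow K L w ∉ S →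
      w.asIdeal.inertia Gal(L/K) = ⊥) :
    ∀ v : HeightOneSpectrum (𝓞 K), v ∉ S →
      letI := stableSubgroupAction (idFI_unitsSide (K := K) (L := L) v) (idFI_smul_mem_unitsSide v)
      tateH0Card Gal(L/K) ↥(idFI_unitsSide (K := K) (L := L) v) σ = 1 ∧
        tateH1Card Gal(L/K) ↥(idFI_unitsSide (K := K) (L := L) v) σ = 1 :=
  fun v hvS => unrU_tateCard K L v hσ fun w hw => hS w (hw ▸ hvS)

end Equivariance

end NumberField

end Fermat.Agent.CFT
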