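import Mathlib
import Fermat.Agent.CFT.Idele.UnramUnits
import Fermat.Agent.CFT.Idele.FirstIneqGen
import Fermat.Agent.CFT.Idele.SemiLocalHerbrandRel
import Fermat.Agent.CFT.Local.UnramUnitsCohGen

set_option autoImplicit false
set_option linter.unusedSectionVars false
set_option linter.style.haveILetI false

/-!
# S55 global-idelic stream, chunk (GL7-rel): integral units at an unramified place, relative /
generic-group form (helper20)

`K` the tensor base, `L / K` a finite extension of number fields (NOT necessarily Galois), `H = ⟨σ⟩`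
a finite cyclic group acting faithfully on `L` by `K`-automorphisms (e.g. `Gal(L/M)`, `K ≤ M ≤ L`),
`v` a prime of `K` unramified in `L`, in the valuation form
`∀ w, primeBelow K L w = v → ∀ x : K, w.valuation L (algebraMap K L x) = v.valuation K x`.

* `unrUR_tateCard_of_valuation` : `|Ĥ⁰(H, O_{L,v}ˣ)| = |Ĥ¹(H, O_{L,v}ˣ)| = 1`, in the exact shape of
  `hunr` of helper23's `idFG_herbrand_ideleClass` (`Idele/FirstIneqGen.lean`);
  `unrUR_hunr` : that hypothesis for a finite set `S`; `unrUR_tateCard` : the same with the
  hypothesis `IsUnramifiedExt O_v B_m` for all maximal ideals `m` of `K_v ⊗[K] L`;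
* `unrUR_exists_norm` : every `H`-invariant integral unit is the norm of an integral unit
  (the input (N1) of the relative second inequality);
* `unrUR_exists_finset_forall_valuation_eq` : off a finite set of primes of `K` the extension
  `L / K` is unramified in the valuation form (primes not dividing the different).

Proof: non-transitive Shapiro (helper11's `tateCard_orbit_blocks` / `tateCard_induced_block`) on
the integral CRT blocks `unrU_block` of `Idele/UnramUnits.lean`, and the generic-group local
theorem `ucg_tateCard_units` (`Local/UnramUnitsCohGen.lean`) for the decomposition groups.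
-/

namespace Fermat.Agent.CFT

open NumberField IsDedekindDomain IsDedekindDomain.HeightOneSpectrum IsLocalRing
open scoped TensorProduct Fermat.Agent.CFT.TensorGal Pointwise

attribute [local instance] additiveDistribMulAction Units.mulDistribMulActionRight
  heightOneSpectrumMulAction maxSpecMulAction Ideal.Quotient.field

section Blocks

variable (K L : Type) [Field K] [NumberField K] [Field L] [NumberField L] [Algebra K L]
variable (v : HeightOneSpectrum (𝓞 K))

theorem unrUR_sum [Fintype (MaximalSpectrum (semiLocal K L v))]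
    (a : ↥(idFI_unitsSide (K := K) (L := L) v)) :
    ∃ c : MaximalSpectrum (semiLocal K L v) → ↥(idFI_unitsSide (K := K) (L := L) v),
      (∀ x, c x ∈ unrU_block K L v x) ∧ a = ∑ x, c x := by
  refine ⟨fun m' => ⟨Additive.ofMul (locHerbLift (semiLocal K L v) m'
    (Units.map (Ideal.Quotient.mk m'.asIdeal : semiLocal K L v →* semiLocal K L v ⧸ m'.asIdeal)
      (Additive.toMul (a : Additive (semiLocal K L v)ˣ)))), ?_⟩, ?_, ?_⟩
  · show locHerbLift (semiLocal K L v) m' _ ∈ semiLocalUnits K L v
    rw [unrU_lift_mem_iff]
    exact unrU_isIntegral_mk_of_mem K L v m' a.2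
  · intro m'
    rw [unrU_mem_block_iff]
    show locHerbLift (semiLocal K L v) m' _ ∈ locHerbComp (semiLocal K L v) m'
    rw [← locHerb_range_lift]
    exact ⟨_, rfl⟩
  · apply Subtype.ext
    rw [AddSubgroup.val_finsetSum]
    apply Additive.toMul.injective
    rw [toMul_sum]
    exact locHerb_eq_prod_lift (semiLocal K L v) (Additive.toMul (a : Additive (semiLocal K L v)ˣ))

theorem unrUR_ind [Fintype (MaximalSpectrum (semiLocal K L v))]
    (c : MaximalSpectrum (semiLocal K L v) → ↥(idFI_unitsSide (K := K) (L := L) v))
    (hc : ∀ x, c x ∈ unrU_block K L v x) (hsum : ∑ x, c x = 0) : ∀ x, c x = 0 := by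
  intro m'
  have h1 : ∏ m'', Additive.toMul ((c m'' : ↥(idFI_unitsSide (K := K) (L := L) v)) :
      Additive (semiLocal K L v)ˣ) = 1 := by
    have := congrArg (fun a : ↥(idFI_unitsSide (K := K) (L := L) v) =>
      Additive.toMul (a : Additive (semiLocal K L v)ˣ)) hsum
    simp only [AddSubgroup.val_finsetSum, toMul_sum] at this
    exact this
  have h2 := locHerb_eq_one_of_prod_eq_one (semiLocal K L v)
    (fun m'' => Additive.toMul ((c m'' : ↥(idFI_unitsSide (K := K) (L := L) v)) :
      Additive (semiLocal K L v)ˣ)) (fun m'' => (unrU_mem_block_iff K L v m'' (c m'')).mp (hc m''))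
    h1 m'
  apply Subtype.ext
  exact congrArg Additive.ofMul h2

end Blocks

section Ramified

attribute [local instance] FractionRing.liftAlgebra FractionRing.isScalarTower_liftAlgebra

variable (K L : Type*) [Field K] [NumberField K] [Field L] [NumberField L] [Algebra K L]

theorem unrUR_ramificationIdx_eq_one (w : HeightOneSpectrum (𝓞 L))
    (hw : ¬ w.asIdeal ∣ differentIdeal (𝓞 K) (𝓞 L)) :
    (primeBelow K L w).asIdeal.ramificationIdx' w.asIdeal = 1 := by
  have hle : Ideal.map (algebraMap (𝓞 K) (𝓞 L)) (primeBelow K L w).asIdeal ≤ w.asIdeal ^ 1 := by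
    rw [pow_one, Ideal.map_le_iff_le_comap, under_asIdeal]
  refine Ideal.ramificationIdx'_spec hle ?_
  intro h2
  apply hw
  have := (primeBelow K L w).isMaximal
  have h3 := pow_sub_one_dvd_differentIdeal (A := 𝓞 K) (B := 𝓞 L) (p := (primeBelow K L w).asIdeal)
    w.asIdeal 2 (primeBelow K L w).ne_bot (Ideal.dvd_iff_le.mpr h2)
  simpa using h3

/-- off a finite set of primes of `K` the valuations of `L` extend those of `K` without
ramification exponent. -/
theorem unrUR_exists_finset_forall_valuation_eq :
    ∃ S : Finset (HeightOneSpectrum (𝓞 K)), ∀ w : HeightOneSpectrum (𝓞 L),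
      primeBelow K L w ∉ S → ∀ x : K,
        w.valuation L (algebraMap K L x) = (primeBelow K L w).valuation K x := by
  classical
  have hfin : {w : HeightOneSpectrum (𝓞 L) | w.asIdeal ∣ differentIdeal (𝓞 K) (𝓞 L)}.Finite :=
    Ideal.finite_factors (differentIdeal_ne_bot (A := 𝓞 K) (B := 𝓞 L))
  refine ⟨hfin.toFinset.image (primeBelow K L), fun w hw x => ?_⟩
  have hnd : ¬ w.asIdeal ∣ differentIdeal (𝓞 K) (𝓞 L) := by
    intro h
    apply hw
    rw [Finset.mem_image]
    exact ⟨w, hfin.mem_toFinset.mpr h, rfl⟩
  have : w.asIdeal.LiesOver (primeBelow K L w).asIdeal := ⟨(under_asIdeal _ _).symm⟩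
  have h1 := HeightOneSpectrum.valuation_liesOver L (primeBelow K L w) w x
  rw [← h1, unrUR_ramificationIdx_eq_one K L w hnd, pow_one]

end Ramified

section Rel

variable (K L : Type) (H : Type*) [Field K] [NumberField K] [Field L] [NumberField L]
  [Algebra K L] [Group H] [MulSemiringAction H L] [SMulCommClass H K L]
variable (v : HeightOneSpectrum (𝓞 K))

theorem unrUR_perm (τ : H) (m : MaximalSpectrum (semiLocal K L v))
    (a : ↥(idFI_unitsSide (K := K) (L := L) v)) (ha : a ∈ unrU_block K L v m) :
    letI := stableSubgroupAction (idFI_unitsSide (K := K) (L := L) v)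
      (idFG_smul_mem_unitsSide (G := H) v)
    τ • a ∈ unrU_block K L v (τ • m) := by
  rw [unrU_mem_block_iff] at ha ⊢
  exact locHerb_smul_mem_comp (semiLocal K L v) H τ m ha

attribute [local instance] unrB_isAdicComplete unrB_isSeparable unrB_isLocalRing
  unrB_isDiscreteValuationRing unrB_isLocalHom adicLF_finite_residueField_nf

/-- the decomposition group commutes with the scalars `K_v` on the residue field. -/
theorem unrUR_smulCommClass (m : Ideal (semiLocal K L v)) [m.IsMaximal] :
    letI := quotStabAction (v.adicCompletion K) (semiLocal K L v) H m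
    SMulCommClass (MulAction.stabilizer H m) (v.adicCompletion K) (unrB_E K L v m) := by
  letI := quotStabAction (v.adicCompletion K) (semiLocal K L v) H m
  exact ⟨fun d c x => by
    show quotStabHom (v.adicCompletion K) (semiLocal K L v) H m d (c • x) =
      c • quotStabHom (v.adicCompletion K) (semiLocal K L v) H m d x
    exact map_smul _ c x⟩

variable [FaithfulSMul H L]

/-- the action of the decomposition group `D_m` on `B_m`. -/
@[reducible] noncomputable def unrUR_actB (m : Ideal (semiLocal K L v)) [m.IsMaximal] :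
    MulSemiringAction (MulAction.stabilizer H m) ↥(unrB_B K L v m) :=
  letI := quotStabAction (v.adicCompletion K) (semiLocal K L v) H m
  haveI := unrUR_smulCommClass K L H v m
  haveI := locHerbR_faithful_quot K (v.adicCompletion K) L H m
  ucg_actB (v.adicCompletionIntegers K) (v.adicCompletion K) (unrB_E K L v m)
    (MulAction.stabilizer H m)

theorem unrUR_actB_coe (m : Ideal (semiLocal K L v)) [m.IsMaximal]
    (d : MulAction.stabilizer H m) (b : ↥(unrB_B K L v m)) :
    letI := unrUR_actB K L H v m
    ((d • b : ↥(unrB_B K L v m)) : unrB_E K L v m) =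
      quotStabHom (v.adicCompletion K) (semiLocal K L v) H m d (b : unrB_E K L v m) := rfl

/-- the local computation for the decomposition group. -/
theorem unrUR_local (m : Ideal (semiLocal K L v)) [m.IsMaximal]
    (hm : IsUnramifiedExt (v.adicCompletionIntegers K) ↥(unrB_B K L v m))
    [Fintype (MulAction.stabilizer H m)] {σD : MulAction.stabilizer H m}
    (hσD : ∀ d, d ∈ Subgroup.zpowers σD) :
    letI := unrUR_actB K L H v m
    tateH0Card (MulAction.stabilizer H m) (Additive (↥(unrB_B K L v m))ˣ) σD = 1 ∧
      tateH1Card (MulAction.stabilizer H m) (Additive (↥(unrB_B K L v m))ˣ) σD = 1 := by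
  letI := quotStabAction (v.adicCompletion K) (semiLocal K L v) H m
  haveI := unrUR_smulCommClass K L H v m
  haveI := locHerbR_faithful_quot K (v.adicCompletion K) L H m
  exact ucg_tateCard_units (v.adicCompletionIntegers K) (v.adicCompletion K) (unrB_E K L v m)
    (MulAction.stabilizer H m) hm hσD

set_option synthInstance.maxHeartbeats 400000 in
set_option maxHeartbeats 1000000 in
theorem unrUR_j_smul (m : MaximalSpectrum (semiLocal K L v))
    (d : MulAction.stabilizer H m.asIdeal) (b : Additive (↥(unrB_B K L v m.asIdeal))ˣ) :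
    letI := unrUR_actB K L H v m.asIdeal
    letI := stableSubgroupAction (idFI_unitsSide (K := K) (L := L) v)
      (idFG_smul_mem_unitsSide (G := H) v)
    unrU_j K L v m (d • b) = (d : H) • unrU_j K L v m b := by
  letI := unrUR_actB K L H v m.asIdeal
  letI := stableSubgroupAction (idFI_unitsSide (K := K) (L := L) v)
    (idFG_smul_mem_unitsSide (G := H) v)
  letI := locHerbStabUnitsAction (v.adicCompletion K) (semiLocal K L v) H m.asIdeal
  apply Subtype.ext
  apply Additive.toMul.injective
  show locHerbLift (semiLocal K L v) m (Units.map ((unrB_B K L v m.asIdeal).val :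
      unrB_B K L v m.asIdeal →* unrB_E K L v m.asIdeal) (d • Additive.toMul b)) =
    (d : H) • locHerbLift (semiLocal K L v) m (Units.map ((unrB_B K L v m.asIdeal).val :
      unrB_B K L v m.asIdeal →* unrB_E K L v m.asIdeal) (Additive.toMul b))
  rw [← locHerbLift_smul (v.adicCompletion K) (semiLocal K L v) H m d]
  congr 1

set_option synthInstance.maxHeartbeats 400000 in
set_option maxHeartbeats 1000000 in
/-- **(GL7-rel)** `K` the tensor base, `L / K` a finite extension of number fields (not necessarily
Galois), `H = ⟨σ⟩` a finite cyclic group acting faithfully on `L` by `K`-automorphisms, `v` a prime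
of `K` unramified in `L`.  Then the integral units `O_{L,v}ˣ` of `K_v ⊗[K] L` have trivial Tate
cohomology as an `H`-module. -/
theorem unrUR_tateCard [Fintype H] {σ : H} (hσ : ∀ τ, τ ∈ Subgroup.zpowers σ)
    (hv : ∀ m : MaximalSpectrum (semiLocal K L v),
      IsUnramifiedExt (v.adicCompletionIntegers K) ↥(unrB_B K L v m.asIdeal)) :
    letI := stableSubgroupAction (idFI_unitsSide (K := K) (L := L) v)
      (idFG_smul_mem_unitsSide (G := H) v)
    tateH0Card H ↥(idFI_unitsSide (K := K) (L := L) v) σ = 1 ∧
      tateH1Card H ↥(idFI_unitsSide (K := K) (L := L) v) σ = 1 := by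
  classical
  letI iA := stableSubgroupAction (idFI_unitsSide (K := K) (L := L) v)
    (idFG_smul_mem_unitsSide (G := H) v)
  letI : Fintype (MaximalSpectrum (semiLocal K L v)) := Fintype.ofFinite _
  letI : Fintype (MulAction.orbitRel.Quotient H (MaximalSpectrum (semiLocal K L v))) :=
    Fintype.ofFinite _
  haveI : IsCyclic H := ⟨σ, hσ⟩
  obtain ⟨h0, h1⟩ := tateCard_orbit_blocks (G := H)
    (A := ↥(idFI_unitsSide (K := K) (L := L) v)) (X := MaximalSpectrum (semiLocal K L v))
    (unrU_block K L v) (unrUR_perm K L H v) (unrUR_sum K L v) (unrUR_ind K L v) σ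
    (fun _ => 1) (fun _ => 1) (by
      intro m₀ Y hY hm₀ htrans
      letI : Fintype (MulAction.stabilizer H m₀.asIdeal) := Fintype.ofFinite _
      obtain ⟨σD, hσD⟩ :=
        (inferInstance : IsCyclic (MulAction.stabilizer H m₀.asIdeal)).exists_generator
      letI := unrUR_actB K L H v m₀.asIdeal
      obtain ⟨l0, l1⟩ := unrUR_local K L H v m₀.asIdeal (hv m₀) hσD
      obtain ⟨b0, b1⟩ := tateCard_induced_block (G := H)
        (A := ↥(idFI_unitsSide (K := K) (L := L) v))
        (H := MulAction.stabilizer H m₀.asIdeal) (B := Additive (↥(unrB_B K L v m₀.asIdeal))ˣ)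
        (X := MaximalSpectrum (semiLocal K L v)) hσ hσD
        (unrU_block K L v) (unrUR_perm K L H v) (unrUR_ind K L v) Y hY m₀ hm₀ htrans
        (MulAction.stabilizer H m₀.asIdeal).subtype Subtype.val_injective
        (by
          intro τ
          rw [Subgroup.range_subtype, MulAction.mem_stabilizer_iff]
          constructor
          · intro h
            exact MaximalSpectrum.ext h
          · intro h
            exact congrArg MaximalSpectrum.asIdeal h)
        (unrU_j K L v m₀) (unrU_j_injective K L v m₀) (unrU_j_range K L v m₀)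
        (unrUR_j_smul K L H v m₀)
      exact ⟨b0.trans l0, b1.trans l1⟩)
  rw [h0, h1]
  simp

/-- unramifiedness of the local factors from the valuation form of `v` unramified in `L`. -/
theorem unrUR_isUnramifiedExt_of_valuation
    (hv : ∀ w : HeightOneSpectrum (𝓞 L), primeBelow K L w = v →
      ∀ x : K, w.valuation L (algebraMap K L x) = v.valuation K x)
    (m : MaximalSpectrum (semiLocal K L v)) :
    IsUnramifiedExt (v.adicCompletionIntegers K) ↥(unrB_B K L v m.asIdeal) := by
  obtain ⟨π, hπ⟩ := v.valuation_exists_uniformizer K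
  refine unrB_isUnramifiedExt_of_valuation K L v m.asIdeal hπ ?_
  rw [hv _ (unrB_primeBelow_w K L v m.asIdeal), hπ]

/-- **(GL7-rel)**, valuation form of the hypothesis. -/
theorem unrUR_tateCard_of_valuation [Fintype H] {σ : H} (hσ : ∀ τ, τ ∈ Subgroup.zpowers σ)
    (hv : ∀ w : HeightOneSpectrum (𝓞 L), primeBelow K L w = v →
      ∀ x : K, w.valuation L (algebraMap K L x) = v.valuation K x) :
    letI := stableSubgroupAction (idFI_unitsSide (K := K) (L := L) v)
      (idFG_smul_mem_unitsSide (G := H) v)
    tateH0Card H ↥(idFI_unitsSide (K := K) (L := L) v) σ = 1 ∧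
      tateH1Card H ↥(idFI_unitsSide (K := K) (L := L) v) σ = 1 :=
  unrUR_tateCard K L H v hσ (unrUR_isUnramifiedExt_of_valuation K L v hv)

/-- the hypothesis `hunr` of `idFG_herbrand_ideleClass` (generic group) for a finite set `S` of
primes of `K` off which `L / K` is unramified (such an `S` exists:
`unrUR_exists_finset_forall_valuation_eq`). -/
theorem unrUR_hunr [Fintype H] (S : Finset (HeightOneSpectrum (𝓞 K))) {σ : H}
    (hσ : ∀ τ, τ ∈ Subgroup.zpowers σ)
    (hS : ∀ w : HeightOneSpectrum (𝓞 L), primeBelow K L w ∉ S → ∀ x : K,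
      w.valuation L (algebraMap K L x) = (primeBelow K L w).valuation K x) :
    ∀ v : HeightOneSpectrum (𝓞 K), v ∉ S →
      letI := stableSubgroupAction (idFI_unitsSide (K := K) (L := L) v)
        (idFG_smul_mem_unitsSide (G := H) v)
      tateH0Card H ↥(idFI_unitsSide (K := K) (L := L) v) σ = 1 ∧
        tateH1Card H ↥(idFI_unitsSide (K := K) (L := L) v) σ = 1 :=
  fun v hvS => unrUR_tateCard_of_valuation K L H v hσ fun w hw x => by
    have := hS w (hw ▸ hvS) x
    rwa [hw] at this

/-- **(GL7-rel), norm form**: at a prime `v` of `K` unramified in `L` every `H`-invariant integral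
unit of `K_v ⊗[K] L` is the norm of an integral unit. -/
theorem unrUR_exists_norm [Fintype H] {σ : H} (hσ : ∀ τ, τ ∈ Subgroup.zpowers σ)
    (hv : ∀ w : HeightOneSpectrum (𝓞 L), primeBelow K L w = v →
      ∀ x : K, w.valuation L (algebraMap K L x) = v.valuation K x)
    (u : (semiLocal K L v)ˣ) (hu : u ∈ semiLocalUnits K L v) (hfix : ∀ h : H, h • u = u) :
    ∃ c ∈ semiLocalUnits K L v, ∏ h : H, h • c = u := by
  letI iA := stableSubgroupAction (idFI_unitsSide (K := K) (L := L) v)
    (idFG_smul_mem_unitsSide (G := H) v)
  have h0 := (unrUR_tateCard_of_valuation K L H v hσ hv).1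
  unfold tateH0Card hIndex at h0
  have hle := AddSubgroup.relIndex_eq_one.mp h0
  let a : ↥(idFI_unitsSide (K := K) (L := L) v) := ⟨Additive.ofMul u, hu⟩
  have ha : a ∈ (subOneHom ↥(idFI_unitsSide (K := K) (L := L) v) σ).ker := by
    rw [AddMonoidHom.mem_ker, subOneHom_apply, sub_eq_zero]
    apply Subtype.ext
    exact congrArg Additive.ofMul (hfix σ)
  obtain ⟨c, hc⟩ := hle ha
  refine ⟨Additive.toMul (c : Additive (semiLocal K L v)ˣ), c.2, ?_⟩
  have h1 := congrArg (fun x : ↥(idFI_unitsSide (K := K) (L := L) v) =>
    Additive.toMul (x : Additive (semiLocal K L v)ˣ)) hc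
  simp only [normHom_apply, AddSubgroup.val_finsetSum, toMul_sum] at h1
  exact h1

end Rel

end Fermat.Agent.CFT
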