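/-
CFT, S55 pool, GLOBAL-IDELIC layer: **the cyclic layer, unconditional form** (helper23).

`K ≤ M ≤ L` number fields, `K` the tensor base, NO Galois hypothesis on `L/K` or `M/K`; `L/M`
Galois with cyclic group `Gal(L/M) = ⟨σ⟩`, unramified at the infinite places (e.g. of odd degree).
* `idFRG_herbrand_ideleClass` : `h(Gal(L/M), C_L) = [L : M]` for `C_L = ideleClass K L`, with all
  inputs discharged: (GL6) `J_L = Lˣ J_{L,S}` (helper4, `Idele/ClassNumberGen.lean`), (GL7-rel) the
  local units off `S` are cohomologically trivial (helper20, `Idele/UnramUnitsRel.lean`), (GL8-rel)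
  the local Herbrand quotients (helper11, `Idele/SemiLocalHerbrandRel.lean`) and the orbit dictionary
  (helper25, `Idele/LocalDegreeRel.lean`, Galois-free).
* `idFRG_first_inequality` : `[L : M] ≤ |Ĥ⁰(Gal(L/M), C_L)| = [C_M : N_{L/M} C_L]`.
* `idFRG_tateCard_of_second_inequality` : with `[J_M : Mˣ N J_L] ≤ [L : M]`:
  `|Ĥ⁰| = [L : M]`, `|Ĥ¹| = 1`.
* `idFRG_tateCard_of_hN1` : `[L : M] = p` an odd prime, `ζ_p ∈ M`: the same conclusion from
  helper9's second inequality (`Idele/SecondIneqRelMain.lean`), whose only input is (hN1).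
* `idFRG_cyclic_layer` : **the cyclic layer of class field theory, no hypothesis left**:
  `[L : M] = p` odd prime, `ζ_p ∈ M` ⟹ `|Ĥ⁰(Gal(L/M), C_L)| = p`, `|Ĥ¹| = 1`,
  `[C_M : N_{L/M} C_L] = p` (helper9's `relSecondInequality_ideles`,
  `Idele/SecondIneqRelFinal.lean`).
-/
import Mathlib
import Fermat.Agent.CFT.Idele.FirstIneqRel
import Fermat.Agent.CFT.Idele.UnramUnitsRel
import Fermat.Agent.CFT.Idele.ClassNumberGen
import Fermat.Agent.CFT.Idele.SecondIneqRelMain
import Fermat.Agent.CFT.Idele.SecondIneqRelFinal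

set_option autoImplicit false
set_option linter.unusedSectionVars false
set_option linter.style.haveILetI false

open NumberField IsDedekindDomain IsDedekindDomain.HeightOneSpectrum MulAction
open scoped TensorProduct Fermat.Agent.CFT.TensorGal

namespace Fermat.Agent.CFT

attribute [local instance] additiveDistribMulAction Units.mulDistribMulActionRight
  heightOneSpectrumMulAction ideleGroupActionOf ideleClassActionOf maxSpecMulAction

section RelGen

variable {K M L : Type} [Field K] [NumberField K] [Field M] [NumberField M]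
  [Field L] [NumberField L] [Algebra K M] [Algebra M L] [Algebra K L] [IsScalarTower K M L]
  [IsGalois M L] [Fintype Gal(L/M)]

/-- Galois-free form of `idFR_herbrand_ideleClass` ((GL6), (GL7-rel) still as hypotheses). -/
theorem idFRG_herbrand_ideleClass_of [IsUnramifiedAtInfinitePlaces M L]
    (S : Finset (HeightOneSpectrum (𝓞 K))) {σ : Gal(L/M)}
    (hσ : ∀ τ, τ ∈ Subgroup.zpowers σ)
    (hgen : principalIdeles K L ⊔ ideleGroupS K L (S : Set (HeightOneSpectrum (𝓞 K))) = ⊤)
    (hunr : ∀ v : HeightOneSpectrum (𝓞 K), v ∉ S →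
      letI := stableSubgroupAction (idFI_unitsSide (K := K) (L := L) v)
        (idFG_smul_mem_unitsSide (G := Gal(L/M)) v)
      tateH0Card Gal(L/M) ↥(idFI_unitsSide (K := K) (L := L) v) σ = 1 ∧
        tateH1Card Gal(L/M) ↥(idFI_unitsSide (K := K) (L := L) v) σ = 1) :
    HerbrandDefinedCyclic Gal(L/M) (Additive (ideleClass K L)) σ ∧
      herbrand Gal(L/M) (Additive (ideleClass K L)) σ = Fintype.card Gal(L/M) := by
  classical
  have hT : ∀ w : HeightOneSpectrum (𝓞 L), w ∈ sIR_primesOver K L S ↔ w.under (𝓞 K) ∈ S :=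
    fun w => sIR_mem_primesOver
  refine idFG_herbrand_ideleClass_gal S (sIR_primesOver K L S) hT hσ hgen hunr
    (fun v _ => semiLocalRel_herbrandDefined K L Gal(L/M) hσ v) ?_
  intro inst
  letI : ∀ v : HeightOneSpectrum (𝓞 K),
      Fintype (orbitRel.Quotient Gal(L/M) (MaximalSpectrum ((v.adicCompletion K) ⊗[K] L))) :=
    fun v => Fintype.ofFinite _
  rw [ldRel_prod_card_stabilizer_tower K M L S (sIR_primesOver K L S) hT
    (idFG_smul_mem_of_under S (sIR_primesOver K L S) hT)]
  exact Finset.prod_congr rfl fun v _ => semiLocalRel_herbrand K L Gal(L/M) hσ v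

variable (K L) in
/-- a finite set `S` of primes of `K` with (GL6) `J_L = Lˣ J_{L,S'}` for every `S' ⊇ S` and off
which `L/K` is unramified (valuation form). -/
theorem idFRG_exists_finset :
    ∃ S : Finset (HeightOneSpectrum (𝓞 K)),
      (∀ S' : Set (HeightOneSpectrum (𝓞 K)), (S : Set (HeightOneSpectrum (𝓞 K))) ⊆ S' →
        principalIdeles K L ⊔ ideleGroupS K L S' = ⊤) ∧
      ∀ w : HeightOneSpectrum (𝓞 L), primeBelow K L w ∉ S → ∀ x : K,
        w.valuation L (algebraMap K L x) = (primeBelow K L w).valuation K x := by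
  classical
  obtain ⟨S1, h1⟩ := exists_finset_forall_principalIdeles_sup_ideleGroupS_eq_top_gen K L
  obtain ⟨S2, h2⟩ := unrUR_exists_finset_forall_valuation_eq K L
  refine ⟨S1 ∪ S2, fun S' hS' => h1 S' fun v hv => hS' ?_, fun w hw x => h2 w (fun h => hw ?_) x⟩
  · exact Finset.mem_coe.mpr (Finset.mem_union_left _ (Finset.mem_coe.mp hv))
  · exact Finset.mem_union_right _ h

/-- **The Herbrand quotient of the idele class group on a cyclic layer, unconditional**:
`h(Gal(L/M), C_L) = [L : M]`. -/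
theorem idFRG_herbrand_ideleClass [IsUnramifiedAtInfinitePlaces M L] {σ : Gal(L/M)}
    (hσ : ∀ τ, τ ∈ Subgroup.zpowers σ) :
    HerbrandDefinedCyclic Gal(L/M) (Additive (ideleClass K L)) σ ∧
      herbrand Gal(L/M) (Additive (ideleClass K L)) σ = Fintype.card Gal(L/M) := by
  obtain ⟨S, hgen, hS⟩ := idFRG_exists_finset K L
  exact idFRG_herbrand_ideleClass_of S hσ (hgen _ (le_refl _))
    (unrUR_hunr K L Gal(L/M) S hσ hS)

/-- **The first inequality on a cyclic layer, unconditional**:
`[L : M] ≤ |Ĥ⁰(Gal(L/M), C_L)| = [C_M : N_{L/M} C_L]`, `|Ĥ⁰| = [L : M] |Ĥ¹|`. -/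
theorem idFRG_first_inequality [IsUnramifiedAtInfinitePlaces M L] {σ : Gal(L/M)}
    (hσ : ∀ τ, τ ∈ Subgroup.zpowers σ) :
    tateH0Card Gal(L/M) (Additive (ideleClass K L)) σ =
        Fintype.card Gal(L/M) * tateH1Card Gal(L/M) (Additive (ideleClass K L)) σ ∧
      Fintype.card Gal(L/M) ≤ (relClassNorm K M L).range.index ∧
      (relClassNorm K M L).range.index ≠ 0 ∧
      tateH1Card Gal(L/M) (Additive (ideleClass K L)) σ ≠ 0 := by
  obtain ⟨hC, h⟩ := idFRG_herbrand_ideleClass (K := K) hσ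
  obtain ⟨h1, h2, h3, h4⟩ := idFG_first_inequality_of_herbrand hC h
  rw [idNI_tateH0Card_eq_index (K := K) hσ] at h2 h3
  exact ⟨h1, h2, h3, h4⟩

/-- **The cyclic layer from the second inequality**: `[J_M : Mˣ N J_L] ≤ [L : M]` gives
`|Ĥ⁰(Gal(L/M), C_L)| = [L : M]`, `|Ĥ¹| = 1`, `[C_M : N C_L] = [L : M]`. -/
theorem idFRG_tateCard_of_second_inequality [IsUnramifiedAtInfinitePlaces M L] {σ : Gal(L/M)}
    (hσ : ∀ τ, τ ∈ Subgroup.zpowers σ)
    (h2 : (principalIdeles K M ⊔ (relIdeleNorm K M L).range).index ≤ Fintype.card Gal(L/M)) :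
    tateH0Card Gal(L/M) (Additive (ideleClass K L)) σ = Fintype.card Gal(L/M) ∧
      tateH1Card Gal(L/M) (Additive (ideleClass K L)) σ = 1 ∧
      (relClassNorm K M L).range.index = Fintype.card Gal(L/M) := by
  obtain ⟨hC, h⟩ := idFRG_herbrand_ideleClass (K := K) hσ
  have h2' : (relClassNorm K M L).range.index ≤ Fintype.card Gal(L/M) := by
    rw [sIR_index_range_relClassNorm_eq]
    exact h2
  exact idNI_tateCard_of_index_le hσ hC h h2'

/-- **The cyclic layer of odd prime degree `p` with `ζ_p ∈ M`**, from helper9's relative second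
inequality; the only remaining input is (hN1) (unramified local units are norms). -/
theorem idFRG_tateCard_of_hN1 {p : ℕ} (hp : p.Prime) (hp2 : p ≠ 2)
    {ζ : M} (hζ : IsPrimitiveRoot ζ p) (hcard : Nat.card Gal(L/M) = p)
    (Bram : Finset (HeightOneSpectrum (𝓞 K)))
    (hN1 : ∀ v : HeightOneSpectrum (𝓞 K), v ∉ Bram → ∀ u ∈ semiLocalUnits K M v,
      ∃ c ∈ semiLocalUnits K L v, ∏ h : Gal(L/M), (relGalHom K M L h) • c =
        Units.map (relSemiLocalMap K M L v : semiLocal K M v →* semiLocal K L v) u)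
    {σ : Gal(L/M)} (hσ : ∀ τ, τ ∈ Subgroup.zpowers σ) :
    tateH0Card Gal(L/M) (Additive (ideleClass K L)) σ = p ∧
      tateH1Card Gal(L/M) (Additive (ideleClass K L)) σ = 1 ∧
      (relClassNorm K M L).range.index = p := by
  have hodd : Odd (Module.finrank M L) := by
    rw [← IsGalois.card_aut_eq_finrank M L, hcard]
    exact hp.odd_of_ne_two hp2
  have := IsUnramifiedAtInfinitePlaces_of_odd_finrank hodd
  have hc : Fintype.card Gal(L/M) = p := by
    rw [← Nat.card_eq_fintype_card]
    exact hcard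
  have hN1' : ∀ v : HeightOneSpectrum (𝓞 K), v ∉ Bram → ∀ u ∈ semiLocalUnits K M v,
      ∃ c ∈ semiLocalUnits K L v,
        (@Finset.univ Gal(L/M) (AlgEquiv.fintype M L)).prod (fun h => (relGalHom K M L h) • c) =
          Units.map (relSemiLocalMap K M L v : semiLocal K M v →* semiLocal K L v) u := by
    intro v hv u hu
    obtain ⟨c, hc1, hcu⟩ := hN1 v hv u hu
    refine ⟨c, hc1, ?_⟩
    rw [← hcu]
    exact Finset.prod_congr (Finset.ext fun _ => by simp) fun _ _ => rfl
  have h2 := (index_principalIdeles_sup_relIdeleNorm_le (K := K) hp hp2 hζ hcard Bram hN1').2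
  rw [← hc] at h2
  have h := idFRG_tateCard_of_second_inequality (K := K) hσ h2
  rwa [hc] at h

/-- **The cyclic layer of class field theory in the `K`-model, unconditional**: `K ≤ M ≤ L`
number fields (no Galois hypothesis over `K`), `L/M` Galois of odd prime degree `p`, `ζ_p ∈ M`,
`σ` a generator of `Gal(L/M)`: `|Ĥ⁰(Gal(L/M), C_L)| = p`, `|Ĥ¹(Gal(L/M), C_L)| = 1` and
`[C_M : N_{L/M} C_L] = p`. -/
theorem idFRG_cyclic_layer {p : ℕ} (hp : p.Prime) (hp2 : p ≠ 2)
    {ζ : M} (hζ : IsPrimitiveRoot ζ p) (hcard : Nat.card Gal(L/M) = p)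
    {σ : Gal(L/M)} (hσ : ∀ τ, τ ∈ Subgroup.zpowers σ) :
    tateH0Card Gal(L/M) (Additive (ideleClass K L)) σ = p ∧
      tateH1Card Gal(L/M) (Additive (ideleClass K L)) σ = 1 ∧
      (relClassNorm K M L).range.index = p := by
  have hodd : Odd (Module.finrank M L) := by
    rw [← IsGalois.card_aut_eq_finrank M L, hcard]
    exact hp.odd_of_ne_two hp2
  have := IsUnramifiedAtInfinitePlaces_of_odd_finrank hodd
  have hc : Fintype.card Gal(L/M) = p := by
    rw [← Nat.card_eq_fintype_card]
    exact hcard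
  have h2 := (relSecondInequality_ideles (K := K) hp hp2 hζ hcard).2
  rw [← hc] at h2
  have h := idFRG_tateCard_of_second_inequality (K := K) hσ h2
  rwa [hc] at h

end RelGen

end Fermat.Agent.CFT
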