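/-
CFT, S55 pool, GLOBAL-IDELIC layer (GL12), part 4 (helper4): UNCONDITIONAL forms (= (K4) of the
C-side plan).  `K ≤ M ≤ L` number fields (tensor base `K`, no Galois hypothesis over `K`), `L/M`
ANY finite Galois extension, `p` an ODD prime, `μ_p ⊆ M`, `C_L = idClassRep K M L`:

* `idCyclicLayer_holds` : `IdCyclicLayer K p` (helper23's `idFRG_cyclic_layer`);
* `idClassF_h1`, `idClassF_h2` : `H¹(S, C_L) = 0`, `H²(S, C_L)` finite of order dividing `|S|` for
  all `p`-subgroups `S ≤ Gal(L/M)`;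
* `idClassF_H1_eq_zero_of_pow_nsmul` : `H¹(Gal(L/M), C_L)` has no `p`-torsion;
* `idClassF_natCard_pPrimary_H2_dvd` : `|H²(Gal(L/M), C_L)(p)| ∣ p ^ v_p([L : M])`;
* `idClassF_pgroup` : for `[L : M] = p ^ k`: `H¹ = 0` and `|H²| ∣ p ^ k`;
* with a class `w` whose order is divisible by `p ^ v_p([L : M])`: `idClassF_natCard_torsion_H2_le`
  (`|H²(Gal(L/M), C_L)[p]| ≤ p`), `idClassF_natCard_H2`, `idClassF_isZero_H3`,
  `idClassF_H3_eq_zero_of_pow_nsmul`.
-/
import Mathlib
import Fermat.Agent.CFT.Idele.DevissageSyl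
import Fermat.Agent.CFT.Idele.FirstIneqRelGen
import Fermat.Agent.CFT.Coh.PTorsionBound

set_option autoImplicit false
set_option linter.unusedSectionVars false
set_option linter.style.haveILetI false

open CategoryTheory groupCohomology Rep NumberField IsDedekindDomain IntermediateField
open scoped TensorProduct Fermat.Agent.CFT.TensorGal Fermat.Agent.CFT.IdeleAct

namespace Fermat.Agent.CFT

attribute [local instance] additiveDistribMulAction ideleGroupActionOf ideleClassActionOf
  idClassCommGroup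

/-- **the cyclic layers hold unconditionally for odd `p`** (first + second inequality). -/
theorem idCyclicLayer_holds (K : Type) [Field K] [NumberField K] (p : ℕ) [hp : Fact p.Prime]
    (hp2 : p ≠ 2) : IdCyclicLayer K p := by
  refine idCyclicLayer_of_tate K p ?_
  intro M L _ _ _ _ _ _ _ _ _ _ hζ hcard σ hσ
  obtain ⟨ζ, hζ⟩ := hζ
  obtain ⟨h0, h1, -⟩ := idFRG_cyclic_layer (K := K) hp.out hp2 hζ hcard hσ
  exact ⟨h0, h1⟩

section Final

variable (K M L : Type) [Field K] [NumberField K] [Field M] [NumberField M]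
  [Field L] [NumberField L] [Algebra K M] [Algebra M L] [Algebra K L] [IsScalarTower K M L]
  [IsGalois M L] (p : ℕ) [hp : Fact p.Prime] (hp2 : p ≠ 2) (hζ : ∃ ζ : M, IsPrimitiveRoot ζ p)

include hp2 hζ

/-- `H¹(S, C_L) = 0` for every `p`-subgroup `S ≤ Gal(L/M)`. -/
theorem idClassF_h1 : ∀ S : Subgroup Gal(L/M), IsPGroup p S →
    Limits.IsZero (groupCohomology (res S.subtype (idClassRep K M L)) 1) :=
  dvsSyl_h1 K M L p (idCyclicLayer_holds K p hp2) hζ

/-- `H²(S, C_L)` is finite of order dividing `|S|` for every `p`-subgroup `S ≤ Gal(L/M)`. -/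
theorem idClassF_h2 : ∀ S : Subgroup Gal(L/M), IsPGroup p S →
    Finite (groupCohomology (res S.subtype (idClassRep K M L)) 2) ∧
      Nat.card (groupCohomology (res S.subtype (idClassRep K M L)) 2) ∣ Nat.card S :=
  dvsSyl_h2 K M L p (idCyclicLayer_holds K p hp2) hζ

/-- **`H¹(Gal(L/M), C_L)` has no `p`-torsion.** -/
theorem idClassF_H1_eq_zero_of_pow_nsmul (x : groupCohomology (idClassRep K M L) 1) {j : ℕ}
    (hx : p ^ j • x = 0) : x = 0 :=
  dvsSyl_H1_eq_zero_of_pow_nsmul K M L p (idCyclicLayer_holds K p hp2) hζ x hx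

/-- `H¹(Gal(L/M), C_L)[p] = 0`. -/
theorem idClassF_H1_eq_zero_of_nsmul (x : groupCohomology (idClassRep K M L) 1)
    (hx : p • x = 0) : x = 0 :=
  idClassF_H1_eq_zero_of_pow_nsmul K M L p hp2 hζ x (j := 1) (by rwa [pow_one])

/-- **`|H²(Gal(L/M), C_L)(p)| ∣ p ^ v_p([L : M])`.** -/
theorem idClassF_natCard_pPrimary_H2_dvd :
    Nat.card (dvsP_pPrimary p (groupCohomology (idClassRep K M L) 2)) ∣
      p ^ (Nat.card Gal(L/M)).factorization p :=
  dvsSyl_natCard_pPrimary_H2_dvd K M L p (idCyclicLayer_holds K p hp2) hζ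

/-- the `p`-extension case: `H¹(Gal(L/M), C_L) = 0` and `|H²(Gal(L/M), C_L)| ∣ [L : M]`. -/
theorem idClassF_pgroup {k : ℕ} (hdeg : Module.finrank M L = p ^ k) :
    Subsingleton (groupCohomology (idClassRep K M L) 1) ∧
      Nat.card (groupCohomology (idClassRep K M L) 2) ∣ p ^ k :=
  idClass_devissage K p (idCyclicLayer_holds K p hp2) k M L hζ hdeg

section WithClass

variable {w : groupCohomology (idClassRep K M L) 2}
  (hw : p ^ (Nat.card Gal(L/M)).factorization p ∣ addOrderOf w)

include hw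

/-- **`|H²(Gal(L/M), C_L)[p]| ≤ p`**, given a class whose order is divisible by the `p`-part of
`[L : M]`. -/
theorem idClassF_natCard_torsion_H2_le :
    Finite (nsmulAddMonoidHom (α := groupCohomology (idClassRep K M L) 2) p).ker ∧
      Nat.card (nsmulAddMonoidHom (α := groupCohomology (idClassRep K M L) 2) p).ker ≤ p := by
  have hcard := idClassF_natCard_pPrimary_H2_dvd K M L p hp2 hζ
  have hw0 : IsOfFinAddOrder w := by
    rw [isOfFinAddOrder_iff_nsmul_eq_zero]
    have hG : 0 < Nat.card Gal(L/M) := Nat.card_pos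
    refine ⟨Nat.card Gal(L/M), hG, ?_⟩
    have := natCard_nsmul_eq_zero (idClassRep K M L) 1 w
    exact this
  exact ptb_natCard_torsion_le hp.out hcard w hw0 hw

/-- `|H²(S, C_L)| = |S|` for every `p`-subgroup `S`. -/
theorem idClassF_natCard_H2 (S : Subgroup Gal(L/M)) (hS : IsPGroup p S) :
    Nat.card (groupCohomology (res S.subtype (idClassRep K M L)) 2) = Nat.card S :=
  dvsSyl_natCard_H2 K M L p (idCyclicLayer_holds K p hp2) hζ hw S hS

/-- `res_S w` has order `|S|` for every `p`-subgroup `S`. -/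
theorem idClassF_addOrderOf_resH (S : Subgroup Gal(L/M)) (hS : IsPGroup p S) :
    addOrderOf (resH S (idClassRep K M L) 2 w) = Nat.card S :=
  dvsSyl_addOrderOf_resH K M L p (idCyclicLayer_holds K p hp2) hζ hw S hS

/-- `H³(S, C_L) = 0` for every `p`-subgroup `S` (Tate). -/
theorem idClassF_isZero_H3 (S : Subgroup Gal(L/M)) (hS : IsPGroup p S) :
    Limits.IsZero (groupCohomology (res S.subtype (idClassRep K M L)) 3) :=
  dvsSyl_isZero_H3 K M L p (idCyclicLayer_holds K p hp2) hζ hw S hS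

/-- `H³(Gal(L/M), C_L)` has no `p`-torsion. -/
theorem idClassF_H3_eq_zero_of_pow_nsmul (x : groupCohomology (idClassRep K M L) 3) {j : ℕ}
    (hx : p ^ j • x = 0) : x = 0 :=
  dvsSyl_H3_eq_zero_of_pow_nsmul K M L p (idCyclicLayer_holds K p hp2) hζ hw x hx

end WithClass

end Final

end Fermat.Agent.CFT
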