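/-
CFT, S55 pool, GLOBAL-IDELIC layer (GL12) (helper4): the devissage for the idele class module.

Tensor base `K` fixed; `K ≤ M ≤ L` number fields (universe `0`), `L/M` Galois.  The module
`C_L = ideleClass K L` with the action of `Gal(L/M)` (`ideleClassActionOf`) is packaged as
`idClassRep K M L : Rep ℤ Gal(L/M)`.

* tower `M ≤ F ≤ L`, `F/M` normal: `idClassInfHom` (`C_F → C_L`, `= relClass K F L`) and
  `idClassResHom` (identity) are the data of `Coh/H2InfResGen` / `Coh/H1InfResGen`, hence
  `subsingleton_H1_idClass_tower`, `natCard_H2_idClass_dvd_mul`;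
* `IdCyclicLayer K p` : the cyclic layers of degree `p` (first + second inequality) as ONE
  hypothesis; `idCyclicLayer_of_tate` converts from the `tateH0Card / tateH1Card` form;
* `idClass_devissage` : for every `p`-extension `L/M` with `μ_p ⊆ M`: `H¹(Gal(L/M), C_L) = 0` and
  `|H²(Gal(L/M), C_L)| ∣ [L : M]`;
* `idClass_subgroup` : the same for every subgroup `S ≤ Gal(L/M)` (the `h1` and the divisibility half
  of `hcard` of `Coh/TateClass.lean`), `idClass_natCard_H2_res_eq` : `hcard` from a class of order
  `|G|`.
-/
import Mathlib
import Fermat.Agent.CFT.Coh.H1InfResGen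
import Fermat.Agent.CFT.Coh.H2Units
import Fermat.Agent.CFT.Coh.CyclicBridge
import Fermat.Agent.CFT.Coh.ResIndex
import Fermat.Agent.CFT.Idele.NormIndexRel

set_option autoImplicit false
set_option linter.unusedSectionVars false

open CategoryTheory groupCohomology Rep NumberField IsDedekindDomain
open scoped TensorProduct Fermat.Agent.CFT.TensorGal Fermat.Agent.CFT.IdeleAct

namespace Fermat.Agent.CFT

attribute [local instance] additiveDistribMulAction ideleGroupActionOf ideleClassActionOf

section RepDef

variable (K M L : Type) [Field K] [NumberField K] [Field M] [NumberField M]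
  [Field L] [NumberField L] [Algebra K M] [Algebra M L] [Algebra K L] [IsScalarTower K M L]

/-- shortcut instance (instance search for `CommGroup (ideleClass K L)` fails when it is a nested
goal); it IS the instance found at top level. -/
@[reducible] noncomputable def idClassCommGroup : CommGroup (ideleClass K L) :=
  QuotientGroup.Quotient.commGroup (principalIdeles K L)

attribute [local instance] idClassCommGroup

/-- `C_L = ideleClass K L` as a representation of `Gal(L/M)` over `ℤ`. -/
noncomputable abbrev idClassRep : Rep.{0} ℤ Gal(L/M) :=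
  Rep.of (Representation.ofDistribMulAction ℤ Gal(L/M) (Additive (ideleClass K L)))

variable {K M L} in
theorem idClassRep_ρ_apply (g : Gal(L/M)) (c : Additive (ideleClass K L)) :
    (idClassRep K M L).ρ g c = Additive.ofMul ((relGalHom K M L g) • Additive.toMul c) := rfl

end RepDef

section Equivariance

variable {K F L : Type*} [Field K] [NumberField K] [Field F] [NumberField F]
  [Field L] [NumberField L] [Algebra K F] [Algebra F L] [Algebra K L] [IsScalarTower K F L]

/-- `K_v ⊗ F → K_v ⊗ L` is equivariant for compatible pairs of automorphisms. -/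
theorem dvs_relSemiLocalMap_smul {v : HeightOneSpectrum (𝓞 K)} (g : Gal(L/K)) (g' : Gal(F/K))
    (hg : ∀ x : F, g (algebraMap F L x) = algebraMap F L (g' x)) (y : semiLocal K F v) :
    relSemiLocalMap K F L v (g' • y) = g • relSemiLocalMap K F L v y := by
  induction y using TensorProduct.induction_on with
  | zero => rw [smul_zero, map_zero, smul_zero]
  | tmul c m =>
    rw [tensorRight_smul_tmul]
    show relTensorMap (c ⊗ₜ[K] (g' • m)) = g • relTensorMap (c ⊗ₜ[K] m)
    rw [relTensorMap_tmul, relTensorMap_tmul, tensorRight_smul_tmul]
    congr 1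
    exact (hg m).symm
  | add a b ha hb => rw [smul_add, map_add, map_add, smul_add, ha, hb]

/-- `J_F → J_L` is equivariant for compatible pairs of automorphisms. -/
theorem dvs_relIdele_smul (g : Gal(L/K)) (g' : Gal(F/K))
    (hg : ∀ x : F, g (algebraMap F L x) = algebraMap F L (g' x)) (x : ideleGroup K F) :
    relIdele K F L (g' • x) = g • relIdele K F L x := by
  apply Subtype.ext
  funext v
  apply Units.ext
  rw [ideleGroup_smul_apply, units_smul_val, relIdele_apply, relIdele_apply]
  simp only [Units.coe_map, MonoidHom.coe_coe]
  rw [ideleGroup_smul_apply, units_smul_val]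
  exact dvs_relSemiLocalMap_smul g g' hg _

/-- `C_F → C_L` is equivariant for compatible pairs of automorphisms. -/
theorem dvs_relClass_smul (g : Gal(L/K)) (g' : Gal(F/K))
    (hg : ∀ x : F, g (algebraMap F L x) = algebraMap F L (g' x)) (c : ideleClass K F) :
    relClass K F L (g' • c) = g • relClass K F L c := by
  induction c using QuotientGroup.induction_on with
  | H x =>
    have h1 : g' • (QuotientGroup.mk x : ideleClass K F) = QuotientGroup.mk (g' • x) := rfl
    have h2 : g • (QuotientGroup.mk (relIdele K F L x) : ideleClass K L) =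
        QuotientGroup.mk (g • relIdele K F L x) := rfl
    rw [h1, relClass_mk, relClass_mk, h2, dvs_relIdele_smul g g' hg]

end Equivariance

section Tower

variable (K M F L : Type) [Field K] [NumberField K] [Field M] [NumberField M]
  [Field F] [NumberField F] [Field L] [NumberField L]
  [Algebra K M] [Algebra K F] [Algebra K L] [Algebra M F] [Algebra F L] [Algebra M L]
  [IsScalarTower K M F] [IsScalarTower K F L] [IsScalarTower K M L] [IsScalarTower M F L]

attribute [local instance] idClassCommGroup

/-- the identity of `C_L`, as a morphism `Res (C_L as Gal(L/M)-module) ⟶ (C_L as Gal(L/F)-module)`. -/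
noncomputable def idClassResHom :
    res (galIncl M F L) (idClassRep K M L) ⟶ idClassRep K F L :=
  ofHom ⟨LinearMap.id, fun _ => rfl⟩

theorem idClassResHom_bijective : Function.Bijective (idClassResHom K M F L).hom :=
  ⟨fun _ _ h => h, fun b => ⟨b, rfl⟩⟩

variable [Normal M F]

/-- the restriction of `g : Gal(L/M)` to `F` is compatible with `g`, as `K`-automorphisms. -/
theorem dvs_galProj_compat (g : Gal(L/M)) (x : F) :
    (relGalHom K M L g) (algebraMap F L x) =
      algebraMap F L ((relGalHom K M F (galProj M F L g)) x) :=
  (AlgEquiv.restrictNormal_commutes g F x).symm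

/-- `C_F → C_L` as a morphism of `Gal(L/M)`-representations. -/
noncomputable def idClassInfHom :
    res (galProj M F L) (idClassRep K M F) ⟶ idClassRep K M L :=
  ofHom ⟨(relClass K F L).toAdditive.toIntLinearMap, fun g => by
    refine LinearMap.ext fun c => ?_
    refine congrArg Additive.ofMul ?_
    exact dvs_relClass_smul (relGalHom K M L g) (relGalHom K M F (galProj M F L g))
      (dvs_galProj_compat K M F L g) (Additive.toMul c)⟩

theorem idClassInfHom_apply (c : Additive (ideleClass K F)) :
    (idClassInfHom K M F L).hom c = Additive.ofMul (relClass K F L (Additive.toMul c)) := rfl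

variable [IsGalois M L]

theorem idClassInfHom_injective : Function.Injective (idClassInfHom K M F L).hom := by
  have : IsGalois F L := IsGalois.tower_top_of_isGalois M F L
  intro c c' h
  have h1 : relClass K F L (Additive.toMul c) = relClass K F L (Additive.toMul c') :=
    congrArg Additive.toMul h
  exact congrArg Additive.ofMul (relClass_injective K F L h1)

/-- Galois descent: a class of `C_L` fixed by `ker(Gal(L/M) → Gal(F/M))` comes from `C_F`. -/
theorem exists_idClassInfHom_eq (a : (idClassRep K M L).V)
    (ha : ∀ s ∈ (galProj M F L).ker, (idClassRep K M L).ρ s a = a) :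
    ∃ a' : (idClassRep K M F).V, (idClassInfHom K M F L).hom a' = a := by
  have : IsGalois F L := IsGalois.tower_top_of_isGalois M F L
  have hmem : (Additive.toMul a : ideleClass K L) ∈ (relClass K F L).range := by
    rw [mem_range_relClass_iff]
    intro g hg
    -- `g` fixes `F`, hence `M`: it comes from `Gal(L/M)`
    have hgM : ∀ m : M, g (algebraMap M L m) = algebraMap M L m := by
      intro m
      rw [IsScalarTower.algebraMap_apply M F L]
      exact hg _
    let s : Gal(L/M) := { g with commutes' := hgM }
    have hs : s ∈ (galProj M F L).ker := by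
      rw [mem_ker_galProj_iff]
      intro x
      exact hg x
    have hsg : relGalHom K M L s = g := by
      ext x
      rfl
    have h2 := ha s hs
    rw [idClassRep_ρ_apply, hsg] at h2
    exact congrArg Additive.toMul h2
  obtain ⟨c, hc⟩ := hmem
  exact ⟨Additive.ofMul c, congrArg Additive.ofMul hc⟩

/-- **inflation-restriction, degree `1`**, for the tower `M ≤ F ≤ L`. -/
theorem subsingleton_H1_idClass_tower
    (hQ : Subsingleton (groupCohomology (idClassRep K M F) 1))
    (hT : Subsingleton (groupCohomology (idClassRep K F L) 1)) :
    Subsingleton (groupCohomology (idClassRep K M L) 1) :=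
  subsingleton_H1_gen (galProj M F L) (idClassInfHom K M F L) (galIncl M F L)
    (idClassResHom K M F L) (AlgEquiv.restrictNormalHom_surjective L) (galIncl_injective M F L)
    (range_galIncl M F L) (idClassInfHom_injective K M F L) (exists_idClassInfHom_eq K M F L)
    (idClassResHom_bijective K M F L) hQ hT

/-- **inflation-restriction, degree `2`**, for the tower `M ≤ F ≤ L`, cardinality form. -/
theorem natCard_H2_idClass_dvd_mul
    (hT : Subsingleton (groupCohomology (idClassRep K F L) 1)) :
    Nat.card (groupCohomology (idClassRep K M L) 2) ∣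
      Nat.card (groupCohomology (idClassRep K M F) 2) *
        Nat.card (groupCohomology (idClassRep K F L) 2) :=
  natCard_H2_dvd_mul_gen (galProj M F L) (idClassInfHom K M F L) (galIncl M F L)
    (idClassResHom K M F L) (AlgEquiv.restrictNormalHom_surjective L) (galIncl_injective M F L)
    (range_galIncl M F L) (idClassInfHom_injective K M F L) (exists_idClassInfHom_eq K M F L)
    (idClassResHom_bijective K M F L)
    (h1ResVanishes_ker_gen (galProj M F L) (galIncl M F L) (idClassResHom K M F L)
      (galIncl_injective M F L) (range_galIncl M F L) (idClassResHom_bijective K M F L) hT)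

end Tower

section Devissage

open IntermediateField

variable (K : Type) [Field K] [NumberField K]

attribute [local instance] idClassCommGroup

/-- **The cyclic layers** (first + second inequality), as one hypothesis: for every `K ≤ M ≤ L`
with `L/M` Galois of degree `p` and `μ_p ⊆ M`: `H¹(Gal(L/M), C_L) = 0` and
`|H²(Gal(L/M), C_L)| ∣ p`. -/
def IdCyclicLayer (p : ℕ) : Prop :=
  ∀ (M L : Type) [Field M] [NumberField M] [Field L] [NumberField L] [Algebra K M] [Algebra M L]
    [Algebra K L] [IsScalarTower K M L] [IsGalois M L],
    (∃ ζ : M, IsPrimitiveRoot ζ p) → Nat.card Gal(L/M) = p →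
      Subsingleton (groupCohomology (idClassRep K M L) 1) ∧
        Nat.card (groupCohomology (idClassRep K M L) 2) ∣ p

/-- **(GL12)**: for every `p`-extension `L/M` (`K ≤ M ≤ L`, `μ_p ⊆ M`): `H¹(Gal(L/M), C_L) = 0`
and `|H²(Gal(L/M), C_L)| ∣ [L : M]`. -/
theorem idClass_devissage (p : ℕ) [hp : Fact p.Prime] (hcyc : IdCyclicLayer K p) :
    ∀ (k : ℕ) (M L : Type) [Field M] [NumberField M] [Field L] [NumberField L] [Algebra K M]
      [Algebra M L] [Algebra K L] [IsScalarTower K M L] [IsGalois M L],
      (∃ ζ : M, IsPrimitiveRoot ζ p) → Module.finrank M L = p ^ k →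
      Subsingleton (groupCohomology (idClassRep K M L) 1) ∧
        Nat.card (groupCohomology (idClassRep K M L) 2) ∣ p ^ k := by
  intro k
  induction k with
  | zero =>
    intro M L _ _ _ _ _ _ _ _ _ _ hdeg
    have hcard : Nat.card Gal(L/M) = 1 := by
      rw [IsGalois.card_aut_eq_finrank, hdeg, pow_zero]
    have : Subsingleton Gal(L/M) := (Nat.card_eq_one_iff_unique.mp hcard).1
    have hz1 : Limits.IsZero (groupCohomology (idClassRep K M L) (0 + 1)) :=
      isZero_groupCohomology_succ_of_subsingleton _ 0
    have hz2 : Limits.IsZero (groupCohomology (idClassRep K M L) (1 + 1)) :=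
      isZero_groupCohomology_succ_of_subsingleton _ 1
    have h1 : Subsingleton (groupCohomology (idClassRep K M L) 1) :=
      ModuleCat.isZero_iff_subsingleton.mp hz1
    have h2 : Subsingleton (groupCohomology (idClassRep K M L) 2) :=
      ModuleCat.isZero_iff_subsingleton.mp hz2
    refine ⟨h1, ?_⟩
    rw [pow_zero, Nat.card_unique]
  | succ k ih =>
    intro M L _ _ _ _ _ _ _ _ _ hζ hdeg
    have hpp : p.Prime := hp.out
    have hcard : Nat.card Gal(L/M) = p ^ (k + 1) := by
      rw [IsGalois.card_aut_eq_finrank, hdeg]
    have hG : IsPGroup p Gal(L/M) := IsPGroup.of_card hcard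
    have : Nontrivial Gal(L/M) := by
      rw [← Finite.one_lt_card_iff_nontrivial, hcard]
      exact Nat.one_lt_pow (Nat.succ_ne_zero k) hpp.one_lt
    have hc : Nontrivial (Subgroup.center Gal(L/M)) := hG.center_nontrivial
    have hpc : p ∣ Nat.card (Subgroup.center Gal(L/M)) := by
      obtain ⟨j, hj⟩ := (hG.to_subgroup (Subgroup.center Gal(L/M))).exists_card_eq
      rw [hj]
      rcases j with _ | j
      · exfalso
        rw [pow_zero] at hj
        have := (Finite.one_lt_card_iff_nontrivial).mpr hc
        omega
      · exact dvd_pow_self p (Nat.succ_ne_zero j)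
    obtain ⟨z, hz⟩ := exists_prime_orderOf_dvd_card' p hpc
    set S : Subgroup Gal(L/M) := Subgroup.zpowers (z : Gal(L/M)) with hS
    have : S.Normal := by
      refine ⟨fun n hn g => ?_⟩
      obtain ⟨i, rfl⟩ := Subgroup.mem_zpowers_iff.mp hn
      have hcomm : g * (z : Gal(L/M)) ^ i = (z : Gal(L/M)) ^ i * g :=
        (Subgroup.mem_center_iff.mp (Subgroup.zpow_mem _ z.2 i) g)
      rw [hcomm, mul_inv_cancel_right]
      exact Subgroup.zpow_mem_zpowers _ i
    have hScard : Nat.card S = p := by
      rw [hS, Nat.card_zpowers, Subgroup.orderOf_coe, hz]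
    have h1 : Module.finrank (fixedField S) L = p := by
      rw [finrank_fixedField_eq_card, hScard]
    have h2 : Module.finrank M (fixedField S) = p ^ k := by
      have := Module.finrank_mul_finrank M (fixedField S) L
      rw [h1, hdeg, pow_succ] at this
      exact Nat.eq_of_mul_eq_mul_right hpp.pos this
    have : IsGalois M (fixedField S) := IsGalois.of_fixedField_normal_subgroup S
    have : IsScalarTower K (fixedField S) L := IsScalarTower.of_algebraMap_eq (fun _ => rfl)
    have hζF : ∃ ζ : fixedField S, IsPrimitiveRoot ζ p := by
      obtain ⟨ζ, hζ⟩ := hζ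
      exact ⟨algebraMap M (fixedField S) ζ,
        hζ.map_of_injective (algebraMap M (fixedField S)).injective⟩
    have hcardT : Nat.card Gal(L/fixedField S) = p := by
      rw [IsGalois.card_aut_eq_finrank, h1]
    obtain ⟨hT1, hT2⟩ := hcyc (fixedField S) L hζF hcardT
    obtain ⟨hQ1, hQ2⟩ := ih M (fixedField S) hζ h2
    refine ⟨subsingleton_H1_idClass_tower K M (fixedField S) L hQ1 hT1, ?_⟩
    refine (natCard_H2_idClass_dvd_mul K M (fixedField S) L hT1).trans ?_
    rw [pow_succ]
    exact Nat.mul_dvd_mul hQ2 hT2

end Devissage

end Fermat.Agent.CFT
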