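/-
CFT, S55 pool, GLOBAL-IDELIC layer (GL12), part 2 (helper4): the class-formation hypotheses of
`Coh/TateClass.lean` for `C_L = idClassRep K M L`, `L/M` a Galois `p`-extension, `μ_p ⊆ M`.

* `idCyclicLayer_of_tate` : `IdCyclicLayer K p` from the cyclic layers in `tateH0Card / tateH1Card`
  form (the output shape of the relative first + second inequalities);
* `idClass_subgroup` : for every subgroup `S ≤ Gal(L/M)`: `H¹(S, C_L) = 0` and
  `|H²(S, C_L)| ∣ |S|`;
* `idClass_natCard_H2_res_eq` : if moreover some class of `H²(Gal(L/M), C_L)` has order `[L : M]`,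
  then `|H²(S, C_L)| = |S|` for every `S` - so `h1`, `hcard`, `hγ` of `exists_isClassCocycle` /
  `isZero_H3_of_card` all hold (`idClass_isZero_H3`).
-/
import Mathlib
import Fermat.Agent.CFT.Idele.Devissage
import Fermat.Agent.CFT.Coh.TateClass
import Fermat.Agent.CFT.Local.H2Cyclic

set_option autoImplicit false
set_option linter.unusedSectionVars false
set_option linter.style.haveILetI false

open CategoryTheory groupCohomology Rep NumberField IsDedekindDomain IntermediateField
open scoped TensorProduct Fermat.Agent.CFT.TensorGal Fermat.Agent.CFT.IdeleAct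

namespace Fermat.Agent.CFT

attribute [local instance] additiveDistribMulAction ideleGroupActionOf ideleClassActionOf
  idClassCommGroup

section Tate

variable (K : Type) [Field K] [NumberField K]

set_option maxRecDepth 8000 in
attribute [local instance] IsCyclic.commGroup in
/-- the cyclic layers from their Tate-cardinality form. -/
theorem idCyclicLayer_of_tate (p : ℕ) [hp : Fact p.Prime]
    (h : ∀ (M L : Type) [Field M] [NumberField M] [Field L] [NumberField L] [Algebra K M]
      [Algebra M L] [Algebra K L] [IsScalarTower K M L] [IsGalois M L] [Fintype Gal(L/M)],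
      (∃ ζ : M, IsPrimitiveRoot ζ p) → Nat.card Gal(L/M) = p →
      ∀ σ : Gal(L/M), (∀ τ, τ ∈ Subgroup.zpowers σ) →
        tateH0Card Gal(L/M) (Additive (ideleClass K L)) σ = p ∧
          tateH1Card Gal(L/M) (Additive (ideleClass K L)) σ = 1) :
    IdCyclicLayer K p := by
  intro M L _ _ _ _ _ _ _ _ _ hζ hcard
  classical
  letI : Fintype Gal(L/M) := Fintype.ofFinite _
  have : IsCyclic Gal(L/M) := isCyclic_of_prime_card hcard
  obtain ⟨σ, hσ⟩ := IsCyclic.exists_generator (α := Gal(L/M))
  obtain ⟨h0, h1⟩ := h M L hζ hcard σ hσ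
  have e2 := natCard_groupCohomology_even (idClassRep K M L) σ hσ 2 (by decide)
  have e1 := natCard_groupCohomology_odd (idClassRep K M L) σ hσ 1 (by decide)
  have hs : repSubOne (idClassRep K M L) σ = subOneHom (Additive (ideleClass K L)) σ := by
    ext a; rfl
  have hn : repNorm (idClassRep K M L) = normHom Gal(L/M) (Additive (ideleClass K L)) := by
    ext a
    rw [repNorm_apply]
    rfl
  rw [hs, hn] at e1 e2
  have e2' : Nat.card (groupCohomology (idClassRep K M L) 2) = p := by
    rw [e2, ← h0]; rfl
  have e1' : Nat.card (groupCohomology (idClassRep K M L) 1) = 1 := by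
    rw [e1, ← h1]; rfl
  exact ⟨(Nat.card_eq_one_iff_unique.mp e1').1, dvd_of_eq e2'⟩

end Tate

section Subgroups

variable (K M L : Type) [Field K] [NumberField K] [Field M] [NumberField M]
  [Field L] [NumberField L] [Algebra K M] [Algebra M L] [Algebra K L] [IsScalarTower K M L]
  [IsGalois M L]

/-- `Gal(L/L^S) → Gal(L/M)` has range `S`. -/
theorem dvs_range_galIncl_fixedField (S : Subgroup Gal(L/M)) :
    (galIncl M (fixedField S) L).range = S := by
  conv_rhs => rw [← fixingSubgroup_fixedField S]
  ext σ
  constructor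
  · rintro ⟨τ, rfl⟩
    intro x
    exact τ.commutes x
  · intro h
    refine ⟨{ σ with commutes' := fun x => h x }, ?_⟩
    ext
    rfl

variable {K M L} in
/-- transport: the cohomology of `S ≤ Gal(L/M)` on `C_L` is that of `Gal(L/L^S)`. -/
theorem dvs_map_bijective (S : Subgroup Gal(L/M))
    [IsScalarTower K (fixedField S) L] (n : ℕ) :
    Function.Bijective
      (map (toSubEquiv S (galIncl M (fixedField S) L) (galIncl_injective M (fixedField S) L)
          (dvs_range_galIncl_fixedField M L S)).toMonoidHom
        (resHom S (galIncl M (fixedField S) L) (idClassResHom K M (fixedField S) L)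
          (galIncl_injective M (fixedField S) L) (dvs_range_galIncl_fixedField M L S)) n) :=
  map_resHom_bijective S (galIncl M (fixedField S) L) (idClassResHom K M (fixedField S) L)
    (galIncl_injective M (fixedField S) L) (dvs_range_galIncl_fixedField M L S)
    (idClassResHom_bijective K M (fixedField S) L) n

/-- **(GL12), subgroup form**: for a Galois `p`-extension `L/M` with `μ_p ⊆ M` and every subgroup
`S ≤ Gal(L/M)`: `H¹(S, C_L) = 0` and `|H²(S, C_L)| ∣ |S|`. -/
theorem idClass_subgroup (p : ℕ) [hp : Fact p.Prime] (hcyc : IdCyclicLayer K p)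
    (hζ : ∃ ζ : M, IsPrimitiveRoot ζ p) {k : ℕ} (hdeg : Module.finrank M L = p ^ k)
    (S : Subgroup Gal(L/M)) :
    Limits.IsZero (groupCohomology (res S.subtype (idClassRep K M L)) 1) ∧
      Nat.card (groupCohomology (res S.subtype (idClassRep K M L)) 2) ∣ Nat.card S := by
  have hcard : Nat.card Gal(L/M) = p ^ k := by
    rw [IsGalois.card_aut_eq_finrank, hdeg]
  have hG : IsPGroup p Gal(L/M) := IsPGroup.of_card hcard
  obtain ⟨j, hj⟩ := (hG.to_subgroup S).exists_card_eq
  have : IsScalarTower K (fixedField S) L := IsScalarTower.of_algebraMap_eq (fun _ => rfl)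
  have hζF : ∃ ζ : fixedField S, IsPrimitiveRoot ζ p := by
    obtain ⟨ζ, hζ⟩ := hζ
    exact ⟨algebraMap M (fixedField S) ζ,
      hζ.map_of_injective (algebraMap M (fixedField S)).injective⟩
  have hdegF : Module.finrank (fixedField S) L = p ^ j := by
    rw [finrank_fixedField_eq_card, hj]
  obtain ⟨h1, h2⟩ := idClass_devissage K p hcyc j (fixedField S) L hζF hdegF
  have b1 := dvs_map_bijective (K := K) S 1
  have b2 := dvs_map_bijective (K := K) S 2
  refine ⟨?_, ?_⟩
  · rw [ModuleCat.isZero_iff_subsingleton]
    exact b1.1.subsingleton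
  · rw [Nat.card_congr (Equiv.ofBijective _ b2), hj]
    exact h2

/-- **`hcard` from `hγ`**: if some class of `H²(Gal(L/M), C_L)` has order `[L : M]`, then
`|H²(S, C_L)| = |S|` for every subgroup `S`. -/
theorem idClass_natCard_H2_res_eq (p : ℕ) [hp : Fact p.Prime] (hcyc : IdCyclicLayer K p)
    (hζ : ∃ ζ : M, IsPrimitiveRoot ζ p) {k : ℕ} (hdeg : Module.finrank M L = p ^ k)
    (hγ : ∃ w : groupCohomology (idClassRep K M L) 2, addOrderOf w = Nat.card Gal(L/M))
    (S : Subgroup Gal(L/M)) :
    Nat.card (groupCohomology (res S.subtype (idClassRep K M L)) 2) = Nat.card S := by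
  obtain ⟨w, hw⟩ := hγ
  have hdvd := (idClass_subgroup K M L p hcyc hζ hdeg S).2
  have hne : Nat.card (groupCohomology (res S.subtype (idClassRep K M L)) 2) ≠ 0 := by
    intro h0
    rw [h0, zero_dvd_iff] at hdvd
    exact Nat.card_pos.ne' hdvd
  have hfin : Finite (groupCohomology (res S.subtype (idClassRep K M L)) 2) :=
    Nat.finite_of_card_ne_zero hne
  set y := resH S (idClassRep K M L) 2 w with hy
  have hm : addOrderOf y ∣ Nat.card (groupCohomology (res S.subtype (idClassRep K M L)) 2) :=
    addOrderOf_dvd_natCard y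
  have h0 : resH S (idClassRep K M L) 2 (addOrderOf y • w) = 0 := by
    have h1 : resH S (idClassRep K M L) 2 (addOrderOf y • w) =
        addOrderOf y • resH S (idClassRep K M L) 2 w :=
      map_nsmul (resH S (idClassRep K M L) 2).hom _ _
    rw [h1]
    exact addOrderOf_nsmul_eq_zero y
  have h3 := index_nsmul_eq_zero_of_resH_eq_zero S (idClassRep K M L) 2 (by norm_num) _ h0
  rw [← mul_nsmul'] at h3
  have h4 : addOrderOf w ∣ S.index * addOrderOf y := addOrderOf_dvd_of_nsmul_eq_zero h3
  rw [hw, ← S.card_mul_index, mul_comm (Nat.card S)] at h4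
  have hidx : 0 < S.index := Nat.pos_of_ne_zero Subgroup.FiniteIndex.index_ne_zero
  have h5 : Nat.card S ∣ addOrderOf y := Nat.dvd_of_mul_dvd_mul_left hidx h4
  exact Nat.dvd_antisymm hdvd (h5.trans hm)

/-- **Tate's theorem applies**: `H³(S, C_L) = 0` for every subgroup `S` of the Galois group of a
`p`-extension `L/M` (`μ_p ⊆ M`), given the cyclic layers and a class of order `[L : M]`. -/
theorem idClass_isZero_H3 (p : ℕ) [hp : Fact p.Prime] (hcyc : IdCyclicLayer K p)
    (hζ : ∃ ζ : M, IsPrimitiveRoot ζ p) {k : ℕ} (hdeg : Module.finrank M L = p ^ k)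
    (hγ : ∃ w : groupCohomology (idClassRep K M L) 2, addOrderOf w = Nat.card Gal(L/M))
    (S : Subgroup Gal(L/M)) :
    Limits.IsZero (groupCohomology (res S.subtype (idClassRep K M L)) 3) := by
  classical
  letI : Fintype Gal(L/M) := Fintype.ofFinite _
  exact isZero_H3_of_card (idClassRep K M L)
    (fun S => (idClass_subgroup K M L p hcyc hζ hdeg S).1)
    (fun S => idClass_natCard_H2_res_eq K M L p hcyc hζ hdeg hγ S) hγ S

end Subgroups

end Fermat.Agent.CFT
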