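/-
CFT, S55 pool, GLOBAL-IDELIC layer (GL12), part 3 (helper4): the Sylow form of the devissage, for
`C_L = idClassRep K M L` with `L/M` ANY finite Galois extension (not nec. a `p`-extension),
`μ_p ⊆ M`.

* `dvsSyl_subgroup` : for every `p`-subgroup `S ≤ Gal(L/M)`: `H¹(S, C_L) = 0`, `H²(S, C_L)` finite
  of order dividing `|S|` (= `h1`, `h2` of `Coh/TateSylow.lean`);
* `dvsSyl_H1_eq_zero_of_pow_nsmul` : `H¹(Gal(L/M), C_L)` has no `p`-torsion;
* `dvsSyl_natCard_pPrimary_H2_dvd` : `|H²(Gal(L/M), C_L)(p)| ∣ p ^ v_p([L : M])`;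
* with a class `w` whose order is divisible by `p ^ v_p([L : M])`: `dvsSyl_natCard_H2`,
  `dvsSyl_addOrderOf_resH`, `dvsSyl_isZero_H3`, `dvsSyl_H3_eq_zero_of_pow_nsmul`.
-/
import Mathlib
import Fermat.Agent.CFT.Idele.DevissageSub
import Fermat.Agent.CFT.Coh.TateSylow
import Fermat.Agent.CFT.Coh.DevissageP

set_option autoImplicit false
set_option linter.unusedSectionVars false
set_option linter.style.haveILetI false

open CategoryTheory groupCohomology Rep NumberField IsDedekindDomain IntermediateField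
open scoped TensorProduct Fermat.Agent.CFT.TensorGal Fermat.Agent.CFT.IdeleAct

namespace Fermat.Agent.CFT

attribute [local instance] additiveDistribMulAction ideleGroupActionOf ideleClassActionOf
  idClassCommGroup

section Sylow

variable (K M L : Type) [Field K] [NumberField K] [Field M] [NumberField M]
  [Field L] [NumberField L] [Algebra K M] [Algebra M L] [Algebra K L] [IsScalarTower K M L]
  [IsGalois M L]

/-- **(GL12), `p`-subgroup form**: `L/M` any finite Galois extension with `μ_p ⊆ M`; for every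
`p`-subgroup `S ≤ Gal(L/M)`: `H¹(S, C_L) = 0` and `H²(S, C_L)` is finite of order dividing
`|S|`. -/
theorem dvsSyl_subgroup (p : ℕ) [hp : Fact p.Prime] (hcyc : IdCyclicLayer K p)
    (hζ : ∃ ζ : M, IsPrimitiveRoot ζ p) (S : Subgroup Gal(L/M)) (hS : IsPGroup p S) :
    Limits.IsZero (groupCohomology (res S.subtype (idClassRep K M L)) 1) ∧
      Finite (groupCohomology (res S.subtype (idClassRep K M L)) 2) ∧
      Nat.card (groupCohomology (res S.subtype (idClassRep K M L)) 2) ∣ Nat.card S := by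
  obtain ⟨j, hj⟩ := hS.exists_card_eq
  have : IsScalarTower K (fixedField S) L := IsScalarTower.of_algebraMap_eq (fun _ => rfl)
  have hζF : ∃ ζ : fixedField S, IsPrimitiveRoot ζ p := by
    obtain ⟨ζ, hζ⟩ := hζ
    exact ⟨algebraMap M (fixedField S) ζ,
      hζ.map_of_injective (algebraMap M (fixedField S)).injective⟩
  have hdegF : Module.finrank (fixedField S) L = p ^ j := by
    rw [finrank_fixedField_eq_card, hj]
  obtain ⟨h1, h2⟩ := idClass_devissage K p hcyc j (fixedField S) L hζF hdegF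
  have b1 := dvs_map_bijective (K := K) S 1
  have b2 := dvs_map_bijective (K := K) S 2
  have hdvd : Nat.card (groupCohomology (res S.subtype (idClassRep K M L)) 2) ∣ Nat.card S := by
    rw [Nat.card_congr (Equiv.ofBijective _ b2), hj]
    exact h2
  refine ⟨?_, ?_, hdvd⟩
  · rw [ModuleCat.isZero_iff_subsingleton]
    exact b1.1.subsingleton
  · apply Nat.finite_of_card_ne_zero
    intro h0
    rw [h0, zero_dvd_iff] at hdvd
    exact Nat.card_pos.ne' hdvd

/-- `h1` of `Coh/TateSylow.lean` for the idele class module. -/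
theorem dvsSyl_h1 (p : ℕ) [hp : Fact p.Prime] (hcyc : IdCyclicLayer K p)
    (hζ : ∃ ζ : M, IsPrimitiveRoot ζ p) :
    ∀ S : Subgroup Gal(L/M), IsPGroup p S →
      Limits.IsZero (groupCohomology (res S.subtype (idClassRep K M L)) 1) :=
  fun S hS => (dvsSyl_subgroup K M L p hcyc hζ S hS).1

/-- `h2` of `Coh/TateSylow.lean` for the idele class module. -/
theorem dvsSyl_h2 (p : ℕ) [hp : Fact p.Prime] (hcyc : IdCyclicLayer K p)
    (hζ : ∃ ζ : M, IsPrimitiveRoot ζ p) :
    ∀ S : Subgroup Gal(L/M), IsPGroup p S →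
      Finite (groupCohomology (res S.subtype (idClassRep K M L)) 2) ∧
        Nat.card (groupCohomology (res S.subtype (idClassRep K M L)) 2) ∣ Nat.card S :=
  fun S hS => (dvsSyl_subgroup K M L p hcyc hζ S hS).2

/-- **`H¹(Gal(L/M), C_L)` has no `p`-torsion** (`L/M` any finite Galois extension, `μ_p ⊆ M`). -/
theorem dvsSyl_H1_eq_zero_of_pow_nsmul (p : ℕ) [hp : Fact p.Prime] (hcyc : IdCyclicLayer K p)
    (hζ : ∃ ζ : M, IsPrimitiveRoot ζ p) (x : groupCohomology (idClassRep K M L) 1) {j : ℕ}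
    (hx : p ^ j • x = 0) : x = 0 := by
  obtain ⟨P⟩ : Nonempty (Sylow p Gal(L/M)) := inferInstance
  have hz := dvsSyl_h1 K M L p hcyc hζ (P : Subgroup Gal(L/M)) P.isPGroup'
  have h0 : resH (P : Subgroup Gal(L/M)) (idClassRep K M L) 1 x = 0 :=
    (ModuleCat.isZero_iff_subsingleton.mp hz).elim _ _
  have h2 : (P : Subgroup Gal(L/M)).index • x = 0 :=
    index_nsmul_eq_zero_of_resH_eq_zero (P : Subgroup Gal(L/M)) (idClassRep K M L) 1 le_rfl x h0
  have h3 : addOrderOf x ∣ (P : Subgroup Gal(L/M)).index := addOrderOf_dvd_of_nsmul_eq_zero h2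
  have h4 : addOrderOf x ∣ p ^ j := addOrderOf_dvd_of_nsmul_eq_zero hx
  have hcop : Nat.Coprime (p ^ j) (P : Subgroup Gal(L/M)).index :=
    Nat.Coprime.pow_left j ((Nat.Prime.coprime_iff_not_dvd hp.out).mpr P.not_dvd_index)
  have h1 : addOrderOf x = 1 := Nat.eq_one_of_dvd_coprimes hcop h4 h3
  exact AddMonoid.addOrderOf_eq_one_iff.mp h1

/-- **the `p`-primary part of `H²(Gal(L/M), C_L)` has order dividing `p ^ v_p([L : M])`**. -/
theorem dvsSyl_natCard_pPrimary_H2_dvd (p : ℕ) [hp : Fact p.Prime] (hcyc : IdCyclicLayer K p)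
    (hζ : ∃ ζ : M, IsPrimitiveRoot ζ p) :
    Nat.card (dvsP_pPrimary p (groupCohomology (idClassRep K M L) 2)) ∣
      p ^ (Nat.card Gal(L/M)).factorization p := by
  obtain ⟨P⟩ : Nonempty (Sylow p Gal(L/M)) := inferInstance
  obtain ⟨hfin, hdvd⟩ := dvsSyl_h2 K M L p hcyc hζ (P : Subgroup Gal(L/M)) P.isPGroup'
  let f : dvsP_pPrimary p (groupCohomology (idClassRep K M L) 2) →+
      groupCohomology (res (P : Subgroup Gal(L/M)).subtype (idClassRep K M L)) 2 :=
    (resH (P : Subgroup Gal(L/M)) (idClassRep K M L) 2).hom.toAddMonoidHom.comp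
      (dvsP_pPrimary p (groupCohomology (idClassRep K M L) 2)).subtype
  have hf : Function.Injective f := by
    rw [injective_iff_map_eq_zero]
    rintro ⟨x, j, hj⟩ hx
    apply Subtype.ext
    have h0 : resH (P : Subgroup Gal(L/M)) (idClassRep K M L) 2 x = 0 := hx
    have h2 : (P : Subgroup Gal(L/M)).index • x = 0 :=
      index_nsmul_eq_zero_of_resH_eq_zero (P : Subgroup Gal(L/M)) (idClassRep K M L) 2
        (by norm_num) x h0
    have h3 : addOrderOf x ∣ (P : Subgroup Gal(L/M)).index := addOrderOf_dvd_of_nsmul_eq_zero h2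
    have h4 : addOrderOf x ∣ p ^ j := addOrderOf_dvd_of_nsmul_eq_zero hj
    have hcop : Nat.Coprime (p ^ j) (P : Subgroup Gal(L/M)).index :=
      Nat.Coprime.pow_left j ((Nat.Prime.coprime_iff_not_dvd hp.out).mpr P.not_dvd_index)
    have h1 : addOrderOf x = 1 := Nat.eq_one_of_dvd_coprimes hcop h4 h3
    exact AddMonoid.addOrderOf_eq_one_iff.mp h1
  have hP : Nat.card (P : Subgroup Gal(L/M)) = p ^ (Nat.card Gal(L/M)).factorization p :=
    P.card_eq_multiplicity
  exact (AddSubgroup.card_dvd_of_injective f hf).trans (hP ▸ hdvd)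

section WithClass

variable (p : ℕ) [hp : Fact p.Prime] (hcyc : IdCyclicLayer K p)
  (hζ : ∃ ζ : M, IsPrimitiveRoot ζ p)
  {w : groupCohomology (idClassRep K M L) 2}
  (hw : p ^ (Nat.card Gal(L/M)).factorization p ∣ addOrderOf w)

include hcyc hζ hw

/-- with a class `w` of order divisible by `p ^ v_p([L : M])`: `res_S w` has order `|S|` for every
`p`-subgroup `S`. -/
theorem dvsSyl_addOrderOf_resH (S : Subgroup Gal(L/M)) (hS : IsPGroup p S) :
    addOrderOf (resH S (idClassRep K M L) 2 w) = Nat.card S := by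
  classical
  letI : Fintype Gal(L/M) := Fintype.ofFinite _
  exact tateSyl_addOrderOf_resH (dvsSyl_h2 K M L p hcyc hζ) hw S hS

/-- with a class `w` of order divisible by `p ^ v_p([L : M])`: `|H²(S, C_L)| = |S|` for every
`p`-subgroup `S`. -/
theorem dvsSyl_natCard_H2 (S : Subgroup Gal(L/M)) (hS : IsPGroup p S) :
    Nat.card (groupCohomology (res S.subtype (idClassRep K M L)) 2) = Nat.card S := by
  classical
  letI : Fintype Gal(L/M) := Fintype.ofFinite _
  exact tateSyl_natCard_H2 (dvsSyl_h2 K M L p hcyc hζ) hw S hS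

/-- with a class `w` of order divisible by `p ^ v_p([L : M])`: `H³(S, C_L) = 0` for every
`p`-subgroup `S` (Tate). -/
theorem dvsSyl_isZero_H3 (S : Subgroup Gal(L/M)) (hS : IsPGroup p S) :
    Limits.IsZero (groupCohomology (res S.subtype (idClassRep K M L)) 3) := by
  classical
  letI : Fintype Gal(L/M) := Fintype.ofFinite _
  exact tateSyl_isZero_H3 (dvsSyl_h1 K M L p hcyc hζ) (dvsSyl_h2 K M L p hcyc hζ) hw S hS

/-- with a class `w` of order divisible by `p ^ v_p([L : M])`: `H³(Gal(L/M), C_L)` has no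
`p`-torsion. -/
theorem dvsSyl_H3_eq_zero_of_pow_nsmul (x : groupCohomology (idClassRep K M L) 3) {j : ℕ}
    (hx : p ^ j • x = 0) : x = 0 := by
  classical
  letI : Fintype Gal(L/M) := Fintype.ofFinite _
  exact tateSyl_eq_zero_of_pow_nsmul (dvsSyl_h1 K M L p hcyc hζ) (dvsSyl_h2 K M L p hcyc hζ) hw
    x hx

end WithClass

end Sylow

end Fermat.Agent.CFT
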