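import Mathlib
import Fermat.Agent.CFT.Idele.PCycloArtin
import Fermat.Agent.CFT.Idele.BaseOrd
import Fermat.Agent.CFT.Idele.RelativeTower
import Fermat.Agent.CFT.Global.CycloFrob

set_option autoImplicit false
set_option linter.unusedSectionVars false

/-!
# (GL14)(c2): the norm character `ψ_E = pcycArtin ∘ N_{E/ℚ}` on the ideles of a number field and
its values on the ideles supported at one place

* `pcfSingle K L v : (K_v ⊗ L)ˣ →* J_L`, the ideles supported at one place of the base field;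
* `ideleNorm_pcfSingle_incl`: the norm of the idele `(1 ⊗ α)_v` is the base idele `(N α)_v`;
* `ideleNorm_relIdeleNorm`, `ideleNorm_relIdele`: the absolute idele norm in towers;
* `pcycNormChar v₀ r E = pcycArtin v₀ r ∘ ideleNorm ℚ E`, its behaviour in towers, its triviality
  on principal ideles of totally complex fields, `pcycClassChar`;
* `exists_pcycNormChar_eq_absNorm`: for a prime `w` of `E` prime to `P` there is an idele with
  `ψ_E = N(w) mod P^r`.
-/

open NumberField IsDedekindDomain Rat.HeightOneSpectrum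
open scoped TensorProduct Fermat.Agent.CFT.TensorGal Fermat.Agent.CFT.IdeleAct WithZero

namespace Fermat.Agent.CFT

section Single

variable (K L : Type*) [Field K] [NumberField K] [Field L] [NumberField L] [Algebra K L]

open Classical in
/-- the idele of `L` (in the `K`-model) with component `u` at `v` and `1` elsewhere. -/
noncomputable def pcfSingle (v : HeightOneSpectrum (𝓞 K)) :
    (semiLocal K L v)ˣ →* ideleGroup K L where
  toFun u := ⟨Pi.mulSingle v u, by
    rw [mem_ideleGroup_iff, Filter.eventually_cofinite]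
    refine (Set.finite_singleton v).subset fun w hw => ?_
    rw [Set.mem_ofPred_eq] at hw
    rw [Set.mem_singleton_iff]
    by_contra hne
    apply hw
    rw [Pi.mulSingle_eq_of_ne hne]
    exact (semiLocalUnits K L w).one_mem⟩
  map_one' := by
    apply Subtype.ext
    simp
  map_mul' x y := by
    apply Subtype.ext
    simp [Pi.mulSingle_mul]

variable {K L}

theorem pcfSingle_apply_same (v : HeightOneSpectrum (𝓞 K)) (u : (semiLocal K L v)ˣ) :
    (pcfSingle K L v u).1 v = u := by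
  classical
  show Pi.mulSingle (M := fun w : HeightOneSpectrum (𝓞 K) => (semiLocal K L w)ˣ) v u v = u
  exact Pi.mulSingle_eq_same (M := fun w : HeightOneSpectrum (𝓞 K) => (semiLocal K L w)ˣ) v u

theorem pcfSingle_apply_of_ne {v w : HeightOneSpectrum (𝓞 K)} (h : w ≠ v)
    (u : (semiLocal K L v)ˣ) : (pcfSingle K L v u).1 w = 1 := by
  classical
  show Pi.mulSingle (M := fun w : HeightOneSpectrum (𝓞 K) => (semiLocal K L w)ˣ) v u w = 1
  exact Pi.mulSingle_eq_of_ne (M := fun w : HeightOneSpectrum (𝓞 K) => (semiLocal K L w)ˣ) h u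

theorem smul_pcfSingle (g : Gal(L/K)) (v : HeightOneSpectrum (𝓞 K)) (u : (semiLocal K L v)ˣ) :
    g • pcfSingle K L v u = pcfSingle K L v (g • u) := by
  apply Subtype.ext
  funext w
  rw [ideleGroup_smul_apply]
  by_cases h : w = v
  · subst h
    rw [pcfSingle_apply_same, pcfSingle_apply_same]
  · rw [pcfSingle_apply_of_ne h, pcfSingle_apply_of_ne h, smul_one]

theorem baseToIdele_baseIdeleSingle (v : HeightOneSpectrum (𝓞 K)) (b : (v.adicCompletion K)ˣ) :
    baseToIdele K L (baseIdeleSingle K v b) =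
      pcfSingle K L v (Units.map (algebraMap (v.adicCompletion K) (semiLocal K L v) : _ →* _) b) := by
  apply Subtype.ext
  funext w
  rw [baseToIdele_apply]
  by_cases h : w = v
  · subst h
    rw [pcfSingle_apply_same, baseIdeleSingle_apply_same]
  · rw [pcfSingle_apply_of_ne h, baseIdeleSingle_apply_of_ne h, map_one]

/-- the norm of an idele supported at one place. -/
theorem ideleNorm_pcfSingle [IsGalois K L] (v : HeightOneSpectrum (𝓞 K)) (u : (semiLocal K L v)ˣ)
    (b : (v.adicCompletion K)ˣ)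
    (hb : Units.map (algebraMap (v.adicCompletion K) (semiLocal K L v) : _ →* _) b =
      ∏ g : Gal(L/K), g • u) :
    ideleNorm K L (pcfSingle K L v u) = baseIdeleSingle K v b := by
  apply baseToIdele_injective K L
  rw [baseToIdele_ideleNorm, baseToIdele_baseIdeleSingle, hb, map_prod]
  exact Finset.prod_congr rfl fun g _ => smul_pcfSingle g v u

/-- the norm of the idele `(1 ⊗ α)_v` is `(N_{L/K} α)_v`. -/
theorem ideleNorm_pcfSingle_incl [IsGalois K L] (v : HeightOneSpectrum (𝓞 K)) (α : Lˣ) :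
    ideleNorm K L (pcfSingle K L v (Units.map (semiLocalIncl K L v : L →* semiLocal K L v) α)) =
      baseIdeleSingle K v (Units.map (algebraMap K (v.adicCompletion K) : K →* _)
        (Units.map (Algebra.norm K : L →* K) α)) := by
  apply ideleNorm_pcfSingle
  apply Units.ext
  rw [Units.coe_map, Units.coe_map, Units.coe_map, Units.coe_prod]
  simp only [MonoidHom.coe_coe]
  have h1 : ∀ g : Gal(L/K), ((g • Units.map (semiLocalIncl K L v : L →* semiLocal K L v) α :
      (semiLocal K L v)ˣ) : semiLocal K L v) = semiLocalIncl K L v (g (α : L)) := by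
    intro g
    rw [units_smul_val, Units.coe_map]
    exact semiLocal_smul_incl g (α : L)
  simp_rw [h1]
  rw [← map_prod, ← Algebra.norm_eq_prod_automorphisms]
  rw [Algebra.TensorProduct.algebraMap_apply, Algebra.algebraMap_self, RingHom.id_apply]
  show (algebraMap K (v.adicCompletion K) (Algebra.norm K (α : L))) ⊗ₜ[K] (1 : L) =
    (1 : v.adicCompletion K) ⊗ₜ[K] (algebraMap K L (Algebra.norm K (α : L)))
  rw [Algebra.algebraMap_eq_smul_one, Algebra.algebraMap_eq_smul_one, TensorProduct.smul_tmul]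

end Single

section AbsTower

variable (K M L : Type*) [Field K] [NumberField K] [Field M] [NumberField M]
  [Field L] [NumberField L] [Algebra K M] [Algebra M L] [Algebra K L] [IsScalarTower K M L]

/-- `J_K → J_M → J_L` is `J_K → J_L`. -/
theorem relIdele_baseToIdele (b : baseIdeleGroup K) :
    relIdele K M L (baseToIdele K M b) = baseToIdele K L b := by
  apply Subtype.ext
  funext v
  apply Units.ext
  rw [relIdele_apply, baseToIdele_apply, baseToIdele_apply]
  simp only [Units.coe_map, MonoidHom.coe_coe]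
  exact (relSemiLocalMap K M L v).commutes _

variable [IsGalois K M] [IsGalois K L] [IsGalois M L]

/-- **transitivity of the absolute idele norm**: `N_{M/K} ∘ N_{L/M} = N_{L/K}`. -/
theorem ideleNorm_relIdeleNorm (x : ideleGroup K L) :
    ideleNorm K M (relIdeleNorm K M L x) = ideleNorm K L x := by
  classical
  apply baseToIdele_injective K L
  rw [← relIdele_baseToIdele K M L, baseToIdele_ideleNorm, baseToIdele_ideleNorm, map_prod]
  choose s hs using AlgEquiv.restrictNormalHom_surjective (F := K) (K₁ := M) (E := L)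
  have hcompat : ∀ (h' : Gal(M/K)) (m : M),
      (s h') (algebraMap M L m) = algebraMap M L (h' m) := by
    intro h' m
    have := AlgEquiv.restrictNormal_commutes (s h') M m
    rw [← this]
    show algebraMap M L (AlgEquiv.restrictNormalHom M (s h') m) = _
    rw [hs h']
  have h1 : ∀ h' : Gal(M/K), relIdele K M L (h' • relIdeleNorm K M L x) =
      ∏ h'' : Gal(L/M), (s h' * relGalHom K M L h'') • x := by
    intro h'
    rw [relTw_relIdele_smul (hcompat h'), relIdele_relIdeleNorm, Finset.smul_prod']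
    refine Finset.prod_congr rfl fun h'' _ => ?_
    rw [← mul_smul]
  simp_rw [h1]
  exact (relTw_prod_section (relGalHom K M L) (AlgEquiv.restrictNormalHom M)
    (relGalHom_injective K M L) relTw_restrictNormalHom_eq_one_iff s hs
    (fun h => h • x)).symm

/-- the absolute norm of an idele coming from `M` is the `[L : M]`-th power of its norm. -/
theorem ideleNorm_relIdele (y : ideleGroup K M) :
    ideleNorm K L (relIdele K M L y) = ideleNorm K M y ^ Nat.card Gal(L/M) := by
  rw [← ideleNorm_relIdeleNorm K M L, relIdeleNorm_relIdele, map_pow]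

end AbsTower

section NormChar

variable (v₀ : HeightOneSpectrum (𝓞 ℚ)) (r : ℕ)

/-- the norm character `ψ_E = pcycArtin ∘ N_{E/ℚ}` on the ideles of `E`. -/
noncomputable def pcycNormChar (E : Type*) [Field E] [NumberField E] [IsGalois ℚ E] :
    ideleGroup ℚ E →* (ZMod (natGenerator v₀ ^ r))ˣ :=
  (pcycArtin v₀ r).comp (ideleNorm ℚ E)

theorem pcycNormChar_apply (E : Type*) [Field E] [NumberField E] [IsGalois ℚ E]
    (x : ideleGroup ℚ E) : pcycNormChar v₀ r E x = pcycArtin v₀ r (ideleNorm ℚ E x) := rfl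

theorem pcycNormChar_smul (E : Type*) [Field E] [NumberField E] [IsGalois ℚ E]
    (g : Gal(E/ℚ)) (x : ideleGroup ℚ E) :
    pcycNormChar v₀ r E (g • x) = pcycNormChar v₀ r E x := by
  rw [pcycNormChar_apply, pcycNormChar_apply, ideleNorm_smul]

/-- principal ideles of a totally complex field are in the kernel of `ψ_E`. -/
theorem pcycNormChar_diagIdele (E : Type*) [Field E] [NumberField E] [IsGalois ℚ E]
    [IsTotallyComplex E] (x : Eˣ) : pcycNormChar v₀ r E (diagIdele (K := ℚ) x) = 1 := by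
  rw [pcycNormChar_apply, ideleNorm_diagIdele]
  apply pcycArtin_diagBase_of_pos
  rw [Units.coe_map]
  exact norm_rat_pos_of_isTotallyComplex x.ne_zero

section Tower

variable (M L : Type*) [Field M] [NumberField M] [Field L] [NumberField L] [Algebra M L]
  [IsGalois ℚ M] [IsGalois ℚ L] [IsGalois M L]

theorem pcycNormChar_relIdeleNorm (x : ideleGroup ℚ L) :
    pcycNormChar v₀ r M (relIdeleNorm ℚ M L x) = pcycNormChar v₀ r L x := by
  rw [pcycNormChar_apply, pcycNormChar_apply, ideleNorm_relIdeleNorm]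

theorem pcycNormChar_relIdele (y : ideleGroup ℚ M) :
    pcycNormChar v₀ r L (relIdele ℚ M L y) = pcycNormChar v₀ r M y ^ Nat.card Gal(L/M) := by
  rw [pcycNormChar_apply, pcycNormChar_apply, ideleNorm_relIdele, map_pow]

end Tower

/-- `ψ_E` on the idele class group of a totally complex field. -/
noncomputable def pcycClassChar (E : Type*) [Field E] [NumberField E] [IsGalois ℚ E]
    [IsTotallyComplex E] : ideleClass ℚ E →* (ZMod (natGenerator v₀ ^ r))ˣ :=
  QuotientGroup.lift (principalIdeles ℚ E) (pcycNormChar v₀ r E) (by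
    rintro _ ⟨x, rfl⟩
    exact pcycNormChar_diagIdele v₀ r E x)

theorem pcycClassChar_mk (E : Type*) [Field E] [NumberField E] [IsGalois ℚ E]
    [IsTotallyComplex E] (x : ideleGroup ℚ E) :
    pcycClassChar v₀ r E (x : ideleClass ℚ E) = pcycNormChar v₀ r E x := rfl

section ClassTower

variable (M L : Type*) [Field M] [NumberField M] [Field L] [NumberField L] [Algebra M L]
  [IsGalois ℚ M] [IsGalois ℚ L] [IsGalois M L] [IsTotallyComplex M] [IsTotallyComplex L]

theorem pcycClassChar_relClassNorm (c : ideleClass ℚ L) :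
    pcycClassChar v₀ r M (relClassNorm ℚ M L c) = pcycClassChar v₀ r L c := by
  induction c using QuotientGroup.induction_on with
  | H x => rw [relClassNorm_mk, pcycClassChar_mk, pcycClassChar_mk, pcycNormChar_relIdeleNorm]

theorem pcycClassChar_relClass (c : ideleClass ℚ M) :
    pcycClassChar v₀ r L (relClass ℚ M L c) = pcycClassChar v₀ r M c ^ Nat.card Gal(L/M) := by
  induction c using QuotientGroup.induction_on with
  | H y => rw [relClass_mk, pcycClassChar_mk, pcycClassChar_mk, pcycNormChar_relIdele]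

end ClassTower

end NormChar

section Frobenius


/-- if `I + (ℓ) = ⊤` then `ℓ ∤ N(I)`. -/
theorem pcf_not_dvd_absNorm_of_sup_eq_top {R : Type*} [CommRing R] [IsDedekindDomain R]
    [Module.Free ℤ R] (I : Ideal R) (hI : Ideal.absNorm I ≠ 0) {ℓ : ℕ} (hℓ : ℓ.Prime)
    (h : I ⊔ Ideal.span {(ℓ : R)} = ⊤) : ¬ ℓ ∣ Ideal.absNorm I := by
  intro hdvd
  have hcard : Ideal.absNorm I = Nat.card (R ⧸ I) := by
    rw [Ideal.absNorm_apply, Submodule.cardQuot_apply]
  rw [hcard] at hdvd hI
  have : Finite (R ⧸ I) := Nat.finite_of_card_ne_zero hI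
  have : Fact ℓ.Prime := ⟨hℓ⟩
  obtain ⟨x, hx⟩ := exists_prime_addOrderOf_dvd_card' ℓ hdvd
  have h1 : (1 : R) ∈ I ⊔ Ideal.span {(ℓ : R)} := by rw [h]; trivial
  obtain ⟨a, ha, c, hc, hac⟩ := Submodule.mem_sup.mp h1
  obtain ⟨b, rfl⟩ := Ideal.mem_span_singleton'.mp hc
  have hx0 : x ≠ 0 := by
    rintro rfl
    rw [addOrderOf_zero] at hx
    exact hℓ.one_lt.ne hx
  have hℓx : (ℓ : ℕ) • x = 0 := by rw [← hx]; exact addOrderOf_nsmul_eq_zero x
  apply hx0
  obtain ⟨y, rfl⟩ := Ideal.Quotient.mk_surjective x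
  have h2 : (Ideal.Quotient.mk I) a = 0 := Ideal.Quotient.eq_zero_iff_mem.mpr ha
  have h3 : (Ideal.Quotient.mk I) y = (Ideal.Quotient.mk I) ((a + b * (ℓ : R)) * y) := by
    rw [hac, one_mul]
  rw [h3, map_mul, map_add, h2, zero_add, map_mul, mul_assoc]
  have h4 : (Ideal.Quotient.mk I) (ℓ : R) * (Ideal.Quotient.mk I) y = 0 := by
    rw [map_natCast, ← nsmul_eq_mul]
    exact hℓx
  rw [h4, mul_zero]


/-- CRT choice: an integer `α` with `w(α) = 1` and `α ≡ 1` at the other primes dividing `ℓ`. -/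
theorem pcf_exists_uniformizer_at {E : Type*} [Field E] [NumberField E]
    (w : HeightOneSpectrum (𝓞 E)) (ℓ : ℕ) (hℓ : ℓ ≠ 0) :
    ∃ α : 𝓞 E, α ∈ w.asIdeal ∧ α ∉ w.asIdeal ^ 2 ∧
      ∀ Q : HeightOneSpectrum (𝓞 E), (ℓ : 𝓞 E) ∈ Q.asIdeal → Q ≠ w → α - 1 ∈ Q.asIdeal := by
  classical
  have hne : Ideal.span {(ℓ : 𝓞 E)} ≠ 0 := by
    rw [Ne, Ideal.zero_eq_bot, Ideal.span_singleton_eq_bot]
    exact_mod_cast hℓ
  have hfin := Ideal.finite_factors hne
  set s : Finset (HeightOneSpectrum (𝓞 E)) := insert w hfin.toFinset with hs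
  have hlt : w.asIdeal ^ 2 < w.asIdeal := by
    have := Ideal.pow_right_strictAnti w.asIdeal w.ne_bot w.isPrime.ne_top
    simpa using this (Nat.lt_succ_self 1)
  obtain ⟨π, hπ, hπ2⟩ := SetLike.exists_of_lt hlt
  obtain ⟨y, hy⟩ := IsDedekindDomain.exists_forall_sub_mem_ideal (s := s)
    (fun Q => Q.asIdeal) (fun Q => if Q = w then 2 else 1) (fun Q _ => Q.prime)
    (fun Q _ Q' _ h hh => h (HeightOneSpectrum.ext hh)) (fun Q => if Q.1 = w then π else 1)
  have hw := hy w (Finset.mem_insert_self _ _)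
  simp only [if_true] at hw
  have hyw : y ∈ w.asIdeal := by
    have := w.asIdeal.add_mem (hlt.le hw) hπ
    rwa [sub_add_cancel] at this
  refine ⟨y, hyw, fun hy2 => hπ2 ?_, fun Q hQ hQw => ?_⟩
  · have := (w.asIdeal ^ 2).sub_mem hy2 hw
    rwa [sub_sub_cancel] at this
  · have hQs : Q ∈ s := by
      rw [hs, Finset.mem_insert]
      right
      rw [Set.Finite.mem_toFinset]
      show Q.asIdeal ∣ Ideal.span {(ℓ : 𝓞 E)}
      rw [Ideal.dvd_span_singleton]
      exact hQ
    have := hy Q hQs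
    simpa [hQw] using this


theorem pcf_norm_natAbs_eq {E : Type*} [Field E] [NumberField E]
    (w : HeightOneSpectrum (𝓞 E)) {ℓ : ℕ} (hℓ : ℓ.Prime) (α : 𝓞 E)
    (h1 : α ∈ w.asIdeal) (h2 : α ∉ w.asIdeal ^ 2)
    (h3 : ∀ Q : HeightOneSpectrum (𝓞 E), (ℓ : 𝓞 E) ∈ Q.asIdeal → Q ≠ w → α - 1 ∈ Q.asIdeal) :
    ∃ m : ℕ, ¬ ℓ ∣ m ∧ (Algebra.norm ℤ α).natAbs = Ideal.absNorm w.asIdeal * m := by
  obtain ⟨I, hI⟩ : w.asIdeal ∣ Ideal.span {α} := Ideal.dvd_span_singleton.mpr h1
  have hα0 : α ≠ 0 := by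
    rintro rfl
    exact h2 (Ideal.zero_mem _)
  have hI0 : I ≠ ⊥ := by
    rintro rfl
    rw [Ideal.mul_bot, Ideal.span_singleton_eq_bot] at hI
    exact hα0 hI
  have hIn : Ideal.absNorm I ≠ 0 := by
    rw [Ne, Ideal.absNorm_eq_zero_iff]
    exact hI0
  refine ⟨Ideal.absNorm I, ?_, ?_⟩
  · apply pcf_not_dvd_absNorm_of_sup_eq_top I hIn hℓ
    by_contra hne
    obtain ⟨Q, hQmax, hQ⟩ := Ideal.exists_le_maximal _ hne
    have hℓQ : (ℓ : 𝓞 E) ∈ Q := hQ (Ideal.mem_sup_right (Ideal.mem_span_singleton_self _))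
    have hIQ : I ≤ Q := le_sup_left.trans hQ
    have hQ0 : Q ≠ ⊥ := by
      rintro rfl
      have h0 : (ℓ : 𝓞 E) = 0 := Ideal.mem_bot.mp hℓQ
      exact hℓ.ne_zero (Nat.cast_eq_zero.mp h0)
    set Q' : HeightOneSpectrum (𝓞 E) := ⟨Q, hQmax.isPrime, hQ0⟩ with hQ'
    have hdvd : w.asIdeal * Q ∣ Ideal.span {α} := by
      rw [hI]
      exact mul_dvd_mul_left _ (Ideal.dvd_iff_le.mpr hIQ)
    have hmem : α ∈ w.asIdeal * Q := Ideal.dvd_span_singleton.mp hdvd
    by_cases hQw : Q' = w
    · apply h2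
      have : Q = w.asIdeal := congrArg HeightOneSpectrum.asIdeal hQw
      rw [this, ← sq] at hmem
      exact hmem
    · have hle : w.asIdeal * Q ≤ Q := Ideal.mul_le_right
      have hαQ : α ∈ Q := hle hmem
      have h4 : α - 1 ∈ Q := h3 Q' hℓQ hQw
      have h5 : (1 : 𝓞 E) ∈ Q := by
        have := Q.sub_mem hαQ h4
        rwa [sub_sub_cancel] at this
      exact hQmax.ne_top ((Ideal.eq_top_iff_one Q).mpr h5)
  · rw [← Ideal.absNorm_span_singleton, hI, map_mul]

variable (v₀ : HeightOneSpectrum (𝓞 ℚ)) (r : ℕ)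

/-- the Artin map on a base idele supported at a tame place. -/
theorem pcycArtin_baseIdeleSingle {v : HeightOneSpectrum (𝓞 ℚ)} (hv : v ≠ v₀)
    (b : (v.adicCompletion ℚ)ˣ) :
    pcycArtin v₀ r (baseIdeleSingle ℚ v b) = pcycTame v₀ r v b := by
  rw [pcycArtin_apply, baseIdeleSingle_apply_of_ne (Ne.symm hv), map_one, inv_one, one_mul,
    finprod_eq_single _ v, baseIdeleSingle_apply_same]
  intro u hu
  rw [baseIdeleSingle_apply_of_ne hu, map_one]

/-- the `ℓ`-adic valuation of an integer `± ℓ^f m`, `ℓ ∤ m`. -/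
theorem pcf_valuation_intCast (v : HeightOneSpectrum (𝓞 ℚ)) (n : ℤ) (f m : ℕ)
    (hm : ¬ natGenerator v ∣ m) (hn : n.natAbs = natGenerator v ^ f * m) :
    v.valuation ℚ (n : ℚ) = WithZero.exp (-(f : ℤ)) := by
  have h1 : v.valuation ℚ (n : ℚ) = v.valuation ℚ ((n.natAbs : ℕ) : ℚ) := by
    rcases Int.natAbs_eq n with h | h
    · conv_lhs => rw [h]
      simp
    · conv_lhs => rw [h]
      rw [Int.cast_neg, Valuation.map_neg]
      simp
  rw [h1, hn, Nat.cast_mul, Nat.cast_pow, map_mul, map_pow, pcyc_valuation_natGenerator,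
    pcyc_valuation_natCast_eq_one v m hm, mul_one, ← WithZero.exp_nsmul]
  simp

/-- **Frobenius ideles**: for a prime `w` of `E` not above `P` there is an idele `z` of `E` with
`ψ_E(z) = N(w) mod P^r`. -/
theorem exists_pcycNormChar_eq_absNorm (E : Type*) [Field E] [NumberField E] [IsGalois ℚ E]
    (w : HeightOneSpectrum (𝓞 E)) (hw : ((natGenerator v₀ : ℕ) : 𝓞 E) ∉ w.asIdeal) :
    ∃ z : ideleGroup ℚ E,
      ((pcycNormChar v₀ r E z : (ZMod (natGenerator v₀ ^ r))ˣ) : ZMod (natGenerator v₀ ^ r)) =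
        (Ideal.absNorm w.asIdeal : ZMod (natGenerator v₀ ^ r)) := by
  haveI : NeZero w.asIdeal := ⟨w.ne_bot⟩
  set ℓ : ℕ := Ideal.absNorm (Ideal.under ℤ w.asIdeal) with hℓdef
  have hℓ : ℓ.Prime := Nat.absNorm_under_prime w.asIdeal
  have hℓw : (ℓ : 𝓞 E) ∈ w.asIdeal := Int.absNorm_under_mem w.asIdeal
  have hnorm : Ideal.absNorm w.asIdeal =
      ℓ ^ ((Ideal.span {(ℓ : ℤ)}).inertiaDeg' w.asIdeal) :=
    Ideal.absNorm_eq_pow_inertiaDeg' w.asIdeal hℓ
  set f := (Ideal.span {(ℓ : ℤ)}).inertiaDeg' w.asIdeal with hf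
  set v : HeightOneSpectrum (𝓞 ℚ) := pcycPlace ℓ hℓ with hv
  have hgen : natGenerator v = ℓ := natGenerator_pcycPlace ℓ hℓ
  have hvv₀ : v ≠ v₀ := by
    intro h
    apply hw
    rw [← h, hgen]
    exact hℓw
  obtain ⟨α, hα1, hα2, hα3⟩ := pcf_exists_uniformizer_at w ℓ hℓ.ne_zero
  obtain ⟨m, hm, hαm⟩ := pcf_norm_natAbs_eq w hℓ α hα1 hα2 hα3
  have hα0 : (α : E) ≠ 0 := by
    rw [Ne, RingOfIntegers.coe_eq_zero_iff]
    rintro rfl
    exact hα2 (Ideal.zero_mem _)
  set αu : Eˣ := Units.mk0 (α : E) hα0 with hαu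
  refine ⟨pcfSingle ℚ E v (Units.map (semiLocalIncl ℚ E v : E →* semiLocal ℚ E v) αu), ?_⟩
  rw [pcycNormChar_apply, ideleNorm_pcfSingle_incl, pcycArtin_baseIdeleSingle v₀ r hvv₀]
  have hval : Valued.v ((Units.map (algebraMap ℚ (v.adicCompletion ℚ) : ℚ →* _)
      (Units.map (Algebra.norm ℚ : E →* ℚ) αu) : (v.adicCompletion ℚ)ˣ) : v.adicCompletion ℚ) =
      WithZero.exp (-(f : ℤ)) := by
    rw [Units.coe_map, Units.coe_map, MonoidHom.coe_coe, pcyc_valued_algebraMap]
    show v.valuation ℚ (Algebra.norm ℚ (α : E)) = _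
    rw [← Algebra.coe_norm_int]
    apply pcf_valuation_intCast v _ f m
    · rwa [hgen]
    · rw [hgen, hαm, hnorm]
  rw [pcycTame_of_valued_eq v₀ r v _ (f : ℤ) hval, zpow_natCast, Units.val_pow_eq_pow_val,
    pcycTameUnit_coe v₀ r v hvv₀, hgen, hnorm, Nat.cast_pow]

end Frobenius

end Fermat.Agent.CFT
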