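import Mathlib

set_option autoImplicit false

/-!
# CFT, S55 global-idelic stream, chunk (GL13a), part 1: characters of a finite abelian group
avoiding finitely many elements

`exists_monoidHom_forall_apply_ne_one`: in a finite commutative group, finitely many elements
`b i` (indexed by a finite type of cardinality `r`) of order `> r` are simultaneously not in the
kernel of some character `χ : G →* ℂˣ`.

`exists_monoidHom_prime_pow_dvd_orderOf`: if `p ^ (k + c) ∣ orderOf (a i)` for all `i` and
`r < p ^ (c + 1)`, then some character `χ` of `p`-power order has `p ^ (k + 1) ∣ orderOf (χ (a i))`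
for all `i`.
-/

namespace Fermat.Agent.CFT

theorem card_ker_domRestrictHom_zpowers_mul_orderOf {G : Type*} [CommGroup G] [Finite G] (b : G) :
    Nat.card ((MonoidHom.domRestrictHom (Subgroup.zpowers b) ℂˣ).ker) * orderOf b = Nat.card G := by
  rw [CommGroup.card_domRestrictHom_ker (M := ℂ) (Subgroup.zpowers b), ← Nat.card_zpowers,
    ← Subgroup.index_eq_card, mul_comm]
  exact Subgroup.card_mul_index _

open scoped Classical in
/-- a finite commutative group has a character which is nontrivial on each of finitely many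
elements of large order. -/
theorem exists_monoidHom_forall_apply_ne_one {G : Type*} [CommGroup G] [Finite G]
    {ι : Type*} [Fintype ι] (b : ι → G) (hb : ∀ i, Fintype.card ι < orderOf (b i)) :
    ∃ χ : G →* ℂˣ, ∀ i, χ (b i) ≠ 1 := by
  by_contra hcon
  push Not at hcon
  have hfin : Finite (G →* ℂˣ) :=
    Finite.of_equiv G (CommGroup.monoidHom_mulEquiv_of_hasEnoughRootsOfUnity G ℂ).some.symm.toEquiv
  have : Fintype (G →* ℂˣ) := Fintype.ofFinite _
  obtain ⟨i₀, -⟩ := hcon 1
  have hr : 0 < Fintype.card ι := Fintype.card_pos_iff.mpr ⟨i₀⟩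
  -- the bad sets
  set Kr : ι → Subgroup (G →* ℂˣ) := fun i =>
    (MonoidHom.domRestrictHom (Subgroup.zpowers (b i)) ℂˣ).ker with hKr
  have hcard : ∀ i, Nat.card (Kr i) * orderOf (b i) = Nat.card G := fun i =>
    card_ker_domRestrictHom_zpowers_mul_orderOf (b i)
  have hmem : ∀ χ : G →* ℂˣ, ∃ i, χ ∈ Kr i := by
    intro χ
    obtain ⟨i, hi⟩ := hcon χ
    refine ⟨i, ?_⟩
    rw [hKr, MonoidHom.mem_ker]
    ext ⟨y, hy⟩
    obtain ⟨n, rfl⟩ := Subgroup.mem_zpowers_iff.mp hy
    simp [MonoidHom.domRestrictHom, hi]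
  have hle : Nat.card (G →* ℂˣ) ≤ ∑ i, Nat.card (Kr i) := by
    have hsub : (Finset.univ : Finset (G →* ℂˣ)) ⊆
        Finset.univ.biUnion fun i => ((Kr i : Set (G →* ℂˣ)).toFinset) := by
      intro χ _
      obtain ⟨i, hi⟩ := hmem χ
      rw [Finset.mem_biUnion]
      exact ⟨i, Finset.mem_univ _, by simpa using hi⟩
    calc Nat.card (G →* ℂˣ) = (Finset.univ : Finset (G →* ℂˣ)).card := by
          rw [Nat.card_eq_fintype_card, Finset.card_univ]
      _ ≤ (Finset.univ.biUnion fun i => ((Kr i : Set (G →* ℂˣ)).toFinset)).card :=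
          Finset.card_le_card hsub
      _ ≤ ∑ i, ((Kr i : Set (G →* ℂˣ)).toFinset).card := Finset.card_biUnion_le
      _ = ∑ i, Nat.card (Kr i) := by
          refine Finset.sum_congr rfl fun i _ => ?_
          rw [Set.toFinset_card, ← Nat.card_eq_fintype_card]
          rfl
  rw [CommGroup.card_monoidHom_of_hasEnoughRootsOfUnity G ℂ] at hle
  have hlt : ∀ i, Fintype.card ι * Nat.card (Kr i) < Nat.card G := by
    intro i
    have hpos : 0 < Nat.card (Kr i) := Nat.card_pos
    calc Fintype.card ι * Nat.card (Kr i) < orderOf (b i) * Nat.card (Kr i) :=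
          Nat.mul_lt_mul_of_pos_right (hb i) hpos
      _ = Nat.card G := by rw [mul_comm, hcard]
  have h2 : Fintype.card ι * ∑ i, Nat.card (Kr i) < Fintype.card ι * Nat.card G := by
    rw [Finset.mul_sum]
    calc ∑ i, Fintype.card ι * Nat.card (Kr i) < ∑ _i : ι, Nat.card G :=
          Finset.sum_lt_sum_of_nonempty ⟨i₀, Finset.mem_univ _⟩ fun i _ => hlt i
      _ = Fintype.card ι * Nat.card G := by
          rw [Finset.sum_const, Finset.card_univ, smul_eq_mul]
  have h3 := Nat.mul_le_mul_left (Fintype.card ι) hle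
  omega

/-- in a finite commutative group, finitely many elements whose orders are divisible by a large
power of `p` are all sent to elements of order divisible by `p ^ (k + 1)` by one character of
`p`-power order. -/
theorem exists_monoidHom_prime_pow_dvd_orderOf {G : Type*} [CommGroup G] [Finite G] {p : ℕ}
    (hp : p.Prime) {ι : Type*} [Fintype ι] (a : ι → G) (k c : ℕ)
    (hc : Fintype.card ι < p ^ (c + 1)) (ha : ∀ i, p ^ (k + c + 1) ∣ orderOf (a i)) :
    ∃ χ : G →* ℂˣ, (∃ e : ℕ, ∀ g, χ g ^ p ^ e = 1) ∧ ∀ i, p ^ (k + 1) ∣ orderOf (χ (a i)) := by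
  have hN : Nat.card G ≠ 0 := Nat.card_pos.ne'
  obtain ⟨e, u, hu, hNe⟩ := Nat.exists_eq_pow_mul_and_not_dvd hN p hp.ne_one
  have hcop : Nat.Coprime p u := (Nat.Prime.coprime_iff_not_dvd hp).mpr hu
  set b : ι → G := fun i => a i ^ (p ^ k * u) with hb
  have hbpow : ∀ i, b i ^ p ^ e = 1 := by
    intro i
    rw [hb]
    simp only
    rw [← pow_mul, mul_assoc, mul_comm u, ← hNe, mul_comm, pow_mul, pow_card_eq_one', one_pow]
  have hbord : ∀ i, Fintype.card ι < orderOf (b i) := by
    intro i
    obtain ⟨j, -, hj⟩ := (Nat.dvd_prime_pow hp).mp (orderOf_dvd_of_pow_eq_one (hbpow i))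
    rw [hj]
    by_contra hle
    rw [not_lt] at hle
    have hjc : j ≤ c := by
      by_contra hjc
      rw [not_le] at hjc
      have : p ^ (c + 1) ≤ p ^ j := Nat.pow_le_pow_right hp.pos hjc
      omega
    have h1 : b i ^ p ^ c = 1 := by
      have : p ^ j ∣ p ^ c := pow_dvd_pow p hjc
      rw [← hj] at this
      exact orderOf_dvd_iff_pow_eq_one.mp this
    rw [hb] at h1
    simp only at h1
    rw [← pow_mul] at h1
    have h2 : orderOf (a i) ∣ p ^ k * u * p ^ c := orderOf_dvd_of_pow_eq_one h1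
    have h3 : p ^ (k + c + 1) ∣ p ^ (k + c) * u := by
      have := (ha i).trans h2
      rwa [show p ^ k * u * p ^ c = p ^ (k + c) * u by rw [pow_add]; ring] at this
    rw [pow_succ] at h3
    have h4 : p ∣ u := (Nat.mul_dvd_mul_iff_left (pow_pos hp.pos _)).mp h3
    exact hu h4
  obtain ⟨χ, hχ⟩ := exists_monoidHom_forall_apply_ne_one b hbord
  refine ⟨χ ^ u, ⟨e, fun g => ?_⟩, fun i => ?_⟩
  · rw [MonoidHom.pow_apply, ← pow_mul, mul_comm, ← hNe, ← map_pow, pow_card_eq_one', map_one]
  · have hpe : (χ ^ u) (a i) ^ p ^ e = 1 := by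
      rw [MonoidHom.pow_apply, ← pow_mul, mul_comm, ← hNe, ← map_pow, pow_card_eq_one', map_one]
    obtain ⟨j, -, hj⟩ := (Nat.dvd_prime_pow hp).mp (orderOf_dvd_of_pow_eq_one hpe)
    rw [hj]
    apply pow_dvd_pow
    by_contra hjk
    have hjk' : j ≤ k := by omega
    have h1 : (χ ^ u) (a i) ^ p ^ k = 1 := by
      have : p ^ j ∣ p ^ k := pow_dvd_pow p hjk'
      rw [← hj] at this
      exact orderOf_dvd_iff_pow_eq_one.mp this
    apply hχ i
    rw [hb]
    simp only
    rw [map_pow, mul_comm, pow_mul]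
    rwa [MonoidHom.pow_apply] at h1

end Fermat.Agent.CFT
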