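import Mathlib
import Fermat.Agent.CFT.Idele.CharCount
import Fermat.Agent.CFT.Global.PrimePowerOrder
import Fermat.Agent.CFT.Global.ArtinFunctorial
import Fermat.Agent.CFT.Global.CycloFrob
import Fermat.Agent.CFT.Global.CycloRecip

set_option autoImplicit false
set_option linter.unusedSectionVars false

/-!
# CFT, S55 global-idelic stream, chunk (GL13a): cyclic cyclotomic extensions with large local
degrees at finitely many prescribed primes
-/

open NumberField IsDedekindDomain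
open scoped Pointwise IsMulCommutative

namespace Fermat.Agent.CFT

section Modulus

open Finset

/-- for finitely many integers `a i > 1`, an odd prime `p` and `N`, there is a modulus `m`, a
product of primes outside a given finite set and different from `p`, prime to all `a i`, such that
the order of every `a i` modulo `m` is divisible by `p ^ N`. -/
theorem exists_modulus_prime_pow_dvd_orderOf {p : ℕ} (hp : p.Prime) (hp2 : p ≠ 2)
    {ι : Type*} [Fintype ι] (a : ι → ℕ) (ha : ∀ i, 1 < a i) (B : Finset ℕ) (N : ℕ) :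
    ∃ m : ℕ, 0 < m ∧ (∀ q : ℕ, q.Prime → q ∣ m → q ∉ B ∧ q ≠ p) ∧
      ∀ i, ∃ h : (a i).Coprime m, p ^ N ∣ orderOf (ZMod.unitOfCoprime (a i) h) := by
  classical
  set B' : Finset ℕ := B ∪ Finset.univ.biUnion fun j => (a j).primeFactors with hB'
  choose ℓ s hℓ hℓp hℓB hs hord using fun i =>
    exists_prime_orderOf_eq_prime_pow_not_mem hp hp2 (ha i) B' N
  refine ⟨∏ i, ℓ i, Finset.prod_pos fun i _ => (hℓ i).pos, ?_, ?_⟩
  · intro q hq hqm
    obtain ⟨i, -, hi⟩ := (Prime.dvd_finsetProd_iff (Nat.prime_iff.mp hq) _).mp hqm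
    have hqi : q = ℓ i := (Nat.prime_dvd_prime_iff_eq hq (hℓ i)).mp hi
    subst hqi
    refine ⟨fun h => hℓB i ?_, hℓp i⟩
    rw [hB']
    exact Finset.mem_union_left _ h
  · intro i
    have hcop : ∀ j, (a i).Coprime (ℓ j) := by
      intro j
      rw [Nat.coprime_comm, Nat.Prime.coprime_iff_not_dvd (hℓ j)]
      intro hdvd
      apply hℓB j
      rw [hB']
      apply Finset.mem_union_right
      rw [Finset.mem_biUnion]
      refine ⟨i, Finset.mem_univ _, ?_⟩
      rw [Nat.mem_primeFactors]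
      exact ⟨hℓ j, hdvd, by have := ha i; omega⟩
    have hcopm : (a i).Coprime (∏ j, ℓ j) := Nat.Coprime.prod_right fun j _ => hcop j
    refine ⟨hcopm, ?_⟩
    have hdvd : ℓ i ∣ ∏ j, ℓ j := Finset.dvd_prod_of_mem ℓ (Finset.mem_univ i)
    have h1 : ZMod.unitsMap hdvd (ZMod.unitOfCoprime (a i) hcopm) =
        ZMod.unitOfCoprime (a i) (hcop i) := by
      apply Units.ext
      simp [ZMod.unitsMap]
    have h2 : orderOf (ZMod.unitOfCoprime (a i) (hcop i)) = p ^ (s i + 1) := by
      rw [← orderOf_units, ZMod.coe_unitOfCoprime]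
      exact hord i
    have h3 := orderOf_map_dvd (ZMod.unitsMap hdvd) (ZMod.unitOfCoprime (a i) hcopm)
    rw [h1, h2] at h3
    exact (pow_dvd_pow p (by have := hs i; omega)).trans h3

end Modulus

section TowerUnram

variable (K L M : Type*) [Field K] [NumberField K] [Field L] [NumberField L] [Field M]
  [NumberField M] [Algebra K L] [Algebra L M] [Algebra K M] [IsScalarTower K L M] [IsGalois K L]
  [IsGalois K M]

/-- a subextension of an extension unramified at `𝔮` is unramified at `𝔮`. -/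
theorem isUnramifiedAtPrime_of_tower (𝔮 : Ideal (𝓞 K)) [h𝔮 : 𝔮.IsMaximal]
    (h : IsUnramifiedAtPrime K M 𝔮) : IsUnramifiedAtPrime K L 𝔮 := by
  intro Q' hQ' hQ'𝔮
  obtain ⟨⟨Q, hQp, hQo⟩⟩ := (inferInstance : Nonempty (Q'.primesOver (𝓞 M)))
  have hQ𝔮 : Q.LiesOver 𝔮 := Ideal.LiesOver.trans Q Q' 𝔮
  have h1 := Ideal.card_inertia_eq_ramificationIdxIn (G := Gal(M/K)) 𝔮 Q
  rw [h Q hQp hQ𝔮, Ideal.ramificationIdxIn_eq_ramificationIdx 𝔮 Q Gal(M/K)] at h1
  have h2 : Q'.ramificationIdx (𝓞 K) ∣ Q.ramificationIdx (𝓞 K) :=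
    Ideal.ramificationIdx_below_dvd Q' Q
  have h3 := Ideal.card_inertia_eq_ramificationIdxIn (G := Gal(L/K)) 𝔮 Q'
  rw [Ideal.ramificationIdxIn_eq_ramificationIdx 𝔮 Q' Gal(L/K)] at h3
  have h4 : Q'.ramificationIdx (𝓞 K) = 1 := by
    rw [← h1] at h2
    simpa using h2
  rw [h4] at h3
  exact Subgroup.eq_bot_of_card_eq _ h3

end TowerUnram

section CharField

variable {K E : Type*} [Field K] [Field E] [Algebra K E] [FiniteDimensional K E] [IsGalois K E]

/-- the fixed field of the kernel of a character. -/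
noncomputable abbrev charField (φ : Gal(E/K) →* ℂˣ) : IntermediateField K E :=
  IntermediateField.fixedField φ.ker

theorem restrictNormalHom_charField_eq_one_iff (φ : Gal(E/K) →* ℂˣ) (σ : Gal(E/K)) :
    AlgEquiv.restrictNormalHom (charField φ) σ = 1 ↔ φ σ = 1 := by
  rw [← MonoidHom.mem_ker, IntermediateField.restrictNormalHom_ker,
    IntermediateField.fixingSubgroup_fixedField, MonoidHom.mem_ker]

theorem orderOf_restrictNormalHom_charField (φ : Gal(E/K) →* ℂˣ) (σ : Gal(E/K)) :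
    orderOf (AlgEquiv.restrictNormalHom (charField φ) σ) = orderOf (φ σ) := by
  rw [orderOf_eq_orderOf_iff]
  intro n
  rw [← map_pow, ← map_pow, restrictNormalHom_charField_eq_one_iff]

theorem isCyclic_gal_charField (φ : Gal(E/K) →* ℂˣ) : IsCyclic Gal(charField φ/K) := by
  set ψ : Gal(charField φ/K) →* ℂ :=
    ((Units.coeHom ℂ).comp (QuotientGroup.kerLift φ)).comp
      (IsGalois.normalAutEquivQuotient φ.ker).symm.toMonoidHom with hψ
  refine isCyclic_of_injective_ringHom ψ ?_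
  rw [hψ]
  exact (Units.coeHom_injective.comp (QuotientGroup.kerLift_injective φ)).comp
    (IsGalois.normalAutEquivQuotient φ.ker).symm.injective

theorem card_gal_charField_eq_prime_pow {p : ℕ} [Fact p.Prime] (φ : Gal(E/K) →* ℂˣ)
    {e : ℕ} (he : ∀ g, φ g ^ p ^ e = 1) : ∃ j, Nat.card Gal(charField φ/K) = p ^ j := by
  rw [← IsPGroup.iff_card]
  intro g'
  obtain ⟨σ, rfl⟩ := AlgEquiv.restrictNormalHom_surjective (F := K) (K₁ := charField φ) E g'
  refine ⟨e, ?_⟩
  rw [← map_pow, restrictNormalHom_charField_eq_one_iff, map_pow]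
  exact he σ

end CharField

section Cyclo

variable (K E : Type*) [Field K] [NumberField K] [Field E] [NumberField E] [Algebra K E]
  [IsGalois K E]

/-- `K(ζ_m)/K` is unramified at the primes not containing `m`. -/
theorem isUnramifiedAtPrime_of_natCast_not_mem {m : ℕ} [NeZero m] [IsCyclotomicExtension {m} K E]
    (𝔮 : Ideal (𝓞 K)) (hm : (m : 𝓞 K) ∉ 𝔮) : IsUnramifiedAtPrime K E 𝔮 := by
  intro Q hQ hQ𝔮
  refine inertia_eq_bot_of_natCast_not_mem K E (n := m) Q fun hmem => hm ?_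
  rw [hQ𝔮.over, Ideal.under_def, Ideal.mem_comap, map_natCast]
  exact hmem

/-- the cyclotomic character of the Frobenius at `𝔮` is `N𝔮`. -/
theorem autToPow_frobOf {m : ℕ} [NeZero m] {ζ : E} (hζ : IsPrimitiveRoot ζ m)
    (𝔮 : Ideal (𝓞 K)) [𝔮.IsMaximal] (hm : (m : 𝓞 K) ∉ 𝔮) :
    ((hζ.autToPow K (frobOf K E 𝔮) : (ZMod m)ˣ) : ZMod m) = (Ideal.absNorm 𝔮 : ZMod m) := by
  have h1 := frobOf_smul_of_pow_eq_one K E 𝔮 hm (ζ := hζ.toInteger)
    (hζ.toInteger_isPrimitiveRoot.pow_eq_one)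
  have h2 : (frobOf K E 𝔮) ζ = ζ ^ Ideal.absNorm 𝔮 := by
    have := congrArg (fun x : 𝓞 E => (x : E)) h1
    simp only [map_pow] at this
    exact this
  have h3 := hζ.autToPow_spec K (frobOf K E 𝔮)
  rw [h2] at h3
  have hu := hζ.isUnit (NeZero.ne m)
  have h5 : hu.unit ^ ((hζ.autToPow K (frobOf K E 𝔮) : (ZMod m)ˣ) : ZMod m).val =
      hu.unit ^ Ideal.absNorm 𝔮 := Units.ext (by simpa using h3)
  have h6 : orderOf hu.unit = m := by
    rw [← orderOf_units, IsUnit.unit_spec, ← hζ.eq_orderOf]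
  rw [pow_eq_pow_iff_modEq, h6] at h5
  have h4 := (ZMod.natCast_eq_natCast_iff _ _ _).mpr h5
  rwa [ZMod.natCast_zmod_val] at h4

end Cyclo

section Main

variable (K : Type*) [Field K] [NumberField K]

instance isGalois_cyclotomicField (m : ℕ) [NeZero m] : IsGalois K (CyclotomicField m K) :=
  IsCyclotomicExtension.isGalois {m} K (CyclotomicField m K)

instance isMulCommutative_gal_cyclotomicField (m : ℕ) [NeZero m] :
    IsMulCommutative Gal(CyclotomicField m K/K) :=
  IsCyclotomicExtension.isMulCommutative {m} K (CyclotomicField m K)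

/-- **character form**: for finitely many primes `v ∈ T` of `K`, an odd prime `p` and `k`, there
are a modulus `m` prime to `T` (a product of primes outside any given finite set `B`) and a
character `φ` of `Gal(K(ζ_m)/K)` of `p`-power order such that the order of `φ(Frob_v)` is
divisible by `p ^ (k + 1)` for all `v ∈ T`. -/
theorem exists_cyclotomic_character_frobOf {p : ℕ} [hp : Fact p.Prime] (hp2 : p ≠ 2)
    (T : Finset (HeightOneSpectrum (𝓞 K))) (k : ℕ) (B : Finset ℕ) :
    ∃ (m : ℕ) (_ : NeZero m), (∀ q : ℕ, q.Prime → q ∣ m → q ∉ B ∧ q ≠ p) ∧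
      (∀ v ∈ T, (m : 𝓞 K) ∉ v.asIdeal) ∧
      ∃ φ : Gal(CyclotomicField m K/K) →* ℂˣ, (∃ e : ℕ, ∀ g, φ g ^ p ^ e = 1) ∧
        ∀ v ∈ T, p ^ (k + 1) ∣ orderOf (φ (frobOf K (CyclotomicField m K) v.asIdeal)) := by
  classical
  set a : T → ℕ := fun v => Ideal.absNorm v.1.asIdeal with ha
  have ha1 : ∀ v, 1 < a v := by
    intro v
    have h0 : Ideal.absNorm v.1.asIdeal ≠ 0 := by
      rw [Ne, Ideal.absNorm_eq_zero_iff]
      exact v.1.ne_bot
    have h1 : Ideal.absNorm v.1.asIdeal ≠ 1 := by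
      rw [Ne, Ideal.absNorm_eq_one_iff]
      exact v.1.isPrime.ne_top
    rw [ha]
    simp only
    omega
  set c : ℕ := Fintype.card T with hc
  obtain ⟨m, hm0, hmB, hm⟩ :=
    exists_modulus_prime_pow_dvd_orderOf hp.out hp2 a ha1 B (k + c + 1)
  have : NeZero m := ⟨hm0.ne'⟩
  choose hcop hord using hm
  have hclt : Fintype.card T < p ^ (c + 1) := by
    rw [← hc]
    calc c < 2 ^ c := Nat.lt_two_pow_self
      _ ≤ p ^ c := Nat.pow_le_pow_left hp.out.two_le c
      _ ≤ p ^ (c + 1) := Nat.pow_le_pow_right hp.out.pos (Nat.le_succ c)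
  obtain ⟨χ, ⟨e, hχe⟩, hχ⟩ := exists_monoidHom_prime_pow_dvd_orderOf hp.out
    (fun v : T => ZMod.unitOfCoprime (a v) (hcop v)) k c hclt hord
  have hmT : ∀ v ∈ T, (m : 𝓞 K) ∉ v.asIdeal := by
    intro v hv
    exact natCast_not_mem_of_coprime_absNorm (hcop ⟨v, hv⟩) v.asIdeal v.isMaximal le_rfl
  refine ⟨m, inferInstance, hmB, hmT, ?_⟩
  have hζ := IsCyclotomicExtension.zeta_spec m K (CyclotomicField m K)
  refine ⟨χ.comp (hζ.autToPow K), ⟨e, fun g => hχe _⟩, fun v hv => ?_⟩
  have h1 : hζ.autToPow K (frobOf K (CyclotomicField m K) v.asIdeal) =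
      ZMod.unitOfCoprime (a ⟨v, hv⟩) (hcop ⟨v, hv⟩) := by
    apply Units.ext
    rw [autToPow_frobOf K (CyclotomicField m K) hζ v.asIdeal (hmT v hv), ZMod.coe_unitOfCoprime]
  rw [MonoidHom.comp_apply, h1]
  exact hχ ⟨v, hv⟩

/-- **(GL13a) existence of cyclic cyclotomic extensions with large local degrees**: for finitely
many primes `v ∈ T` of `K`, an odd prime `p` and `k`, there are `m` prime to `T` and a subfield
`L'` of `K(ζ_m)`, cyclic of `p`-power degree over `K`, unramified at all `v ∈ T`, in which the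
Frobenius of every `v ∈ T` has order divisible by `p ^ (k + 1)`. -/
theorem exists_cyclic_cyclotomic_subfield {p : ℕ} [hp : Fact p.Prime] (hp2 : p ≠ 2)
    (T : Finset (HeightOneSpectrum (𝓞 K))) (k : ℕ) (B : Finset ℕ) :
    ∃ (m : ℕ) (_ : NeZero m) (L' : IntermediateField K (CyclotomicField m K))
      (_ : IsGalois K L'),
      (∀ q : ℕ, q.Prime → q ∣ m → q ∉ B ∧ q ≠ p) ∧ IsCyclic Gal(L'/K) ∧
      (∃ j : ℕ, Nat.card Gal(L'/K) = p ^ j) ∧
      ∀ v ∈ T, (m : 𝓞 K) ∉ v.asIdeal ∧ IsUnramifiedAtPrime K L' v.asIdeal ∧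
        p ^ (k + 1) ∣ orderOf (frobIdeal K L' v.asIdeal) := by
  obtain ⟨m, hm, hmB, hmT, φ, ⟨e, he⟩, hφ⟩ := exists_cyclotomic_character_frobOf K hp2 T k B
  have hcyc : IsCyclic Gal(charField φ/K) := isCyclic_gal_charField φ
  refine ⟨m, hm, charField φ, inferInstance, hmB, hcyc,
    card_gal_charField_eq_prime_pow φ he, fun v hv => ?_⟩
  have hurE : IsUnramifiedAtPrime K (CyclotomicField m K) v.asIdeal :=
    isUnramifiedAtPrime_of_natCast_not_mem K _ v.asIdeal (hmT v hv)
  have hur : IsUnramifiedAtPrime K (charField φ) v.asIdeal :=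
    isUnramifiedAtPrime_of_tower K (charField φ) (CyclotomicField m K) v.asIdeal hurE
  refine ⟨hmT v hv, hur, ?_⟩
  have : IsMulCommutative Gal(charField φ/K) :=
    ⟨⟨fun a b => (IsCyclic.commGroup (α := Gal(charField φ/K))).mul_comm a b⟩⟩
  rw [frobIdeal_of_isMaximal,
    ← restrictNormalHom_frobOf K (charField φ) (CyclotomicField m K) v.asIdeal hur,
    orderOf_restrictNormalHom_charField]
  exact hφ v hv

end Main

end Fermat.Agent.CFT
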