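import Fermat.Agent.CFT.Global.AnalyticPrimes
import Fermat.Agent.CFT.Global.DegreeOne
import Fermat.Agent.CFT.Idele.CycloExist

set_option autoImplicit false
set_option linter.unusedSectionVars false
set_option linter.style.haveILetI false

/-!
# CFT, S55 global-idelic stream, chunk (NS) of (GL14): a prime whose Frobenius generates a cyclic
`p`-power layer, and its cyclotomic form

* `pcycNS_exists_not_mem_of_thin`: a thin set of primes is not everything.
* `pcycNS_exists_orderOf_frobOf_eq`: `N/L` abelian, cyclic of `p`-power degree, unramified outside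
  the thin set `T`: there is a prime `v ∉ T` whose Frobenius element generates `Gal(N/L)`.
* `pcycNS_isPGroup_gal`: if `ζ_p ∈ L` then `Gal(L(ζ_{p^r})/L)` is a `p`-group.
* `pcycNS_exists_orderOf_absNorm_eq`: `p` odd, `ζ_p ∈ L`, `N = L(ζ_{p^r})`: outside any thin set
  there is a prime `w ∤ p` of `L` of absolute degree one such that the order of `N(w)` modulo
  `p ^ r` is `[N : L]`.
-/

open NumberField IsDedekindDomain
open scoped Pointwise IsMulCommutative

namespace Fermat.Agent.CFT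

section Thin

variable (K : Type*) [Field K] [NumberField K]

/-- a thin set of primes is not the set of all primes. -/
theorem pcycNS_exists_not_mem_of_thin (T : Set (HeightOneSpectrum (𝓞 K))) (hT : IsThinSet K T) :
    ∃ v : HeightOneSpectrum (𝓞 K), v ∉ T := by
  by_contra hcon
  push Not at hcon
  refine false_of_primes_above_of_thin K K 2 le_rfl T hT (fun x => absurd (hcon x.1.1) x.1.2)
    (fun x => absurd (hcon x.1.1) x.1.2) (fun x => absurd (hcon x.1.1) x.1.2)

end Thin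

section Group

/-- in a commutative group of order `p ^ (k + 1)`, an element whose `p ^ k`-th power is not `1`
has order `p ^ (k + 1)`. -/
theorem pcycNS_orderOf_eq_of_pow_ne_one {G : Type*} [Group G] {p k : ℕ} (hp : p.Prime)
    (hcard : Nat.card G = p ^ (k + 1)) (g : G) (hg : g ^ p ^ k ≠ 1) :
    orderOf g = p ^ (k + 1) := by
  have hdvd : orderOf g ∣ p ^ (k + 1) := by
    rw [← hcard]
    exact orderOf_dvd_natCard g
  obtain ⟨j, hj, hjeq⟩ := (Nat.dvd_prime_pow hp).mp hdvd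
  rcases Nat.lt_or_ge j (k + 1) with hlt | hge
  · exfalso
    apply hg
    rw [← orderOf_dvd_iff_pow_eq_one, hjeq]
    exact pow_dvd_pow p (by omega)
  · rw [hjeq]
    congr 1
    omega

end Group

section Frob

variable (L N : Type*) [Field L] [NumberField L] [Field N] [NumberField N] [Algebra L N]
  [IsGalois L N] [IsMulCommutative Gal(N/L)]

/-- **a prime whose Frobenius generates**: `N/L` abelian, cyclic of `p`-power degree, unramified
outside the thin set `T`: there is a prime `v ∉ T` whose Frobenius element has order `[N : L]`. -/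
theorem pcycNS_exists_orderOf_frobOf_eq {p : ℕ} (hp : p.Prime) (hcyc : IsCyclic Gal(N/L))
    (hpg : IsPGroup p Gal(N/L)) (T : Set (HeightOneSpectrum (𝓞 L))) (hT : IsThinSet L T)
    (hur : ∀ v : HeightOneSpectrum (𝓞 L), v ∉ T → IsUnramifiedAtPrime L N v.asIdeal) :
    ∃ v : HeightOneSpectrum (𝓞 L), v ∉ T ∧
      orderOf (frobOf L N v.asIdeal) = Module.finrank L N := by
  haveI : Fact p.Prime := ⟨hp⟩
  obtain ⟨k, hk⟩ := (IsPGroup.iff_card.mp hpg)
  rw [← IsGalois.card_aut_eq_finrank]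
  rcases k with _ | k
  · obtain ⟨v, hv⟩ := pcycNS_exists_not_mem_of_thin L T hT
    refine ⟨v, hv, ?_⟩
    rw [pow_zero] at hk
    rw [hk, orderOf_eq_one_iff]
    haveI : Subsingleton Gal(N/L) := (Nat.card_eq_one_iff_unique.mp hk).1
    exact Subsingleton.elim _ _
  · set Φ : Subgroup Gal(N/L) := (powMonoidHom (p ^ k) : Gal(N/L) →* Gal(N/L)).ker with hΦ
    set L₁ : IntermediateField L N := IntermediateField.fixedField Φ with hL₁
    haveI : IsAbelianGalois L N := { }
    have hfix : L₁.fixingSubgroup = Φ := IntermediateField.fixingSubgroup_fixedField Φ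
    -- `Φ ≠ ⊤`
    obtain ⟨g, hg⟩ := hcyc.exists_generator
    have hgord : orderOf g = p ^ (k + 1) := by
      rw [← hk, orderOf_eq_card_of_forall_mem_zpowers hg]
    have hgΦ : g ∉ Φ := by
      rw [hΦ, MonoidHom.mem_ker, powMonoidHom_apply, ← orderOf_dvd_iff_pow_eq_one, hgord,
        Nat.pow_dvd_pow_iff_le_right hp.one_lt]
      omega
    have h2 : 2 ≤ Module.finrank L L₁ := by
      by_contra hlt
      have h1 : Module.finrank L L₁ = 1 := by
        have : 0 < Module.finrank L L₁ := Module.finrank_pos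
        omega
      have hbot : L₁ = ⊥ := IntermediateField.finrank_eq_one_iff.mp h1
      apply hgΦ
      rw [← hfix, hbot, IntermediateField.fixingSubgroup_bot]
      exact Subgroup.mem_top g
    have hur₁ : ∀ v : HeightOneSpectrum (𝓞 L), v ∉ T → IsUnramifiedAtPrime L L₁ v.asIdeal :=
      fun v hv => isUnramifiedAtPrime_of_tower L L₁ N v.asIdeal (hur v hv)
    obtain ⟨v, hvT, hv⟩ := exists_frobOf_ne_one_of_thin L L₁ h2 T hT hur₁
    refine ⟨v, hvT, ?_⟩
    rw [hk]
    refine pcycNS_orderOf_eq_of_pow_ne_one hp hk _ fun h1 => hv ?_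
    rw [← restrictNormalHom_frobOf L L₁ N v.asIdeal (hur₁ v hvT), ← MonoidHom.mem_ker,
      IntermediateField.restrictNormalHom_ker, hfix, hΦ, MonoidHom.mem_ker, powMonoidHom_apply]
    exact h1

end Frob

section PGroup

variable {p : ℕ} (r : ℕ) (L N : Type*) [Field L] [Field N] [Algebra L N]
  [hcycl : IsCyclotomicExtension {p ^ r} L N]

include hcycl

/-- the cyclotomic character of `Gal(L(ζ_{p^r})/L)` is `≡ 1 mod p` when `ζ_p ∈ L`. -/
theorem pcycNS_dvd_autToPow_sub_one (hp : p.Prime) {ζp : L} (hζp : IsPrimitiveRoot ζp p)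
    [NeZero (p ^ r)] {ζ : N} (hζ : IsPrimitiveRoot ζ (p ^ r)) (σ : Gal(N/L)) :
    (p : ZMod (p ^ r)) ∣ ((hζ.autToPow L σ : (ZMod (p ^ r))ˣ) : ZMod (p ^ r)) - 1 := by
  rcases r with _ | k
  · have : Subsingleton (ZMod (p ^ 0)) := by
      rw [pow_zero]
      infer_instance
    exact ⟨0, Subsingleton.elim _ _⟩
  · set a : ZMod (p ^ (k + 1)) := ((hζ.autToPow L σ : (ZMod (p ^ (k + 1)))ˣ) :
      ZMod (p ^ (k + 1))) with ha
    have hη : IsPrimitiveRoot (ζ ^ p ^ k) p :=
      hζ.pow (pow_pos hp.pos _) (pow_succ p k)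
    have hζp' : IsPrimitiveRoot (algebraMap L N ζp) p :=
      hζp.map_of_injective (algebraMap L N).injective
    haveI : NeZero p := ⟨hp.ne_zero⟩
    obtain ⟨j, -, hj⟩ := hζp'.eq_pow_of_pow_eq_one hη.pow_eq_one
    have hση : σ (ζ ^ p ^ k) = ζ ^ p ^ k := by
      rw [← hj, map_pow, σ.commutes]
    have hspec : ζ ^ a.val = σ ζ := hζ.autToPow_spec L σ
    have h1 : (ζ ^ p ^ k) ^ a.val = (ζ ^ p ^ k) ^ 1 := by
      rw [pow_one, ← pow_mul, mul_comm, pow_mul, hspec, ← map_pow, hση]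
    have hu := hη.isUnit hp.ne_zero
    have h2 : hu.unit ^ a.val = hu.unit ^ 1 := Units.ext (by simpa using h1)
    have h3 : orderOf hu.unit = p := by
      rw [← orderOf_units, IsUnit.unit_spec, ← hη.eq_orderOf]
    rw [pow_eq_pow_iff_modEq, h3] at h2
    obtain ⟨c, hc⟩ := (Nat.modEq_iff_dvd.mp h2)
    refine ⟨-c, ?_⟩
    have h4 := congrArg (fun z : ℤ => (z : ZMod (p ^ (k + 1)))) hc
    simp only [Int.cast_sub, Int.cast_natCast, Int.cast_mul, Nat.cast_one, Int.cast_one,
      ZMod.natCast_zmod_val] at h4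
    rw [mul_neg, ← h4]
    ring

/-- **`Gal(L(ζ_{p^r})/L)` is a `p`-group when `ζ_p ∈ L`.** -/
theorem pcycNS_isPGroup_gal (hp : p.Prime) {ζp : L} (hζp : IsPrimitiveRoot ζp p) :
    IsPGroup p Gal(N/L) := by
  haveI : NeZero (p ^ r) := ⟨pow_ne_zero r hp.ne_zero⟩
  have hζ := IsCyclotomicExtension.zeta_spec (p ^ r) L N
  intro σ
  refine ⟨r, ?_⟩
  apply hζ.autToPow_injective L
  rw [map_pow, map_one]
  apply Units.ext
  rw [Units.val_pow_eq_pow_val, Units.val_one]
  have h := dvd_sub_pow_of_dvd_sub (pcycNS_dvd_autToPow_sub_one r L N hp hζp hζ σ) r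
  have h0 : ((p : ZMod (p ^ r)) ^ (r + 1)) = 0 := by
    rw [pow_succ, ← Nat.cast_pow, ZMod.natCast_self, zero_mul]
  rw [h0, zero_dvd_iff, one_pow, sub_eq_zero] at h
  exact h

end PGroup

section Main

variable {p : ℕ} (r : ℕ) (L N : Type*) [Field L] [NumberField L] [Field N] [NumberField N]
  [Algebra L N] [hcycl : IsCyclotomicExtension {p ^ r} L N]

include hcycl

/-- **(NS), thin form**: `p` odd, `ζ_p ∈ L`, `N = L(ζ_{p^r})`.  Outside any thin set `T` of primes
of `L` there is a prime `w ∤ p` of absolute degree one such that the order of `N(w)` in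
`(ℤ/p^r)ˣ` is `[N : L]` (i.e. the Frobenius of `w` generates `Gal(N/L)`). -/
theorem pcycNS_exists_orderOf_absNorm_eq (hp : p.Prime) (hp2 : p ≠ 2) {ζp : L}
    (hζp : IsPrimitiveRoot ζp p) (T : Set (HeightOneSpectrum (𝓞 L))) (hT : IsThinSet L T) :
    ∃ w : HeightOneSpectrum (𝓞 L), w ∉ T ∧ (p : 𝓞 L) ∉ w.asIdeal ∧
      (Ideal.absNorm w.asIdeal).Prime ∧
      orderOf ((Ideal.absNorm w.asIdeal : ℕ) : ZMod (p ^ r)) = Module.finrank L N := by
  haveI : NeZero (p ^ r) := ⟨pow_ne_zero r hp.ne_zero⟩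
  haveI : IsGalois L N := IsCyclotomicExtension.isGalois {p ^ r} L N
  haveI : IsMulCommutative Gal(N/L) := IsCyclotomicExtension.isMulCommutative {p ^ r} L N
  have hζ := IsCyclotomicExtension.zeta_spec (p ^ r) L N
  haveI : IsCyclic (ZMod (p ^ r))ˣ := ZMod.isCyclic_units_of_prime_pow p hp hp2 r
  have hcyc : IsCyclic Gal(N/L) := isCyclic_of_injective (hζ.autToPow L) (hζ.autToPow_injective L)
  have hpg : IsPGroup p Gal(N/L) := pcycNS_isPGroup_gal r L N hp hζp
  have hp0 : (p : 𝓞 L) ≠ 0 := Nat.cast_ne_zero.mpr hp.ne_zero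
  set T' : Set (HeightOneSpectrum (𝓞 L)) :=
    (T ∪ {v | (p : 𝓞 L) ∈ v.asIdeal}) ∪ {v | ¬ (Ideal.absNorm v.asIdeal).Prime} with hT'
  have hT'thin : IsThinSet L T' :=
    (hT.union (isThinSet_of_finite (finite_setOf_mem_asIdeal _ hp0))).union
      (isThinSet_not_prime_absNorm L)
  have hmem : ∀ v : HeightOneSpectrum (𝓞 L), v ∉ T' → ((p ^ r : ℕ) : 𝓞 L) ∉ v.asIdeal := by
    intro v hv hmem
    apply hv
    refine Or.inl (Or.inr ?_)
    rw [Nat.cast_pow] at hmem
    exact v.isPrime.mem_of_pow_mem r hmem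
  have hur : ∀ v : HeightOneSpectrum (𝓞 L), v ∉ T' → IsUnramifiedAtPrime L N v.asIdeal :=
    fun v hv => isUnramifiedAtPrime_of_natCast_not_mem L N v.asIdeal (hmem v hv)
  obtain ⟨w, hwT', hord⟩ := pcycNS_exists_orderOf_frobOf_eq L N hp hcyc hpg T' hT'thin hur
  refine ⟨w, fun h => hwT' (Or.inl (Or.inl h)), fun h => hwT' (Or.inl (Or.inr h)), ?_, ?_⟩
  · by_contra hcon
    exact hwT' (Or.inr hcon)
  · rw [← hord, ← orderOf_injective (hζ.autToPow L) (hζ.autToPow_injective L), ← orderOf_units,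
      autToPow_frobOf L N hζ w.asIdeal (hmem w hwT')]

/-- **(NS), finite form**: `p` odd, `ζ_p ∈ L`, `N = L(ζ_{p^r})`, `B` a finite set of rational
primes, `B'` a finite set of primes of `L`.  There is a prime `w ∉ B'` of `L` of absolute degree
one, of residue characteristic `ℓ = N(w) ∉ B ∪ {p}`, such that the order of `ℓ` in `(ℤ/p^r)ˣ` is
`[N : L]`. -/
theorem pcycNS_exists_prime (hp : p.Prime) (hp2 : p ≠ 2) {ζp : L}
    (hζp : IsPrimitiveRoot ζp p) (B : Finset ℕ) (B' : Finset (HeightOneSpectrum (𝓞 L))) :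
    ∃ w : HeightOneSpectrum (𝓞 L), w ∉ B' ∧ (∀ q ∈ B, q ≠ 0 → (q : 𝓞 L) ∉ w.asIdeal) ∧
      (p : 𝓞 L) ∉ w.asIdeal ∧ (Ideal.absNorm w.asIdeal).Prime ∧ Ideal.absNorm w.asIdeal ∉ B ∧
      Ideal.absNorm w.asIdeal ≠ p ∧
      ∃ h : (Ideal.absNorm w.asIdeal).Coprime (p ^ r),
        orderOf (ZMod.unitOfCoprime (Ideal.absNorm w.asIdeal) h) = Module.finrank L N := by
  classical
  set T : Set (HeightOneSpectrum (𝓞 L)) :=
    (B' : Set (HeightOneSpectrum (𝓞 L))) ∪
      ⋃ q ∈ B.filter (· ≠ 0), {v | (q : 𝓞 L) ∈ v.asIdeal} with hT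
  have hTfin : T.Finite := by
    refine B'.finite_toSet.union ?_
    refine Set.Finite.biUnion (Finset.finite_toSet _) fun q hq => ?_
    refine finite_setOf_mem_asIdeal _ (Nat.cast_ne_zero.mpr ?_)
    exact (Finset.mem_filter.mp hq).2
  obtain ⟨w, hwT, hwp, hprime, hord⟩ :=
    pcycNS_exists_orderOf_absNorm_eq r L N hp hp2 hζp T (isThinSet_of_finite hTfin)
  have hB : ∀ q ∈ B, q ≠ 0 → (q : 𝓞 L) ∉ w.asIdeal := by
    intro q hq hq0 hmem
    apply hwT
    refine Or.inr ?_
    simp only [Set.mem_iUnion, Set.mem_ofPred_eq]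
    exact ⟨q, Finset.mem_coe.mpr (Finset.mem_filter.mpr ⟨hq, hq0⟩), hmem⟩
  have hmemN : (Ideal.absNorm w.asIdeal : 𝓞 L) ∈ w.asIdeal := Ideal.absNorm_mem w.asIdeal
  have hne : Ideal.absNorm w.asIdeal ≠ p := by
    intro h
    rw [h] at hmemN
    exact hwp hmemN
  have hcop : (Ideal.absNorm w.asIdeal).Coprime (p ^ r) :=
    Nat.Coprime.pow_right r ((Nat.coprime_primes hprime hp).mpr hne)
  refine ⟨w, fun h => hwT (Or.inl (Finset.mem_coe.mpr h)), hB, hwp, hprime, ?_, hne, hcop, ?_⟩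
  · intro h
    exact hB _ h hprime.ne_zero hmemN
  · rw [← orderOf_units, ZMod.coe_unitOfCoprime]
    exact hord

end Main

end Fermat.Agent.CFT
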