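import Mathlib
import Fermat.Agent.CFT.Idele.PCycloFrob
import Fermat.Agent.CFT.Idele.PCycloNormKill
import Fermat.Agent.CFT.Idele.PCycloNonSplit
import Fermat.Agent.CFT.Idele.DevissageSyl
import Fermat.Agent.CFT.Coh.FundClassAbs2
import Fermat.Agent.CFT.Global.CrossFieldsCyclo

set_option autoImplicit false
set_option linter.unusedSectionVars false
set_option linter.style.haveILetI false

/-!
# (GL14)(c): the global fundamental class, `p`-primary part

`ℚ ≤ M ≤ L`, all Galois over `ℚ`, `μ_P ⊆ M` (`P = natGenerator v₀` odd), `L' = M(ζ_{P^r})`,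
`N = L(ζ_{P^r}) = L·L'`.  If `[L' : M] = |Gal(L/M)|_P` then `H²(Gal(L/M), C_L)` contains a class of
order `|Gal(L/M)|_P` (`fundClass_of_square`): Artin-Tate comparison of `L/M` with the cyclic
cyclotomic layer `L'/M` inside `N/M` (`Coh/FundClassAbs2`), the character being
`ψ_M = pcycArtin ∘ N_{M/ℚ}` (`Idele/PCycloFrob`).
-/

open CategoryTheory groupCohomology Rep NumberField IsDedekindDomain IntermediateField
  Rat.HeightOneSpectrum
open scoped TensorProduct Fermat.Agent.CFT.TensorGal Fermat.Agent.CFT.IdeleAct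

namespace Fermat.Agent.CFT

section GroupLemma

/-- compatible generators: `φ : T ↪ G'` into a finite cyclic group `G' = ⟨σ⟩`: there is a generator
`τ` of `T` with `φ τ = σ ^ d`, `d * |T| = |G'|`. -/
theorem fcl_exists_generator_compat {G' T : Type*} [Group G'] [Fintype G'] [Group T] [Fintype T]
    (φ : T →* G') (hφ : Function.Injective φ) {σ : G'} (hσ : ∀ x, x ∈ Subgroup.zpowers σ) :
    ∃ (τ : T) (d : ℕ), (∀ x, x ∈ Subgroup.zpowers τ) ∧ φ τ = σ ^ d ∧
      d * Nat.card T = Nat.card G' := by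
  classical
  have hn : orderOf σ = Nat.card G' := by
    rw [← Nat.card_zpowers]
    have : Subgroup.zpowers σ = ⊤ := (Subgroup.eq_top_iff' _).mpr hσ
    rw [this, Subgroup.card_top]
  have hcardH : Nat.card φ.range = Nat.card T :=
    (Nat.card_congr (Equiv.ofInjective φ hφ)).symm
  have hdvd : Nat.card T ∣ Nat.card G' := by
    rw [← hcardH]
    exact Subgroup.card_subgroup_dvd_card φ.range
  obtain ⟨d, hd⟩ := hdvd
  have hTpos : 0 < Nat.card T := Nat.card_pos
  have hGpos : 0 < Nat.card G' := Nat.card_pos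
  have hdpos : 0 < d := by
    rcases Nat.eq_zero_or_pos d with h | h
    · rw [h, mul_zero] at hd
      omega
    · exact h
  -- `range φ ≤ ⟨σ ^ d⟩`
  have hle : φ.range ≤ Subgroup.zpowers (σ ^ d) := by
    rintro _ ⟨t, rfl⟩
    obtain ⟨k, hk⟩ := Subgroup.mem_zpowers_iff.mp (hσ (φ t))
    have h1 : (φ t) ^ Nat.card T = 1 := by
      rw [← map_pow, pow_card_eq_one', map_one]
    rw [← hk, ← zpow_natCast, ← zpow_mul] at h1
    have h2 : (orderOf σ : ℤ) ∣ k * (Nat.card T : ℤ) := orderOf_dvd_iff_zpow_eq_one.mpr h1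
    rw [hn, hd, Nat.cast_mul, mul_comm k] at h2
    have h3 : (d : ℤ) ∣ k :=
      Int.dvd_of_mul_dvd_mul_left (Int.natCast_ne_zero.mpr hTpos.ne') h2
    obtain ⟨j, rfl⟩ := h3
    rw [Subgroup.mem_zpowers_iff]
    refine ⟨j, ?_⟩
    rw [← hk, zpow_mul, zpow_natCast]
  have hord : orderOf (σ ^ d) = Nat.card T := by
    rw [orderOf_pow' σ hdpos.ne', hn, hd, Nat.gcd_mul_left_left, Nat.mul_div_cancel _ hdpos]
  have heq : φ.range = Subgroup.zpowers (σ ^ d) := by
    apply Subgroup.eq_of_le_of_card_ge hle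
    rw [Nat.card_zpowers, hord, hcardH]
  have hmem : σ ^ d ∈ φ.range := by
    rw [heq]
    exact Subgroup.mem_zpowers _
  obtain ⟨τ, hτ⟩ := hmem
  refine ⟨τ, d, fun x => ?_, hτ, ?_⟩
  · have hx : φ x ∈ Subgroup.zpowers (σ ^ d) := by
      rw [← heq]
      exact ⟨x, rfl⟩
    obtain ⟨j, hj⟩ := Subgroup.mem_zpowers_iff.mp hx
    rw [Subgroup.mem_zpowers_iff]
    refine ⟨j, hφ ?_⟩
    rw [map_zpow, hτ, hj]
  · rw [hd, mul_comm]

end GroupLemma

attribute [local instance] additiveDistribMulAction ideleGroupActionOf ideleClassActionOf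
  idClassCommGroup

section NormIndex

variable (K : Type) [Field K] [NumberField K]

set_option maxRecDepth 8000 in
attribute [local instance] IsCyclic.commGroup in
/-- the norm index of a cyclic `p`-power layer divides the degree (second inequality + devissage). -/
theorem fcl_index_range_relClassNorm_dvd (p : ℕ) [hp : Fact p.Prime] (hcyc : IdCyclicLayer K p)
    (L N : Type) [Field L] [NumberField L] [Field N] [NumberField N] [Algebra K L] [Algebra L N]
    [Algebra K N] [IsScalarTower K L N] [IsGalois L N] (hζ : ∃ ζ : L, IsPrimitiveRoot ζ p)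
    [IsCyclic Gal(N/L)] (hpg : IsPGroup p Gal(N/L)) :
    (relClassNorm K L N).range.index ∣ Nat.card Gal(N/L) := by
  classical
  obtain ⟨k, hk⟩ := hpg.exists_card_eq
  have hdeg : Module.finrank L N = p ^ k := by
    rw [← IsGalois.card_aut_eq_finrank, hk]
  obtain ⟨-, h2⟩ := idClass_devissage K p hcyc k L N hζ hdeg
  letI : Fintype Gal(N/L) := Fintype.ofFinite _
  obtain ⟨σ, hσ⟩ := IsCyclic.exists_generator (α := Gal(N/L))
  have e2 := natCard_groupCohomology_even (idClassRep K L N) σ hσ 2 (by decide)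
  have hs : repSubOne (idClassRep K L N) σ = subOneHom (Additive (ideleClass K N)) σ := by
    ext a; rfl
  have hn : repNorm (idClassRep K L N) = normHom Gal(N/L) (Additive (ideleClass K N)) := by
    ext a
    rw [repNorm_apply]
    rfl
  rw [hs, hn] at e2
  have e2' : Nat.card (groupCohomology (idClassRep K L N) 2) =
      tateH0Card Gal(N/L) (Additive (ideleClass K N)) σ := by
    rw [e2]; rfl
  rw [e2', idNI_tateH0Card_eq_index (K := K) hσ] at h2
  rw [hk]
  exact h2

end NormIndex

section Kernel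

variable (v₀ : HeightOneSpectrum (𝓞 ℚ)) (r : ℕ)

/-- `Gal(F/E)` is cyclic for `F = E(ζ_{P^r})`, `P` odd. -/
theorem fcl_isCyclic_gal (hP2 : natGenerator v₀ ≠ 2) (E F : Type*) [Field E] [Field F]
    [Algebra E F] [IsCyclotomicExtension {natGenerator v₀ ^ r} E F] : IsCyclic Gal(F/E) := by
  have hPp : (natGenerator v₀).Prime := prime_natGenerator v₀
  haveI : NeZero (natGenerator v₀ ^ r) := ⟨pow_ne_zero r hPp.ne_zero⟩
  have hζ := IsCyclotomicExtension.zeta_spec (natGenerator v₀ ^ r) E F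
  haveI : IsCyclic (ZMod (natGenerator v₀ ^ r))ˣ :=
    ZMod.isCyclic_units_of_prime_pow (natGenerator v₀) hPp hP2 r
  exact isCyclic_of_injective (hζ.autToPow E) (hζ.autToPow_injective E)

/-- **(C)** on classes: `ψ_E` is trivial if `ζ_{P^r} ∈ E`. -/
theorem pcycClassChar_eq_one_of_isPrimitiveRoot (E : Type*) [Field E] [NumberField E]
    [IsGalois ℚ E] [IsTotallyComplex E] (ζ : E) (hζ : IsPrimitiveRoot ζ (natGenerator v₀ ^ r))
    (c : ideleClass ℚ E) : pcycClassChar v₀ r E c = 1 := by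
  induction c using QuotientGroup.induction_on with
  | H y =>
    rw [pcycClassChar_mk, pcycNormChar_apply]
    exact pcycArtin_ideleNorm_eq_one v₀ r E ζ hζ y

/-- **(NS) + (c2)**: a class on which `ψ_E` has order `[E(ζ_{P^r}) : E]`. -/
theorem exists_orderOf_pcycClassChar_eq (hP2 : natGenerator v₀ ≠ 2) (E F : Type*) [Field E]
    [NumberField E] [Field F] [NumberField F] [Algebra E F] [IsGalois ℚ E] [IsTotallyComplex E]
    [IsCyclotomicExtension {natGenerator v₀ ^ r} E F] {ζp : E}
    (hζp : IsPrimitiveRoot ζp (natGenerator v₀)) :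
    ∃ c : ideleClass ℚ E, orderOf (pcycClassChar v₀ r E c) = Module.finrank E F := by
  have hPp : (natGenerator v₀).Prime := prime_natGenerator v₀
  obtain ⟨w, -, -, hwp, -, -, -, hcop, hord⟩ :=
    pcycNS_exists_prime r E F hPp hP2 hζp ∅ ∅
  obtain ⟨z, hz⟩ := exists_pcycNormChar_eq_absNorm v₀ r E w hwp
  refine ⟨(z : ideleClass ℚ E), ?_⟩
  have hz' : pcycNormChar v₀ r E z = ZMod.unitOfCoprime _ hcop := by
    apply Units.ext
    rw [hz, ZMod.coe_unitOfCoprime]
  rw [pcycClassChar_mk, hz', hord]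

/-- **existence theorem for the cyclotomic layer**: `ker ψ_L = N_{N/L} C_N` for
`N = L(ζ_{P^r})`, `μ_P ⊆ L`. -/
theorem fcl_mem_range_relClassNorm (hP2 : natGenerator v₀ ≠ 2)
    (hcyc : IdCyclicLayer ℚ (natGenerator v₀))
    (L N : Type) [Field L] [NumberField L] [Field N] [NumberField N] [Algebra L N]
    [IsGalois ℚ L] [IsGalois ℚ N] [IsGalois L N] [IsTotallyComplex L] [IsTotallyComplex N]
    [IsCyclotomicExtension {natGenerator v₀ ^ r} L N] {ζp : L}
    (hζp : IsPrimitiveRoot ζp (natGenerator v₀))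
    (x : ideleClass ℚ L) (hx : pcycClassChar v₀ r L x = 1) :
    x ∈ (relClassNorm ℚ L N).range := by
  have hPp : (natGenerator v₀).Prime := prime_natGenerator v₀
  haveI : Fact (natGenerator v₀).Prime := ⟨hPp⟩
  haveI : NeZero (natGenerator v₀ ^ r) := ⟨pow_ne_zero r hPp.ne_zero⟩
  haveI hcycG : IsCyclic Gal(N/L) := fcl_isCyclic_gal v₀ r hP2 L N
  have hpg : IsPGroup (natGenerator v₀) Gal(N/L) := pcycNS_isPGroup_gal r L N hPp hζp
  have hidx := fcl_index_range_relClassNorm_dvd ℚ (natGenerator v₀) hcyc L N ⟨ζp, hζp⟩ hpg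
  have hζN := IsCyclotomicExtension.zeta_spec (natGenerator v₀ ^ r) L N
  have hRK : (relClassNorm ℚ L N).range ≤ (pcycClassChar v₀ r L).ker := by
    rintro _ ⟨b, rfl⟩
    rw [MonoidHom.mem_ker, pcycClassChar_relClassNorm]
    exact pcycClassChar_eq_one_of_isPrimitiveRoot v₀ r N _ hζN b
  obtain ⟨cL, hcL⟩ := exists_orderOf_pcycClassChar_eq v₀ r hP2 L N hζp
  have hcardpos : 0 < Nat.card Gal(N/L) := Nat.card_pos
  have hKidx : Nat.card Gal(N/L) ≤ (pcycClassChar v₀ r L).ker.index := by
    rw [Subgroup.index_ker, IsGalois.card_aut_eq_finrank, ← hcL, ← Nat.card_zpowers]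
    apply Subgroup.card_le_of_le
    rw [Subgroup.zpowers_le]
    exact ⟨cL, rfl⟩
  have hR0 : (relClassNorm ℚ L N).range.index ≠ 0 :=
    ne_zero_of_dvd_ne_zero hcardpos.ne' hidx
  have h1 : (pcycClassChar v₀ r L).ker.index ∣ (relClassNorm ℚ L N).range.index :=
    Subgroup.index_dvd_of_le hRK
  have hle1 : (relClassNorm ℚ L N).range.index ≤ Nat.card Gal(N/L) := Nat.le_of_dvd hcardpos hidx
  have hle2 : (pcycClassChar v₀ r L).ker.index ≤ (relClassNorm ℚ L N).range.index :=
    Nat.le_of_dvd (Nat.pos_of_ne_zero hR0) h1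
  have heq : (relClassNorm ℚ L N).range.index = (pcycClassChar v₀ r L).ker.index :=
    le_antisymm (hle1.trans hKidx) hle2
  have hrel : (relClassNorm ℚ L N).range.relIndex (pcycClassChar v₀ r L).ker = 1 := by
    have h2 := Subgroup.relIndex_mul_index hRK
    rw [heq] at h2
    have hpos : 0 < (pcycClassChar v₀ r L).ker.index := by
      rw [← heq]
      exact Nat.pos_of_ne_zero hR0
    exact Nat.eq_of_mul_eq_mul_right hpos (by rw [one_mul]; exact h2)
  exact (Subgroup.relIndex_eq_one.mp hrel) (MonoidHom.mem_ker.mpr hx)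

end Kernel

section Square

variable (v₀ : HeightOneSpectrum (𝓞 ℚ)) (r : ℕ)
  (M L L' N : Type) [Field M] [NumberField M] [Field L] [NumberField L]
  [Field L'] [NumberField L'] [Field N] [NumberField N]
  [Algebra M L] [Algebra M L'] [Algebra L N] [Algebra L' N] [Algebra M N]
  [IsScalarTower M L N] [IsScalarTower M L' N]
  [IsGalois ℚ M] [IsGalois ℚ L] [IsGalois ℚ L'] [IsGalois ℚ N]
  [IsGalois M L] [IsGalois M L'] [IsGalois M N] [IsGalois L N] [IsGalois L' N]

/-- Galois descent for `C_F ⊆ C_N` in multiplicative form. -/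
theorem fcl_exists_relClass_eq (M F N : Type) [Field M] [NumberField M] [Field F] [NumberField F]
    [Field N] [NumberField N] [Algebra M F] [Algebra F N] [Algebra M N] [IsScalarTower M F N]
    [IsGalois M F] [IsGalois M N] (m : ideleClass ℚ N)
    (h : ∀ γ ∈ (galProj M F N).ker, γ • m = m) : ∃ m' : ideleClass ℚ F, relClass ℚ F N m' = m := by
  obtain ⟨a', ha'⟩ := exists_idClassInfHom_eq ℚ M F N (Additive.ofMul m)
    (fun s hs => congrArg Additive.ofMul (h s hs))
  exact ⟨Additive.toMul a', congrArg Additive.toMul ha'⟩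

set_option maxHeartbeats 1000000 in
/-- **The fundamental class, `P`-primary part, from the cyclotomic square.** -/
theorem fundClass_of_square [IsCyclotomicExtension {natGenerator v₀ ^ r} M L']
    [IsCyclotomicExtension {natGenerator v₀ ^ r} L N] (hP2 : natGenerator v₀ ≠ 2)
    (hcyc : IdCyclicLayer ℚ (natGenerator v₀))
    {ζp : M} (hζp : IsPrimitiveRoot ζp (natGenerator v₀))
    (hcomp : IsCompositum L L' N)
    (hdvd : Nat.card Gal(L'/M) ∣ Nat.card Gal(L/M)) :
    ∃ w : groupCohomology (idClassRep ℚ M L) 2, addOrderOf w = Nat.card Gal(L'/M) := by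
  classical
  have hPp : (natGenerator v₀).Prime := prime_natGenerator v₀
  haveI : Fact (natGenerator v₀).Prime := ⟨hPp⟩
  haveI : NeZero (natGenerator v₀ ^ r) := ⟨pow_ne_zero r hPp.ne_zero⟩
  have hP3 : 2 < natGenerator v₀ := lt_of_le_of_ne hPp.two_le (Ne.symm hP2)
  have hζpL : IsPrimitiveRoot (algebraMap M L ζp) (natGenerator v₀) :=
    hζp.map_of_injective (algebraMap M L).injective
  have hζpL' : IsPrimitiveRoot (algebraMap M L' ζp) (natGenerator v₀) :=
    hζp.map_of_injective (algebraMap M L').injective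
  have hζpN : IsPrimitiveRoot (algebraMap M N ζp) (natGenerator v₀) :=
    hζp.map_of_injective (algebraMap M N).injective
  haveI tcM : IsTotallyComplex M := isTotallyComplex_of_isPrimitiveRoot hP3 hζp
  haveI tcL : IsTotallyComplex L := isTotallyComplex_of_isPrimitiveRoot hP3 hζpL
  haveI tcL' : IsTotallyComplex L' := isTotallyComplex_of_isPrimitiveRoot hP3 hζpL'
  haveI tcN : IsTotallyComplex N := isTotallyComplex_of_isPrimitiveRoot hP3 hζpN
  -- generators
  haveI hcycG' : IsCyclic Gal(L'/M) := fcl_isCyclic_gal v₀ r hP2 M L'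
  obtain ⟨σ, hσ⟩ := IsCyclic.exists_generator (α := Gal(L'/M))
  have hresinj : Function.Injective ((galProj M L' N).comp (galIncl M L N)) :=
    resGal_injective (K := M) (F := L) (L := L') (M := N) hcomp
  obtain ⟨τ, d, hτ, hd, hcard⟩ := fcl_exists_generator_compat
    ((galProj M L' N).comp (galIncl M L N)) hresinj hσ
  -- the class `c₀ ∈ C_M`
  obtain ⟨c₀, hc₀⟩ := exists_orderOf_pcycClassChar_eq v₀ r hP2 M L' hζp
  rw [← IsGalois.card_aut_eq_finrank] at hc₀
  -- the `H¹` hypotheses
  have hpgNL : IsPGroup (natGenerator v₀) Gal(N/L) := pcycNS_isPGroup_gal r L N hPp hζpL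
  obtain ⟨kNL, hkNL⟩ := hpgNL.exists_card_eq
  have hdegNL : Module.finrank L N = natGenerator v₀ ^ kNL := by
    rw [← IsGalois.card_aut_eq_finrank, hkNL]
  have hT1 : Subsingleton (groupCohomology (idClassRep ℚ L N) 1) :=
    (idClass_devissage ℚ (natGenerator v₀) hcyc kNL L N ⟨_, hζpL⟩ hdegNL).1
  have h1 : H1ResVanishes (idClassRep ℚ M N) (galProj M L N).ker :=
    h1ResVanishes_ker_gen (galProj M L N) (galIncl M L N) (idClassResHom ℚ M L N)
      (galIncl_injective M L N) (range_galIncl M L N) (idClassResHom_bijective ℚ M L N) hT1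
  obtain ⟨Q⟩ : Nonempty (Sylow (natGenerator v₀) (galProj M L' N).ker) := inferInstance
  set Q' : Subgroup Gal(N/M) := (Q : Subgroup (galProj M L' N).ker).map
    (galProj M L' N).ker.subtype with hQ'
  have hQ'le : Q' ≤ (galProj M L' N).ker := by
    rintro _ ⟨x, -, rfl⟩
    exact x.2
  have hQ'p : IsPGroup (natGenerator v₀) Q' := Q.isPGroup'.map _
  have hQ'1 : H1ResVanishes (idClassRep ℚ M N) Q' := by
    have hz := dvsSyl_h1 ℚ M N (natGenerator v₀) hcyc ⟨ζp, hζp⟩ Q' hQ'p
    haveI : Subsingleton (H1 (res Q'.subtype (idClassRep ℚ M N))) :=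
      ModuleCat.isZero_iff_subsingleton.mp hz
    exact H1ResVanishes_of_subsingleton _ Q'
  have h1' : H1ResKilledBy (idClassRep ℚ M N) (galProj M L' N).ker
      (Q'.relIndex (galProj M L' N).ker) := h1ResKilledBy_of_le Q' hQ'le hQ'1
  have hrel : Q'.relIndex (galProj M L' N).ker = (Q : Subgroup (galProj M L' N).ker).index := by
    rw [Subgroup.relIndex, hQ', Subgroup.subgroupOf,
      Subgroup.comap_map_eq_self_of_injective (Subgroup.subtype_injective _)]
  have hm : (Nat.card Gal(L'/M)).Coprime (Q'.relIndex (galProj M L' N).ker) := by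
    rw [hrel]
    have hpgL'M : IsPGroup (natGenerator v₀) Gal(L'/M) := pcycNS_isPGroup_gal r M L' hPp hζp
    obtain ⟨k', hk'⟩ := hpgL'M.exists_card_eq
    rw [hk']
    exact Nat.Coprime.pow_left k' ((Nat.Prime.coprime_iff_not_dvd hPp).mpr Q.not_dvd_index)
  -- `(C)` for `L'` and the existence theorem for `N/L`
  have hζL' := IsCyclotomicExtension.zeta_spec (natGenerator v₀ ^ r) M L'
  have hCL' : ∀ b : ideleClass ℚ L', pcycClassChar v₀ r L' b = 1 :=
    pcycClassChar_eq_one_of_isPrimitiveRoot v₀ r L' _ hζL'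
  -- apply the abstract comparison theorem
  have key := exists_addOrderOf_eq_card_of_cyclic_comparison_of_coprime
    (Γ := Gal(N/M)) (G := Gal(L/M)) (G' := Gal(L'/M)) (T := Gal(N/L))
    (MΓ := ideleClass ℚ N) (MG := ideleClass ℚ L) (M' := ideleClass ℚ L') (MT := ideleClass ℚ N)
    (galProj M L N) (AlgEquiv.restrictNormalHom_surjective N)
    (relClass ℚ L N)
    (fun γ m => dvs_relClass_smul (relGalHom ℚ M N γ) (relGalHom ℚ M L (galProj M L N γ))
      (dvs_galProj_compat ℚ M L N γ) m)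
    (relClass_injective ℚ L N)
    (fcl_exists_relClass_eq M L N)
    (galProj M L' N) (AlgEquiv.restrictNormalHom_surjective N)
    (relClass ℚ L' N)
    (fun γ m => dvs_relClass_smul (relGalHom ℚ M N γ) (relGalHom ℚ M L' (galProj M L' N γ))
      (dvs_galProj_compat ℚ M L' N γ) m)
    (relClass_injective ℚ L' N)
    (fcl_exists_relClass_eq M L' N)
    (galIncl M L N) (galIncl_injective M L N) (range_galIncl M L N)
    (MonoidHom.id (ideleClass ℚ N)) (fun t m => rfl) Function.bijective_id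
    h1 hm h1' hσ hτ hd hcard
    (relClass ℚ M L' c₀)
    (fun g => smul_relClass (relGalHom_mem_relFixing ℚ M L' g) c₀)
    ?_ ?_
  · exact key
  · -- `hord`
    rintro k ⟨b, hb⟩
    have h2 : relClass ℚ M L' (relClassNorm ℚ M L' b) = relClass ℚ M L' (c₀ ^ k) := by
      rw [relTw_relClass_relClassNorm, map_pow]
      exact hb
    have h3 := relClass_injective ℚ M L' h2
    have h4 : pcycClassChar v₀ r M c₀ ^ k = 1 := by
      rw [← map_pow, ← h3, pcycClassChar_relClassNorm, hCL']
    rw [← hc₀]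
    exact orderOf_dvd_of_pow_eq_one h4
  · -- `hnorm`
    have hψ : pcycClassChar v₀ r L (relClass ℚ M L c₀) = 1 := by
      rw [pcycClassChar_relClass]
      obtain ⟨j, hj⟩ := hdvd
      rw [hj, pow_mul, ← hc₀, pow_orderOf_eq_one, one_pow]
    obtain ⟨b, hb⟩ := fcl_mem_range_relClassNorm v₀ r hP2 hcyc L N hζpL _ hψ
    refine ⟨b, ?_⟩
    show ∏ t : Gal(N/L), (relGalHom ℚ L N t) • b = relClass ℚ L' N (relClass ℚ M L' c₀)
    rw [← relTw_relClass_relClassNorm, hb, relTw_relClass_comp, relTw_relClass_comp]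

end Square

section Cross

/-- `M(ζ_n)` (inside `L(ζ_n)`) is Galois over a base field `K₀` over which `M` is Galois. -/
theorem fcl_isGalois_crossE_base (n : ℕ) [NeZero n] (K₀ M L : Type) [Field K₀] [Field M]
    [NumberField M] [Field L] [NumberField L] [Algebra K₀ M] [Algebra M L] [Algebra K₀ L]
    [IsScalarTower K₀ M L] [IsScalarTower K₀ M (CrossM n L)] [IsGalois K₀ M] :
    IsGalois K₀ ↥(crossE n M L) := by
  have h1 : (crossE n M L).restrictScalars K₀ =
      (IsScalarTower.toAlgHom K₀ M (CrossM n L)).fieldRange ⊔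
        IntermediateField.adjoin K₀ {crossZeta n L} :=
    restrictScalars_adjoin_eq_fieldRange_sup (K := K₀) (F := M) {crossZeta n L}
  haveI : IsGalois K₀ (IsScalarTower.toAlgHom K₀ M (CrossM n L)).fieldRange :=
    IsGalois.of_algEquiv (AlgEquiv.ofInjectiveField (IsScalarTower.toAlgHom K₀ M (CrossM n L)))
  haveI : Algebra.IsIntegral K₀ M := inferInstance
  haveI : Algebra.IsIntegral M (CrossM n L) := inferInstance
  haveI : Algebra.IsIntegral K₀ (CrossM n L) := Algebra.IsIntegral.trans M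
  haveI : IsCyclotomicExtension {n} K₀ (IntermediateField.adjoin K₀ {crossZeta n L}) :=
    (crossZeta_spec n L).intermediateField_adjoin_isCyclotomicExtension K₀
  haveI : IsGalois K₀ (IntermediateField.adjoin K₀ {crossZeta n L}) :=
    IsCyclotomicExtension.isGalois {n} K₀ _
  haveI h2 : IsGalois K₀ ↥((IsScalarTower.toAlgHom K₀ M (CrossM n L)).fieldRange ⊔
        IntermediateField.adjoin K₀ {crossZeta n L} : IntermediateField K₀ (CrossM n L)) := by
    haveI hn : Normal K₀ ↥((IsScalarTower.toAlgHom K₀ M (CrossM n L)).fieldRange ⊔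
        IntermediateField.adjoin K₀ {crossZeta n L} : IntermediateField K₀ (CrossM n L)) :=
      inferInstance
    haveI hs : Algebra.IsSeparable K₀ ↥((IsScalarTower.toAlgHom K₀ M (CrossM n L)).fieldRange ⊔
        IntermediateField.adjoin K₀ {crossZeta n L} : IntermediateField K₀ (CrossM n L)) :=
      inferInstance
    exact ⟨⟩
  haveI h3 : IsGalois K₀ ↥((crossE n M L).restrictScalars K₀) := by
    rw [h1]
    exact h2
  let e : ↥((crossE n M L).restrictScalars K₀) ≃ₐ[K₀] ↥(crossE n M L) :=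
    { toFun := fun x => ⟨x.1, x.2⟩
      invFun := fun x => ⟨x.1, x.2⟩
      left_inv := fun _ => rfl
      right_inv := fun _ => rfl
      map_mul' := fun _ _ => rfl
      map_add' := fun _ _ => rfl
      commutes' := fun _ => rfl }
  exact IsGalois.of_algEquiv e

/-- `M(ζ_n)` (inside `L(ζ_n)`) is Galois over `ℚ` if `M` is. -/
theorem fcl_isGalois_rat_crossE (n : ℕ) [NeZero n] (M L : Type) [Field M] [NumberField M]
    [Field L] [NumberField L] [Algebra M L] [IsGalois ℚ M] : IsGalois ℚ ↥(crossE n M L) := by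
  haveI : IsScalarTower ℚ M (CrossM n L) :=
    IsScalarTower.of_algebraMap_eq' (RingHom.ext_rat _ _)
  have h := fcl_isGalois_crossE_base n ℚ M L
  convert h
  exact Subsingleton.elim _ _

/-- bridging lemma: `IsGalois ℚ X` does not depend on the `ℚ`-algebra structure. -/
theorem fcl_isGalois_rat_of (X : Type) [Field X] [CharZero X] (a : Algebra ℚ X)
    (h : @IsGalois ℚ _ X _ a) : IsGalois ℚ X := by
  have ha : a = DivisionRing.toRatAlgebra := Subsingleton.elim _ _
  subst ha
  exact h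

variable (v₀ : HeightOneSpectrum (𝓞 ℚ)) (r : ℕ)
  (M L : Type) [Field M] [NumberField M] [Field L] [NumberField L] [Algebra M L]
  [IsGalois ℚ M] [IsGalois ℚ L] [IsGalois M L]

set_option maxHeartbeats 1000000 in
/-- **The fundamental class, `P`-primary part**, for `L' = M(ζ_{P^r}) ⊆ N = L(ζ_{P^r})`. -/
theorem fundClass_of_cross (hP2 : natGenerator v₀ ≠ 2)
    (hcyc : IdCyclicLayer ℚ (natGenerator v₀))
    {ζp : M} (hζp : IsPrimitiveRoot ζp (natGenerator v₀))
    (hdvd : haveI : NeZero (natGenerator v₀ ^ r) :=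
        ⟨pow_ne_zero r (prime_natGenerator v₀).ne_zero⟩
      Nat.card Gal(↥(crossE (natGenerator v₀ ^ r) M L)/M) ∣ Nat.card Gal(L/M)) :
    haveI : NeZero (natGenerator v₀ ^ r) := ⟨pow_ne_zero r (prime_natGenerator v₀).ne_zero⟩
    ∃ w : groupCohomology (idClassRep ℚ M L) 2,
      addOrderOf w = Nat.card Gal(↥(crossE (natGenerator v₀ ^ r) M L)/M) := by
  haveI : NeZero (natGenerator v₀ ^ r) := ⟨pow_ne_zero r (prime_natGenerator v₀).ne_zero⟩
  haveI : IsGalois ℚ ↥(crossE (natGenerator v₀ ^ r) M L) :=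
    fcl_isGalois_rat_crossE (natGenerator v₀ ^ r) M L
  haveI : IsGalois ℚ (CrossM (natGenerator v₀ ^ r) L) :=
    fcl_isGalois_rat_of _ _ (crossM_isGalois (natGenerator v₀ ^ r) ℚ L)
  exact fundClass_of_square v₀ r M L ↥(crossE (natGenerator v₀ ^ r) M L)
    (CrossM (natGenerator v₀ ^ r) L) hP2 hcyc hζp
    ((isCompositum_cross (natGenerator v₀ ^ r) M L).symm M) hdvd

end Cross

end Fermat.Agent.CFT
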