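/-
CFT, S55 pool, GLOBAL-IDELIC layer, (GL14) -> (K5)(i) glue (helper17): **restriction of the
fundamental class to a non-Galois base**.

The arithmetic construction of the class `w₀ ∈ H²(Gal(L/M₀), C_L)` (order divisible by the `p`-part
of `[L : M₀]`) needs `M₀` Galois over `ℚ`; the consumers need such a class for `Gal(L/M)` with
`M = ` the fixed field of an arbitrary open subgroup (not normal).  For `M₀ ≤ M ≤ L` the restriction
of `w₀` to `Gal(L/M)` does the job, because the kernel of restriction is killed by the index.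

* `fcR_index_nsmul_eq_zero_of_map_eq_zero` : `ι : T →* G` injective, `ψ : res ι A ⟶ B` bijective:
  a class of `Hⁿ(G, A)` (`n ≥ 1`) dying in `Hⁿ(T, B)` is killed by `[G : ι T]`;
* `fcR_dvd_addOrderOf_map` : `p ^ v_p(|G|) ∣ ord w₀ ⟹ p ^ v_p(|T|) ∣ ord (res w₀)`;
* `fcR_exists_of_tower` : idele class form for a tower `K; M₀ ≤ M ≤ L`;
* `fcR_natCard_torsion_H2_le`, `fcR_isZero_H3`, `fcR_H3_eq_zero_of_pow_nsmul` : the consumers of
  helper4's `Idele/DevissageFinal.lean` with the class given over the smaller base `M₀`.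
-/
import Mathlib
import Fermat.Agent.CFT.Idele.DevissageFinal
import Fermat.Agent.CFT.Coh.ResIndex
import Fermat.Agent.CFT.Coh.H2InfResGen

set_option autoImplicit false
set_option linter.unusedSectionVars false
set_option linter.style.haveILetI false

open CategoryTheory groupCohomology Rep NumberField IsDedekindDomain IntermediateField
open scoped TensorProduct Fermat.Agent.CFT.TensorGal Fermat.Agent.CFT.IdeleAct

namespace Fermat.Agent.CFT

section Generic

universe u

variable {k G T : Type u} [CommRing k] [Group G] [Group T] [Finite G]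
  {A : Rep k G} {B : Rep k T}

/-- a class dying under a "restriction" `Hⁿ(G, A) → Hⁿ(T, B)` (`ι : T →* G` injective, bijective
coefficient map) is killed by the index of `ι T`. -/
theorem fcR_index_nsmul_eq_zero_of_map_eq_zero (ι : T →* G) (hι : Function.Injective ι)
    (ψ : res ι A ⟶ B) (hψ : Function.Bijective ψ.hom) (n : ℕ) (hn : 1 ≤ n)
    (x : groupCohomology A n) (hx : map ι ψ n x = 0) : ι.range.index • x = 0 := by
  have hfac := map_eq_res_comp ι.range ι ψ hι rfl n
  have hb := map_resHom_bijective ι.range ι ψ hι rfl hψ n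
  have h0 : resH ι.range A n x = 0 := by
    apply hb.1
    rw [map_zero]
    have : map ι ψ n x =
        map (toSubEquiv ι.range ι hι rfl).toMonoidHom (resHom ι.range ι ψ hι rfl) n
          (resH ι.range A n x) := by
      rw [hfac]
      rfl
    rw [← this, hx]
  exact index_nsmul_eq_zero_of_resH_eq_zero ι.range A n hn x h0

/-- **restriction keeps the full `p`-part of the order**: if `p ^ v_p(|G|)` divides the order of
`w₀ ∈ Hⁿ(G, A)`, then `p ^ v_p(|T|)` divides the order of its image in `Hⁿ(T, B)`. -/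
theorem fcR_dvd_addOrderOf_map (ι : T →* G) (hι : Function.Injective ι)
    (ψ : res ι A ⟶ B) (hψ : Function.Bijective ψ.hom) (n : ℕ) (hn : 1 ≤ n)
    (p : ℕ) [hp : Fact p.Prime] (w₀ : groupCohomology A n)
    (hw₀ : p ^ (Nat.card G).factorization p ∣ addOrderOf w₀) :
    p ^ (Nat.card T).factorization p ∣ addOrderOf (map ι ψ n w₀) := by
  set y := map ι ψ n w₀ with hy
  set m := addOrderOf y with hm
  rcases Nat.eq_zero_or_pos m with h0 | hpos
  · rw [h0]; exact dvd_zero _
  have h1 : map ι ψ n (m • w₀) = 0 := by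
    have : map ι ψ n (m • w₀) = m • map ι ψ n w₀ := map_nsmul (map ι ψ n).hom _ _
    rw [this]
    exact addOrderOf_nsmul_eq_zero y
  have h2 := fcR_index_nsmul_eq_zero_of_map_eq_zero ι hι ψ hψ n hn _ h1
  rw [← mul_nsmul] at h2
  have h3 : addOrderOf w₀ ∣ m * ι.range.index := addOrderOf_dvd_of_nsmul_eq_zero h2
  have h4 : p ^ (Nat.card G).factorization p ∣ m * ι.range.index := hw₀.trans h3
  have hidx : ι.range.index ≠ 0 := Subgroup.FiniteIndex.index_ne_zero
  have hcardT : Nat.card T = Nat.card ι.range :=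
    Nat.card_congr (MonoidHom.ofInjective hι).toEquiv
  have hcardG : Nat.card ι.range * ι.range.index = Nat.card G := ι.range.card_mul_index
  have hT0 : Nat.card T ≠ 0 := by
    haveI : Finite T := Finite.of_injective ι hι
    exact Nat.card_pos.ne'
  have hm0 : m ≠ 0 := hpos.ne'
  rw [Nat.Prime.pow_dvd_iff_le_factorization hp.out (mul_ne_zero hm0 hidx),
    Nat.factorization_mul hm0 hidx, ← hcardG, ← hcardT,
    Nat.factorization_mul hT0 hidx] at h4
  rw [Nat.Prime.pow_dvd_iff_le_factorization hp.out hm0]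
  simp only [Finsupp.coe_add, Pi.add_apply] at h4
  omega

end Generic

attribute [local instance] additiveDistribMulAction ideleGroupActionOf ideleClassActionOf
  idClassCommGroup

section Tower

variable (K M₀ M L : Type) [Field K] [NumberField K] [Field M₀] [NumberField M₀]
  [Field M] [NumberField M] [Field L] [NumberField L]
  [Algebra K M₀] [Algebra K M] [Algebra K L] [Algebra M₀ M] [Algebra M L] [Algebra M₀ L]
  [IsScalarTower K M₀ M] [IsScalarTower K M L] [IsScalarTower K M₀ L] [IsScalarTower M₀ M L]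
  (p : ℕ) [hp : Fact p.Prime]

/-- the restriction `H²(Gal(L/M₀), C_L) → H²(Gal(L/M), C_L)` keeps the full `p`-part of the
order. -/
theorem fcR_dvd_addOrderOf_res (w₀ : groupCohomology (idClassRep K M₀ L) 2)
    (hw₀ : p ^ (Nat.card Gal(L/M₀)).factorization p ∣ addOrderOf w₀) :
    p ^ (Nat.card Gal(L/M)).factorization p ∣
      addOrderOf (map (galIncl M₀ M L) (idClassResHom K M₀ M L) 2 w₀) :=
  fcR_dvd_addOrderOf_map (galIncl M₀ M L) (galIncl_injective M₀ M L) (idClassResHom K M₀ M L)
    (idClassResHom_bijective K M₀ M L) 2 (by norm_num) p w₀ hw₀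

/-- **the (GL14) class over a non-Galois base**: `K; M₀ ≤ M ≤ L`; a class of
`H²(Gal(L/M₀), C_L)` whose order is divisible by the `p`-part of `[L : M₀]` restricts to a class
of `H²(Gal(L/M), C_L)` whose order is divisible by the `p`-part of `[L : M]`. -/
theorem fcR_exists_of_tower
    (h₀ : ∃ w₀ : groupCohomology (idClassRep K M₀ L) 2,
      p ^ (Nat.card Gal(L/M₀)).factorization p ∣ addOrderOf w₀) :
    ∃ w : groupCohomology (idClassRep K M L) 2,
      p ^ (Nat.card Gal(L/M)).factorization p ∣ addOrderOf w := by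
  obtain ⟨w₀, hw₀⟩ := h₀
  exact ⟨_, fcR_dvd_addOrderOf_res K M₀ M L p w₀ hw₀⟩

variable [IsGalois M L] (hp2 : p ≠ 2) (hζ : ∃ ζ : M, IsPrimitiveRoot ζ p)
  (h₀ : ∃ w₀ : groupCohomology (idClassRep K M₀ L) 2,
    p ^ (Nat.card Gal(L/M₀)).factorization p ∣ addOrderOf w₀)

include hp2 hζ h₀

/-- **`|H²(Gal(L/M), C_L)[p]| ≤ p`** for `M₀ ≤ M ≤ L`, `L/M` Galois, `μ_p ⊆ M`, given the (GL14)
class over `M₀`. -/
theorem fcR_natCard_torsion_H2_le :
    Finite (nsmulAddMonoidHom (α := groupCohomology (idClassRep K M L) 2) p).ker ∧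
      Nat.card (nsmulAddMonoidHom (α := groupCohomology (idClassRep K M L) 2) p).ker ≤ p := by
  obtain ⟨w, hw⟩ := fcR_exists_of_tower K M₀ M L p h₀
  exact idClassF_natCard_torsion_H2_le K M L p hp2 hζ hw

/-- `H³(S, C_L) = 0` for every `p`-subgroup `S ≤ Gal(L/M)`, given the (GL14) class over `M₀`. -/
theorem fcR_isZero_H3 (S : Subgroup Gal(L/M)) (hS : IsPGroup p S) :
    Limits.IsZero (groupCohomology (res S.subtype (idClassRep K M L)) 3) := by
  obtain ⟨w, hw⟩ := fcR_exists_of_tower K M₀ M L p h₀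
  exact idClassF_isZero_H3 K M L p hp2 hζ hw S hS

/-- `H³(Gal(L/M), C_L)` has no `p`-torsion, given the (GL14) class over `M₀`. -/
theorem fcR_H3_eq_zero_of_pow_nsmul (x : groupCohomology (idClassRep K M L) 3) {j : ℕ}
    (hx : p ^ j • x = 0) : x = 0 := by
  obtain ⟨w, hw⟩ := fcR_exists_of_tower K M₀ M L p h₀
  exact idClassF_H3_eq_zero_of_pow_nsmul K M L p hp2 hζ hw x hx

end Tower

end Fermat.Agent.CFT
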