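import Fermat.Agent.CFT.Idele.PCycloNonSplit

set_option autoImplicit false
set_option linter.unusedSectionVars false
set_option linter.style.haveILetI false

/-!
# CFT, S55 global-idelic stream, (GL14): the degrees of the `p`-power cyclotomic layers

`M` a number field containing `ζ_p`, `p` an odd prime.  The degrees `d_r = [M(ζ_{p^r}) : M]`
satisfy `d_1 = 1`, `d_{r+1} ∈ {d_r, p d_r}` and are unbounded; hence every power of `p` is the degree
of some `M(ζ_{p^r})/M` (`pcycDeg_exists_finrank_eq`).  Also: the selection of compatible generators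
for the Artin–Tate comparison (`pcycDeg_exists_generator`), and the injectivity of the restriction
`Gal(L(ζ)/L) → Gal(M(ζ)/M)` (`pcycDeg_restrict_injective`).
-/

open NumberField IsDedekindDomain IntermediateField
open scoped Pointwise IsMulCommutative

universe u v

namespace Fermat.Agent.CFT

section Seq

/-- a sequence starting at `1`, multiplied by `1` or `p` at each step, and unbounded, takes every
power of `p` as a value. -/
theorem pcycDeg_seq {p : ℕ} (hp : 1 < p) (d : ℕ → ℕ) (h1 : d 1 = 1)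
    (hstep : ∀ s, 1 ≤ s → d (s + 1) = d s ∨ d (s + 1) = p * d s)
    (hunb : ∀ B, ∃ s, 1 ≤ s ∧ B < d s) (k : ℕ) : ∃ s, 1 ≤ s ∧ d s = p ^ k := by
  classical
  have hpow : ∀ s, 1 ≤ s → ∃ e, d s = p ^ e := by
    intro s hs
    induction s, hs using Nat.le_induction with
    | base => exact ⟨0, by rw [h1, pow_zero]⟩
    | succ s hs ih =>
      obtain ⟨e, he⟩ := ih
      rcases hstep s hs with h | h
      · exact ⟨e, by rw [h, he]⟩
      · exact ⟨e + 1, by rw [h, he, pow_succ, mul_comm]⟩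
  have hex : ∃ s, 1 ≤ s ∧ p ^ k ≤ d s := by
    obtain ⟨s, hs, hlt⟩ := hunb (p ^ k)
    exact ⟨s, hs, hlt.le⟩
  obtain ⟨s₀, ⟨hs1, hsk⟩, hmin⟩ : ∃ s₀, (1 ≤ s₀ ∧ p ^ k ≤ d s₀) ∧
      ∀ m < s₀, ¬ (1 ≤ m ∧ p ^ k ≤ d m) :=
    ⟨Nat.find hex, Nat.find_spec hex, fun m hm => Nat.find_min hex hm⟩
  refine ⟨s₀, hs1, ?_⟩
  rcases Nat.lt_or_ge 1 s₀ with hlt | hge
  · obtain ⟨t, rfl⟩ : ∃ t, s₀ = t + 1 := ⟨s₀ - 1, by omega⟩
    have ht1 : 1 ≤ t := by omega
    have hdt : d t < p ^ k := by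
      by_contra hcon
      exact hmin t (by omega) ⟨ht1, not_lt.mp hcon⟩
    obtain ⟨e, he⟩ := hpow t ht1
    have hek : e < k := by
      rw [he] at hdt
      exact (Nat.pow_lt_pow_iff_right hp).mp hdt
    rcases hstep t ht1 with h | h
    · rw [h] at hsk
      omega
    · rw [h, he, ← pow_succ'] at hsk ⊢
      have : k ≤ e + 1 := (Nat.pow_le_pow_iff_right hp).mp hsk
      congr 1
      omega
  · have hs₀1 : s₀ = 1 := by omega
    rw [hs₀1, h1] at hsk ⊢
    have : 0 < p ^ k := Nat.pow_pos (by omega)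
    omega

end Seq

section Select

/-- **selection of compatible generators**: for an injective homomorphism `j : T →* G'` into a
finite cyclic group with generator `σ` there are a generator `τ` of `T` and `d` with
`j τ = σ ^ d` and `d * |T| = |G'|`. -/
theorem pcycDeg_exists_generator {T G' : Type*} [Group T] [Group G'] [Finite G'] (j : T →* G')
    (hj : Function.Injective j) {σ : G'} (hσ : ∀ x, x ∈ Subgroup.zpowers σ) :
    ∃ (τ : T) (d : ℕ), (∀ t, t ∈ Subgroup.zpowers τ) ∧ j τ = σ ^ d ∧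
      d * Nat.card T = Nat.card G' := by
  classical
  haveI : Finite T := Finite.of_injective j hj
  have hcardσ : orderOf σ = Nat.card G' := orderOf_eq_card_of_forall_mem_zpowers hσ
  have hdvd : Nat.card T ∣ Nat.card G' := Subgroup.card_dvd_of_injective j hj
  obtain ⟨d, hd⟩ := hdvd
  have hTpos : 0 < Nat.card T := Nat.card_pos
  have hd0 : d ≠ 0 := by
    rintro rfl
    rw [mul_zero] at hd
    exact (Nat.card_pos (α := G')).ne' hd
  -- `σ ^ d` has order `|T|`
  have hord : orderOf (σ ^ d) = Nat.card T := by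
    rw [orderOf_pow' σ hd0, hcardσ, hd, Nat.gcd_eq_right (Dvd.intro_left _ rfl),
      Nat.mul_div_cancel _ (Nat.pos_of_ne_zero hd0)]
  -- the range of `j` lies in `⟨σ ^ d⟩`
  have hle : j.range ≤ Subgroup.zpowers (σ ^ d) := by
    rintro _ ⟨t, rfl⟩
    obtain ⟨i, hi⟩ := Subgroup.mem_zpowers_iff.mp (hσ (j t))
    have h1 : σ ^ (i * (Nat.card T : ℤ)) = 1 := by
      rw [zpow_mul, hi, zpow_natCast, ← map_pow, pow_card_eq_one', map_one]
    have h2 : ((orderOf σ : ℕ) : ℤ) ∣ i * (Nat.card T : ℤ) := orderOf_dvd_iff_zpow_eq_one.mpr h1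
    rw [hcardσ, hd, Nat.cast_mul, mul_comm (Nat.card T : ℤ)] at h2
    have h3 : (d : ℤ) ∣ i :=
      Int.dvd_of_mul_dvd_mul_right (by exact_mod_cast hTpos.ne') h2
    obtain ⟨c, rfl⟩ := h3
    rw [Subgroup.mem_zpowers_iff]
    exact ⟨c, by rw [← hi, zpow_mul, zpow_natCast]⟩
  have hrange : j.range = Subgroup.zpowers (σ ^ d) := by
    apply Subgroup.eq_of_le_of_card_ge hle
    rw [Nat.card_zpowers, hord]
    exact (Nat.card_congr (Equiv.ofInjective j hj)).le
  obtain ⟨τ, hτ⟩ : σ ^ d ∈ j.range := by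
    rw [hrange]
    exact Subgroup.mem_zpowers _
  refine ⟨τ, d, fun t => ?_, hτ, by rw [hd, mul_comm]⟩
  have ht : j t ∈ Subgroup.zpowers (σ ^ d) := by
    rw [← hrange]
    exact ⟨t, rfl⟩
  obtain ⟨i, hi⟩ := Subgroup.mem_zpowers_iff.mp ht
  rw [Subgroup.mem_zpowers_iff]
  refine ⟨i, hj ?_⟩
  rw [map_zpow, hτ, hi]

end Select

section Model

/-- the degree of an `n`-th cyclotomic extension does not depend on the model. -/
theorem pcycDeg_finrank_eq (n : ℕ) [NeZero n] (M N N' : Type*) [Field M] [Field N] [Field N']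
    [Algebra M N] [Algebra M N'] [IsCyclotomicExtension {n} M N]
    [IsCyclotomicExtension {n} M N'] : Module.finrank M N = Module.finrank M N' :=
  (IsCyclotomicExtension.algEquiv {n} M N N').toLinearEquiv.finrank_eq

end Model

section Ring

/-- in a commutative ring, `(1 + x) ^ n = 1 + n x` when `x ^ 2 = 0`. -/
theorem pcycDeg_one_add_pow {R : Type*} [CommRing R] {x : R} (hx : x * x = 0) (n : ℕ) :
    (1 + x) ^ n = 1 + n * x := by
  induction n with
  | zero => simp
  | succ n ih =>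
    rw [pow_succ, ih]
    have : (1 + (n : R) * x) * (1 + x) = 1 + ((n : R) + 1) * x + (n : R) * (x * x) := by ring
    rw [this, hx, mul_zero, add_zero, Nat.cast_succ]

/-- a unit of `ℤ/p^(s+1)` congruent to `1` modulo `p^s` (`s ≥ 1`) has `p`-th power `1`. -/
theorem pcycDeg_pow_eq_one {p s : ℕ} (hs : 1 ≤ s) (a : ZMod (p ^ (s + 1)))
    (ha : ((p ^ s : ℕ) : ZMod (p ^ (s + 1))) ∣ a - 1) : a ^ p = 1 := by
  obtain ⟨c, hc⟩ := ha
  have hx : a = 1 + ((p ^ s : ℕ) : ZMod (p ^ (s + 1))) * c := by rw [← hc]; ring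
  have h0 : ((p ^ s : ℕ) : ZMod (p ^ (s + 1))) * (p : ZMod (p ^ (s + 1))) = 0 := by
    rw [← Nat.cast_mul, ← pow_succ, ZMod.natCast_self]
  have hsq : (((p ^ s : ℕ) : ZMod (p ^ (s + 1))) * c) * (((p ^ s : ℕ) : ZMod (p ^ (s + 1))) * c) =
      0 := by
    obtain ⟨t, rfl⟩ : ∃ t, s = t + 1 := ⟨s - 1, by omega⟩
    have : ((p ^ (t + 1) : ℕ) : ZMod (p ^ (t + 1 + 1))) * ((p ^ (t + 1) : ℕ) : ZMod (p ^ (t + 1 + 1)))
        = 0 := by
      rw [← Nat.cast_mul, ← pow_add]
      have : p ^ (t + 1 + 1) ∣ p ^ (t + 1 + (t + 1)) := pow_dvd_pow p (by omega)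
      exact (ZMod.natCast_eq_zero_iff _ _).mpr this
    calc _ = (((p ^ (t + 1) : ℕ) : ZMod (p ^ (t + 1 + 1))) *
          ((p ^ (t + 1) : ℕ) : ZMod (p ^ (t + 1 + 1)))) * (c * c) := by ring
      _ = 0 := by rw [this, zero_mul]
  rw [hx, pcycDeg_one_add_pow hsq, mul_comm (p : ZMod (p ^ (s + 1))), mul_assoc,
    mul_comm c, ← mul_assoc, h0, zero_mul, add_zero]

end Ring

section Step

variable {p : ℕ} (s : ℕ) (M N : Type*) [Field M] [Field N] [Algebra M N]
  [hcycl : IsCyclotomicExtension {p ^ (s + 1)} M N]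

include hcycl in
/-- **the step**: `[M(ζ_{p^(s+1)}) : M(ζ_{p^s})]` divides `p` (`s ≥ 1`, `p` odd). -/
theorem pcycDeg_finrank_adjoin_dvd (hp : p.Prime) (hp2 : p ≠ 2) (hs : 1 ≤ s) {ζ : N}
    (hζ : IsPrimitiveRoot ζ (p ^ (s + 1))) :
    Module.finrank M⟮ζ ^ p⟯ N ∣ p := by
  haveI : NeZero (p ^ (s + 1)) := ⟨pow_ne_zero _ hp.ne_zero⟩
  haveI : IsGalois M N := IsCyclotomicExtension.isGalois {p ^ (s + 1)} M N
  haveI : FiniteDimensional M N := IsCyclotomicExtension.finiteDimensional {p ^ (s + 1)} M N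
  set F : IntermediateField M N := M⟮ζ ^ p⟯ with hF
  rw [← IsGalois.card_aut_eq_finrank]
  have hη : IsPrimitiveRoot (ζ ^ p) (p ^ s) := hζ.pow (pow_pos hp.pos _) (pow_succ' p s)
  -- the character on `Gal(N/F)`
  set χ : Gal(N/F) →* (ZMod (p ^ (s + 1)))ˣ :=
    (hζ.autToPow M).comp (AlgEquiv.restrictScalarsHom M) with hχ
  have hχinj : Function.Injective χ :=
    (hζ.autToPow_injective M).comp (AlgEquiv.restrictScalarsHom_injective M)
  haveI : IsCyclic (ZMod (p ^ (s + 1)))ˣ := ZMod.isCyclic_units_of_prime_pow p hp hp2 (s + 1)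
  haveI : IsCyclic Gal(N/F) := isCyclic_of_injective χ hχinj
  -- every element has `p`-th power `1`
  have hpow : ∀ τ : Gal(N/F), τ ^ p = 1 := by
    intro τ
    apply hχinj
    rw [map_pow, map_one]
    apply Units.ext
    rw [Units.val_pow_eq_pow_val, Units.val_one]
    apply pcycDeg_pow_eq_one hs
    set σ : Gal(N/M) := AlgEquiv.restrictScalarsHom M τ with hσ
    have hση : σ (ζ ^ p) = ζ ^ p := by
      have hmem : ζ ^ p ∈ F := mem_adjoin_simple_self M (ζ ^ p)
      exact τ.commutes ⟨ζ ^ p, hmem⟩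
    set a : ZMod (p ^ (s + 1)) := ((hζ.autToPow M σ : (ZMod (p ^ (s + 1)))ˣ) :
      ZMod (p ^ (s + 1))) with ha
    have hspec : ζ ^ a.val = σ ζ := hζ.autToPow_spec M σ
    have h1 : (ζ ^ p) ^ a.val = (ζ ^ p) ^ 1 := by
      rw [pow_one, ← pow_mul, mul_comm, pow_mul, hspec, ← map_pow, hση]
    have hu := hη.isUnit (pow_ne_zero s hp.ne_zero)
    have h2 : hu.unit ^ a.val = hu.unit ^ 1 := Units.ext (by simpa using h1)
    have h3 : orderOf hu.unit = p ^ s := by
      rw [← orderOf_units, IsUnit.unit_spec, ← hη.eq_orderOf]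
    rw [pow_eq_pow_iff_modEq, h3] at h2
    obtain ⟨c, hc⟩ := (Nat.modEq_iff_dvd.mp h2)
    refine ⟨-c, ?_⟩
    have h4 := congrArg (fun z : ℤ => (z : ZMod (p ^ (s + 1)))) hc
    simp only [Int.cast_sub, Int.cast_natCast, Int.cast_mul, Nat.cast_one, Int.cast_one,
      ZMod.natCast_zmod_val] at h4
    show a - 1 = _
    rw [mul_neg, ← h4]
    ring
  obtain ⟨g, hg⟩ := IsCyclic.exists_generator (α := Gal(N/F))
  rw [← orderOf_eq_card_of_forall_mem_zpowers hg]
  exact orderOf_dvd_of_pow_eq_one (hpow g)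

include hcycl in
/-- **the step, degrees**: `d_{s+1} ∈ {d_s, p d_s}`. -/
theorem pcycDeg_finrank_succ (hp : p.Prime) (hp2 : p ≠ 2) (hs : 1 ≤ s)
    (N' : Type*) [Field N'] [Algebra M N'] [IsCyclotomicExtension {p ^ s} M N'] :
    Module.finrank M N = Module.finrank M N' ∨ Module.finrank M N = p * Module.finrank M N' := by
  haveI : NeZero (p ^ (s + 1)) := ⟨pow_ne_zero _ hp.ne_zero⟩
  haveI : NeZero (p ^ s) := ⟨pow_ne_zero _ hp.ne_zero⟩
  haveI : FiniteDimensional M N := IsCyclotomicExtension.finiteDimensional {p ^ (s + 1)} M N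
  have hζ := IsCyclotomicExtension.zeta_spec (p ^ (s + 1)) M N
  set ζ := IsCyclotomicExtension.zeta (p ^ (s + 1)) M N with hζdef
  have hη : IsPrimitiveRoot (ζ ^ p) (p ^ s) := hζ.pow (pow_pos hp.pos _) (pow_succ' p s)
  haveI : IsCyclotomicExtension {p ^ s} M M⟮ζ ^ p⟯ :=
    hη.intermediateField_adjoin_isCyclotomicExtension M
  have h1 : Module.finrank M M⟮ζ ^ p⟯ = Module.finrank M N' :=
    pcycDeg_finrank_eq (p ^ s) M M⟮ζ ^ p⟯ N'
  have h2 := Module.finrank_mul_finrank M M⟮ζ ^ p⟯ N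
  have h3 := pcycDeg_finrank_adjoin_dvd s M N hp hp2 hs hζ
  rw [h1] at h2
  rcases (Nat.dvd_prime hp).mp h3 with h | h
  · left
    rw [← h2, h, mul_one]
  · right
    rw [← h2, h, mul_comm]

end Step

section Base

variable {p : ℕ} (M N : Type*) [Field M] [Field N] [Algebra M N]

/-- **the base**: `M(ζ_p) = M` when `ζ_p ∈ M`. -/
theorem pcycDeg_finrank_one [hcycl : IsCyclotomicExtension {p ^ 1} M N] (hp : p.Prime) {ζp : M}
    (hζp : IsPrimitiveRoot ζp p) : Module.finrank M N = 1 := by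
  haveI : NeZero (p ^ 1) := ⟨pow_ne_zero _ hp.ne_zero⟩
  haveI : IsGalois M N := IsCyclotomicExtension.isGalois {p ^ 1} M N
  haveI : FiniteDimensional M N := IsCyclotomicExtension.finiteDimensional {p ^ 1} M N
  have hζ := IsCyclotomicExtension.zeta_spec (p ^ 1) M N
  rw [← IsGalois.card_aut_eq_finrank, Nat.card_eq_one_iff_unique]
  refine ⟨⟨fun σ τ => ?_⟩, ⟨1⟩⟩
  have h0 : (p : ZMod (p ^ 1)) = 0 := by
    rw [← pow_one (p : ZMod (p ^ 1)), ← Nat.cast_pow, ZMod.natCast_self]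
  have key : ∀ ρ : Gal(N/M), hζ.autToPow M ρ = 1 := by
    intro ρ
    apply Units.ext
    have h := pcycNS_dvd_autToPow_sub_one 1 M N hp hζp hζ ρ
    rw [h0, zero_dvd_iff, sub_eq_zero] at h
    rw [h, Units.val_one]
  apply hζ.autToPow_injective M
  rw [key σ, key τ]

end Base

section Unbounded

variable {p : ℕ} (s : ℕ) (M N : Type*) [Field M] [NumberField M] [Field N] [Algebra M N]
  [hcycl : IsCyclotomicExtension {p ^ s} M N]

include hcycl in
/-- **unboundedness**: `φ(p^s) ≤ [M : ℚ] [M(ζ_{p^s}) : M]`. -/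
theorem pcycDeg_totient_le (hp : p.Prime) :
    (p ^ s).totient ≤ Module.finrank ℚ M * Module.finrank M N := by
  haveI : NeZero (p ^ s) := ⟨pow_ne_zero _ hp.ne_zero⟩
  haveI : NumberField N := IsCyclotomicExtension.numberField {p ^ s} M N
  have hζ := IsCyclotomicExtension.zeta_spec (p ^ s) M N
  set ζ := IsCyclotomicExtension.zeta (p ^ s) M N with hζdef
  haveI : IsCyclotomicExtension {p ^ s} ℚ ℚ⟮ζ⟯ :=
    hζ.intermediateField_adjoin_isCyclotomicExtension ℚ
  have h1 : Module.finrank ℚ ℚ⟮ζ⟯ = (p ^ s).totient :=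
    IsCyclotomicExtension.finrank ℚ⟮ζ⟯
      (Polynomial.cyclotomic.irreducible_rat (pow_pos hp.pos s))
  have h2 : Module.finrank ℚ ℚ⟮ζ⟯ ≤ Module.finrank ℚ N :=
    Submodule.finrank_le (ℚ⟮ζ⟯.toSubalgebra.toSubmodule)
  rw [h1, ← Module.finrank_mul_finrank ℚ M N] at h2
  exact h2

end Unbounded

section Main

variable (M : Type u) [Field M] [NumberField M] {p : ℕ}

/-- **every power of `p` is the degree of a `p`-power cyclotomic layer**: `M ∋ ζ_p`, `p` odd; for
every `k` there is `s ≥ 1` such that `[M(ζ_{p^s}) : M] = p ^ k` (for every model of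
`M(ζ_{p^s})`). -/
theorem pcycDeg_exists_finrank_eq (hp : p.Prime) (hp2 : p ≠ 2) {ζp : M}
    (hζp : IsPrimitiveRoot ζp p) (k : ℕ) :
    ∃ s, 1 ≤ s ∧ ∀ (N : Type v) [Field N] [Algebra M N] [IsCyclotomicExtension {p ^ s} M N],
      Module.finrank M N = p ^ k := by
  have hne : ∀ s, NeZero ((p ^ s : ℕ) : M) := fun s =>
    ⟨by exact_mod_cast pow_ne_zero s hp.ne_zero⟩
  have hne' : ∀ s, NeZero (p ^ s) := fun s => ⟨pow_ne_zero s hp.ne_zero⟩
  set d : ℕ → ℕ := fun s => Module.finrank M (CyclotomicField (p ^ s) M) with hd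
  have h1 : d 1 = 1 := by
    haveI := hne 1
    exact pcycDeg_finrank_one M (CyclotomicField (p ^ 1) M) hp hζp
  have hstep : ∀ s, 1 ≤ s → d (s + 1) = d s ∨ d (s + 1) = p * d s := by
    intro s hs
    haveI := hne s
    haveI := hne (s + 1)
    exact pcycDeg_finrank_succ s M (CyclotomicField (p ^ (s + 1)) M) hp hp2 hs
      (CyclotomicField (p ^ s) M)
  have hunb : ∀ B, ∃ s, 1 ≤ s ∧ B < d s := by
    intro B
    set D := Module.finrank ℚ M with hD
    have hDpos : 0 < D := Module.finrank_pos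
    refine ⟨D * B + 2, by omega, ?_⟩
    haveI := hne (D * B + 2)
    have h : (p ^ (D * B + 2)).totient ≤ D * d (D * B + 2) :=
      pcycDeg_totient_le (D * B + 2) M (CyclotomicField (p ^ (D * B + 2)) M) hp
    rw [Nat.totient_prime_pow hp (by omega)] at h
    have h2 : D * B + 1 < p ^ (D * B + 2 - 1) * (p - 1) := by
      have e : D * B + 2 - 1 = D * B + 1 := by omega
      rw [e]
      calc D * B + 1 < 2 ^ (D * B + 1) := Nat.lt_two_pow_self
        _ ≤ p ^ (D * B + 1) := Nat.pow_le_pow_left hp.two_le _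
        _ ≤ p ^ (D * B + 1) * (p - 1) := Nat.le_mul_of_pos_right _ (by have := hp.two_le; omega)
    by_contra hcon
    rw [not_lt] at hcon
    have : D * d (D * B + 2) ≤ D * B := Nat.mul_le_mul_left D hcon
    omega
  obtain ⟨s, hs1, hs⟩ := pcycDeg_seq hp.one_lt d h1 hstep hunb k
  refine ⟨s, hs1, fun N _ _ _ => ?_⟩
  haveI := hne s
  haveI := hne' s
  rw [← hs]
  exact pcycDeg_finrank_eq (p ^ s) M N (CyclotomicField (p ^ s) M)

end Main

section Restrict

variable (n : ℕ) [NeZero n] (M L L' N : Type*) [Field M] [Field L] [Field L'] [Field N]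
  [Algebra M L] [Algebra L N] [Algebra M N] [IsScalarTower M L N]
  [Algebra M L'] [Algebra L' N] [IsScalarTower M L' N] [Normal M L']
  [hcycl : IsCyclotomicExtension {n} L N]

include hcycl in
/-- **the restriction `Gal(L(ζ)/L) → Gal(M(ζ)/M)` is injective**: if `N = L(ζ_n)` and the subfield
`L'` of `N` (normal over `M`) contains a primitive `n`-th root of unity, an automorphism of `N/L`
which is trivial on `L'` is trivial. -/
theorem pcycDeg_restrict_injective {ζ' : L'} (hζ' : IsPrimitiveRoot ζ' n) :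
    Function.Injective ((AlgEquiv.restrictNormalHom L').comp
      (AlgEquiv.restrictScalarsHom M) : Gal(N/L) →* Gal(L'/M)) := by
  have hζ : IsPrimitiveRoot (algebraMap L' N ζ') n :=
    hζ'.map_of_injective (algebraMap L' N).injective
  intro σ τ hστ
  apply hζ.autToPow_injective L
  apply Units.ext
  have hval : ∀ ρ : Gal(N/L), (algebraMap L' N ζ') ^
      ((hζ.autToPow L ρ : (ZMod n)ˣ) : ZMod n).val = algebraMap L' N
        (((AlgEquiv.restrictNormalHom L').comp (AlgEquiv.restrictScalarsHom M) :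
          Gal(N/L) →* Gal(L'/M)) ρ ζ') := by
    intro ρ
    rw [hζ.autToPow_spec L ρ, MonoidHom.comp_apply]
    exact (AlgEquiv.restrictNormal_commutes (AlgEquiv.restrictScalarsHom M ρ) L' ζ').symm
  have h1 := hval σ
  rw [hστ, ← hval τ] at h1
  have hu := hζ.isUnit (NeZero.ne n)
  have h2 : hu.unit ^ ((hζ.autToPow L σ : (ZMod n)ˣ) : ZMod n).val =
      hu.unit ^ ((hζ.autToPow L τ : (ZMod n)ˣ) : ZMod n).val := Units.ext (by simpa using h1)
  have h3 : orderOf hu.unit = n := by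
    rw [← orderOf_units, IsUnit.unit_spec, ← hζ.eq_orderOf]
  rw [pow_eq_pow_iff_modEq, h3] at h2
  have h4 := (ZMod.natCast_eq_natCast_iff _ _ _).mpr h2
  rwa [ZMod.natCast_zmod_val, ZMod.natCast_zmod_val] at h4

end Restrict

end Fermat.Agent.CFT
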