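/-
CFT, S55 pool, GLOBAL-IDELIC layer (GL14), last glue (helper4): the `p`-primary fundamental class
for EVERY finite Galois layer, and the unconditional class-formation statements.

* `fcFin_exists` : `ℚ ≤ M ≤ L`, `M`, `L` Galois over `ℚ`, `p` odd, `ζ_p ∈ M`:
  `∃ w ∈ H²(Gal(L/M), C_L)`, `p ^ v_p([L : M]) ∣ ord w` (helper18's `fundClass_of_cross` at the
  level `r` chosen by helper11's `pcycDeg_exists_finrank_eq`, cyclic layers by
  `idCyclicLayer_holds`);
* `fcFin_exists_of_tower` : the same over an arbitrary intermediate base `M₀ ≤ M ≤ L` (`M₀`, `L`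
  Galois over `ℚ`, `ζ_p ∈ M₀`; `M` need not be Galois over `ℚ`), by restriction (helper17);
* unconditional corollaries (`fcFin_natCard_torsion_H2_le`, `fcFin_natCard_H2`, `fcFin_isZero_H3`,
  `fcFin_H3_eq_zero_of_pow_nsmul`, `fcFin_H1_eq_zero_of_nsmul`).
-/
import Mathlib
import Fermat.Agent.CFT.Idele.FundClass
import Fermat.Agent.CFT.Idele.FundClassRes
import Fermat.Agent.CFT.Idele.PCycloDegree
import Fermat.Agent.CFT.Idele.DevissageFinal

set_option autoImplicit false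
set_option linter.unusedSectionVars false
set_option linter.style.haveILetI false

open CategoryTheory groupCohomology Rep NumberField IsDedekindDomain IntermediateField
  Rat.HeightOneSpectrum
open scoped TensorProduct Fermat.Agent.CFT.TensorGal Fermat.Agent.CFT.IdeleAct

namespace Fermat.Agent.CFT

attribute [local instance] additiveDistribMulAction ideleGroupActionOf ideleClassActionOf
  idClassCommGroup

section Galois

variable (M L : Type) [Field M] [NumberField M] [Field L] [NumberField L] [Algebra M L]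
  [IsGalois ℚ M] [IsGalois ℚ L] [IsGalois M L]

/-- the fundamental class, `P`-primary part, `P = natGenerator v₀`. -/
theorem fcFin_exists_natGenerator (v₀ : HeightOneSpectrum (𝓞 ℚ)) (hodd : natGenerator v₀ ≠ 2)
    {ζp : M} (hζp : IsPrimitiveRoot ζp (natGenerator v₀)) :
    ∃ w : groupCohomology (idClassRep ℚ M L) 2,
      natGenerator v₀ ^ (Nat.card Gal(L/M)).factorization (natGenerator v₀) ∣ addOrderOf w := by
  have hp : (natGenerator v₀).Prime := prime_natGenerator v₀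
  haveI : Fact (natGenerator v₀).Prime := ⟨hp⟩
  set k := (Nat.card Gal(L/M)).factorization (natGenerator v₀) with hk
  obtain ⟨s, -, hs⟩ := pcycDeg_exists_finrank_eq M hp hodd hζp k
  haveI : NeZero (natGenerator v₀ ^ s) := ⟨pow_ne_zero s hp.ne_zero⟩
  have hfr : Module.finrank M ↥(crossE (natGenerator v₀ ^ s) M L) = natGenerator v₀ ^ k :=
    hs ↥(crossE (natGenerator v₀ ^ s) M L)
  have hcardE : Nat.card Gal(↥(crossE (natGenerator v₀ ^ s) M L)/M) = natGenerator v₀ ^ k := by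
    rw [IsGalois.card_aut_eq_finrank, hfr]
  have hdvd : Nat.card Gal(↥(crossE (natGenerator v₀ ^ s) M L)/M) ∣ Nat.card Gal(L/M) := by
    rw [hcardE]
    exact Nat.ordProj_dvd _ _
  obtain ⟨w, hw⟩ := fundClass_of_cross v₀ s M L hodd
    (idCyclicLayer_holds ℚ (natGenerator v₀) hodd) hζp hdvd
  exact ⟨w, by rw [hw, hcardE]⟩

/-- **(GL14)**: the `p`-primary fundamental class of a Galois layer `L/M` of number fields Galois
over `ℚ`, `p` odd, `ζ_p ∈ M`. -/
theorem fcFin_exists (p : ℕ) [hp : Fact p.Prime] (hp2 : p ≠ 2)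
    (hζ : ∃ ζ : M, IsPrimitiveRoot ζ p) :
    ∃ w : groupCohomology (idClassRep ℚ M L) 2,
      p ^ (Nat.card Gal(L/M)).factorization p ∣ addOrderOf w := by
  obtain ⟨ζ, hζ⟩ := hζ
  obtain ⟨v₀, rfl⟩ : ∃ v₀ : HeightOneSpectrum (𝓞 ℚ), natGenerator v₀ = p :=
    ⟨pcycPlace p hp.out, natGenerator_pcycPlace p hp.out⟩
  exact fcFin_exists_natGenerator M L v₀ hp2 hζ

end Galois

section Tower

variable (M₀ M L : Type) [Field M₀] [NumberField M₀] [Field M] [NumberField M]
  [Field L] [NumberField L] [Algebra M₀ M] [Algebra M L] [Algebra M₀ L] [IsScalarTower M₀ M L]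
  [IsGalois ℚ M₀] [IsGalois ℚ L] [IsGalois M₀ L]
  (p : ℕ) [hp : Fact p.Prime] (hp2 : p ≠ 2) (hζ : ∃ ζ : M₀, IsPrimitiveRoot ζ p)

include hp2 hζ

/-- **(GL14) over an arbitrary intermediate base**: `ℚ ≤ M₀ ≤ M ≤ L`, `M₀` and `L` Galois over
`ℚ`, `ζ_p ∈ M₀`; `M` arbitrary. -/
theorem fcFin_exists_of_tower :
    ∃ w : groupCohomology (idClassRep ℚ M L) 2,
      p ^ (Nat.card Gal(L/M)).factorization p ∣ addOrderOf w :=
  fcR_exists_of_tower ℚ M₀ M L p (fcFin_exists M₀ L p hp2 hζ)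

variable [IsGalois M L]

omit hp2 hζ in
theorem fcFin_exists_root (hζ : ∃ ζ : M₀, IsPrimitiveRoot ζ p) :
    ∃ ζ : M, IsPrimitiveRoot ζ p := by
  obtain ⟨ζ, hζ⟩ := hζ
  exact ⟨algebraMap M₀ M ζ, hζ.map_of_injective (algebraMap M₀ M).injective⟩

/-- **`|H²(Gal(L/M), C_L)[p]| ≤ p`**, unconditional. -/
theorem fcFin_natCard_torsion_H2_le :
    Finite (nsmulAddMonoidHom (α := groupCohomology (idClassRep ℚ M L) 2) p).ker ∧
      Nat.card (nsmulAddMonoidHom (α := groupCohomology (idClassRep ℚ M L) 2) p).ker ≤ p := by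
  obtain ⟨w, hw⟩ := fcFin_exists_of_tower M₀ M L p hp2 hζ
  exact idClassF_natCard_torsion_H2_le ℚ M L p hp2 (fcFin_exists_root M₀ M p hζ) hw

/-- `H¹(Gal(L/M), C_L)[p] = 0`. -/
theorem fcFin_H1_eq_zero_of_nsmul (x : groupCohomology (idClassRep ℚ M L) 1)
    (hx : p • x = 0) : x = 0 :=
  idClassF_H1_eq_zero_of_nsmul ℚ M L p hp2 (fcFin_exists_root M₀ M p hζ) x hx

/-- `|H²(S, C_L)| = |S|` for every `p`-subgroup `S ≤ Gal(L/M)`. -/
theorem fcFin_natCard_H2 (S : Subgroup Gal(L/M)) (hS : IsPGroup p S) :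
    Nat.card (groupCohomology (res S.subtype (idClassRep ℚ M L)) 2) = Nat.card S := by
  obtain ⟨w, hw⟩ := fcFin_exists_of_tower M₀ M L p hp2 hζ
  exact idClassF_natCard_H2 ℚ M L p hp2 (fcFin_exists_root M₀ M p hζ) hw S hS

/-- `H³(S, C_L) = 0` for every `p`-subgroup `S ≤ Gal(L/M)`. -/
theorem fcFin_isZero_H3 (S : Subgroup Gal(L/M)) (hS : IsPGroup p S) :
    Limits.IsZero (groupCohomology (res S.subtype (idClassRep ℚ M L)) 3) := by
  obtain ⟨w, hw⟩ := fcFin_exists_of_tower M₀ M L p hp2 hζ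
  exact idClassF_isZero_H3 ℚ M L p hp2 (fcFin_exists_root M₀ M p hζ) hw S hS

/-- `H³(Gal(L/M), C_L)` has no `p`-torsion. -/
theorem fcFin_H3_eq_zero_of_pow_nsmul (x : groupCohomology (idClassRep ℚ M L) 3) {j : ℕ}
    (hx : p ^ j • x = 0) : x = 0 := by
  obtain ⟨w, hw⟩ := fcFin_exists_of_tower M₀ M L p hp2 hζ
  exact idClassF_H3_eq_zero_of_pow_nsmul ℚ M L p hp2 (fcFin_exists_root M₀ M p hζ) hw x hx

end Tower

end Fermat.Agent.CFT
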