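/-
S55 GLOBAL bridge (GB3-abs) (helper1): `H¹(Gal(M/F), T-units of M) ↪ Cl_T(F)` at finite level.

`F ⊆ M` number fields, `M/F` Galois, `T` a set of primes of `F` such that `M/F` is unramified off
`T` in valuation form (`hval`).  For a multiplicative `1`-cocycle `c : Gal(M/F) → Mˣ` with values
in the units off `T`:

* `sUH1_exists_divisor` : `c g = g • x / x` (Hilbert 90) and the divisor of `x` off `T` is pulled
  back from a divisor `D` of `F`;
* `SUH1Rel c D` (the relation "`D` is a divisor of `c`"), uniqueness of `D` modulo `princOff F T`;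
* `sUH1_rel_mem_princOff_iff` : `D ∈ princOff F T` iff `c` is the coboundary of a unit off `T`
  (injectivity of `H¹(G, U_{M,T}) → Cl_T(F)`);
* `sUH1_rel_of_capitulates` : the classes in the image are exactly those which become principal
  off `T` in `M`.
-/
import Fermat.Agent.CFT.Global.PrimeDivisor

set_option autoImplicit false
set_option linter.unusedSectionVars false

namespace Fermat.Agent.CFT

open IsDedekindDomain IsDedekindDomain.HeightOneSpectrum NumberField groupCohomology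

attribute [local instance] heightOneSpectrumMulAction

section Defs

variable (F : Type*) [Field F] [NumberField F]

/-- The divisors of `F` which are principal off `T`: `D v = div(a) v` for all `v ∉ T`, some
`a : Fˣ`.  (Contains all divisors supported in `T`.) -/
def princOff (T : Set (HeightOneSpectrum (𝓞 F))) : AddSubgroup (HeightOneSpectrum (𝓞 F) →₀ ℤ) where
  carrier := {D | ∃ a : Fˣ, ∀ v, v ∉ T → D v = divFun (𝓞 F) F a v}
  zero_mem' := ⟨1, fun v _ => by simp [divFun_one]⟩
  add_mem' := by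
    rintro D D' ⟨a, ha⟩ ⟨a', ha'⟩
    exact ⟨a * a', fun v hv => by rw [Finsupp.add_apply, ha v hv, ha' v hv, divFun_mul]⟩
  neg_mem' := by
    rintro D ⟨a, ha⟩
    exact ⟨a⁻¹, fun v hv => by rw [Finsupp.neg_apply, ha v hv, divFun_inv]⟩

variable {F} in
theorem mem_princOff_iff {T : Set (HeightOneSpectrum (𝓞 F))} {D : HeightOneSpectrum (𝓞 F) →₀ ℤ} :
    D ∈ princOff F T ↔ ∃ a : Fˣ, ∀ v, v ∉ T → D v = divFun (𝓞 F) F a v := Iff.rfl

/-- `Cl_T(F)`: divisors modulo divisors principal off `T` (an additive group). -/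
abbrev clT (T : Set (HeightOneSpectrum (𝓞 F))) : Type _ :=
  (HeightOneSpectrum (𝓞 F) →₀ ℤ) ⧸ princOff F T

end Defs

section Main

variable (F M : Type*) [Field F] [Field M] [NumberField F] [NumberField M] [Algebra F M]
  [IsGalois F M] (T : Set (HeightOneSpectrum (𝓞 F)))

/-- `D` is a divisor (off `T`) of the cocycle `c`: `c = ∂x` and `div x = D ∘ primeBelow` off `T`. -/
def SUH1Rel (c : Gal(M/F) → Mˣ) (D : HeightOneSpectrum (𝓞 F) →₀ ℤ) : Prop :=
  ∃ x : Mˣ, (∀ g, c g = g • x / x) ∧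
    ∀ w : HeightOneSpectrum (𝓞 M), primeBelow F M w ∉ T →
      divFun (𝓞 M) M x w = D (primeBelow F M w)

variable {F M}

theorem sUH1_divFun_smul (g : Gal(M/F)) (x : Mˣ) (w : HeightOneSpectrum (𝓞 M)) :
    divFun (𝓞 M) M (g • x) (g • w) = divFun (𝓞 M) M x w := by
  rw [divFun_eq_iff, ← valuation_eq_exp_divFun]
  exact hos_smul_valuation F M g w (x : M)

theorem sUH1_divFun_eq_zero_iff (x : Mˣ) (w : HeightOneSpectrum (𝓞 M)) :
    divFun (𝓞 M) M x w = 0 ↔ w.valuation M (x : M) = 1 := by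
  rw [divFun_eq_iff, WithZero.exp_zero]

theorem sUH1_divFun_div (x y : Mˣ) (w : HeightOneSpectrum (𝓞 M)) :
    divFun (𝓞 M) M (x / y) w = divFun (𝓞 M) M x w - divFun (𝓞 M) M y w := by
  rw [div_eq_mul_inv, divFun_mul, divFun_inv, sub_eq_add_neg]

end Main


section Results

variable {F M : Type*} [Field F] [Field M] [NumberField F] [NumberField M] [Algebra F M]
  [IsGalois F M] (T : Set (HeightOneSpectrum (𝓞 F)))

/-- for a coboundary `c = ∂x` with values in the units off `T`, the divisor of `x` off `T` is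
constant on the fibres of `primeBelow`. -/
theorem sUH1_divFun_eq_of_primeBelow_eq (x : Mˣ)
    (hcT : ∀ (g : Gal(M/F)) (w : HeightOneSpectrum (𝓞 M)), primeBelow F M w ∉ T →
      w.valuation M ((g • x / x : Mˣ) : M) = 1)
    {w w' : HeightOneSpectrum (𝓞 M)} (hw : primeBelow F M w ∉ T)
    (h : primeBelow F M w = primeBelow F M w') :
    divFun (𝓞 M) M x w = divFun (𝓞 M) M x w' := by
  obtain ⟨g, rfl⟩ := exists_smul_eq_of_primeBelow_eq F M h
  have h1 : divFun (𝓞 M) M (g • x) (g • w) = divFun (𝓞 M) M x w := sUH1_divFun_smul g x w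
  have hw' : primeBelow F M (g • w) ∉ T := by rwa [primeBelow_smul]
  have h2 : divFun (𝓞 M) M (g • x / x) (g • w) = 0 :=
    (sUH1_divFun_eq_zero_iff _ _).2 (hcT g (g • w) hw')
  rw [sUH1_divFun_div] at h2
  omega

/-- the divisor of `F` obtained by descending the divisor of `x` off `T`. -/
theorem sUH1_exists_descent (x : Mˣ)
    (hcT : ∀ (g : Gal(M/F)) (w : HeightOneSpectrum (𝓞 M)), primeBelow F M w ∉ T →
      w.valuation M ((g • x / x : Mˣ) : M) = 1) :
    ∃ D : HeightOneSpectrum (𝓞 F) →₀ ℤ, ∀ w : HeightOneSpectrum (𝓞 M), primeBelow F M w ∉ T →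
      divFun (𝓞 M) M x w = D (primeBelow F M w) := by
  classical
  let f : HeightOneSpectrum (𝓞 F) → ℤ := fun v =>
    if v ∈ T then 0 else divFun (𝓞 M) M x (Classical.choose (primeBelow_surjective F M v))
  have hfw : ∀ w : HeightOneSpectrum (𝓞 M), primeBelow F M w ∉ T →
      f (primeBelow F M w) = divFun (𝓞 M) M x w := by
    intro w hw
    simp only [f, if_neg hw]
    have hspec := Classical.choose_spec (primeBelow_surjective F M (primeBelow F M w))
    exact (sUH1_divFun_eq_of_primeBelow_eq T x hcT hw hspec.symm).symm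
  have hfin : (Function.support f).Finite := by
    refine ((finite_divFun_support (𝓞 M) M x).image (primeBelow F M)).subset ?_
    intro v hv
    have hvT : v ∉ T := by
      intro h
      apply hv
      simp only [f, if_pos h]
    obtain ⟨w, rfl⟩ := primeBelow_surjective F M v
    refine ⟨w, ?_, rfl⟩
    simp only [Set.mem_ofPred_eq]
    rw [← hfw w hvT]
    exact hv
  refine ⟨Finsupp.ofSupportFinite f hfin, fun w hw => ?_⟩
  rw [Finsupp.ofSupportFinite_coe, hfw w hw]

/-- **(A1)** Hilbert 90 + descent: every cocycle with values in the units off `T` has a divisor. -/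
theorem sUH1_exists_divisor (c : Gal(M/F) → Mˣ) (hc : IsMulCocycle₁ c)
    (hcT : ∀ (g : Gal(M/F)) (w : HeightOneSpectrum (𝓞 M)), primeBelow F M w ∉ T →
      w.valuation M ((c g : Mˣ) : M) = 1) :
    ∃ D, SUH1Rel F M T c D := by
  obtain ⟨x, hx⟩ := isMulCoboundary₁_of_isMulCocycle₁_of_aut_to_units c hc
  obtain ⟨D, hD⟩ := sUH1_exists_descent T x (fun g w hw => by rw [hx g]; exact hcT g w hw)
  exact ⟨D, x, fun g => (hx g).symm, hD⟩

/-- an element of `Mˣ` fixed by the Galois group comes from `Fˣ`. -/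
theorem sUH1_exists_units_map_eq (y : Mˣ) (hy : ∀ g : Gal(M/F), g • y = y) :
    ∃ a : Fˣ, Units.map (algebraMap F M : F →* M) a = y := by
  have h1 : ∀ g : Gal(M/F), g (y : M) = (y : M) := fun g => by
    have := congrArg (fun u : Mˣ => (u : M)) (hy g)
    exact this
  obtain ⟨a, ha⟩ := (IsGalois.mem_range_algebraMap_iff_fixed (F := F) (y : M)).2 h1
  have ha0 : a ≠ 0 := by
    rintro rfl
    rw [map_zero] at ha
    exact y.ne_zero ha.symm
  refine ⟨Units.mk0 a ha0, ?_⟩
  ext
  exact ha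

variable (hval : ∀ w : HeightOneSpectrum (𝓞 M), primeBelow F M w ∉ T → ∀ a : F,
  w.valuation M (algebraMap F M a) = (primeBelow F M w).valuation F a)

include hval in
theorem sUH1_divFun_map (a : Fˣ) (w : HeightOneSpectrum (𝓞 M)) (hw : primeBelow F M w ∉ T) :
    divFun (𝓞 M) M (Units.map (algebraMap F M : F →* M) a) w =
      divFun (𝓞 F) F a (primeBelow F M w) := by
  rw [divFun_eq_iff, ← valuation_eq_exp_divFun]
  exact hval w hw (a : F)

include hval in
/-- **(A2), uniqueness**: two divisors of the same cocycle differ by a divisor principal off `T`. -/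
theorem sUH1_rel_unique {c : Gal(M/F) → Mˣ} {D D' : HeightOneSpectrum (𝓞 F) →₀ ℤ}
    (h : SUH1Rel F M T c D) (h' : SUH1Rel F M T c D') : D' - D ∈ princOff F T := by
  obtain ⟨x, hx, hD⟩ := h
  obtain ⟨x', hx', hD'⟩ := h'
  have hfix : ∀ g : Gal(M/F), g • (x' / x) = x' / x := by
    intro g
    have h1 : g • x / x = g • x' / x' := by rw [← hx g, ← hx' g]
    rw [smul_div', div_eq_div_iff_mul_eq_mul]
    rw [div_eq_div_iff_mul_eq_mul] at h1
    rw [← h1, mul_comm]
  obtain ⟨a, ha⟩ := sUH1_exists_units_map_eq (x' / x) hfix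
  refine ⟨a, fun v hv => ?_⟩
  obtain ⟨w, rfl⟩ := primeBelow_surjective F M v
  rw [Finsupp.sub_apply, ← hD w hv, ← hD' w hv, ← sUH1_divFun_map T hval a w hv, ha,
    sUH1_divFun_div]

theorem sUH1_smul_units_map (g : Gal(M/F)) (a : Fˣ) :
    g • Units.map (algebraMap F M : F →* M) a = Units.map (algebraMap F M : F →* M) a := by
  ext
  exact g.commutes (a : F)

include hval in
/-- **(A2), injectivity**: the divisor of a cocycle is principal off `T` iff the cocycle is the
coboundary of a unit off `T`. -/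
theorem sUH1_rel_mem_princOff_iff {c : Gal(M/F) → Mˣ} {D : HeightOneSpectrum (𝓞 F) →₀ ℤ}
    (h : SUH1Rel F M T c D) :
    D ∈ princOff F T ↔ ∃ u : Mˣ, (∀ w : HeightOneSpectrum (𝓞 M), primeBelow F M w ∉ T →
      w.valuation M (u : M) = 1) ∧ ∀ g, c g = g • u / u := by
  obtain ⟨x, hx, hD⟩ := h
  constructor
  · rintro ⟨a, ha⟩
    refine ⟨x / Units.map (algebraMap F M : F →* M) a, fun w hw => ?_, fun g => ?_⟩
    · rw [← sUH1_divFun_eq_zero_iff, sUH1_divFun_div, hD w hw, ha _ hw,
        sUH1_divFun_map T hval a w hw, sub_self]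
    · rw [hx g, smul_div', sUH1_smul_units_map, div_div_div_cancel_right]
  · rintro ⟨u, hu, hcu⟩
    have hfix : ∀ g : Gal(M/F), g • (x / u) = x / u := by
      intro g
      have h1 : g • x / x = g • u / u := by rw [← hx g, ← hcu g]
      rw [smul_div', div_eq_div_iff_mul_eq_mul]
      rw [div_eq_div_iff_mul_eq_mul] at h1
      rw [h1, mul_comm]
    obtain ⟨a, ha⟩ := sUH1_exists_units_map_eq (x / u) hfix
    refine ⟨a, fun v hv => ?_⟩
    obtain ⟨w, rfl⟩ := primeBelow_surjective F M v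
    rw [← hD w hv, ← sUH1_divFun_map T hval a w hv, ha, sUH1_divFun_div,
      (sUH1_divFun_eq_zero_iff u w).2 (hu w hv), sub_zero]

/-- **(A3)**: a divisor of `F` which becomes principal off `T` in `M` is the divisor of a cocycle
with values in the units off `T`. -/
theorem sUH1_rel_of_capitulates (D : HeightOneSpectrum (𝓞 F) →₀ ℤ) (x : Mˣ)
    (hx : ∀ w : HeightOneSpectrum (𝓞 M), primeBelow F M w ∉ T →
      divFun (𝓞 M) M x w = D (primeBelow F M w)) :
    IsMulCocycle₁ (fun g : Gal(M/F) => g • x / x) ∧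
      (∀ (g : Gal(M/F)) (w : HeightOneSpectrum (𝓞 M)), primeBelow F M w ∉ T →
        w.valuation M ((g • x / x : Mˣ) : M) = 1) ∧
      SUH1Rel F M T (fun g : Gal(M/F) => g • x / x) D := by
  refine ⟨fun g h => ?_, fun g w hw => ?_, x, fun g => rfl, hx⟩
  · show (g * h) • x / x = g • (h • x / x) * (g • x / x)
    rw [smul_div', mul_smul, div_mul_div_cancel]
  · rw [← sUH1_divFun_eq_zero_iff, sUH1_divFun_div]
    have h1 : divFun (𝓞 M) M (g • x) w = divFun (𝓞 M) M x (g⁻¹ • w) := by
      have := sUH1_divFun_smul g x (g⁻¹ • w)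
      rwa [smul_inv_smul] at this
    have hw' : primeBelow F M (g⁻¹ • w) ∉ T := by rwa [primeBelow_smul]
    rw [h1, hx _ hw', hx _ hw, primeBelow_smul, sub_self]

/-- multiplicativity of the relation. -/
theorem SUH1Rel.mul {c c' : Gal(M/F) → Mˣ} {D D' : HeightOneSpectrum (𝓞 F) →₀ ℤ}
    (h : SUH1Rel F M T c D) (h' : SUH1Rel F M T c' D') : SUH1Rel F M T (c * c') (D + D') := by
  obtain ⟨x, hx, hD⟩ := h
  obtain ⟨x', hx', hD'⟩ := h'
  refine ⟨x * x', fun g => ?_, fun w hw => ?_⟩
  · rw [Pi.mul_apply, hx g, hx' g, smul_mul', div_mul_div_comm]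
  · rw [divFun_mul, hD w hw, hD' w hw, Finsupp.add_apply]

end Results

section Fin
variable (F : Type*) [Field F] [NumberField F] (T : Set (HeightOneSpectrum (𝓞 F)))

theorem range_divHom_le_princOff : (divHom (𝓞 F) F).range ≤ princOff F T := by
  rintro D ⟨a, rfl⟩
  exact ⟨a.toMul, fun v _ => rfl⟩

instance princOff_finiteIndex : (princOff F T).FiniteIndex :=
  haveI := divHom_range_finiteIndex (𝓞 F) F
  AddSubgroup.finiteIndex_of_le (range_divHom_le_princOff F T)

instance clT_finite : Finite (clT F T) := AddSubgroup.finite_quotient_of_finiteIndex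

end Fin

section Generic

variable (F M : Type*) [Field F] [Field M] [NumberField F] [NumberField M] [Algebra F M]
  [IsGalois F M] (T : Set (HeightOneSpectrum (𝓞 F)))
  {G : Type*} [Group G] [Finite G] [MulSemiringAction G M] [IsGaloisGroup G F M]

/-- generic-group form of `SUH1Rel`: `g • x = c g * x` and `div x = D ∘ primeBelow` off `T`. -/
def SUH1RelG (c : G → Mˣ) (D : HeightOneSpectrum (𝓞 F) →₀ ℤ) : Prop :=
  ∃ x : Mˣ, (∀ g : G, g • (x : M) = (c g : M) * (x : M)) ∧
    ∀ w : HeightOneSpectrum (𝓞 M), primeBelow F M w ∉ T →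
      divFun (𝓞 M) M x w = D (primeBelow F M w)

variable {F M}

theorem sUH1_galSmul_eq (σ : Gal(M/F)) (y : M) :
    ((IsGaloisGroup.mulEquivAlgEquiv G F M).symm σ) • y = σ y := by
  have h := IsGaloisGroup.mulEquivAlgEquiv_apply_apply G F M
    ((IsGaloisGroup.mulEquivAlgEquiv G F M).symm σ) y
  rw [MulEquiv.apply_symm_apply] at h
  exact h.symm

theorem sUH1_relG_iff (c : G → Mˣ) (D : HeightOneSpectrum (𝓞 F) →₀ ℤ) :
    SUH1RelG F M T c D ↔
      SUH1Rel F M T (fun σ => c ((IsGaloisGroup.mulEquivAlgEquiv G F M).symm σ)) D := by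
  constructor
  · rintro ⟨x, hx, hD⟩
    refine ⟨x, fun σ => ?_, hD⟩
    rw [eq_div_iff_mul_eq']
    ext
    have := hx ((IsGaloisGroup.mulEquivAlgEquiv G F M).symm σ)
    rw [sUH1_galSmul_eq] at this
    rw [Units.val_mul]
    exact this.symm
  · rintro ⟨x, hx, hD⟩
    refine ⟨x, fun g => ?_, hD⟩
    have h1 := hx (IsGaloisGroup.mulEquivAlgEquiv G F M g)
    simp only [MulEquiv.symm_apply_apply] at h1
    have h2 : (c g : M) = (((IsGaloisGroup.mulEquivAlgEquiv G F M g) • x / x : Mˣ) : M) := by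
      rw [h1]
    rw [h2, Units.val_div_eq_div_val, div_mul_cancel₀ _ x.ne_zero]
    exact (IsGaloisGroup.mulEquivAlgEquiv_apply_apply G F M g (x : M)).symm

/-- **(A1), generic group.** -/
theorem sUH1G_exists_divisor (c : G → Mˣ)
    (hc : ∀ g h : G, (c (g * h) : M) = g • (c h : M) * (c g : M))
    (hcT : ∀ (g : G) (w : HeightOneSpectrum (𝓞 M)), primeBelow F M w ∉ T →
      w.valuation M (c g : M) = 1) :
    ∃ D, SUH1RelG F M T c D := by
  have hc' : IsMulCocycle₁ (fun σ : Gal(M/F) => c ((IsGaloisGroup.mulEquivAlgEquiv G F M).symm σ)) := by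
    intro σ τ
    ext
    simp only [map_mul, Units.val_mul]
    rw [hc, sUH1_galSmul_eq]
    rfl
  obtain ⟨D, hD⟩ := sUH1_exists_divisor T _ hc' (fun σ w hw => hcT _ w hw)
  exact ⟨D, (sUH1_relG_iff T c D).2 hD⟩

variable (hval : ∀ w : HeightOneSpectrum (𝓞 M), primeBelow F M w ∉ T → ∀ a : F,
  w.valuation M (algebraMap F M a) = (primeBelow F M w).valuation F a)

include hval in
/-- **(A2), generic group: uniqueness.** -/
theorem sUH1G_rel_unique {c : G → Mˣ} {D D' : HeightOneSpectrum (𝓞 F) →₀ ℤ}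
    (h : SUH1RelG F M T c D) (h' : SUH1RelG F M T c D') : D' - D ∈ princOff F T :=
  sUH1_rel_unique T hval ((sUH1_relG_iff T c D).1 h) ((sUH1_relG_iff T c D').1 h')

include hval in
/-- **(A2), generic group: injectivity.** -/
theorem sUH1G_rel_mem_princOff_iff {c : G → Mˣ} {D : HeightOneSpectrum (𝓞 F) →₀ ℤ}
    (h : SUH1RelG F M T c D) :
    D ∈ princOff F T ↔ ∃ u : Mˣ, (∀ w : HeightOneSpectrum (𝓞 M), primeBelow F M w ∉ T →
      w.valuation M (u : M) = 1) ∧ ∀ g : G, g • (u : M) = (c g : M) * (u : M) := by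
  rw [sUH1_rel_mem_princOff_iff T hval ((sUH1_relG_iff T c D).1 h)]
  constructor
  · rintro ⟨u, hu, hcu⟩
    refine ⟨u, hu, fun g => ?_⟩
    have h1 := hcu (IsGaloisGroup.mulEquivAlgEquiv G F M g)
    simp only [MulEquiv.symm_apply_apply] at h1
    have h2 : (c g : M) = (((IsGaloisGroup.mulEquivAlgEquiv G F M g) • u / u : Mˣ) : M) := by
      rw [h1]
    rw [h2, Units.val_div_eq_div_val, div_mul_cancel₀ _ u.ne_zero]
    exact (IsGaloisGroup.mulEquivAlgEquiv_apply_apply G F M g (u : M)).symm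
  · rintro ⟨u, hu, hcu⟩
    refine ⟨u, hu, fun σ => ?_⟩
    rw [eq_div_iff_mul_eq']
    ext
    have := hcu ((IsGaloisGroup.mulEquivAlgEquiv G F M).symm σ)
    rw [sUH1_galSmul_eq] at this
    rw [Units.val_mul]
    exact this.symm

/-- **(A3), generic group**: if `D` becomes principal off `T` in `M`, generated by `x`, then
`g • x / x` is a unit off `T` for all `g`, and `D` is a divisor of any cocycle `c` with
`g • x = c g * x`. -/
theorem sUH1G_of_capitulates (D : HeightOneSpectrum (𝓞 F) →₀ ℤ) (x : Mˣ)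
    (hx : ∀ w : HeightOneSpectrum (𝓞 M), primeBelow F M w ∉ T →
      divFun (𝓞 M) M x w = D (primeBelow F M w)) (g : G) (w : HeightOneSpectrum (𝓞 M))
    (hw : primeBelow F M w ∉ T) : w.valuation M (g • (x : M) / (x : M)) = 1 := by
  have h := (sUH1_rel_of_capitulates T D x hx).2.1 (IsGaloisGroup.mulEquivAlgEquiv G F M g) w hw
  rw [Units.val_div_eq_div_val] at h
  rw [← IsGaloisGroup.mulEquivAlgEquiv_apply_apply G F M g (x : M)]
  exact h

theorem SUH1RelG.of_capitulates (D : HeightOneSpectrum (𝓞 F) →₀ ℤ) (x : Mˣ)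
    (hx : ∀ w : HeightOneSpectrum (𝓞 M), primeBelow F M w ∉ T →
      divFun (𝓞 M) M x w = D (primeBelow F M w)) (c : G → Mˣ)
    (hc : ∀ g : G, g • (x : M) = (c g : M) * (x : M)) : SUH1RelG F M T c D :=
  ⟨x, hc, hx⟩

theorem SUH1RelG.mul {c c' : G → Mˣ} {D D' : HeightOneSpectrum (𝓞 F) →₀ ℤ}
    (h : SUH1RelG F M T c D) (h' : SUH1RelG F M T c' D') :
    SUH1RelG F M T (c * c') (D + D') := by
  obtain ⟨x, hx, hD⟩ := h
  obtain ⟨x', hx', hD'⟩ := h'
  refine ⟨x * x', fun g => ?_, fun w hw => ?_⟩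
  · rw [Units.val_mul, smul_mul', hx g, hx' g, Pi.mul_apply, Units.val_mul]
    ring
  · rw [divFun_mul, hD w hw, hD' w hw, Finsupp.add_apply]

end Generic

end Fermat.Agent.CFT
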