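import Mathlib
import Fermat.Agent.CFT.Idele.IdeleArtinRecip
import Fermat.Agent.CFT.Idele.CycloExist

set_option autoImplicit false
set_option linter.unusedSectionVars false

/-!
# CFT, S55 global-idelic stream, chunk (GL13b), part 5: the idelic Artin map of (subextensions of)
cyclotomic extensions

* `IsIntegralArtinModulus.of_tower`: an integral Artin modulus of `M / K` is one for every
  subextension `L / K` which is unramified outside `m`;
* `isIntegralArtinModulus_of_isCyclotomicExtension`: `n` is an integral Artin modulus of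
  `K(ζ_n) / K` for `K` totally complex;
* `isIntegralArtinModulus_of_odd`: `n` is an integral Artin modulus of every subextension of odd
  degree of `K(ζ_n) / K` (any number field `K`, e.g. `K = ℚ`).
-/

open NumberField IsDedekindDomain WithZero
open scoped Pointwise IsMulCommutative

namespace Fermat.Agent.CFT

section Tower

variable (K L M : Type*) [Field K] [NumberField K] [Field L] [NumberField L] [Field M]
  [NumberField M] [Algebra K L] [Algebra L M] [Algebra K M] [IsScalarTower K L M] [IsGalois K L]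
  [IsGalois K M] [IsMulCommutative Gal(M/K)] [IsMulCommutative Gal(L/K)]

/-- restriction of the Artin symbol of an ideal all of whose prime factors are unramified in the
subextension. -/
theorem restrictNormalHom_artinIdeal_of_unram (I : Ideal (𝓞 K))
    (hur : ∀ 𝔮 : Ideal (𝓞 K), 𝔮.IsMaximal → I ≤ 𝔮 → IsUnramifiedAtPrime K L 𝔮) :
    AlgEquiv.restrictNormalHom L (artinIdeal K M I) = artinIdeal K L I := by
  rw [artinIdeal, artinIdeal, map_multiset_prod, Multiset.map_map]
  congr 1
  refine Multiset.map_congr rfl fun 𝔮 h𝔮mem => ?_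
  by_cases h𝔮 : 𝔮.IsMaximal
  · rw [Function.comp_apply, frobIdeal_of_isMaximal, frobIdeal_of_isMaximal]
    refine restrictNormalHom_frobOf K L M 𝔮 (hur 𝔮 h𝔮 ?_)
    exact Ideal.le_of_dvd (UniqueFactorizationMonoid.dvd_of_mem_normalizedFactors h𝔮mem)
  · rw [Function.comp_apply, frobIdeal, frobIdeal, dif_neg h𝔮, dif_neg h𝔮, map_one]

variable {K M} in
/-- an integral Artin modulus of `M / K` is one for every subextension unramified outside it. -/
theorem IsIntegralArtinModulus.of_tower {m : 𝓞 K} (h : IsIntegralArtinModulus K M m)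
    (hur : ∀ v : HeightOneSpectrum (𝓞 K), m ∉ v.asIdeal → IsUnramifiedAtPrime K L v.asIdeal) :
    IsIntegralArtinModulus K L m := by
  intro b hb
  rw [← restrictNormalHom_artinIdeal_of_unram K L M, h b hb, map_one]
  intro 𝔮 h𝔮 hle
  have h0 : 𝔮 ≠ ⊥ := Ring.ne_bot_of_isMaximal_of_not_isField h𝔮 (RingOfIntegers.not_isField K)
  set v : HeightOneSpectrum (𝓞 K) := ⟨𝔮, h𝔮.isPrime, h0⟩ with hv
  have hbv : b ∈ v.asIdeal := hle (Ideal.mem_span_singleton_self b)
  exact hur v fun hmv => not_mem_of_sub_one_mem_span hb v hmv hbv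

end Tower

section Cyclo

variable (K E : Type*) [Field K] [NumberField K] [Field E] [NumberField E] [Algebra K E]
  [IsGalois K E] [IsMulCommutative Gal(E/K)]

/-- `n` is an integral Artin modulus of `K(ζ_n) / K`, `K` totally complex. -/
theorem isIntegralArtinModulus_of_isCyclotomicExtension [IsTotallyComplex K] (n : ℕ) [NeZero n]
    [IsCyclotomicExtension {n} K E] : IsIntegralArtinModulus K E (n : 𝓞 K) :=
  fun _ hb => artinIdeal_span_singleton_eq_one_of_sub_one_mem K E hb

/-- for any number field `K`: the Artin symbol in `K(ζ_n) / K` of `(b)`, `b ≡ 1 mod n`, has order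
at most `2` (it is `ζ ↦ ζ ^ (± 1)`). -/
theorem artinIdeal_sq_eq_one_of_sub_one_mem (n : ℕ) [NeZero n] [IsCyclotomicExtension {n} K E]
    {b : 𝓞 K} (hb : b - 1 ∈ Ideal.span {(n : 𝓞 K)}) :
    artinIdeal K E (Ideal.span {b}) ^ 2 = 1 := by
  by_cases hb0 : b = 0
  · have : artinIdeal K E (Ideal.span {b}) = 1 := by
      rw [hb0, Ideal.span_singleton_zero, artinIdeal, ← Ideal.zero_eq_bot,
        UniqueFactorizationMonoid.normalizedFactors_zero, Multiset.map_zero, Multiset.prod_zero]
    rw [this, one_pow]
  have hζ0 := IsCyclotomicExtension.zeta_spec n K E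
  have hζ : IsPrimitiveRoot hζ0.toInteger n := hζ0.toInteger_isPrimitiveRoot
  -- `N(b)^2 ≡ 1 mod n`
  have hcong := norm_int_modEq_of_sub_mem hb
  rw [map_one] at hcong
  have hsq : (Ideal.absNorm (Ideal.span {b}) ^ 2 : ℕ) ≡ 1 [MOD n] := by
    rw [← Int.natCast_modEq_iff]
    push_cast
    rw [natCast_absNorm_span_singleton_sq]
    simpa using hcong.pow 2
  have hcop : (Ideal.absNorm (Ideal.span {b})).Coprime n := by
    have h1 : ((Ideal.absNorm (Ideal.span {b}) ^ 2 : ℕ)).Coprime n := by
      have := (Nat.ModEq.gcd_eq hsq)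
      rw [Nat.Coprime, this, Nat.gcd_one_left]
    exact Nat.Coprime.coprime_dvd_left (Dvd.intro_left _ (by rw [← pow_two])) h1
  apply eq_one_of_smul_eq_of_isCyclotomicExtension K E hζ
  rw [artinIdeal_sq_smul_of_pow_eq_one K E hζ.pow_eq_one hcop hb0]
  have := pow_eq_pow_of_modEq hsq hζ.pow_eq_one
  rwa [pow_one] at this

end Cyclo

section Odd

variable (K L E : Type*) [Field K] [NumberField K] [Field L] [NumberField L] [Field E]
  [NumberField E] [Algebra K L] [Algebra L E] [Algebra K E] [IsScalarTower K L E] [IsGalois K L]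
  [IsGalois K E] [IsMulCommutative Gal(E/K)] [IsMulCommutative Gal(L/K)]

/-- `n` is an integral Artin modulus of every subextension of odd degree of `K(ζ_n) / K`
unramified outside `n` (no hypothesis on the real places of `K`). -/
theorem isIntegralArtinModulus_of_odd (n : ℕ) [NeZero n] [IsCyclotomicExtension {n} K E]
    (hodd : Odd (Nat.card Gal(L/K)))
    (hur : ∀ v : HeightOneSpectrum (𝓞 K), (n : 𝓞 K) ∉ v.asIdeal →
      IsUnramifiedAtPrime K L v.asIdeal) :
    IsIntegralArtinModulus K L (n : 𝓞 K) := by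
  intro b hb
  have h1 : artinIdeal K L (Ideal.span {b}) =
      AlgEquiv.restrictNormalHom L (artinIdeal K E (Ideal.span {b})) := by
    rw [restrictNormalHom_artinIdeal_of_unram K L E]
    intro 𝔮 h𝔮 hle
    have h0 : 𝔮 ≠ ⊥ := Ring.ne_bot_of_isMaximal_of_not_isField h𝔮 (RingOfIntegers.not_isField K)
    set v : HeightOneSpectrum (𝓞 K) := ⟨𝔮, h𝔮.isPrime, h0⟩ with hv
    have hbv : b ∈ v.asIdeal := hle (Ideal.mem_span_singleton_self b)
    exact hur v fun hmv => not_mem_of_sub_one_mem_span hb v hmv hbv
  apply eq_one_of_sq_eq_one_of_odd_card hodd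
  rw [h1, ← map_pow, artinIdeal_sq_eq_one_of_sub_one_mem K E n hb, map_one]

end Odd

end Fermat.Agent.CFT
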