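/-
CFT, S55 pool, GLOBAL-IDELIC layer, (F2) (helper20): the `H⁰`-level companion of the devissage.

Tower `M ≤ F ≤ L` of number fields over the tensor base `K`, `L/M` Galois, `F/M` normal.  On top of
helper4's `Idele/Devissage.lean` (`idClassInfHom : C_F → C_L`, injective, image = invariants of
`Gal(L/F)`) and `Coh/H2InfResGen.lean` / `Coh/InfCoprime.lean`:

* `idInv_toInvHom`, `idInv_toInvHom_bijective`, `idInv_iso` : `C_F ≅ (C_L)^{Gal(L/F)}` as
  representations of `Gal(L/M) ⧸ Gal(L/F) ≃* Gal(F/M)` (`idInv_quotEquiv`), i.e.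
  `idClassRep K M F ≅ (idClassRep K M L).quotientToInvariants (galProj M F L).ker`;
  `idInv_map_bijective` : the induced isomorphisms on `Hⁿ`;
* `idInv_infl n : Hⁿ(Gal(F/M), C_F) ⟶ Hⁿ(Gal(L/M), C_L)` and its factorisation `idInv_infl_eq`
  through the standard inflation `Hⁿ(G ⧸ N, A^N) ⟶ Hⁿ(G, A)` (the engine's `inflHom` shape);
* for `p` odd, `μ_p ⊆ F`: `idInv_h1ResKilledBy` (`H¹(Gal(L/F), C_L)` is killed by an integer prime
  to `p`), `idInv_infl_two_eq_zero` (inflation is injective on `p`-power torsion of `H²`),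
  `idInv_addOrderOf_infl_two` (inflation preserves the order of classes of `p`-power order);
* generic: `idInv_card_nsmul_cocycle`, `idInv_h1ResKilledBy_of_no_pTorsion`.
-/
import Mathlib
import Fermat.Agent.CFT.Idele.DevissageFinal
import Fermat.Agent.CFT.Coh.InfCoprime

set_option autoImplicit false
set_option linter.unusedSectionVars false

open CategoryTheory groupCohomology Rep NumberField IsDedekindDomain
open scoped TensorProduct Fermat.Agent.CFT.TensorGal Fermat.Agent.CFT.IdeleAct

namespace Fermat.Agent.CFT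

attribute [local instance] additiveDistribMulAction ideleGroupActionOf ideleClassActionOf
  idClassCommGroup

section Generic

universe u

variable {k G : Type u} [CommRing k] [Group G] (A : Rep k G) (S : Subgroup G)

/-- for a finite subgroup `S` and a `1`-cocycle `x : S → A`, `|S| • x` is a coboundary. -/
theorem idInv_card_nsmul_cocycle [Finite S] (x : S → A)
    (hx : ∀ s t : S, x (s * t) = A.ρ s (x t) + x s) :
    ∃ a : A, ∀ s : S, Nat.card S • x s = A.ρ s a - a := by
  classical
  have := Fintype.ofFinite S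
  refine ⟨-∑ t : S, x t, fun s => ?_⟩
  have h1 : ∑ t : S, x (s * t) = ∑ t : S, x t :=
    Fintype.sum_equiv (Equiv.mulLeft s) _ _ fun _ => rfl
  have h2 : ∑ t : S, x (s * t) = A.ρ s (∑ t : S, x t) + Nat.card S • x s := by
    simp only [hx, Finset.sum_add_distrib, map_sum]
    rw [Finset.sum_const, Finset.card_univ, Nat.card_eq_fintype_card]
  rw [h1] at h2
  rw [map_neg]
  have h3 : Nat.card S • x s = ∑ t : S, x t - A.ρ s (∑ t : S, x t) := by
    rw [eq_sub_iff_add_eq, add_comm]
    exact h2.symm
  rw [h3]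
  abel

/-- if `H¹(S, A)` has no `p`-torsion (`S` finite), then it is killed by an integer prime to `p`,
in cocycle form. -/
theorem idInv_h1ResKilledBy_of_no_pTorsion [Finite S] (p : ℕ) [hp : Fact p.Prime]
    (h : ∀ y : H1 (res S.subtype A), p • y = 0 → y = 0) :
    ∃ m : ℕ, Nat.Coprime p m ∧ H1ResKilledBy A S m := by
  have hpp : p.Prime := hp.out
  have hN0 : Nat.card S ≠ 0 := Nat.card_pos.ne'
  obtain ⟨e, m, hm, hNm⟩ := Nat.exists_eq_pow_mul_and_not_dvd hN0 p hpp.ne_one
  refine ⟨m, (Nat.Prime.coprime_iff_not_dvd hpp).mpr hm, ?_⟩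
  have hpow : ∀ (j : ℕ) (y : H1 (res S.subtype A)), p ^ j • y = 0 → y = 0 := by
    intro j
    induction j with
    | zero => intro y hy; rwa [pow_zero, one_smul] at hy
    | succ j ih =>
      intro y hy
      apply ih
      apply h
      rw [← mul_nsmul', ← pow_succ']
      exact hy
  intro x hx
  have hx' : x ∈ cocycles₁ (res S.subtype A) := (mem_cocycles₁_iff (A := res S.subtype A) x).2 hx
  obtain ⟨a, ha⟩ := idInv_card_nsmul_cocycle A S x hx
  -- the class of `m • x` is killed by `p ^ e`
  have h0 : p ^ e • (m • H1π _ (⟨x, hx'⟩ : cocycles₁ (res S.subtype A))) = 0 := by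
    rw [← mul_nsmul', ← hNm, ← map_nsmul, H1π_eq_zero_iff]
    refine ⟨a, ?_⟩
    funext s
    exact (ha s).symm
  have h1 := hpow e _ h0
  rw [← map_nsmul, H1π_eq_zero_iff] at h1
  obtain ⟨b, hb⟩ := h1
  exact ⟨b, fun s => (congr_fun hb s).symm⟩

end Generic

section Tower

variable (K M F L : Type) [Field K] [NumberField K] [Field M] [NumberField M]
  [Field F] [NumberField F] [Field L] [NumberField L]
  [Algebra K M] [Algebra K F] [Algebra K L] [Algebra M F] [Algebra F L] [Algebra M L]
  [IsScalarTower K M F] [IsScalarTower K F L] [IsScalarTower K M L] [IsScalarTower M F L]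
  [Normal M F] [IsGalois M L]

theorem idInv_galProj_surjective : Function.Surjective (galProj M F L) :=
  AlgEquiv.restrictNormalHom_surjective L

/-- `Gal(L/M) ⧸ Gal(L/F) ≃* Gal(F/M)`. -/
noncomputable abbrev idInv_quotEquiv : Gal(L/M) ⧸ (galProj M F L).ker ≃* Gal(F/M) :=
  quotEquiv (galProj M F L) (idInv_galProj_surjective M F L)

/-- `C_F ⟶ (C_L)^{Gal(L/F)}` as a morphism of representations of `Gal(L/M) ⧸ Gal(L/F)`. -/
noncomputable def idInv_toInvHom :
    res (idInv_quotEquiv M F L).toMonoidHom (idClassRep K M F) ⟶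
      (idClassRep K M L).quotientToInvariants (galProj M F L).ker :=
  toInvHom (galProj M F L) (idClassInfHom K M F L) (idInv_galProj_surjective M F L)

theorem idInv_toInvHom_coe (c : Additive (ideleClass K F)) :
    (((idInv_toInvHom K M F L).hom c :
      ((idClassRep K M L).quotientToInvariants (galProj M F L).ker).V) :
        Additive (ideleClass K L)) = Additive.ofMul (relClass K F L (Additive.toMul c)) := rfl

theorem idInv_toInvHom_bijective : Function.Bijective (idInv_toInvHom K M F L).hom :=
  toInvLin_bijective (galProj M F L) (idClassInfHom K M F L)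
    (idClassInfHom_injective K M F L) (exists_idClassInfHom_eq K M F L)

/-- **`(C_L)^{Gal(L/F)} ≅ C_F`** as representations of `Gal(L/M) ⧸ Gal(L/F) ≃ Gal(F/M)`. -/
noncomputable def idInv_iso :
    res (idInv_quotEquiv M F L).toMonoidHom (idClassRep K M F) ≅
      (idClassRep K M L).quotientToInvariants (galProj M F L).ker :=
  Rep.mkIso (Representation.Equiv.mk
    (LinearEquiv.ofBijective (idInv_toInvHom K M F L).hom.toLinearMap
      (idInv_toInvHom_bijective K M F L))
    (fun g => (idInv_toInvHom K M F L).hom.2 g))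

theorem idInv_iso_hom : (idInv_iso K M F L).hom = idInv_toInvHom K M F L := rfl

/-- `Hⁿ(Gal(F/M), C_F) ≅ Hⁿ(Gal(L/M) ⧸ Gal(L/F), (C_L)^{Gal(L/F)})`. -/
theorem idInv_map_bijective (n : ℕ) :
    Function.Bijective (map (idInv_quotEquiv M F L).toMonoidHom (idInv_toInvHom K M F L) n) :=
  map_toInvHom_bijective (galProj M F L) (idClassInfHom K M F L)
    (idInv_galProj_surjective M F L) (idClassInfHom_injective K M F L)
    (exists_idClassInfHom_eq K M F L) n

/-- the inflation `Hⁿ(Gal(F/M), C_F) ⟶ Hⁿ(Gal(L/M), C_L)`. -/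
noncomputable abbrev idInv_infl (n : ℕ) :
    groupCohomology (idClassRep K M F) n ⟶ groupCohomology (idClassRep K M L) n :=
  map (galProj M F L) (idClassInfHom K M F L) n

/-- the inflation factors through the standard inflation from the invariants. -/
theorem idInv_infl_eq (n : ℕ) :
    idInv_infl K M F L n =
      map (idInv_quotEquiv M F L).toMonoidHom (idInv_toInvHom K M F L) n ≫
        map (QuotientGroup.mk' (galProj M F L).ker)
          (ofHom <| (idClassRep K M L).ρ.quotientToInvariants_lift (galProj M F L).ker) n :=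
  map_eq_toInvHom_comp (galProj M F L) (idClassInfHom K M F L) (idInv_galProj_surjective M F L) n

section PPrimary

variable (p : ℕ) [hp : Fact p.Prime] (hp2 : p ≠ 2) (hζ : ∃ ζ : F, IsPrimitiveRoot ζ p)

include hp2 hζ in
/-- `H¹(Gal(L/F), C_L)`, in the cocycle form for the subgroup `ker(Gal(L/M) → Gal(F/M))`, is killed
by an integer prime to `p`. -/
theorem idInv_h1ResKilledBy :
    ∃ m : ℕ, Nat.Coprime p m ∧ H1ResKilledBy (idClassRep K M L) (galProj M F L).ker m := by
  have : IsGalois F L := IsGalois.tower_top_of_isGalois M F L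
  refine idInv_h1ResKilledBy_of_no_pTorsion (idClassRep K M L) (galProj M F L).ker p ?_
  intro y hy
  have hb := map_resHom_bijective (galProj M F L).ker (galIncl M F L) (idClassResHom K M F L)
    (galIncl_injective M F L) (range_galIncl M F L) (idClassResHom_bijective K M F L) 1
  apply hb.1
  rw [map_zero]
  apply idClassF_H1_eq_zero_of_nsmul K F L p hp2 hζ
  rw [← map_nsmul, hy, map_zero]

include hp2 hζ in
/-- **the inflation `H²(Gal(F/M), C_F) ⟶ H²(Gal(L/M), C_L)` is injective on `p`-power torsion.** -/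
theorem idInv_infl_two_eq_zero (y : groupCohomology (idClassRep K M F) 2) {j : ℕ}
    (hy : p ^ j • y = 0) (h0 : idInv_infl K M F L 2 y = 0) : y = 0 := by
  obtain ⟨m, hcop, hm⟩ := idInv_h1ResKilledBy K M F L p hp2 hζ
  have h1 : m • y = 0 :=
    infGen_nsmul_eq_zero (galProj M F L) (idClassInfHom K M F L) (idInv_galProj_surjective M F L)
      (idClassInfHom_injective K M F L) (exists_idClassInfHom_eq K M F L) hm y h0
  have hd1 : addOrderOf y ∣ p ^ j := addOrderOf_dvd_of_nsmul_eq_zero hy
  have hd2 : addOrderOf y ∣ m := addOrderOf_dvd_of_nsmul_eq_zero h1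
  have hd3 : addOrderOf y ∣ 1 := by
    have := Nat.dvd_gcd hd1 hd2
    rwa [Nat.Coprime.gcd_eq_one (Nat.Coprime.pow_left j hcop)] at this
  exact AddMonoid.addOrderOf_eq_one_iff.1 (Nat.dvd_one.1 hd3)

include hp2 hζ in
/-- the inflation preserves the order of classes of `p`-power order in `H²`. -/
theorem idInv_addOrderOf_infl_two (y : groupCohomology (idClassRep K M F) 2) {j : ℕ}
    (hy : p ^ j • y = 0) : addOrderOf (idInv_infl K M F L 2 y) = addOrderOf y := by
  obtain ⟨m, hcop, hm⟩ := idInv_h1ResKilledBy K M F L p hp2 hζ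
  refine addOrderOf_infGen_eq (galProj M F L) (idClassInfHom K M F L)
    (idInv_galProj_surjective M F L) (idClassInfHom_injective K M F L)
    (exists_idClassInfHom_eq K M F L) hm y ?_
  have hd1 : addOrderOf y ∣ p ^ j := addOrderOf_dvd_of_nsmul_eq_zero hy
  exact Nat.Coprime.coprime_dvd_left hd1 (Nat.Coprime.pow_left j hcop)

end PPrimary

end Tower

end Fermat.Agent.CFT
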