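/-
CFT, S55 pool, GLOBAL-IDELIC layer (GL12), part 3 (helper25): the SYLOW STEP.

helper4's `Idele/Devissage.lean` / `Idele/DevissageSub.lean` give `H¹(P, C_L) = 0` and
`|H²(P, C_L)| ∣ |P|` for Galois `p`-extensions.  Here `L/M` is an arbitrary finite Galois extension
(tensor base `K ≤ M`, `μ_p ⊆ M`), `G = Gal(L/M)` NOT a `p`-group:

* `dvsSw_subgroup` : for every `p`-subgroup `S ≤ G`: `H¹(S, C_L) = 0`, `|H²(S, C_L)| ∣ |S|`;
* `dvsSw_H1_pPrimary` : the `p`-primary part of `H¹(G, C_L)` vanishes;
* `dvsSw_natCard_H2_pPrimary_dvd` : the `p`-primary part of `H²(G, C_L)` has order dividing the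
  `p`-part of `[L : M]`;
* `dvsSw_H2_pPrimary_cyclic_card` : if moreover some class has order the `p`-part of `[L:M]`,
  equality.

The abstract halves (`dvsSw_pPrimary_H1_abs`, `dvsSw_natCard_pPrimary_H2_dvd_abs`) are stated for
any `Rep k G`, `G` finite, with the Sylow hypotheses explicit.
-/
import Mathlib
import Fermat.Agent.CFT.Idele.DevissageSub
import Fermat.Agent.CFT.Coh.DevissageP
import Fermat.Agent.CFT.Coh.IndexKill

set_option autoImplicit false
set_option linter.unusedSectionVars false
set_option linter.style.haveILetI false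

open CategoryTheory groupCohomology Rep NumberField IsDedekindDomain IntermediateField
open scoped TensorProduct Fermat.Agent.CFT.TensorGal Fermat.Agent.CFT.IdeleAct

namespace Fermat.Agent.CFT

section Abstract

universe u

variable {k G : Type u} [CommRing k] [Group G] [Finite G] (A : Rep k G) (p : ℕ) [Fact p.Prime]

/-- if `H¹` of a Sylow `p`-subgroup vanishes, the `p`-primary part of `H¹(G, A)` vanishes. -/
theorem dvsSw_pPrimary_H1_abs (P : Sylow p G)
    (h1 : Subsingleton (groupCohomology (res (P : Subgroup G).subtype A) 1))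
    (x : groupCohomology A 1) {j : ℕ} (hj : p ^ j • x = 0) : x = 0 :=
  eq_zero_of_pPrimary_of_shapiroRes A 1 p P x hj (h1.elim _ _)

/-- the `p`-primary part of `Hⁿ(G, A)` embeds into `Hⁿ(P, A)`, `P` a Sylow `p`-subgroup: if the
latter is finite of order dividing `m`, so is the former. -/
theorem dvsSw_natCard_pPrimary_dvd_abs (P : Sylow p G) (n : ℕ) {m : ℕ} (hm : m ≠ 0)
    (h2 : Nat.card (groupCohomology (res (P : Subgroup G).subtype A) n) ∣ m) :
    Nat.card (dvsP_pPrimary p (groupCohomology A n)) ∣ m := by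
  have hne : Nat.card (groupCohomology (res (P : Subgroup G).subtype A) n) ≠ 0 := by
    intro h0
    rw [h0, zero_dvd_iff] at h2
    exact hm h2
  have : Finite (groupCohomology (res (P : Subgroup G).subtype A) n) :=
    Nat.finite_of_card_ne_zero hne
  let f : dvsP_pPrimary p (groupCohomology A n) →+
      groupCohomology (res (P : Subgroup G).subtype A) n :=
    (shapiroRes (P : Subgroup G) A n).hom.toAddMonoidHom.comp
      (dvsP_pPrimary p (groupCohomology A n)).subtype
  have hf : Function.Injective f := by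
    rw [injective_iff_map_eq_zero]
    rintro ⟨x, j, hj⟩ hx
    apply Subtype.ext
    exact eq_zero_of_pPrimary_of_shapiroRes A n p P x hj hx
  exact (AddSubgroup.card_dvd_of_injective f hf).trans h2

/-- if `Hⁿ` of a Sylow `p`-subgroup vanishes, the `p`-primary part of `Hⁿ(G, A)` vanishes. -/
theorem dvsSw_pPrimary_eq_zero_abs (P : Sylow p G) (n : ℕ)
    (h : Limits.IsZero (groupCohomology (res (P : Subgroup G).subtype A) n))
    (x : groupCohomology A n) {j : ℕ} (hj : p ^ j • x = 0) : x = 0 := by
  have hsub : Subsingleton (groupCohomology (res (P : Subgroup G).subtype A) n) :=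
    ModuleCat.isZero_iff_subsingleton.mp h
  exact eq_zero_of_pPrimary_of_shapiroRes A n p P x hj (hsub.elim _ _)

/-- a finite abelian group of order dividing `p ^ j` with an element of order `p ^ j` is cyclic, so
its `p`-torsion has at most `p` elements. -/
theorem dvsSw_natCard_torsion_le_of_order {X : Type*} [AddCommGroup X] (q j : ℕ) (hq : 0 < q)
    (hcard : Nat.card X ∣ q ^ j) (w : X) (hw : addOrderOf w = q ^ j) :
    Nat.card (nsmulAddMonoidHom (α := X) q).ker ≤ q := by
  classical
  have hne : Nat.card X ≠ 0 := by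
    intro h0
    rw [h0, zero_dvd_iff] at hcard
    exact (pow_pos hq j).ne' hcard
  have : Finite X := Nat.finite_of_card_ne_zero hne
  have := Fintype.ofFinite X
  have h1 : addOrderOf w ∣ Nat.card X := addOrderOf_dvd_natCard w
  have h2 : Nat.card X = addOrderOf w := by
    rw [hw] at h1 ⊢
    exact Nat.dvd_antisymm hcard h1
  have : IsAddCyclic X := isAddCyclic_of_addOrderOf_eq_card w h2.symm
  have h3 := IsAddCyclic.card_nsmul_eq_zero_le (α := X) hq
  have h4 : Nat.card (nsmulAddMonoidHom (α := X) q).ker =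
      (Finset.univ.filter fun a : X => q • a = 0).card := by
    rw [Nat.card_eq_fintype_card, ← Fintype.card_subtype]
    exact Fintype.card_congr (Equiv.subtypeEquivRight fun a => by
      rw [AddMonoidHom.mem_ker]
      rfl)
  rw [h4]
  exact h3

end Abstract

attribute [local instance] additiveDistribMulAction ideleGroupActionOf ideleClassActionOf
  idClassCommGroup

section Concrete

variable (K M L : Type) [Field K] [NumberField K] [Field M] [NumberField M]
  [Field L] [NumberField L] [Algebra K M] [Algebra M L] [Algebra K L] [IsScalarTower K M L]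
  [IsGalois M L]

/-- **(GL12) for the `p`-subgroups of an arbitrary Galois group**: `L/M` finite Galois (any
degree), `μ_p ⊆ M`, `S ≤ Gal(L/M)` of order `p ^ j`: `H¹(S, C_L) = 0` and `|H²(S, C_L)| ∣ p ^ j`. -/
theorem dvsSw_subgroup (p : ℕ) [hp : Fact p.Prime] (hcyc : IdCyclicLayer K p)
    (hζ : ∃ ζ : M, IsPrimitiveRoot ζ p) (S : Subgroup Gal(L/M)) {j : ℕ}
    (hj : Nat.card S = p ^ j) :
    Limits.IsZero (groupCohomology (res S.subtype (idClassRep K M L)) 1) ∧
      Nat.card (groupCohomology (res S.subtype (idClassRep K M L)) 2) ∣ p ^ j := by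
  have : IsScalarTower K (fixedField S) L := IsScalarTower.of_algebraMap_eq (fun _ => rfl)
  have hζF : ∃ ζ : fixedField S, IsPrimitiveRoot ζ p := by
    obtain ⟨ζ, hζ⟩ := hζ
    exact ⟨algebraMap M (fixedField S) ζ,
      hζ.map_of_injective (algebraMap M (fixedField S)).injective⟩
  have hdegF : Module.finrank (fixedField S) L = p ^ j := by
    rw [finrank_fixedField_eq_card, hj]
  obtain ⟨h1, h2⟩ := idClass_devissage K p hcyc j (fixedField S) L hζF hdegF
  have b1 := dvs_map_bijective (K := K) S 1
  have b2 := dvs_map_bijective (K := K) S 2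
  refine ⟨?_, ?_⟩
  · rw [ModuleCat.isZero_iff_subsingleton]
    exact b1.1.subsingleton
  · rw [Nat.card_congr (Equiv.ofBijective _ b2)]
    exact h2

/-- **the `p`-primary part of `H¹(Gal(L/M), C_L)` vanishes** for every finite Galois `L/M` with
`μ_p ⊆ M`. -/
theorem dvsSw_H1_pPrimary (p : ℕ) [hp : Fact p.Prime] (hcyc : IdCyclicLayer K p)
    (hζ : ∃ ζ : M, IsPrimitiveRoot ζ p) (x : groupCohomology (idClassRep K M L) 1) {j : ℕ}
    (hj : p ^ j • x = 0) : x = 0 := by
  obtain ⟨P⟩ : Nonempty (Sylow p Gal(L/M)) := inferInstance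
  have h := (dvsSw_subgroup K M L p hcyc hζ (P : Subgroup Gal(L/M)) P.card_eq_multiplicity).1
  exact dvsSw_pPrimary_H1_abs (idClassRep K M L) p P
    (ModuleCat.isZero_iff_subsingleton.mp h) x hj

/-- **the `p`-primary part of `H²(Gal(L/M), C_L)` has order dividing the `p`-part of `[L : M]`**. -/
theorem dvsSw_natCard_H2_pPrimary_dvd (p : ℕ) [hp : Fact p.Prime] (hcyc : IdCyclicLayer K p)
    (hζ : ∃ ζ : M, IsPrimitiveRoot ζ p) :
    Nat.card (dvsP_pPrimary p (groupCohomology (idClassRep K M L) 2)) ∣
      p ^ (Nat.card Gal(L/M)).factorization p := by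
  obtain ⟨P⟩ : Nonempty (Sylow p Gal(L/M)) := inferInstance
  have h := (dvsSw_subgroup K M L p hcyc hζ (P : Subgroup Gal(L/M)) P.card_eq_multiplicity).2
  exact dvsSw_natCard_pPrimary_dvd_abs (idClassRep K M L) p P 2
    (pow_ne_zero _ hp.out.ne_zero) h

/-- in particular the `p`-primary part of `H²(Gal(L/M), C_L)` is finite. -/
theorem dvsSw_finite_H2_pPrimary (p : ℕ) [hp : Fact p.Prime] (hcyc : IdCyclicLayer K p)
    (hζ : ∃ ζ : M, IsPrimitiveRoot ζ p) :
    Finite (dvsP_pPrimary p (groupCohomology (idClassRep K M L) 2)) := by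
  have h := dvsSw_natCard_H2_pPrimary_dvd K M L p hcyc hζ
  refine Nat.finite_of_card_ne_zero fun h0 => ?_
  rw [h0, zero_dvd_iff] at h
  exact pow_ne_zero _ hp.out.ne_zero h

/-- the `p`-torsion of `H²(Gal(L/M), C_L)` (elements killed by `p`) is finite of order dividing
the `p`-part of `[L : M]`: the set form consumed by the `(A5)`-type hypotheses. -/
theorem dvsSw_natCard_H2_torsion_dvd (p : ℕ) [hp : Fact p.Prime] (hcyc : IdCyclicLayer K p)
    (hζ : ∃ ζ : M, IsPrimitiveRoot ζ p) :
    Nat.card (nsmulAddMonoidHom (α := groupCohomology (idClassRep K M L) 2) p).ker ∣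
      p ^ (Nat.card Gal(L/M)).factorization p := by
  have := dvsSw_finite_H2_pPrimary K M L p hcyc hζ
  have hle : (nsmulAddMonoidHom (α := groupCohomology (idClassRep K M L) 2) p).ker ≤
      dvsP_pPrimary p (groupCohomology (idClassRep K M L) 2) := by
    intro x hx
    exact ⟨1, by rw [pow_one]; exact hx⟩
  exact (AddSubgroup.card_dvd_of_le hle).trans
    (dvsSw_natCard_H2_pPrimary_dvd K M L p hcyc hζ)

/-- **(A5), finite level: `|H²(Gal(L/M), C_L)[p]| ≤ p`**, given a class of order `|P|` in
`H²(Gal(L/L^P), C_L)` for a Sylow `p`-subgroup `P` (helper18's fundamental class for the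
`p`-extension `L / L^P`). -/
theorem dvsSw_natCard_H2_torsion_le (p : ℕ) [hp : Fact p.Prime] (hcyc : IdCyclicLayer K p)
    (hζ : ∃ ζ : M, IsPrimitiveRoot ζ p) (P : Sylow p Gal(L/M))
    [IsScalarTower K (fixedField (P : Subgroup Gal(L/M))) L]
    (hγ : ∃ w : groupCohomology (idClassRep K (fixedField (P : Subgroup Gal(L/M))) L) 2,
      addOrderOf w = Nat.card (P : Subgroup Gal(L/M))) :
    Nat.card (nsmulAddMonoidHom (α := groupCohomology (idClassRep K M L) 2) p).ker ≤ p := by
  classical
  set S : Subgroup Gal(L/M) := (P : Subgroup Gal(L/M)) with hS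
  have hj : Nat.card S = p ^ (Nat.card Gal(L/M)).factorization p := P.card_eq_multiplicity
  set a := (Nat.card Gal(L/M)).factorization p with ha
  have hζF : ∃ ζ : fixedField S, IsPrimitiveRoot ζ p := by
    obtain ⟨ζ, hζ⟩ := hζ
    exact ⟨algebraMap M (fixedField S) ζ,
      hζ.map_of_injective (algebraMap M (fixedField S)).injective⟩
  have hdegF : Module.finrank (fixedField S) L = p ^ a := by
    rw [finrank_fixedField_eq_card, hj]
  obtain ⟨-, h2⟩ := idClass_devissage K p hcyc a (fixedField S) L hζF hdegF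
  obtain ⟨w, hw⟩ := hγ
  rw [hj] at hw
  -- the `p`-torsion of `Z = H²(Gal(L/L^P), C_L)` has at most `p` elements
  have hZ := dvsSw_natCard_torsion_le_of_order
    (X := groupCohomology (idClassRep K (fixedField S) L) 2) p a hp.out.pos h2 w hw
  have hZfin : Finite (groupCohomology (idClassRep K (fixedField S) L) 2) := by
    refine Nat.finite_of_card_ne_zero fun h0 => ?_
    rw [h0, zero_dvd_iff] at h2
    exact pow_ne_zero _ hp.out.ne_zero h2
  -- the injection `Y[p] → Z[p]`
  have b2 := dvs_map_bijective (K := K) S 2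
  let φ : groupCohomology (idClassRep K M L) 2 →+
      groupCohomology (idClassRep K (fixedField S) L) 2 :=
    (groupCohomology.map
      (toSubEquiv S (galIncl M (fixedField S) L) (galIncl_injective M (fixedField S) L)
          (dvs_range_galIncl_fixedField M L S)).toMonoidHom
        (resHom S (galIncl M (fixedField S) L) (idClassResHom K M (fixedField S) L)
          (galIncl_injective M (fixedField S) L) (dvs_range_galIncl_fixedField M L S))
        2).hom.toAddMonoidHom.comp
      (shapiroRes S (idClassRep K M L) 2).hom.toAddMonoidHom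
  have hφ : ∀ x : groupCohomology (idClassRep K M L) 2, p • x = 0 → φ x = 0 → x = 0 := by
    intro x hx h0
    have h1 : (shapiroRes S (idClassRep K M L) 2).hom x = 0 := by
      apply b2.1
      rw [map_zero]
      exact h0
    exact eq_zero_of_pPrimary_of_shapiroRes (idClassRep K M L) 2 p P x
      (j := 1) (by rw [pow_one]; exact hx) h1
  let ψ : (nsmulAddMonoidHom (α := groupCohomology (idClassRep K M L) 2) p).ker →
      (nsmulAddMonoidHom (α := groupCohomology (idClassRep K (fixedField S) L) 2) p).ker :=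
    fun x => ⟨φ x.1, by
      rw [AddMonoidHom.mem_ker]
      show p • φ x.1 = 0
      rw [← map_nsmul]
      have hx : p • x.1 = 0 := x.2
      rw [hx, map_zero]⟩
  have hψ : Function.Injective ψ := by
    intro x y hxy
    have h1 : φ x.1 = φ y.1 := congrArg Subtype.val hxy
    have h2 : φ (x.1 - y.1) = 0 := by rw [map_sub, h1, sub_self]
    have h3 : p • (x.1 - y.1) = 0 := by
      have hx : p • x.1 = 0 := x.2
      have hy : p • y.1 = 0 := y.2
      rw [smul_sub, hx, hy, sub_self]
    exact Subtype.ext (sub_eq_zero.mp (hφ _ h3 h2))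
  exact (Nat.card_le_card_of_injective ψ hψ).trans hZ

end Concrete

end Fermat.Agent.CFT
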