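/-
CFT, S55 pool, GLOBAL (C-FI), finite level (helper24): the first inequality in `Rep` shape.

`K ≤ M ≤ L` number fields, `K` the tensor base, `L/M` cyclic (generated by `σ`) of degree `> 1`,
unramified at the infinite places.  Then some `Gal(L/M)`-invariant element of
`idClassRep K M L` (`= C_L`) is not a norm:
`idFIRep_exists_not_norm : ∃ x, (∀ g, ρ g x = x) ∧ ∀ c, ∑ τ, ρ τ c ≠ x`
(from helper23's `idFRG_first_inequality`: `[C_M : N C_L] ≥ [L : M] > 1`).
-/
import Mathlib
import Fermat.Agent.CFT.Idele.FirstIneqRelGen
import Fermat.Agent.CFT.Idele.Devissage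

set_option autoImplicit false
set_option linter.unusedSectionVars false

open CategoryTheory groupCohomology Rep NumberField IsDedekindDomain
open scoped TensorProduct Fermat.Agent.CFT.TensorGal Fermat.Agent.CFT.IdeleAct

namespace Fermat.Agent.CFT

attribute [local instance] additiveDistribMulAction ideleGroupActionOf ideleClassActionOf
  idClassCommGroup

section FIRep

variable {K M L : Type} [Field K] [NumberField K] [Field M] [NumberField M]
  [Field L] [NumberField L] [Algebra K M] [Algebra M L] [Algebra K L] [IsScalarTower K M L]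
  [IsGalois M L] [Fintype Gal(L/M)]

/-- the norm of `idClassRep K M L` is `relClass ∘ relClassNorm`. -/
theorem idFIRep_sum_ρ (c : Additive (ideleClass K L)) :
    ∑ τ : Gal(L/M), (idClassRep K M L).ρ τ c =
      Additive.ofMul (relClass K M L (relClassNorm K M L (Additive.toMul c))) := by
  rw [idNI_relClass_relClassNorm, ofMul_prod]
  refine Finset.sum_congr (Finset.ext fun x => by simp) fun τ _ => ?_
  rfl

/-- the classes coming from `M` are invariant. -/
theorem idFIRep_ρ_relClass (g : Gal(L/M)) (x : ideleClass K M) :
    (idClassRep K M L).ρ g (Additive.ofMul (relClass K M L x) : Additive (ideleClass K L)) =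
      (Additive.ofMul (relClass K M L x) : Additive (ideleClass K L)) := by
  rw [idClassRep_ρ_apply]
  congr 1
  exact (mem_range_relClass_iff K M L _).1 ⟨x, rfl⟩ _ (relGalHom_mem_relFixing K M L g)

/-- **the first inequality, `Rep` shape**: on a cyclic layer of degree `> 1` unramified at the
infinite places some invariant class is not a norm. -/
theorem idFIRep_exists_not_norm [IsUnramifiedAtInfinitePlaces M L] {σ : Gal(L/M)}
    (hσ : ∀ τ, τ ∈ Subgroup.zpowers σ) (hcard : 1 < Fintype.card Gal(L/M)) :
    ∃ x : Additive (ideleClass K L), (∀ g, (idClassRep K M L).ρ g x = x) ∧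
      ∀ c : Additive (ideleClass K L), ∑ τ : Gal(L/M), (idClassRep K M L).ρ τ c ≠ x := by
  obtain ⟨-, hle, h0, -⟩ := idFRG_first_inequality (K := K) hσ
  have hne : (relClassNorm K M L).range ≠ ⊤ := by
    intro htop
    rw [htop, Subgroup.index_top] at hle
    omega
  obtain ⟨x₀, -, hx₀⟩ := SetLike.exists_of_lt (lt_top_iff_ne_top.2 hne)
  refine ⟨Additive.ofMul (relClass K M L x₀), fun g => idFIRep_ρ_relClass g x₀, fun c hc => ?_⟩
  rw [idFIRep_sum_ρ] at hc
  have h1 : relClass K M L (relClassNorm K M L (Additive.toMul c)) = relClass K M L x₀ :=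
    congrArg Additive.toMul hc
  exact hx₀ ⟨_, relClass_injective K M L h1⟩

end FIRep

end Fermat.Agent.CFT
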