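import Mathlib
import Fermat.Agent.CFT.Idele.FundClass
import Fermat.Agent.CFT.Idele.DevissageFinal

set_option autoImplicit false
set_option linter.unusedSectionVars false
set_option linter.style.haveILetI false

/-!
# (GL14): existence of the `p`-primary fundamental class over `M = ℚ(ζ_p)`

`M = ℚ(ζ_p)` (any `p`-th cyclotomic extension of `ℚ`), `L ⊇ M` Galois over `ℚ`, `p` odd:
`H²(Gal(L/M), C_L)` contains a class of order `p ^ v_p([L : M])` (`fundClass_exists`), given the
cyclic layers `IdCyclicLayer ℚ p`.  For a general base `M' ⊇ M` restrict this class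
(helper17's `Idele/FundClassRes.lean`).
-/

open CategoryTheory groupCohomology Rep NumberField IsDedekindDomain IntermediateField
  Rat.HeightOneSpectrum

namespace Fermat.Agent.CFT

/-- `[M(ζ_{p^(a+1)}) : M] = p^a` for `M = ℚ(ζ_p)`. -/
theorem fcl_natCard_gal_crossE (p a : ℕ) (hp : p.Prime) (M L : Type) [Field M] [NumberField M]
    [Field L] [NumberField L] [Algebra M L] [IsCyclotomicExtension {p} ℚ M] :
    haveI : NeZero (p ^ (a + 1)) := ⟨pow_ne_zero _ hp.ne_zero⟩
    Nat.card Gal(↥(crossE (p ^ (a + 1)) M L)/M) = p ^ a := by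
  haveI : NeZero (p ^ (a + 1)) := ⟨pow_ne_zero _ hp.ne_zero⟩
  haveI : NeZero p := ⟨hp.ne_zero⟩
  set L' := ↥(crossE (p ^ (a + 1)) M L) with hL'
  haveI h1 : IsCyclotomicExtension ({p} ∪ {p ^ (a + 1)}) ℚ L' :=
    IsCyclotomicExtension.trans {p} {p ^ (a + 1)} ℚ M L' (algebraMap M L').injective
  haveI h2 : IsCyclotomicExtension {p ^ (a + 1)} ℚ L' := by
    rw [Set.union_comm] at h1
    exact (IsCyclotomicExtension.iff_union_of_dvd ℚ L'
      ⟨p ^ (a + 1), Set.mem_singleton _, pow_ne_zero _ hp.ne_zero, dvd_pow_self p (Nat.succ_ne_zero a)⟩).mpr h1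
  have e1 : Module.finrank ℚ L' = (p ^ (a + 1)).totient := IsCyclotomicExtension.Rat.finrank (p ^ (a + 1)) L'
  have e2 : Module.finrank ℚ M = p.totient := IsCyclotomicExtension.Rat.finrank p M
  have e3 := Module.finrank_mul_finrank ℚ M L'
  rw [e1, e2, Nat.totient_prime_pow_succ hp, Nat.totient_prime hp] at e3
  rw [IsGalois.card_aut_eq_finrank]
  have hpos : 0 < p - 1 := Nat.sub_pos_of_lt hp.one_lt
  have e4 : (p - 1) * Module.finrank M L' = (p - 1) * p ^ a := by rw [e3, mul_comm]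
  exact Nat.eq_of_mul_eq_mul_left hpos e4

/-- **(GL14)**: the `p`-primary fundamental class over `M = ℚ(ζ_p)`. -/
theorem fundClass_exists (p : ℕ) (hp : p.Prime) (hp2 : p ≠ 2) (hcyc : IdCyclicLayer ℚ p)
    (M L : Type) [Field M] [NumberField M] [Field L] [NumberField L] [Algebra M L]
    [IsGalois ℚ M] [IsGalois ℚ L] [IsGalois M L] [IsCyclotomicExtension {p} ℚ M] :
    ∃ w : groupCohomology (idClassRep ℚ M L) 2,
      addOrderOf w = p ^ (Nat.card Gal(L/M)).factorization p := by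
  obtain ⟨v₀, hgen⟩ : ∃ v₀ : HeightOneSpectrum (𝓞 ℚ), natGenerator v₀ = p :=
    ⟨pcycPlace p hp, natGenerator_pcycPlace p hp⟩
  subst hgen
  haveI : NeZero (natGenerator v₀) := ⟨hp.ne_zero⟩
  set a := (Nat.card Gal(L/M)).factorization (natGenerator v₀) with ha
  have hζp := IsCyclotomicExtension.zeta_spec (natGenerator v₀) ℚ M
  have hcard := fcl_natCard_gal_crossE (natGenerator v₀) a hp M L
  have hdvd : natGenerator v₀ ^ a ∣ Nat.card Gal(L/M) := Nat.ordProj_dvd _ _
  obtain ⟨w, hw⟩ := fundClass_of_cross v₀ (a + 1) M L hp2 hcyc hζp (by rw [hcard]; exact hdvd)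
  exact ⟨w, by rw [hw, hcard]⟩

/-- **(GL14), unconditional**: for `p` odd, `M = ℚ(ζ_p)`, `L ⊇ M` Galois over `ℚ`:
`H²(Gal(L/M), C_L)` contains a class of order `p ^ v_p([L : M])`. -/
theorem fundClass_exists_holds (p : ℕ) (hp : p.Prime) (hp2 : p ≠ 2)
    (M L : Type) [Field M] [NumberField M] [Field L] [NumberField L] [Algebra M L]
    [IsGalois ℚ M] [IsGalois ℚ L] [IsGalois M L] [IsCyclotomicExtension {p} ℚ M] :
    ∃ w : groupCohomology (idClassRep ℚ M L) 2,
      addOrderOf w = p ^ (Nat.card Gal(L/M)).factorization p :=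
  haveI : Fact p.Prime := ⟨hp⟩
  fundClass_exists p hp hp2 (idCyclicLayer_holds ℚ p hp2) M L

end Fermat.Agent.CFT
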