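/-
CFT, S55 pool, GLOBAL-IDELIC layer (GL14)(c), structural half (helper4): the instantiation of ALL
non-arithmetic hypotheses of helper18's abstract Artin-Tate comparison
`exists_addOrderOf_eq_card_of_cyclic_comparison_of_coprime` (`Coh/FundClassAbs2.lean`) for idele
class groups.

`K` tensor base, `M ≤ L ≤ N` and `M ≤ L' ≤ N` number fields, `L/M`, `L'/M`, `N/M` Galois, `p` odd,
`μ_p ⊆ M`, `Gal(L'/M) = ⟨σ⟩` of order `p ^ k`, `Gal(N/L) = ⟨τ⟩`, `τ|_{L'} = σ ^ d`,
`d * |Gal(N/L)| = |Gal(L'/M)|`; `c ∈ C_{L'}` fixed by `Gal(L'/M)` with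
* `hord` : `c ^ j` is a `Gal(L'/M)`-norm only if `|Gal(L'/M)| ∣ j`,
* `hnorm` : the image of `c` in `C_N` is a `Gal(N/L)`-norm.
Then `H²(Gal(L/M), C_L)` contains a class of order `|Gal(L'/M)|` (`fcS_exists_addOrderOf_eq`).
-/
import Mathlib
import Fermat.Agent.CFT.Idele.DevissageFinal
import Fermat.Agent.CFT.Coh.FundClassAbs2

set_option autoImplicit false
set_option linter.unusedSectionVars false
set_option linter.style.haveILetI false

open CategoryTheory groupCohomology Rep NumberField IsDedekindDomain IntermediateField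
open scoped TensorProduct Fermat.Agent.CFT.TensorGal Fermat.Agent.CFT.IdeleAct

namespace Fermat.Agent.CFT

attribute [local instance] additiveDistribMulAction ideleGroupActionOf ideleClassActionOf
  idClassCommGroup

section Iso

variable (K M L : Type) [Field K] [NumberField K] [Field M] [NumberField M]
  [Field L] [NumberField L] [Algebra K M] [Algebra M L] [Algebra K L] [IsScalarTower K M L]

/-- `idClassRep K M L` is Mathlib's `Rep.ofMulDistribMulAction`. -/
noncomputable def fcS_toRep :
    Rep.ofMulDistribMulAction Gal(L/M) (ideleClass K L) ⟶ idClassRep K M L :=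
  ofHom ⟨LinearMap.id, fun _ => rfl⟩

noncomputable def fcS_ofRep :
    idClassRep K M L ⟶ Rep.ofMulDistribMulAction Gal(L/M) (ideleClass K L) :=
  ofHom ⟨LinearMap.id, fun _ => rfl⟩

noncomputable def fcS_iso :
    Rep.ofMulDistribMulAction Gal(L/M) (ideleClass K L) ≅ idClassRep K M L where
  hom := fcS_toRep K M L
  inv := fcS_ofRep K M L
  hom_inv_id := rfl
  inv_hom_id := rfl

theorem fcS_exists_of_ofMul {n : ℕ}
    (h : ∃ w : groupCohomology (Rep.ofMulDistribMulAction Gal(L/M) (ideleClass K L)) 2,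
      addOrderOf w = n) :
    ∃ w : groupCohomology (idClassRep K M L) 2, addOrderOf w = n := by
  obtain ⟨w, hw⟩ := h
  let e := (functor ℤ Gal(L/M) 2).mapIso (fcS_iso K M L)
  refine ⟨e.hom w, ?_⟩
  rw [← hw]
  exact addOrderOf_injective e.hom.hom.toAddMonoidHom
    ((ConcreteCategory.bijective_of_isIso e.hom).1) w

end Iso

end Fermat.Agent.CFT

namespace Fermat.Agent.CFT

attribute [local instance] additiveDistribMulAction ideleGroupActionOf ideleClassActionOf
  idClassCommGroup

section Struct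

variable (K M F N : Type) [Field K] [NumberField K] [Field M] [NumberField M]
  [Field F] [NumberField F] [Field N] [NumberField N]
  [Algebra K M] [Algebra K F] [Algebra K N] [Algebra M F] [Algebra F N] [Algebra M N]
  [IsScalarTower K M F] [IsScalarTower K F N] [IsScalarTower K M N] [IsScalarTower M F N]
  [Normal M F] [IsGalois M N]

/-- equivariance of `C_F → C_N` along `Gal(N/M) → Gal(F/M)`, multiplicative form. -/
theorem fcS_hf (γ : Gal(N/M)) (m : ideleClass K F) :
    relClass K F N ((galProj M F N γ) • m) = γ • relClass K F N m :=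
  dvs_relClass_smul (relGalHom K M N γ) (relGalHom K M F (galProj M F N γ))
    (dvs_galProj_compat K M F N γ) m

include M in
theorem fcS_hfi : Function.Injective (relClass K F N) := by
  have : IsGalois F N := IsGalois.tower_top_of_isGalois M F N
  exact relClass_injective K F N

theorem fcS_hfr (m : ideleClass K N) (hm : ∀ γ ∈ (galProj M F N).ker, γ • m = m) :
    ∃ m', relClass K F N m' = m := by
  obtain ⟨a', ha'⟩ := exists_idClassInfHom_eq K M F N (Additive.ofMul m)
    (fun s hs => congrArg Additive.ofMul (hm s hs))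
  exact ⟨Additive.toMul a', congrArg Additive.toMul ha'⟩

theorem fcS_he (t : Gal(N/F)) (m : ideleClass K N) :
    MonoidHom.id (ideleClass K N) ((galIncl M F N t) • m) = t • MonoidHom.id (ideleClass K N) m :=
  rfl

end Struct

end Fermat.Agent.CFT

namespace Fermat.Agent.CFT

attribute [local instance] additiveDistribMulAction ideleGroupActionOf ideleClassActionOf
  idClassCommGroup

section H1

variable (K M N : Type) [Field K] [NumberField K] [Field M] [NumberField M]
  [Field N] [NumberField N]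
  [Algebra K M] [Algebra K N] [Algebra M N] [IsScalarTower K M N] [IsGalois M N]
  (p : ℕ) [hp : Fact p.Prime] (hp2 : p ≠ 2) (hζ : ∃ ζ : M, IsPrimitiveRoot ζ p)

include hp2 hζ

/-- `H¹(S, C_N) = 0` in cocycle form for `p`-subgroups `S ≤ Gal(N/M)`. -/
theorem fcS_h1ResVanishes (S : Subgroup Gal(N/M)) (hS : IsPGroup p S) :
    H1ResVanishes (Rep.ofMulDistribMulAction Gal(N/M) (ideleClass K N)) S := by
  have hz := idClassF_h1 K M N p hp2 hζ S hS
  have : Subsingleton (H1 (res S.subtype (idClassRep K M N))) :=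
    ModuleCat.isZero_iff_subsingleton.mp hz
  have h := H1ResVanishes_of_subsingleton (idClassRep K M N) S
  exact fun x hx => h x hx

/-- `H¹(S, C_N)` is killed by an integer prime to `p`, for every subgroup `S ≤ Gal(N/M)`. -/
theorem fcS_h1ResKilledBy (S : Subgroup Gal(N/M)) :
    ∃ m : ℕ, p.Coprime m ∧
      H1ResKilledBy (Rep.ofMulDistribMulAction Gal(N/M) (ideleClass K N)) S m := by
  obtain ⟨P⟩ : Nonempty (Sylow p S) := inferInstance
  set P' : Subgroup Gal(N/M) := (P : Subgroup S).map S.subtype with hP'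
  have hle : P' ≤ S := Subgroup.map_subtype_le _
  have hPg : IsPGroup p P' := P.isPGroup'.map S.subtype
  have h1 := fcS_h1ResVanishes K M N p hp2 hζ P' hPg
  refine ⟨P'.relIndex S, ?_, h1ResKilledBy_of_le P' hle h1⟩
  have e : P'.relIndex S = (P : Subgroup S).index := by
    rw [Subgroup.relIndex, hP']
    congr 1
    exact Subgroup.comap_map_eq_self_of_injective S.subtype_injective _
  rw [e]
  exact (Nat.Prime.coprime_iff_not_dvd hp.out).mpr P.not_dvd_index

end H1

end Fermat.Agent.CFT

namespace Fermat.Agent.CFT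

attribute [local instance] additiveDistribMulAction ideleGroupActionOf ideleClassActionOf
  idClassCommGroup

section Main

variable (K M L L' N : Type) [Field K] [NumberField K] [Field M] [NumberField M]
  [Field L] [NumberField L] [Field L'] [NumberField L'] [Field N] [NumberField N]
  [Algebra K M] [Algebra K L] [Algebra K L'] [Algebra K N]
  [Algebra M L] [Algebra M L'] [Algebra M N] [Algebra L N] [Algebra L' N]
  [IsScalarTower K M L] [IsScalarTower K M L'] [IsScalarTower K M N]
  [IsScalarTower K L N] [IsScalarTower K L' N] [IsScalarTower M L N] [IsScalarTower M L' N]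
  [IsGalois M L] [IsGalois M L'] [IsGalois M N]

theorem fcS_exists_addOrderOf_eq_mul (p : ℕ) [hp : Fact p.Prime] (hp2 : p ≠ 2)
    (hζ : ∃ ζ : M, IsPrimitiveRoot ζ p)
    [Fintype Gal(L'/M)] [Fintype Gal(N/L)]
    {k : ℕ} (hG' : Nat.card Gal(L'/M) = p ^ k)
    {σ : Gal(L'/M)} (hσ : ∀ x, x ∈ Subgroup.zpowers σ)
    {τ : Gal(N/L)} (hτ : ∀ x, x ∈ Subgroup.zpowers τ)
    {d : ℕ} (hd : galProj M L' N (galIncl M L N τ) = σ ^ d)
    (hcard : d * Nat.card Gal(N/L) = Nat.card Gal(L'/M))
    (c : ideleClass K L') (hc : ∀ g : Gal(L'/M), g • c = c)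
    (hord : ∀ j : ℕ, (∃ b : ideleClass K L', ∏ g : Gal(L'/M), g • b = c ^ j) →
      Nat.card Gal(L'/M) ∣ j)
    (hnorm : ∃ b : ideleClass K N, ∏ t : Gal(N/L), t • b = relClass K L' N c) :
    ∃ w : groupCohomology (Rep.ofMulDistribMulAction Gal(L/M) (ideleClass K L)) 2,
      addOrderOf w = Nat.card Gal(L'/M) := by
  have hex : (galIncl M L N).range = (galProj M L N).ker := range_galIncl M L N
  -- `ker π` is a `p`-group
  have hTp : IsPGroup p Gal(N/L) := by
    have hdvd : Nat.card Gal(N/L) ∣ p ^ k := hG' ▸ Dvd.intro_left d hcard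
    obtain ⟨j, -, hj⟩ := (Nat.dvd_prime_pow hp.out).mp hdvd
    exact IsPGroup.of_card hj
  have hkerp : IsPGroup p (galProj M L N).ker := by
    rw [← hex]
    exact hTp.of_surjective (galIncl M L N).rangeRestrict (galIncl M L N).rangeRestrict_surjective
  have h1 := fcS_h1ResVanishes K M N p hp2 hζ (galProj M L N).ker hkerp
  obtain ⟨m, hm, h1'⟩ := fcS_h1ResKilledBy K M N p hp2 hζ (galProj M L' N).ker
  have hm' : (Nat.card Gal(L'/M)).Coprime m := by
    rw [hG']
    exact Nat.Coprime.pow_left k hm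
  exact exists_addOrderOf_eq_card_of_cyclic_comparison_of_coprime
    (galProj M L N) (AlgEquiv.restrictNormalHom_surjective N)
    (relClass K L N) (fcS_hf K M L N) (fcS_hfi K M L N) (fcS_hfr K M L N)
    (galProj M L' N) (AlgEquiv.restrictNormalHom_surjective N)
    (relClass K L' N) (fcS_hf K M L' N) (fcS_hfi K M L' N) (fcS_hfr K M L' N)
    (galIncl M L N) (galIncl_injective M L N) hex
    (MonoidHom.id (ideleClass K N)) (fun _ _ => rfl) Function.bijective_id
    h1 hm' h1' hσ hτ hd hcard c hc hord hnorm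

end Main

end Fermat.Agent.CFT

namespace Fermat.Agent.CFT

attribute [local instance] additiveDistribMulAction ideleGroupActionOf ideleClassActionOf
  idClassCommGroup

section Final

variable (K M L L' N : Type) [Field K] [NumberField K] [Field M] [NumberField M]
  [Field L] [NumberField L] [Field L'] [NumberField L'] [Field N] [NumberField N]
  [Algebra K M] [Algebra K L] [Algebra K L'] [Algebra K N]
  [Algebra M L] [Algebra M L'] [Algebra M N] [Algebra L N] [Algebra L' N]
  [IsScalarTower K M L] [IsScalarTower K M L'] [IsScalarTower K M N]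
  [IsScalarTower K L N] [IsScalarTower K L' N] [IsScalarTower M L N] [IsScalarTower M L' N]
  [IsGalois M L] [IsGalois M L'] [IsGalois M N]

/-- **(GL14)(c), structural half**: the fundamental class of `L/M` by comparison with the cyclic
layer `L'/M` inside `N`, in `idClassRep` form. -/
theorem fcS_exists_addOrderOf_eq (p : ℕ) [hp : Fact p.Prime] (hp2 : p ≠ 2)
    (hζ : ∃ ζ : M, IsPrimitiveRoot ζ p)
    [Fintype Gal(L'/M)] [Fintype Gal(N/L)]
    {k : ℕ} (hG' : Nat.card Gal(L'/M) = p ^ k)
    {σ : Gal(L'/M)} (hσ : ∀ x, x ∈ Subgroup.zpowers σ)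
    {τ : Gal(N/L)} (hτ : ∀ x, x ∈ Subgroup.zpowers τ)
    {d : ℕ} (hd : galProj M L' N (galIncl M L N τ) = σ ^ d)
    (hcard : d * Nat.card Gal(N/L) = Nat.card Gal(L'/M))
    (c : ideleClass K L') (hc : ∀ g : Gal(L'/M), g • c = c)
    (hord : ∀ j : ℕ, (∃ b : ideleClass K L', ∏ g : Gal(L'/M), g • b = c ^ j) →
      Nat.card Gal(L'/M) ∣ j)
    (hnorm : ∃ b : ideleClass K N, ∏ t : Gal(N/L), t • b = relClass K L' N c) :
    ∃ w : groupCohomology (idClassRep K M L) 2, addOrderOf w = Nat.card Gal(L'/M) :=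
  fcS_exists_of_ofMul K M L
    (fcS_exists_addOrderOf_eq_mul K M L L' N p hp2 hζ hG' hσ hτ hd hcard c hc hord hnorm)

/-- the same, with the conclusion in the shape consumed by `Idele/DevissageFinal.lean` when
`p ^ k` is the `p`-part of `[L : M]`. -/
theorem fcS_exists_dvd_addOrderOf (p : ℕ) [hp : Fact p.Prime] (hp2 : p ≠ 2)
    (hζ : ∃ ζ : M, IsPrimitiveRoot ζ p)
    [Fintype Gal(L'/M)] [Fintype Gal(N/L)]
    (hG' : Nat.card Gal(L'/M) = p ^ (Nat.card Gal(L/M)).factorization p)
    {σ : Gal(L'/M)} (hσ : ∀ x, x ∈ Subgroup.zpowers σ)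
    {τ : Gal(N/L)} (hτ : ∀ x, x ∈ Subgroup.zpowers τ)
    {d : ℕ} (hd : galProj M L' N (galIncl M L N τ) = σ ^ d)
    (hcard : d * Nat.card Gal(N/L) = Nat.card Gal(L'/M))
    (c : ideleClass K L') (hc : ∀ g : Gal(L'/M), g • c = c)
    (hord : ∀ j : ℕ, (∃ b : ideleClass K L', ∏ g : Gal(L'/M), g • b = c ^ j) →
      Nat.card Gal(L'/M) ∣ j)
    (hnorm : ∃ b : ideleClass K N, ∏ t : Gal(N/L), t • b = relClass K L' N c) :
    ∃ w : groupCohomology (idClassRep K M L) 2,
      p ^ (Nat.card Gal(L/M)).factorization p ∣ addOrderOf w := by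
  obtain ⟨w, hw⟩ := fcS_exists_addOrderOf_eq K M L L' N p hp2 hζ hG' hσ hτ hd hcard c hc hord
    hnorm
  exact ⟨w, by rw [hw, hG']⟩

end Final

end Fermat.Agent.CFT
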