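import Mathlib
import Fermat.Agent.CFT.Idele.IdeleNormOrd
import Fermat.Agent.CFT.Idele.IdeleArtin

set_option autoImplicit false
set_option linter.unusedSectionVars false

/-!
# S55, GLOBAL-IDELIC: the idelic Artin map kills the norms

`L/K` abelian with an Artin modulus `m` such that `L/K` is unramified outside `m`:
`ideleArtin_ideleNorm : ideleArtin hm0 hm (ideleNorm K L y) = 1` for every idele `y` of `L`,
so that the Artin map factors through `J_K / (Kˣ · N J_L)`.
-/

open NumberField IsDedekindDomain WithZero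
open scoped Pointwise IsMulCommutative TensorProduct Fermat.Agent.CFT.TensorGal
  Fermat.Agent.CFT.IdeleAct

namespace Fermat.Agent.CFT

variable {K L : Type*} [Field K] [NumberField K] [Field L] [NumberField L] [Algebra K L]
  [IsGalois K L] [IsMulCommutative Gal(L/K)]

/-- the norm of an idele congruent to `1` modulo `m` is congruent to `1` modulo `m`. -/
theorem ideleNorm_mem_congrIdeles {m : 𝓞 K} (hm0 : m ≠ 0) (z : ideleGroup K L)
    (hz : ∀ v : HeightOneSpectrum (𝓞 K), m ∈ v.asIdeal → IsOneModLocal m v (z.1 v)) :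
    ideleNorm K L z ∈ congrIdeles m := by
  rw [mem_congrIdeles_iff]
  exact fun v hv => valued_ideleNorm_sub_one_le hm0 v z (hz v hv)

/-- **(P4)** the idelic Artin map of an abelian extension kills the norms of the ideles of `L`. -/
theorem ideleArtin_ideleNorm {m : 𝓞 K} (hm0 : m ≠ 0) (hm : IsArtinModulus K L m)
    (hur : ∀ v : HeightOneSpectrum (𝓞 K), m ∉ v.asIdeal → IsUnramifiedAtPrime K L v.asIdeal)
    (y : ideleGroup K L) : ideleArtin hm0 hm (ideleNorm K L y) = 1 := by
  obtain ⟨b, hb⟩ := exists_diagIdele_mul_isOneModLocal hm0 y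
  set z : ideleGroup K L := diagIdele (K := K) b * y with hz
  have hy : y = (diagIdele (K := K) b)⁻¹ * z := by rw [hz, inv_mul_cancel_left]
  have h1 : ideleArtin hm0 hm (ideleNorm K L z) = 1 := by
    rw [ideleArtin_of_mem_congrIdeles hm0 hm (ideleNorm_mem_congrIdeles hm0 z hb), artinAway]
    refine ideleProd_eq_one_of_forall _ _ fun v => ?_
    by_cases hv : m ∈ v.asIdeal
    · rw [frobAway_of_mem K L hv, one_zpow]
    · rw [frobAway_of_not_mem K L hv]
      exact frobOf_zpow_baseOrd_ideleNorm v (hur v hv) z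
  rw [hy, map_mul, map_inv, ideleNorm_diagIdele, map_mul, map_inv, ideleArtin_diagBase, inv_one,
    one_mul, h1]

/-- the idelic Artin map kills `Kˣ · N J_L`. -/
theorem ideleArtin_eq_one_of_mem_sup {m : 𝓞 K} (hm0 : m ≠ 0) (hm : IsArtinModulus K L m)
    (hur : ∀ v : HeightOneSpectrum (𝓞 K), m ∉ v.asIdeal → IsUnramifiedAtPrime K L v.asIdeal)
    {x : baseIdeleGroup K} (hx : x ∈ (diagBase K).range ⊔ (ideleNorm K L).range) :
    ideleArtin hm0 hm x = 1 := by
  rw [← MonoidHom.mem_ker]
  refine (sup_le ?_ ?_ : (diagBase K).range ⊔ (ideleNorm K L).range ≤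
    (ideleArtin hm0 hm).ker) hx
  · rintro _ ⟨a, rfl⟩
    exact ideleArtin_diagBase hm0 hm a
  · rintro _ ⟨y, rfl⟩
    exact ideleArtin_ideleNorm hm0 hm hur y

end Fermat.Agent.CFT
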