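/-
CFT, S55 pool, GLOBAL-IDELIC layer, C-side plan v2 (K1) (helper25): the DIVISOR of an idele.

`K ⊆ L` number fields (no Galois hypothesis), tensor model `J_L = ideleGroup K L`.  Every local
component `a ∈ (K_v ⊗[K] L)ˣ` is `incl(y) · u` with `y ∈ Lˣ` and `u` a local unit (helper21's
`idCN_exists_incl_mul_unit`), and `y` is unique up to elements which are units at all `w ∣ v`; so
`div a := (divFun y w)_{w ∣ v}` is well defined.  Sign convention = `divFun` of
`Global/PrimeDivisor.lean` (Mathlib's: `w(y) = exp (divFun y w)`, i.e. `- ord_w`).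

* `ideleDiv K L : ideleGroup K L →* Multiplicative (HeightOneSpectrum (𝓞 L) →₀ ℤ)`;
* `ideleDiv_diagIdele` : on principal ideles it is `divHom`;
* `ideleDiv_apply_of_eq` : computing with any decomposition `x_v = incl(y) · u`;
* `mem_ideleGroupS_iff_ideleDiv` : `x ∈ J_{L,S}` iff `div x` vanishes off the primes above `S`;
  `ideleDiv_ker` : the kernel is `ideleGroupS K L ∅`;
* `ideleDiv_surjective`;
* `mem_principalIdeles_sup_ideleGroupS_iff` : `x ∈ Lˣ · J_{L,S}` iff `div x ∈ princOff L T`
  (helper1's `Idele/SUnitsH1.lean`), `T` the primes of `L` above `S`;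
* `idDiv_quotEquiv` : `J_L / (Lˣ · J_{L,S}) ≃* Multiplicative (clT L T)`, hence finite.
-/
import Mathlib
import Fermat.Agent.CFT.Idele.ClassNumberGen
import Fermat.Agent.CFT.Idele.LocalDegreeRel
import Fermat.Agent.CFT.Idele.SUnitsH1
import Fermat.Agent.CFT.Global.WeakApprox

set_option autoImplicit false
set_option linter.unusedSectionVars false
set_option linter.style.haveILetI false

open NumberField IsDedekindDomain IsDedekindDomain.HeightOneSpectrum
open scoped TensorProduct

namespace Fermat.Agent.CFT

section Local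

variable (K L : Type) [Field K] [NumberField K] [Field L] [NumberField L] [Algebra K L]

/-- the primes of `L` above a prime of `K` are finitely many (no Galois hypothesis). -/
instance idDiv_finite_primesOver (v : HeightOneSpectrum (𝓞 K)) :
    Finite {w : HeightOneSpectrum (𝓞 L) // primeBelow K L w = v} :=
  Finite.of_equiv _ (ldRel_maxSpecEquiv K L v)

theorem idDiv_finite_setOf_primeBelow_eq (v : HeightOneSpectrum (𝓞 K)) :
    {w : HeightOneSpectrum (𝓞 L) | primeBelow K L w = v}.Finite :=
  Set.finite_coe_iff.mp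
    (inferInstanceAs (Finite {w : HeightOneSpectrum (𝓞 L) // primeBelow K L w = v}))

variable {K L}

/-- the local divisor of `a ∈ (K_v ⊗ L)ˣ` (as a function on all primes of `L`; only the values at
the `w ∣ v` are meaningful). -/
noncomputable def idDiv_localFun (v : HeightOneSpectrum (𝓞 K)) (a : (semiLocal K L v)ˣ)
    (w : HeightOneSpectrum (𝓞 L)) : ℤ :=
  divFun (𝓞 L) L (Classical.choose (idCN_exists_incl_mul_unit v a)) w

/-- **well-definedness**: the local divisor can be computed from any decomposition
`a = incl(y) · u`. -/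
theorem idDiv_localFun_eq (v : HeightOneSpectrum (𝓞 K)) (a : (semiLocal K L v)ˣ) (y : Lˣ)
    (u : (semiLocal K L v)ˣ) (hu : u ∈ semiLocalUnits K L v)
    (ha : a = Units.map (semiLocalIncl K L v : L →* semiLocal K L v) y * u)
    (w : HeightOneSpectrum (𝓞 L)) (hw : primeBelow K L w = v) :
    idDiv_localFun v a w = divFun (𝓞 L) L y w := by
  obtain ⟨u₀, hu₀, ha₀⟩ := Classical.choose_spec (idCN_exists_incl_mul_unit v a)
  set y₀ := Classical.choose (idCN_exists_incl_mul_unit v a) with hy₀
  have h1 : Units.map (semiLocalIncl K L v : L →* semiLocal K L v) (y₀ * y⁻¹) = u * u₀⁻¹ := by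
    rw [map_mul, map_inv]
    have h2 : Units.map (semiLocalIncl K L v : L →* semiLocal K L v) y₀ * u₀ =
        Units.map (semiLocalIncl K L v : L →* semiLocal K L v) y * u := ha₀.symm.trans ha
    rw [← div_eq_mul_inv, ← div_eq_mul_inv, div_eq_div_iff_mul_eq_mul, h2, mul_comm]
  have h3 : Units.map (semiLocalIncl K L v : L →* semiLocal K L v) (y₀ * y⁻¹) ∈
      semiLocalUnits K L v := by
    rw [h1]
    exact (semiLocalUnits K L v).mul_mem hu ((semiLocalUnits K L v).inv_mem hu₀)
  have h4 := (idCNG_incl_mem_semiLocalUnits_iff v (y₀ * y⁻¹)).mp h3 w hw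
  have h5 : divFun (𝓞 L) L (y₀ * y⁻¹) w = 0 := by
    rw [divFun_eq_iff, h4, WithZero.exp_zero]
  rw [divFun_mul, divFun_inv] at h5
  show divFun (𝓞 L) L y₀ w = _
  omega

theorem idDiv_localFun_one (v : HeightOneSpectrum (𝓞 K)) (w : HeightOneSpectrum (𝓞 L))
    (hw : primeBelow K L w = v) : idDiv_localFun v (1 : (semiLocal K L v)ˣ) w = 0 := by
  rw [idDiv_localFun_eq v 1 1 1 (semiLocalUnits K L v).one_mem (by simp) w hw, divFun_one]

theorem idDiv_localFun_mul (v : HeightOneSpectrum (𝓞 K)) (a b : (semiLocal K L v)ˣ)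
    (w : HeightOneSpectrum (𝓞 L)) (hw : primeBelow K L w = v) :
    idDiv_localFun v (a * b) w = idDiv_localFun v a w + idDiv_localFun v b w := by
  obtain ⟨y, u, hu, ha⟩ := idCN_exists_incl_mul_unit v a
  obtain ⟨y', u', hu', hb⟩ := idCN_exists_incl_mul_unit v b
  rw [idDiv_localFun_eq v a y u hu ha w hw, idDiv_localFun_eq v b y' u' hu' hb w hw,
    idDiv_localFun_eq v (a * b) (y * y') (u * u') ((semiLocalUnits K L v).mul_mem hu hu')
      (by rw [ha, hb, map_mul]; exact mul_mul_mul_comm _ _ _ _) w hw, divFun_mul]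

/-- the local divisor vanishes at all `w ∣ v` iff `a` is a local unit. -/
theorem idDiv_localFun_eq_zero_iff (v : HeightOneSpectrum (𝓞 K)) (a : (semiLocal K L v)ˣ) :
    (∀ w : HeightOneSpectrum (𝓞 L), primeBelow K L w = v → idDiv_localFun v a w = 0) ↔
      a ∈ semiLocalUnits K L v := by
  obtain ⟨y, u, hu, ha⟩ := idCN_exists_incl_mul_unit v a
  constructor
  · intro h
    have h1 : Units.map (semiLocalIncl K L v : L →* semiLocal K L v) y ∈
        semiLocalUnits K L v := by
      rw [idCNG_incl_mem_semiLocalUnits_iff]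
      intro w hw
      have h2 := h w hw
      rw [idDiv_localFun_eq v a y u hu ha w hw, divFun_eq_iff, WithZero.exp_zero] at h2
      exact h2
    rw [ha]
    exact (semiLocalUnits K L v).mul_mem h1 hu
  · intro h w hw
    rw [idDiv_localFun_eq v a 1 a h (by simp) w hw, divFun_one]

end Local

section Global

variable (K L : Type) [Field K] [NumberField K] [Field L] [NumberField L] [Algebra K L]

variable {K L} in
/-- the divisor of an idele, as a function. -/
noncomputable def idDiv_fun (x : ideleGroup K L) (w : HeightOneSpectrum (𝓞 L)) : ℤ :=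
  idDiv_localFun (primeBelow K L w) ((x : ∀ v, (semiLocal K L v)ˣ) (primeBelow K L w)) w

variable {K L} in
theorem idDiv_fun_support_finite (x : ideleGroup K L) :
    {w : HeightOneSpectrum (𝓞 L) | idDiv_fun x w ≠ 0}.Finite := by
  have hx : ∀ᶠ v in Filter.cofinite,
      (x : ∀ v, (semiLocal K L v)ˣ) v ∈ semiLocalUnits K L v := x.2
  rw [Filter.eventually_cofinite] at hx
  refine (hx.biUnion fun v _ => idDiv_finite_setOf_primeBelow_eq K L v).subset ?_
  intro w hw
  refine Set.mem_iUnion₂.mpr ⟨primeBelow K L w, ?_, rfl⟩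
  intro hmem
  exact hw ((idDiv_localFun_eq_zero_iff _ _).mpr hmem w rfl)

/-- **the divisor map** `J_L → Div(L)` (multiplicative form). -/
noncomputable def ideleDiv :
    ideleGroup K L →* Multiplicative (HeightOneSpectrum (𝓞 L) →₀ ℤ) where
  toFun x := Multiplicative.ofAdd
    (Finsupp.ofSupportFinite (idDiv_fun x) (idDiv_fun_support_finite x))
  map_one' := by
    apply Multiplicative.toAdd.injective
    ext w
    show idDiv_fun (1 : ideleGroup K L) w = 0
    exact idDiv_localFun_one _ w rfl
  map_mul' x y := by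
    apply Multiplicative.toAdd.injective
    ext w
    show idDiv_fun (x * y) w = idDiv_fun x w + idDiv_fun y w
    exact idDiv_localFun_mul _ _ _ w rfl

variable {K L}

@[simp] theorem ideleDiv_apply (x : ideleGroup K L) (w : HeightOneSpectrum (𝓞 L)) :
    Multiplicative.toAdd (ideleDiv K L x) w = idDiv_fun x w := rfl

/-- computing the divisor from any decomposition of the component at `v`. -/
theorem ideleDiv_apply_of_eq (x : ideleGroup K L) (v : HeightOneSpectrum (𝓞 K)) (y : Lˣ)
    (u : (semiLocal K L v)ˣ) (hu : u ∈ semiLocalUnits K L v)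
    (hx : (x : ∀ v, (semiLocal K L v)ˣ) v =
      Units.map (semiLocalIncl K L v : L →* semiLocal K L v) y * u)
    (w : HeightOneSpectrum (𝓞 L)) (hw : primeBelow K L w = v) :
    Multiplicative.toAdd (ideleDiv K L x) w = divFun (𝓞 L) L y w := by
  subst hw
  exact idDiv_localFun_eq _ _ y u hu hx w rfl

/-- on principal ideles the divisor is the usual divisor. -/
theorem ideleDiv_diagIdele (y : Lˣ) :
    ideleDiv K L (diagIdele (K := K) y) =
      Multiplicative.ofAdd (divHom (𝓞 L) L (Additive.ofMul y)) := by
  apply Multiplicative.toAdd.injective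
  ext w
  rw [ideleDiv_apply_of_eq (diagIdele (K := K) y) (primeBelow K L w) y 1
    (semiLocalUnits K L _).one_mem (by rw [diagIdele_apply, mul_one]) w rfl]
  rfl

/-- the component at `v` is a local unit iff the divisor vanishes at all `w ∣ v`. -/
theorem ideleDiv_eq_zero_iff (x : ideleGroup K L) (v : HeightOneSpectrum (𝓞 K)) :
    (∀ w : HeightOneSpectrum (𝓞 L), primeBelow K L w = v →
        Multiplicative.toAdd (ideleDiv K L x) w = 0) ↔
      (x : ∀ v, (semiLocal K L v)ˣ) v ∈ semiLocalUnits K L v := by
  rw [← idDiv_localFun_eq_zero_iff]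
  constructor
  · intro h w hw
    have := h w hw
    subst hw
    exact this
  · intro h w hw
    have := h w hw
    subst hw
    exact this

/-- `x ∈ J_{L,S}` iff the divisor of `x` vanishes off the primes above `S`. -/
theorem mem_ideleGroupS_iff_ideleDiv (S : Set (HeightOneSpectrum (𝓞 K))) (x : ideleGroup K L) :
    x ∈ ideleGroupS K L S ↔ ∀ w : HeightOneSpectrum (𝓞 L), primeBelow K L w ∉ S →
      Multiplicative.toAdd (ideleDiv K L x) w = 0 := by
  rw [mem_ideleGroupS_iff]
  constructor
  · intro h w hw
    exact (ideleDiv_eq_zero_iff x _).mpr (h _ hw) w rfl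
  · intro h v hv
    rw [← ideleDiv_eq_zero_iff]
    rintro w rfl
    exact h w hv

/-- the kernel of the divisor map is the group of unit ideles. -/
theorem ideleDiv_ker : (ideleDiv K L).ker = ideleGroupS K L ∅ := by
  ext x
  rw [MonoidHom.mem_ker, mem_ideleGroupS_iff_ideleDiv]
  constructor
  · intro h w _
    rw [h]
    rfl
  · intro h
    apply Multiplicative.toAdd.injective
    ext w
    exact h w (Set.notMem_empty _)

variable (K L) in
/-- **the divisor map is onto.** -/
theorem ideleDiv_surjective : Function.Surjective (ideleDiv K L) := by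
  classical
  intro D'
  set D : HeightOneSpectrum (𝓞 L) →₀ ℤ := Multiplicative.toAdd D' with hD
  -- the primes of `K` below the support
  let B : Finset (HeightOneSpectrum (𝓞 K)) := D.support.image (primeBelow K L)
  -- local choices
  have hloc : ∀ v : HeightOneSpectrum (𝓞 K), ∃ c : Lˣ, ∀ w : HeightOneSpectrum (𝓞 L),
      primeBelow K L w = v → divFun (𝓞 L) L c w = D w := by
    intro v
    obtain ⟨c, hc⟩ := exists_units_forall_valuation_eq (R := 𝓞 L) L
      (idDiv_finite_setOf_primeBelow_eq K L v).toFinset (fun w => - D w)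
    refine ⟨c, fun w hw => ?_⟩
    have := hc w ((idDiv_finite_setOf_primeBelow_eq K L v).mem_toFinset.mpr hw)
    rw [neg_neg] at this
    exact (divFun_eq_iff (𝓞 L) L c w (D w)).mpr this
  choose c hc using hloc
  let xf : ∀ v : HeightOneSpectrum (𝓞 K), (semiLocal K L v)ˣ := fun v =>
    if v ∈ B then Units.map (semiLocalIncl K L v : L →* semiLocal K L v) (c v) else 1
  have hxf : xf ∈ ideleGroup K L := by
    rw [mem_ideleGroup_iff, Filter.eventually_cofinite]
    refine B.finite_toSet.subset ?_
    intro v hv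
    by_contra hvB
    apply hv
    show xf v ∈ semiLocalUnits K L v
    have hvB' : v ∉ B := hvB
    simp only [xf, if_neg hvB']
    exact (semiLocalUnits K L v).one_mem
  refine ⟨⟨xf, hxf⟩, ?_⟩
  apply Multiplicative.toAdd.injective
  ext w
  by_cases hw : primeBelow K L w ∈ B
  · rw [ideleDiv_apply_of_eq ⟨xf, hxf⟩ (primeBelow K L w) (c (primeBelow K L w)) 1
      (semiLocalUnits K L _).one_mem (by simp only [xf, if_pos hw, mul_one]) w rfl]
    exact hc _ w rfl
  · rw [ideleDiv_apply_of_eq ⟨xf, hxf⟩ (primeBelow K L w) 1 1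
      (semiLocalUnits K L _).one_mem (by simp only [xf, if_neg hw, map_one, mul_one]) w rfl,
      divFun_one]
    have hwD : w ∉ D.support := fun h => hw (Finset.mem_image_of_mem _ h)
    exact (Finsupp.notMem_support_iff.mp hwD).symm

/-- **`x ∈ Lˣ · J_{L,S}` iff the divisor of `x` is principal off the primes above `S`.** -/
theorem mem_principalIdeles_sup_ideleGroupS_iff (S : Set (HeightOneSpectrum (𝓞 K)))
    (T : Set (HeightOneSpectrum (𝓞 L))) (hT : ∀ w, w ∈ T ↔ primeBelow K L w ∈ S)
    (x : ideleGroup K L) :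
    x ∈ principalIdeles K L ⊔ ideleGroupS K L S ↔
      Multiplicative.toAdd (ideleDiv K L x) ∈ princOff L T := by
  rw [mem_princOff_iff]
  constructor
  · intro hx
    obtain ⟨a, ha, s, hs, rfl⟩ := Subgroup.mem_sup.mp hx
    obtain ⟨y, rfl⟩ := ha
    refine ⟨y, fun w hw => ?_⟩
    have hs' := (mem_ideleGroupS_iff_ideleDiv S s).mp hs w (fun h => hw ((hT w).mpr h))
    rw [map_mul, toAdd_mul, Finsupp.add_apply, hs', add_zero, ideleDiv_diagIdele]
    rfl
  · rintro ⟨a, ha⟩
    have hs : x * (diagIdele (K := K) a)⁻¹ ∈ ideleGroupS K L S := by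
      rw [mem_ideleGroupS_iff_ideleDiv]
      intro w hw
      have h1 := ha w (fun h => hw ((hT w).mp h))
      rw [map_mul, map_inv, toAdd_mul, toAdd_inv, Finsupp.add_apply, Finsupp.neg_apply, h1,
        ideleDiv_diagIdele]
      show divFun (𝓞 L) L a w + -divFun (𝓞 L) L a w = 0
      omega
    have : x = diagIdele (K := K) a * (x * (diagIdele (K := K) a)⁻¹) := by
      rw [mul_comm x, mul_inv_cancel_left]
    rw [this]
    exact Subgroup.mul_mem_sup ⟨a, rfl⟩ hs

end Global

section Quotient

variable (K L : Type) [Field K] [NumberField K] [Field L] [NumberField L] [Algebra K L]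
  (S : Set (HeightOneSpectrum (𝓞 K))) (T : Set (HeightOneSpectrum (𝓞 L)))
  (hT : ∀ w, w ∈ T ↔ primeBelow K L w ∈ S)

/-- the class of the divisor of an idele in `Cl_T(L)`. -/
noncomputable def idDiv_classHom : ideleGroup K L →* Multiplicative (clT L T) :=
  (AddMonoidHom.toMultiplicative (QuotientAddGroup.mk' (princOff L T))).comp (ideleDiv K L)

theorem idDiv_classHom_apply (x : ideleGroup K L) :
    Multiplicative.toAdd (idDiv_classHom K L T x) =
      QuotientAddGroup.mk' (princOff L T) (Multiplicative.toAdd (ideleDiv K L x)) := rfl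

theorem idDiv_classHom_surjective : Function.Surjective (idDiv_classHom K L T) := by
  intro c
  obtain ⟨D, hD⟩ := QuotientAddGroup.mk'_surjective (princOff L T) (Multiplicative.toAdd c)
  obtain ⟨x, hx⟩ := ideleDiv_surjective K L (Multiplicative.ofAdd D)
  refine ⟨x, Multiplicative.toAdd.injective ?_⟩
  rw [idDiv_classHom_apply, hx]
  exact hD

include hT in
theorem idDiv_classHom_ker :
    (idDiv_classHom K L T).ker = principalIdeles K L ⊔ ideleGroupS K L S := by
  ext x
  rw [MonoidHom.mem_ker, mem_principalIdeles_sup_ideleGroupS_iff S T hT]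
  constructor
  · intro h
    have h1 := congrArg Multiplicative.toAdd h
    rw [idDiv_classHom_apply] at h1
    exact (QuotientAddGroup.eq_zero_iff _).mp h1
  · intro h
    apply Multiplicative.toAdd.injective
    rw [idDiv_classHom_apply]
    exact (QuotientAddGroup.eq_zero_iff _).mpr h

/-- **`J_L / (Lˣ · J_{L,S}) ≃ Cl_T(L)`**, `T` the primes of `L` above `S`. -/
noncomputable def idDiv_quotEquiv :
    (ideleGroup K L ⧸ (principalIdeles K L ⊔ ideleGroupS K L S)) ≃* Multiplicative (clT L T) :=
  (QuotientGroup.quotientMulEquivOfEq (idDiv_classHom_ker K L S T hT).symm).trans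
    (QuotientGroup.quotientKerEquivOfSurjective (idDiv_classHom K L T)
      (idDiv_classHom_surjective K L T))

theorem idDiv_quotEquiv_mk (x : ideleGroup K L) :
    idDiv_quotEquiv K L S T hT (QuotientGroup.mk x) = idDiv_classHom K L T x := rfl

include hT in
/-- `Lˣ · J_{L,S}` has finite index in `J_L` (finiteness of the class group). -/
theorem idDiv_finite_quotient :
    Finite (ideleGroup K L ⧸ (principalIdeles K L ⊔ ideleGroupS K L S)) :=
  Finite.of_equiv _ (idDiv_quotEquiv K L S T hT).symm.toEquiv

include hT in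
theorem idDiv_finiteIndex : (principalIdeles K L ⊔ ideleGroupS K L S).FiniteIndex := by
  have := idDiv_finite_quotient K L S T hT
  exact Subgroup.finiteIndex_of_finite_quotient

include hT in
/-- **(TOR)**: every idele has a power in `Lˣ · J_{L,S}`. -/
theorem idDiv_exists_pow_mem (x : ideleGroup K L) :
    ∃ n : ℕ, 0 < n ∧ x ^ n ∈ principalIdeles K L ⊔ ideleGroupS K L S := by
  have := idDiv_finiteIndex K L S T hT
  refine ⟨(principalIdeles K L ⊔ ideleGroupS K L S).index,
    Nat.pos_of_ne_zero Subgroup.FiniteIndex.index_ne_zero, ?_⟩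
  exact Subgroup.pow_index_mem _ x

end Quotient

end Fermat.Agent.CFT
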