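import Mathlib
import Fermat.Agent.CFT.Idele.Base

set_option autoImplicit false
set_option linter.unusedSectionVars false

/-!
# CFT, S55 global pool, (C-W) glue : from `b ∉ Kˣ · N J_L` to "the class of `b` is not a norm"

`L / K` a finite Galois extension of number fields, `b ∈ J_K`.  If `b ∉ Kˣ · N_{L/K} J_L`
(the shape of helper19's `pcycW`) then the class of `b` in `C_L` is not the product of the
conjugates of any idele class (`idW_prod_smul_class_ne`), i.e. it is not a norm from `C_L`: the
hypothesis `hnn` of `cycRep_exists_class` (`Coh/CycClassRep.lean`) in the idele model.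
-/

open NumberField IsDedekindDomain
open scoped TensorProduct Fermat.Agent.CFT.TensorGal Fermat.Agent.CFT.IdeleAct

namespace Fermat.Agent.CFT

section

variable {K L : Type*} [Field K] [NumberField K] [Field L] [NumberField L] [Algebra K L]
  [IsGalois K L]

/-- A principal idele of `L` fixed by the Galois group comes from `K`. -/
theorem idW_diagIdele_mem_range_iff (x : Lˣ)
    (hx : diagIdele (K := K) x ∈ (baseToIdele K L).range) :
    ∃ x₀ : Kˣ, diagIdele (K := K) x = baseToIdele K L (diagBase K x₀) := by
  rw [mem_range_baseToIdele_iff] at hx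
  have hfix : ∀ g : Gal(L/K), g (x : L) = x := by
    intro g
    have h1 := hx g
    rw [← diagIdele_smul] at h1
    have h2 := diagIdele_injective (K := K) (L := L) h1
    exact congrArg (fun u : Lˣ => (u : L)) h2
  have hmem : (x : L) ∈ (⊥ : IntermediateField K L) := by
    rw [← IsGalois.fixedField_top (F := K) (E := L), IntermediateField.mem_fixedField_iff]
    exact fun g _ => hfix g
  obtain ⟨a, ha⟩ := IntermediateField.mem_bot.1 hmem
  have ha0 : a ≠ 0 := by
    rintro rfl
    rw [map_zero] at ha
    exact x.ne_zero ha.symm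
  refine ⟨Units.mk0 a ha0, ?_⟩
  rw [baseToIdele_diagBase]
  congr 1
  apply Units.ext
  rw [Units.coe_map]
  exact ha.symm

/-- **(W) ⟹ non-norm**: if the base idele `b` is not in `Kˣ · N J_L`, then the class of `b` in
`C_L` is not the norm (product of the conjugates) of any idele class. -/
theorem idW_prod_smul_mul_inv_not_mem (b : baseIdeleGroup K)
    (hb : b ∉ (diagBase K).range ⊔ (ideleNorm K L).range) (y : ideleGroup K L) :
    (∏ g : Gal(L/K), g • y) * (baseToIdele K L b)⁻¹ ∉ principalIdeles K L := by
  rintro ⟨x, hx⟩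
  rw [← baseToIdele_ideleNorm, ← map_inv, ← map_mul] at hx
  obtain ⟨x₀, hx₀⟩ := idW_diagIdele_mem_range_iff x ⟨_, hx.symm⟩
  rw [hx₀] at hx
  have h := baseToIdele_injective K L hx
  apply hb
  have hb' : b = (diagBase K x₀)⁻¹ * ideleNorm K L y := by
    rw [h]; group
  rw [hb']
  exact Subgroup.mul_mem _ (Subgroup.mem_sup_left (Subgroup.inv_mem _ ⟨x₀, rfl⟩))
    (Subgroup.mem_sup_right ⟨y, rfl⟩)

/-- class form of `idW_prod_smul_mul_inv_not_mem`: the class of `b` in `C_L` is not a norm. -/
theorem idW_prod_smul_class_ne (b : baseIdeleGroup K)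
    (hb : b ∉ (diagBase K).range ⊔ (ideleNorm K L).range) (c : ideleClass K L) :
    ∏ g : Gal(L/K), g • c ≠ ((baseToIdele K L b : ideleGroup K L) : ideleClass K L) := by
  induction c using QuotientGroup.induction_on with
  | H y =>
    intro h
    have h1 : (∏ g : Gal(L/K), g • (y : ideleClass K L)) =
        ((∏ g : Gal(L/K), g • y : ideleGroup K L) : ideleClass K L) := by
      rw [QuotientGroup.mk_prod]
      rfl
    rw [h1, QuotientGroup.eq_iff_div_mem, div_eq_mul_inv] at h
    exact idW_prod_smul_mul_inv_not_mem b hb y h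

end

end Fermat.Agent.CFT
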