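import Fermat.Agent.CFT.Idele.SecondIneqRelFinal
import Fermat.Agent.CFT.Idele.RelativeTower
import Fermat.Agent.CFT.Idele.PCycloNormKill
import Fermat.Agent.CFT.Idele.PCycloNonSplit

set_option autoImplicit false
set_option linter.unusedSectionVars false
set_option linter.style.haveILetI false

/-!
# CFT, S55 global-idelic stream, (GL14): norm limitation for `p`-power cyclotomic layers

* `pcycNL_index_range_relClassNorm_dvd`: for `K ≤ M ≤ L` (`K` the tensor base), `L/M` Galois of
  degree `p ^ k`, `p` odd, `ζ_p ∈ M`: `[C_M : N_{L/M} C_L]` is nonzero and divides `p ^ k`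
  (tower induction on the relative second inequality; no cohomology).
* `pcycNL_ker_eq_of_index`: the abstract counting lemma.
* `pcycNL_ideleNorm_relIdeleNorm`: `N_{M/K} ∘ N_{L/M} = N_{L/K}` with values in the ideles of the
  base field.
* `pcycNLChar v₀ r L = pcycArtin v₀ r ∘ N_{L/ℚ}` and **norm limitation** `pcycNL_ker_pcycNLChar`:
  for `L/ℚ` Galois, `ζ_P ∈ L`, `P` odd, `N = L(ζ_{P^r})`: `ker χ_L = Lˣ · N_{N/L} J_N` (the
  Frobenius-idele evaluation is an explicit hypothesis `hfrob`).
-/

open NumberField IsDedekindDomain IsDedekindDomain.HeightOneSpectrum IntermediateField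
  Rat.HeightOneSpectrum
open scoped TensorProduct Fermat.Agent.CFT.TensorGal Fermat.Agent.CFT.IdeleAct

namespace Fermat.Agent.CFT

section Counting

/-- **counting**: if `B ≤ ker χ` has finite index dividing `t` and `χ` takes a value of order `t`,
then `ker χ = B`. -/
theorem pcycNL_ker_eq_of_index {J A : Type*} [Group J] [Group A] (χ : J →* A) (B : Subgroup J)
    (hB : B ≤ χ.ker) (h0 : B.index ≠ 0) {t : ℕ} (ht : B.index ∣ t) (z : J)
    (hz : orderOf (χ z) = t) : χ.ker = B := by
  have hdvd : χ.ker.index ∣ B.index := Subgroup.index_dvd_of_le hB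
  have hfin : χ.ker.index ≠ 0 := fun h => h0 (by rwa [h, zero_dvd_iff] at hdvd)
  -- `t ≤ |range χ| = index (ker χ)`
  have hrange : χ.ker.index = Nat.card χ.range := Subgroup.index_ker χ
  haveI : Finite χ.range := by
    apply Nat.finite_of_card_ne_zero
    rwa [← hrange]
  have h1 : orderOf (⟨χ z, z, rfl⟩ : χ.range) = t := by
    rw [← hz, ← Subgroup.orderOf_coe]
  have hle : t ≤ Nat.card χ.range := by
    rw [← h1]
    exact orderOf_le_card
  have ht0 : t ≠ 0 := by
    rw [← h1]
    exact (orderOf_pos _).ne'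
  have h1' : B.index ≤ t := Nat.le_of_dvd (Nat.pos_of_ne_zero ht0) ht
  have h2 : χ.ker.index ≤ B.index := Nat.le_of_dvd (Nat.pos_of_ne_zero h0) hdvd
  have heq : B.index = χ.ker.index := by
    rw [hrange] at h2 ⊢
    omega
  have hrel := Subgroup.relIndex_mul_index hB
  rw [heq] at hrel
  have hrel1 : B.relIndex χ.ker = 1 := by
    have hpos : 0 < χ.ker.index := Nat.pos_of_ne_zero hfin
    exact Nat.eq_of_mul_eq_mul_right hpos (by rw [hrel, one_mul])
  exact le_antisymm (Subgroup.relIndex_eq_one.mp hrel1) hB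

end Counting

section Layer

variable (K : Type) [Field K] [NumberField K]

/-- a subgroup of finite index `≤ p` whose quotient is killed by `p` has index dividing `p`. -/
theorem pcycNL_index_dvd_prime {C : Type*} [CommGroup C] (B : Subgroup C) {p : ℕ} (hp : p.Prime)
    (h0 : B.index ≠ 0) (hle : B.index ≤ p) (hpow : ∀ c : C, c ^ p ∈ B) : B.index ∣ p := by
  haveI : Fact p.Prime := ⟨hp⟩
  haveI : Finite (C ⧸ B) := by
    apply Nat.finite_of_card_ne_zero
    rwa [← Subgroup.index_eq_card]
  have hpg : IsPGroup p (C ⧸ B) := by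
    intro x
    induction x using QuotientGroup.induction_on with
    | H c =>
      refine ⟨1, ?_⟩
      rw [pow_one, ← QuotientGroup.mk_pow, QuotientGroup.eq_one_iff]
      exact hpow c
  obtain ⟨j, hj⟩ := hpg.exists_card_eq
  rw [Subgroup.index_eq_card, hj] at hle ⊢
  rcases j with _ | _ | j
  · simp
  · simp
  · exfalso
    have : p ^ 1 < p ^ (j + 1 + 1) := Nat.pow_lt_pow_right hp.one_lt (by omega)
    rw [pow_one] at this
    omega

/-- **the norm index of a `p`-extension**: for `K ≤ M ≤ L`, `L/M` Galois of degree `p ^ k`,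
`p` odd, `ζ_p ∈ M`: `[C_M : N_{L/M} C_L]` is nonzero and divides `p ^ k`. -/
theorem pcycNL_index_range_relClassNorm_dvd {p : ℕ} (hp : p.Prime) (hp2 : p ≠ 2) :
    ∀ (k : ℕ) (M L : Type) [Field M] [NumberField M] [Field L] [NumberField L] [Algebra K M]
      [Algebra M L] [Algebra K L] [IsScalarTower K M L] [IsGalois M L],
      (∃ ζ : M, IsPrimitiveRoot ζ p) → Module.finrank M L = p ^ k →
      (relClassNorm K M L).range.index ≠ 0 ∧ (relClassNorm K M L).range.index ∣ p ^ k := by
  haveI : Fact p.Prime := ⟨hp⟩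
  intro k
  induction k with
  | zero =>
    intro M L _ _ _ _ _ _ _ _ _ _ hdeg
    have hcard : Nat.card Gal(L/M) = 1 := by
      rw [IsGalois.card_aut_eq_finrank, hdeg, pow_zero]
    have htop : (relClassNorm K M L).range = ⊤ := by
      rw [eq_top_iff]
      intro c _
      refine ⟨relClass K M L c, ?_⟩
      rw [relTw_relClassNorm_relClass, hcard, pow_one]
    rw [htop, Subgroup.index_top, pow_zero]
    exact ⟨one_ne_zero, dvd_rfl⟩
  | succ k ih =>
    intro M L _ _ _ _ _ _ _ _ _ hζ hdeg
    have hcard : Nat.card Gal(L/M) = p ^ (k + 1) := by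
      rw [IsGalois.card_aut_eq_finrank, hdeg]
    have hG : IsPGroup p Gal(L/M) := IsPGroup.of_card hcard
    have : Nontrivial Gal(L/M) := by
      rw [← Finite.one_lt_card_iff_nontrivial, hcard]
      exact Nat.one_lt_pow (Nat.succ_ne_zero k) hp.one_lt
    have hc : Nontrivial (Subgroup.center Gal(L/M)) := hG.center_nontrivial
    have hpc : p ∣ Nat.card (Subgroup.center Gal(L/M)) := by
      obtain ⟨j, hj⟩ := (hG.to_subgroup (Subgroup.center Gal(L/M))).exists_card_eq
      rw [hj]
      rcases j with _ | j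
      · exfalso
        rw [pow_zero] at hj
        have := (Finite.one_lt_card_iff_nontrivial).mpr hc
        omega
      · exact dvd_pow_self p (Nat.succ_ne_zero j)
    obtain ⟨z, hz⟩ := exists_prime_orderOf_dvd_card' p hpc
    set S : Subgroup Gal(L/M) := Subgroup.zpowers (z : Gal(L/M)) with hS
    have : S.Normal := by
      refine ⟨fun n hn g => ?_⟩
      obtain ⟨i, rfl⟩ := Subgroup.mem_zpowers_iff.mp hn
      have hcomm : g * (z : Gal(L/M)) ^ i = (z : Gal(L/M)) ^ i * g :=
        (Subgroup.mem_center_iff.mp (Subgroup.zpow_mem _ z.2 i) g)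
      rw [hcomm, mul_inv_cancel_right]
      exact Subgroup.zpow_mem_zpowers _ i
    have hScard : Nat.card S = p := by
      rw [hS, Nat.card_zpowers, Subgroup.orderOf_coe, hz]
    have h1 : Module.finrank (fixedField S) L = p := by
      rw [finrank_fixedField_eq_card, hScard]
    have h2 : Module.finrank M (fixedField S) = p ^ k := by
      have := Module.finrank_mul_finrank M (fixedField S) L
      rw [h1, hdeg, pow_succ] at this
      exact Nat.eq_of_mul_eq_mul_right hp.pos this
    have : IsGalois M (fixedField S) := IsGalois.of_fixedField_normal_subgroup S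
    have : IsScalarTower K (fixedField S) L := IsScalarTower.of_algebraMap_eq (fun _ => rfl)
    have hζF : ∃ ζ : fixedField S, IsPrimitiveRoot ζ p := by
      obtain ⟨ζ, hζ⟩ := hζ
      exact ⟨algebraMap M (fixedField S) ζ,
        hζ.map_of_injective (algebraMap M (fixedField S)).injective⟩
    have hcardT : Nat.card Gal(L/fixedField S) = p := by
      rw [IsGalois.card_aut_eq_finrank, h1]
    obtain ⟨ζF, hζF'⟩ := hζF
    obtain ⟨hT0, hTle⟩ := relSecondInequality_ideles (K := K) (M := fixedField S) (L := L) hp hp2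
      hζF' hcardT
    have hTdvd : (relClassNorm K (fixedField S) L).range.index ∣ p := by
      rw [sIR_index_range_relClassNorm_eq]
      refine pcycNL_index_dvd_prime _ hp hT0 hTle fun c => ?_
      refine Subgroup.mem_sup_right ⟨relIdele K (fixedField S) L c, ?_⟩
      rw [relIdeleNorm_relIdele, hcardT]
    have hT0' : (relClassNorm K (fixedField S) L).range.index ≠ 0 := by
      rw [sIR_index_range_relClassNorm_eq]
      exact hT0
    obtain ⟨hQ0, hQdvd⟩ := ih M (fixedField S) hζ h2
    have hdvd := relTw_index_range_relClassNorm_dvd K M (fixedField S) L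
    have hmul : (relClassNorm K M (fixedField S)).range.index *
        (relClassNorm K (fixedField S) L).range.index ∣ p ^ (k + 1) := by
      rw [pow_succ]
      exact Nat.mul_dvd_mul hQdvd hTdvd
    refine ⟨fun h0 => ?_, hdvd.trans hmul⟩
    rw [h0, zero_dvd_iff] at hdvd
    rcases Nat.mul_eq_zero.mp hdvd with h | h
    · exact hQ0 h
    · exact hT0' h

end Layer

section BaseNorm

variable (K M L : Type*) [Field K] [NumberField K] [Field M] [NumberField M]
  [Field L] [NumberField L] [Algebra K M] [Algebra M L] [Algebra K L] [IsScalarTower K M L]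

/-- `J_K → J_M → J_L` is `J_K → J_L`. -/
theorem pcycNL_relIdele_baseToIdele (y : baseIdeleGroup K) :
    relIdele K M L (baseToIdele K M y) = baseToIdele K L y := by
  apply Subtype.ext
  funext v
  apply Units.ext
  rw [relIdele_apply, baseToIdele_apply, baseToIdele_apply]
  simp only [Units.coe_map, MonoidHom.coe_coe]
  exact (relSemiLocalMap K M L v).commutes _

variable [IsGalois K M] [IsGalois M L] [IsGalois K L]

/-- **transitivity of the idele norm to the base field**: `N_{M/K} ∘ N_{L/M} = N_{L/K}`. -/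
theorem pcycNL_ideleNorm_relIdeleNorm (x : ideleGroup K L) :
    ideleNorm K M (relIdeleNorm K M L x) = ideleNorm K L x := by
  classical
  apply baseToIdele_injective K L
  rw [← pcycNL_relIdele_baseToIdele K M L, baseToIdele_ideleNorm, baseToIdele_ideleNorm, map_prod]
  choose s hs using AlgEquiv.restrictNormalHom_surjective (F := K) (K₁ := M) (E := L)
  have hcompat : ∀ (g' : Gal(M/K)) (m : M),
      (s g') (algebraMap M L m) = algebraMap M L (g' m) := by
    intro g' m
    have := AlgEquiv.restrictNormal_commutes (s g') M m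
    rw [← this]
    show algebraMap M L (AlgEquiv.restrictNormalHom M (s g') m) = _
    rw [hs g']
  have h1 : ∀ g' : Gal(M/K), relIdele K M L (g' • relIdeleNorm K M L x) =
      ∏ h : Gal(L/M), (s g' * relGalHom K M L h) • x := by
    intro g'
    rw [relTw_relIdele_smul (hcompat g'), relIdele_relIdeleNorm, Finset.smul_prod']
    refine Finset.prod_congr rfl fun h _ => ?_
    rw [← mul_smul]
  simp_rw [h1]
  exact (relTw_prod_section (relGalHom K M L) (AlgEquiv.restrictNormalHom M)
    (relGalHom_injective K M L) relTw_restrictNormalHom_eq_one_iff s hs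
    (fun g => g • x)).symm

end BaseNorm

section Limitation

variable (v₀ : HeightOneSpectrum (𝓞 ℚ)) (r : ℕ)
  (L N : Type) [Field L] [NumberField L] [Field N] [NumberField N] [Algebra L N]
  [IsGalois ℚ L] [IsGalois ℚ N]

/-- the character `χ_L = pcycArtin ∘ N_{L/ℚ}` of the idele group of `L`. -/
noncomputable def pcycNLChar : ideleGroup ℚ L →* (ZMod (natGenerator v₀ ^ r))ˣ :=
  (pcycArtin v₀ r).comp (ideleNorm ℚ L)

theorem pcycNLChar_apply (x : ideleGroup ℚ L) :
    pcycNLChar v₀ r L x = pcycArtin v₀ r (ideleNorm ℚ L x) := rfl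

/-- `χ_L` kills the principal ideles of a totally complex field. -/
theorem pcycNLChar_diagIdele [IsTotallyComplex L] (x : Lˣ) :
    pcycNLChar v₀ r L (diagIdele (K := ℚ) x) = 1 := by
  rw [pcycNLChar_apply, ideleNorm_diagIdele]
  apply pcycArtin_diagBase_of_pos
  rw [Units.coe_map]
  exact norm_rat_pos_of_isTotallyComplex x.ne_zero

variable [hcycl : IsCyclotomicExtension {natGenerator v₀ ^ r} L N]

include hcycl in
/-- `χ_L` kills the norms from `N = L(ζ_{P^r})`. -/
theorem pcycNLChar_relIdeleNorm [IsGalois L N] (y : ideleGroup ℚ N) :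
    pcycNLChar v₀ r L (relIdeleNorm ℚ L N y) = 1 := by
  haveI : NeZero (natGenerator v₀ ^ r) := ⟨pow_ne_zero r (prime_natGenerator v₀).ne_zero⟩
  rw [pcycNLChar_apply, pcycNL_ideleNorm_relIdeleNorm]
  exact pcycArtin_ideleNorm_eq_one v₀ r N _
    (IsCyclotomicExtension.zeta_spec (natGenerator v₀ ^ r) L N) y

include hcycl in
/-- **norm limitation for `L(ζ_{P^r})/L`**: the kernel of `χ_L = pcycArtin ∘ N_{L/ℚ}` is
`Lˣ · N_{N/L} J_N`.  The Frobenius-idele evaluation `hfrob` is an explicit hypothesis. -/
theorem pcycNL_ker_pcycNLChar [IsGalois L N] (hodd : natGenerator v₀ ≠ 2) {ζp : L}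
    (hζp : IsPrimitiveRoot ζp (natGenerator v₀))
    (hfrob : ∀ w : HeightOneSpectrum (𝓞 L), ((natGenerator v₀ : ℕ) : 𝓞 L) ∉ w.asIdeal →
      (Ideal.absNorm w.asIdeal).Prime → ∃ z : ideleGroup ℚ L,
        ((pcycNLChar v₀ r L z : (ZMod (natGenerator v₀ ^ r))ˣ) : ZMod (natGenerator v₀ ^ r)) =
          (Ideal.absNorm w.asIdeal : ZMod (natGenerator v₀ ^ r))) :
    (pcycNLChar v₀ r L).ker = principalIdeles ℚ L ⊔ (relIdeleNorm ℚ L N).range := by
  have hp : (natGenerator v₀).Prime := prime_natGenerator v₀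
  have h2lt : 2 < natGenerator v₀ := lt_of_le_of_ne hp.two_le (Ne.symm hodd)
  haveI : IsTotallyComplex L := isTotallyComplex_of_isPrimitiveRoot h2lt hζp
  -- the degree is a power of `p`
  have hpg : IsPGroup (natGenerator v₀) Gal(N/L) := pcycNS_isPGroup_gal r L N hp hζp
  haveI : Fact (natGenerator v₀).Prime := ⟨hp⟩
  obtain ⟨k, hk⟩ := IsPGroup.iff_card.mp hpg
  have hdeg : Module.finrank L N = natGenerator v₀ ^ k := by
    rw [← IsGalois.card_aut_eq_finrank, hk]
  -- `B ≤ ker`
  have hB : principalIdeles ℚ L ⊔ (relIdeleNorm ℚ L N).range ≤ (pcycNLChar v₀ r L).ker := by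
    rw [sup_le_iff]
    constructor
    · rintro _ ⟨x, rfl⟩
      exact pcycNLChar_diagIdele v₀ r L x
    · rintro _ ⟨y, rfl⟩
      exact pcycNLChar_relIdeleNorm v₀ r L N y
  -- the index
  obtain ⟨h0, hdvd⟩ := pcycNL_index_range_relClassNorm_dvd ℚ hp hodd k L N ⟨ζp, hζp⟩ hdeg
  rw [sIR_index_range_relClassNorm_eq] at h0 hdvd
  -- a value of order `[N : L]`
  obtain ⟨w, -, -, hwp, hprime, -, -, hcop, hord⟩ :=
    pcycNS_exists_prime r L N hp hodd hζp ∅ ∅
  obtain ⟨z, hz⟩ := hfrob w hwp hprime
  have hzu : pcycNLChar v₀ r L z = ZMod.unitOfCoprime (Ideal.absNorm w.asIdeal) hcop := by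
    apply Units.ext
    rw [hz, ZMod.coe_unitOfCoprime]
  refine (pcycNL_ker_eq_of_index (pcycNLChar v₀ r L) _ hB h0 (t := Module.finrank L N)
    (by rw [hdeg]; exact hdvd) z ?_)
  rw [hzu, hord]

end Limitation

end Fermat.Agent.CFT
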