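import Fermat.Agent.CFT.Idele.PCycloNormLim
import Fermat.Agent.CFT.Idele.PCycloFrob

set_option autoImplicit false
set_option linter.unusedSectionVars false
set_option linter.style.haveILetI false

/-!
# CFT, S55 global-idelic stream, (GL14): norm limitation for `L(ζ_{P^r})/L`, unconditional form

`L/ℚ` Galois containing `ζ_P`, `P` odd, `N = L(ζ_{P^r})` Galois over `ℚ`.  With helper18's norm
character `pcycNormChar v₀ r L = pcycArtin v₀ r ∘ N_{L/ℚ}` and his Frobenius ideles
(`exists_pcycNormChar_eq_absNorm`):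

* `pcycNL_ker_pcycNormChar` : `ker ψ_L = Lˣ · N_{N/L} J_N`;
* `pcycNL_mem_of_pcycNormChar_eq_one`, `pcycNL_exists_relClassNorm_eq` : element forms (ideles and
  idele classes);
* `pcycNL_exists_relClassNorm_eq_relClass` : for `ℚ ≤ M ≤ L`, a class `c ∈ C_M` with
  `ψ_M(c) ^ [L : M] = 1` becomes a norm from `N` in `C_L` (the `hnorm` input of the Artin–Tate
  comparison).
-/

open NumberField IsDedekindDomain IsDedekindDomain.HeightOneSpectrum IntermediateField
  Rat.HeightOneSpectrum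
open scoped TensorProduct Fermat.Agent.CFT.TensorGal Fermat.Agent.CFT.IdeleAct

namespace Fermat.Agent.CFT

section Final

variable (v₀ : HeightOneSpectrum (𝓞 ℚ)) (r : ℕ)
  (L N : Type) [Field L] [NumberField L] [Field N] [NumberField N] [Algebra L N]
  [IsGalois ℚ L] [IsGalois ℚ N] [hcycl : IsCyclotomicExtension {natGenerator v₀ ^ r} L N]
  [IsGalois L N]

theorem pcycNLChar_eq_pcycNormChar : pcycNLChar v₀ r L = pcycNormChar v₀ r L := rfl

include hcycl

/-- **norm limitation for `L(ζ_{P^r})/L`**: `ker (pcycArtin ∘ N_{L/ℚ}) = Lˣ · N_{N/L} J_N`. -/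
theorem pcycNL_ker_pcycNormChar (hodd : natGenerator v₀ ≠ 2) {ζp : L}
    (hζp : IsPrimitiveRoot ζp (natGenerator v₀)) :
    (pcycNormChar v₀ r L).ker = principalIdeles ℚ L ⊔ (relIdeleNorm ℚ L N).range := by
  rw [← pcycNLChar_eq_pcycNormChar]
  exact pcycNL_ker_pcycNLChar v₀ r L N hodd hζp fun w hw _ =>
    exists_pcycNormChar_eq_absNorm v₀ r L w hw

/-- element form: an idele of `L` killed by `ψ_L` is a principal idele times a norm from `N`. -/
theorem pcycNL_mem_of_pcycNormChar_eq_one (hodd : natGenerator v₀ ≠ 2) {ζp : L}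
    (hζp : IsPrimitiveRoot ζp (natGenerator v₀)) {x : ideleGroup ℚ L}
    (hx : pcycNormChar v₀ r L x = 1) :
    x ∈ principalIdeles ℚ L ⊔ (relIdeleNorm ℚ L N).range := by
  rw [← pcycNL_ker_pcycNormChar v₀ r L N hodd hζp]
  exact hx

/-- class form: a class of `L` killed by `ψ_L` is a norm from `C_N`. -/
theorem pcycNL_exists_relClassNorm_eq (hodd : natGenerator v₀ ≠ 2) {ζp : L}
    (hζp : IsPrimitiveRoot ζp (natGenerator v₀)) {x : ideleGroup ℚ L}
    (hx : pcycNormChar v₀ r L x = 1) :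
    ∃ b : ideleClass ℚ N, relClassNorm ℚ L N b = (x : ideleClass ℚ L) := by
  have hmem := pcycNL_mem_of_pcycNormChar_eq_one v₀ r L N hodd hζp hx
  obtain ⟨a, ha, n, ⟨y, rfl⟩, rfl⟩ := Subgroup.mem_sup.mp hmem
  refine ⟨(y : ideleClass ℚ N), ?_⟩
  rw [relClassNorm_mk, QuotientGroup.eq, mul_comm a, inv_mul_cancel_left]
  exact ha

end Final

section Hnorm

variable (v₀ : HeightOneSpectrum (𝓞 ℚ)) (r : ℕ)
  (M L N : Type) [Field M] [NumberField M] [Field L] [NumberField L] [Field N] [NumberField N]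
  [Algebra M L] [Algebra L N] [IsGalois ℚ M] [IsGalois ℚ L] [IsGalois ℚ N] [IsGalois M L]
  [hcycl : IsCyclotomicExtension {natGenerator v₀ ^ r} L N] [IsGalois L N]

include hcycl in
/-- **the `hnorm` input of the Artin–Tate comparison**: for `ℚ ≤ M ≤ L`, an idele `y` of `M` with
`ψ_M(y) ^ [L : M] = 1` becomes, in `C_L`, a norm from `C_N`, `N = L(ζ_{P^r})`. -/
theorem pcycNL_exists_relClassNorm_eq_relClass (hodd : natGenerator v₀ ≠ 2) {ζp : L}
    (hζp : IsPrimitiveRoot ζp (natGenerator v₀)) (y : ideleGroup ℚ M)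
    (hy : pcycNormChar v₀ r M y ^ Nat.card Gal(L/M) = 1) :
    ∃ b : ideleClass ℚ N,
      relClassNorm ℚ L N b = relClass ℚ M L (y : ideleClass ℚ M) := by
  rw [relClass_mk]
  refine pcycNL_exists_relClassNorm_eq v₀ r L N hodd hζp ?_
  rw [pcycNormChar_relIdele, hy]

end Hnorm

end Fermat.Agent.CFT
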