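import Mathlib
import Fermat.Agent.CFT.Idele.PCycloNormKill
import Fermat.Agent.CFT.Idele.RelativeTower
import Fermat.Agent.CFT.Idele.BaseOrd
import Fermat.Agent.CFT.Idele.ClassGroup

set_option autoImplicit false
set_option linter.unusedSectionVars false

/-!
# S55, GLOBAL C-side, (K5)(ii) = (W): the idele `1 + P` at the wild place is not a norm

* `pcycW_relIdele_baseToIdele`, `pcycW_ideleNorm_relIdele` : **norm tower** for the base norm,
  `N_{L/K} (y) = (N_{M/K} y) ^ [L : M]` for `y ∈ J_M`, `K ≤ M ≤ L`, `M/K` and `L/K` Galois.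
* `pcycW_pcycArtin_ideleNorm_pow` : for `L1 ≤ E`, `E ∋ ζ_{P^r}`, both Galois over `ℚ`,
  `pcycArtin v₀ r (N_{L1/ℚ} y) ^ [E : L1] = 1`.
* `pcycW_pcycArtin_single_pow_ne_one` : the Artin symbol of the idele `(1 + P at v₀, 1 elsewhere)`
  modulo `P ^ 2` has order exactly `P`.
* `pcycW_pow_not_mem` : **(W)**, for `L1 ≤ E ∋ ζ_{P^2}` Galois over `ℚ`, `P` odd, `P ∤ [E : L1]`,
  no prime-to-`P` power of that idele lies in `ℚˣ · N_{L1/ℚ} J_{L1}`.
-/

open NumberField IsDedekindDomain Rat.HeightOneSpectrum WithZero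
open scoped Pointwise TensorProduct Fermat.Agent.CFT.TensorGal Fermat.Agent.CFT.IdeleAct

namespace Fermat.Agent.CFT

section NormTower

variable (K M L : Type*) [Field K] [NumberField K] [Field M] [NumberField M]
  [Field L] [NumberField L] [Algebra K M] [Algebra M L] [Algebra K L] [IsScalarTower K M L]

/-- `J_K → J_M → J_L` is `J_K → J_L`. -/
theorem pcycW_relIdele_baseToIdele (z : baseIdeleGroup K) :
    relIdele K M L (baseToIdele K M z) = baseToIdele K L z := by
  apply Subtype.ext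
  funext v
  apply Units.ext
  rw [relIdele_apply, baseToIdele_apply, baseToIdele_apply]
  simp only [Units.coe_map, MonoidHom.coe_coe]
  exact (relSemiLocalMap K M L v).commutes _

variable [IsGalois K M] [IsGalois K L] [IsGalois M L]

/-- **norm tower**: the base norm of an idele of the intermediate field. -/
theorem pcycW_ideleNorm_relIdele (y : ideleGroup K M) :
    ideleNorm K L (relIdele K M L y) = ideleNorm K M y ^ Nat.card Gal(L/M) := by
  classical
  apply baseToIdele_injective K L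
  rw [baseToIdele_ideleNorm, map_pow, ← pcycW_relIdele_baseToIdele K M L, baseToIdele_ideleNorm,
    map_prod]
  choose s hs using AlgEquiv.restrictNormalHom_surjective (F := K) (K₁ := M) (E := L)
  have hcompat : ∀ (q : Gal(M/K)) (m : M),
      (s q) (algebraMap M L m) = algebraMap M L (q m) := by
    intro q m
    have := AlgEquiv.restrictNormal_commutes (s q) M m
    rw [← this]
    show algebraMap M L (AlgEquiv.restrictNormalHom M (s q) m) = _
    rw [hs q]
  rw [relTw_prod_section (relGalHom K M L) (AlgEquiv.restrictNormalHom M)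
    (relGalHom_injective K M L) relTw_restrictNormalHom_eq_one_iff s hs
    (fun g => g • relIdele K M L y), ← Finset.prod_pow]
  refine Finset.prod_congr rfl fun q _ => ?_
  have h1 : ∀ n : Gal(L/M), (s q * relGalHom K M L n) • relIdele K M L y =
      relIdele K M L (q • y) := by
    intro n
    rw [mul_smul, smul_relIdele (relGalHom_mem_relFixing K M L n), relTw_relIdele_smul (hcompat q)]
  simp_rw [h1]
  rw [Finset.prod_const, Finset.card_univ, Nat.card_eq_fintype_card]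

end NormTower

section Kill

variable (v₀ : HeightOneSpectrum (𝓞 ℚ)) (r : ℕ)

/-- for `L1 ≤ E`, both Galois over `ℚ`, `E ∋ ζ_{P^r}`: the Artin symbol modulo `P ^ r` of a norm
from `L1` is killed by `[E : L1]`. -/
theorem pcycW_pcycArtin_ideleNorm_pow (L1 E : Type*) [Field L1] [NumberField L1] [Field E]
    [NumberField E] [Algebra L1 E] [IsScalarTower ℚ L1 E] [IsGalois ℚ L1] [IsGalois ℚ E]
    (ζ : E) (hζ : IsPrimitiveRoot ζ (natGenerator v₀ ^ r)) (y : ideleGroup ℚ L1) :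
    pcycArtin v₀ r (ideleNorm ℚ L1 y) ^ Nat.card Gal(E/L1) = 1 := by
  have : IsGalois L1 E := IsGalois.tower_top_of_isGalois ℚ L1 E
  rw [← map_pow, ← pcycW_ideleNorm_relIdele ℚ L1 E y]
  exact pcycArtin_ideleNorm_eq_one v₀ r E ζ hζ _

/-- the Artin symbol kills `(ℚˣ · N J_{L1}) ^ (2 [E : L1])`. -/
theorem pcycW_pcycArtin_pow_eq_one_of_mem (L1 E : Type*) [Field L1] [NumberField L1] [Field E]
    [NumberField E] [Algebra L1 E] [IsScalarTower ℚ L1 E] [IsGalois ℚ L1] [IsGalois ℚ E]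
    (ζ : E) (hζ : IsPrimitiveRoot ζ (natGenerator v₀ ^ r)) {x : baseIdeleGroup ℚ}
    (hx : x ∈ (diagBase ℚ).range ⊔ (ideleNorm ℚ L1).range) :
    pcycArtin v₀ r x ^ (2 * Nat.card Gal(E/L1)) = 1 := by
  rw [Subgroup.mem_sup] at hx
  obtain ⟨_, ⟨b, rfl⟩, _, ⟨y, rfl⟩, rfl⟩ := hx
  rw [map_mul, mul_pow, pow_mul, pcycArtin_diagBase_sq, one_pow, one_mul, mul_comm, pow_mul,
    pcycW_pcycArtin_ideleNorm_pow v₀ r L1 E ζ hζ y, one_pow]

end Kill

section Single

variable (v₀ : HeightOneSpectrum (𝓞 ℚ))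

/-- the natural number `1 + P` as a unit of `ℚ_{v₀}`. -/
noncomputable def pcycWUnit : (v₀.adicCompletion ℚ)ˣ :=
  pcycNat v₀ (1 + natGenerator v₀) (by omega)

/-- the idele `(1 + P at v₀, 1 elsewhere)`. -/
noncomputable def pcycWIdele : baseIdeleGroup ℚ := baseIdeleSingle ℚ v₀ (pcycWUnit v₀)

theorem pcycW_not_dvd : ¬ natGenerator v₀ ∣ 1 + natGenerator v₀ := by
  intro h
  have h1 : natGenerator v₀ ∣ 1 := (Nat.dvd_add_left (dvd_refl _)).mp h
  exact (prime_natGenerator v₀).one_lt.ne' (Nat.dvd_one.mp h1)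

theorem pcycW_pcycArtin_pcycWIdele (r : ℕ) :
    pcycArtin v₀ r (pcycWIdele v₀) = (pcycWild v₀ r (pcycWUnit v₀))⁻¹ := by
  rw [pcycArtin_apply, pcycWIdele, baseIdeleSingle_apply_same]
  have h1 : ∏ᶠ v, pcycTame v₀ r v ((baseIdeleSingle ℚ v₀ (pcycWUnit v₀)).1 v) = 1 := by
    apply finprod_eq_one_of_forall_eq_one
    intro v
    by_cases h : v = v₀
    · subst h
      exact pcycTame_self _ r _
    · rw [baseIdeleSingle_apply_of_ne h, map_one]
  rw [h1, mul_one]

theorem pcycW_pcycWild_coe (r : ℕ) :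
    ((pcycWild v₀ r (pcycWUnit v₀) : (ZMod (natGenerator v₀ ^ r))ˣ) : ZMod (natGenerator v₀ ^ r)) =
      1 + (natGenerator v₀ : ZMod (natGenerator v₀ ^ r)) := by
  rw [pcycWUnit, pcycWild_pcycNat_of_not_dvd v₀ r _ _ (pcycW_not_dvd v₀)]
  push_cast
  rfl

/-- in a commutative ring, `(1 + x) ^ k = 1 + k x` when `x ^ 2 = 0`. -/
theorem pcycW_one_add_pow {R : Type*} [CommRing R] {x : R} (hx : x ^ 2 = 0) (k : ℕ) :
    (1 + x) ^ k = 1 + k * x := by
  induction k with
  | zero => simp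
  | succ k ih =>
    rw [pow_succ, ih]
    push_cast
    linear_combination (k : R) * hx

/-- the Artin symbol modulo `P ^ 2` of the idele `1 + P` has order exactly `P`. -/
theorem pcycW_pcycArtin_single_pow_ne_one (k : ℕ) (hk : ¬ natGenerator v₀ ∣ k) :
    pcycArtin v₀ 2 (pcycWIdele v₀) ^ k ≠ 1 := by
  intro h
  rw [pcycW_pcycArtin_pcycWIdele, inv_pow, inv_eq_one] at h
  have h1 := congrArg (fun u : (ZMod (natGenerator v₀ ^ 2))ˣ => (u : ZMod (natGenerator v₀ ^ 2))) h
  simp only [Units.val_pow_eq_pow_val, Units.val_one] at h1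
  rw [pcycW_pcycWild_coe, pcycW_one_add_pow] at h1
  · have h2 : ((k * natGenerator v₀ : ℕ) : ZMod (natGenerator v₀ ^ 2)) = 0 := by
      push_cast
      linear_combination h1
    rw [ZMod.natCast_eq_zero_iff, pow_two] at h2
    exact hk (Nat.dvd_of_mul_dvd_mul_right (prime_natGenerator v₀).pos h2)
  · rw [← Nat.cast_pow]
    exact ZMod.natCast_self _

theorem pcycW_pcycWIdele_pow_card (n : ℕ) (hn : natGenerator v₀ ∣ n) :
    pcycArtin v₀ 2 (pcycWIdele v₀) ^ n = 1 := by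
  obtain ⟨m, rfl⟩ := hn
  rw [pow_mul, pcycW_pcycArtin_pcycWIdele, inv_pow]
  have : pcycWild v₀ 2 (pcycWUnit v₀) ^ natGenerator v₀ = 1 := by
    apply Units.ext
    rw [Units.val_pow_eq_pow_val, pcycW_pcycWild_coe, pcycW_one_add_pow, Units.val_one]
    · have h2 : ((natGenerator v₀ * natGenerator v₀ : ℕ) : ZMod (natGenerator v₀ ^ 2)) = 0 := by
        rw [← pow_two]
        exact ZMod.natCast_self _
      push_cast at h2
      rw [h2, add_zero]
    · rw [← Nat.cast_pow]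
      exact ZMod.natCast_self _
  rw [this, inv_one, one_pow]

end Single

section W

variable (v₀ : HeightOneSpectrum (𝓞 ℚ))

/-- **(W)**: for `L1 ≤ E`, both Galois over `ℚ`, `E ∋ ζ_{P^2}`, `P` odd and `P ∤ [E : L1]`: no
prime-to-`P` power of the idele `(1 + P at v₀, 1 elsewhere)` lies in `ℚˣ · N_{L1/ℚ} J_{L1}`. -/
theorem pcycW_pow_not_mem (L1 E : Type*) [Field L1] [NumberField L1] [Field E]
    [NumberField E] [Algebra L1 E] [IsScalarTower ℚ L1 E] [IsGalois ℚ L1] [IsGalois ℚ E]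
    (ζ : E) (hζ : IsPrimitiveRoot ζ (natGenerator v₀ ^ 2)) (hodd : natGenerator v₀ ≠ 2)
    (hcop : ¬ natGenerator v₀ ∣ Nat.card Gal(E/L1)) (m : ℕ) (hm : ¬ natGenerator v₀ ∣ m) :
    pcycWIdele v₀ ^ m ∉ (diagBase ℚ).range ⊔ (ideleNorm ℚ L1).range := by
  intro hmem
  have h1 := pcycW_pcycArtin_pow_eq_one_of_mem v₀ 2 L1 E ζ hζ hmem
  rw [map_pow, ← pow_mul] at h1
  refine pcycW_pcycArtin_single_pow_ne_one v₀ _ ?_ h1
  have hP := prime_natGenerator v₀
  intro hd
  rcases (Nat.Prime.dvd_mul hP).mp hd with h | h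
  · exact hm h
  · rcases (Nat.Prime.dvd_mul hP).mp h with h | h
    · exact hodd ((Nat.prime_dvd_prime_iff_eq hP Nat.prime_two).mp h)
    · exact hcop h

/-- **(W)**, plain form. -/
theorem pcycW_not_mem (L1 E : Type*) [Field L1] [NumberField L1] [Field E]
    [NumberField E] [Algebra L1 E] [IsScalarTower ℚ L1 E] [IsGalois ℚ L1] [IsGalois ℚ E]
    (ζ : E) (hζ : IsPrimitiveRoot ζ (natGenerator v₀ ^ 2)) (hodd : natGenerator v₀ ≠ 2)
    (hcop : ¬ natGenerator v₀ ∣ Nat.card Gal(E/L1)) :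
    pcycWIdele v₀ ∉ (diagBase ℚ).range ⊔ (ideleNorm ℚ L1).range := by
  have h := pcycW_pow_not_mem v₀ L1 E ζ hζ hodd hcop 1 (by
    intro h
    exact (prime_natGenerator v₀).one_lt.ne' (Nat.dvd_one.mp h))
  rwa [pow_one] at h

/-- **(W)**, class form: no prime-to-`P` power of the class of the idele `1 + P` in `C_ℚ` is a
norm from `C_{L1}`. -/
theorem pcycW_mk_pow_not_mem_range_classNorm (L1 E : Type*) [Field L1] [NumberField L1] [Field E]
    [NumberField E] [Algebra L1 E] [IsScalarTower ℚ L1 E] [IsGalois ℚ L1] [IsGalois ℚ E]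
    (ζ : E) (hζ : IsPrimitiveRoot ζ (natGenerator v₀ ^ 2)) (hodd : natGenerator v₀ ≠ 2)
    (hcop : ¬ natGenerator v₀ ∣ Nat.card Gal(E/L1)) (m : ℕ) (hm : ¬ natGenerator v₀ ∣ m) :
    ((pcycWIdele v₀ ^ m : baseIdeleGroup ℚ) : baseIdeleClass ℚ) ∉ (classNorm ℚ L1).range := by
  rintro ⟨c, hc⟩
  induction c using QuotientGroup.induction_on with
  | H x =>
    rw [classNorm_mk] at hc
    have h1 := QuotientGroup.eq.mp hc
    refine pcycW_pow_not_mem v₀ L1 E ζ hζ hodd hcop m hm ?_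
    rw [Subgroup.mem_sup]
    refine ⟨_, h1, _, ⟨x, rfl⟩, ?_⟩
    rw [mul_comm, mul_inv_cancel_left]

/-- the degree of `ℚ(ζ_{p²})` over a subfield of degree `p`. -/
theorem pcycW_card_gal_of_finrank {p : ℕ} (hp : p.Prime) (L1 E : Type*) [Field L1]
    [NumberField L1] [Field E] [NumberField E] [Algebra L1 E] [IsScalarTower ℚ L1 E]
    [IsGalois ℚ E] [IsCyclotomicExtension {p ^ 2} ℚ E] (h1 : Module.finrank ℚ L1 = p) :
    Nat.card Gal(E/L1) = p - 1 := by
  have : IsGalois L1 E := IsGalois.tower_top_of_isGalois ℚ L1 E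
  have : NeZero (p ^ 2) := ⟨(pow_pos hp.pos 2).ne'⟩
  have h2 : Module.finrank ℚ E = (p ^ 2).totient :=
    IsCyclotomicExtension.finrank E (Polynomial.cyclotomic.irreducible_rat (pow_pos hp.pos 2))
  have h3 := Module.finrank_mul_finrank ℚ L1 E
  rw [h1, h2, Nat.totient_prime_pow hp (by norm_num : 0 < 2)] at h3
  rw [IsGalois.card_aut_eq_finrank]
  have h4 : p ^ (2 - 1) = p := by norm_num
  rw [h4] at h3
  exact Nat.eq_of_mul_eq_mul_left hp.pos h3

/-- **(W)** for the degree-`p` layer `L1` of `ℚ(ζ_{p²})`, `p` an odd prime: no prime-to-`p` power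
of the idele `(1 + p at p, 1 elsewhere)` lies in `ℚˣ · N_{L1/ℚ} J_{L1}`. -/
theorem pcycW_pow_not_mem_of_finrank {p : ℕ} (hp : p.Prime) (hp2 : p ≠ 2) (L1 E : Type*)
    [Field L1] [NumberField L1] [Field E] [NumberField E] [Algebra L1 E] [IsScalarTower ℚ L1 E]
    [IsGalois ℚ L1] [IsGalois ℚ E] [IsCyclotomicExtension {p ^ 2} ℚ E]
    (h1 : Module.finrank ℚ L1 = p) (m : ℕ) (hm : ¬ p ∣ m) :
    pcycWIdele (pcycPlace p hp) ^ m ∉ (diagBase ℚ).range ⊔ (ideleNorm ℚ L1).range := by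
  have hg : natGenerator (pcycPlace p hp) = p := natGenerator_pcycPlace p hp
  have : NeZero (p ^ 2) := ⟨(pow_pos hp.pos 2).ne'⟩
  have hζ := IsCyclotomicExtension.zeta_spec (p ^ 2) ℚ E
  refine pcycW_pow_not_mem (pcycPlace p hp) L1 E (IsCyclotomicExtension.zeta (p ^ 2) ℚ E)
    (by rw [hg]; exact hζ) (by rw [hg]; exact hp2) ?_ m (by rw [hg]; exact hm)
  rw [hg, pcycW_card_gal_of_finrank hp L1 E h1]
  intro hd
  have h2 := hp.two_le
  have := Nat.le_of_dvd (by omega) hd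
  omega

/-- class form of the previous statement. -/
theorem pcycW_mk_pow_not_mem_of_finrank {p : ℕ} (hp : p.Prime) (hp2 : p ≠ 2) (L1 E : Type*)
    [Field L1] [NumberField L1] [Field E] [NumberField E] [Algebra L1 E] [IsScalarTower ℚ L1 E]
    [IsGalois ℚ L1] [IsGalois ℚ E] [IsCyclotomicExtension {p ^ 2} ℚ E]
    (h1 : Module.finrank ℚ L1 = p) (m : ℕ) (hm : ¬ p ∣ m) :
    ((pcycWIdele (pcycPlace p hp) ^ m : baseIdeleGroup ℚ) : baseIdeleClass ℚ) ∉
      (classNorm ℚ L1).range := by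
  have hg : natGenerator (pcycPlace p hp) = p := natGenerator_pcycPlace p hp
  have : NeZero (p ^ 2) := ⟨(pow_pos hp.pos 2).ne'⟩
  have hζ := IsCyclotomicExtension.zeta_spec (p ^ 2) ℚ E
  refine pcycW_mk_pow_not_mem_range_classNorm (pcycPlace p hp) L1 E
    (IsCyclotomicExtension.zeta (p ^ 2) ℚ E)
    (by rw [hg]; exact hζ) (by rw [hg]; exact hp2) ?_ m (by rw [hg]; exact hm)
  rw [hg, pcycW_card_gal_of_finrank hp L1 E h1]
  intro hd
  have h2 := hp.two_le
  have := Nat.le_of_dvd (by omega) hd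
  omega

end W

end Fermat.Agent.CFT
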