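import Mathlib
import Fermat.Agent.CFT.Idele.PCycloWPow

set_option autoImplicit false
set_option linter.unusedSectionVars false

/-!
# S55, GLOBAL C-side, (C-W): the class of the idele `1 + P` is not a product of conjugates

* `baseToClass_classNorm` : `C_L → C_K → C_L` is `c ↦ ∏ g, g • c`.
* `pcycW_prod_smul_ne` : for `L1 ≤ E ∋ ζ_{P²}` as in `pcycW_pow_not_mem`, no class
  `c ∈ C_{L1}` has `∏_{g ∈ Gal(L1/ℚ)} g • c = [1 + P]^m`, `P ∤ m` (the `hnn` input of the cyclic
  class criterion, in the idele class group of `L1`).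
-/

open NumberField IsDedekindDomain Rat.HeightOneSpectrum WithZero
open scoped Pointwise TensorProduct Fermat.Agent.CFT.TensorGal Fermat.Agent.CFT.IdeleAct

namespace Fermat.Agent.CFT

section ClassNorm

variable (K L : Type*) [Field K] [NumberField K] [Field L] [NumberField L] [Algebra K L]
  [IsGalois K L]

/-- `C_L → C_K → C_L` is the product of the conjugates. -/
theorem baseToClass_classNorm (c : ideleClass K L) :
    baseToClass K L (classNorm K L c) = ∏ g : Gal(L/K), g • c := by
  induction c using QuotientGroup.induction_on with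
  | H x =>
    rw [classNorm_mk, baseToClass_mk, baseToIdele_ideleNorm]
    exact map_prod (QuotientGroup.mk' (principalIdeles K L)) _ _

end ClassNorm

section W

variable (v₀ : HeightOneSpectrum (𝓞 ℚ))

/-- **(C-W), idele class form**: no product of the conjugates of a class of `L1` is a
prime-to-`P` power of the class of the idele `1 + P`. -/
theorem pcycW_prod_smul_ne (L1 E : Type*) [Field L1] [NumberField L1] [Field E]
    [NumberField E] [Algebra L1 E] [IsScalarTower ℚ L1 E] [IsGalois ℚ L1] [IsGalois ℚ E]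
    (ζ : E) (hζ : IsPrimitiveRoot ζ (natGenerator v₀ ^ 2)) (hodd : natGenerator v₀ ≠ 2)
    (hcop : ¬ natGenerator v₀ ∣ Nat.card Gal(E/L1)) (m : ℕ) (hm : ¬ natGenerator v₀ ∣ m)
    (c : ideleClass ℚ L1) :
    ∏ g : Gal(L1/ℚ), g • c ≠
      ((baseToIdele ℚ L1 (pcycWIdele v₀ ^ m) : ideleGroup ℚ L1) : ideleClass ℚ L1) := by
  intro h
  rw [← baseToClass_classNorm, ← baseToClass_mk] at h
  have h1 := baseToClass_injective ℚ L1 h
  exact pcycW_mk_pow_not_mem_range_classNorm v₀ L1 E ζ hζ hodd hcop m hm ⟨c, h1⟩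

/-- **(C-W), idele class form**, for the degree-`p` layer `L1` of `ℚ(ζ_{p²})`. -/
theorem pcycW_prod_smul_ne_of_finrank {p : ℕ} (hp : p.Prime) (hp2 : p ≠ 2) (L1 E : Type*)
    [Field L1] [NumberField L1] [Field E] [NumberField E] [Algebra L1 E] [IsScalarTower ℚ L1 E]
    [IsGalois ℚ L1] [IsGalois ℚ E] [IsCyclotomicExtension {p ^ 2} ℚ E]
    (h1 : Module.finrank ℚ L1 = p) (m : ℕ) (hm : ¬ p ∣ m) (c : ideleClass ℚ L1) :
    ∏ g : Gal(L1/ℚ), g • c ≠
      ((baseToIdele ℚ L1 (pcycWIdele (pcycPlace p hp) ^ m) : ideleGroup ℚ L1) :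
        ideleClass ℚ L1) := by
  intro h
  rw [← baseToClass_classNorm, ← baseToClass_mk] at h
  have h2 := baseToClass_injective ℚ L1 h
  exact pcycW_mk_pow_not_mem_of_finrank hp hp2 L1 E h1 m hm ⟨c, h2⟩

end W

end Fermat.Agent.CFT
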