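import Mathlib
import Fermat.Agent.CFT.Idele.SecondIneqRelMain
import Fermat.Agent.CFT.Idele.UnramUnitsRel

/-!
# CFT, S55 global-idelic stream, chunk (GL11-rel): the RELATIVE idelic second inequality,
UNCONDITIONAL form

`K ⊆ M ⊆ L` number fields (`K` = tensor base of the idele model), `L / M` Galois of odd prime degree
`p`, `ζ_p ∈ M`; no Galois hypothesis on `L / K` or `M / K`.  Then

* `relSecondInequality_ideles` : `[J_M : Mˣ · N_{L/M} J_L] ≠ 0` and `≤ p`;
* `relSecondInequality` : `[C_M : N_{L/M} C_L] ≠ 0` and `≤ p`.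

The local input (N1) is helper20's `unrUR_exists_norm` ((GL7-rel)) at the primes of `K` unramified
in `L` (`unrUR_exists_finset_forall_valuation_eq`).
-/

set_option autoImplicit false
set_option linter.unusedSectionVars false
set_option linter.style.haveILetI false

open NumberField IsDedekindDomain IsDedekindDomain.HeightOneSpectrum
open scoped TensorProduct Fermat.Agent.CFT.TensorGal Fermat.Agent.CFT.IdeleAct

namespace Fermat.Agent.CFT

variable {K M L : Type} [Field K] [NumberField K] [Field M] [NumberField M]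
  [Field L] [NumberField L] [Algebra K M] [Algebra M L] [Algebra K L] [IsScalarTower K M L]
  [IsGalois M L]

/-- the two actions of `h : Gal(L/M)` on the units of `K_v ⊗ L` agree. -/
theorem sIR_relGalHom_smul_units {v : HeightOneSpectrum (𝓞 K)} (h : Gal(L/M))
    (c : (semiLocal K L v)ˣ) : (relGalHom K M L h) • c = h • c :=
  Units.ext (relGalHom_smul_semiLocal h (c : semiLocal K L v))

/-- **(N1)** at a prime `v` of `K` unramified in `L`, for a cyclic `L / M`. -/
theorem sIR_hN1_of_valuation {σ : Gal(L/M)} (hσ : ∀ τ, τ ∈ Subgroup.zpowers σ)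
    (v : HeightOneSpectrum (𝓞 K))
    (hv : ∀ w : HeightOneSpectrum (𝓞 L), primeBelow K L w = v →
      ∀ x : K, w.valuation L (algebraMap K L x) = v.valuation K x)
    (u : (semiLocal K M v)ˣ) (hu : u ∈ semiLocalUnits K M v) :
    ∃ c ∈ semiLocalUnits K L v, ∏ h : Gal(L/M), (relGalHom K M L h) • c =
      Units.map (relSemiLocalMap K M L v : semiLocal K M v →* semiLocal K L v) u := by
  have hu' : Units.map (relSemiLocalMap K M L v : semiLocal K M v →* semiLocal K L v) u ∈
      semiLocalUnits K L v := (relMap_mem_semiLocalUnits_iff u).mpr hu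
  have hfix : ∀ h : Gal(L/M),
      h • Units.map (relSemiLocalMap K M L v : semiLocal K M v →* semiLocal K L v) u =
        Units.map (relSemiLocalMap K M L v : semiLocal K M v →* semiLocal K L v) u := by
    intro h
    rw [← sIR_relGalHom_smul_units]
    apply Units.ext
    rw [units_smul_val]
    exact smul_relSemiLocalMap (relGalHom_mem_relFixing K M L h) _
  obtain ⟨c, hc1, hc2⟩ := unrUR_exists_norm K L Gal(L/M) v hσ hv _ hu' hfix
  refine ⟨c, hc1, ?_⟩
  rw [← hc2]
  exact Finset.prod_congr rfl fun h _ => sIR_relGalHom_smul_units h c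

/-- **The relative idelic second inequality** `[J_M : Mˣ · N_{L/M} J_L] ≤ p`, unconditional. -/
theorem relSecondInequality_ideles {p : ℕ} (hp : p.Prime) (hp2 : p ≠ 2)
    {ζ : M} (hζ : IsPrimitiveRoot ζ p) (hcard : Nat.card Gal(L/M) = p) :
    (principalIdeles K M ⊔ (relIdeleNorm K M L).range).index ≠ 0 ∧
      (principalIdeles K M ⊔ (relIdeleNorm K M L).range).index ≤ p := by
  haveI : Fact p.Prime := ⟨hp⟩
  haveI : IsCyclic Gal(L/M) := isCyclic_of_prime_card hcard
  obtain ⟨σ, hσ⟩ := IsCyclic.exists_generator (α := Gal(L/M))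
  obtain ⟨Bram, hBram⟩ := unrUR_exists_finset_forall_valuation_eq K L
  refine index_principalIdeles_sup_relIdeleNorm_le hp hp2 hζ hcard Bram fun v hv u hu => ?_
  exact sIR_hN1_of_valuation hσ v (fun w hw x => by
    have := hBram w (hw ▸ hv) x
    rwa [hw] at this) u hu

/-- **The relative second inequality for idele classes** `[C_M : N_{L/M} C_L] ≤ p`,
unconditional. -/
theorem relSecondInequality {p : ℕ} (hp : p.Prime) (hp2 : p ≠ 2)
    {ζ : M} (hζ : IsPrimitiveRoot ζ p) (hcard : Nat.card Gal(L/M) = p) :
    (relClassNorm K M L).range.index ≠ 0 ∧ (relClassNorm K M L).range.index ≤ p := by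
  rw [sIR_index_range_relClassNorm_eq]
  exact relSecondInequality_ideles hp hp2 hζ hcard

end Fermat.Agent.CFT
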