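import Mathlib
import Fermat.Agent.CFT.Idele.SemiLocalUnits
import Fermat.Agent.CFT.Local.TateLocal

set_option autoImplicit false
set_option linter.unusedSectionVars false
set_option linter.style.haveILetI false

/-!
# CFT stream [C] Idele : orbit form of the Chinese remainder theorem, and the local factors

`R` a reduced Artinian ring with an action of a group `G` by ring automorphisms, `t : ι → MaxSpec R`
a system of representatives of the `G`-orbits on the maximal ideals (`slSh_IsOrbitReps`).

* `slSh_eq_of_forall_mk_smul_eq`, `slSh_exists_forall_mk_smul_eq` : an element `x : R` is the same as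
  a family of residues `φ i g = (g • x mod t i)`, equivariant for the decomposition groups
  (`φ i (d g) = d • φ i g`), i.e. `R ≃ ∏ᵢ Coind_{D_i}^G (R ⧸ t i)`; unit versions `slSh_units_eq_one`,
  `slSh_units_exists` (`Rˣ ≃ ∏ᵢ Coind_{D_i}^G (R ⧸ t i)ˣ`).
* the representations `slSh_unitsRep R G` (`Rˣ`), `slSh_stabRep F R G m` (`(R ⧸ m)ˣ` over the
  decomposition group) and the reduction `slSh_proj F R G m`.
* local factors: `slSh_local_of_injective` (a finite group acting faithfully by `F`-automorphisms on
  a finite Galois extension `E / F` of a local field: `H¹(D, Eˣ) = 0`, `H²` cyclic of order `|D|`,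
  `H³ = 0`) and its instance `slSh_tensor_factor` at a maximal ideal of `F ⊗[K] L`.
-/

namespace Fermat.Agent.CFT

open scoped Pointwise
open CategoryTheory groupCohomology Rep

section Orbits

variable (F : Type*) (R G : Type) [Field F] [CommRing R] [Algebra F R] [IsArtinianRing R]
  [IsReduced R] [Group G] [MulSemiringAction G R] [SMulCommClass G F R]

attribute [local instance] maxSpecMulAction Units.mulDistribMulActionRight

variable {ι : Type} (t : ι → MaximalSpectrum R)

/-- `t` is a system of representatives of the `G`-orbits on the maximal ideals of `R`. -/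
structure slSh_IsOrbitReps : Prop where
  cover : ∀ m : MaximalSpectrum R, ∃ i, ∃ g : G, g • t i = m
  disj : ∀ i j, ∀ g : G, g • t i = t j → i = j

variable {R G t}

omit [IsReduced R] in
theorem slSh_mk_smul_eq_iff (g : G) (m : MaximalSpectrum R) (x y : R) :
    Ideal.Quotient.mk (g • m).asIdeal x = Ideal.Quotient.mk (g • m).asIdeal y ↔
      Ideal.Quotient.mk m.asIdeal (g⁻¹ • x) = Ideal.Quotient.mk m.asIdeal (g⁻¹ • y) := by
  rw [Ideal.Quotient.eq, Ideal.Quotient.eq]
  change x - y ∈ g • m.asIdeal ↔ _
  rw [Ideal.mem_pointwise_smul_iff_inv_smul_mem, smul_sub]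

/-- An element of `R` is determined by the residues of its translates at the orbit
representatives. -/
theorem slSh_eq_of_forall_mk_smul_eq (ht : slSh_IsOrbitReps R G t) (x y : R)
    (h : ∀ i (g : G), Ideal.Quotient.mk (t i).asIdeal (g • x) =
      Ideal.Quotient.mk (t i).asIdeal (g • y)) : x = y := by
  apply (IsArtinianRing.equivPi R).injective
  funext m
  rw [IsArtinianRing.equivPi_apply, IsArtinianRing.equivPi_apply]
  obtain ⟨i, g, rfl⟩ := ht.cover m
  exact (slSh_mk_smul_eq_iff g (t i) x y).2 (h i g⁻¹)

/-- Chinese remainder theorem along orbits: a family of residues at the orbit representatives,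
indexed by `G` and equivariant for the decomposition groups, comes from an element of `R`. -/
theorem slSh_exists_forall_mk_smul_eq (ht : slSh_IsOrbitReps R G t)
    (φ : ∀ i, G → R ⧸ (t i).asIdeal)
    (hφ : ∀ i (d : MulAction.stabilizer G (t i).asIdeal) (g : G),
      φ i ((d : G) * g) = quotStabHom F R G (t i).asIdeal d (φ i g)) :
    ∃ x : R, ∀ i g, Ideal.Quotient.mk (t i).asIdeal (g • x) = φ i g := by
  choose im gm hm using ht.cover
  choose r hr using fun i g => Ideal.Quotient.mk_surjective (φ i g)
  let y : ∀ m : MaximalSpectrum R, R ⧸ m.asIdeal := fun m =>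
    Ideal.Quotient.mk m.asIdeal (gm m • r (im m) (gm m)⁻¹)
  refine ⟨(IsArtinianRing.equivPi R).symm y, fun j h => ?_⟩
  set x := (IsArtinianRing.equivPi R).symm y with hx
  have hxm : ∀ m : MaximalSpectrum R, Ideal.Quotient.mk m.asIdeal x =
      Ideal.Quotient.mk m.asIdeal (gm m • r (im m) (gm m)⁻¹) := by
    intro m
    have := congrFun ((IsArtinianRing.equivPi R).apply_symm_apply y) m
    rw [IsArtinianRing.equivPi_apply] at this
    exact this
  -- the maximal ideal `m = h⁻¹ • t j`
  have hmj : gm (h⁻¹ • t j) • t (im (h⁻¹ • t j)) = h⁻¹ • t j := hm _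
  have hij : im (h⁻¹ • t j) = j := by
    apply ht.disj _ _ (h * gm (h⁻¹ • t j))
    rw [mul_smul, hmj, smul_inv_smul]
  have h1 := hxm (h⁻¹ • t j)
  rw [slSh_mk_smul_eq_iff, inv_inv] at h1
  rw [h1]
  generalize gm (h⁻¹ • t j) = g at hmj h1 ⊢
  generalize im (h⁻¹ • t j) = i at hmj hij h1 ⊢
  subst hij
  have hd : h * g ∈ MulAction.stabilizer G (t i).asIdeal := by
    rw [MulAction.mem_stabilizer_iff, mul_smul]
    have := congrArg MaximalSpectrum.asIdeal hmj
    change g • (t i).asIdeal = h⁻¹ • (t i).asIdeal at this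
    rw [this, smul_inv_smul]
  have h2 := hφ i ⟨h * g, hd⟩ g⁻¹
  rw [show ((⟨h * g, hd⟩ : MulAction.stabilizer G (t i).asIdeal) : G) * g⁻¹ = h by
    simp] at h2
  rw [h2, ← hr i g⁻¹, quotStabHom_mk, smul_smul]

/-- unit version of `slSh_eq_of_forall_mk_smul_eq`. -/
theorem slSh_units_eq_one (ht : slSh_IsOrbitReps R G t) (u : Rˣ)
    (h : ∀ i (g : G), Units.map (Ideal.Quotient.mk (t i).asIdeal : R →* R ⧸ (t i).asIdeal)
      (g • u) = 1) : u = 1 := by
  apply Units.ext
  apply slSh_eq_of_forall_mk_smul_eq ht
  intro i g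
  have := congrArg (fun v : (R ⧸ (t i).asIdeal)ˣ => (v : R ⧸ (t i).asIdeal)) (h i g)
  simp only [Units.coe_map, Units.val_one] at this
  rw [Units.val_one, smul_one, map_one]
  exact this

/-- unit version of `slSh_exists_forall_mk_smul_eq`. -/
theorem slSh_units_exists (ht : slSh_IsOrbitReps R G t)
    (f : ∀ i, G → (R ⧸ (t i).asIdeal)ˣ)
    (hf : ∀ i (d : MulAction.stabilizer G (t i).asIdeal) (g : G),
      letI := unitsStabAction F R G (t i).asIdeal
      f i ((d : G) * g) = d • f i g) :
    ∃ u : Rˣ, ∀ i g, Units.map (Ideal.Quotient.mk (t i).asIdeal : R →* R ⧸ (t i).asIdeal)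
      (g • u) = f i g := by
  obtain ⟨x, hx⟩ := slSh_exists_forall_mk_smul_eq F ht
    (fun i g => ((f i g : (R ⧸ (t i).asIdeal)ˣ) : R ⧸ (t i).asIdeal)) (fun i d g => by
      have := congrArg (fun v : (R ⧸ (t i).asIdeal)ˣ => (v : R ⧸ (t i).asIdeal)) (hf i d g)
      exact this)
  obtain ⟨x', hx'⟩ := slSh_exists_forall_mk_smul_eq F ht
    (fun i g => (((f i g)⁻¹ : (R ⧸ (t i).asIdeal)ˣ) : R ⧸ (t i).asIdeal)) (fun i d g => by
      have := congrArg (fun v : (R ⧸ (t i).asIdeal)ˣ => ((v⁻¹ : (R ⧸ (t i).asIdeal)ˣ) :
        R ⧸ (t i).asIdeal)) (hf i d g)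
      rw [this]
      letI := unitsStabAction F R G (t i).asIdeal
      rw [← smul_inv']
      rfl)
  have hxx' : x * x' = 1 := by
    apply slSh_eq_of_forall_mk_smul_eq ht
    intro i g
    rw [smul_mul', map_mul, hx, hx', smul_one, map_one, Units.mul_inv]
  refine ⟨⟨x, x', hxx', by rw [mul_comm]; exact hxx'⟩, fun i g => ?_⟩
  apply Units.ext
  exact hx i g

end Orbits

section Reps

variable (F : Type*) (R G : Type) [Field F] [CommRing R] [Algebra F R] [IsArtinianRing R]
  [IsReduced R] [Group G] [MulSemiringAction G R] [SMulCommClass G F R]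

attribute [local instance] maxSpecMulAction Units.mulDistribMulActionRight

/-- The units of `R` as a representation of `G`. -/
noncomputable abbrev slSh_unitsRep : Rep ℤ G := Rep.ofMulDistribMulAction G Rˣ

/-- The units of the residue ring `R ⧸ m` as a representation of the decomposition group of
`m`. -/
noncomputable def slSh_stabRep (m : Ideal R) : Rep ℤ (MulAction.stabilizer G m) :=
  letI := unitsStabAction F R G m
  Rep.ofMulDistribMulAction (MulAction.stabilizer G m) (R ⧸ m)ˣ

/-- Reduction modulo `m`, as a morphism of representations of the decomposition group. -/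
noncomputable def slSh_proj (m : Ideal R) :
    res (MulAction.stabilizer G m).subtype (slSh_unitsRep R G) ⟶ slSh_stabRep F R G m :=
  ofHom ⟨(Units.map (Ideal.Quotient.mk m : R →* R ⧸ m)).toAdditive.toIntLinearMap, fun d => by
    refine LinearMap.ext fun y => ?_
    rfl⟩

theorem slSh_proj_apply (m : Ideal R) (a : Additive Rˣ) :
    (slSh_proj F R G m).hom a =
      Additive.ofMul (Units.map (Ideal.Quotient.mk m : R →* R ⧸ m) a.toMul) := rfl

variable {R G}

omit [IsReduced R] in
theorem slSh_finite_of_isOrbitReps {ι : Type} {t : ι → MaximalSpectrum R}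
    (ht : slSh_IsOrbitReps R G t) : Finite ι := by
  have hinj : Function.Injective t := fun i j h => ht.disj i j 1 (by rw [one_smul]; exact h)
  exact Finite.of_injective t hinj


variable (R G)

/-- The canonical system of orbit representatives (`Quotient.out` on the orbit space). -/
theorem slSh_isOrbitReps_out :
    slSh_IsOrbitReps R G
      (fun q : MulAction.orbitRel.Quotient G (MaximalSpectrum R) => q.out) where
  cover m := by
    refine ⟨Quotient.mk'' m, ?_⟩
    have h : (Quotient.mk'' m : MulAction.orbitRel.Quotient G (MaximalSpectrum R)).out ∈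
        MulAction.orbit G m := by
      rw [← MulAction.orbitRel_apply]
      exact Quotient.exact' (Quotient.out_eq' _)
    obtain ⟨g, hg⟩ := h
    exact ⟨g⁻¹, by rw [← hg, inv_smul_smul]⟩
  disj q q' g h := by
    have h1 : (Quotient.mk'' (g • q.out) : MulAction.orbitRel.Quotient G (MaximalSpectrum R)) =
        Quotient.mk'' q.out := by
      apply Quotient.sound'
      rw [MulAction.orbitRel_apply]
      exact MulAction.mem_orbit _ _
    rw [h, Quotient.out_eq', Quotient.out_eq'] at h1
    exact h1.symm

end Reps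

section LocalFactor

variable {F E D : Type} [Field F] [Field E] [Algebra F E] [FiniteDimensional F E] [IsGalois F E]
  [Group D] [MulSemiringAction D E]

attribute [local instance] Units.mulDistribMulActionRight

/-- `Hⁿ(D, Eˣ) ≅ Hⁿ(P, Eˣ)` where `P` is the image of `D` in `Gal(E/F)`. -/
noncomputable def slSh_rangeIso (ψ : D →* (E ≃ₐ[F] E)) (hψ : Function.Injective ψ)
    (hψ' : ∀ d x, ψ d x = d • x) (n : ℕ) :
    groupCohomology (Rep.ofMulDistribMulAction D Eˣ) n ≅
      groupCohomology (res ψ.range.subtype (Rep.ofAlgebraAutOnUnits F E)) n :=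
  mapIso (MonoidHom.ofInjective hψ) (LinearEquiv.refl ℤ (Additive Eˣ)) (fun d => by
    refine LinearMap.ext fun u => ?_
    refine congrArg Additive.ofMul (Units.ext ?_)
    exact (hψ' d _).symm) n

/-- **Local input**: a finite group `D` acting faithfully on a finite Galois extension `E / F` of a
local field by `F`-automorphisms: Hilbert 90, `H²` cyclic of order `|D|`, `H³ = 0`. -/
theorem slSh_local_of_injective (ψ : D →* (E ≃ₐ[F] E)) (hψ : Function.Injective ψ)
    (hψ' : ∀ d x, ψ d x = d • x) (hF : IsLocalFieldNA F) :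
    Subsingleton (groupCohomology (Rep.ofMulDistribMulAction D Eˣ) 1) ∧
      Nat.card (groupCohomology (Rep.ofMulDistribMulAction D Eˣ) 2) = Nat.card D ∧
      IsAddCyclic (groupCohomology (Rep.ofMulDistribMulAction D Eˣ) 2) ∧
      Subsingleton (groupCohomology (Rep.ofMulDistribMulAction D Eˣ) 3) := by
  set P := ψ.range with hP
  refine ⟨?_, ?_, ?_, ?_⟩
  · exact ModuleCat.isZero_iff_subsingleton.1
      ((isZero_H1_res_units P).of_iso (slSh_rangeIso ψ hψ hψ' 1))
  · rw [Nat.card_congr (slSh_rangeIso ψ hψ hψ' 2).toLinearEquiv.toEquiv,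
      hF.natCard_H2_res_units_eq P]
    exact (Nat.card_congr (MonoidHom.ofInjective hψ).toEquiv).symm
  · have hF' : IsLocalFieldNA (IntermediateField.fixedField P) := hF.of_finite
    have hcyc : IsAddCyclic (groupCohomology
        (Rep.ofAlgebraAutOnUnits (IntermediateField.fixedField P) E) 2) :=
      hF'.isAddCyclic_H2_units
    let e1 := AddEquiv.ofBijective _ (bijective_res_units P 2)
    let e2 := (slSh_rangeIso ψ hψ hψ' 2).toLinearEquiv.toAddEquiv
    exact isAddCyclic_of_surjective (e2.trans e1).symm.toAddMonoidHom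
      (e2.trans e1).symm.surjective
  · exact ModuleCat.isZero_iff_subsingleton.1
      ((hF.isZero_H3_res_units P).of_iso (slSh_rangeIso ψ hψ hψ' 3))

end LocalFactor

section Tensor

open scoped TensorProduct Fermat.Agent.CFT.TensorGal

variable (K F L G : Type) [Field K] [Field F] [Field L] [Algebra K F] [Algebra K L]
  [FiniteDimensional K L] [IsGalois K L]
  [Group G] [Finite G] [MulSemiringAction G L] [SMulCommClass G K L] [FaithfulSMul G L]

attribute [local instance] maxSpecMulAction Ideal.Quotient.field Units.mulDistribMulActionRight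

omit [FiniteDimensional K L] [IsGalois K L] [Finite G] in
/-- The decomposition group acts faithfully on the residue field (generic faithful `G`). -/
theorem slSh_quotStabHom_injective (m : Ideal (F ⊗[K] L)) [m.IsMaximal] :
    Function.Injective (quotStabHom F (F ⊗[K] L) G m) := by
  rw [injective_iff_map_eq_one]
  intro d hd
  apply Subtype.ext
  refine FaithfulSMul.eq_of_smul_eq_smul (α := L) fun l => ?_
  rw [Subgroup.coe_one, one_smul]
  apply tensor_quot_mk_includeRight_injective K F L m
  have h := DFunLike.congr_fun hd (Ideal.Quotient.mk m ((1 : F) ⊗ₜ[K] l))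
  rw [quotStabHom_mk, tensorRight_smul_tmul] at h
  exact h

/-- **Local input at a maximal ideal of `F ⊗[K] L`**, `F` a local field, `G` any finite group
acting faithfully on the Galois extension `L / K` by `K`-automorphisms (e.g. `Gal(L/M)`). -/
theorem slSh_tensor_factor (hF : IsLocalFieldNA F) (m : Ideal (F ⊗[K] L)) [hm : m.IsMaximal] :
    Subsingleton (groupCohomology (slSh_stabRep F (F ⊗[K] L) G m) 1) ∧
      Nat.card (groupCohomology (slSh_stabRep F (F ⊗[K] L) G m) 2) =
        Nat.card (MulAction.stabilizer G m) ∧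
      IsAddCyclic (groupCohomology (slSh_stabRep F (F ⊗[K] L) G m) 2) ∧
      Subsingleton (groupCohomology (slSh_stabRep F (F ⊗[K] L) G m) 3) := by
  have hfd : FiniteDimensional F ((F ⊗[K] L) ⧸ m) :=
    Module.Finite.of_surjective (Ideal.Quotient.mkₐ F m).toLinearMap
      (Ideal.Quotient.mkₐ_surjective F m)
  have hgal : IsGalois F ((F ⊗[K] L) ⧸ m) := isGalois_tensor_quot K F L (L ≃ₐ[K] L) m
  exact @slSh_local_of_injective F ((F ⊗[K] L) ⧸ m) (MulAction.stabilizer G m) _ _ _ hfd hgal _
    (quotStabAction F (F ⊗[K] L) G m) (quotStabHom F (F ⊗[K] L) G m)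
    (slSh_quotStabHom_injective K F L G m) (fun _ _ => rfl) hF


end Tensor

end Fermat.Agent.CFT
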