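import Fermat.Agent.CFT.Coh.ShapiroExplicit
import Fermat.Agent.CFT.Idele.SemiLocalHerbrandRel
import Fermat.Agent.CFT.Local.TateLocal

set_option autoImplicit false
set_option linter.unusedSectionVars false
set_option linter.style.haveILetI false

/-!
# S55 global pool, (GT2-fin) part 2 : cohomology of the units of a semilocal algebra

`R` a reduced Artinian ring (a finite product of fields `R ⧸ m`) with an action of a finite group
`G` (not necessarily transitive on the maximal ideals, not necessarily cyclic).  Explicit Shapiro: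
`Hⁿ(G, Rˣ) ≅ ∏_{orbits o} Hⁿ(Stab(m_o), (R ⧸ m_o)ˣ)`, `x ↦ (reduction mod m_o)_* (res x)`
(`slCoh_bijective`, `slCoh_isZero`, `slCoh_natCard`).

For `R = F ⊗[K] L`, `F` a local field, `H` a finite group acting faithfully on `L` by
`K`-automorphisms: `H¹(H, Rˣ) = 0`, `H³(H, Rˣ) = 0`, `|H²(H, Rˣ)| = ∏_o |D_o|`
(`slCoh_tensor_isZero_H1`, `slCoh_tensor_isZero_H3`, `slCoh_tensor_natCard_H2`), each local factor
`H²(D_m, E_mˣ)` being cyclic of order `|D_m|` (`slCoh_tensor_local`); number field instances
`semiLocalCoh_*`.  Generic-group forms of the local theorems: `slCohGalIso`,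
`slCoh_local_isZero_H1`, `slCoh_local_natCard_H2`, `slCoh_local_isAddCyclic_H2`,
`slCoh_local_isZero_H3`.
-/

namespace Fermat.Agent.CFT

open IsArtinianRing CategoryTheory groupCohomology Rep Fermat.Agent.PT

open scoped Pointwise

attribute [local instance] Units.mulDistribMulActionRight maxSpecMulAction

section Abstract

variable (F R G : Type) [Field F] [CommRing R] [Algebra F R] [IsArtinianRing R] [IsReduced R]
  [Group G] [MulSemiringAction G R] [SMulCommClass G F R]

/-- the units of `R` as a `G`-module. -/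
noncomputable abbrev slCohA : Rep ℤ G := Rep.ofMulDistribMulAction G Rˣ

/-- the units of the residue ring `R ⧸ m` as a module under the decomposition group. -/
noncomputable def slCohB (m : Ideal R) : Rep ℤ (MulAction.stabilizer G m) :=
  @Rep.ofMulDistribMulAction (MulAction.stabilizer G m) (R ⧸ m)ˣ _ _
    (locHerbStabUnitsAction F R G m)

theorem slCohB_ρ_apply (m : Ideal R) (d : MulAction.stabilizer G m) (u : Additive (R ⧸ m)ˣ) :
    (slCohB F R G m).ρ d u =
      Additive.ofMul (Units.map (quotStabHom F R G m d : (R ⧸ m) →* (R ⧸ m)) u.toMul) := by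
  apply congrArg Additive.ofMul
  apply Units.ext
  rfl

/-- reduction mod `m`, `Rˣ → (R ⧸ m)ˣ`, equivariant for the decomposition group. -/
noncomputable def slCohπ (m : Ideal R) :
    res (MulAction.stabilizer G m).subtype (slCohA R G) ⟶ slCohB F R G m :=
  Rep.ofHom
    ⟨(MonoidHom.toAdditive (Units.map (Ideal.Quotient.mk m : R →* R ⧸ m))).toIntLinearMap,
    fun d => by
      apply LinearMap.ext
      intro a
      apply Additive.toMul.injective
      apply Units.ext
      rfl⟩

theorem slCohπ_apply (m : Ideal R) (a : Additive Rˣ) :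
    (slCohπ F R G m).hom a =
      Additive.ofMul (Units.map (Ideal.Quotient.mk m : R →* R ⧸ m) a.toMul) := rfl

end Abstract

section Theta

variable (F R G : Type) [Field F] [CommRing R] [Algebra F R] [IsArtinianRing R] [IsReduced R]
  [Group G] [MulSemiringAction G R] [SMulCommClass G F R]

/-- the decomposition group of (the chosen representative of) an orbit of maximal ideals. -/
noncomputable abbrev slCohH (o : MulAction.orbitRel.Quotient G (MaximalSpectrum R)) : Subgroup G :=
  MulAction.stabilizer G o.out.asIdeal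

variable [Fintype (MulAction.orbitRel.Quotient G (MaximalSpectrum R))]

/-- the total map `Rˣ → ∏_o Coind_{D_o}^G (R ⧸ m_o)ˣ`. -/
noncomputable abbrev slCohΘ :=
  expShapΘ (slCohA R G) (slCohH R G) (fun o => slCohB F R G o.out.asIdeal)
    (fun o => slCohπ F R G o.out.asIdeal)

theorem slCohΘ_apply (a : Additive Rˣ) (o : MulAction.orbitRel.Quotient G (MaximalSpectrum R))
    (g : G) :
    ((slCohΘ F R G a o).1 g).toMul =
      Units.map (Ideal.Quotient.mk o.out.asIdeal : R →* R ⧸ o.out.asIdeal) (g • a.toMul) := rfl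

/-- every maximal ideal is a translate of the representative of its orbit. -/
theorem slCoh_exists_smul_out (m : MaximalSpectrum R) :
    ∃ g : G, g • m.asIdeal = (Quotient.mk'' m : MulAction.orbitRel.Quotient G _).out.asIdeal := by
  have h : (Quotient.mk'' m : MulAction.orbitRel.Quotient G (MaximalSpectrum R)).out ∈
      MulAction.orbit G m := by
    have := Quotient.exact (Quotient.out_eq
      (Quotient.mk'' m : MulAction.orbitRel.Quotient G (MaximalSpectrum R)))
    exact this
  obtain ⟨g, hg⟩ := h
  exact ⟨g, congrArg MaximalSpectrum.asIdeal hg⟩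

theorem slCohΘ_injective : Function.Injective (slCohΘ F R G) := by
  rw [injective_iff_map_eq_zero]
  intro (a : Additive Rˣ) ha
  apply Additive.toMul.injective
  apply Units.ext
  apply locHerb_eq_of_forall_mk_eq R
  intro m
  obtain ⟨g, hg⟩ := slCoh_exists_smul_out R G m
  have h1 := slCohΘ_apply F R G a (Quotient.mk'' m) g
  rw [ha] at h1
  have h2 : Ideal.Quotient.mk (Quotient.mk'' m : MulAction.orbitRel.Quotient G _).out.asIdeal
      (g • ((a.toMul : Rˣ) : R)) = 1 := by
    have := congrArg Units.val h1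
    exact this.symm
  have h3 : g • (((a.toMul : Rˣ) : R) - 1) ∈ g • m.asIdeal := by
    rw [hg, smul_sub, smul_one, ← Ideal.Quotient.eq_zero_iff_mem, map_sub, h2, map_one, sub_self]
  rw [Ideal.smul_mem_pointwise_smul_iff] at h3
  have h4 := (Ideal.Quotient.eq_zero_iff_mem).mpr h3
  rw [map_sub, sub_eq_zero] at h4
  exact h4

end Theta

section Surj

variable (F R G : Type) [Field F] [CommRing R] [Algebra F R] [IsArtinianRing R] [IsReduced R]
  [Group G] [MulSemiringAction G R] [SMulCommClass G F R]

/-- the equivariance of a coinduced function, in multiplicative form. -/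
theorem slCoh_coind_apply (m : Ideal R)
    (f : (slCohB F R G m).ρ.coindV (MulAction.stabilizer G m).subtype)
    (d : MulAction.stabilizer G m) (g : G) :
    (f.1 ((d : G) * g)).toMul =
      Units.map (quotStabHom F R G m d : (R ⧸ m) →* (R ⧸ m)) (f.1 g).toMul := by
  have h := f.2 d g
  have h' : f.1 ((d : G) * g) = (slCohB F R G m).ρ d (f.1 g) := h
  rw [h', slCohB_ρ_apply]
  rfl

/-- translates of the CRT lift. -/
theorem slCoh_smul_lift_mem (m : MaximalSpectrum R) (g : G) (u : (R ⧸ m.asIdeal)ˣ) :
    g • locHerbLift R m u ∈ locHerbComp R (g • m) :=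
  locHerb_smul_mem_comp R G g m ((locHerb_range_lift R m) ▸ ⟨u, rfl⟩)

theorem slCoh_mk_smul_lift_of_ne (m m' : MaximalSpectrum R) (g : G) (u : (R ⧸ m.asIdeal)ˣ)
    (h : m' ≠ g • m) :
    Units.map (Ideal.Quotient.mk m'.asIdeal : R →* R ⧸ m'.asIdeal) (g • locHerbLift R m u) = 1 := by
  apply Units.ext
  exact slCoh_smul_lift_mem R G m g u m' h

theorem slCoh_mk_smul_lift_stab (m : MaximalSpectrum R)
    (d : MulAction.stabilizer G m.asIdeal) (u : (R ⧸ m.asIdeal)ˣ) :
    Units.map (Ideal.Quotient.mk m.asIdeal : R →* R ⧸ m.asIdeal) ((d : G) • locHerbLift R m u) =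
      Units.map (quotStabHom F R G m.asIdeal d : (R ⧸ m.asIdeal) →* (R ⧸ m.asIdeal)) u := by
  letI := locHerbStabUnitsAction F R G m.asIdeal
  rw [← locHerbLift_smul F R G m d u]
  apply Units.ext
  change Ideal.Quotient.mk m.asIdeal (locHerbLift R m (d • u) : R) = _
  rw [locHerb_mk_lift_self]
  rfl

variable [Fintype (MulAction.orbitRel.Quotient G (MaximalSpectrum R))] [Finite G]

open Classical in
theorem slCohΘ_surjective : Function.Surjective (slCohΘ F R G) := by
  intro f
  letI : ∀ o : MulAction.orbitRel.Quotient G (MaximalSpectrum R),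
      Fintype (G ⧸ slCohH R G o) := fun o => Fintype.ofFinite _
  let u : ∀ o : MulAction.orbitRel.Quotient G (MaximalSpectrum R),
      G → (R ⧸ o.out.asIdeal)ˣ := fun o g => ((f o).1 g).toMul
  let t : ∀ o : MulAction.orbitRel.Quotient G (MaximalSpectrum R),
      G ⧸ slCohH R G o → Rˣ := fun o c => c.out • locHerbLift R o.out (u o c.out⁻¹)
  refine ⟨(Additive.ofMul (∏ o, ∏ c, t o c : Rˣ) : Additive Rˣ), ?_⟩
  funext o₀
  apply Subtype.ext
  funext g
  apply Additive.toMul.injective
  rw [slCohΘ_apply]
  change Units.map (Ideal.Quotient.mk o₀.out.asIdeal : R →* R ⧸ o₀.out.asIdeal)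
    (MulDistribMulAction.toMonoidHom Rˣ g (∏ o, ∏ c, t o c)) = u o₀ g
  rw [map_prod, map_prod, Finset.prod_eq_single o₀]
  · rw [map_prod, map_prod, Finset.prod_eq_single ((g⁻¹ : G) : G ⧸ slCohH R G o₀)]
    · -- the main term
      have hd : g * ((g⁻¹ : G) : G ⧸ slCohH R G o₀).out ∈ slCohH R G o₀ := by
        have h1 := QuotientGroup.out_eq' ((g⁻¹ : G) : G ⧸ slCohH R G o₀)
        have h2 := QuotientGroup.eq.mp h1
        have h3 := (slCohH R G o₀).inv_mem h2
        rwa [mul_inv_rev, inv_inv, inv_inv] at h3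
      change Units.map (Ideal.Quotient.mk o₀.out.asIdeal : R →* R ⧸ o₀.out.asIdeal)
        (g • (((g⁻¹ : G) : G ⧸ slCohH R G o₀).out •
          locHerbLift R o₀.out (u o₀ (((g⁻¹ : G) : G ⧸ slCohH R G o₀).out)⁻¹))) = u o₀ g
      rw [← mul_smul]
      have h4 := slCoh_mk_smul_lift_stab F R G o₀.out ⟨_, hd⟩
        (u o₀ (((g⁻¹ : G) : G ⧸ slCohH R G o₀).out)⁻¹)
      rw [h4]
      have h5 := slCoh_coind_apply F R G o₀.out.asIdeal (f o₀) ⟨_, hd⟩
        (((g⁻¹ : G) : G ⧸ slCohH R G o₀).out)⁻¹
      rw [← h5]
      change ((f o₀).1 _).toMul = ((f o₀).1 g).toMul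
      congr 2
      simp
    · intro c _ hc
      change Units.map (Ideal.Quotient.mk o₀.out.asIdeal : R →* R ⧸ o₀.out.asIdeal)
        (g • (c.out • locHerbLift R o₀.out (u o₀ c.out⁻¹))) = 1
      rw [← mul_smul]
      apply slCoh_mk_smul_lift_of_ne
      intro h
      apply hc
      have h1 : g * c.out ∈ slCohH R G o₀ := by
        rw [MulAction.mem_stabilizer_iff]
        exact (congrArg MaximalSpectrum.asIdeal h).symm
      have h2 : ((g⁻¹ : G) : G ⧸ slCohH R G o₀) = (c.out : G ⧸ slCohH R G o₀) := by
        rw [QuotientGroup.eq, inv_inv]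
        exact h1
      rw [h2]
      exact (QuotientGroup.out_eq' c).symm
    · intro h
      exact absurd (Finset.mem_univ _) h
  · intro o _ ho
    rw [map_prod, map_prod]
    apply Finset.prod_eq_one
    intro c _
    change Units.map (Ideal.Quotient.mk o₀.out.asIdeal : R →* R ⧸ o₀.out.asIdeal)
      (g • (c.out • locHerbLift R o.out (u o c.out⁻¹))) = 1
    rw [← mul_smul]
    apply slCoh_mk_smul_lift_of_ne
    intro h
    apply ho
    have h1 : (Quotient.mk'' o₀.out : MulAction.orbitRel.Quotient G (MaximalSpectrum R)) =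
        Quotient.mk'' o.out := by
      apply Quotient.sound
      exact ⟨g * c.out, h.symm⟩
    rw [Quotient.out_eq', Quotient.out_eq'] at h1
    exact h1.symm
  · intro h
    exact absurd (Finset.mem_univ _) h

theorem slCohΘ_bijective : Function.Bijective (slCohΘ F R G) :=
  ⟨slCohΘ_injective F R G, slCohΘ_surjective F R G⟩

end Surj

section Main

variable (F R G : Type) [Field F] [CommRing R] [Algebra F R] [IsArtinianRing R] [IsReduced R]
  [Group G] [MulSemiringAction G R] [SMulCommClass G F R]
  [Fintype (MulAction.orbitRel.Quotient G (MaximalSpectrum R))] [Finite G]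

/-- **Explicit Shapiro for the units of a semilocal ring**: restriction to the decomposition groups
followed by reduction modulo the maximal ideals (one per orbit) is a bijection
`Hⁿ(G, Rˣ) ≅ ∏_o Hⁿ(D_o, (R ⧸ m_o)ˣ)`. -/
theorem slCoh_bijective (n : ℕ) :
    Function.Bijective (fun (x : groupCohomology (slCohA R G) n)
        (o : MulAction.orbitRel.Quotient G (MaximalSpectrum R)) =>
      (groupCohomology.map (slCohH R G o).subtype (slCohπ F R G o.out.asIdeal) n).hom x) :=
  expShap_bijective (slCohA R G) (slCohH R G) (fun o => slCohB F R G o.out.asIdeal)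
    (fun o => slCohπ F R G o.out.asIdeal) (slCohΘ_bijective F R G) n

theorem slCoh_isZero (n : ℕ)
    (h : ∀ o : MulAction.orbitRel.Quotient G (MaximalSpectrum R),
      Limits.IsZero (groupCohomology (slCohB F R G o.out.asIdeal) n)) :
    Limits.IsZero (groupCohomology (slCohA R G) n) :=
  expShap_isZero (slCohA R G) (slCohH R G) (fun o => slCohB F R G o.out.asIdeal)
    (fun o => slCohπ F R G o.out.asIdeal) (slCohΘ_bijective F R G) n h

theorem slCoh_natCard (n : ℕ) :
    Nat.card (groupCohomology (slCohA R G) n) =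
      ∏ o : MulAction.orbitRel.Quotient G (MaximalSpectrum R),
        Nat.card (groupCohomology (slCohB F R G o.out.asIdeal) n) :=
  expShap_natCard (slCohA R G) (slCohH R G) (fun o => slCohB F R G o.out.asIdeal)
    (fun o => slCohπ F R G o.out.asIdeal) (slCohΘ_bijective F R G) n

end Main

section LocalGeneric

variable {F E : Type} [Field F] [Field E] [Algebra F E]
  {D : Type} [Group D] [Finite D] [MulSemiringAction D E] [IsGaloisGroup D F E]

/-- the cohomology of `Eˣ` under a generic Galois group `D` of `E / F` is that of `Gal(E/F)`. -/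
noncomputable def slCohGalIso (n : ℕ) :
    groupCohomology (Rep.ofMulDistribMulAction D Eˣ) n ≅
      groupCohomology (Rep.ofAlgebraAutOnUnits F E) n :=
  haveI : FiniteDimensional F E := IsGaloisGroup.finiteDimensional D F E
  haveI : IsGalois F E := IsGaloisGroup.isGalois D F E
  groupCohomology.mapIso (IsGaloisGroup.mulEquivCongr D (E ≃ₐ[F] E) F E)
    (LinearEquiv.refl ℤ (Additive Eˣ)) (fun d => by
      apply LinearMap.ext
      intro a
      apply Additive.toMul.injective
      apply Units.ext
      exact (IsGaloisGroup.mulEquivCongr_apply_smul D (E ≃ₐ[F] E) F E d _).symm) n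

variable (hF : IsLocalFieldNA F)

include hF in
theorem slCoh_local_natCard_H2 :
    Nat.card (groupCohomology (Rep.ofMulDistribMulAction D Eˣ) 2) = Nat.card D := by
  haveI : FiniteDimensional F E := IsGaloisGroup.finiteDimensional D F E
  haveI : IsGalois F E := IsGaloisGroup.isGalois D F E
  rw [Nat.card_congr (slCohGalIso (F := F) (E := E) (D := D) 2).toLinearEquiv.toEquiv,
    IsGaloisGroup.card_eq_finrank D F E]
  exact hF.natCard_H2_units

include hF in
theorem slCoh_local_isAddCyclic_H2 :
    IsAddCyclic (groupCohomology (Rep.ofMulDistribMulAction D Eˣ) 2) := by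
  haveI : FiniteDimensional F E := IsGaloisGroup.finiteDimensional D F E
  haveI : IsGalois F E := IsGaloisGroup.isGalois D F E
  haveI : IsAddCyclic (H2 (Rep.ofAlgebraAutOnUnits F E)) := hF.isAddCyclic_H2_units
  exact isAddCyclic_of_surjective
    (slCohGalIso (F := F) (E := E) (D := D) 2).toLinearEquiv.symm.toAddMonoidHom
    (slCohGalIso (F := F) (E := E) (D := D) 2).toLinearEquiv.symm.surjective

include hF in
theorem slCoh_local_isZero_H3 :
    Limits.IsZero (groupCohomology (Rep.ofMulDistribMulAction D Eˣ) 3) := by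
  haveI : FiniteDimensional F E := IsGaloisGroup.finiteDimensional D F E
  haveI : IsGalois F E := IsGaloisGroup.isGalois D F E
  exact (hF.isZero_H3_units (L := E)).of_iso (slCohGalIso (F := F) (E := E) (D := D) 3)

end LocalGeneric

section LocalH90

/-- Hilbert 90 in generic-group form. -/
theorem slCoh_local_isZero_H1 (F : Type) {E : Type} [Field F] [Field E] [Algebra F E]
    {D : Type} [Group D] [Finite D] [MulSemiringAction D E] [IsGaloisGroup D F E] :
    Limits.IsZero (groupCohomology (Rep.ofMulDistribMulAction D Eˣ) 1) := by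
  haveI : FiniteDimensional F E := IsGaloisGroup.finiteDimensional D F E
  haveI : IsGalois F E := IsGaloisGroup.isGalois D F E
  have hsub : Subsingleton (H1 (Rep.ofAlgebraAutOnUnits F E)) :=
    (H1ofAutOnUnitsUnique F E).instSubsingleton
  have h0 : Limits.IsZero (groupCohomology (Rep.ofAlgebraAutOnUnits F E) 1) :=
    ModuleCat.isZero_of_subsingleton _
  exact h0.of_iso (slCohGalIso (F := F) (E := E) (D := D) 1)

end LocalH90


section Tensor

open scoped TensorProduct Fermat.Agent.CFT.TensorGal

variable (K : Type*) (F L : Type) (H : Type) [Field K] [Field F] [Field L] [Algebra K F]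
  [Algebra K L] [FiniteDimensional K L] [Algebra.IsSeparable K L]
  [Group H] [Finite H] [MulSemiringAction H L] [SMulCommClass H K L] [FaithfulSMul H L]

attribute [local instance] Ideal.Quotient.field

/-- the local facts for the decomposition group `D_m` of a maximal ideal `m` of `F ⊗[K] L`,
`F` a local field: `H¹(D_m, E_mˣ) = 0`, `|H²(D_m, E_mˣ)| = |D_m|` cyclic, `H³(D_m, E_mˣ) = 0`. -/
theorem slCoh_tensor_local (hF : IsLocalFieldNA F) (m : Ideal (F ⊗[K] L)) [m.IsMaximal] :
    Limits.IsZero (groupCohomology (slCohB F (F ⊗[K] L) H m) 1) ∧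
    Nat.card (groupCohomology (slCohB F (F ⊗[K] L) H m) 2) =
      Nat.card (MulAction.stabilizer H m) ∧
    IsAddCyclic (groupCohomology (slCohB F (F ⊗[K] L) H m) 2) ∧
    Limits.IsZero (groupCohomology (slCohB F (F ⊗[K] L) H m) 3) := by
  letI := quotStabAction F (F ⊗[K] L) H m
  haveI := locHerbR_faithful_quot K F L H m
  haveI := locHerbR_finiteDimensional_quot K F L m
  haveI := locHerbR_isSeparable_quot K F L m
  haveI : SMulCommClass (MulAction.stabilizer H m) F ((F ⊗[K] L) ⧸ m) :=
    ⟨fun d c x => by
      show quotStabHom F (F ⊗[K] L) H m d (c • x) = c • quotStabHom F (F ⊗[K] L) H m d x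
      exact map_smul _ c x⟩
  haveI := isGaloisGroup_fixedIntermediateField F ((F ⊗[K] L) ⧸ m) (MulAction.stabilizer H m)
  haveI : Algebra.IsSeparable F
      ↥(FixedPoints.intermediateField (MulAction.stabilizer H m) :
        IntermediateField F ((F ⊗[K] L) ⧸ m)) :=
    Algebra.isSeparable_tower_bot_of_isSeparable F _ ((F ⊗[K] L) ⧸ m)
  have hF' : IsLocalFieldNA ↥(FixedPoints.intermediateField (MulAction.stabilizer H m) :
      IntermediateField F ((F ⊗[K] L) ⧸ m)) := hF.of_finite
  exact ⟨slCoh_local_isZero_H1 ↥(FixedPoints.intermediateField (MulAction.stabilizer H m) :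
      IntermediateField F ((F ⊗[K] L) ⧸ m)), slCoh_local_natCard_H2 hF',
    slCoh_local_isAddCyclic_H2 hF', slCoh_local_isZero_H3 hF'⟩

variable [Fintype (MulAction.orbitRel.Quotient H (MaximalSpectrum (F ⊗[K] L)))]

/-- **`H¹(H, (F ⊗[K] L)ˣ) = 0`** (`F` a local field, `H` finite acting faithfully on `L`). -/
theorem slCoh_tensor_isZero_H1 (hF : IsLocalFieldNA F) :
    Limits.IsZero (groupCohomology (slCohA (F ⊗[K] L) H) 1) :=
  slCoh_isZero F (F ⊗[K] L) H 1 fun o =>
    haveI : o.out.asIdeal.IsMaximal := o.out.isMaximal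
    (slCoh_tensor_local K F L H hF o.out.asIdeal).1

/-- **`H³(H, (F ⊗[K] L)ˣ) = 0`**. -/
theorem slCoh_tensor_isZero_H3 (hF : IsLocalFieldNA F) :
    Limits.IsZero (groupCohomology (slCohA (F ⊗[K] L) H) 3) :=
  slCoh_isZero F (F ⊗[K] L) H 3 fun o =>
    haveI : o.out.asIdeal.IsMaximal := o.out.isMaximal
    (slCoh_tensor_local K F L H hF o.out.asIdeal).2.2.2

/-- **`|H²(H, (F ⊗[K] L)ˣ)| = ∏_o |D_o|`**. -/
theorem slCoh_tensor_natCard_H2 (hF : IsLocalFieldNA F) :
    Nat.card (groupCohomology (slCohA (F ⊗[K] L) H) 2) =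
      ∏ o : MulAction.orbitRel.Quotient H (MaximalSpectrum (F ⊗[K] L)),
        Nat.card (MulAction.stabilizer H o.out.asIdeal) := by
  rw [slCoh_natCard F (F ⊗[K] L) H 2]
  refine Finset.prod_congr rfl fun o _ => ?_
  haveI : o.out.asIdeal.IsMaximal := o.out.isMaximal
  exact (slCoh_tensor_local K F L H hF o.out.asIdeal).2.1

end Tensor

section NumberField

open NumberField IsDedekindDomain
open scoped TensorProduct Fermat.Agent.CFT.TensorGal

variable (K L : Type) (H : Type) [Field K] [NumberField K] [Field L] [NumberField L]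
  [Algebra K L] [Group H] [Finite H] [MulSemiringAction H L] [SMulCommClass H K L]
  [FaithfulSMul H L] (v : HeightOneSpectrum (𝓞 K))
  [Fintype (MulAction.orbitRel.Quotient H (MaximalSpectrum (semiLocal K L v)))]

/-- **`H¹(H, (K_v ⊗ L)ˣ) = 0`** for number fields: `K` the tensor base, `H` a finite group acting
faithfully on `L` by `K`-automorphisms (e.g. `Gal(L/M)`, `K ≤ M ≤ L`), `v` a finite place of
`K`. -/
theorem semiLocalCoh_isZero_H1 :
    Limits.IsZero (groupCohomology (slCohA (semiLocal K L v) H) 1) :=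
  slCoh_tensor_isZero_H1 K (v.adicCompletion K) L H (isLocalFieldNA_adicCompletion K v)

/-- **`H³(H, (K_v ⊗ L)ˣ) = 0`**. -/
theorem semiLocalCoh_isZero_H3 :
    Limits.IsZero (groupCohomology (slCohA (semiLocal K L v) H) 3) :=
  slCoh_tensor_isZero_H3 K (v.adicCompletion K) L H (isLocalFieldNA_adicCompletion K v)

/-- **`|H²(H, (K_v ⊗ L)ˣ)| = ∏_o |D_o|`** (product over the `H`-orbits of maximal ideals). -/
theorem semiLocalCoh_natCard_H2 :
    Nat.card (groupCohomology (slCohA (semiLocal K L v) H) 2) =
      ∏ o : MulAction.orbitRel.Quotient H (MaximalSpectrum (semiLocal K L v)),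
        Nat.card (MulAction.stabilizer H o.out.asIdeal) :=
  slCoh_tensor_natCard_H2 K (v.adicCompletion K) L H (isLocalFieldNA_adicCompletion K v)

/-- the explicit Shapiro bijection for `(K_v ⊗ L)ˣ`, all degrees. -/
theorem semiLocalCoh_bijective (n : ℕ) :
    Function.Bijective (fun (x : groupCohomology (slCohA (semiLocal K L v) H) n)
        (o : MulAction.orbitRel.Quotient H (MaximalSpectrum (semiLocal K L v))) =>
      (groupCohomology.map (slCohH (semiLocal K L v) H o).subtype
        (slCohπ (v.adicCompletion K) (semiLocal K L v) H o.out.asIdeal) n).hom x) :=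
  slCoh_bijective (v.adicCompletion K) (semiLocal K L v) H n

end NumberField

end Fermat.Agent.CFT
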