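import Mathlib
import Fermat.Agent.CFT.Idele.SemiLocalCRT
import Fermat.Agent.CFT.Coh.ShapiroExplicit

set_option autoImplicit false
set_option linter.unusedSectionVars false
set_option linter.style.haveILetI false

/-!
# CFT stream [C] Idele : the semilocal Shapiro lemma in cohomological form, all degrees

`G` a finite group acting on a reduced Artinian ring `R`, `t : ι → MaxSpec R` a system of
representatives of the `G`-orbits on the maximal ideals, `D_i` the decomposition group of `t i`.

* `slSh_units_bijective` : `x ↦ (i ↦ (mod t i)_* (res_{D_i} x))` is a bijection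
  `Hⁿ(G, Rˣ) ≃ ∏ᵢ Hⁿ(D_i, (R ⧸ t i)ˣ)` for every `n` (natural maps: restriction followed by
  reduction, hence compatible with inflation / coefficient maps by functoriality of
  `groupCohomology.map`).
* for `R = F ⊗[K] L`, `L / K` finite Galois, `F` a local field, `G` any finite group acting
  faithfully on `L` by `K`-automorphisms: `slSh_tensor_H1` (Hilbert 90), `slSh_tensor_H3`
  (`H³ = 0`), `slSh_tensor_H2_natCard`; by `slSh_units_bijective` and `slSh_tensor_factor`
  (`Idele/SemiLocalCRT.lean`) `H²` is the product of the cyclic groups `H²(D_i, E_iˣ)` of orders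
  `|D_i|`.
-/

namespace Fermat.Agent.CFT

open scoped Pointwise
open CategoryTheory groupCohomology Rep

universe u

section Abstract

/-- The decomposed-module Shapiro lemma (helper17's `expShap_bijective`) with the bijectivity
hypothesis unfolded into elementwise form. -/
theorem slSh_prod_bijective {k G : Type u} [CommRing k] [Group G] [Finite G] {ι : Type}
    [Finite ι] (A : Rep.{u} k G) (D : ι → Subgroup G) (B : ∀ t, Rep.{u} k ↥(D t))
    (π : ∀ t, Rep.res (D t).subtype A ⟶ B t)
    (hinj : ∀ a : A, (∀ t (g : G), (π t).hom (A.ρ g a) = 0) → a = 0)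
    (hsurj : ∀ f : ∀ t, G → B t, (∀ t (d : ↥(D t)) (g : G), f t (↑d * g) = (B t).ρ d (f t g)) →
      ∃ a : A, ∀ t g, (π t).hom (A.ρ g a) = f t g) (n : ℕ) :
    Function.Bijective (fun (x : groupCohomology A n) (t : ι) =>
      (groupCohomology.map (D t).subtype (π t) n).hom x) := by
  have := Fintype.ofFinite ι
  refine PT.expShap_bijective A D B π ⟨?_, ?_⟩ n
  · rw [← LinearMap.ker_eq_bot, LinearMap.ker_eq_bot']
    intro a ha
    refine hinj a fun t g => ?_
    have h1 := congrFun ha t
    rw [PT.expShapΘ_apply] at h1
    have h2 := congrArg (fun f : (B t).ρ.coindV (D t).subtype => f.1 g) h1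
    exact h2
  · intro y
    obtain ⟨a, ha⟩ := hsurj (fun t g => (y t).1 g) (fun t d g => (y t).2 d g)
    refine ⟨a, ?_⟩
    funext t
    apply Subtype.ext
    funext g
    exact ha t g

end Abstract

section Main

variable (F : Type*) {R G : Type} [Field F] [CommRing R] [Algebra F R] [IsArtinianRing R]
  [IsReduced R] [Group G] [MulSemiringAction G R] [SMulCommClass G F R]

attribute [local instance] maxSpecMulAction Units.mulDistribMulActionRight

/-- **Semilocal Shapiro lemma, cohomological form, all degrees**: for a finite group `G` acting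
on a reduced Artinian ring `R` and a system `t` of representatives of the orbits of `G` on the
maximal ideals, restriction to the decomposition groups followed by reduction modulo `t i`
is a bijection `Hⁿ(G, Rˣ) ≃ ∏ᵢ Hⁿ(D_{t i}, (R ⧸ t i)ˣ)`. -/
theorem slSh_units_bijective [Finite G] {ι : Type} {t : ι → MaximalSpectrum R}
    (ht : slSh_IsOrbitReps R G t) (n : ℕ) :
    Function.Bijective (fun (x : groupCohomology (slSh_unitsRep R G) n) (i : ι) =>
      (groupCohomology.map (MulAction.stabilizer G (t i).asIdeal).subtype
        (slSh_proj F R G (t i).asIdeal) n).hom x) := by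
  have hfin : Finite ι := slSh_finite_of_isOrbitReps ht
  refine slSh_prod_bijective (slSh_unitsRep R G)
    (fun i => MulAction.stabilizer G (t i).asIdeal)
    (fun i => slSh_stabRep F R G (t i).asIdeal) (fun i => slSh_proj F R G (t i).asIdeal)
    ?_ ?_ n
  · intro a ha
    have : Additive.toMul (α := Rˣ) a = 1 :=
      slSh_units_eq_one ht (Additive.toMul (α := Rˣ) a) fun i g => by
        have := ha i g
        exact congrArg Additive.toMul this
    exact congrArg Additive.ofMul this
  · intro f hf
    obtain ⟨u, hu⟩ := slSh_units_exists F ht (fun i g => Additive.toMul (f i g))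
      (fun i d g => congrArg Additive.toMul (hf i d g))
    exact ⟨Additive.ofMul u, fun i g => congrArg Additive.ofMul (hu i g)⟩

/-- vanishing of `Hⁿ(G, Rˣ)` from vanishing at the decomposition groups. -/
theorem slSh_subsingleton_of_forall [Finite G] {ι : Type} {t : ι → MaximalSpectrum R}
    (ht : slSh_IsOrbitReps R G t) (n : ℕ)
    (h : ∀ i, Subsingleton (groupCohomology (slSh_stabRep F R G (t i).asIdeal) n)) :
    Subsingleton (groupCohomology (slSh_unitsRep R G) n) :=
  (slSh_units_bijective F ht n).1.subsingleton

/-- `|Hⁿ(G, Rˣ)| = ∏ᵢ |Hⁿ(D_{t i}, (R ⧸ t i)ˣ)|`. -/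
theorem slSh_natCard_eq_prod [Finite G] {ι : Type} [Fintype ι] {t : ι → MaximalSpectrum R}
    (ht : slSh_IsOrbitReps R G t) (n : ℕ) :
    Nat.card (groupCohomology (slSh_unitsRep R G) n) =
      ∏ i, Nat.card (groupCohomology (slSh_stabRep F R G (t i).asIdeal) n) := by
  rw [Nat.card_congr (Equiv.ofBijective _ (slSh_units_bijective F ht n)), Nat.card_pi]

end Main

section Tensor

open scoped TensorProduct Fermat.Agent.CFT.TensorGal

variable (K F L G : Type) [Field K] [Field F] [Field L] [Algebra K F] [Algebra K L]
  [FiniteDimensional K L] [IsGalois K L]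
  [Group G] [Finite G] [MulSemiringAction G L] [SMulCommClass G K L] [FaithfulSMul G L]

attribute [local instance] maxSpecMulAction Ideal.Quotient.field Units.mulDistribMulActionRight

variable {ι : Type} {t : ι → MaximalSpectrum (F ⊗[K] L)}

/-- **Hilbert 90 for the semilocal algebra**: `H¹(G, (F ⊗[K] L)ˣ) = 0`. -/
theorem slSh_tensor_H1 (hF : IsLocalFieldNA F) :
    Subsingleton (groupCohomology (slSh_unitsRep (F ⊗[K] L) G) 1) :=
  slSh_subsingleton_of_forall F (slSh_isOrbitReps_out (F ⊗[K] L) G) 1 fun q =>
    haveI := q.out.isMaximal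
    (slSh_tensor_factor K F L G hF q.out.asIdeal).1

/-- `H³(G, (F ⊗[K] L)ˣ) = 0` for `F` local. -/
theorem slSh_tensor_H3 (hF : IsLocalFieldNA F) :
    Subsingleton (groupCohomology (slSh_unitsRep (F ⊗[K] L) G) 3) :=
  slSh_subsingleton_of_forall F (slSh_isOrbitReps_out (F ⊗[K] L) G) 3 fun q =>
    haveI := q.out.isMaximal
    (slSh_tensor_factor K F L G hF q.out.asIdeal).2.2.2

/-- `|H²(G, (F ⊗[K] L)ˣ)| = ∏ |decomposition groups|` over orbit representatives. -/
theorem slSh_tensor_H2_natCard (hF : IsLocalFieldNA F) [Fintype ι]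
    (ht : slSh_IsOrbitReps (F ⊗[K] L) G t) :
    Nat.card (groupCohomology (slSh_unitsRep (F ⊗[K] L) G) 2) =
      ∏ i, Nat.card (MulAction.stabilizer G (t i).asIdeal) := by
  rw [slSh_natCard_eq_prod F ht 2]
  refine Finset.prod_congr rfl fun i _ => ?_
  haveI := (t i).isMaximal
  exact (slSh_tensor_factor K F L G hF (t i).asIdeal).2.1

end Tensor

end Fermat.Agent.CFT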