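import Mathlib
import Fermat.Agent.CFT.Idele.SemiLocalShapiro

set_option autoImplicit false
set_option linter.unusedSectionVars false
set_option linter.style.haveILetI false

/-!
# CFT stream [C] Idele : semilocal Shapiro for `G`-stable componentwise subgroups of `Rˣ`

`R` a reduced Artinian ring with an action of a finite group `G`, `V m ≤ (R ⧸ m)ˣ` a family of
subgroups such that `unitsSub R V = {u | ∀ m, (u mod m) ∈ V m}` is `G`-stable (helper27's vocabulary
of `Idele/SemiLocalUnits.lean`; e.g. the integral units of `K_v ⊗[K] L`).  Then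
`Hⁿ(G, unitsSub R V) ≃ ∏ᵢ Hⁿ(D_{t i}, V (t i))` over orbit representatives `t`, for every `n` and
every finite group `G` (`slUC_sub_bijective`): restriction to the decomposition group followed by
the projection to the component.
-/

namespace Fermat.Agent.CFT

open scoped Pointwise
open CategoryTheory groupCohomology Rep

section Sub

variable (F : Type*) {R G : Type} [Field F] [CommRing R] [Algebra F R] [IsArtinianRing R]
  [IsReduced R] [Group G] [MulSemiringAction G R] [SMulCommClass G F R]

attribute [local instance] maxSpecMulAction Units.mulDistribMulActionRight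

variable (V : ∀ m : MaximalSpectrum R, Subgroup (R ⧸ m.asIdeal)ˣ)
variable (hV : ∀ g : G, ∀ u ∈ unitsSub R V, g • u ∈ unitsSub R V)

include F hV in
/-- `G`-stability of `unitsSub R V` transports the componentwise conditions along `G`. -/
theorem slUC_mem_smul (g : G) (u : Rˣ) (m : MaximalSpectrum R)
    (h : unitsEquivPi R u m ∈ V m) : unitsEquivPi R (g • u) (g • m) ∈ V (g • m) := by
  have h1 := hV g _ (unitsLift_mem_unitsSub R V m h)
  rw [smul_unitsLift F R G, mem_unitsSub_iff] at h1
  have h2 := h1 (g • m)
  rwa [unitsEquivPi_unitsLift_same, ← unitsEquivPi_smul F R G] at h2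

/-- The `G`-stable subgroup `unitsSub R V` of `Rˣ` as a representation of `G`. -/
noncomputable def slUC_subRep : Rep ℤ G :=
  letI := unitsSubAction R G V hV
  Rep.ofMulDistribMulAction G (unitsSub R V)

/-- The component `V m` as a representation of the decomposition group of `m`. -/
noncomputable def slUC_stabRep (m : MaximalSpectrum R) :
    Rep ℤ (MulAction.stabilizer G m.asIdeal) :=
  letI := unitsSubStabAction F R G V hV m
  Rep.ofMulDistribMulAction (MulAction.stabilizer G m.asIdeal) (V m)

/-- The projection of `unitsSub R V` to its component at `m`, as a group homomorphism. -/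
noncomputable def slUC_projHom (m : MaximalSpectrum R) : unitsSub R V →* V m :=
  MonoidHom.codRestrict
    (((Pi.evalMonoidHom (fun m : MaximalSpectrum R => (R ⧸ m.asIdeal)ˣ) m).comp
      (unitsEquivPi R).toMonoidHom).comp (unitsSub R V).subtype) (V m)
    (fun u => (mem_unitsSub_iff R V).1 u.2 m)

theorem slUC_projHom_coe (m : MaximalSpectrum R) (u : unitsSub R V) :
    ((slUC_projHom V m u : V m) : (R ⧸ m.asIdeal)ˣ) = unitsEquivPi R (u : Rˣ) m := rfl

/-- The projection to the component at `m`, as a morphism of representations of the decomposition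
group. -/
noncomputable def slUC_proj (m : MaximalSpectrum R) :
    res (MulAction.stabilizer G m.asIdeal).subtype (slUC_subRep V hV) ⟶
      slUC_stabRep F V hV m :=
  ofHom ⟨(slUC_projHom V m).toAdditive.toIntLinearMap, fun d => by
    refine LinearMap.ext fun y => ?_
    refine congrArg Additive.ofMul (Subtype.ext (Units.ext ?_))
    rfl⟩

/-- **Semilocal Shapiro lemma for a `G`-stable componentwise subgroup of `Rˣ`** (e.g. the integral
units), cohomological form, all degrees, any finite group `G`:
`Hⁿ(G, unitsSub R V) ≃ ∏ᵢ Hⁿ(D_{t i}, V (t i))`. -/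
theorem slUC_sub_bijective [Finite G] {ι : Type} {t : ι → MaximalSpectrum R}
    (ht : slSh_IsOrbitReps R G t) (n : ℕ) :
    Function.Bijective (fun (x : groupCohomology (slUC_subRep V hV) n) (i : ι) =>
      (groupCohomology.map (MulAction.stabilizer G (t i).asIdeal).subtype
        (slUC_proj F V hV (t i)) n).hom x) := by
  have hfin : Finite ι := slSh_finite_of_isOrbitReps ht
  refine slSh_prod_bijective (slUC_subRep V hV)
    (fun i => MulAction.stabilizer G (t i).asIdeal)
    (fun i => slUC_stabRep F V hV (t i)) (fun i => slUC_proj F V hV (t i)) ?_ ?_ n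
  · intro a ha
    have h1 : ((Additive.toMul (α := unitsSub R V) a : unitsSub R V) : Rˣ) = 1 :=
      slSh_units_eq_one ht _ fun i g => by
        have h2 := congrArg Additive.toMul (ha i g)
        have h3 := congrArg (fun b : V (t i) => (b : (R ⧸ (t i).asIdeal)ˣ)) h2
        rw [← unitsEquivPi_apply]
        exact h3
    exact congrArg Additive.ofMul (Subtype.ext h1)
  · intro f hf
    obtain ⟨u, hu⟩ := slSh_units_exists F ht
      (fun i g => ((Additive.toMul (f i g) : V (t i)) : (R ⧸ (t i).asIdeal)ˣ))
      (fun i d g => by
        have h2 := congrArg Additive.toMul (hf i d g)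
        exact congrArg (fun b : V (t i) => (b : (R ⧸ (t i).asIdeal)ˣ)) h2)
    have hmem : u ∈ unitsSub R V := by
      rw [mem_unitsSub_iff]
      intro m
      obtain ⟨i, g, rfl⟩ := ht.cover m
      have h1 : unitsEquivPi R (g⁻¹ • u) (t i) ∈ V (t i) := by
        rw [unitsEquivPi_apply, hu i g⁻¹]
        exact (Additive.toMul (f i g⁻¹) : V (t i)).2
      have h2 := slUC_mem_smul F V hV g (g⁻¹ • u) (t i) h1
      rwa [smul_inv_smul] at h2
    refine ⟨Additive.ofMul (⟨u, hmem⟩ : unitsSub R V), fun i g => ?_⟩
    apply Additive.toMul.injective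
    apply Subtype.ext
    refine Eq.trans ?_ (hu i g)
    rw [← unitsEquivPi_apply]
    rfl

/-- vanishing of `Hⁿ(G, unitsSub R V)` from vanishing at the decomposition groups. -/
theorem slUC_subsingleton_of_forall [Finite G] {ι : Type} {t : ι → MaximalSpectrum R}
    (ht : slSh_IsOrbitReps R G t) (n : ℕ)
    (h : ∀ i, Subsingleton (groupCohomology (slUC_stabRep F V hV (t i)) n)) :
    Subsingleton (groupCohomology (slUC_subRep V hV) n) :=
  (slUC_sub_bijective F V hV ht n).1.subsingleton

end Sub

end Fermat.Agent.CFT
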