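/-
CFT, S55 pool, GLOBAL-IDELIC layer (K3), semilocal part (helper23).

`K ⊆ L` number fields (`L/K` not necessarily Galois), `G` ANY finite group acting faithfully on `L`
by `K`-automorphisms, `v` a prime of `K` unramified in `L`.  Then the integral units
`O_{L,v}ˣ = semiLocalUnits K L v` of `K_v ⊗[K] L` are cohomologically trivial:
`Hⁿ⁺¹(G, O_{L,v}ˣ) = 0` for all `n` (`slUV_subsingleton`), and every decomposition group is cyclic
(`slUV_isCyclic_stabilizer`).

Glue of helper8's semilocal Shapiro lemma for componentwise subgroups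
(`Idele/SemiLocalUnitsCoh.lean`, `semiLocalUnits K L v = unitsSub R V` with `V m` the integral units
of the residue field at `m`), helper20's local computation (`Idele/UnramUnitsRel.lean`,
`Local/UnramUnitsCohGen.lean`) and the periodicity of the cohomology of cyclic groups.
-/
import Mathlib
import Fermat.Agent.CFT.Idele.SemiLocalUnitsCoh
import Fermat.Agent.CFT.Idele.UnramUnitsRel
import Fermat.Agent.CFT.Local.UnramUnitsCohAll

set_option autoImplicit false
set_option linter.unusedSectionVars false
set_option linter.style.haveILetI false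

namespace Fermat.Agent.CFT

open NumberField IsDedekindDomain IsDedekindDomain.HeightOneSpectrum IsLocalRing CategoryTheory
open scoped TensorProduct Fermat.Agent.CFT.TensorGal Pointwise

attribute [local instance] additiveDistribMulAction Units.mulDistribMulActionRight
  maxSpecMulAction Ideal.Quotient.field

section

variable (K L : Type) (G : Type) [Field K] [NumberField K] [Field L] [NumberField L]
  [Algebra K L] [Group G] [MulSemiringAction G L] [SMulCommClass G K L]
variable (v : HeightOneSpectrum (𝓞 K))

/-- the integral units of the residue field of `K_v ⊗[K] L` at `m`. -/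
noncomputable def slUV_V (m : MaximalSpectrum (semiLocal K L v)) :
    Subgroup (semiLocal K L v ⧸ m.asIdeal)ˣ :=
  (unrB_B K L v m.asIdeal).toSubsemiring.toSubmonoid.units

theorem slUV_mem_V_iff (m : MaximalSpectrum (semiLocal K L v))
    (b : (semiLocal K L v ⧸ m.asIdeal)ˣ) :
    b ∈ slUV_V K L v m ↔
      IsIntegral (v.adicCompletionIntegers K) (b : semiLocal K L v ⧸ m.asIdeal) ∧
        IsIntegral (v.adicCompletionIntegers K)
          ((b⁻¹ : (semiLocal K L v ⧸ m.asIdeal)ˣ) : semiLocal K L v ⧸ m.asIdeal) := by
  rw [slUV_V, Submonoid.mem_units_iff]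
  rfl

/-- `O_{L,v}ˣ` is cut out componentwise by the integral units of the residue fields. -/
theorem slUV_semiLocalUnits_eq :
    semiLocalUnits K L v = unitsSub (semiLocal K L v) (slUV_V K L v) := by
  ext u
  have hinv : ∀ m : MaximalSpectrum (semiLocal K L v),
      (unitsEquivPi (semiLocal K L v) u m)⁻¹ = unitsEquivPi (semiLocal K L v) u⁻¹ m := by
    intro m
    rw [map_inv]
    rfl
  rw [mem_unitsSub_iff, mem_semiLocalUnits_iff]
  constructor
  · intro hu m
    rw [slUV_mem_V_iff, hinv, coe_unitsEquivPi_apply, coe_unitsEquivPi_apply]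
    exact ⟨hu.1.map (Ideal.Quotient.mkₐ (v.adicCompletionIntegers K) m.asIdeal),
      hu.2.map (Ideal.Quotient.mkₐ (v.adicCompletionIntegers K) m.asIdeal)⟩
  · intro h
    constructor
    · rw [unrU_isIntegral_iff_forall_mk]
      intro m
      have := ((slUV_mem_V_iff K L v m _).mp (h m)).1
      rwa [coe_unitsEquivPi_apply] at this
    · rw [unrU_isIntegral_iff_forall_mk]
      intro m
      have := ((slUV_mem_V_iff K L v m _).mp (h m)).2
      rwa [hinv, coe_unitsEquivPi_apply] at this

/-- `G`-stability of the componentwise description. -/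
theorem slUV_hV (g : G) (u : (semiLocal K L v)ˣ)
    (hu : u ∈ unitsSub (semiLocal K L v) (slUV_V K L v)) :
    g • u ∈ unitsSub (semiLocal K L v) (slUV_V K L v) := by
  rw [← slUV_semiLocalUnits_eq] at hu ⊢
  exact idFG_smul_mem_unitsSide (G := G) v g (Additive.ofMul u) hu

end

section Local

variable (K L : Type) (G : Type) [Field K] [NumberField K] [Field L] [NumberField L]
  [Algebra K L] [Group G] [MulSemiringAction G L] [SMulCommClass G K L] [FaithfulSMul G L]
  [Finite G]
variable (v : HeightOneSpectrum (𝓞 K))

attribute [local instance] unrB_isAdicComplete unrB_isSeparable unrB_isLocalRing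
  unrB_isDiscreteValuationRing unrB_isLocalHom adicLF_finite_residueField_nf

/-- the decomposition groups at an unramified prime are cyclic (generic faithful `G`). -/
theorem slUV_isCyclic_stabilizer (m : Ideal (semiLocal K L v)) [m.IsMaximal]
    (hm : IsUnramifiedExt (v.adicCompletionIntegers K) ↥(unrB_B K L v m)) :
    IsCyclic (MulAction.stabilizer G m) := by
  letI := quotStabAction (v.adicCompletion K) (semiLocal K L v) G m
  haveI := unrUR_smulCommClass K L G v m
  haveI := locHerbR_faithful_quot K (v.adicCompletion K) L G m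
  letI : Fintype (MulAction.stabilizer G m) := Fintype.ofFinite _
  exact ucgA_isCyclic (v.adicCompletionIntegers K) (v.adicCompletion K) (unrB_E K L v m)
    (MulAction.stabilizer G m) hm

/-- `B_mˣ ≃ V m`. -/
noncomputable def slUV_e (m : MaximalSpectrum (semiLocal K L v)) :
    Additive (↥(unrB_B K L v m.asIdeal))ˣ ≃+ Additive ↥(slUV_V K L v m) where
  toFun b := Additive.ofMul ⟨Units.map ((unrB_B K L v m.asIdeal).val :
      unrB_B K L v m.asIdeal →* unrB_E K L v m.asIdeal) (Additive.toMul b), by
    rw [slUV_mem_V_iff, ← map_inv]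
    exact ⟨(Additive.toMul b : (unrB_B K L v m.asIdeal)ˣ).1.2,
      ((Additive.toMul b)⁻¹ : (unrB_B K L v m.asIdeal)ˣ).1.2⟩⟩
  invFun c := Additive.ofMul
    ⟨⟨((Additive.toMul c : ↥(slUV_V K L v m)) : (unrB_E K L v m.asIdeal)ˣ).1,
        ((slUV_mem_V_iff K L v m _).mp (Additive.toMul c).2).1⟩,
      ⟨(((Additive.toMul c : ↥(slUV_V K L v m)) : (unrB_E K L v m.asIdeal)ˣ)⁻¹ :
        (unrB_E K L v m.asIdeal)ˣ).1, ((slUV_mem_V_iff K L v m _).mp (Additive.toMul c).2).2⟩,
      Subtype.ext (by simp), Subtype.ext (by simp)⟩
  left_inv b := by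
    apply congrArg Additive.ofMul
    apply Units.ext
    rfl
  right_inv c := by
    apply congrArg Additive.ofMul
    apply Subtype.ext
    apply Units.ext
    rfl
  map_add' b c := by
    apply congrArg Additive.ofMul
    apply Subtype.ext
    apply Units.ext
    rfl

set_option synthInstance.maxHeartbeats 400000 in
set_option maxHeartbeats 1000000 in
/-- **the local factor**: the integral units of the residue field at an unramified `m` are
cohomologically trivial for the decomposition group. -/
theorem slUV_local (m : MaximalSpectrum (semiLocal K L v))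
    (hm : IsUnramifiedExt (v.adicCompletionIntegers K) ↥(unrB_B K L v m.asIdeal)) (n : ℕ) :
    Subsingleton (groupCohomology (slUC_stabRep (v.adicCompletion K) (slUV_V K L v)
      (slUV_hV K L G v) m) (n + 1)) := by
  letI : Fintype (MulAction.stabilizer G m.asIdeal) := Fintype.ofFinite _
  obtain ⟨σD, hσD⟩ := (slUV_isCyclic_stabilizer K L G v m.asIdeal hm).exists_generator
  letI actB := unrUR_actB K L G v m.asIdeal
  obtain ⟨l0, l1⟩ := unrUR_local K L G v m.asIdeal hm hσD
  letI actV := unitsSubStabAction (v.adicCompletion K) (semiLocal K L v) G (slUV_V K L v)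
    (slUV_hV K L G v) m
  have he : ∀ (d : MulAction.stabilizer G m.asIdeal)
      (b : Additive (↥(unrB_B K L v m.asIdeal))ˣ),
      slUV_e K L v m (d • b) = d • slUV_e K L v m b := by
    intro d b
    apply congrArg Additive.ofMul
    apply Subtype.ext
    apply Units.ext
    rfl
  have h0 : tateH0Card (MulAction.stabilizer G m.asIdeal) (Additive ↥(slUV_V K L v m)) σD = 1 :=
    (tateH0Card_congr (G := MulAction.stabilizer G m.asIdeal)
      (A := Additive (↥(unrB_B K L v m.asIdeal))ˣ) (B := Additive ↥(slUV_V K L v m))
      (slUV_e K L v m) he σD).symm.trans l0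
  have h1 : tateH1Card (MulAction.stabilizer G m.asIdeal) (Additive ↥(slUV_V K L v m)) σD = 1 :=
    (tateH1Card_congr (G := MulAction.stabilizer G m.asIdeal)
      (A := Additive (↥(unrB_B K L v m.asIdeal))ˣ) (B := Additive ↥(slUV_V K L v m))
      (slUV_e K L v m) he σD).symm.trans l1
  unfold slUC_stabRep
  rw [prodV_ofMulDistribMulAction_eq]
  exact prodV_subsingleton_of_tateCard (Additive ↥(slUV_V K L v m)) hσD h0 h1 n

/-- the representation of `G` on the integral units `O_{L,v}ˣ` of `K_v ⊗[K] L`. -/
noncomputable def slUV_rep : Rep ℤ G :=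
  letI := stableSubgroupAction (idFI_unitsSide (K := K) (L := L) v)
    (idFG_smul_mem_unitsSide (G := G) v)
  Rep.of (Representation.ofDistribMulAction ℤ G ↥(idFI_unitsSide (K := K) (L := L) v))

/-- `O_{L,v}ˣ → unitsSub R V`. -/
noncomputable def slUV_phi :
    slUV_rep K L G v ⟶ slUC_subRep (slUV_V K L v) (slUV_hV K L G v) :=
  letI := stableSubgroupAction (idFI_unitsSide (K := K) (L := L) v)
    (idFG_smul_mem_unitsSide (G := G) v)
  letI := unitsSubAction (semiLocal K L v) G (slUV_V K L v) (slUV_hV K L G v)
  Rep.ofHom ⟨AddMonoidHom.toIntLinearMap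
    { toFun := fun a : ↥(idFI_unitsSide (K := K) (L := L) v) =>
        (Additive.ofMul (⟨Additive.toMul (a : Additive (semiLocal K L v)ˣ), by
          rw [← slUV_semiLocalUnits_eq]
          exact a.2⟩ : unitsSub (semiLocal K L v) (slUV_V K L v)) :
          Additive (unitsSub (semiLocal K L v) (slUV_V K L v)))
      map_zero' := rfl
      map_add' := fun _ _ => rfl }, fun g => by
    refine LinearMap.ext fun y => ?_
    rfl⟩

/-- `unitsSub R V → O_{L,v}ˣ`. -/
noncomputable def slUV_psi :
    slUC_subRep (slUV_V K L v) (slUV_hV K L G v) ⟶ slUV_rep K L G v :=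
  letI := stableSubgroupAction (idFI_unitsSide (K := K) (L := L) v)
    (idFG_smul_mem_unitsSide (G := G) v)
  letI := unitsSubAction (semiLocal K L v) G (slUV_V K L v) (slUV_hV K L G v)
  Rep.ofHom ⟨AddMonoidHom.toIntLinearMap
    { toFun := fun b : Additive (unitsSub (semiLocal K L v) (slUV_V K L v)) =>
        (⟨Additive.ofMul ((Additive.toMul b : unitsSub (semiLocal K L v) (slUV_V K L v)) :
          (semiLocal K L v)ˣ), by
          show _ ∈ semiLocalUnits K L v
          rw [slUV_semiLocalUnits_eq]
          exact (Additive.toMul b).2⟩ : ↥(idFI_unitsSide (K := K) (L := L) v))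
      map_zero' := rfl
      map_add' := fun _ _ => rfl }, fun g => by
    refine LinearMap.ext fun y => ?_
    rfl⟩

theorem slUV_phi_psi : slUV_phi K L G v ≫ slUV_psi K L G v = 𝟙 (slUV_rep K L G v) := by
  apply Rep.hom_ext
  apply Representation.IntertwiningMap.ext
  apply LinearMap.ext
  intro a
  rfl

/-- **(K3), semilocal part**: `v` a prime of `K` unramified in `L`, `G` ANY finite group acting
faithfully on `L` by `K`-automorphisms: `Hⁿ⁺¹(G, O_{L,v}ˣ) = 0` for all `n`. -/
theorem slUV_subsingleton
    (hv : ∀ w : HeightOneSpectrum (𝓞 L), primeBelow K L w = v →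
      ∀ x : K, w.valuation L (algebraMap K L x) = v.valuation K x) (n : ℕ) :
    Subsingleton (groupCohomology (slUV_rep K L G v) (n + 1)) := by
  have hm := unrUR_isUnramifiedExt_of_valuation K L v hv
  have h1 : Subsingleton (groupCohomology
      (slUC_subRep (slUV_V K L v) (slUV_hV K L G v)) (n + 1)) :=
    slUC_subsingleton_of_forall (v.adicCompletion K) (slUV_V K L v) (slUV_hV K L G v)
      (slSh_isOrbitReps_out (semiLocal K L v) G) (n + 1)
      (fun q => slUV_local K L G v q.out (hm q.out) n)
  exact prodV_subsingleton_of_retract (slUV_phi K L G v) (slUV_psi K L G v)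
    (slUV_phi_psi K L G v) (n + 1) h1

end Local

end Fermat.Agent.CFT
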