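/-
CFT, S55 pool, GLOBAL-IDELIC layer, finite-level half of (T3) (helper23): the unit ideles
`U^S(L) = ∏_{v ∉ S} O_{L,v}ˣ ⊆ J_L` (`S` a set of primes of the tensor base `K`).

* `unitIdeleS K L S` : the subgroup of `ideleGroup K L` of the ideles which are local units outside
  `S` and equal to `1` on `S`; it lies in `J_{L,S}`, meets the principal ideles trivially
  (`S ≠ ∅`), and is stable under every group acting on `L` by `K`-automorphisms;
* cyclic layers: for a finite cyclic `G = ⟨σ⟩` acting, if the local unit groups `O_{L,v}ˣ`,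
  `v ∉ S`, have trivial Tate groups (GL7-rel) then `|Ĥ⁰(G, U^S(L))| = |Ĥ¹(G, U^S(L))| = 1`
  (`idUS_tateCard`);
* `C_{L,S} := C_L / U^S(L)` has the same cyclic Tate cardinalities as `C_L`
  (`idUS_tateCard_quotient`).
-/
import Mathlib
import Fermat.Agent.CFT.Idele.FirstIneqGen
import Fermat.Agent.CFT.Idele.Relative

set_option autoImplicit false
set_option linter.unusedSectionVars false
set_option linter.style.haveILetI false

open NumberField IsDedekindDomain IsDedekindDomain.HeightOneSpectrum
open scoped TensorProduct Fermat.Agent.CFT.TensorGal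

namespace Fermat.Agent.CFT

attribute [local instance] additiveDistribMulAction Units.mulDistribMulActionRight

section Trivial

variable {G : Type*} [Group G] [Fintype G] {A : Type*} [AddCommGroup A] [DistribMulAction G A]

theorem idUS_tateH0Card_of_subsingleton [Subsingleton A] (σ : G) : tateH0Card G A σ = 1 := by
  unfold tateH0Card hIndex
  rw [AddSubgroup.relIndex_eq_one]
  intro a _
  rw [Subsingleton.elim a 0]
  exact AddSubgroup.zero_mem _

theorem idUS_tateH1Card_of_subsingleton [Subsingleton A] (σ : G) : tateH1Card G A σ = 1 := by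
  unfold tateH1Card hIndex
  rw [AddSubgroup.relIndex_eq_one]
  intro a _
  rw [Subsingleton.elim a 0]
  exact AddSubgroup.zero_mem _

end Trivial

section QuotTrivial

/-! ### quotient by a submodule with trivial Tate groups -/

variable {A : Type*} [AddCommGroup A] {f g : A →+ A}

/-- if the sub-object has `hIndex = 1` both ways, the quotient has the same `hIndex` as the total
object. -/
theorem idUS_hIndex_quotHom_of_sub (hfg : ∀ a, f (g a) = 0) (hgf : ∀ a, g (f a) = 0)
    (A' : AddSubgroup A) (hf : ∀ a ∈ A', f a ∈ A') (hg : ∀ a ∈ A', g a ∈ A')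
    (h1 : hIndex (subHom f A' hf) (subHom g A' hg) = 1)
    (h2 : hIndex (subHom g A' hg) (subHom f A' hf) = 1) :
    hIndex (quotHom f A' hf) (quotHom g A' hg) = hIndex f g := by
  rw [hIndex_subHom hfg A' hf hg] at h1
  rw [hIndex_subHom hgf A' hg hf] at h2
  rw [hIndex_quotHom hfg A' hf hg, hIndex_eq_alpha_mul_beta hfg A',
    (Nat.eq_one_of_mul_eq_one_left h2 : hGamma f A' = 1),
    (Nat.eq_one_of_mul_eq_one_right h1 : hBeta f g A' = 1), one_mul, mul_one]

variable {A' A'' : Type*} [AddCommGroup A'] [AddCommGroup A'']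
  (ι : A' →+ A) (π : A →+ A'') (hι : Function.Injective ι) (hπ : Function.Surjective π)
  (hex : ι.range = π.ker) {f' g' : A' →+ A'} {f'' g'' : A'' →+ A''}
  (hfι : ∀ a, ι (f' a) = f (ι a)) (hgι : ∀ a, ι (g' a) = g (ι a))
  (hfπ : ∀ a, π (f a) = f'' (π a)) (hgπ : ∀ a, π (g a) = g'' (π a))

include hι hπ hex hfι hgι hfπ hgπ in
/-- exact-sequence form. -/
theorem idUS_hIndex_quot_of_exact (hfg : ∀ a, f (g a) = 0) (hgf : ∀ a, g (f a) = 0)
    (h1 : hIndex f' g' = 1) (h2 : hIndex g' f' = 1) : hIndex f'' g'' = hIndex f g := by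
  rw [← hIndex_quot_eq ι π hπ hex hfι hgι hfπ hgπ]
  refine idUS_hIndex_quotHom_of_sub hfg hgf ι.range _ _ ?_ ?_
  · rw [hIndex_sub_eq ι hι hfι hgι]; exact h1
  · rw [hIndex_sub_eq ι hι hgι hfι]; exact h2

end QuotTrivial

section QuotTrivialCyclic

variable {G : Type*} [Group G] [Fintype G]
variable {A' A A'' : Type*} [AddCommGroup A'] [AddCommGroup A] [AddCommGroup A'']
  [DistribMulAction G A'] [DistribMulAction G A] [DistribMulAction G A'']
variable (i : A' →+ A) (p : A →+ A'') (hi : Function.Injective i) (hp : Function.Surjective p)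
  (hex : i.range = p.ker)
  (hiG : ∀ (τ : G) (a : A'), i (τ • a) = τ • i a) (hpG : ∀ (τ : G) (a : A), p (τ • a) = τ • p a)

include hi hp hex hiG hpG in
/-- In a `G`-equivariant short exact sequence `0 → A' → A → A'' → 0` with `Ĥ⁰(A') = Ĥ¹(A') = 0`,
the Tate groups of `A` and `A''` have the same orders. -/
theorem idUS_tateCard_quot_of_exact (σ : G) (h0 : tateH0Card G A' σ = 1)
    (h1 : tateH1Card G A' σ = 1) :
    tateH0Card G A'' σ = tateH0Card G A σ ∧ tateH1Card G A'' σ = tateH1Card G A σ := by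
  unfold tateH0Card tateH1Card at *
  exact ⟨idUS_hIndex_quot_of_exact i p hi hp hex (hom_subOneHom i hiG σ) (hom_normHom i hiG)
      (hom_subOneHom p hpG σ) (hom_normHom p hpG) (subOneHom_normHom σ) (normHom_subOneHom σ) h0 h1,
    idUS_hIndex_quot_of_exact i p hi hp hex (hom_normHom i hiG) (hom_subOneHom i hiG σ)
      (hom_normHom p hpG) (hom_subOneHom p hpG σ) (normHom_subOneHom σ) (subOneHom_normHom σ) h1 h0⟩

end QuotTrivialCyclic

section Defs

variable (K L : Type*) [Field K] [NumberField K] [Field L] [NumberField L] [Algebra K L]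

/-- `U^S(L) = ∏_{v ∉ S} O_{L,v}ˣ`: the ideles which are local units outside `S` and `1` on `S`. -/
noncomputable def unitIdeleS (S : Set (HeightOneSpectrum (𝓞 K))) : Subgroup (ideleGroup K L) where
  carrier := {x | (∀ v : HeightOneSpectrum (𝓞 K), v ∉ S →
      (x : ∀ v, (semiLocal K L v)ˣ) v ∈ semiLocalUnits K L v) ∧
    ∀ v : HeightOneSpectrum (𝓞 K), v ∈ S → (x : ∀ v, (semiLocal K L v)ˣ) v = 1}
  one_mem' := ⟨fun v _ => (semiLocalUnits K L v).one_mem, fun _ _ => rfl⟩
  mul_mem' := fun {x y} hx hy => ⟨fun v hv => (semiLocalUnits K L v).mul_mem (hx.1 v hv) (hy.1 v hv),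
    fun v hv => by
      show (x : ∀ v, (semiLocal K L v)ˣ) v * (y : ∀ v, (semiLocal K L v)ˣ) v = 1
      rw [hx.2 v hv, hy.2 v hv, one_mul]⟩
  inv_mem' := fun {x} hx => ⟨fun v hv => (semiLocalUnits K L v).inv_mem (hx.1 v hv),
    fun v hv => by
      show ((x : ∀ v, (semiLocal K L v)ˣ) v)⁻¹ = 1
      rw [hx.2 v hv, inv_one]⟩

variable {K L}

theorem mem_unitIdeleS_iff {S : Set (HeightOneSpectrum (𝓞 K))} (x : ideleGroup K L) :
    x ∈ unitIdeleS K L S ↔
      (∀ v : HeightOneSpectrum (𝓞 K), v ∉ S →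
        (x : ∀ v, (semiLocal K L v)ˣ) v ∈ semiLocalUnits K L v) ∧
      ∀ v : HeightOneSpectrum (𝓞 K), v ∈ S → (x : ∀ v, (semiLocal K L v)ˣ) v = 1 := Iff.rfl

theorem unitIdeleS_le_ideleGroupS (S : Set (HeightOneSpectrum (𝓞 K))) :
    unitIdeleS K L S ≤ ideleGroupS K L S := fun _ hx => hx.1

/-- a principal unit idele is trivial as soon as `S` is nonempty. -/
theorem unitIdeleS_inf_principalIdeles {S : Set (HeightOneSpectrum (𝓞 K))} (hS : S.Nonempty) :
    unitIdeleS K L S ⊓ principalIdeles K L = ⊥ := by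
  rw [eq_bot_iff]
  rintro x ⟨hx, ⟨y, rfl⟩⟩
  obtain ⟨v, hv⟩ := hS
  have h1 := hx.2 v hv
  rw [diagIdele_apply] at h1
  have h2 : semiLocalIncl K L v (y : L) = semiLocalIncl K L v 1 := by
    have := congrArg (fun u : (semiLocal K L v)ˣ => (u : semiLocal K L v)) h1
    rw [map_one]
    exact this
  have h3 : (y : L) = 1 := semiLocalIncl_injective K L v h2
  have h4 : y = 1 := Units.ext h3
  rw [h4, map_one]
  exact Subgroup.mem_bot.mpr rfl

end Defs

section Gen

variable {K L G : Type*} [Field K] [NumberField K] [Field L] [NumberField L] [Algebra K L]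
  [Group G] [MulSemiringAction G L] [SMulCommClass G K L]

attribute [local instance] ideleGroupActionOf ideleClassActionOf

variable (K L) in
/-- `U^S(L)` as an additive subgroup of `Additive J_L`. -/
noncomputable abbrev idUS_US (S : Set (HeightOneSpectrum (𝓞 K))) :
    AddSubgroup (Additive (ideleGroup K L)) :=
  (unitIdeleS K L S).toAddSubgroup

theorem idUS_smul_mem (S : Set (HeightOneSpectrum (𝓞 K))) (g : G)
    (a : Additive (ideleGroup K L)) (ha : a ∈ idUS_US K L S) : g • a ∈ idUS_US K L S := by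
  refine ⟨fun v hv => ?_, fun v hv => ?_⟩
  · change ((g • Additive.toMul a : ideleGroup K L) : ∀ v, (semiLocal K L v)ˣ) v ∈ _
    rw [idFG_ideleGroup_smul_apply]
    exact idFG_smul_mem_unitsSide v g (Additive.ofMul _) (ha.1 v hv)
  · change ((g • Additive.toMul a : ideleGroup K L) : ∀ v, (semiLocal K L v)ˣ) v = 1
    rw [idFG_ideleGroup_smul_apply]
    have h1 : ((Additive.toMul a : ideleGroup K L) : ∀ v, (semiLocal K L v)ˣ) v = 1 := ha.2 v hv
    rw [h1, smul_one]

open Classical in
/-- the sides of the box `U^S(L)`: trivial on `S`, the local units outside `S`. -/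
noncomputable def idUS_sides (S : Set (HeightOneSpectrum (𝓞 K))) (v : HeightOneSpectrum (𝓞 K)) :
    AddSubgroup (Additive (semiLocal K L v)ˣ) :=
  if v ∈ S then ⊥ else idFI_unitsSide (K := K) (L := L) v

theorem idUS_sides_of_mem {S : Set (HeightOneSpectrum (𝓞 K))} {v : HeightOneSpectrum (𝓞 K)}
    (hv : v ∈ S) : idUS_sides (K := K) (L := L) S v = ⊥ := by
  unfold idUS_sides; rw [if_pos hv]

theorem idUS_sides_of_not_mem {S : Set (HeightOneSpectrum (𝓞 K))} {v : HeightOneSpectrum (𝓞 K)}
    (hv : v ∉ S) : idUS_sides (K := K) (L := L) S v = idFI_unitsSide (K := K) (L := L) v := by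
  unfold idUS_sides; rw [if_neg hv]

theorem idUS_sides_le (S : Set (HeightOneSpectrum (𝓞 K))) (v : HeightOneSpectrum (𝓞 K)) :
    idUS_sides (K := K) (L := L) S v ≤ idFI_unitsSide (K := K) (L := L) v := by
  by_cases hv : v ∈ S
  · rw [idUS_sides_of_mem hv]; exact bot_le
  · rw [idUS_sides_of_not_mem hv]

theorem idUS_smul_mem_sides (S : Set (HeightOneSpectrum (𝓞 K))) (v : HeightOneSpectrum (𝓞 K))
    (g : G) (a : Additive (semiLocal K L v)ˣ) (ha : a ∈ idUS_sides (K := K) (L := L) S v) :
    g • a ∈ idUS_sides (K := K) (L := L) S v := by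
  by_cases hv : v ∈ S
  · rw [idUS_sides_of_mem hv] at ha ⊢
    rw [AddSubgroup.mem_bot] at ha ⊢
    rw [ha, smul_zero]
  · rw [idUS_sides_of_not_mem hv] at ha ⊢
    exact idFG_smul_mem_unitsSide v g a ha

theorem idUS_smul_mem_box (S : Set (HeightOneSpectrum (𝓞 K))) (g : G)
    (x : ∀ v : HeightOneSpectrum (𝓞 K), Additive (semiLocal K L v)ˣ)
    (hx : x ∈ boxSubgroup (idUS_sides (K := K) (L := L) S)) :
    g • x ∈ boxSubgroup (idUS_sides (K := K) (L := L) S) :=
  smul_mem_boxSubgroup _ (idUS_smul_mem_sides S) g x hx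

theorem idUS_mem_box_iff (S : Set (HeightOneSpectrum (𝓞 K)))
    (x : ∀ v : HeightOneSpectrum (𝓞 K), Additive (semiLocal K L v)ˣ) :
    x ∈ boxSubgroup (idUS_sides (K := K) (L := L) S) ↔
      (∀ v, v ∉ S → Additive.toMul (x v) ∈ semiLocalUnits K L v) ∧
        ∀ v, v ∈ S → Additive.toMul (x v) = 1 := by
  rw [mem_boxSubgroup]
  constructor
  · intro h
    refine ⟨fun v hv => ?_, fun v hv => ?_⟩
    · have := h v
      rw [idUS_sides_of_not_mem hv] at this
      exact this
    · have := h v
      rw [idUS_sides_of_mem hv, AddSubgroup.mem_bot] at this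
      exact congrArg Additive.toMul this
  · rintro ⟨h1, h2⟩ v
    by_cases hv : v ∈ S
    · rw [idUS_sides_of_mem hv, AddSubgroup.mem_bot]
      exact congrArg Additive.ofMul (h2 v hv)
    · rw [idUS_sides_of_not_mem hv]
      exact h1 v hv

/-- an element of the box is an idele (all its components are local units). -/
theorem idUS_mem_ideleGroup_of_mem_box (S : Set (HeightOneSpectrum (𝓞 K)))
    (x : ∀ v : HeightOneSpectrum (𝓞 K), Additive (semiLocal K L v)ˣ)
    (hx : x ∈ boxSubgroup (idUS_sides (K := K) (L := L) S)) :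
    (fun v => Additive.toMul (x v)) ∈ ideleGroup K L := by
  rw [mem_ideleGroup_iff]
  refine Filter.Eventually.of_forall fun v => ?_
  exact idUS_sides_le S v ((mem_boxSubgroup _).mp hx v)

/-- `U^S(L)` is the box `∏_{v ∉ S} O_{L,v}ˣ`. -/
noncomputable def idUS_equivBox (S : Set (HeightOneSpectrum (𝓞 K))) :
    ↥(idUS_US K L S) ≃+ ↥(boxSubgroup (idUS_sides (K := K) (L := L) S)) where
  toFun x := ⟨fun v => Additive.ofMul ((Additive.toMul (x : Additive (ideleGroup K L)) :
      ideleGroup K L) : ∀ v, (semiLocal K L v)ˣ) v,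
    (idUS_mem_box_iff S _).mpr ⟨fun v hv => x.2.1 v hv, fun v hv => x.2.2 v hv⟩⟩
  invFun y := ⟨Additive.ofMul ⟨fun v => Additive.toMul ((y : ∀ v, Additive (semiLocal K L v)ˣ) v),
      idUS_mem_ideleGroup_of_mem_box S _ y.2⟩,
    ⟨fun v hv => ((idUS_mem_box_iff S _).mp y.2).1 v hv,
      fun v hv => ((idUS_mem_box_iff S _).mp y.2).2 v hv⟩⟩
  left_inv _ := rfl
  right_inv _ := rfl
  map_add' _ _ := rfl

theorem idUS_equivBox_smul (S : Set (HeightOneSpectrum (𝓞 K))) (g : G)
    (x : ↥(idUS_US K L S)) :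
    letI := stableSubgroupAction (idUS_US K L S) (idUS_smul_mem (G := G) S)
    letI := stableSubgroupAction (boxSubgroup (idUS_sides (K := K) (L := L) S))
      (idUS_smul_mem_box (G := G) S)
    idUS_equivBox S (g • x) = g • idUS_equivBox S x := by
  apply Subtype.ext
  funext v
  exact congrArg Additive.ofMul (idFG_ideleGroup_smul_apply g (Additive.toMul x.1) v)


variable [Fintype G]

/-- **Cyclic layers of `U^S(L)`**: if the local unit groups `O_{L,v}ˣ`, `v ∉ S`, have trivial Tate
groups (GL7-rel), then `|Ĥ⁰(G, U^S(L))| = |Ĥ¹(G, U^S(L))| = 1`. -/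
theorem idUS_tateCard (S : Set (HeightOneSpectrum (𝓞 K))) (σ : G)
    (hunr : ∀ v : HeightOneSpectrum (𝓞 K), v ∉ S →
      letI := stableSubgroupAction (idFI_unitsSide (K := K) (L := L) v)
        (idFG_smul_mem_unitsSide (G := G) v)
      tateH0Card G ↥(idFI_unitsSide (K := K) (L := L) v) σ = 1 ∧
        tateH1Card G ↥(idFI_unitsSide (K := K) (L := L) v) σ = 1) :
    letI := stableSubgroupAction (idUS_US K L S) (idUS_smul_mem (G := G) S)
    tateH0Card G ↥(idUS_US K L S) σ = 1 ∧ tateH1Card G ↥(idUS_US K L S) σ = 1 := by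
  classical
  letI iUS := stableSubgroupAction (idUS_US K L S) (idUS_smul_mem (G := G) S)
  letI ibox : DistribMulAction G ↥(boxSubgroup (idUS_sides (K := K) (L := L) S)) :=
    stableSubgroupAction _ (idUS_smul_mem_box (G := G) S)
  letI iside : ∀ v, DistribMulAction G ↥(idUS_sides (K := K) (L := L) S v) := fun v =>
    stableSubgroupAction _ (idUS_smul_mem_sides (G := G) S v)
  have hbot : ∀ (v : HeightOneSpectrum (𝓞 K)) (hst : ∀ (g : G),
      ∀ a ∈ (⊥ : AddSubgroup (Additive (semiLocal K L v)ˣ)), g • a ∈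
        (⊥ : AddSubgroup (Additive (semiLocal K L v)ˣ))),
      (letI := stableSubgroupAction (⊥ : AddSubgroup (Additive (semiLocal K L v)ˣ)) hst
       tateH0Card G ↥(⊥ : AddSubgroup (Additive (semiLocal K L v)ˣ)) σ = 1) ∧
      (letI := stableSubgroupAction (⊥ : AddSubgroup (Additive (semiLocal K L v)ˣ)) hst
       tateH1Card G ↥(⊥ : AddSubgroup (Additive (semiLocal K L v)ˣ)) σ = 1) := by
    intro v hst
    letI := stableSubgroupAction (⊥ : AddSubgroup (Additive (semiLocal K L v)ˣ)) hst
    exact ⟨idUS_tateH0Card_of_subsingleton σ, idUS_tateH1Card_of_subsingleton σ⟩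
  have hst_bot : ∀ (v : HeightOneSpectrum (𝓞 K)) (g : G),
      ∀ a ∈ (⊥ : AddSubgroup (Additive (semiLocal K L v)ˣ)), g • a ∈
        (⊥ : AddSubgroup (Additive (semiLocal K L v)ˣ)) := by
    intro v g a ha
    rw [AddSubgroup.mem_bot] at ha ⊢
    rw [ha, smul_zero]
  have h0 : ∀ v, v ∉ (∅ : Finset (HeightOneSpectrum (𝓞 K))) →
      tateH0Card G ↥(idUS_sides (K := K) (L := L) S v) σ = 1 := by
    intro v _
    by_cases hv : v ∈ S
    · rw [← (hbot v (hst_bot v)).1]
      exact idFI_tateH0Card_of_eq (idUS_sides_of_mem hv) _ _ σ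
    · rw [← (hunr v hv).1]
      exact idFI_tateH0Card_of_eq (idUS_sides_of_not_mem hv) _ _ σ
  have h1 : ∀ v, v ∉ (∅ : Finset (HeightOneSpectrum (𝓞 K))) →
      tateH1Card G ↥(idUS_sides (K := K) (L := L) S v) σ = 1 := by
    intro v _
    by_cases hv : v ∈ S
    · rw [← (hbot v (hst_bot v)).2]
      exact idFI_tateH1Card_of_eq (idUS_sides_of_mem hv) _ _ σ
    · rw [← (hunr v hv).2]
      exact idFI_tateH1Card_of_eq (idUS_sides_of_not_mem hv) _ _ σ
  have hbox : ∀ (g : G) (x : ↥(boxSubgroup (idUS_sides (K := K) (L := L) S))),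
      ((g • x : ↥(boxSubgroup (idUS_sides (K := K) (L := L) S))) :
        ∀ v, Additive (semiLocal K L v)ˣ) = g • (x : ∀ v, Additive (semiLocal K L v)ˣ) :=
    fun _ _ => rfl
  have hside : ∀ v (g : G) (b : ↥(idUS_sides (K := K) (L := L) S v)),
      ((g • b : ↥(idUS_sides (K := K) (L := L) S v)) : Additive (semiLocal K L v)ˣ) =
        g • (b : Additive (semiLocal K L v)ˣ) :=
    fun _ _ _ => rfl
  have he : ∀ (g : G) (x : ↥(idUS_US K L S)),
      idUS_equivBox S (g • x) = g • idUS_equivBox S x :=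
    fun g x => idUS_equivBox_smul S g x
  constructor
  · rw [tateH0Card_congr (idUS_equivBox (K := K) (L := L) S) he σ,
      tateH0Card_boxSubgroup (G := G)
        (A := fun v : HeightOneSpectrum (𝓞 K) => Additive (semiLocal K L v)ˣ)
        (idUS_sides (K := K) (L := L) S) hbox hside σ ∅ h0, Finset.prod_empty]
  · rw [tateH1Card_congr (idUS_equivBox (K := K) (L := L) S) he σ,
      tateH1Card_boxSubgroup (G := G)
        (A := fun v : HeightOneSpectrum (𝓞 K) => Additive (semiLocal K L v)ˣ)
        (idUS_sides (K := K) (L := L) S) hbox hside σ ∅ h1, Finset.prod_empty]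


/-! ### the quotient `C_{L,S} = C_L / U^S(L)` -/

variable (K L) in
/-- `C_{L,S} = J_L / (Lˣ U^S(L)) = C_L / U^S(L)`. -/
abbrev ideleClassS (S : Set (HeightOneSpectrum (𝓞 K))) : Type _ :=
  ideleGroup K L ⧸ (principalIdeles K L ⊔ unitIdeleS K L S)

omit [Fintype G] in
theorem smul_mem_principal_sup_unit (S : Set (HeightOneSpectrum (𝓞 K))) (g : G)
    (x : ideleGroup K L) (hx : x ∈ principalIdeles K L ⊔ unitIdeleS K L S) :
    g • x ∈ principalIdeles K L ⊔ unitIdeleS K L S := by
  obtain ⟨a, ha, b, hb, rfl⟩ := Subgroup.mem_sup.mp hx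
  rw [smul_mul']
  exact Subgroup.mul_mem_sup
    (smul_mem_principalIdeles (MulSemiringAction.toAlgAut G K L g) a ha)
    (idUS_smul_mem S g (Additive.ofMul b) hb)

variable (K L G) in
/-- the action of a generic group on `C_{L,S}`. -/
@[reducible] noncomputable def ideleClassSActionOf (S : Set (HeightOneSpectrum (𝓞 K))) :
    MulDistribMulAction G (ideleClassS K L S) :=
  quotientMulDistribMulAction (principalIdeles K L ⊔ unitIdeleS K L S)
    (smul_mem_principal_sup_unit S)

variable (K L) in
/-- the projection `C_L → C_{L,S}`. -/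
noncomputable def ideleClassToS (S : Set (HeightOneSpectrum (𝓞 K))) :
    ideleClass K L →* ideleClassS K L S :=
  QuotientGroup.map (principalIdeles K L) (principalIdeles K L ⊔ unitIdeleS K L S)
    (MonoidHom.id _) le_sup_left

omit [Group G] [MulSemiringAction G L] [SMulCommClass G K L] [Fintype G] in
theorem ideleClassToS_mk (S : Set (HeightOneSpectrum (𝓞 K))) (x : ideleGroup K L) :
    ideleClassToS K L S (x : ideleClass K L) = (x : ideleClassS K L S) := rfl

omit [Group G] [MulSemiringAction G L] [SMulCommClass G K L] [Fintype G] in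
theorem ideleClassToS_surjective (S : Set (HeightOneSpectrum (𝓞 K))) :
    Function.Surjective (ideleClassToS K L S) := by
  intro c
  induction c using QuotientGroup.induction_on with
  | H x => exact ⟨(x : ideleClass K L), rfl⟩

omit [Group G] [MulSemiringAction G L] [SMulCommClass G K L] [Fintype G] in
/-- the kernel of `C_L → C_{L,S}` is the image of `U^S(L)`. -/
theorem mem_ker_ideleClassToS_iff (S : Set (HeightOneSpectrum (𝓞 K))) (c : ideleClass K L) :
    ideleClassToS K L S c = 1 ↔ ∃ u ∈ unitIdeleS K L S, (u : ideleClass K L) = c := by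
  induction c using QuotientGroup.induction_on with
  | H x =>
    rw [ideleClassToS_mk, QuotientGroup.eq_one_iff]
    constructor
    · intro hx
      obtain ⟨a, ha, b, hb, rfl⟩ := Subgroup.mem_sup.mp hx
      refine ⟨b, hb, ?_⟩
      refine QuotientGroup.eq.mpr ?_
      have : b⁻¹ * (a * b) = a := by rw [mul_comm a b, inv_mul_cancel_left]
      rw [this]
      exact ha
    · rintro ⟨u, hu, huc⟩
      have h1 := QuotientGroup.eq.mp huc
      have : x = u * (u⁻¹ * x) := by rw [mul_inv_cancel_left]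
      rw [this, mul_comm]
      exact Subgroup.mul_mem_sup h1 hu

/-- **Cyclic layers of `C_{L,S}`**: same Tate cardinalities as `C_L` (GL7-rel as hypothesis). -/
theorem idUS_tateCard_quotient {S : Set (HeightOneSpectrum (𝓞 K))} (hS : S.Nonempty) (σ : G)
    (hunr : ∀ v : HeightOneSpectrum (𝓞 K), v ∉ S →
      letI := stableSubgroupAction (idFI_unitsSide (K := K) (L := L) v)
        (idFG_smul_mem_unitsSide (G := G) v)
      tateH0Card G ↥(idFI_unitsSide (K := K) (L := L) v) σ = 1 ∧
        tateH1Card G ↥(idFI_unitsSide (K := K) (L := L) v) σ = 1) :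
    letI := ideleClassSActionOf K L G S
    tateH0Card G (Additive (ideleClassS K L S)) σ = tateH0Card G (Additive (ideleClass K L)) σ ∧
      tateH1Card G (Additive (ideleClassS K L S)) σ =
        tateH1Card G (Additive (ideleClass K L)) σ := by
  letI := ideleClassSActionOf K L G S
  letI iUS := stableSubgroupAction (idUS_US K L S) (idUS_smul_mem (G := G) S)
  obtain ⟨h0, h1⟩ := idUS_tateCard (G := G) S σ hunr
  let i : ↥(idUS_US K L S) →+ Additive (ideleClass K L) :=
    (MonoidHom.toAdditive (QuotientGroup.mk' (principalIdeles K L))).comp (idUS_US K L S).subtype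
  let p : Additive (ideleClass K L) →+ Additive (ideleClassS K L S) :=
    MonoidHom.toAdditive (ideleClassToS K L S)
  have hi : Function.Injective i := by
    rw [injective_iff_map_eq_zero]
    intro x hx
    have h2 : Additive.toMul (x : Additive (ideleGroup K L)) ∈ principalIdeles K L := by
      have : (QuotientGroup.mk' (principalIdeles K L)) (Additive.toMul (x : Additive _)) = 1 := hx
      rwa [← MonoidHom.mem_ker, QuotientGroup.ker_mk'] at this
    have h3 : Additive.toMul (x : Additive (ideleGroup K L)) ∈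
        unitIdeleS K L S ⊓ principalIdeles K L := ⟨x.2, h2⟩
    rw [unitIdeleS_inf_principalIdeles hS, Subgroup.mem_bot] at h3
    exact Subtype.ext (congrArg Additive.ofMul h3)
  have hp : Function.Surjective p := ideleClassToS_surjective S
  have hex : i.range = AddMonoidHom.ker (G := Additive (ideleClass K L)) p := by
    ext c
    rw [AddMonoidHom.mem_ker]
    change _ ↔ ideleClassToS K L S (Additive.toMul c) = 1
    rw [mem_ker_ideleClassToS_iff]
    constructor
    · rintro ⟨x, rfl⟩
      exact ⟨Additive.toMul (x : Additive (ideleGroup K L)), x.2, rfl⟩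
    · rintro ⟨x, hx, hxc⟩
      exact ⟨⟨Additive.ofMul x, hx⟩, congrArg Additive.ofMul hxc⟩
  have hpG : ∀ (τ : G) (a : Additive (ideleClass K L)), p (τ • a) = τ • p a := by
    intro τ a
    induction' h : Additive.toMul a using QuotientGroup.induction_on with x
    have ha : a = Additive.ofMul (x : ideleClass K L) := by rw [← h]; rfl
    rw [ha]
    rfl
  exact idUS_tateCard_quot_of_exact i p hi hp hex (fun _ _ => rfl) hpG σ h0 h1

end Gen

section RelInv

open scoped Fermat.Agent.CFT.IdeleAct

variable {K M L : Type*} [Field K] [NumberField K] [Field M] [NumberField M]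
  [Field L] [NumberField L] [Algebra K M] [Algebra M L] [Algebra K L] [IsScalarTower K M L]

/-- `U^S(M)` is the preimage of `U^S(L)` under `J_M → J_L`. -/
theorem relIdele_mem_unitIdeleS_iff (S : Set (HeightOneSpectrum (𝓞 K))) (x : ideleGroup K M) :
    relIdele K M L x ∈ unitIdeleS K L S ↔ x ∈ unitIdeleS K M S := by
  rw [mem_unitIdeleS_iff, mem_unitIdeleS_iff]
  refine and_congr ?_ ?_
  · refine forall_congr' fun v => forall_congr' fun _ => ?_
    rw [relIdele_apply]
    exact relMap_mem_semiLocalUnits_iff _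
  · refine forall_congr' fun v => forall_congr' fun _ => ?_
    rw [relIdele_apply]
    constructor
    · intro h
      apply Units.ext
      apply relSemiLocalMap_injective K M L v
      have := congrArg (fun u : (semiLocal K L v)ˣ => (u : semiLocal K L v)) h
      simpa using this
    · intro h
      rw [h, map_one]

variable [IsGalois M L]

/-- **relative invariants of the unit ideles**: `(U^S(L))^{Gal(L/M)} = U^S(M)` in the
`K`-model. -/
theorem mem_map_relIdele_unitIdeleS_iff (S : Set (HeightOneSpectrum (𝓞 K)))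
    (x : ideleGroup K L) :
    x ∈ (unitIdeleS K M S).map (relIdele K M L) ↔
      x ∈ unitIdeleS K L S ∧ ∀ g ∈ relFixing K M L, g • x = x := by
  constructor
  · rintro ⟨y, hy, rfl⟩
    exact ⟨(relIdele_mem_unitIdeleS_iff S y).mpr hy, fun g hg => smul_relIdele hg y⟩
  · rintro ⟨hx, hfix⟩
    obtain ⟨y, rfl⟩ := (mem_range_relIdele_iff K M L x).mpr hfix
    exact ⟨y, (relIdele_mem_unitIdeleS_iff S y).mp hx, rfl⟩

end RelInv

end Fermat.Agent.CFT
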