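/-
CFT, S55 pool, GLOBAL-IDELIC layer (K3), final form (helper23).

`K ⊆ L` number fields (`L/K` not necessarily Galois), `G` ANY finite group acting faithfully on `L`
by `K`-automorphisms (e.g. `Gal(L/M)`, `K ≤ M ≤ L`), `S` a set of primes of `K` containing the primes
ramified in `L`.  Then the unit ideles `U^S(L) = ∏_{v ∉ S} O_{L,v}ˣ` (`unitIdeleS K L S`) are
cohomologically trivial: `Hⁿ⁺¹(G, U^S(L)) = 0` for all `n` (`idUC_subsingleton`).

Proof: `Hⁿ⁺¹` of an infinite product (`Coh/ProdVanish.lean`) + the semilocal statement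
`Idele/SemiLocalUnitsVanish.lean`.
-/
import Mathlib
import Fermat.Agent.CFT.Idele.UnitIdeles
import Fermat.Agent.CFT.Idele.SemiLocalUnitsVanish

set_option autoImplicit false
set_option linter.unusedSectionVars false
set_option linter.style.haveILetI false

namespace Fermat.Agent.CFT

open NumberField IsDedekindDomain IsDedekindDomain.HeightOneSpectrum CategoryTheory
open scoped TensorProduct Fermat.Agent.CFT.TensorGal

attribute [local instance] additiveDistribMulAction Units.mulDistribMulActionRight
  ideleGroupActionOf ideleClassActionOf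

section

variable (K L : Type) (G : Type) [Field K] [NumberField K] [Field L] [NumberField L]
  [Algebra K L] [Group G] [MulSemiringAction G L] [SMulCommClass G K L]

/-- the representation of `G` on the unit ideles `U^S(L)`. -/
noncomputable def idUC_rep (S : Set (HeightOneSpectrum (𝓞 K))) : Rep ℤ G :=
  letI := stableSubgroupAction (idUS_US K L S) (idUS_smul_mem (G := G) S)
  Rep.of (Representation.ofDistribMulAction ℤ G ↥(idUS_US K L S))

variable [FaithfulSMul G L] [Finite G]

/-- the projection `U^S(L) → O_{L,v}ˣ`, `v ∉ S`. -/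
noncomputable def idUC_proj (S : Set (HeightOneSpectrum (𝓞 K)))
    (v : {v : HeightOneSpectrum (𝓞 K) // v ∉ S}) :
    idUC_rep K L G S ⟶ slUV_rep K L G v.1 :=
  letI := stableSubgroupAction (idUS_US K L S) (idUS_smul_mem (G := G) S)
  letI := stableSubgroupAction (idFI_unitsSide (K := K) (L := L) v.1)
    (idFG_smul_mem_unitsSide (G := G) v.1)
  Rep.ofHom ⟨AddMonoidHom.toIntLinearMap
    { toFun := fun x : ↥(idUS_US K L S) =>
        (⟨Additive.ofMul (((Additive.toMul (x : Additive (ideleGroup K L)) : ideleGroup K L) :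
          ∀ v, (semiLocal K L v)ˣ) v.1), x.2.1 v.1 v.2⟩ :
          ↥(idFI_unitsSide (K := K) (L := L) v.1))
      map_zero' := rfl
      map_add' := fun _ _ => rfl }, fun g => by
    refine LinearMap.ext fun x => ?_
    apply Subtype.ext
    exact congrArg Additive.ofMul
      (idFG_ideleGroup_smul_apply g (Additive.toMul (x : Additive (ideleGroup K L))) v.1)⟩

/-- the underlying element of `U^S(L)`. -/
noncomputable def idUC_val (S : Set (HeightOneSpectrum (𝓞 K))) (a : idUC_rep K L G S) :
    ↥(idUS_US K L S) := a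

/-- an element of `U^S(L)` as an element of the representation. -/
noncomputable def idUC_mk (S : Set (HeightOneSpectrum (𝓞 K))) (a : ↥(idUS_US K L S)) :
    idUC_rep K L G S := a

/-- the underlying element of `O_{L,v}ˣ`. -/
noncomputable def slUV_val (v : HeightOneSpectrum (𝓞 K)) (b : slUV_rep K L G v) :
    ↥(idFI_unitsSide (K := K) (L := L) v) := b

theorem idUC_proj_apply (S : Set (HeightOneSpectrum (𝓞 K)))
    (v : {v : HeightOneSpectrum (𝓞 K) // v ∉ S}) (x : idUC_rep K L G S) :
    ((slUV_val K L G v.1 ((idUC_proj K L G S v).hom x) :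
        ↥(idFI_unitsSide (K := K) (L := L) v.1)) : Additive (semiLocal K L v.1)ˣ) =
    Additive.ofMul (((Additive.toMul ((idUC_val K L G S x : ↥(idUS_US K L S)) :
      Additive (ideleGroup K L)) : ideleGroup K L) : ∀ v, (semiLocal K L v)ˣ) v.1) := rfl

/-- **(K3)**: `S ⊇` the primes of `K` ramified in `L`, `G` ANY finite group acting faithfully on `L`
by `K`-automorphisms: `Hⁿ⁺¹(G, U^S(L)) = 0` for all `n`. -/
theorem idUC_subsingleton (S : Set (HeightOneSpectrum (𝓞 K)))
    (hS : ∀ w : HeightOneSpectrum (𝓞 L), primeBelow K L w ∉ S → ∀ x : K,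
      w.valuation L (algebraMap K L x) = (primeBelow K L w).valuation K x) (n : ℕ) :
    Subsingleton (groupCohomology (idUC_rep K L G S) (n + 1)) := by
  classical
  refine prodV_subsingleton (idUC_rep K L G S)
    (fun v : {v : HeightOneSpectrum (𝓞 K) // v ∉ S} => slUV_rep K L G v.1)
    (idUC_proj K L G S) ?_ ?_ n ?_
  · -- injectivity
    intro a ha
    have ha' : ∀ v : HeightOneSpectrum (𝓞 K),
        ((Additive.toMul ((idUC_val K L G S a : ↥(idUS_US K L S)) :
          Additive (ideleGroup K L)) : ideleGroup K L) : ∀ v, (semiLocal K L v)ˣ) v = 1 := by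
      intro v
      by_cases hv : v ∈ S
      · exact (idUC_val K L G S a).2.2 v hv
      · have h1 := congrArg (fun y : slUV_rep K L G v =>
          Additive.toMul ((slUV_val K L G v y : ↥(idFI_unitsSide (K := K) (L := L) v)) :
            Additive (semiLocal K L v)ˣ)) (ha ⟨v, hv⟩)
        exact h1
    show idUC_val K L G S a = idUC_val K L G S 0
    apply Subtype.ext
    apply Additive.toMul.injective
    apply Subtype.ext
    funext v
    exact ha' v
  · -- surjectivity
    intro b
    let y : ∀ v : HeightOneSpectrum (𝓞 K), (semiLocal K L v)ˣ := fun v =>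
      if hv : v ∈ S then 1 else
        Additive.toMul ((slUV_val K L G v (b ⟨v, hv⟩) : ↥(idFI_unitsSide (K := K) (L := L) v)) :
          Additive (semiLocal K L v)ˣ)
    have hy0 : ∀ v (hv : v ∉ S), y v =
        Additive.toMul ((slUV_val K L G v (b ⟨v, hv⟩) : ↥(idFI_unitsSide (K := K) (L := L) v)) :
          Additive (semiLocal K L v)ˣ) := by
      intro v hv
      show (if hv : v ∈ S then 1 else _) = _
      rw [dif_neg hv]
    have hy1 : ∀ v, v ∉ S → y v ∈ semiLocalUnits K L v := by
      intro v hv
      rw [hy0 v hv]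
      exact (slUV_val K L G v (b ⟨v, hv⟩)).2
    have hy2 : ∀ v, v ∈ S → y v = 1 := by
      intro v hv
      show (if hv : v ∈ S then 1 else _) = _
      rw [dif_pos hv]
    have hyJ : y ∈ ideleGroup K L := by
      show ∀ᶠ v in Filter.cofinite, y v ∈ semiLocalUnits K L v
      refine Filter.Eventually.of_forall fun v => ?_
      by_cases hv : v ∈ S
      · rw [hy2 v hv]
        exact (semiLocalUnits K L v).one_mem
      · exact hy1 v hv
    let a0 : ↥(idUS_US K L S) := ⟨Additive.ofMul (⟨y, hyJ⟩ : ideleGroup K L), ⟨hy1, hy2⟩⟩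
    refine ⟨idUC_mk K L G S a0, fun v => ?_⟩
    show slUV_val K L G v.1 ((idUC_proj K L G S v).hom (idUC_mk K L G S a0)) =
      slUV_val K L G v.1 (b v)
    apply Subtype.ext
    refine (idUC_proj_apply K L G S v (idUC_mk K L G S a0)).trans ?_
    show Additive.ofMul (y v.1) = _
    rw [hy0 v.1 v.2]
    rfl
  · intro v
    exact slUV_subsingleton K L G v.1 (fun w hw x => by
      have := hS w (hw ▸ v.2) x
      rwa [hw] at this) n

end

section MulShape

/-! ### the same in Mathlib's shape `Rep.ofMulDistribMulAction G ↥(unitIdeleS K L S)` -/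

variable (K L : Type) (G : Type) [Field K] [NumberField K] [Field L] [NumberField L]
  [Algebra K L] [Group G] [MulSemiringAction G L] [SMulCommClass G K L]

/-- the action of `G` on the subgroup `U^S(L)` of `J_L` (restriction of `ideleGroupActionOf`). -/
@[reducible] noncomputable def unitIdeleSAction (S : Set (HeightOneSpectrum (𝓞 K))) :
    MulDistribMulAction G ↥(unitIdeleS K L S) where
  smul g x := ⟨g • (x : ideleGroup K L),
    idUS_smul_mem (G := G) S g (Additive.ofMul (x : ideleGroup K L)) x.2⟩
  one_smul x := Subtype.ext (one_smul G (x : ideleGroup K L))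
  mul_smul g h x := Subtype.ext (mul_smul g h (x : ideleGroup K L))
  smul_mul g x y := Subtype.ext (smul_mul' g (x : ideleGroup K L) (y : ideleGroup K L))
  smul_one g := Subtype.ext (smul_one g)

theorem unitIdeleSAction_coe (S : Set (HeightOneSpectrum (𝓞 K))) (g : G)
    (x : ↥(unitIdeleS K L S)) :
    letI := unitIdeleSAction K L G S
    ((g • x : ↥(unitIdeleS K L S)) : ideleGroup K L) = g • (x : ideleGroup K L) := rfl

/-- `U^S(L)` as a representation of `G`, Mathlib's multiplicative shape. -/
noncomputable def idUC_repMul (S : Set (HeightOneSpectrum (𝓞 K))) : Rep ℤ G :=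
  letI := unitIdeleSAction K L G S
  Rep.ofMulDistribMulAction G ↥(unitIdeleS K L S)

/-- `Additive ↥U → ↥(U.toAddSubgroup)`. -/
noncomputable def idUC_mulToAdd (S : Set (HeightOneSpectrum (𝓞 K))) :
    idUC_repMul K L G S ⟶ idUC_rep K L G S :=
  letI := unitIdeleSAction K L G S
  letI := stableSubgroupAction (idUS_US K L S) (idUS_smul_mem (G := G) S)
  Rep.ofHom ⟨AddMonoidHom.toIntLinearMap
    { toFun := fun x : Additive ↥(unitIdeleS K L S) =>
        (⟨Additive.ofMul ((Additive.toMul x : ↥(unitIdeleS K L S)) : ideleGroup K L),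
          (Additive.toMul x).2⟩ : ↥(idUS_US K L S))
      map_zero' := rfl
      map_add' := fun _ _ => rfl }, fun g => by
    refine LinearMap.ext fun y => ?_
    rfl⟩

/-- `↥(U.toAddSubgroup) → Additive ↥U`. -/
noncomputable def idUC_addToMul (S : Set (HeightOneSpectrum (𝓞 K))) :
    idUC_rep K L G S ⟶ idUC_repMul K L G S :=
  letI := unitIdeleSAction K L G S
  letI := stableSubgroupAction (idUS_US K L S) (idUS_smul_mem (G := G) S)
  Rep.ofHom ⟨AddMonoidHom.toIntLinearMap
    { toFun := fun x : ↥(idUS_US K L S) =>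
        (Additive.ofMul (⟨Additive.toMul (x : Additive (ideleGroup K L)), x.2⟩ :
          ↥(unitIdeleS K L S)) : Additive ↥(unitIdeleS K L S))
      map_zero' := rfl
      map_add' := fun _ _ => rfl }, fun g => by
    refine LinearMap.ext fun y => ?_
    rfl⟩

theorem idUC_mulToAdd_addToMul (S : Set (HeightOneSpectrum (𝓞 K))) :
    idUC_mulToAdd K L G S ≫ idUC_addToMul K L G S = 𝟙 (idUC_repMul K L G S) := by
  apply Rep.hom_ext
  apply Representation.IntertwiningMap.ext
  apply LinearMap.ext
  intro a
  rfl

variable [FaithfulSMul G L] [Finite G]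

/-- **(K3)** in the shape `Rep.ofMulDistribMulAction G ↥(unitIdeleS K L S)`. -/
theorem idUC_subsingleton_mul (S : Set (HeightOneSpectrum (𝓞 K)))
    (hS : ∀ w : HeightOneSpectrum (𝓞 L), primeBelow K L w ∉ S → ∀ x : K,
      w.valuation L (algebraMap K L x) = (primeBelow K L w).valuation K x) (n : ℕ) :
    Subsingleton (groupCohomology (idUC_repMul K L G S) (n + 1)) :=
  prodV_subsingleton_of_retract (idUC_mulToAdd K L G S) (idUC_addToMul K L G S)
    (idUC_mulToAdd_addToMul K L G S) (n + 1) (idUC_subsingleton K L G S hS n)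

end MulShape

section Rel

variable (K M L : Type) [Field K] [NumberField K] [Field M] [NumberField M]
  [Field L] [NumberField L] [Algebra K M] [Algebra M L] [Algebra K L] [IsScalarTower K M L]

/-- **(K3) for `Gal(L/M)`**, `K ≤ M ≤ L` (`K` the tensor base, no Galois hypothesis needed):
`Hⁿ⁺¹(Gal(L/M), U^S(L)) = 0` for all `n`, `S ⊇` the primes of `K` ramified in `L`. -/
theorem idUC_subsingleton_gal (S : Set (HeightOneSpectrum (𝓞 K)))
    (hS : ∀ w : HeightOneSpectrum (𝓞 L), primeBelow K L w ∉ S → ∀ x : K,
      w.valuation L (algebraMap K L x) = (primeBelow K L w).valuation K x) (n : ℕ) :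
    Subsingleton (groupCohomology (idUC_rep K L Gal(L/M) S) (n + 1)) :=
  idUC_subsingleton K L Gal(L/M) S hS n

/-- there is a finite `S₀` such that `U^S(L)` is cohomologically trivial for every `S ⊇ S₀`. -/
theorem idUC_exists_finset :
    ∃ S₀ : Finset (HeightOneSpectrum (𝓞 K)), ∀ S : Set (HeightOneSpectrum (𝓞 K)),
      (S₀ : Set (HeightOneSpectrum (𝓞 K))) ⊆ S → ∀ n : ℕ,
        Subsingleton (groupCohomology (idUC_rep K L Gal(L/M) S) (n + 1)) := by
  obtain ⟨S₀, hS₀⟩ := unrUR_exists_finset_forall_valuation_eq K L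
  exact ⟨S₀, fun S hS n => idUC_subsingleton_gal K M L S
    (fun w hw x => hS₀ w (fun h => hw (hS (Finset.mem_coe.mpr h))) x) n⟩

end Rel

end Fermat.Agent.CFT
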