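import Mathlib
import Fermat.Agent.CFT.Idele.UnitIdeles
import Fermat.Agent.CFT.Idele.SecondIneqRelFinal
import Fermat.Agent.CFT.Idele.RelativeTower
import Fermat.Agent.CFT.Idele.FirstIneqRelGen

/-!
# CFT, S55 global-idelic stream: unit ideles are norms on unramified cyclic layers

`K ⊆ M ⊆ L` number fields (`K` = tensor base of the idele model), `L / M` cyclic Galois, `S` a set
of primes of `K` containing the primes ramified in `L` (valuation form).

* `idUN_smul_mem_unitIdeleS`, `idUN_relIdeleNorm_mem_unitIdeleS` : `N_{L/M} U^S(L) ⊆ U^S(M)`;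
* `idUN_exists_relIdeleNorm_eq` : `U^S(M) ⊆ N_{L/M} U^S(L)`;
* `idUN_unitIdeleS_le_range`, `idUN_sup_unitIdeleS_eq` :
  `Mˣ · U^S(M) · N J_L = Mˣ · N J_L`;
* `idUN_pow_not_mem_of_not_mem` : if `[L : M] = p` is prime, `ξ ∉ Mˣ · N J_L` and `p ∤ m` then
  `ξ ^ m ∉ Mˣ · U^S(M) · N J_L` (transfer of non-norms from `C_M` to `C_M / U^S(M)`);
* `idUN_exists_pow_not_mem` : **(C-FI), idele form**: for `p` odd, `ζ_p ∈ M`, there is `ξ ∈ J_M`
  none of whose prime-to-`p` powers lies in `Mˣ · U^S(M) · N J_L`.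
-/

set_option autoImplicit false
set_option linter.unusedSectionVars false
set_option linter.style.haveILetI false

open NumberField IsDedekindDomain IsDedekindDomain.HeightOneSpectrum
open scoped TensorProduct Fermat.Agent.CFT.TensorGal Fermat.Agent.CFT.IdeleAct

namespace Fermat.Agent.CFT

section Smul

variable {K L : Type*} [Field K] [NumberField K] [Field L] [NumberField L] [Algebra K L]

/-- `U^S(L)` is stable under `Gal(L/K)`. -/
theorem idUN_smul_mem_unitIdeleS (S : Set (HeightOneSpectrum (𝓞 K))) (g : Gal(L/K))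
    {x : ideleGroup K L} (hx : x ∈ unitIdeleS K L S) : g • x ∈ unitIdeleS K L S := by
  rw [mem_unitIdeleS_iff] at hx ⊢
  refine ⟨fun v hv => ?_, fun v hv => ?_⟩
  · rw [ideleGroup_smul_apply]
    exact smul_mem_semiLocalUnits g (hx.1 v hv)
  · rw [ideleGroup_smul_apply, hx.2 v hv, smul_one]

end Smul

variable {K M L : Type} [Field K] [NumberField K] [Field M] [NumberField M]
  [Field L] [NumberField L] [Algebra K M] [Algebra M L] [Algebra K L] [IsScalarTower K M L]
  [IsGalois M L]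

/-- the relative norm maps `U^S(L)` into `U^S(M)`. -/
theorem idUN_relIdeleNorm_mem_unitIdeleS (S : Set (HeightOneSpectrum (𝓞 K)))
    {x : ideleGroup K L} (hx : x ∈ unitIdeleS K L S) :
    relIdeleNorm K M L x ∈ unitIdeleS K M S := by
  rw [← relIdele_mem_unitIdeleS_iff (L := L), relIdele_relIdeleNorm]
  exact Subgroup.prod_mem _ fun h _ => idUN_smul_mem_unitIdeleS S _ hx

/-- **unit ideles are norms**: `U^S(M) ⊆ N_{L/M} U^S(L)` for a cyclic `L / M` unramified outside
`S`. -/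
theorem idUN_exists_relIdeleNorm_eq {σ : Gal(L/M)} (hσ : ∀ τ, τ ∈ Subgroup.zpowers σ)
    (S : Set (HeightOneSpectrum (𝓞 K)))
    (hS : ∀ w : HeightOneSpectrum (𝓞 L), primeBelow K L w ∉ S → ∀ x : K,
      w.valuation L (algebraMap K L x) = (primeBelow K L w).valuation K x)
    (u : ideleGroup K M) (hu : u ∈ unitIdeleS K M S) :
    ∃ c ∈ unitIdeleS K L S, relIdeleNorm K M L c = u := by
  classical
  rw [mem_unitIdeleS_iff] at hu
  have hex : ∀ v : HeightOneSpectrum (𝓞 K), v ∉ S → ∃ c ∈ semiLocalUnits K L v,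
      ∏ h : Gal(L/M), (relGalHom K M L h) • c =
        Units.map (relSemiLocalMap K M L v : semiLocal K M v →* semiLocal K L v) (u.1 v) := by
    intro v hv
    refine sIR_hN1_of_valuation hσ v (fun w hw x => ?_) (u.1 v) (hu.1 v hv)
    have := hS w (hw ▸ hv) x
    rwa [hw] at this
  choose! f hf1 hf2 using hex
  set c : ∀ v : HeightOneSpectrum (𝓞 K), (semiLocal K L v)ˣ :=
    fun v => if v ∈ S then 1 else f v with hc
  have hcS : ∀ v, v ∈ S → c v = 1 := fun v hv => by rw [hc]; exact if_pos hv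
  have hcN : ∀ v, v ∉ S → c v = f v := fun v hv => by rw [hc]; exact if_neg hv
  have hcu : ∀ v, c v ∈ semiLocalUnits K L v := by
    intro v
    by_cases hv : v ∈ S
    · rw [hcS v hv]; exact (semiLocalUnits K L v).one_mem
    · rw [hcN v hv]; exact hf1 v hv
  have hmem : c ∈ ideleGroup K L := by
    rw [mem_ideleGroup_iff]
    exact Filter.Eventually.of_forall hcu
  refine ⟨⟨c, hmem⟩, ?_, ?_⟩
  · rw [mem_unitIdeleS_iff]
    exact ⟨fun v _ => hcu v, fun v hv => hcS v hv⟩
  · apply sIR_relIdeleNorm_eq_of_forall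
    intro v
    show ∏ g : Gal(L/M), (relGalHom K M L g) • c v = _
    by_cases hv : v ∈ S
    · rw [hcS v hv, hu.2 v hv, map_one]
      simp
    · rw [hcN v hv]
      exact hf2 v hv

/-- `U^S(M) ≤ N_{L/M} J_L`. -/
theorem idUN_unitIdeleS_le_range {σ : Gal(L/M)} (hσ : ∀ τ, τ ∈ Subgroup.zpowers σ)
    (S : Set (HeightOneSpectrum (𝓞 K)))
    (hS : ∀ w : HeightOneSpectrum (𝓞 L), primeBelow K L w ∉ S → ∀ x : K,
      w.valuation L (algebraMap K L x) = (primeBelow K L w).valuation K x) :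
    unitIdeleS K M S ≤ (relIdeleNorm K M L).range := by
  intro u hu
  obtain ⟨c, -, hc⟩ := idUN_exists_relIdeleNorm_eq hσ S hS u hu
  exact ⟨c, hc⟩

/-- `Mˣ · U^S(M) · N J_L = Mˣ · N J_L`. -/
theorem idUN_sup_unitIdeleS_eq {σ : Gal(L/M)} (hσ : ∀ τ, τ ∈ Subgroup.zpowers σ)
    (S : Set (HeightOneSpectrum (𝓞 K)))
    (hS : ∀ w : HeightOneSpectrum (𝓞 L), primeBelow K L w ∉ S → ∀ x : K,
      w.valuation L (algebraMap K L x) = (primeBelow K L w).valuation K x) :
    principalIdeles K M ⊔ unitIdeleS K M S ⊔ (relIdeleNorm K M L).range =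
      principalIdeles K M ⊔ (relIdeleNorm K M L).range := by
  apply le_antisymm
  · refine sup_le (sup_le le_sup_left ?_) le_sup_right
    exact (idUN_unitIdeleS_le_range hσ S hS).trans le_sup_right
  · exact sup_le (le_sup_left.trans le_sup_left) le_sup_right

/-- **transfer of non-norms** from `C_M` to `C_M / U^S(M)`: for `[L : M] = p` prime,
`ξ ∉ Mˣ · N J_L` and `p ∤ m`, `ξ ^ m ∉ Mˣ · U^S(M) · N J_L`. -/
theorem idUN_pow_not_mem_of_not_mem {p : ℕ} (hp : p.Prime) (hcard : Nat.card Gal(L/M) = p)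
    (S : Set (HeightOneSpectrum (𝓞 K)))
    (hS : ∀ w : HeightOneSpectrum (𝓞 L), primeBelow K L w ∉ S → ∀ x : K,
      w.valuation L (algebraMap K L x) = (primeBelow K L w).valuation K x)
    {ξ : ideleGroup K M} (hξ : ξ ∉ principalIdeles K M ⊔ (relIdeleNorm K M L).range)
    {m : ℕ} (hm : ¬ p ∣ m) :
    ξ ^ m ∉ principalIdeles K M ⊔ unitIdeleS K M S ⊔ (relIdeleNorm K M L).range := by
  haveI : Fact p.Prime := ⟨hp⟩
  haveI : IsCyclic Gal(L/M) := isCyclic_of_prime_card hcard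
  obtain ⟨σ, hσ⟩ := IsCyclic.exists_generator (α := Gal(L/M))
  rw [idUN_sup_unitIdeleS_eq hσ S hS]
  intro hmem
  apply hξ
  have hpow : ξ ^ p ∈ principalIdeles K M ⊔ (relIdeleNorm K M L).range := by
    refine Subgroup.mem_sup_right ⟨relIdele K M L ξ, ?_⟩
    rw [relIdeleNorm_relIdele, hcard]
  have hcop : Nat.Coprime m p := ((Nat.Prime.coprime_iff_not_dvd hp).mpr hm).symm
  have h1 : ξ ^ (Nat.gcd m p : ℤ) ∈ principalIdeles K M ⊔ (relIdeleNorm K M L).range := by
    rw [Nat.gcd_eq_gcd_ab, zpow_add, zpow_mul, zpow_mul, zpow_natCast, zpow_natCast]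
    exact Subgroup.mul_mem _ (Subgroup.zpow_mem _ hmem _) (Subgroup.zpow_mem _ hpow _)
  rw [hcop, Nat.cast_one, zpow_one] at h1
  exact h1

/-- **(C-FI), idele form**: on a cyclic layer `L / M` of odd prime degree `p` with `ζ_p ∈ M`,
unramified outside `S`, some idele of `M` has no prime-to-`p` power in `Mˣ · U^S(M) · N J_L`. -/
theorem idUN_exists_pow_not_mem {p : ℕ} (hp : p.Prime) (hp2 : p ≠ 2)
    {ζ : M} (hζ : IsPrimitiveRoot ζ p) (hcard : Nat.card Gal(L/M) = p)
    (S : Set (HeightOneSpectrum (𝓞 K)))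
    (hS : ∀ w : HeightOneSpectrum (𝓞 L), primeBelow K L w ∉ S → ∀ x : K,
      w.valuation L (algebraMap K L x) = (primeBelow K L w).valuation K x) :
    ∃ ξ : ideleGroup K M, ξ ∉ principalIdeles K M ⊔ (relIdeleNorm K M L).range ∧ ∀ m : ℕ,
      ¬ p ∣ m → ξ ^ m ∉ principalIdeles K M ⊔ unitIdeleS K M S ⊔ (relIdeleNorm K M L).range := by
  haveI : Fact p.Prime := ⟨hp⟩
  haveI : IsCyclic Gal(L/M) := isCyclic_of_prime_card hcard
  obtain ⟨σ, hσ⟩ := IsCyclic.exists_generator (α := Gal(L/M))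
  have hidx := (idFRG_cyclic_layer (K := K) hp hp2 hζ hcard hσ).2.2
  rw [sIR_index_range_relClassNorm_eq] at hidx
  have hne : principalIdeles K M ⊔ (relIdeleNorm K M L).range ≠ ⊤ := by
    intro htop
    rw [htop, Subgroup.index_top] at hidx
    exact hp.one_lt.ne hidx
  obtain ⟨ξ, hξ⟩ : ∃ ξ : ideleGroup K M,
      ξ ∉ principalIdeles K M ⊔ (relIdeleNorm K M L).range := by
    by_contra hall
    push Not at hall
    exact hne (eq_top_iff.mpr fun x _ => hall x)
  exact ⟨ξ, hξ, fun m hm => idUN_pow_not_mem_of_not_mem hp hcard S hS hξ hm⟩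

end Fermat.Agent.CFT
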