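import Mathlib
import Fermat.Agent.CFT.Global.PrimeDivisor

set_option autoImplicit false
set_option linter.style.haveILetI false

/-!
# CFT, S55 global-idelic stream: finiteness of the ramified primes, valuation form

`L / K` number fields (no Galois hypothesis).  For all but finitely many primes `v` of `K`, every
prime `w` of `L` above `v` satisfies `w (x) = v (x)` for all `x ∈ K` (ramification index one):
this is the hypothesis `hv` of helper20's (GL7-rel).

* `unrFin_valuation_algebraMap_of_not_dvd` : `w ∤ 𝔇_{L/K}` implies `w (x) = v (x)` on `K`;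
* `unrFin_finite_setOf_not_forall`, `unrFin_exists_finset` : finiteness of the exceptional set.
-/

open NumberField IsDedekindDomain IsDedekindDomain.HeightOneSpectrum

namespace Fermat.Agent.CFT

variable (K L : Type*) [Field K] [NumberField K] [Field L] [NumberField L] [Algebra K L]

/-- a prime of `L` not dividing the different has ramification index one: valuation form. -/
theorem unrFin_valuation_algebraMap_of_not_dvd (w : HeightOneSpectrum (𝓞 L))
    (hw : ¬ w.asIdeal ∣ differentIdeal (𝓞 K) (𝓞 L)) (x : K) :
    w.valuation L (algebraMap K L x) = (primeBelow K L w).valuation K x := by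
  haveI : Algebra.IsUnramifiedAt (𝓞 K) w.asIdeal := not_dvd_differentIdeal_iff.mp hw
  have hlies : w.asIdeal.LiesOver (primeBelow K L w).asIdeal := ⟨rfl⟩
  have h1 := HeightOneSpectrum.valuation_liesOver L (primeBelow K L w) w x
  have hpS : (primeBelow K L w).asIdeal.map (algebraMap (𝓞 K) (𝓞 L)) ≠ ⊥ := by
    rw [Ne, Ideal.map_eq_bot_iff_of_injective (RingOfIntegers.algebraMap.injective K L)]
    exact (primeBelow K L w).ne_bot
  have h2 : (primeBelow K L w).asIdeal.ramificationIdx' w.asIdeal = 1 := by
    rw [Ideal.ramificationIdx'_eq_ramificationIdx' _ _ hpS]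
    exact Ideal.ramificationIdx_eq_one w.asIdeal (𝓞 K)
  rw [← h1, h2, pow_one]

/-- **finiteness of the ramified primes**, valuation form. -/
theorem unrFin_finite_setOf_not_forall :
    {v : HeightOneSpectrum (𝓞 K) | ¬ ∀ w : HeightOneSpectrum (𝓞 L), primeBelow K L w = v →
      ∀ x : K, w.valuation L (algebraMap K L x) = v.valuation K x}.Finite := by
  have hne : differentIdeal (𝓞 K) (𝓞 L) ≠ ⊥ := differentIdeal_ne_bot
  have hfin := Ideal.finite_factors hne
  refine (hfin.image (primeBelow K L)).subset ?_
  intro v hv
  rw [Set.mem_ofPred_eq] at hv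
  push Not at hv
  obtain ⟨w, hwv, x, hx⟩ := hv
  refine ⟨w, ?_, hwv⟩
  rw [Set.mem_ofPred_eq]
  by_contra hnd
  apply hx
  rw [unrFin_valuation_algebraMap_of_not_dvd K L w hnd x, hwv]

/-- the same, with an explicit finite exceptional set. -/
theorem unrFin_exists_finset :
    ∃ B : Finset (HeightOneSpectrum (𝓞 K)), ∀ v : HeightOneSpectrum (𝓞 K), v ∉ B →
      ∀ w : HeightOneSpectrum (𝓞 L), primeBelow K L w = v →
        ∀ x : K, w.valuation L (algebraMap K L x) = v.valuation K x := by
  refine ⟨(unrFin_finite_setOf_not_forall K L).toFinset, fun v hv => ?_⟩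
  rw [Set.Finite.mem_toFinset, Set.mem_ofPred_eq, not_not] at hv
  exact hv

end Fermat.Agent.CFT
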