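import Mathlib
import Fermat.Agent.CFT.Idele.UnramUnitsRel
import Fermat.Agent.CFT.Idele.SecondIneqRelMain
import Fermat.Agent.CFT.Idele.FirstIneqRel

set_option autoImplicit false
set_option linter.unusedSectionVars false
set_option linter.style.haveILetI false

/-!
# S55 global-idelic stream: glue of (GL7-rel) into the relative inequalities (helper20)

`K ≤ M ≤ L` number fields, `K` the tensor base, `L / M` cyclic Galois.

* `unrNR_exists_norm`, `unrNR_hN1` : the input (N1) of helper9's relative second inequality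
  (`Idele/SecondIneqRelMain.lean`): off a finite set of primes `v` of `K`, every integral unit of
  `K_v ⊗ M` is the norm of an integral unit of `K_v ⊗ L`;
* `unrNR_index_principalIdeles_sup_relIdeleNorm_le`, `unrNR_index_range_relClassNorm_le` :
  the relative idelic second inequality `[C_M : N_{L/M} C_L] ≤ p` with NO remaining hypothesis
  (`L / M` of odd prime degree `p`, `ζ_p ∈ M`; no Galois hypothesis over `K`);
* `unrNR_tateCard_ideleClass` : the cyclic layer, first + second inequality, all inputs discharged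
  ((GL6) helper4, (GL7-rel), (GL8-rel) helper11, (GL10-rel) helper23, (GL11-rel) helper9):
  `|Ĥ⁰(Gal(L/M), C_L)| = p`, `|Ĥ¹(Gal(L/M), C_L)| = 1`, `[C_M : N_{L/M} C_L] = p`
  (`L / K` Galois, as in `Idele/FirstIneqRel.lean`).
-/

open NumberField IsDedekindDomain IsDedekindDomain.HeightOneSpectrum
open scoped TensorProduct Fermat.Agent.CFT.TensorGal Fermat.Agent.CFT.IdeleAct

namespace Fermat.Agent.CFT

section

variable (K M L : Type) [Field K] [NumberField K] [Field M] [NumberField M]
  [Field L] [NumberField L] [Algebra K M] [Algebra M L] [Algebra K L] [IsScalarTower K M L]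
  [IsGalois M L]

/-- (N1) at a single prime `v` of `K` unramified in `L`. -/
theorem unrNR_exists_norm [IsCyclic Gal(L/M)] (v : HeightOneSpectrum (𝓞 K))
    (hv : ∀ w : HeightOneSpectrum (𝓞 L), primeBelow K L w = v →
      ∀ x : K, w.valuation L (algebraMap K L x) = v.valuation K x)
    (u : (semiLocal K M v)ˣ) (hu : u ∈ semiLocalUnits K M v) :
    ∃ c ∈ semiLocalUnits K L v, ∏ h : Gal(L/M), (relGalHom K M L h) • c =
      Units.map (relSemiLocalMap K M L v : semiLocal K M v →* semiLocal K L v) u := by
  obtain ⟨σ, hσ⟩ := (inferInstance : IsCyclic Gal(L/M)).exists_generator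
  have hU : Units.map (relSemiLocalMap K M L v : semiLocal K M v →* semiLocal K L v) u ∈
      semiLocalUnits K L v := (relMap_mem_semiLocalUnits_iff u).mpr hu
  have hfix : ∀ h : Gal(L/M),
      h • Units.map (relSemiLocalMap K M L v : semiLocal K M v →* semiLocal K L v) u =
        Units.map (relSemiLocalMap K M L v : semiLocal K M v →* semiLocal K L v) u := by
    intro h
    apply Units.ext
    show h • relSemiLocalMap K M L v (u : semiLocal K M v) = relSemiLocalMap K M L v u
    rw [← relGalHom_smul_semiLocal]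
    exact smul_relSemiLocalMap (relGalHom_mem_relFixing K M L h) _
  obtain ⟨c, hc, hprod⟩ := unrUR_exists_norm K L Gal(L/M) v hσ hv _ hU hfix
  refine ⟨c, hc, ?_⟩
  rw [← hprod]
  refine Finset.prod_congr rfl fun h _ => ?_
  apply Units.ext
  exact relGalHom_smul_semiLocal h (c : semiLocal K L v)

/-- **(N1)**: outside a finite set of primes of `K`, every local unit of `M` is the norm of a local
unit of `L` (`L / M` cyclic). -/
theorem unrNR_hN1 [IsCyclic Gal(L/M)] :
    ∃ Bram : Finset (HeightOneSpectrum (𝓞 K)), ∀ v : HeightOneSpectrum (𝓞 K), v ∉ Bram →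
      ∀ u ∈ semiLocalUnits K M v, ∃ c ∈ semiLocalUnits K L v,
        ∏ h : Gal(L/M), (relGalHom K M L h) • c =
          Units.map (relSemiLocalMap K M L v : semiLocal K M v →* semiLocal K L v) u := by
  obtain ⟨S, hS⟩ := unrUR_exists_finset_forall_valuation_eq K L
  refine ⟨S, fun v hv u hu => unrNR_exists_norm K M L v (fun w hw x => ?_) u hu⟩
  have := hS w (hw ▸ hv) x
  rwa [hw] at this

variable {K M L}

/-- **The relative idelic second inequality**, unconditional: `[J_M : Mˣ · N_{L/M} J_L] ≤ p` for
`L / M` Galois of odd prime degree `p` with `ζ_p ∈ M` (`K` = tensor base, no Galois hypothesis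
over `K`). -/
theorem unrNR_index_principalIdeles_sup_relIdeleNorm_le {p : ℕ} (hp : p.Prime) (hp2 : p ≠ 2)
    {ζ : M} (hζ : IsPrimitiveRoot ζ p) (hcard : Nat.card Gal(L/M) = p) :
    (principalIdeles K M ⊔ (relIdeleNorm K M L).range).index ≠ 0 ∧
      (principalIdeles K M ⊔ (relIdeleNorm K M L).range).index ≤ p := by
  haveI : Fact p.Prime := ⟨hp⟩
  haveI : IsCyclic Gal(L/M) := isCyclic_of_prime_card hcard
  obtain ⟨Bram, hN1⟩ := unrNR_hN1 K M L
  exact index_principalIdeles_sup_relIdeleNorm_le hp hp2 hζ hcard Bram hN1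

/-- `[C_M : N_{L/M} C_L] ≤ p`, unconditional. -/
theorem unrNR_index_range_relClassNorm_le {p : ℕ} (hp : p.Prime) (hp2 : p ≠ 2)
    {ζ : M} (hζ : IsPrimitiveRoot ζ p) (hcard : Nat.card Gal(L/M) = p) :
    (relClassNorm K M L).range.index ≠ 0 ∧ (relClassNorm K M L).range.index ≤ p := by
  rw [sIR_index_range_relClassNorm_eq]
  exact unrNR_index_principalIdeles_sup_relIdeleNorm_le hp hp2 hζ hcard

end

section Layer

open MulAction

attribute [local instance] additiveDistribMulAction Units.mulDistribMulActionRight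
  heightOneSpectrumMulAction ideleGroupActionOf ideleClassActionOf maxSpecMulAction

variable {K M L : Type} [Field K] [NumberField K] [Field M] [NumberField M]
  [Field L] [NumberField L] [Algebra K M] [Algebra M L] [Algebra K L] [IsScalarTower K M L]
  [IsGalois K L] [IsGalois M L] [Fintype Gal(L/M)]

/-- **The cyclic layer of class field theory in the `K`-model** (first + second inequality, all
inputs discharged): `L / M` cyclic of odd prime degree `p`, `ζ_p ∈ M`, `σ` a generator.  Then
`|Ĥ⁰(Gal(L/M), C_L)| = p`, `|Ĥ¹(Gal(L/M), C_L)| = 1` and `[C_M : N_{L/M} C_L] = p`. -/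
theorem unrNR_tateCard_ideleClass {p : ℕ} (hp : p.Prime) (hp2 : p ≠ 2)
    {ζ : M} (hζ : IsPrimitiveRoot ζ p) (hcard : Nat.card Gal(L/M) = p) {σ : Gal(L/M)}
    (hσ : ∀ τ, τ ∈ Subgroup.zpowers σ) :
    tateH0Card Gal(L/M) (Additive (ideleClass K L)) σ = p ∧
      tateH1Card Gal(L/M) (Additive (ideleClass K L)) σ = 1 ∧
      (relClassNorm K M L).range.index = p := by
  classical
  obtain ⟨S0, hS0⟩ := exists_finset_forall_principalIdeles_sup_ideleGroupS_eq_top_gen K L
  obtain ⟨S1, hS1⟩ := unrUR_exists_finset_forall_valuation_eq K L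
  have hgen : principalIdeles K L ⊔
      ideleGroupS K L ((S0 ∪ S1 : Finset (HeightOneSpectrum (𝓞 K))) :
        Set (HeightOneSpectrum (𝓞 K))) = ⊤ :=
    hS0 _ (by
      intro v hv
      exact Finset.mem_coe.mpr (Finset.mem_union_left _ (Finset.mem_coe.mp hv)))
  have hunr := unrUR_hunr K L Gal(L/M) (S0 ∪ S1) hσ (fun w hw x =>
    hS1 w (fun h => hw (Finset.mem_union_right _ h)) x)
  have hodd : Odd (Module.finrank M L) := by
    rw [← IsGalois.card_aut_eq_finrank M L, hcard]
    exact hp.odd_of_ne_two hp2
  have h2 := (unrNR_index_principalIdeles_sup_relIdeleNorm_le (K := K) hp hp2 hζ hcard).2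
  rw [← hcard] at h2
  have := idFR_tateCard_of_second_inequality_of_odd hodd (S0 ∪ S1) hσ hgen hunr h2
  rwa [hcard] at this

end Layer

end Fermat.Agent.CFT
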